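import Mathlib
import Fermat.Agent.W3G.Defs

/-!
# Item 82 (S34): unipotent inertia at `q ‖ N` — interface of the assembly (helper7)

`H7S34.GUStatement N` is the geometric input ("(GU)": `(τ - 1)² = 0` on `J₀(N)[p^m]` for `τ` in an
inertia group at a prime `q ≠ p` with `q ‖ N`).  The assembly
`H7S34.h7s34_main` (`Fermat/Agent/S34/Main_helper7.lean`) derives S34 from it by the trace machine
of S31: `tr ρ(τ) = 2` (comparison through `Lpar N / p^m`), `det ρ(τ) = 1` (cyclotomic character),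
hence `charpoly ρ(τ) = (X - 1)²`.
-/

set_option autoImplicit false

noncomputable section

namespace H7S34

open H11W3G ModularCurve

/-- **(GU)**: for a prime `q` with `q ‖ N`, a prime `p ≠ q` and `τ` in an inertia group at `q`:
`(τ - 1)² = 0` on `J₀(N)[p^m]`, written without subtraction: `τ² x + x = τ x + τ x`. -/
def GUStatement (N : ℕ) [NeZero N] : Prop :=
  ∀ (p m q : ℕ), p.Prime → q.Prime → q ≠ p → q ∣ N → ¬ q ^ 2 ∣ N →
    ∀ A : ValuationSubring (AlgebraicClosure ℚ), A.LiesOverPrime q →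
      ∀ τ ∈ A.inertiaSubgroupIn ℚ, ∀ x : JZero N, (p ^ m) • x = 0 →
        τ • τ • x + x = τ • x + τ • x

/-- the version for all `n` prime to `q` (implies `GUStatement N`). -/
def GUAllStatement (N : ℕ) [NeZero N] : Prop :=
  ∀ (n q : ℕ), q.Prime → q ∣ N → ¬ q ^ 2 ∣ N → ¬ q ∣ n →
    ∀ A : ValuationSubring (AlgebraicClosure ℚ), A.LiesOverPrime q →
      ∀ τ ∈ A.inertiaSubgroupIn ℚ, ∀ x : JZero N, n • x = 0 →
        τ • τ • x + x = τ • x + τ • x

theorem h7s34_gu_of_all (N : ℕ) [NeZero N] (h : GUAllStatement N) : GUStatement N := by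
  intro p m q hp hq hqp hqN hq2 A hA τ hτ x hx
  refine h (p ^ m) q hq hqN hq2 (fun hd => hqp ?_) A hA τ hτ x hx
  exact (Nat.prime_dvd_prime_iff_eq hq hp).mp (hq.dvd_of_dvd_pow hd)

end H7S34

end
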