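/-
helper29: item 82 (S34), bookkeeping (B1): geometric unipotency `(GU)` on `J₀(N)[n]`
(`H7S34.GUAllStatement N`) from its function-field form `GUFieldStatement N`:
for `τ` in an inertia group at `q ‖ N`, `q ∤ n`, and `f ∈ F_N^×` whose divisor is divisible
by `n`, the function `(τ - 1)² f = τ(τ f) · f / (τ f)²` is an `n`-th power in `F_N`.
-/
import Mathlib
import Fermat.Agent.S34.Defs_helper7

set_option autoImplicit false
set_option linter.unusedSectionVars false
set_option maxHeartbeats 1000000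

noncomputable section

namespace H29GU

open H11W3G ModularCurve AlgebraicCurve

/-- **(GU-F)**: the function-field form of geometric unipotency. -/
def GUFieldStatement (N : ℕ) [NeZero N] : Prop :=
  ∀ (n q : ℕ), q.Prime → q ∣ N → ¬ q ^ 2 ∣ N → 0 < n → ¬ q ∣ n →
    ∀ A : ValuationSubring (AlgebraicClosure ℚ), A.LiesOverPrime q →
      ∀ τ ∈ A.inertiaSubgroupIn ℚ, ∀ f : modularFunctionFieldBar N, f ≠ 0 →
        (∀ P : Place (AlgebraicClosure ℚ) (modularFunctionFieldBar N), (n : ℤ) ∣ P.ord f) →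
        ∃ ψ : modularFunctionFieldBar N,
          (arithmeticGalois (modularFunctionFieldFull N) τ •
            arithmeticGalois (modularFunctionFieldFull N) τ • f) * f =
          ψ ^ n * (arithmeticGalois (modularFunctionFieldFull N) τ • f) ^ 2

section

variable {K F : Type*} [Field K] [Field F] [Algebra K F]

/-- orders of the transforms of a function -/
theorem ord_smul' (g : SemilinearAut K F) (P : Place K F) (f : F) :
    P.ord (g • f) = (g⁻¹ • P).ord f := by
  have h := SemilinearAut.ord_smul g (g⁻¹ • P) f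
  rw [smul_inv_smul] at h
  exact h

theorem smul_ne_zero' (g : SemilinearAut K F) {f : F} (hf : f ≠ 0) : g • f ≠ 0 := by
  intro h
  apply hf
  have h1 : SemilinearAut.toRingAut g f = 0 := h
  exact (map_eq_zero_iff _ (SemilinearAut.toRingAut g).injective).mp h1

/-- the abstract form of (B1): if `n D = div f` and `g(g f) · f = ψ^n (g f)²` then
`g g D + D - (g D + g D)` is principal. -/
theorem principal_of_pow (g : SemilinearAut K F) (n : ℕ) (hn : 0 < n)
    (D : Divisor K F) (f : F) (hf0 : f ≠ 0) (hfD : ∀ P : Place K F, P.ord f = n * D P)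
    (ψ : F) (hψ : (g • g • f) * f = ψ ^ n * (g • f) ^ 2) :
    g • g • D + D - (g • D + g • D) ∈ Divisor.principal (K := K) (F := F) := by
  have hgf : g • f ≠ 0 := smul_ne_zero' g hf0
  have hggf : g • g • f ≠ 0 := smul_ne_zero' g hgf
  have hψ0 : ψ ≠ 0 := by
    rintro rfl
    rw [zero_pow hn.ne', zero_mul] at hψ
    exact mul_ne_zero hggf hf0 hψ
  refine ⟨ψ, hψ0, fun P => ?_⟩
  have h1 := congrArg P.ord hψ
  rw [P.ord_mul hggf hf0, P.ord_mul (pow_ne_zero n hψ0) (pow_ne_zero 2 hgf)] at h1
  have h2 : P.ord (ψ ^ n) = n * P.ord ψ := by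
    have := P.ord_zpow ψ (n : ℤ)
    rwa [zpow_natCast] at this
  have h3 : P.ord ((g • f) ^ 2) = 2 * P.ord (g • f) := by
    have := P.ord_zpow (g • f) (2 : ℤ)
    rw [show (2 : ℤ) = ((2 : ℕ) : ℤ) from rfl, zpow_natCast] at this
    exact_mod_cast this
  rw [h2, h3, ord_smul', ord_smul', ord_smul', hfD, hfD, hfD] at h1
  have hn' : (n : ℤ) ≠ 0 := by exact_mod_cast hn.ne'
  simp only [Finsupp.sub_apply, Finsupp.add_apply, SemilinearAut.divisor_smul_apply]
  apply mul_left_cancel₀ hn'
  linarith

end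

/-- a class `Pic0.mk E` with `E` principal is zero. -/
theorem mk_eq_zero' {N : ℕ}
    (E : Divisor.degZero (K := AlgebraicClosure ℚ) (F := modularFunctionFieldBar N))
    (hE : (E : Divisor (AlgebraicClosure ℚ) (modularFunctionFieldBar N)) ∈
      Divisor.principal (K := AlgebraicClosure ℚ) (F := modularFunctionFieldBar N)) :
    (Pic0.mk E : JZero N) = 0 :=
  (QuotientAddGroup.eq_zero_iff E).mpr hE

/-- **(B1)**: `(GU)` on `J₀(N)[n]` from its function-field form. -/
theorem guAll_of_field (N : ℕ) [NeZero N] (h : GUFieldStatement N) : H7S34.GUAllStatement N := by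
  intro n q hq hqN hq2 hqn A hA τ hτ x hx
  have hn : 0 < n := Nat.pos_of_ne_zero (fun h0 => hqn (h0 ▸ dvd_zero q))
  obtain ⟨D, rfl⟩ := Pic0.mk_surjective x
  have h1 : (Pic0.mk (n • D) : JZero N) = 0 := hx
  have h2 : ((n • D : Divisor.degZero (K := AlgebraicClosure ℚ) (F := modularFunctionFieldBar N)) :
      Divisor (AlgebraicClosure ℚ) (modularFunctionFieldBar N)) ∈
      Divisor.principal (K := AlgebraicClosure ℚ) (F := modularFunctionFieldBar N) :=
    (QuotientAddGroup.eq_zero_iff (n • D)).mp h1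
  obtain ⟨f, hf0, hf⟩ := h2
  have hfD : ∀ P : Place (AlgebraicClosure ℚ) (modularFunctionFieldBar N),
      P.ord f = n * (D : Divisor (AlgebraicClosure ℚ) (modularFunctionFieldBar N)) P := by
    intro P
    rw [← hf P, AddSubgroup.coe_nsmul, Finsupp.smul_apply, nsmul_eq_mul]
  obtain ⟨ψ, hψ⟩ := h n q hq hqN hq2 hn hqn A hA τ hτ f hf0 (fun P => ⟨_, hfD P⟩)
  have hprin := principal_of_pow (arithmeticGalois (modularFunctionFieldFull N) τ) n hn
    (D : Divisor (AlgebraicClosure ℚ) (modularFunctionFieldBar N)) f hf0 hfD ψ hψ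
  obtain ⟨D1, hD1⟩ : ∃ D1 : Divisor.degZero (K := AlgebraicClosure ℚ)
      (F := modularFunctionFieldBar N),
      D1 = SemilinearAut.degZeroSMulHom (arithmeticGalois (modularFunctionFieldFull N) τ) D :=
    ⟨_, rfl⟩
  obtain ⟨D2, hD2⟩ : ∃ D2 : Divisor.degZero (K := AlgebraicClosure ℚ)
      (F := modularFunctionFieldBar N),
      D2 = SemilinearAut.degZeroSMulHom (arithmeticGalois (modularFunctionFieldFull N) τ) D1 :=
    ⟨_, rfl⟩
  have e1 : τ • (Pic0.mk D : JZero N) = Pic0.mk D1 := by
    rw [galois_smul_pic0_def, SemilinearAut.pic0_smul_mk, hD1]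
  have e2 : τ • (Pic0.mk D1 : JZero N) = Pic0.mk D2 := by
    rw [galois_smul_pic0_def, SemilinearAut.pic0_smul_mk, hD2]
  rw [e1, e2, ← Pic0.mk_add, ← Pic0.mk_add, ← sub_eq_zero]
  have e3 : (Pic0.mk (D2 + D) : JZero N) - Pic0.mk (D1 + D1) = Pic0.mk ((D2 + D) - (D1 + D1)) :=
    (QuotientAddGroup.mk_sub _ _ _).symm
  rw [e3]
  refine mk_eq_zero' _ ?_
  have e4 : (((D2 + D) - (D1 + D1) : Divisor.degZero (K := AlgebraicClosure ℚ)
      (F := modularFunctionFieldBar N)) : Divisor (AlgebraicClosure ℚ) (modularFunctionFieldBar N)) =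
      arithmeticGalois (modularFunctionFieldFull N) τ •
        arithmeticGalois (modularFunctionFieldFull N) τ •
          (D : Divisor (AlgebraicClosure ℚ) (modularFunctionFieldBar N)) +
        (D : Divisor (AlgebraicClosure ℚ) (modularFunctionFieldBar N)) -
      (arithmeticGalois (modularFunctionFieldFull N) τ •
          (D : Divisor (AlgebraicClosure ℚ) (modularFunctionFieldBar N)) +
        arithmeticGalois (modularFunctionFieldFull N) τ •
          (D : Divisor (AlgebraicClosure ℚ) (modularFunctionFieldBar N))) := by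
    rw [hD2, hD1]
    rfl
  rw [e4]
  exact hprin

end H29GU

end
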