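import Mathlib
import Fermat.Agent.S18.DefsD
import Fermat.Agent.S34.GUBook_helper29

/-!
# Item 82 (S34), architect file (helper4): exact interface of the K₁-level slices

Route: helper4's local route + helper1's SHORTCUT (`CL` once on `v = (τ-1)² f`) + helper18's
base-function / level-change design.  Table of slices: `NOTES/W4A-S34-helper4.md`.

## Generic setting (S18 language, `H7S18`)
`R` a DVR with uniformizer `ϖ`, `K = Frac R` of characteristic 0, `F / K(t)` finite.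
* `Chart R t`      : `M₀`, the integral closure of `R[t]` in `F` (a subalgebra of `F`);
* `IsClosedPt`     : a maximal ideal `𝔫 ∋ ϖ` of `M₀` ("closed point of the special fibre");
* `InLoc 𝔫 x`      : `x ∈ B_𝔫 := (M₀)_𝔫`;
* `VertUnitAt 𝔫 x` : `x ∈ B_𝔫[1/ϖ]ˣ` ("the divisor of `x` at `𝔫` is vertical");
* `L1At 𝔫 n f`     : `f ∈ B_𝔫[1/ϖ]ˣ · Fˣⁿ`  (helper1's (L1));
* `RegAt 𝔫`        : `B_𝔫` is regular with `(ϖ)` prime: `𝔫 B_𝔫 = (ϖ, x)`;
* `NodeAt 𝔫`       : `B_𝔫` is a transversal node `ϖ B = P₁ ∩ P₂`, `P₁ + P₂ = 𝔫`, `B/P_i` DVRs,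
                     with a vertical pair `g g' = ϖ^j`, `g ∉ P₁`, `g' ∉ P₂`.
-/

set_option autoImplicit false
set_option synthInstance.maxHeartbeats 400000

noncomputable section

open Polynomial IntermediateField AlgebraicCurve ModularCurve H7S18

namespace H4S34

section Generic

variable (R : Type) [CommRing R] {E : Type} [Field E] [Algebra R E]

/-- The chart ring `M₀`: the integral closure of `R[t]` in `E`. -/
abbrev Chart (t : E) : Subalgebra (Algebra.adjoin R {t}) E :=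
  integralClosure (Algebra.adjoin R {t}) E

/-- A closed point of the special fibre of the chart `t`: a maximal ideal of `M₀` containing
`ϖ`. -/
def IsClosedPt (ϖ : R) (t : E) (𝔫 : Ideal (Chart R t)) : Prop :=
  𝔫.IsMaximal ∧ ∀ y : Chart R t, (y : E) = algebraMap R E ϖ → y ∈ 𝔫

/-- `x ∈ B_𝔫`, the local ring of `M₀` at `𝔫`. -/
def InLoc (t : E) (𝔫 : Ideal (Chart R t)) (x : E) : Prop :=
  ∃ a s : Chart R t, s ∉ 𝔫 ∧ (s : E) * x = (a : E)

/-- `x ∈ B_𝔫[1/ϖ]ˣ`: the divisor of `x` on `Spec B_𝔫` is vertical. -/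
def VertUnitAt (ϖ : R) (t : E) (𝔫 : Ideal (Chart R t)) (x : E) : Prop :=
  ∃ m : ℕ, InLoc R t 𝔫 (algebraMap R E ϖ ^ m * x) ∧ InLoc R t 𝔫 (algebraMap R E ϖ ^ m * x⁻¹)

/-- helper1's **(L1)** at `𝔫`: `f = (unit of B_𝔫[1/ϖ]) · zⁿ`. -/
def L1At (ϖ : R) (t : E) (𝔫 : Ideal (Chart R t)) (n : ℕ) (f : E) : Prop :=
  ∃ z : E, z ≠ 0 ∧ VertUnitAt R ϖ t 𝔫 (f * (z ^ n)⁻¹)

/-- **regular point**: in `B_𝔫` the ideal `(ϖ)` is prime and `𝔫 B_𝔫 = (ϖ, x)`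
(the hypotheses of `H5CA.h5ca_reg_*`, in element form). -/
def RegAt (ϖ : R) (t : E) (𝔫 : Ideal (Chart R t)) : Prop :=
  (∃ x ∈ 𝔫, ∀ y ∈ 𝔫, ∃ s a b : Chart R t, s ∉ 𝔫 ∧
      (s : E) * y = a * algebraMap R E ϖ + b * x) ∧
  (∀ a b : Chart R t, InLoc R t 𝔫 ((a : E) * b * (algebraMap R E ϖ)⁻¹) →
      InLoc R t 𝔫 ((a : E) * (algebraMap R E ϖ)⁻¹) ∨
        InLoc R t 𝔫 ((b : E) * (algebraMap R E ϖ)⁻¹))

/-- **transversal node with a vertical pair** (the hypotheses of `H9LNC.IsNode` and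
`H9LNC.IsNode.structure` for `B_𝔫`, in element form): primes `P₁, P₂ ⊆ 𝔫` of `M₀` with
`ϖ B_𝔫 = P₁ B_𝔫 ∩ P₂ B_𝔫`, `P₁ + P₂ = 𝔫` locally, `B_𝔫 / P_i` with principal maximal ideal
generated by `x_i ∉ P_i`, and `g g' = ϖ^j` with `g = a/s ∉ P₁`, `g' = a'/s' ∉ P₂`. -/
def NodeAt (ϖ : R) (t : E) (𝔫 : Ideal (Chart R t)) : Prop :=
  ∃ P₁ P₂ : Ideal (Chart R t), P₁.IsPrime ∧ P₂.IsPrime ∧ P₁ ≤ 𝔫 ∧ P₂ ≤ 𝔫 ∧
    (∀ y : Chart R t, (y : E) = algebraMap R E ϖ → y ∈ P₁ ∧ y ∈ P₂) ∧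
    (∀ y : Chart R t, y ∈ P₁ → y ∈ P₂ → InLoc R t 𝔫 ((y : E) * (algebraMap R E ϖ)⁻¹)) ∧
    (∀ y ∈ 𝔫, ∃ s : Chart R t, s ∉ 𝔫 ∧ s * y ∈ P₁ ⊔ P₂) ∧
    (∃ x ∈ 𝔫, x ∉ P₁ ∧ ∀ y ∈ 𝔫, ∃ s c : Chart R t, s ∉ 𝔫 ∧ s * y - c * x ∈ P₁) ∧
    (∃ x ∈ 𝔫, x ∉ P₂ ∧ ∀ y ∈ 𝔫, ∃ s c : Chart R t, s ∉ 𝔫 ∧ s * y - c * x ∈ P₂) ∧
    (∃ (a a' s s' : Chart R t) (j : ℕ), 1 ≤ j ∧ s ∉ 𝔫 ∧ s' ∉ 𝔫 ∧ a ∉ P₁ ∧ a' ∉ P₂ ∧
      (a : E) * a' = algebraMap R E ϖ ^ j * (s * s'))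

end Generic

/-! ## Generic slices -/

/-- **(GEN)** (helper1 + helper19): the generic theorem.  `τ` an automorphism of `F` fixing `t`,
preserving `R`, trivial on `O / ϖ O`, preserving the Gauss valuations (`τ g / g ∈ O`); `f` satisfies
(L1) at every closed point of both charts.  Then `(τ - 1)² f ∈ Kˣ · Fˣⁿ`.
(= `H1GU.TauLocalStatement` + `H19KD.KDStatement`, see `S34/Asm_helper4.lean`.) -/
def GenStatement : Prop :=
  ∀ (R : Type) [CommRing R] [IsDomain R] [IsDiscreteValuationRing R]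
    (K : Type) [Field K] [CharZero K] [Algebra R K] [IsFractionRing R K]
    (F : Type) [Field F] [Algebra K F] [Algebra R F] [IsScalarTower R K F]
    (ϖ : R) (_ : Irreducible ϖ) (t : F) (_ : Transcendental K t)
    (_ : FiniteDimensional K⟮t⟯ F)
    (_ : ∀ x : F, IsAlgebraic K x → x ∈ (algebraMap K F).range)
    (n : ℕ) (_ : 0 < n) (_ : IsUnit (n : R)) (_ : ∃ ζ : R, IsPrimitiveRoot ζ n)
    (τ : F ≃+* F) (_ : τ t = t)
    (_ : ∀ r : R, ∃ r' : R, τ (algebraMap R F r) = algebraMap R F r')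
    (_ : ∀ r : R, ∃ r' : R, τ.symm (algebraMap R F r) = algebraMap R F r')
    (_ : ∀ x : F, GInt R ϖ t x → ModPi R ϖ t (τ x) x)
    (_ : ∀ g : F, g ≠ 0 → GInt R ϖ t (τ g / g))
    (f : F) (_ : f ≠ 0)
    (_ : ∀ 𝔫 : Ideal (Chart R t), IsClosedPt R ϖ t 𝔫 → L1At R ϖ t 𝔫 n f)
    (_ : ∀ 𝔫 : Ideal (Chart R t⁻¹), IsClosedPt R ϖ t⁻¹ 𝔫 → L1At R ϖ t⁻¹ 𝔫 n f),
    ∃ (c : K) (g : F), c ≠ 0 ∧ τ (τ f) * f = algebraMap K F c * g ^ n * (τ f) ^ 2

/-- **(LOC), regular half**: at a regular point, `n ∣ div f` gives (L1). -/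
def LocRegStatement : Prop :=
  ∀ (R : Type) [CommRing R] [IsDomain R] [IsDiscreteValuationRing R]
    (K : Type) [Field K] [CharZero K] [Algebra R K] [IsFractionRing R K]
    (F : Type) [Field F] [Algebra K F] [Algebra R F] [IsScalarTower R K F]
    (ϖ : R) (_ : Irreducible ϖ) (t : F) (_ : Transcendental K t)
    (_ : FiniteDimensional K⟮t⟯ F)
    (n : ℕ) (_ : 0 < n) (f : F) (_ : f ≠ 0)
    (_ : ∀ V : Place K F, (n : ℤ) ∣ V.ord f)
    (𝔫 : Ideal (Chart R t)) (_ : IsClosedPt R ϖ t 𝔫) (_ : RegAt R ϖ t 𝔫),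
    L1At R ϖ t 𝔫 n f

/-- **(LOC), node half** (LNC (a)+(b)): at a transversal node with a vertical pair, `n ∣ div f`
and `K`-rationality of the places in the support of `div f` give (L1).
(Rationality of `V`: every `x ∈ O_V` is a constant or `≡` a constant mod `𝔪_V`; recall
`Place.ord 0 = 0`.) -/
def LocNodeStatement : Prop :=
  ∀ (R : Type) [CommRing R] [IsDomain R] [IsDiscreteValuationRing R]
    (K : Type) [Field K] [CharZero K] [Algebra R K] [IsFractionRing R K]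
    (F : Type) [Field F] [Algebra K F] [Algebra R F] [IsScalarTower R K F]
    (ϖ : R) (_ : Irreducible ϖ) (t : F) (_ : Transcendental K t)
    (_ : FiniteDimensional K⟮t⟯ F)
    (n : ℕ) (_ : 0 < n) (f : F) (_ : f ≠ 0)
    (_ : ∀ V : Place K F, (n : ℤ) ∣ V.ord f)
    (_ : ∀ V : Place K F, V.ord f ≠ 0 → ∀ x : F, 0 ≤ V.ord x →
      ∃ c : K, x = algebraMap K F c ∨ 0 < V.ord (x - algebraMap K F c))
    (𝔫 : Ideal (Chart R t)) (_ : IsClosedPt R ϖ t 𝔫) (_ : NodeAt R ϖ t 𝔫),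
    L1At R ϖ t 𝔫 n f

/-- **(CHART)**: a closed point of the chart `t⁻¹` at which `t⁻¹` is a unit is a closed point of
the chart `t`, with the same local ring. -/
def ChartChangeStatement : Prop :=
  ∀ (R : Type) [CommRing R] [IsDomain R] [IsDiscreteValuationRing R]
    (K : Type) [Field K] [CharZero K] [Algebra R K] [IsFractionRing R K]
    (F : Type) [Field F] [Algebra K F] [Algebra R F] [IsScalarTower R K F]
    (ϖ : R) (_ : Irreducible ϖ) (t : F) (_ : Transcendental K t)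
    (_ : FiniteDimensional K⟮t⟯ F)
    (𝔫 : Ideal (Chart R t⁻¹)) (_ : IsClosedPt R ϖ t⁻¹ 𝔫)
    (_ : ∃ y : Chart R t⁻¹, (y : F) = t⁻¹ ∧ y ∉ 𝔫),
    ∃ 𝔫₀ : Ideal (Chart R t), IsClosedPt R ϖ t 𝔫₀ ∧ ∀ x : F, InLoc R t 𝔫₀ x ↔ InLoc R t⁻¹ 𝔫 x

/-! ## Concrete slices (level `N`, `q ‖ N`, `TameLevel q (N / q)`, number field `K₁ ⊆ ℚ̄`) -/

/-- **(DICH)** = (I1) + (I2) + (I3) + (I4): for `K₁` large, every closed point of the chart `t`
is a regular point or a transversal node with a vertical pair; the closed points of the chart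
`t⁻¹` over `t = ∞` are regular. -/
def DichStatement : Prop :=
  ∀ (N : ℕ) [NeZero N] (q : ℕ) [Fact q.Prime] (_ : q ∣ N) (_ : ¬ q ^ 2 ∣ N)
    (_ : TameLevel q (N / q))
    (A : ValuationSubring (AlgebraicClosure ℚ)) (_ : A.LiesOverPrime q),
    ∃ K₀ : IntermediateField ℚ (AlgebraicClosure ℚ), FiniteDimensional ℚ K₀ ∧
    ∀ (K₁ : IntermediateField ℚ (AlgebraicClosure ℚ)) (_ : K₀ ≤ K₁) (_ : FiniteDimensional ℚ K₁)
      (_ : Normal ℚ K₁)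
      [Algebra ↥(descVal A K₁) (FK K₁ N)] [IsScalarTower ↥(descVal A K₁) K₁ (FK K₁ N)]
      (ϖ : ↥(descVal A K₁)) (_ : Irreducible ϖ)
      (t₀ : LaurentSeries ℚ) (_ : IsBase (baseKind q) t₀)
      (t : FK K₁ N) (_ : (t : LaurentSeries K₁) = coeffEmb K₁ t₀),
      (∀ 𝔫 : Ideal (Chart ↥(descVal A K₁) t), IsClosedPt ↥(descVal A K₁) ϖ t 𝔫 →
        RegAt ↥(descVal A K₁) ϖ t 𝔫 ∨ NodeAt ↥(descVal A K₁) ϖ t 𝔫) ∧
      (∀ 𝔫 : Ideal (Chart ↥(descVal A K₁) t⁻¹), IsClosedPt ↥(descVal A K₁) ϖ t⁻¹ 𝔫 →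
        (∀ y : Chart ↥(descVal A K₁) t⁻¹, (y : FK K₁ N) = t⁻¹ → y ∈ 𝔫) →
        RegAt ↥(descVal A K₁) ϖ t⁻¹ 𝔫)

/-- **(TAU)**: for `K₁` normal over `ℚ` and large, an element `τ` of the inertia group of `A`
acts on `F₁ = FK K₁ N` through the coefficients, compatibly with `arithmeticGalois` on
`F_ℚ̄(N)`; it fixes `t`, preserves `R = A ∩ K₁`, is trivial on `O / ϖ O` and preserves the
Gauss valuations `w₁, w₂` (`τ₁ g / g ∈ O` for `g ≠ 0`). -/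
def TauStatement : Prop :=
  ∀ (N : ℕ) [NeZero N] (q : ℕ) [Fact q.Prime] (_ : q ∣ N) (_ : ¬ q ^ 2 ∣ N)
    (_ : TameLevel q (N / q))
    (A : ValuationSubring (AlgebraicClosure ℚ)) (_ : A.LiesOverPrime q),
    ∃ K₀ : IntermediateField ℚ (AlgebraicClosure ℚ), FiniteDimensional ℚ K₀ ∧
    ∀ (K₁ : IntermediateField ℚ (AlgebraicClosure ℚ)) (_ : K₀ ≤ K₁) (_ : FiniteDimensional ℚ K₁)
      (_ : Normal ℚ K₁)
      [Algebra ↥(descVal A K₁) (FK K₁ N)] [IsScalarTower ↥(descVal A K₁) K₁ (FK K₁ N)]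
      (ϖ : ↥(descVal A K₁)) (_ : Irreducible ϖ)
      (t₀ : LaurentSeries ℚ) (_ : IsBase (baseKind q) t₀)
      (t : FK K₁ N) (_ : (t : LaurentSeries K₁) = coeffEmb K₁ t₀)
      (τ : AlgebraicClosure ℚ ≃ₐ[ℚ] AlgebraicClosure ℚ) (_ : τ ∈ A.inertiaSubgroupIn ℚ),
      ∃ τ₁ : FK K₁ N ≃+* FK K₁ N,
        (∀ (x : FK K₁ N) (y : modularFunctionFieldBar N),
          (y : LaurentSeries (AlgebraicClosure ℚ)) =
              coeffMap (algebraMap K₁ (AlgebraicClosure ℚ)) (x : LaurentSeries K₁) →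
          ((arithmeticGalois (modularFunctionFieldFull N) τ • y : modularFunctionFieldBar N) :
              LaurentSeries (AlgebraicClosure ℚ)) =
            coeffMap (algebraMap K₁ (AlgebraicClosure ℚ)) (τ₁ x : LaurentSeries K₁)) ∧
        τ₁ t = t ∧
        (∀ r : ↥(descVal A K₁), ∃ r' : ↥(descVal A K₁),
          τ₁ (algebraMap ↥(descVal A K₁) (FK K₁ N) r) =
            algebraMap ↥(descVal A K₁) (FK K₁ N) r') ∧
        (∀ r : ↥(descVal A K₁), ∃ r' : ↥(descVal A K₁),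
          τ₁.symm (algebraMap ↥(descVal A K₁) (FK K₁ N) r) =
            algebraMap ↥(descVal A K₁) (FK K₁ N) r') ∧
        (∀ x : FK K₁ N, GInt ↥(descVal A K₁) ϖ t x → ModPi ↥(descVal A K₁) ϖ t (τ₁ x) x) ∧
        ∀ g : FK K₁ N, g ≠ 0 → GInt ↥(descVal A K₁) ϖ t (τ₁ g / g)

/-- **(B2)**: descent of a function with `n ∣ div f` to a large number field `K₁`, normal over
`ℚ` and containing the `n`-th roots of unity: `f = ε f₁`, `n ∣ div f₁` over `K₁`, and the places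
of `F₁ / K₁` in the support of `div f₁` are `K₁`-rational. -/
def DescentStatement : Prop :=
  ∀ (N : ℕ) [NeZero N] (n : ℕ) (_ : 0 < n)
    (f : modularFunctionFieldBar N) (_ : f ≠ 0)
    (_ : ∀ P : Place (AlgebraicClosure ℚ) (modularFunctionFieldBar N), (n : ℤ) ∣ P.ord f)
    (K₀ : IntermediateField ℚ (AlgebraicClosure ℚ)) (_ : FiniteDimensional ℚ K₀),
    ∃ (K₁ : IntermediateField ℚ (AlgebraicClosure ℚ)) (_ : FiniteDimensional ℚ K₁)
      (f₁ : FK K₁ N),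
      K₀ ≤ K₁ ∧ Normal ℚ K₁ ∧ (∃ ζ : K₁, IsPrimitiveRoot ζ n) ∧
      (f : LaurentSeries (AlgebraicClosure ℚ)) =
        coeffMap (algebraMap K₁ (AlgebraicClosure ℚ)) (f₁ : LaurentSeries K₁) ∧
      (∀ V : Place K₁ (FK K₁ N), (n : ℤ) ∣ V.ord f₁) ∧
      (∀ V : Place K₁ (FK K₁ N), V.ord f₁ ≠ 0 → ∀ x : FK K₁ N, 0 ≤ V.ord x →
        ∃ c : K₁, x = algebraMap K₁ (FK K₁ N) c ∨ 0 < V.ord (x - algebraMap K₁ (FK K₁ N) c))

/-- The target of the `K₁`-level assembly: the function-field form of (GU) at a single prime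
`q ‖ N` with `TameLevel q (N / q)`. -/
def GUFieldTame (N : ℕ) [NeZero N] (q : ℕ) : Prop :=
  ∀ (n : ℕ), 0 < n → ¬ q ∣ n →
    ∀ A : ValuationSubring (AlgebraicClosure ℚ), A.LiesOverPrime q →
      ∀ τ ∈ A.inertiaSubgroupIn ℚ, ∀ f : modularFunctionFieldBar N, f ≠ 0 →
        (∀ P : Place (AlgebraicClosure ℚ) (modularFunctionFieldBar N), (n : ℤ) ∣ P.ord f) →
        ∃ ψ : modularFunctionFieldBar N,
          (arithmeticGalois (modularFunctionFieldFull N) τ •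
            arithmeticGalois (modularFunctionFieldFull N) τ • f) * f =
          ψ ^ n * (arithmeticGalois (modularFunctionFieldFull N) τ • f) ^ 2

end H4S34

end
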