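/-
Item 82 (S34), slice (LC) "level change" (helper21).

`H21LC.GUFieldAt N n q` is the function-field form of geometric unipotency (`H29GU.GUFieldStatement`)
for fixed `n`, `q`.  If `N ∣ N'` and `[F_N' : F_N] = ψ(N') / ψ(N)` is prime to `n`, then
`GUFieldAt N' n q → GUFieldAt N n q` (norm + Bezout, `H12C11b.exists_pow_eq_of_coprime`).
In particular (`q = 3`: `N' = 2 N`, degree `3`;  `q = 2`: `N' = 3 N`, degree `4`):
`guFieldAt_three`, `guFieldAt_two`.
Nothing here is proved by a placeholder.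
-/
import Mathlib
import Fermat.Agent.S34.GUBook_helper29
import Fermat.Agent.S18.C11b_helper12
import Fermat.Agent.S18.Final_helper7

set_option autoImplicit false
set_option linter.unusedSectionVars false
set_option linter.unusedVariables false
set_option linter.style.haveILetI false

noncomputable section

namespace H21LC

open ModularCurve AlgebraicCurve IntermediateField

local notation "Qb" => AlgebraicClosure ℚ

/-- **(GU-F)** for fixed `n` and `q`. -/
def GUFieldAt (N : ℕ) [NeZero N] (n q : ℕ) : Prop :=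
  ∀ A : ValuationSubring Qb, A.LiesOverPrime q →
    ∀ τ ∈ A.inertiaSubgroupIn ℚ, ∀ f : modularFunctionFieldBar N, f ≠ 0 →
      (∀ P : Place Qb (modularFunctionFieldBar N), (n : ℤ) ∣ P.ord f) →
      ∃ ψ : modularFunctionFieldBar N,
        (arithmeticGalois (modularFunctionFieldFull N) τ •
          arithmeticGalois (modularFunctionFieldFull N) τ • f) * f =
        ψ ^ n * (arithmeticGalois (modularFunctionFieldFull N) τ • f) ^ 2

theorem guField_of_at (N : ℕ) [NeZero N]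
    (h : ∀ n q : ℕ, q.Prime → q ∣ N → ¬ q ^ 2 ∣ N → 0 < n → ¬ q ∣ n → GUFieldAt N n q) :
    H29GU.GUFieldStatement N := by
  intro n q hq hqN hq2 hn hqn A hA τ hτ f hf0 hdiv
  exact h n q hq hqN hq2 hn hqn A hA τ hτ f hf0 hdiv

theorem guFieldAt_of_statement (N : ℕ) [NeZero N] (h : H29GU.GUFieldStatement N)
    {n q : ℕ} (hq : q.Prime) (hqN : q ∣ N) (hq2 : ¬ q ^ 2 ∣ N) (hn : 0 < n) (hqn : ¬ q ∣ n) :
    GUFieldAt N n q := by
  intro A hA τ hτ f hf0 hdiv
  exact h n q hq hqN hq2 hn hqn A hA τ hτ f hf0 hdiv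

/-- **(LC)** level change for (GU-F). -/
theorem levelChange {N N' : ℕ} [NeZero N] [NeZero N'] (hNN' : N ∣ N') (n q : ℕ)
    (hcop : Nat.Coprime (dedekindPsi N' / dedekindPsi N) n) (h' : GUFieldAt N' n q) :
    GUFieldAt N n q := by
  intro A hA τ hτ f hf0 hdiv
  have hle : modularFunctionFieldBar N ≤ modularFunctionFieldBar N' := H12C11b.bar_le hNN'
  -- `f` at level `N'`
  have hf0' : (⟨(f : LaurentSeries Qb), hle f.2⟩ : modularFunctionFieldBar N') ≠ 0 := by
    intro h0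
    apply hf0
    apply Subtype.ext
    have h1 : (f : LaurentSeries Qb) = 0 :=
      congrArg (fun z : modularFunctionFieldBar N' => (z : LaurentSeries Qb)) h0
    exact h1
  have hdiv' : ∀ P' : Place Qb (modularFunctionFieldBar N'),
      (n : ℤ) ∣ P'.ord (⟨(f : LaurentSeries Qb), hle f.2⟩ : modularFunctionFieldBar N') := by
    intro P'
    have h1 := H12C11b.dvd_ord_of_dvd_ord hle (n : ℤ) (x₁ := (f : LaurentSeries Qb))
      (x₂ := (1 : LaurentSeries Qb)) f.2 (one_mem _) (fun P => by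
        have e1 : (⟨(1 : LaurentSeries Qb), one_mem _⟩ : modularFunctionFieldBar N) = 1 := rfl
        have e2 : (⟨(f : LaurentSeries Qb), f.2⟩ : modularFunctionFieldBar N) = f := rfl
        rw [e1, e2, P.ord_one, sub_zero]
        exact hdiv P) P'
    have e1 : (⟨(1 : LaurentSeries Qb), hle (one_mem _)⟩ : modularFunctionFieldBar N') = 1 := rfl
    rw [e1, P'.ord_one, sub_zero] at h1
    exact h1
  obtain ⟨ψ', hψ'⟩ := h' A hA τ hτ ⟨(f : LaurentSeries Qb), hle f.2⟩ hf0' hdiv'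
  -- pass to Laurent series
  have hL : coeffMap ((τ : Qb ≃ₐ[ℚ] Qb) : Qb →+* Qb)
        (coeffMap ((τ : Qb ≃ₐ[ℚ] Qb) : Qb →+* Qb) (f : LaurentSeries Qb)) *
        (f : LaurentSeries Qb) =
      (ψ' : LaurentSeries Qb) ^ n *
        (coeffMap ((τ : Qb ≃ₐ[ℚ] Qb) : Qb →+* Qb) (f : LaurentSeries Qb)) ^ 2 :=
    congrArg Subtype.val hψ'
  set tf : modularFunctionFieldBar N := arithmeticGalois (modularFunctionFieldFull N) τ • f
    with htf
  set ttf : modularFunctionFieldBar N := arithmeticGalois (modularFunctionFieldFull N) τ • tf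
    with httf
  have htf0 : tf ≠ 0 := H29GU.smul_ne_zero' _ hf0
  have e_tf : (tf : LaurentSeries Qb) =
      coeffMap ((τ : Qb ≃ₐ[ℚ] Qb) : Qb →+* Qb) (f : LaurentSeries Qb) := rfl
  have e_ttf : (ttf : LaurentSeries Qb) =
      coeffMap ((τ : Qb ≃ₐ[ℚ] Qb) : Qb →+* Qb)
        (coeffMap ((τ : Qb ≃ₐ[ℚ] Qb) : Qb →+* Qb) (f : LaurentSeries Qb)) := rfl
  have htf0' : (tf : LaurentSeries Qb) ≠ 0 := fun h0 => htf0 (Subtype.ext h0)
  -- `u = (τ - 1)² f ∈ F_N` is an `n`-th power in `F_N'`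
  have hu : ((ttf * f / tf ^ 2 : modularFunctionFieldBar N) : LaurentSeries Qb) ∈
      modularFunctionFieldBar N := (ttf * f / tf ^ 2).2
  have hpow : (ψ' : LaurentSeries Qb) ^ n =
      ((ttf * f / tf ^ 2 : modularFunctionFieldBar N) : LaurentSeries Qb) := by
    have e : ((ttf * f / tf ^ 2 : modularFunctionFieldBar N) : LaurentSeries Qb) =
        (ttf : LaurentSeries Qb) * (f : LaurentSeries Qb) / (tf : LaurentSeries Qb) ^ 2 := rfl
    rw [e, eq_div_iff (pow_ne_zero 2 htf0'), e_ttf, e_tf]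
    exact hL.symm
  obtain ⟨g, hg, hgp⟩ := H12C11b.exists_pow_eq_of_coprime (modularFunctionFieldBar N)
    (modularFunctionFieldBar N') hle n (by rw [H12C11b.relfinrank_bar hNN']; exact hcop)
    hu ψ'.2 hpow
  refine ⟨⟨g, hg⟩, ?_⟩
  apply Subtype.ext
  show (ttf : LaurentSeries Qb) * (f : LaurentSeries Qb) = g ^ n * (tf : LaurentSeries Qb) ^ 2
  rw [hgp]
  have e : ((ttf * f / tf ^ 2 : modularFunctionFieldBar N) : LaurentSeries Qb) =
      (ttf : LaurentSeries Qb) * (f : LaurentSeries Qb) / (tf : LaurentSeries Qb) ^ 2 := rfl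
  rw [e, div_mul_cancel₀ _ (pow_ne_zero 2 htf0')]

theorem dedekindPsi_pos' (N : ℕ) (hN0 : N ≠ 0) : 0 < dedekindPsi N := by
  unfold dedekindPsi
  refine Finset.sum_pos' (fun _ _ => Nat.zero_le _) ⟨1, ?_, ?_⟩
  · simp [hN0]
  · simp [Nat.pos_of_ne_zero hN0]

/-- `q = 3`: (GU-F) at level `2 N` gives (GU-F) at level `N` (`2 ∤ N`, `3 ∤ n`). -/
theorem guFieldAt_three (N : ℕ) [NeZero N] (h2N : ¬ 2 ∣ N) (n : ℕ) (h3n : ¬ 3 ∣ n) :
    haveI : NeZero (2 * N) := ⟨mul_ne_zero two_ne_zero (NeZero.ne N)⟩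
    GUFieldAt (2 * N) n 3 → GUFieldAt N n 3 := by
  haveI : NeZero (2 * N) := ⟨mul_ne_zero two_ne_zero (NeZero.ne N)⟩
  intro h
  refine levelChange (dvd_mul_left N 2) n 3 ?_ h
  have hψ : dedekindPsi (2 * N) / dedekindPsi N = 3 := by
    rw [H7S18.h7_dedekindPsi_prime_mul 2 N Nat.prime_two (NeZero.ne N) h2N]
    exact Nat.mul_div_cancel _ (dedekindPsi_pos' N (NeZero.ne N))
  rw [hψ]
  exact (Nat.Prime.coprime_iff_not_dvd Nat.prime_three).2 h3n

/-- `q = 2`: (GU-F) at level `3 N` gives (GU-F) at level `N` (`3 ∤ N`, `2 ∤ n`). -/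
theorem guFieldAt_two (N : ℕ) [NeZero N] (h3N : ¬ 3 ∣ N) (n : ℕ) (h2n : ¬ 2 ∣ n) :
    haveI : NeZero (3 * N) := ⟨mul_ne_zero three_ne_zero (NeZero.ne N)⟩
    GUFieldAt (3 * N) n 2 → GUFieldAt N n 2 := by
  haveI : NeZero (3 * N) := ⟨mul_ne_zero three_ne_zero (NeZero.ne N)⟩
  intro h
  refine levelChange (dvd_mul_left N 3) n 2 ?_ h
  have hψ : dedekindPsi (3 * N) / dedekindPsi N = 4 := by
    rw [H7S18.h7_dedekindPsi_prime_mul 3 N Nat.prime_three (NeZero.ne N) h3N]
    exact Nat.mul_div_cancel _ (dedekindPsi_pos' N (NeZero.ne N))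
  rw [hψ]
  have h2 : Nat.Coprime 2 n := (Nat.Prime.coprime_iff_not_dvd Nat.prime_two).2 h2n
  exact Nat.Coprime.pow_left 2 h2

end H21LC

end
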