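import Mathlib
import Fermat.Agent.S34.Defs_helper4
import Fermat.Agent.S34.LevelChange_helper21
import Fermat.Agent.S18.C12bAux_helper7
import Fermat.Agent.S18.C6b_helper4
import Fermat.Agent.S18.C6e_helper9
import Fermat.Agent.S18.C6f_helper1
import Fermat.Agent.S18.C9Final_helper4
import Fermat.Agent.S18.Connected_helper21

/-!
# Item 82 (S34), architect file (helper4): the `K₁`-level assembly

`H4S34.guFieldAt_of`: the slices of `S34/Defs_helper4.lean`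
(`GenStatement`, `LocRegStatement`, `LocNodeStatement`, `ChartChangeStatement`, `DichStatement`,
`TauStatement`, `DescentStatement`) give the function-field form `H21LC.GUFieldAt N n q` of (GU)
at every level `N` with `q ‖ N` and `TameLevel q (N / q)`.
-/

set_option autoImplicit false
set_option linter.style.haveILetI false
set_option synthInstance.maxHeartbeats 400000
set_option maxHeartbeats 4000000

noncomputable section

open Polynomial IntermediateField AlgebraicCurve ModularCurve H7S18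

namespace H4S34

section Generic

variable (R : Type) [CommRing R] {E : Type} [Field E] [Algebra R E]

/-- (L1) only depends on the local ring. -/
theorem l1At_of_inLoc_iff {ϖ : R} {t u : E} {𝔫₀ : Ideal (Chart R t)} {𝔫 : Ideal (Chart R u)}
    (h : ∀ x : E, InLoc R t 𝔫₀ x ↔ InLoc R u 𝔫 x) {n : ℕ} {f : E}
    (hL : L1At R ϖ t 𝔫₀ n f) : L1At R ϖ u 𝔫 n f := by
  obtain ⟨z, hz, m, h1, h2⟩ := hL
  exact ⟨z, hz, m, (h _).1 h1, (h _).1 h2⟩

end Generic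

/-- **`K₁`-level assembly**: (GU) in function-field form at a tame pair `(N, q)`, `q ‖ N`. -/
theorem guFieldAt_of (hGen : GenStatement) (hLR : LocRegStatement) (hLN : LocNodeStatement)
    (hCC : ChartChangeStatement) (hDich : DichStatement) (hTau : TauStatement)
    (hDesc : DescentStatement)
    (N : ℕ) [NeZero N] (q : ℕ) [Fact q.Prime] (hqN : q ∣ N) (hq2 : ¬ q ^ 2 ∣ N)
    (hT : TameLevel q (N / q)) (n : ℕ) (hn : 0 < n) (hqn : ¬ q ∣ n) :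
    H21LC.GUFieldAt N n q := by
  classical
  intro A hA τ hτ f hf0 hdiv
  obtain ⟨K₀d, hK₀d, hD⟩ := hDich N q hqN hq2 hT A hA
  obtain ⟨K₀t, hK₀t, hTa⟩ := hTau N q hqN hq2 hT A hA
  haveI := hK₀d
  haveI := hK₀t
  have hK₀ : FiniteDimensional ℚ ↥(K₀d ⊔ K₀t) := IntermediateField.finiteDimensional_sup K₀d K₀t
  obtain ⟨K₁, hK₁fin, f₁, hle, hnorm, ⟨ζ, hζ⟩, hf₁, hord, hrat⟩ :=
    hDesc N n hn f hf0 hdiv (K₀d ⊔ K₀t) hK₀
  -- the base function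
  have hNq : N / q ∣ N := Nat.div_dvd_of_dvd hqN
  have hi : baseKind q = 1 ∨ (baseKind q = 2 ∧ 2 ∣ N) ∨ (baseKind q = 3 ∧ 3 ∣ N) := by
    rcases h7_baseKind_ok hT with h | h | h
    · exact Or.inl h
    · exact Or.inr (Or.inl ⟨h.1, h.2.trans hNq⟩)
    · exact Or.inr (Or.inr ⟨h.1, h.2.trans hNq⟩)
  obtain ⟨t₀, ht₀⟩ : ∃ t₀ : LaurentSeries ℚ, IsBase (baseKind q) t₀ := by
    rcases hi with h | h | h
    · exact ⟨jq, Or.inl ⟨h, rfl⟩⟩
    · exact ⟨modularUnitSeries 2, Or.inr (Or.inl ⟨h.1, rfl⟩)⟩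
    · obtain ⟨-, t₃, ht₃, -⟩ := H4HM.hauptmodulStatement
      rw [← h.1] at ht₃
      exact ⟨t₃, ht₃⟩
  -- the DVR
  obtain ⟨hdvr, -, hunit⟩ := H4DVR.dvrStatement q A hA K₁ hK₁fin
  haveI := hdvr
  obtain ⟨ϖ, hϖ⟩ := IsDiscreteValuationRing.exists_irreducible ↥(descVal A K₁)
  -- field basics, base change
  obtain ⟨t₁, ht₁coe, ht₁tr, ht₁fin, ht₁const⟩ := H9C6e.fieldBasics N (baseKind q) hi t₀ ht₀ K₁
  obtain ⟨φ, hφcoe, -⟩ : ∃ φ : FK K₁ N →+* ↥(modularFunctionFieldBar N),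
      (∀ x : FK K₁ N, ((φ x : modularFunctionFieldBar N) : LaurentSeries (AlgebraicClosure ℚ)) =
        coeffMap (algebraMap K₁ (AlgebraicClosure ℚ)) (x : LaurentSeries K₁)) ∧
      ∀ y : modularFunctionFieldBar N, φ.IsIntegralElem y := H1S18.baseChange N K₁
  letI algRF : Algebra ↥(descVal A K₁) (FK K₁ N) :=
    ((algebraMap K₁ (FK K₁ N)).comp (algebraMap ↥(descVal A K₁) K₁)).toAlgebra
  haveI towRF : IsScalarTower ↥(descVal A K₁) K₁ (FK K₁ N) :=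
    IsScalarTower.of_algebraMap_eq (fun _ => rfl)
  have hnu : IsUnit ((n : ℕ) : ↥(descVal A K₁)) := hunit n hqn hn
  have hζR : ∃ ζ' : ↥(descVal A K₁), IsPrimitiveRoot ζ' n := by
    have hmem : ζ ∈ descVal A K₁ := h7_mem_of_pow_eq_one _ _ _ hn hζ.pow_eq_one
    refine ⟨⟨ζ, hmem⟩, ?_⟩
    exact IsPrimitiveRoot.of_map_of_injective (f := (descVal A K₁).subtype)
      (by exact hζ) Subtype.val_injective
  -- the inertia element at level `K₁`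
  obtain ⟨τ₁, hτcompat, hτt, hτR, hτR', hτmod, hτval⟩ :=
    hTa K₁ (le_sup_right.trans hle) hK₁fin hnorm ϖ hϖ t₀ ht₀ t₁ ht₁coe τ hτ
  -- the dichotomy
  obtain ⟨hD0, hDinf⟩ := hD K₁ (le_sup_left.trans hle) hK₁fin hnorm ϖ hϖ t₀ ht₀ t₁ ht₁coe
  have hf₁0 : f₁ ≠ 0 := by
    rintro rfl
    apply hf0
    apply Subtype.ext
    rw [hf₁]
    simp
  -- (L1) at the closed points of the chart `t`
  have hL0 : ∀ 𝔫 : Ideal (Chart ↥(descVal A K₁) t₁), IsClosedPt ↥(descVal A K₁) ϖ t₁ 𝔫 →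
      L1At ↥(descVal A K₁) ϖ t₁ 𝔫 n f₁ := by
    intro 𝔫 h𝔫
    rcases hD0 𝔫 h𝔫 with hr | hnode
    · exact hLR ↥(descVal A K₁) K₁ (FK K₁ N) ϖ hϖ t₁ ht₁tr ht₁fin n hn f₁ hf₁0 hord 𝔫 h𝔫 hr
    · exact hLN ↥(descVal A K₁) K₁ (FK K₁ N) ϖ hϖ t₁ ht₁tr ht₁fin n hn f₁ hf₁0 hord hrat
        𝔫 h𝔫 hnode
  -- (L1) at the closed points of the chart `t⁻¹`
  have ht₁tr' : Transcendental K₁ t₁⁻¹ := H21S18.transcendental_inv ht₁tr
  have ht₁fin' : FiniteDimensional K₁⟮t₁⁻¹⟯ (FK K₁ N) :=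
    H21S18.finiteDimensional_transport (H21S18.adjoin_inv_eq (K := K₁) t₁).symm ht₁fin
  have hLinf : ∀ 𝔫 : Ideal (Chart ↥(descVal A K₁) t₁⁻¹),
      IsClosedPt ↥(descVal A K₁) ϖ t₁⁻¹ 𝔫 → L1At ↥(descVal A K₁) ϖ t₁⁻¹ 𝔫 n f₁ := by
    intro 𝔫 h𝔫
    by_cases hc : ∀ y : Chart ↥(descVal A K₁) t₁⁻¹, (y : FK K₁ N) = t₁⁻¹ → y ∈ 𝔫
    · exact hLR ↥(descVal A K₁) K₁ (FK K₁ N) ϖ hϖ t₁⁻¹ ht₁tr' ht₁fin' n hn f₁ hf₁0 hord 𝔫 h𝔫
        (hDinf 𝔫 h𝔫 hc)
    · push_neg at hc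
      obtain ⟨y, hy, hy𝔫⟩ := hc
      obtain ⟨𝔫₀, h𝔫₀, hiff⟩ := hCC ↥(descVal A K₁) K₁ (FK K₁ N) ϖ hϖ t₁ ht₁tr ht₁fin 𝔫 h𝔫
        ⟨y, hy, hy𝔫⟩
      exact l1At_of_inLoc_iff ↥(descVal A K₁) hiff (hL0 𝔫₀ h𝔫₀)
  -- the generic theorem
  obtain ⟨c, g, hc0, hcg⟩ := hGen ↥(descVal A K₁) K₁ (FK K₁ N) ϖ hϖ t₁ ht₁tr ht₁fin ht₁const
    n hn hnu hζR τ₁ hτt hτR hτR' hτmod hτval f₁ hf₁0 hL0 hLinf
  -- transfer to `ℚ̄`
  have hφf : φ f₁ = f := Subtype.ext (by rw [hφcoe, hf₁])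
  have hτf : φ (τ₁ f₁) = arithmeticGalois (modularFunctionFieldFull N) τ • f :=
    Subtype.ext (by rw [hφcoe]; exact (hτcompat f₁ f hf₁).symm)
  have hττf : φ (τ₁ (τ₁ f₁)) = arithmeticGalois (modularFunctionFieldFull N) τ •
      arithmeticGalois (modularFunctionFieldFull N) τ • f := by
    apply Subtype.ext
    rw [hφcoe]
    refine (hτcompat (τ₁ f₁) (arithmeticGalois (modularFunctionFieldFull N) τ • f) ?_).symm
    rw [← hτf, hφcoe]
  have hφc : φ (algebraMap K₁ (FK K₁ N) c) =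
      algebraMap (AlgebraicClosure ℚ) (modularFunctionFieldBar N)
        (algebraMap K₁ (AlgebraicClosure ℚ) c) := by
    apply Subtype.ext
    rw [hφcoe]
    show coeffMap (algebraMap K₁ (AlgebraicClosure ℚ)) (algebraMap K₁ (LaurentSeries K₁) c) =
      algebraMap (AlgebraicClosure ℚ) (LaurentSeries (AlgebraicClosure ℚ))
        (algebraMap K₁ (AlgebraicClosure ℚ) c)
    rw [algebraMap_laurentSeries_eq_single, algebraMap_laurentSeries_eq_single, coeffMap_single]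
  obtain ⟨d, hd⟩ := IsAlgClosed.exists_pow_nat_eq (algebraMap K₁ (AlgebraicClosure ℚ) c) hn
  refine ⟨algebraMap (AlgebraicClosure ℚ) (modularFunctionFieldBar N) d * φ g, ?_⟩
  have h1 : φ (τ₁ (τ₁ f₁)) * φ f₁ =
      φ (algebraMap K₁ (FK K₁ N) c) * φ g ^ n * φ (τ₁ f₁) ^ 2 := by
    rw [← map_mul φ, hcg, map_mul φ, map_mul φ, map_pow φ, map_pow φ]
  have hd' : φ (algebraMap K₁ (FK K₁ N) c) =
      algebraMap (AlgebraicClosure ℚ) (modularFunctionFieldBar N) d ^ n := by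
    rw [hφc, ← hd, map_pow]
  calc (arithmeticGalois (modularFunctionFieldFull N) τ •
        arithmeticGalois (modularFunctionFieldFull N) τ • f) * f
      = φ (τ₁ (τ₁ f₁)) * φ f₁ := by rw [hττf, hφf]
    _ = φ (algebraMap K₁ (FK K₁ N) c) * φ g ^ n * φ (τ₁ f₁) ^ 2 := h1
    _ = algebraMap (AlgebraicClosure ℚ) (modularFunctionFieldBar N) d ^ n * φ g ^ n *
          φ (τ₁ f₁) ^ 2 := by rw [hd']
    _ = (algebraMap (AlgebraicClosure ℚ) (modularFunctionFieldBar N) d * φ g) ^ n *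
          (arithmeticGalois (modularFunctionFieldFull N) τ • f) ^ 2 := by
        rw [mul_pow, hτf]

end H4S34

end
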