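import Mathlib
import Fermat.Agent.S18.ChartChange_helper21
import Fermat.Agent.S34.Defs_helper4

/-!
# Item 82 (S34), slice (CHART) (helper20): change of chart for closed points

A closed point `𝔫` of the chart `t⁻¹` at which `t⁻¹` is a unit is a closed point of the chart `t`
with the same local ring: `H20CC.h20cc_chartChange : H4S34.ChartChangeStatement`.

Proof: `𝔫₀ := M₀ ∩ 𝔫 B_𝔫` (`h20ccIdeal`); it is prime, lies over `(ϖ)`, and `t` is integral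
over `R` modulo `𝔫₀` (because `𝔫 ∩ R[t⁻¹]` is maximal and `t⁻¹ ∉ 𝔫`), so `M₀ / 𝔫₀` is a domain
integral over the field `R / ϖ` (`h20cc_isMaximal_of_monic`).
-/

set_option autoImplicit false
set_option synthInstance.maxHeartbeats 400000

open Polynomial

namespace H20CC

/-- A prime `P` of `M` (integral over `A`, `A` generated over `R` by `t`) lying over a maximal
ideal of `R` and containing a monic polynomial in `t` is maximal. -/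
theorem h20cc_isMaximal_of_monic {R A M : Type} [CommRing R] [CommRing A] [CommRing M]
    [Algebra R A] [Algebra A M] [Algebra R M] [IsScalarTower R A M] [Algebra.IsIntegral A M]
    (t : A) (hA : ∀ a : A, ∃ Q : R[X], aeval t Q = a)
    (P : Ideal M) [P.IsPrime] (hP : (P.comap (algebraMap R M)).IsMaximal)
    (G : R[X]) (hG : G.Monic) (hGt : algebraMap A M (aeval t G) ∈ P) : P.IsMaximal := by
  have htbar : IsIntegral R (algebraMap A (M ⧸ P) t) := by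
    refine ⟨G, hG, ?_⟩
    have h1 : eval₂ (algebraMap R (M ⧸ P)) (algebraMap A (M ⧸ P) t) G
        = algebraMap A (M ⧸ P) (aeval t G) := by
      rw [← aeval_def, ← aeval_algebraMap_apply]
    rw [h1, IsScalarTower.algebraMap_apply A M (M ⧸ P), Ideal.Quotient.algebraMap_eq,
      Ideal.Quotient.eq_zero_iff_mem]
    exact hGt
  have hA' : ∀ a : A, algebraMap A (M ⧸ P) a ∈ integralClosure R (M ⧸ P) := by
    intro a
    obtain ⟨Q, rfl⟩ := hA a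
    rw [← aeval_algebraMap_apply]
    have h3 := Subalgebra.aeval_coe (integralClosure R (M ⧸ P)) ⟨_, htbar⟩ Q
    rw [h3]
    exact SetLike.coe_mem _
  have hint : (algebraMap R (M ⧸ P)).IsIntegral := by
    intro d
    have hd : IsIntegral A d := Algebra.IsIntegral.isIntegral d
    let φ : A →+* integralClosure R (M ⧸ P) :=
      (algebraMap A (M ⧸ P)).codRestrict (integralClosure R (M ⧸ P)) hA'
    have h2 : IsIntegral (integralClosure R (M ⧸ P)) d := by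
      have := IsIntegral.map_of_comp_eq φ (RingHom.id (M ⧸ P)) (by ext a; rfl) hd
      simpa using this
    exact isIntegral_trans (R := R) (A := integralClosure R (M ⧸ P)) d h2
  have hbot : (⊥ : Ideal (M ⧸ P)).IsMaximal := by
    have : (⊥ : Ideal (M ⧸ P)).IsPrime := Ideal.isPrime_bot
    refine Ideal.isMaximal_of_isIntegral_of_isMaximal_comap' (algebraMap R (M ⧸ P)) hint ⊥ ?_
    have : (⊥ : Ideal (M ⧸ P)).comap (algebraMap R (M ⧸ P)) = P.comap (algebraMap R M) := by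
      ext x
      simp only [Ideal.mem_comap, Ideal.mem_bot]
      rw [IsScalarTower.algebraMap_apply R M (M ⧸ P), Ideal.Quotient.algebraMap_eq,
        Ideal.Quotient.eq_zero_iff_mem]
    rw [this]
    exact hP
  exact Ideal.Quotient.maximal_of_isField P (Ring.isField_iff_maximal_bot.mpr hbot)

open H7S18 H4S34

section

variable {R : Type} [CommRing R] [IsDomain R] {F : Type} [Field F] [Algebra R F]

/-- every element of the chart `t` is (an element of the chart `t⁻¹`) / `(t⁻¹) ^ d` -/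
theorem h20cc_scale {t : F} (ht0 : t ≠ 0) (c : Chart R t) :
    ∃ (d : ℕ) (b : Chart R t⁻¹), (b : F) = t⁻¹ ^ d * (c : F) := by
  have hc : IsInt R (t⁻¹)⁻¹ (c : F) := by
    rw [inv_inv]
    exact c.2
  obtain ⟨d, hd⟩ := H21S18.isInt_inv_to (inv_ne_zero ht0) hc
  exact ⟨d, ⟨_, hd d le_rfl⟩, rfl⟩

/-- every element of the chart `t⁻¹` is (an element of the chart `t`) / `t ^ d` -/
theorem h20cc_scale' {t : F} (ht0 : t ≠ 0) (c : Chart R t⁻¹) :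
    ∃ d₀ : ℕ, ∀ d, d₀ ≤ d → ∃ b : Chart R t, (b : F) = t ^ d * (c : F) := by
  obtain ⟨d, hd⟩ := H21S18.isInt_inv_to ht0 (show IsInt R t⁻¹ (c : F) from c.2)
  exact ⟨d, fun j hj => ⟨⟨_, hd j hj⟩, rfl⟩⟩

/-- the contraction of `𝔫 B_𝔫` to the chart `t` -/
def h20ccIdeal {t : F} (ht0 : t ≠ 0) (𝔫 : Ideal (Chart R t⁻¹)) (h𝔫 : 𝔫.IsPrime)
    (u : Chart R t⁻¹) (hu : (u : F) = t⁻¹) (hun : u ∉ 𝔫) : Ideal (Chart R t) where
  carrier := {y | ∃ a s : Chart R t⁻¹, a ∈ 𝔫 ∧ s ∉ 𝔫 ∧ (s : F) * (y : F) = (a : F)}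
  add_mem' := by
    rintro y₁ y₂ ⟨a₁, s₁, ha₁, hs₁, e₁⟩ ⟨a₂, s₂, ha₂, hs₂, e₂⟩
    refine ⟨s₂ * a₁ + s₁ * a₂, s₁ * s₂, ?_, ?_, ?_⟩
    · exact 𝔫.add_mem (𝔫.mul_mem_left _ ha₁) (𝔫.mul_mem_left _ ha₂)
    · exact fun h => (h𝔫.mem_or_mem h).elim hs₁ hs₂
    · push_cast
      rw [← e₁, ← e₂]
      ring
  zero_mem' := ⟨0, 1, 𝔫.zero_mem, (𝔫.ne_top_iff_one.mp h𝔫.ne_top), by simp⟩
  smul_mem' := by
    rintro c y ⟨a, s, ha, hs, e⟩
    obtain ⟨d, b, hb⟩ := h20cc_scale ht0 c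
    refine ⟨b * a, u ^ d * s, 𝔫.mul_mem_left _ ha, ?_, ?_⟩
    · intro h
      rcases h𝔫.mem_or_mem h with h | h
      · exact hun (h𝔫.mem_of_pow_mem _ h)
      · exact hs h
    · simp only [smul_eq_mul]
      push_cast
      rw [hb, hu, ← e]
      ring

theorem h20cc_mem_iff {t : F} (ht0 : t ≠ 0) (𝔫 : Ideal (Chart R t⁻¹)) (h𝔫 : 𝔫.IsPrime)
    (u : Chart R t⁻¹) (hu : (u : F) = t⁻¹) (hun : u ∉ 𝔫) (y : Chart R t) :
    y ∈ h20ccIdeal ht0 𝔫 h𝔫 u hu hun ↔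
      ∃ a s : Chart R t⁻¹, a ∈ 𝔫 ∧ s ∉ 𝔫 ∧ (s : F) * (y : F) = (a : F) := Iff.rfl

/-- membership can be tested on any representation `u ^ d * y = b` -/
theorem h20cc_mem_iff' {t : F} (ht0 : t ≠ 0) (𝔫 : Ideal (Chart R t⁻¹)) (h𝔫 : 𝔫.IsPrime)
    (u : Chart R t⁻¹) (hu : (u : F) = t⁻¹) (hun : u ∉ 𝔫) (y : Chart R t)
    (s b : Chart R t⁻¹) (hs : s ∉ 𝔫) (hb : (s : F) * (y : F) = (b : F)) :
    y ∈ h20ccIdeal ht0 𝔫 h𝔫 u hu hun ↔ b ∈ 𝔫 := by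
  constructor
  · rintro ⟨a, s', ha, hs', e⟩
    have h1 : s' * b = s * a := Subtype.ext (by
      push_cast
      rw [← hb, ← e]
      ring)
    have h2 : s' * b ∈ 𝔫 := h1 ▸ 𝔫.mul_mem_left _ ha
    exact (h𝔫.mem_or_mem h2).resolve_left hs'
  · intro h
    exact ⟨b, s, h, hs, hb⟩

theorem h20cc_prime {t : F} (ht0 : t ≠ 0) (𝔫 : Ideal (Chart R t⁻¹)) (h𝔫 : 𝔫.IsPrime)
    (u : Chart R t⁻¹) (hu : (u : F) = t⁻¹) (hun : u ∉ 𝔫) :
    (h20ccIdeal ht0 𝔫 h𝔫 u hu hun).IsPrime := by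
  have hupow : ∀ d : ℕ, u ^ d ∉ 𝔫 := fun d h => hun (h𝔫.mem_of_pow_mem _ h)
  rw [Ideal.isPrime_iff]
  refine ⟨?_, ?_⟩
  · rw [Ideal.ne_top_iff_one]
    rintro ⟨a, s, ha, hs, e⟩
    have : s = a := Subtype.ext (by simpa using e)
    exact hs (this ▸ ha)
  · intro y₁ y₂ h
    obtain ⟨d₁, b₁, hb₁⟩ := h20cc_scale ht0 y₁
    obtain ⟨d₂, b₂, hb₂⟩ := h20cc_scale ht0 y₂
    have hu₁ : ((u ^ d₁ : Chart R t⁻¹) : F) * (y₁ : F) = (b₁ : F) := by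
      push_cast
      rw [hb₁, hu]
    have hu₂ : ((u ^ d₂ : Chart R t⁻¹) : F) * (y₂ : F) = (b₂ : F) := by
      push_cast
      rw [hb₂, hu]
    have h12 : ((u ^ d₁ * u ^ d₂ : Chart R t⁻¹) : F) * ((y₁ * y₂ : Chart R t) : F)
        = ((b₁ * b₂ : Chart R t⁻¹) : F) := by
      push_cast
      rw [hb₁, hb₂, hu]
      ring
    have h3 : b₁ * b₂ ∈ 𝔫 :=
      (h20cc_mem_iff' ht0 𝔫 h𝔫 u hu hun (y₁ * y₂) (u ^ d₁ * u ^ d₂) (b₁ * b₂)
        (fun h' => (h𝔫.mem_or_mem h').elim (hupow _) (hupow _)) h12).mp h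
    rcases h𝔫.mem_or_mem h3 with h' | h'
    · exact Or.inl ((h20cc_mem_iff' ht0 𝔫 h𝔫 u hu hun y₁ _ _ (hupow d₁) hu₁).mpr h')
    · exact Or.inr ((h20cc_mem_iff' ht0 𝔫 h𝔫 u hu hun y₂ _ _ (hupow d₂) hu₂).mpr h')

end


section

variable {R : Type} [CommRing R] [IsDomain R] {F : Type} [Field F] [Algebra R F]

theorem h20cc_exists_poly {t : F} (a : Algebra.adjoin R {t}) :
    ∃ Q : R[X], aeval (⟨t, Algebra.subset_adjoin rfl⟩ : Algebra.adjoin R {t}) Q = a := by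
  obtain ⟨Q, hQ⟩ := H21S18.exists_poly_of_mem a.2
  refine ⟨Q, Subtype.ext ?_⟩
  rw [← Subalgebra.aeval_coe]
  exact hQ

/-- `t` is integral over `R` modulo `𝔫 B_𝔫`. -/
theorem h20cc_exists_monic {t : F} (ht0 : t ≠ 0) (𝔫 : Ideal (Chart R t⁻¹)) (h𝔫 : 𝔫.IsMaximal)
    (u : Chart R t⁻¹) (hu : (u : F) = t⁻¹) (hun : u ∉ 𝔫) :
    ∃ G : R[X], G.Monic ∧ ∃ a : Chart R t⁻¹, a ∈ 𝔫 ∧ ∃ N : ℕ,
      t⁻¹ ^ N * aeval t G = (a : F) := by
  have h𝔭 : (𝔫.comap (algebraMap (Algebra.adjoin R {t⁻¹}) (Chart R t⁻¹))).IsMaximal :=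
    Ideal.isMaximal_comap_of_isIntegral_of_isMaximal 𝔫
  have hu' : (⟨t⁻¹, Algebra.subset_adjoin rfl⟩ : Algebra.adjoin R {t⁻¹}) ∉
      𝔫.comap (algebraMap (Algebra.adjoin R {t⁻¹}) (Chart R t⁻¹)) := by
    intro h
    rw [Ideal.mem_comap] at h
    have e : algebraMap (Algebra.adjoin R {t⁻¹}) (Chart R t⁻¹)
        (⟨t⁻¹, Algebra.subset_adjoin rfl⟩ : Algebra.adjoin R {t⁻¹}) = u :=
      Subtype.ext hu.symm
    rw [e] at h
    exact hun h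
  obtain ⟨v, i, hi, e⟩ := h𝔭.exists_inv hu'
  obtain ⟨P, hP⟩ := H21S18.exists_poly_of_mem v.2
  refine ⟨X ^ (P.natDegree + 1) - reflect P.natDegree P, ?_,
    algebraMap (Algebra.adjoin R {t⁻¹}) (Chart R t⁻¹) i, hi, P.natDegree + 1, ?_⟩
  · apply monic_X_pow_sub
    refine (degree_le_of_natDegree_le
      ((natDegree_reflect_le).trans (max_le le_rfl le_rfl))).trans_lt ?_
    exact_mod_cast Nat.lt_succ_self _
  · have e' : (v : F) * t⁻¹ + (i : F) = 1 := by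
      have := congrArg (fun z : Algebra.adjoin R {t⁻¹} => (z : F)) e
      simpa using this
    have h1 : t ^ P.natDegree * aeval t⁻¹ P = aeval t (reflect P.natDegree P) :=
      H21S18.pow_mul_aeval_inv ht0 P le_rfl
    have h2 : ((algebraMap (Algebra.adjoin R {t⁻¹}) (Chart R t⁻¹) i : Chart R t⁻¹) : F)
        = (i : F) := rfl
    rw [h2, map_sub, map_pow, aeval_X, ← h1, hP]
    have h3 : (i : F) = 1 - (v : F) * t⁻¹ := by rw [← e']; ring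
    have h4 : t⁻¹ ^ (P.natDegree + 1) * t ^ (P.natDegree + 1) = 1 := by
      rw [← mul_pow, inv_mul_cancel₀ ht0, one_pow]
    have h5 : t⁻¹ ^ (P.natDegree + 1) * t ^ P.natDegree = t⁻¹ := by
      rw [pow_succ, mul_assoc, mul_comm t⁻¹, ← mul_assoc, ← mul_pow, inv_mul_cancel₀ ht0,
        one_pow, one_mul]
    rw [mul_sub, h4, ← mul_assoc, h5, h3]
    ring

end

section

variable {R : Type} [CommRing R] [IsDomain R] [IsDiscreteValuationRing R]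
  {F : Type} [Field F] [Algebra R F]

theorem h20cc_comap_isMaximal {t : F} (ht0 : t ≠ 0) (𝔫 : Ideal (Chart R t⁻¹)) (h𝔫 : 𝔫.IsPrime)
    (u : Chart R t⁻¹) (hu : (u : F) = t⁻¹) (hun : u ∉ 𝔫) (ϖ : R) (hϖ : Irreducible ϖ)
    (hϖ𝔫 : ∀ y : Chart R t⁻¹, (y : F) = algebraMap R F ϖ → y ∈ 𝔫) :
    ((h20ccIdeal ht0 𝔫 h𝔫 u hu hun).comap (algebraMap R (Chart R t))).IsMaximal := by
  have hprime := h20cc_prime ht0 𝔫 h𝔫 u hu hun
  have hne : (h20ccIdeal ht0 𝔫 h𝔫 u hu hun).comap (algebraMap R (Chart R t)) ≠ ⊤ :=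
    (Ideal.comap_isPrime (algebraMap R (Chart R t)) _).ne_top
  have hle : IsLocalRing.maximalIdeal R ≤
      (h20ccIdeal ht0 𝔫 h𝔫 u hu hun).comap (algebraMap R (Chart R t)) := by
    rw [hϖ.maximalIdeal_eq, Ideal.span_singleton_le_iff_mem, Ideal.mem_comap]
    refine ⟨algebraMap R (Chart R t⁻¹) ϖ, 1, hϖ𝔫 _ rfl, 𝔫.ne_top_iff_one.mp h𝔫.ne_top, ?_⟩
    rw [OneMemClass.coe_one, one_mul]
    rfl
  have := (IsLocalRing.maximalIdeal.isMaximal R).eq_of_le hne hle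
  rw [← this]
  exact IsLocalRing.maximalIdeal.isMaximal R

theorem h20cc_isMaximal {t : F} (ht0 : t ≠ 0) (𝔫 : Ideal (Chart R t⁻¹)) (h𝔫 : 𝔫.IsMaximal)
    (u : Chart R t⁻¹) (hu : (u : F) = t⁻¹) (hun : u ∉ 𝔫) (ϖ : R) (hϖ : Irreducible ϖ)
    (hϖ𝔫 : ∀ y : Chart R t⁻¹, (y : F) = algebraMap R F ϖ → y ∈ 𝔫) :
    (h20ccIdeal ht0 𝔫 h𝔫.isPrime u hu hun).IsMaximal := by
  have hprime := h20cc_prime ht0 𝔫 h𝔫.isPrime u hu hun
  obtain ⟨G, hG, a, ha, N, e⟩ := h20cc_exists_monic ht0 𝔫 h𝔫 u hu hun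
  refine h20cc_isMaximal_of_monic (R := R) (A := Algebra.adjoin R {t}) (M := Chart R t)
    (⟨t, Algebra.subset_adjoin rfl⟩ : Algebra.adjoin R {t}) h20cc_exists_poly _
    (h20cc_comap_isMaximal ht0 𝔫 h𝔫.isPrime u hu hun ϖ hϖ hϖ𝔫) G hG ?_
  refine ⟨a, u ^ N, ha, fun h => hun (h𝔫.isPrime.mem_of_pow_mem _ h), ?_⟩
  have h1 : ((algebraMap (Algebra.adjoin R {t}) (Chart R t)
      (aeval (⟨t, Algebra.subset_adjoin rfl⟩ : Algebra.adjoin R {t}) G) : Chart R t) : F)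
      = aeval t G := by
    have := Subalgebra.aeval_coe (Algebra.adjoin R {t})
      (⟨t, Algebra.subset_adjoin rfl⟩ : Algebra.adjoin R {t}) G
    exact this.symm
  rw [h1]
  push_cast
  rw [hu]
  exact e

omit [IsDiscreteValuationRing R] in
theorem h20cc_inLoc_iff {t : F} (ht0 : t ≠ 0) (𝔫 : Ideal (Chart R t⁻¹)) (h𝔫 : 𝔫.IsPrime)
    (u : Chart R t⁻¹) (hu : (u : F) = t⁻¹) (hun : u ∉ 𝔫) (x : F) :
    InLoc R t (h20ccIdeal ht0 𝔫 h𝔫 u hu hun) x ↔ InLoc R t⁻¹ 𝔫 x := by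
  have hupow : ∀ d : ℕ, u ^ d ∉ 𝔫 := fun d h => hun (h𝔫.mem_of_pow_mem _ h)
  constructor
  · rintro ⟨a, s, hs, e⟩
    obtain ⟨d₁, b₁, hb₁⟩ := h20cc_scale ht0 a
    obtain ⟨d₂, b₂, hb₂⟩ := h20cc_scale ht0 s
    have hu₂ : ((u ^ d₂ : Chart R t⁻¹) : F) * (s : F) = (b₂ : F) := by
      push_cast
      rw [hb₂, hu]
    have hb₂n : b₂ ∉ 𝔫 := fun h =>
      hs ((h20cc_mem_iff' ht0 𝔫 h𝔫 u hu hun s _ _ (hupow d₂) hu₂).mpr h)
    refine ⟨u ^ d₂ * b₁, u ^ d₁ * b₂, fun h => (h𝔫.mem_or_mem h).elim (hupow _) hb₂n, ?_⟩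
    push_cast
    rw [hb₁, hb₂, hu, ← e]
    ring
  · rintro ⟨a, s, hs, e⟩
    obtain ⟨d₁, h₁⟩ := h20cc_scale' ht0 a
    obtain ⟨d₂, h₂⟩ := h20cc_scale' ht0 s
    obtain ⟨b₁, hb₁⟩ := h₁ (max d₁ d₂) (le_max_left _ _)
    obtain ⟨b₂, hb₂⟩ := h₂ (max d₁ d₂) (le_max_right _ _)
    have hu₂ : ((u ^ (max d₁ d₂) : Chart R t⁻¹) : F) * (b₂ : F) = (s : F) := by
      push_cast
      rw [hb₂, hu, ← mul_assoc, ← mul_pow, inv_mul_cancel₀ ht0, one_pow, one_mul]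
    have hb₂n : b₂ ∉ h20ccIdeal ht0 𝔫 h𝔫 u hu hun := fun h =>
      hs ((h20cc_mem_iff' ht0 𝔫 h𝔫 u hu hun b₂ _ _ (hupow _) hu₂).mp h)
    refine ⟨b₁, b₂, hb₂n, ?_⟩
    rw [hb₁, hb₂, ← e]
    ring

end

/-- **(CHART)**: a closed point of the chart `t⁻¹` at which `t⁻¹` is a unit is a closed point of
the chart `t`, with the same local ring. -/
theorem h20cc_chartChange : H4S34.ChartChangeStatement := by
  intro R _ _ _ K _ _ _ _ F _ _ _ _ ϖ hϖ t ht _ 𝔫 h𝔫 hu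
  obtain ⟨u, hu, hun⟩ := hu
  have ht0 : t ≠ 0 := H21S18.ne_zero_of_transcendental ht
  refine ⟨h20ccIdeal ht0 𝔫 h𝔫.1.isPrime u hu hun,
    ⟨h20cc_isMaximal ht0 𝔫 h𝔫.1 u hu hun ϖ hϖ h𝔫.2, ?_⟩,
    h20cc_inLoc_iff ht0 𝔫 h𝔫.1.isPrime u hu hun⟩
  intro y hy
  refine ⟨algebraMap R (Chart R t⁻¹) ϖ, 1, h𝔫.2 _ rfl,
    𝔫.ne_top_iff_one.mp h𝔫.1.ne_top, ?_⟩
  rw [OneMemClass.coe_one, one_mul, hy]
  rfl

end H20CC
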