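/-
helper29: item 82 (S34), bookkeeping (B2): descent of the data of `(GU-F)` to a number field
`K₁ ⊆ ℚ̄`, normal over `ℚ`.

* `exists_level`   : `f ∈ F_N` is defined over a number field `K₁`, normal over `ℚ`, containing a
                     primitive `n`-th root of unity;
* `res`            : the restriction `τ₁` of `τ ∈ G_ℚ` to `K₁`; it preserves `A₁ = A ∩ K₁` when `τ`
                     lies in the decomposition group, and is trivial modulo the maximal ideal when
                     `τ` lies in the inertia group;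
* `phi_smul`       : the base change map `F_{K₁}(N) → F_{ℚ̄}(N)` intertwines `τ₁` and `τ`;
* `guField_of_level` : `GUFieldStatement N` from its number-field form `GULevelStatement N`.
-/
import Mathlib
import Fermat.Agent.S34.GUBook_helper29
import Fermat.Agent.S37.R2UMaster_helper29
import Fermat.Agent.S37.R1_helper10
import Fermat.Agent.S18.C6a_helper1

set_option autoImplicit false
set_option linter.unusedSectionVars false
set_option linter.style.haveILetI false
set_option synthInstance.maxHeartbeats 400000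
set_option maxHeartbeats 1000000

noncomputable section

namespace H29GU

open H11W3G ModularCurve AlgebraicCurve H7S18 H28GV H29R2M

section Res

variable (A : ValuationSubring (AlgebraicClosure ℚ))
  (K₁ : IntermediateField ℚ (AlgebraicClosure ℚ)) [Normal ℚ K₁]

/-- the restriction of `τ ∈ G_ℚ` to the normal number field `K₁` -/
def res (τ : GQ) : K₁ ≃ₐ[ℚ] K₁ := τ.restrictNormal K₁

theorem res_commutes (τ : GQ) (x : K₁) :
    algebraMap K₁ (AlgebraicClosure ℚ) (res K₁ τ x) = τ (algebraMap K₁ (AlgebraicClosure ℚ) x) :=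
  AlgEquiv.restrictNormal_commutes τ K₁ x

theorem res_mul (σ τ : GQ) (x : K₁) : res K₁ (σ * τ) x = res K₁ σ (res K₁ τ x) := by
  apply (algebraMap K₁ (AlgebraicClosure ℚ)).injective
  rw [res_commutes, res_commutes, res_commutes]
  rfl

/-- an element of the decomposition group maps `A` to `A` -/
theorem mem_of_decomposition {τ : GQ} (hτ : τ ∈ A.decompositionSubgroup ℚ)
    {x : AlgebraicClosure ℚ} (hx : x ∈ A) : τ x ∈ A := by
  have h := congrArg (fun φ : ↥A →+* AlgebraicClosure ℚ => φ ⟨x, hx⟩)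
    (H10R1.h10r1_subtype_comp A τ hτ)
  have h2 : τ x = ((H10R1.h10r1_resA A τ hτ ⟨x, hx⟩ : ↥A) : AlgebraicClosure ℚ) := h.symm
  rw [h2]
  exact (H10R1.h10r1_resA A τ hτ ⟨x, hx⟩).2

/-- an element of the inertia group is trivial modulo the maximal ideal of `A` -/
theorem sub_mem_of_inertia {τ : GQ} (hτ : τ ∈ A.inertiaSubgroupIn ℚ)
    (hτd : τ ∈ A.decompositionSubgroup ℚ) (x : ↥A) :
    IsLocalRing.residue A (⟨τ (x : AlgebraicClosure ℚ), mem_of_decomposition A hτd x.2⟩ - x) =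
      0 := by
  have h1 : (⟨τ (x : AlgebraicClosure ℚ), mem_of_decomposition A hτd x.2⟩ : ↥A) =
      H10R1.h10r1_resA A τ hτd x := by
    apply Subtype.ext
    have h := congrArg (fun φ : ↥A →+* AlgebraicClosure ℚ => φ x)
      (H10R1.h10r1_subtype_comp A τ hτd)
    exact h.symm
  rw [h1, map_sub, sub_eq_zero]
  have h2 := congrArg (fun φ : ↥A →+* IsLocalRing.ResidueField A => φ x)
    (H10R1.h10r1_residue_comp A τ hτd)
  have h3 : IsLocalRing.residue A (H10R1.h10r1_resA A τ hτd x) =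
      H8S37.h8r_resAut A τ hτd (IsLocalRing.residue A x) := h2
  rw [h3, H8S37.h8r_resAut_inertia A hτ hτd]
  rfl

theorem decomposition_of_inertia {τ : GQ} (hτ : τ ∈ A.inertiaSubgroupIn ℚ) :
    τ ∈ A.decompositionSubgroup ℚ := by
  obtain ⟨τ', -, rfl⟩ := hτ
  exact τ'.2

/-- `τ₁` preserves `A₁ = A ∩ K₁` -/
theorem res_mem {τ : GQ} (hτ : τ ∈ A.decompositionSubgroup ℚ) (a : ↥(descVal A K₁)) :
    res K₁ τ (a : K₁) ∈ descVal A K₁ := by
  show algebraMap K₁ (AlgebraicClosure ℚ) (res K₁ τ (a : K₁)) ∈ A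
  rw [res_commutes]
  exact mem_of_decomposition A hτ a.2

/-- `τ₁` is trivial modulo the maximal ideal of `A₁` when `τ` is in the inertia group -/
theorem res_sub_not_isUnit {τ : GQ} (hτ : τ ∈ A.inertiaSubgroupIn ℚ)
    (a : ↥(descVal A K₁)) :
    ¬ IsUnit ((⟨res K₁ τ (a : K₁), res_mem A K₁ (decomposition_of_inertia A hτ) a⟩ :
      ↥(descVal A K₁)) - a) := by
  intro hu
  have hu' := hu.map (descIncl A K₁)
  have h0 := sub_mem_of_inertia A hτ (decomposition_of_inertia A hτ) (descIncl A K₁ a)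
  have h1 : descIncl A K₁ ((⟨res K₁ τ (a : K₁),
      res_mem A K₁ (decomposition_of_inertia A hτ) a⟩ : ↥(descVal A K₁)) - a) =
      (⟨τ ((descIncl A K₁ a : ↥A) : AlgebraicClosure ℚ),
        mem_of_decomposition A (decomposition_of_inertia A hτ) (descIncl A K₁ a).2⟩ : ↥A) -
        descIncl A K₁ a := by
    rw [map_sub]
    congr 1
    apply Subtype.ext
    exact res_commutes K₁ τ (a : K₁)
  rw [h1] at hu'
  exact ((IsLocalRing.residue_ne_zero_iff_isUnit _).mpr hu') h0

end Res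

section Phi

variable (N : ℕ) [NeZero N] (K₁ : IntermediateField ℚ (AlgebraicClosure ℚ)) [Normal ℚ K₁]

/-- the base change map intertwines `τ₁` and `τ` -/
theorem phi_smul (τ : GQ) (x : FK K₁ N) :
    phi N K₁ (arithmeticGalois (modularFunctionFieldFull N) (res K₁ τ) • x) =
      arithmeticGalois (modularFunctionFieldFull N) τ • phi N K₁ x := by
  apply Subtype.ext
  rw [phi_coe, coe_arithmeticGalois_smul, coe_arithmeticGalois_smul, phi_coe,
    coeffMap_coeffMap, coeffMap_coeffMap]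
  refine coeffMap_congr (RingHom.ext fun a => ?_) _
  exact res_commutes K₁ τ a

end Phi

section Level

variable (N : ℕ) [NeZero N]

/-- `f ∈ F_N` is defined over a number field, normal over `ℚ`, containing a primitive `n`-th
root of unity and a given number field `K₀`. -/
theorem exists_level (n : ℕ) (hn : 0 < n) (K₀ : IntermediateField ℚ (AlgebraicClosure ℚ))
    [FiniteDimensional ℚ K₀] (f : modularFunctionFieldBar N) :
    ∃ K₁ : IntermediateField ℚ (AlgebraicClosure ℚ), FiniteDimensional ℚ K₁ ∧ Normal ℚ K₁ ∧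
      K₀ ≤ K₁ ∧ (∃ ζ : K₁, IsPrimitiveRoot ζ n) ∧ ∃ f₁ : FK K₁ N, phi N K₁ f₁ = f := by
  obtain ⟨K₂, hK₂, hdesc⟩ := H1S18.desc_of_mem (F₀ := modularFunctionFieldFull N) f.2
  haveI := hK₂
  haveI : NeZero ((n : ℕ) : ℚ) := ⟨by exact_mod_cast hn.ne'⟩
  obtain ⟨ζ, hζ⟩ := HasEnoughRootsOfUnity.exists_primitiveRoot (AlgebraicClosure ℚ) n
  haveI : FiniteDimensional ℚ (IntermediateField.adjoin ℚ {ζ}) :=
    IntermediateField.adjoin.finiteDimensional (H1S18.isIntegral_qbar ζ)
  haveI : Algebra.IsAlgebraic ℚ (AlgebraicClosure ℚ) := AlgebraicClosure.isAlgebraic ℚ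
  haveI : IsAlgClosure ℚ (AlgebraicClosure ℚ) := ⟨inferInstance, inferInstance⟩
  haveI : Normal ℚ (AlgebraicClosure ℚ) := IsAlgClosure.normal ℚ (AlgebraicClosure ℚ)
  set K₃ : IntermediateField ℚ (AlgebraicClosure ℚ) :=
    (K₂ ⊔ K₀) ⊔ IntermediateField.adjoin ℚ {ζ} with hK₃
  haveI : FiniteDimensional ℚ K₃ := inferInstance
  set K₁ : IntermediateField ℚ (AlgebraicClosure ℚ) :=
    IntermediateField.normalClosure ℚ K₃ (AlgebraicClosure ℚ) with hK₁
  haveI : FiniteDimensional ℚ K₁ := normalClosure.is_finiteDimensional ℚ K₃ _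
  haveI : Normal ℚ K₁ := normalClosure.normal ℚ K₃ (AlgebraicClosure ℚ)
  have hle : K₃ ≤ K₁ := IntermediateField.le_normalClosure K₃
  have hζmem : ζ ∈ K₁ := hle ((le_sup_right : IntermediateField.adjoin ℚ {ζ} ≤ K₃)
    (IntermediateField.mem_adjoin_simple_self ℚ ζ))
  obtain ⟨x₁, hx₁, hx₁eq⟩ := H1S18.desc_enlarge
    (((le_sup_left : K₂ ≤ K₂ ⊔ K₀).trans le_sup_left).trans hle) hdesc
  refine ⟨K₁, inferInstance, inferInstance, ((le_sup_right : K₀ ≤ K₂ ⊔ K₀).trans
    le_sup_left).trans hle, ⟨⟨ζ, hζmem⟩, ?_⟩, ⟨x₁, hx₁⟩, ?_⟩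
  · exact IsPrimitiveRoot.of_map_of_injective (f := algebraMap K₁ (AlgebraicClosure ℚ))
      (ζ := (⟨ζ, hζmem⟩ : K₁)) hζ (algebraMap K₁ (AlgebraicClosure ℚ)).injective
  · apply Subtype.ext
    rw [phi_coe]
    exact hx₁eq

/-- **(GU-L)**: the number-field form of geometric unipotency: `f₁ ∈ F_{K₁}(N)` for a number
field `K₁`, normal over `ℚ`, containing `μ_n`. -/
def GULevelStatement (N : ℕ) [NeZero N] : Prop :=
  ∀ (n q : ℕ), q.Prime → q ∣ N → ¬ q ^ 2 ∣ N → 0 < n → ¬ q ∣ n →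
    ∀ A : ValuationSubring (AlgebraicClosure ℚ), A.LiesOverPrime q →
      ∀ τ ∈ A.inertiaSubgroupIn ℚ,
        ∀ (K₁ : IntermediateField ℚ (AlgebraicClosure ℚ)) (_ : FiniteDimensional ℚ K₁)
          (_ : Normal ℚ K₁) (_ : ∃ ζ : K₁, IsPrimitiveRoot ζ n) (f₁ : FK K₁ N), f₁ ≠ 0 →
          (∀ P : Place (AlgebraicClosure ℚ) (modularFunctionFieldBar N),
            (n : ℤ) ∣ P.ord (phi N K₁ f₁)) →
          ∃ ψ : modularFunctionFieldBar N,
            (arithmeticGalois (modularFunctionFieldFull N) τ •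
              arithmeticGalois (modularFunctionFieldFull N) τ • phi N K₁ f₁) * phi N K₁ f₁ =
            ψ ^ n * (arithmeticGalois (modularFunctionFieldFull N) τ • phi N K₁ f₁) ^ 2

/-- **(B2)**: `(GU-F)` from its number-field form. -/
theorem guField_of_level (h : GULevelStatement N) : GUFieldStatement N := by
  intro n q hq hqN hq2 hn hqn A hA τ hτ f hf0 hf
  obtain ⟨K₁, hfin, hnor, -, hζ, f₁, hf₁⟩ := exists_level N n hn ⊥ f
  have hf₁0 : f₁ ≠ 0 := by
    rintro rfl
    apply hf0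
    rw [← hf₁, map_zero]
  obtain ⟨ψ, hψ⟩ := h n q hq hqN hq2 hn hqn A hA τ hτ K₁ hfin hnor hζ f₁ hf₁0
    (by rw [hf₁]; exact hf)
  rw [hf₁] at hψ
  exact ⟨ψ, hψ⟩

end Level

end H29GU

end
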