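/-
helper29: item 82 (S34), slice (B2): the descent statement.

`H29DS.descent_core`: a function `f ∈ F_N` over `ℚ̄` with `n ∣ div f` is defined over a number
field `K₁ ⊆ ℚ̄`, normal over `ℚ`, containing a given number field `K₀` and the `n`-th roots of
unity, such that `n ∣ div f₁` over `K₁` and the places of `F_{K₁}(N)` in the support of `div f₁`
are `K₁`-rational.

Proof: the support `S` of `div f` over `ℚ̄` is finite.  `K₁` contains the fields of definition of
`f`, of a uniformizer `u_W` at every `W ∈ S`, and of the stabiliser of every `W ∈ S`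
(`H13W3G.place_finLev`).  For a place `V` of `F₁` with `ord_V f₁ ≠ 0`, a place `W` of `F_N` over
`V` (`H1S18.placeDescent`, index `ε`) lies in `S`; `1 = ord_W u_W = ε ord_V u₁` gives `ε = 1`; the
value `c ∈ ℚ̄` of a function `x ∈ O_V` at `W` is fixed by `Gal(ℚ̄ / K₁)`, so `c ∈ K₁`.
-/
import Mathlib
import Fermat.Agent.S34.GUDesc_helper29
import Fermat.Agent.S34.Defs_helper4
import Fermat.Agent.W3G.FinLevAbs_helper13
import Fermat.Agent.S37.RW_helper1
import Fermat.Agent.FF.PrincipalDivisors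
import Fermat.Agent.S18.C6c_helper1
import Fermat.Agent.S18.C6e_helper9

set_option autoImplicit false
set_option linter.unusedSectionVars false
set_option linter.unusedVariables false
set_option linter.style.haveILetI false
set_option synthInstance.maxHeartbeats 400000
set_option maxHeartbeats 1000000

noncomputable section

namespace H29DS

open H11W3G ModularCurve AlgebraicCurve H7S18 H28GV H29R2M H29GU

local notation "Qb" => AlgebraicClosure ℚ

/-- finitely many series of `ℚ̄ · F₀` descend to a common number field -/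
theorem desc_finset (F₀ : IntermediateField ℚ (LaurentSeries ℚ))
    (T : Finset (LaurentSeries Qb)) (hT : ∀ x ∈ T, H1S18.Desc F₀ x) :
    ∃ K₁ : IntermediateField ℚ Qb, FiniteDimensional ℚ K₁ ∧
      ∀ x ∈ T, ∃ x₁ : LaurentSeries K₁, x₁ ∈ laurentBaseChange K₁ F₀ ∧
        coeffMap (algebraMap K₁ Qb) x₁ = x := by
  classical
  induction T using Finset.induction_on with
  | empty => exact ⟨⊥, inferInstance, fun i hi => absurd hi (Finset.notMem_empty i)⟩
  | insert a s ha ih =>
    obtain ⟨K₁, hK₁, h₁⟩ := ih (fun i hi => hT i (Finset.mem_insert_of_mem hi))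
    obtain ⟨K₂, hK₂, h₂⟩ := hT a (Finset.mem_insert_self a s)
    haveI := hK₁
    haveI := hK₂
    refine ⟨K₁ ⊔ K₂, inferInstance, fun i hi => ?_⟩
    rcases Finset.mem_insert.mp hi with rfl | hi'
    · exact H1S18.desc_enlarge le_sup_right h₂
    · exact H1S18.desc_enlarge le_sup_left (h₁ i hi')

section Level

variable (N : ℕ) [NeZero N]

/-- finitely many elements of `F_N` are defined over a number field, normal over `ℚ`, containing
a primitive `n`-th root of unity and a given number field `K₀`. -/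
theorem exists_level_finset (n : ℕ) (hn : 0 < n) (K₀ : IntermediateField ℚ Qb)
    [FiniteDimensional ℚ K₀] (T : Finset (modularFunctionFieldBar N)) :
    ∃ K₁ : IntermediateField ℚ Qb, FiniteDimensional ℚ K₁ ∧ Normal ℚ K₁ ∧
      K₀ ≤ K₁ ∧ (∃ ζ : K₁, IsPrimitiveRoot ζ n) ∧
      ∀ y ∈ T, ∃ y₁ : FK K₁ N, phi N K₁ y₁ = y := by
  classical
  obtain ⟨K₂, hK₂, hdesc⟩ := desc_finset (modularFunctionFieldFull N)
    (T.image (fun y : modularFunctionFieldBar N => (y : LaurentSeries Qb)))
    (fun x hx => by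
      obtain ⟨y, -, rfl⟩ := Finset.mem_image.mp hx
      exact H1S18.desc_of_mem (F₀ := modularFunctionFieldFull N) y.2)
  haveI := hK₂
  haveI : NeZero ((n : ℕ) : ℚ) := ⟨by exact_mod_cast hn.ne'⟩
  obtain ⟨ζ, hζ⟩ := HasEnoughRootsOfUnity.exists_primitiveRoot Qb n
  haveI : FiniteDimensional ℚ (IntermediateField.adjoin ℚ {ζ}) :=
    IntermediateField.adjoin.finiteDimensional (H1S18.isIntegral_qbar ζ)
  haveI : Algebra.IsAlgebraic ℚ Qb := AlgebraicClosure.isAlgebraic ℚ
  haveI : IsAlgClosure ℚ Qb := ⟨inferInstance, inferInstance⟩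
  haveI : Normal ℚ Qb := IsAlgClosure.normal ℚ Qb
  set K₃ : IntermediateField ℚ Qb := (K₂ ⊔ K₀) ⊔ IntermediateField.adjoin ℚ {ζ} with hK₃
  haveI : FiniteDimensional ℚ K₃ := inferInstance
  set K₁ : IntermediateField ℚ Qb := IntermediateField.normalClosure ℚ K₃ Qb with hK₁
  haveI : FiniteDimensional ℚ K₁ := normalClosure.is_finiteDimensional ℚ K₃ _
  haveI : Normal ℚ K₁ := normalClosure.normal ℚ K₃ Qb
  have hle : K₃ ≤ K₁ := IntermediateField.le_normalClosure K₃
  have hζmem : ζ ∈ K₁ := hle ((le_sup_right : IntermediateField.adjoin ℚ {ζ} ≤ K₃)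
    (IntermediateField.mem_adjoin_simple_self ℚ ζ))
  refine ⟨K₁, inferInstance, inferInstance, ((le_sup_right : K₀ ≤ K₂ ⊔ K₀).trans
    le_sup_left).trans hle, ⟨⟨ζ, hζmem⟩, ?_⟩, fun y hy => ?_⟩
  · exact IsPrimitiveRoot.of_map_of_injective (f := algebraMap K₁ Qb)
      (ζ := (⟨ζ, hζmem⟩ : K₁)) hζ (algebraMap K₁ Qb).injective
  · obtain ⟨x₁, hx₁, hx₁eq⟩ := H1S18.desc_enlarge
      (((le_sup_left : K₂ ≤ K₂ ⊔ K₀).trans le_sup_left).trans hle)
      (hdesc _ (Finset.mem_image_of_mem _ hy))
    refine ⟨⟨x₁, hx₁⟩, ?_⟩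
    apply Subtype.ext
    rw [phi_coe]
    exact hx₁eq

/-- an automorphism fixing `K₁` fixes the functions defined over `K₁` -/
theorem smul_phi_of_fixes (K₁ : IntermediateField ℚ Qb) (σ : Qb ≃ₐ[ℚ] Qb)
    (hσ : ∀ y ∈ K₁, σ y = y) (y₁ : FK K₁ N) :
    arithmeticGalois (modularFunctionFieldFull N) σ • phi N K₁ y₁ = phi N K₁ y₁ := by
  apply Subtype.ext
  rw [coe_arithmeticGalois_smul, phi_coe, coeffMap_coeffMap]
  refine coeffMap_congr (RingHom.ext fun a => ?_) _
  exact hσ _ a.2

end Level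

/-- an element of `ℚ̄` fixed by `Gal(ℚ̄ / K₁)` lies in `K₁` -/
theorem mem_of_fixed (K₁ : IntermediateField ℚ Qb) (c : Qb)
    (h : ∀ σ : Qb ≃ₐ[ℚ] Qb, (∀ y ∈ K₁, σ y = y) → σ c = c) : c ∈ K₁ := by
  haveI : Algebra.IsAlgebraic ℚ Qb := AlgebraicClosure.isAlgebraic ℚ
  haveI : IsAlgClosure ℚ Qb := ⟨inferInstance, inferInstance⟩
  haveI : Normal ℚ Qb := IsAlgClosure.normal ℚ Qb
  haveI : IsGalois ℚ Qb := ⟨⟩
  rw [← InfiniteGalois.fixedField_fixingSubgroup K₁, IntermediateField.mem_fixedField_iff]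
  intro σ hσ
  exact h σ (fun y hy => hσ ⟨y, hy⟩)

section Main

variable (N : ℕ) [NeZero N]

attribute [local instance] algFF towKF algFFalg algKL

/-- principal divisors over `ℚ̄` -/
theorem hasPrincipalDivisors_bar :
    HasPrincipalDivisors Qb (modularFunctionFieldBar N) := by
  obtain ⟨hfd, -⟩ := RH24.B_degree N
  haveI := hfd
  exact H27FF.h27ff_hasPrincipalDivisors (RH24.Jbar N) (RH24.B_transcendental N)

/-- a place of degree one has values -/
theorem exists_value (W : Place Qb (modularFunctionFieldBar N))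
    (y : modularFunctionFieldBar N) (hy : y ∈ W.toValuationSubring) :
    ∃ c : Qb, y = algebraMap Qb (modularFunctionFieldBar N) c ∨
      0 < W.ord (y - algebraMap Qb (modularFunctionFieldBar N) c) := by
  have h1 : Module.finrank Qb W.ResidueField = 1 := H1RW.deg_eq_one_modular N W
  obtain ⟨a, ha⟩ := (finrank_eq_one_iff_of_nonzero' (1 : W.ResidueField) one_ne_zero).mp h1
    (IsLocalRing.residue _ ⟨y, hy⟩)
  refine ⟨a, ?_⟩
  have hmem : (⟨y, hy⟩ - algebraMap Qb W.toValuationSubring a : W.toValuationSubring) ∈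
      IsLocalRing.maximalIdeal W.toValuationSubring := by
    rw [← IsLocalRing.residue_eq_zero_iff, map_sub, ← ha, sub_eq_zero, Algebra.smul_def, mul_one]
    rfl
  have h2 : W.adicValuation ((⟨y, hy⟩ - algebraMap Qb W.toValuationSubring a :
      W.toValuationSubring) : modularFunctionFieldBar N) < 1 := by
    rw [W.adicValuation_coe]
    exact (IsDedekindDomain.HeightOneSpectrum.intValuation_lt_one_iff_mem _ _).mpr hmem
  have h3 : ((⟨y, hy⟩ - algebraMap Qb W.toValuationSubring a :
      W.toValuationSubring) : modularFunctionFieldBar N) =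
      y - algebraMap Qb (modularFunctionFieldBar N) a := rfl
  rw [h3] at h2
  by_cases h0 : y - algebraMap Qb (modularFunctionFieldBar N) a = 0
  · exact Or.inl (sub_eq_zero.mp h0)
  · exact Or.inr ((RH24.h20_adicValuation_lt_one_iff W h0).mp h2)

/-- the value of a function at a place is unique -/
theorem value_unique (W : Place Qb (modularFunctionFieldBar N))
    (y : modularFunctionFieldBar N) (c c' : Qb)
    (h : y = algebraMap Qb (modularFunctionFieldBar N) c ∨
      0 < W.ord (y - algebraMap Qb (modularFunctionFieldBar N) c))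
    (h' : y = algebraMap Qb (modularFunctionFieldBar N) c' ∨
      0 < W.ord (y - algebraMap Qb (modularFunctionFieldBar N) c')) : c = c' := by
  by_contra hne
  have hcc : algebraMap Qb (modularFunctionFieldBar N) (c' - c) ≠ 0 := by
    rw [Ne, map_eq_zero]
    exact sub_ne_zero.mpr (Ne.symm hne)
  have h0 : W.ord (algebraMap Qb (modularFunctionFieldBar N) (c' - c)) = 0 :=
    RH24.h20_ord_algebraMap W _
  have hneg : ∀ z : modularFunctionFieldBar N, W.ord (-z) = W.ord z := fun z => by
    rw [Place.ord, Place.ord, Valuation.map_neg]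
  rcases h with h | h
  · rcases h' with h' | h'
    · apply hne
      exact (algebraMap Qb (modularFunctionFieldBar N)).injective (h.symm.trans h')
    · rw [h, ← map_sub, ← neg_sub, map_neg, hneg] at h'
      omega
  · rcases h' with h' | h'
    · rw [h', ← map_sub] at h
      omega
    · have hz : y - algebraMap Qb (modularFunctionFieldBar N) c ≠ 0 := by
        intro hz
        rw [hz, W.ord_zero] at h
        exact lt_irrefl _ h
      have hz' : y - algebraMap Qb (modularFunctionFieldBar N) c' ≠ 0 := by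
        intro hz'
        rw [hz', W.ord_zero] at h'
        exact lt_irrefl _ h'
      have e : (y - algebraMap Qb (modularFunctionFieldBar N) c) +
          -(y - algebraMap Qb (modularFunctionFieldBar N) c') =
          algebraMap Qb (modularFunctionFieldBar N) (c' - c) := by
        rw [map_sub]; ring
      have h4 := RH24.h20_ord_add W hz (neg_ne_zero.mpr hz') (by rw [e]; exact hcc)
      rw [e, h0, hneg] at h4
      have := lt_min h h'
      omega

/-- **(B2) core**, with finitely many extra functions `T` to be descended along with `f`: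
descent of a function with `n ∣ div f` to a number field `K₁`, normal over `ℚ`, with
`n ∣ div f₁` over `K₁` and `K₁`-rational support. -/
theorem descent_finset (n : ℕ) (hn : 0 < n)
    (f : modularFunctionFieldBar N) (hf0 : f ≠ 0)
    (hdiv : ∀ P : Place Qb (modularFunctionFieldBar N), (n : ℤ) ∣ P.ord f)
    (K₀ : IntermediateField ℚ Qb) (hK₀ : FiniteDimensional ℚ K₀)
    (T : Finset (modularFunctionFieldBar N)) :
    ∃ (K₁ : IntermediateField ℚ Qb) (_ : FiniteDimensional ℚ K₁) (f₁ : FK K₁ N),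
      K₀ ≤ K₁ ∧ Normal ℚ K₁ ∧ (∃ ζ : K₁, IsPrimitiveRoot ζ n) ∧
      (f : LaurentSeries Qb) = coeffMap (algebraMap K₁ Qb) (f₁ : LaurentSeries K₁) ∧
      (∀ V : Place K₁ (FK K₁ N), (n : ℤ) ∣ V.ord f₁) ∧
      (∀ V : Place K₁ (FK K₁ N), V.ord f₁ ≠ 0 → ∀ x : FK K₁ N, 0 ≤ V.ord x →
        ∃ c : K₁, x = algebraMap K₁ (FK K₁ N) c ∨
          0 < V.ord (x - algebraMap K₁ (FK K₁ N) c)) ∧
      ∀ y ∈ T, ∃ y₁ : FK K₁ N, phi N K₁ y₁ = y := by
  classical
  haveI := hK₀
  haveI hPD : HasPrincipalDivisors Qb (modularFunctionFieldBar N) := hasPrincipalDivisors_bar N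
  haveI : Algebra.IsAlgebraic ℚ Qb := AlgebraicClosure.isAlgebraic ℚ
  obtain ⟨D, hD, -⟩ := HasPrincipalDivisors.exists_divisor (K := Qb) f hf0
  -- uniformizers
  have hu : ∀ W : Place Qb (modularFunctionFieldBar N),
      ∃ u : modularFunctionFieldBar N, W.ord u = 1 := by
    intro W
    obtain ⟨π, hπ⟩ := IsDiscreteValuationRing.exists_irreducible W.toValuationSubring
    exact ⟨π, W.ord_coe_irreducible hπ⟩
  choose u hu using hu
  -- stabilisers
  have hst := H13W3G.place_finLev (L := Qb) (modularFunctionFieldFull N)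
  choose E hE hEW using hst
  haveI : ∀ W, FiniteDimensional ℚ (E W) := hE
  set K₀' : IntermediateField ℚ Qb := K₀ ⊔ ⨆ W ∈ D.support, E W with hK₀'
  haveI : FiniteDimensional ℚ K₀' := IntermediateField.finiteDimensional_sup _ _
  obtain ⟨K₁, hK₁fin, hK₁nor, hK₀K₁, hζ, hT⟩ :=
    exists_level_finset N n hn K₀' (insert f (D.support.image u ∪ T))
  obtain ⟨f₁, hf₁⟩ := hT f (Finset.mem_insert_self _ _)
  have hEK : ∀ W ∈ D.support, E W ≤ K₁ := fun W hW =>
    (le_sup_of_le_right (le_iSup₂_of_le W hW le_rfl)).trans hK₀K₁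
  -- the place above `V`
  have key : ∀ V : Place K₁ (FK K₁ N), V.ord f₁ ≠ 0 →
      ∃ W : Place Qb (modularFunctionFieldBar N), W ∈ D.support ∧
        ∀ y : FK K₁ N, W.ord (phi N K₁ y) = V.ord y := by
    intro V hV
    obtain ⟨t₁, ht₁coe, ht₁tr, ht₁fin, -⟩ :=
      H9C6e.fieldBasics N 1 (Or.inl rfl) jq (Or.inl ⟨rfl, rfl⟩) K₁
    obtain ⟨tL, htLcoe, -, htLfin, -⟩ :=
      H9C6e.fieldBasics N 1 (Or.inl rfl) jq (Or.inl ⟨rfl, rfl⟩) Qb
    have htL : algebraMap (FK K₁ N) (FK Qb N) t₁ = tL := by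
      apply Subtype.ext
      rw [algebraMap_FF, phi_coe, ht₁coe, htLcoe]
      show coeffMap (algebraMap K₁ Qb) (coeffMap (algebraMap ℚ K₁) jq) =
        coeffMap (algebraMap ℚ Qb) jq
      rw [coeffMap_coeffMap]
      exact coeffMap_congr (Subsingleton.elim _ _) jq
    rw [← htL] at htLfin
    obtain ⟨W, ε, hε, hW⟩ := H1S18.placeDescent K₁ Qb (FK K₁ N) (FK Qb N) t₁ ht₁tr ht₁fin
      htLfin V
    have hWf : W.ord f = ε * V.ord f₁ := by
      rw [← hf₁]
      exact hW f₁
    have hWS : W ∈ D.support := by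
      rw [Finsupp.mem_support_iff, hD W, hWf]
      exact mul_ne_zero (by exact_mod_cast hε.ne') hV
    obtain ⟨u₁, hu₁⟩ := hT (u W) (Finset.mem_insert_of_mem
      (Finset.mem_union_left _ (Finset.mem_image_of_mem u hWS)))
    have h1 : (ε : ℤ) * V.ord u₁ = 1 := by
      rw [← hW u₁, algebraMap_FF, hu₁, hu W]
    have hε1 : (ε : ℤ) = 1 := by
      have h2 : (ε : ℤ) ∣ 1 := Dvd.intro _ h1
      have h3 := Int.eq_one_or_neg_one_of_mul_eq_one h1
      rcases h3 with h3 | h3
      · exact h3
      · have : (0 : ℤ) ≤ ε := Int.natCast_nonneg ε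
        omega
    refine ⟨W, hWS, fun y => ?_⟩
    have := hW y
    rw [hε1, one_mul] at this
    exact this
  refine ⟨K₁, hK₁fin, f₁, le_sup_left.trans hK₀K₁, hK₁nor, hζ, ?_, ?_, ?_,
    fun y hy => hT y (Finset.mem_insert_of_mem (Finset.mem_union_right _ hy))⟩
  · rw [← hf₁, phi_coe]
  · intro V
    by_cases hV : V.ord f₁ = 0
    · rw [hV]
      exact dvd_zero _
    · obtain ⟨W, -, hW⟩ := key V hV
      rw [← hW f₁, hf₁]
      exact hdiv W
  · intro V hV x hx
    obtain ⟨W, hWS, hW⟩ := key V hV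
    by_cases hx0 : x = 0
    · exact ⟨0, Or.inl (by rw [hx0, map_zero])⟩
    have hφx0 : phi N K₁ x ≠ 0 := by
      rw [Ne, map_eq_zero]
      exact hx0
    have hmem : phi N K₁ x ∈ W.toValuationSubring := by
      rw [RH24.h20_mem_iff_ord_nonneg W hφx0, hW]
      exact hx
    obtain ⟨c, hc⟩ := exists_value N W (phi N K₁ x) hmem
    -- `c` is fixed by `Gal(ℚ̄ / K₁)`
    have hcK : c ∈ K₁ := by
      apply mem_of_fixed K₁ c
      intro σ hσ
      have hσW : arithmeticGalois (modularFunctionFieldFull N) σ • W = W :=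
        hEW W σ (fun y hy => hσ y (hEK W hWS hy))
      have hσx := smul_phi_of_fixes N K₁ σ hσ x
      have hσc : arithmeticGalois (modularFunctionFieldFull N) σ •
          algebraMap Qb (modularFunctionFieldBar N) c =
          algebraMap Qb (modularFunctionFieldBar N) (σ c) :=
        SemilinearAut.smul_algebraMap _ c
      have hc' : phi N K₁ x = algebraMap Qb (modularFunctionFieldBar N) (σ c) ∨
          0 < W.ord (phi N K₁ x - algebraMap Qb (modularFunctionFieldBar N) (σ c)) := by
        rcases hc with hc | hc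
        · left
          rw [← hσc, ← hc, hσx]
        · right
          have h5 := SemilinearAut.ord_smul (arithmeticGalois (modularFunctionFieldFull N) σ) W
            (phi N K₁ x - algebraMap Qb (modularFunctionFieldBar N) c)
          rw [hσW, smul_sub, hσx, hσc] at h5
          rw [h5]
          exact hc
      exact (value_unique N W (phi N K₁ x) c (σ c) hc hc').symm
    refine ⟨⟨c, hcK⟩, ?_⟩
    have hφc : phi N K₁ (algebraMap K₁ (FK K₁ N) (⟨c, hcK⟩ : K₁)) =
        algebraMap Qb (modularFunctionFieldBar N) c := by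
      rw [← algebraMap_FF, ← IsScalarTower.algebraMap_apply K₁ (FK K₁ N) (FK Qb N),
        IsScalarTower.algebraMap_apply K₁ Qb (FK Qb N)]
      rfl
    rcases hc with hc | hc
    · left
      apply (phi N K₁).injective
      rw [hφc]
      exact hc
    · right
      rw [← hW, map_sub, hφc]
      exact hc

end Main

/-- **(B2) core**: descent of a function with `n ∣ div f` to a number field `K₁`, normal over
`ℚ`, with `n ∣ div f₁` over `K₁` and `K₁`-rational support. -/
theorem descent_core (N : ℕ) [NeZero N] (n : ℕ) (hn : 0 < n)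
    (f : modularFunctionFieldBar N) (hf0 : f ≠ 0)
    (hdiv : ∀ P : Place Qb (modularFunctionFieldBar N), (n : ℤ) ∣ P.ord f)
    (K₀ : IntermediateField ℚ Qb) (hK₀ : FiniteDimensional ℚ K₀) :
    ∃ (K₁ : IntermediateField ℚ Qb) (_ : FiniteDimensional ℚ K₁) (f₁ : FK K₁ N),
      K₀ ≤ K₁ ∧ Normal ℚ K₁ ∧ (∃ ζ : K₁, IsPrimitiveRoot ζ n) ∧
      (f : LaurentSeries Qb) = coeffMap (algebraMap K₁ Qb) (f₁ : LaurentSeries K₁) ∧
      (∀ V : Place K₁ (FK K₁ N), (n : ℤ) ∣ V.ord f₁) ∧
      (∀ V : Place K₁ (FK K₁ N), V.ord f₁ ≠ 0 → ∀ x : FK K₁ N, 0 ≤ V.ord x →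
        ∃ c : K₁, x = algebraMap K₁ (FK K₁ N) c ∨
          0 < V.ord (x - algebraMap K₁ (FK K₁ N) c)) := by
  obtain ⟨K₁, hfin, f₁, h1, h2, h3, h4, h5, h6, -⟩ := descent_finset N n hn f hf0 hdiv K₀ hK₀ ∅
  exact ⟨K₁, hfin, f₁, h1, h2, h3, h4, h5, h6⟩

/-- **(B2)**: `H4S34.DescentStatement`. -/
theorem descentStatement : H4S34.DescentStatement :=
  fun N _ n hn f hf0 hdiv K₀ hK₀ => descent_core N n hn f hf0 hdiv K₀ hK₀

end H29DS

end
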