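import Mathlib
import Fermat.Agent.S34.Defs_helper7
import Fermat.Agent.S31.MainAux_helper7

/-!
# Item 82 (S34): auxiliary lemmas for the assembly (helper7)
-/

set_option autoImplicit false
set_option linter.style.haveILetI false

noncomputable section

open Polynomial

namespace H7S34

open H11W3G ModularCurve

/-- the characteristic polynomial of an endomorphism of a free module of rank 2 -/
theorem h7s34_charpoly_two {T : Type*} [CommRing T] [Nontrivial T] {V : Type*} [AddCommGroup V]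
    [Module T V] [Module.Free T V] [Module.Finite T V] (hrk : Module.finrank T V = 2)
    (M : Module.End T V) :
    LinearMap.charpoly M = X ^ 2 - C (LinearMap.trace T V M) * X + C (LinearMap.det M) := by
  classical
  let B : Module.Basis (Fin 2) T V := Module.finBasisOfFinrankEq T V hrk
  rw [← LinearMap.charpoly_toMatrix M B, Matrix.charpoly_fin_two,
    LinearMap.trace_eq_matrix_trace T B M, ← LinearMap.det_toMatrix B M]

/-- the determinant of an endomorphism `≡ 1 mod I` is `≡ 1 mod I` -/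
theorem h7s34_det_mem {T : Type*} [CommRing T] {V : Type*} [AddCommGroup V] [Module T V]
    [Module.Free T V] [Module.Finite T V] (I : Ideal T) (E : Module.End T V)
    (hE : ∀ v : V, E v - v ∈ I • (⊤ : Submodule T V)) : LinearMap.det E - 1 ∈ I := by
  classical
  let b := Module.Free.chooseBasis T V
  rw [← LinearMap.det_toMatrix b E]
  have h2 : ∀ i, (I • (⊤ : Submodule T V)) ≤ Submodule.comap (b.coord i : V →ₗ[T] T) I := by
    intro i
    rw [Submodule.smul_le]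
    intro r hr v _
    rw [Submodule.mem_comap, map_smul, smul_eq_mul]
    exact Ideal.mul_mem_right _ _ hr
  have hent : ∀ i j, LinearMap.toMatrix b b E i j - (1 : Matrix _ _ T) i j ∈ I := by
    intro i j
    have h1 := h2 i (hE (b j))
    rw [Submodule.mem_comap, map_sub] at h1
    have e1 : (b.coord i) (E (b j)) = LinearMap.toMatrix b b E i j := by
      rw [LinearMap.toMatrix_apply]; rfl
    have e2 : (b.coord i) (b j) = (1 : Matrix _ _ T) i j := by
      rw [Module.Basis.coord_apply, Module.Basis.repr_self, Matrix.one_apply,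
        Finsupp.single_apply]
      by_cases h : j = i
      · rw [if_pos h, if_pos h.symm]
      · rw [if_neg h, if_neg (Ne.symm h)]
    rw [e1, e2] at h1
    exact h1
  rw [← Ideal.Quotient.eq, map_one, RingHom.map_det]
  have : (Ideal.Quotient.mk I).mapMatrix (LinearMap.toMatrix b b E) = 1 := by
    ext i j
    rw [RingHom.mapMatrix_apply, Matrix.map_apply, Matrix.one_apply]
    have h := hent i j
    rw [← Ideal.Quotient.eq, Matrix.one_apply] at h
    rw [h]
    split_ifs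
    · rw [map_one]
    · rw [map_zero]
  rw [this, Matrix.det_one]

/-- T side for the determinant: if `σ = g` on the level-`n` field of `ρ`, the determinants are
congruent mod `𝔪ⁿ` -/
theorem h7s34_det_congr {T : Type} [CommRing T] [IsLocalRing T] (ρ : GaloisRepAdic T) (n : ℕ)
    (L : IntermediateField ℚ (AlgebraicClosure ℚ))
    (hL : ∀ σ : GQ, (∀ x ∈ L, σ x = x) →
      ∀ v : ρ.V, ρ.ρ σ v - v ∈ (IsLocalRing.maximalIdeal T ^ n) • (⊤ : Submodule T ρ.V))
    (g σ : GQ) (h : ∀ x ∈ L, σ x = g x) :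
    LinearMap.det (ρ.ρ σ) - LinearMap.det (ρ.ρ g) ∈ IsLocalRing.maximalIdeal T ^ n := by
  have hδ : ∀ x ∈ L, (g⁻¹ * σ) x = x := by
    intro x hx
    rw [AlgEquiv.mul_apply, h x hx, AlgEquiv.aut_inv, AlgEquiv.symm_apply_apply]
  have h1 := h7s34_det_mem _ _ (hL _ hδ)
  have hσ : σ = g * (g⁻¹ * σ) := by rw [mul_inv_cancel_left]
  have e : LinearMap.det (ρ.ρ σ) - LinearMap.det (ρ.ρ g) =
      LinearMap.det (ρ.ρ g) * (LinearMap.det (ρ.ρ (g⁻¹ * σ)) - 1) := by
    conv_lhs => rw [hσ, map_mul, map_mul]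
    ring
  rw [e]
  exact Ideal.mul_mem_left _ _ h1

/-- the cyclotomic congruence: if `φ'^b' = τ` on a suitable finite level `L` (`φ'` a Frobenius
lift at `ℓ' ≠ p`, `τ` in an inertia group at `q ≠ p`), then `ℓ'^b' ≡ 1 mod p^m`. -/
theorem h7s34_cyc_one (p : ℕ) [Fact p.Prime] (hCyc : CycAdicStatement p) (m : ℕ) :
    ∃ L : IntermediateField ℚ (AlgebraicClosure ℚ), FiniteDimensional ℚ L ∧
      ∀ (τ : GQ) (q : ℕ), q.Prime → q ≠ p →
        ∀ P : ValuationSubring (AlgebraicClosure ℚ), P.LiesOverPrime q →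
        τ ∈ P.inertiaSubgroupIn ℚ →
        ∀ (ℓ' : ℕ), ℓ'.Prime → ℓ' ≠ p →
        ∀ (A' : ValuationSubring (AlgebraicClosure ℚ)), A'.LiesOverPrime ℓ' →
        ∀ (σ' : GQ), A'.IsFrobeniusAt σ' ℓ' →
        ∀ (b' : ℕ), (∀ x ∈ L, (σ' ^ b') x = τ x) →
          ((p : ℤ) ^ m) ∣ ((ℓ' : ℤ) ^ b' - 1) := by
  have hpm : (p : ℤ_[p]) ∈ IsLocalRing.maximalIdeal ℤ_[p] := by
    rw [PadicInt.maximalIdeal_eq_span_p]
    exact Ideal.mem_span_singleton_self _
  obtain ⟨d, hcont, hfrob, hinert, -⟩ := hCyc ℤ_[p] hpm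
  obtain ⟨L, hLfin, hL⟩ := hcont m
  refine ⟨L, hLfin, ?_⟩
  intro τ q hq hqp P hP hτ ℓ' hℓ' hℓ'p A' hA' σ' hσ' b' hb'
  have hδ : ∀ x ∈ L, (τ⁻¹ * σ' ^ b') x = x := by
    intro x hx
    rw [AlgEquiv.mul_apply, hb' x hx, AlgEquiv.aut_inv, AlgEquiv.symm_apply_apply]
  have h1 := hL _ hδ
  have h2 : d (τ⁻¹ * σ' ^ b') = d (σ' ^ b') := by
    rw [map_mul, map_inv, hinert q hq hqp P hP τ hτ, inv_one, one_mul]
  rw [h2] at h1
  have h4 : ((d (σ' ^ b') : ℤ_[p]ˣ) : ℤ_[p]) = (ℓ' : ℤ_[p]) ^ b' := by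
    rw [map_pow, Units.val_pow_eq_pow_val, hfrob ℓ' hℓ' hℓ'p A' hA' σ' hσ']
  rw [h4] at h1
  rw [PadicInt.maximalIdeal_eq_span_p, Ideal.span_singleton_pow, Ideal.mem_span_singleton] at h1
  have h6 : ((((ℓ' : ℤ) ^ b' - 1 : ℤ)) : ℤ_[p]) = (ℓ' : ℤ_[p]) ^ b' - 1 := by
    push_cast
    rfl
  rw [← h6] at h1
  exact (PadicInt.pow_p_dvd_int_iff m _).mp h1

/-- the J-side identity: `σ x + a σ⁻¹ x = 2 x` if `σ = τ` on `x`, `τ⁻¹ x`, `(τ - 1)² x = 0` and
`a ≡ 1 mod n`. -/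
theorem h7s34_J_abs {G : Type*} [Group G] {J : Type*} [AddCommGroup J]
    [DistribMulAction G J] (x : J) (n : ℕ) (hx : n • x = 0) (τ σb : G)
    (hτ : τ • τ • x + x = τ • x + τ • x)
    (h1 : (τ⁻¹ * σb) • x = x) (h2 : (τ⁻¹ * σb) • τ⁻¹ • x = τ⁻¹ • x)
    (a : ℕ) (k : ℤ) (hk : (a : ℤ) - 1 = (n : ℤ) * k) :
    σb • x + a • σb⁻¹ • x = x + x := by
  have hy0 : n • (τ⁻¹ • x) = 0 := by
    rw [smul_comm, hx, smul_zero]
  have ha : σb • x = τ • x := by
    have : σb = τ * (τ⁻¹ * σb) := by rw [mul_inv_cancel_left]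
    rw [this, mul_smul, h1]
  have hb2 : σb⁻¹ • x = τ⁻¹ • x := by
    have : σb⁻¹ = (τ⁻¹ * σb)⁻¹ * τ⁻¹ := by group
    rw [this, mul_smul, inv_smul_eq_iff, h2]
  have e2 : (a : ℤ) • (τ⁻¹ • x) = τ⁻¹ • x := by
    have : (a : ℤ) = 1 + (n : ℤ) * k := by linarith
    rw [this, add_smul, one_smul, mul_smul, natCast_zsmul, smul_comm, hy0, smul_zero, add_zero]
  rw [natCast_zsmul] at e2
  rw [ha, hb2, e2]
  -- apply τ⁻¹ to the relation
  have h3 := congrArg (fun y => τ⁻¹ • y) hτ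
  simp only [smul_add, inv_smul_smul] at h3
  -- h3 : τ • x + τ⁻¹ • x = x + x
  exact h3

end H7S34

end
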