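import Mathlib
import Fermat.Agent.S34.MainAux_helper7
import Fermat.Agent.S31.MainK_helper7
import Fermat.Prelude.Def_GaloisRep_LocalConditions

/-!
# Item 82 (S34): the assembly `GUStatement N → S34` (helper7)

`tr ρ(τ) = 2`: the trace machine of S31 (comparison with `τ + τ⁻¹ = 2` on `J₀(N)[p^m]`),
`det ρ(τ) = 1`: Chebotarev + the cyclotomic character, `charpoly = X² - tr X + det`.
-/

set_option autoImplicit false
set_option linter.style.haveILetI false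
set_option linter.unusedVariables false
set_option linter.unusedSectionVars false
set_option maxHeartbeats 1000000

noncomputable section

open Polynomial

namespace H7S34

open H11W3G ModularCurve CongruenceSubgroup H7S31

variable {p : ℕ} {N : ℕ} [NeZero N] {S : Finset ℕ}
  {𝒪 : Type} [CommRing 𝒪] [IsDomain 𝒪] [IsDiscreteValuationRing 𝒪]
  [IsAdicComplete (IsLocalRing.maximalIdeal 𝒪) 𝒪]
  {θ : CuspForm.heckeAlgebra N 2 (↑S : Set ℕ) →+* IsLocalRing.ResidueField 𝒪}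
  {T : Type} [CommRing T] [IsLocalRing T] [IsNoetherianRing T]
  [IsAdicComplete (IsLocalRing.maximalIdeal T) T] [Algebra 𝒪 T] [IsLocalHom (algebraMap 𝒪 T)]
  [Module.Finite 𝒪 T] [Module.Free 𝒪 T]

/-- the two congruences `tr ρ(τ) ≡ 2`, `det ρ(τ) ≡ 1 mod 𝔪ⁿ` -/
theorem h7s34_congr (hTT : TraceTStatement) (hTJ : TraceJStatement)
    (hCheb : ChebStatement) (hCyc : CycAdicStatement p) (hF : FaithEasyStatement N S)
    (hLam : LamWStatement N) (hGU : GUStatement N) (hESF : ESFrobeniusStatement N)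
    (hComm : CommStatement N) (hFin : FinLevStatement N)
    (hp : p.Prime) (hp𝒪 : (p : 𝒪) ∈ IsLocalRing.maximalIdeal 𝒪) (hpS : p ∈ S)
    (hNS : ∀ q : ℕ, q.Prime → q ∣ N → q ∈ S)
    (H : CuspForm.HeckeGaloisRepDatum N (↑S : Set ℕ) 𝒪 θ T)
    (q : ℕ) (hq : q.Prime) (hqp : q ≠ p) (hqN : q ∣ N) (hq2 : ¬ q ^ 2 ∣ N)
    (P : ValuationSubring (AlgebraicClosure ℚ)) (hP : P.LiesOverPrime q)
    (τ : GQ) (hτ : τ ∈ P.inertiaSubgroupIn ℚ) (n : ℕ) :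
    LinearMap.trace T H.ρ.V (H.ρ.ρ τ) - 2 ∈ IsLocalRing.maximalIdeal T ^ n ∧
      LinearMap.det (H.ρ.ρ τ) - 1 ∈ IsLocalRing.maximalIdeal T ^ n := by
  classical
  haveI : Fact p.Prime := ⟨hp⟩
  -- the data
  obtain ⟨𝔸, h𝔸, pr₁, pr₂, hinj, hT⟩ := hF
  obtain ⟨c, hc⟩ := LeadS31.faith (pr₁ : 𝔸 →+ Module.End ℤ (Lpar N)) hinj p hp
  obtain ⟨lam, hlam1, hlam2, hlam4⟩ := hLam
  obtain ⟨L₁, hL₁fin, hL₁⟩ := H.ρ.isAdicContinuous n
  obtain ⟨L₃, hL₃fin, hL₃⟩ := h7s34_cyc_one p hCyc (n + c)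
  obtain ⟨s, hs⟩ := (Module.Finite.fg_top : (⊤ : Submodule ℤ (Lpar N)).FG)
  have hpm : 0 < p ^ (n + c) := pow_pos hp.pos _
  obtain ⟨L₂, hL₂fin, hL₂⟩ := h7s31_finLev_finset N hFin
    (s.image (fun φ => lam (p ^ (n + c)) φ) ∪ s.image (fun φ => τ⁻¹ • lam (p ^ (n + c)) φ))
  haveI := hL₁fin
  haveI := hL₂fin
  haveI := hL₃fin
  have hle₁ : L₁ ≤ L₁ ⊔ L₂ ⊔ L₃ := le_sup_left.trans le_sup_left
  have hle₂ : L₂ ≤ L₁ ⊔ L₂ ⊔ L₃ := le_sup_right.trans le_sup_left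
  have hle₃ : L₃ ≤ L₁ ⊔ L₂ ⊔ L₃ := le_sup_right
  obtain ⟨ℓ', A', σ', b', hℓ', hℓ'S, hA', hσ', hb', hσ'g⟩ :=
    hCheb (L₁ ⊔ L₂ ⊔ L₃) inferInstance τ S
  have hℓ'N : ¬ ℓ' ∣ N := fun h => hℓ'S (hNS ℓ' hℓ' h)
  have hℓ'p : ℓ' ≠ p := fun h => hℓ'S (h ▸ hpS)
  have hℓ'm : ¬ ℓ' ∣ p ^ (n + c) := fun h =>
    hℓ'p ((Nat.prime_dvd_prime_iff_eq hℓ' hp).mp (hℓ'.dvd_of_dvd_pow h))
  have hℓ'S' : ℓ' ∉ (↑S : Set ℕ) := by simpa using hℓ'S
  have hpT : (p : T) ∈ IsLocalRing.maximalIdeal T := by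
    have h1 : (p : T) = algebraMap 𝒪 T (p : 𝒪) := by rw [map_natCast]
    rw [h1, IsLocalRing.mem_maximalIdeal, mem_nonunits_iff]
    intro hu
    exact ((IsLocalRing.mem_maximalIdeal _).mp hp𝒪) (isUnit_of_map_unit (algebraMap 𝒪 T) _ hu)
  -- cyclotomic congruence
  obtain ⟨k, hk⟩ := hL₃ τ q hq hqp P hP hτ ℓ' hℓ' hℓ'p A' hA' σ' hσ' b'
    (fun x hx => hσ'g x (hle₃ hx))
  have hcycT : ((ℓ' : T) ^ b' - 1) ∈ IsLocalRing.maximalIdeal T ^ n := by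
    have e : ((ℓ' : T) ^ b' - 1) = (((ℓ' : ℤ) ^ b' - 1 : ℤ) : T) := by push_cast; rfl
    rw [e, hk]
    push_cast
    rw [pow_add, mul_assoc]
    exact Ideal.mul_mem_right _ _ (Ideal.pow_mem_pow hpT n)
  -- T side
  have hcp := H.charpoly_frob ℓ' hℓ' hℓ'N hℓ'S' A' hA' σ' hσ'
  have hT2 := h7s31_trace_congr H.ρ n L₁ hL₁ τ (σ' ^ b') (fun x hx => hσ'g x (hle₁ hx))
  have hT4 : LinearMap.trace T H.ρ.V (H.ρ.ρ (σ' ^ b')) =
      powSum (H.π (CuspForm.heckeAlgebra.T hℓ' hℓ'N hℓ'S')) (ℓ' : T) b' := by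
    rw [map_pow]
    exact hTT T H.ρ.V H.ρ.finrank_eq (H.ρ.ρ σ') _ _ hcp b'
  have hD2 := h7s34_det_congr H.ρ n L₁ hL₁ τ (σ' ^ b') (fun x hx => hσ'g x (hle₁ hx))
  have hD4 : LinearMap.det (H.ρ.ρ (σ' ^ b')) = (ℓ' : T) ^ b' := by
    rw [map_pow, map_pow]
    congr 1
    have h1 := h7s34_charpoly_two H.ρ.finrank_eq (H.ρ.ρ σ')
    rw [hcp] at h1
    have h2 := congrArg (fun f : T[X] => f.coeff 0) h1
    simp only [coeff_add, coeff_sub, coeff_X_pow, coeff_C_mul, coeff_X_zero, coeff_C_zero,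
      mul_zero, sub_zero] at h2
    simpa using h2.symm
  refine ⟨?_, ?_⟩
  swap
  · -- determinant
    rw [hD4] at hD2
    have e : LinearMap.det (H.ρ.ρ τ) - 1 =
        ((ℓ' : T) ^ b' - 1) - ((ℓ' : T) ^ b' - LinearMap.det (H.ρ.ρ τ)) := by ring
    rw [e]
    exact Ideal.sub_mem _ hcycT hD2
  -- trace
  haveI hFℓ' : Fact ℓ'.Prime := ⟨hℓ'⟩
  obtain ⟨t', ht'1, ht'2⟩ := hT ℓ' hℓ' hℓ'N hℓ'S'
  have hδ' : ∀ x ∈ L₂, (τ⁻¹ * σ' ^ b') x = x := by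
    intro x hx
    rw [AlgEquiv.mul_apply, hσ'g x (hle₂ hx), AlgEquiv.aut_inv, AlgEquiv.symm_apply_apply]
  have hst' := h7s31_stab_abs (lam (p ^ (n + c))) τ (τ⁻¹ * σ' ^ b') (s : Set (Lpar N)) hs
    (fun φ hφ => hL₂ _ hδ' _ (Finset.mem_union_left _ (Finset.mem_image_of_mem _ hφ)))
    (fun φ hφ => hL₂ _ hδ' _ (Finset.mem_union_right _ (Finset.mem_image_of_mem _ hφ)))
  have hJ : ∀ φ : Lpar N, ∃ ψ : Lpar N,
      (pr₁ : 𝔸 →+ Module.End ℤ (Lpar N))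
        (powSum t' (ℓ' : 𝔸) b' - 2) φ = (p ^ (n + c)) • ψ := by
    intro φ
    apply hlam2 (p ^ (n + c)) hpm
    set x : JZero N := lam (p ^ (n + c)) φ with hx
    have hx0 : (p ^ (n + c)) • x = 0 := hlam1 _ φ
    have hτx : τ • τ • x + x = τ • x + τ • x :=
      hGU p (n + c) q hp hq hqp hqN hq2 P hP τ hτ x hx0
    have e1 : (pr₁ : 𝔸 →+ Module.End ℤ (Lpar N)) (powSum t' (ℓ' : 𝔸) b' - 2) =
        powSum (pr₁ t') (ℓ' : Module.End ℤ (Lpar N)) b' - 2 := by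
      show pr₁ (powSum t' (ℓ' : 𝔸) b' - 2) = _
      rw [map_sub, map_powSum, map_natCast, map_ofNat]
    have e2 : (2 : Module.End ℤ (Lpar N)) φ = φ + φ := by
      rw [show (2 : Module.End ℤ (Lpar N)) = 1 + 1 by norm_num]; rfl
    rw [e1, LinearMap.sub_apply, map_sub, e2, map_add,
      h7s31_powSum_intertwine (lam (p ^ (n + c))) (pr₁ t') (heckeOperatorBar N ⟨ℓ', hℓ'⟩) ℓ'
        (fun φ' => hlam4 _ hpm ℓ' hℓ' hℓ'N (pr₁ t') ht'1 φ') b' φ,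
      h7s31_J_side N hTJ hESF hComm _ x hx0 ℓ' hℓ' hℓ'N hℓ'm A' hA' σ' hσ' b', sub_eq_zero]
    refine h7s34_J_abs x (p ^ (n + c)) hx0 τ (σ' ^ b') hτx (hst' φ).1 (hst' φ).2 (ℓ' ^ b') k ?_
    push_cast
    exact hk
  obtain ⟨h', hh'⟩ := hc (n + c) _ hJ
  rw [Nat.add_sub_cancel] at hh'
  have hmid : powSum (H.π (CuspForm.heckeAlgebra.T hℓ' hℓ'N hℓ'S')) (ℓ' : T) b' - 2 ∈
      IsLocalRing.maximalIdeal T ^ n := by
    have e3 : powSum (H.π (CuspForm.heckeAlgebra.T hℓ' hℓ'N hℓ'S')) (ℓ' : T) b' - 2 =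
        H.π (pr₂ (powSum t' (ℓ' : 𝔸) b' - 2)) := by
      rw [map_sub, map_sub, map_powSum, map_powSum, ht'2, map_natCast, map_natCast, map_ofNat,
        map_ofNat]
    rw [e3, hh', map_nsmul, map_nsmul, nsmul_eq_mul]
    push_cast
    exact Ideal.mul_mem_right _ _ (Ideal.pow_mem_pow hpT n)
  rw [hT4] at hT2
  have hfinal : LinearMap.trace T H.ρ.V (H.ρ.ρ τ) - 2 =
      (powSum (H.π (CuspForm.heckeAlgebra.T hℓ' hℓ'N hℓ'S')) (ℓ' : T) b' - 2) -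
      (powSum (H.π (CuspForm.heckeAlgebra.T hℓ' hℓ'N hℓ'S')) (ℓ' : T) b' -
        LinearMap.trace T H.ρ.V (H.ρ.ρ τ)) := by ring
  rw [hfinal]
  exact Ideal.sub_mem _ hmid hT2

/-- **S34** from `GUStatement N` (and the proved inputs of the S31 machine). -/
theorem h7s34_main (hTT : TraceTStatement) (hTJ : TraceJStatement)
    (hCheb : ChebStatement) (hCyc : CycAdicStatement p) (hF : FaithEasyStatement N S)
    (hLam : LamWStatement N) (hGU : GUStatement N) (hESF : ESFrobeniusStatement N)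
    (hComm : CommStatement N) (hFin : FinLevStatement N)
    (hp : p.Prime) (hp𝒪 : (p : 𝒪) ∈ IsLocalRing.maximalIdeal 𝒪) (hpS : p ∈ S)
    (hNS : ∀ q : ℕ, q.Prime → q ∣ N → q ∈ S)
    (H : CuspForm.HeckeGaloisRepDatum N (↑S : Set ℕ) 𝒪 θ T)
    (q : ℕ) (hq : q.Prime) (hqp : q ≠ p) (hqN : q ∣ N) (hq2 : ¬ q ^ 2 ∣ N) :
    H.ρ.IsUnipotentOnInertiaAt q := by
  intro P hP τ hτ
  have hsep : ∀ x : T, (∀ n : ℕ, x ∈ IsLocalRing.maximalIdeal T ^ n) → x = 0 := by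
    intro x hx
    have h0 := Ideal.iInf_pow_eq_bot_of_isLocalRing (IsLocalRing.maximalIdeal T)
      (Ideal.IsMaximal.ne_top inferInstance)
    have : x ∈ ⨅ i, IsLocalRing.maximalIdeal T ^ i := by
      rw [Ideal.mem_iInf]; exact hx
    rw [h0] at this
    exact this
  have hc := fun n => h7s34_congr hTT hTJ hCheb hCyc hF hLam hGU hESF hComm hFin hp hp𝒪 hpS hNS H
    q hq hqp hqN hq2 P hP τ hτ n
  have htr : LinearMap.trace T H.ρ.V (H.ρ.ρ τ) = 2 :=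
    sub_eq_zero.mp (hsep _ fun n => (hc n).1)
  have hdet : LinearMap.det (H.ρ.ρ τ) = 1 :=
    sub_eq_zero.mp (hsep _ fun n => (hc n).2)
  rw [h7s34_charpoly_two H.ρ.finrank_eq (H.ρ.ρ τ), htr, hdet]
  rw [map_one, map_ofNat]
  ring

end H7S34

end
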