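import Mathlib
import Fermat.Agent.S34.Main_helper7
import Fermat.Agent.S31.FinalK_helper7

/-!
# Item 82 (S34): S34 from `GUStatement N` alone (helper7)

All other inputs of the trace machine are proved (see `S31/FinalK_helper7.lean`).
`Fermat/Agent/S34.lean` will be `H7S34.h7s34_of_gu (<proof of GUStatement N>) …`.
-/

set_option autoImplicit false

noncomputable section

namespace H7S34

open H11W3G ModularCurve H7S31

variable {p : ℕ} {N : ℕ} [NeZero N] {S : Finset ℕ}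
  {𝒪 : Type} [CommRing 𝒪] [IsDomain 𝒪] [IsDiscreteValuationRing 𝒪]
  [IsAdicComplete (IsLocalRing.maximalIdeal 𝒪) 𝒪]
  {θ : CuspForm.heckeAlgebra N 2 (↑S : Set ℕ) →+* IsLocalRing.ResidueField 𝒪}
  {T : Type} [CommRing T] [IsLocalRing T] [IsNoetherianRing T]
  [IsAdicComplete (IsLocalRing.maximalIdeal T) T] [Algebra 𝒪 T] [IsLocalHom (algebraMap 𝒪 T)]
  [Module.Finite 𝒪 T] [Module.Free 𝒪 T]

/-- **S34** from `GUStatement N`. -/
theorem h7s34_of_gu (hGU : GUStatement N)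
    (hp : p.Prime) (hp𝒪 : (p : 𝒪) ∈ IsLocalRing.maximalIdeal 𝒪) (hpS : p ∈ S)
    (hNS : ∀ q : ℕ, q.Prime → q ∣ N → q ∈ S)
    (H : CuspForm.HeckeGaloisRepDatum N (↑S : Set ℕ) 𝒪 θ T)
    (q : ℕ) (hq : q.Prime) (hqp : q ≠ p) (hqN : q ∣ N) (hq2 : ¬ q ^ 2 ∣ N) :
    H.ρ.IsUnipotentOnInertiaAt q :=
  h7s34_main LeadS31.traceT LeadS31.traceJ H29CHEB.h29cheb_chebStatement
    (H27CYC.h27cyc_adic p hp) (H29F.h29f_faithEasy (N := N) (S := S))
    (h7s31_lamW_of_kum N (h7s31_kum N)) hGU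
    (H10ES.h10es_frobeniusStatement_of_tame H7S18.h7s18_kummerTame N)
    (H13W3G.commStatement (N := N)) (H13W3G.finLevStatement (N := N))
    hp hp𝒪 hpS hNS H q hq hqp hqN hq2

end H7S34

end
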