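import Mathlib
import Fermat.Agent.S34.GUBook_helper29
import Fermat.Agent.S18.C11b_helper12
import Fermat.Agent.S18.Final_helper7
import Fermat.Agent.S34.Defs_helper4

/-!
# Item 82 (S34): level change for (GU) (helper7)

`GUFieldAt N q` is the function-field form of (GU) at ONE prime `q`.
* `h7s34_guField_of_at` : `(∀ q ‖ N, GUFieldAt N q) → H29GU.GUFieldStatement N`;
* `h7s34_levelChange` : for `N ∣ N'` with `ψ(N')/ψ(N)` a power of `q`:
  `GUFieldAt N' q → GUFieldAt N q` (norm + Bezout, as S18 C11b);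
* `h7s34_guField_of_tame` : it suffices to prove `GUFieldAt N q` for `q ‖ N` with
  `H7S18.TameLevel q (N / q)` (i.e. `3 ∣ N` if `q = 2`, `2 ∣ N` if `q = 3`): `GUTameStatement`.
-/

set_option autoImplicit false
set_option linter.unusedSectionVars false
set_option linter.style.haveILetI false
set_option maxHeartbeats 200000

noncomputable section

namespace H7S34

open H11W3G ModularCurve AlgebraicCurve H7S18

/-- **(GU-F) at one prime `q`**: for `τ` in an inertia group at `q`, `q ∤ n`, and `f ∈ F_N^×`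
whose divisor is divisible by `n`, the function `(τ - 1)² f` is an `n`-th power in `F_N`. -/
def GUFieldAt (N q : ℕ) [NeZero N] : Prop :=
  ∀ (n : ℕ), 0 < n → ¬ q ∣ n →
    ∀ A : ValuationSubring (AlgebraicClosure ℚ), A.LiesOverPrime q →
      ∀ τ ∈ A.inertiaSubgroupIn ℚ, ∀ f : modularFunctionFieldBar N, f ≠ 0 →
        (∀ P : Place (AlgebraicClosure ℚ) (modularFunctionFieldBar N), (n : ℤ) ∣ P.ord f) →
        ∃ ψ : modularFunctionFieldBar N,
          (arithmeticGalois (modularFunctionFieldFull N) τ •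
            arithmeticGalois (modularFunctionFieldFull N) τ • f) * f =
          ψ ^ n * (arithmeticGalois (modularFunctionFieldFull N) τ • f) ^ 2

theorem h7s34_guField_of_at (N : ℕ) [NeZero N]
    (h : ∀ q : ℕ, q.Prime → q ∣ N → ¬ q ^ 2 ∣ N → GUFieldAt N q) :
    H29GU.GUFieldStatement N :=
  fun n q hq hqN hq2 hn hqn A hA τ hτ f hf hP => h q hq hqN hq2 n hn hqn A hA τ hτ f hf hP

/-- **(LC) level change**: `N ∣ N'`, `ψ(N') / ψ(N)` a power of `q`. -/
theorem h7s34_levelChange (N N' : ℕ) [NeZero N] [NeZero N'] (hNN' : N ∣ N') (q : ℕ)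
    (hq : q.Prime) (k : ℕ) (hψ : dedekindPsi N' / dedekindPsi N = q ^ k)
    (h : GUFieldAt N' q) : GUFieldAt N q := by
  intro n hn hqn A hA τ hτ f hf hP
  have hle : modularFunctionFieldBar N ≤ modularFunctionFieldBar N' := H12C11b.bar_le hNN'
  obtain ⟨x, hx⟩ := f
  have hx0 : x ≠ 0 := fun h0 => hf (Subtype.ext h0)
  -- the divisibility condition at level `N'`
  have hP' : ∀ P' : Place (AlgebraicClosure ℚ) (modularFunctionFieldBar N'),
      (n : ℤ) ∣ P'.ord (⟨x, hle hx⟩ : modularFunctionFieldBar N') := by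
    intro P'
    letI : Algebra (modularFunctionFieldBar N) (modularFunctionFieldBar N') :=
      (IntermediateField.inclusion hle).toRingHom.toAlgebra
    haveI : IsScalarTower (AlgebraicClosure ℚ) (modularFunctionFieldBar N)
        (modularFunctionFieldBar N') :=
      IsScalarTower.of_algebraMap_eq (fun x => rfl)
    haveI : Algebra.IsIntegral (modularFunctionFieldBar N) (modularFunctionFieldBar N') :=
      ⟨fun x => H12C11b.isIntegral_bar hle x⟩
    have e1 := P'.ord_restrict (F := modularFunctionFieldBar N) ⟨x, hx⟩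
    have e1' : P'.ord (⟨x, hle hx⟩ : modularFunctionFieldBar N') =
        P'.ord (algebraMap (modularFunctionFieldBar N) (modularFunctionFieldBar N') ⟨x, hx⟩) :=
      rfl
    rw [e1', e1]
    exact Dvd.dvd.mul_left (hP (P'.restrict (modularFunctionFieldBar N))) _
  have hf' : (⟨x, hle hx⟩ : modularFunctionFieldBar N') ≠ 0 :=
    fun h0 => hx0 (congrArg (Subtype.val : modularFunctionFieldBar N' →
      LaurentSeries (AlgebraicClosure ℚ)) h0)
  obtain ⟨⟨y', hy'⟩, hψ'⟩ := h n hn hqn A hA τ hτ _ hf' hP'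
  -- pass to Laurent series
  have hL : coeffMap (τ : AlgebraicClosure ℚ →+* AlgebraicClosure ℚ)
        (coeffMap (τ : AlgebraicClosure ℚ →+* AlgebraicClosure ℚ) x) * x =
      y' ^ n * (coeffMap (τ : AlgebraicClosure ℚ →+* AlgebraicClosure ℚ) x) ^ 2 :=
    congrArg (Subtype.val : modularFunctionFieldBar N' →
      LaurentSeries (AlgebraicClosure ℚ)) hψ'
  have hτx : coeffMap (τ : AlgebraicClosure ℚ →+* AlgebraicClosure ℚ) x ∈
      modularFunctionFieldBar N :=
    (arithmeticGalois (modularFunctionFieldFull N) τ •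
      (⟨x, hx⟩ : modularFunctionFieldBar N)).2
  have hττx : coeffMap (τ : AlgebraicClosure ℚ →+* AlgebraicClosure ℚ)
      (coeffMap (τ : AlgebraicClosure ℚ →+* AlgebraicClosure ℚ) x) ∈
      modularFunctionFieldBar N :=
    (arithmeticGalois (modularFunctionFieldFull N) τ •
      (⟨_, hτx⟩ : modularFunctionFieldBar N)).2
  have hτx0 : coeffMap (τ : AlgebraicClosure ℚ →+* AlgebraicClosure ℚ) x ≠ 0 := by
    intro h0
    exact H29GU.smul_ne_zero' (arithmeticGalois (modularFunctionFieldFull N) τ) hf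
      (Subtype.ext h0)
  have hu : coeffMap (τ : AlgebraicClosure ℚ →+* AlgebraicClosure ℚ)
        (coeffMap (τ : AlgebraicClosure ℚ →+* AlgebraicClosure ℚ) x) * x /
      (coeffMap (τ : AlgebraicClosure ℚ →+* AlgebraicClosure ℚ) x) ^ 2 ∈
      modularFunctionFieldBar N :=
    div_mem (mul_mem hττx hx) (pow_mem hτx 2)
  have hL' : y' ^ n = coeffMap (τ : AlgebraicClosure ℚ →+* AlgebraicClosure ℚ)
        (coeffMap (τ : AlgebraicClosure ℚ →+* AlgebraicClosure ℚ) x) * x /
      (coeffMap (τ : AlgebraicClosure ℚ →+* AlgebraicClosure ℚ) x) ^ 2 := by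
    rw [eq_div_iff (pow_ne_zero 2 hτx0)]
    exact hL.symm
  have hcop : Nat.Coprime (IntermediateField.relfinrank (modularFunctionFieldBar N)
      (modularFunctionFieldBar N')) n := by
    rw [H12C11b.relfinrank_bar hNN', hψ]
    exact Nat.Coprime.pow_left k ((Nat.Prime.coprime_iff_not_dvd hq).2 hqn)
  obtain ⟨g, hg, hgn⟩ := H12C11b.exists_pow_eq_of_coprime _ _ hle n hcop hu hy' hL'
  refine ⟨⟨g, hg⟩, ?_⟩
  apply Subtype.ext
  show coeffMap (τ : AlgebraicClosure ℚ →+* AlgebraicClosure ℚ)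
        (coeffMap (τ : AlgebraicClosure ℚ →+* AlgebraicClosure ℚ) x) * x =
      g ^ n * (coeffMap (τ : AlgebraicClosure ℚ →+* AlgebraicClosure ℚ) x) ^ 2
  rw [hgn, div_mul_cancel₀ _ (pow_ne_zero 2 hτx0)]

/-- **the core target of item 82**: (GU-F) at `q ‖ N` when `N / q` is a tame level for `q`
(`q ∤ N / q`; `3 ∣ N` if `q = 2`; `2 ∣ N` if `q = 3`). -/
def GUTameStatement : Prop :=
  ∀ (N q : ℕ) [NeZero N], q.Prime → q ∣ N → ¬ q ^ 2 ∣ N → TameLevel q (N / q) → GUFieldAt N q

theorem h7s34_not_sq_dvd_mul {q r N : ℕ} (hq : q.Prime) (hr : r.Prime) (hqr : q ≠ r)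
    (hq2 : ¬ q ^ 2 ∣ N) : ¬ q ^ 2 ∣ r * N := by
  intro h
  have hcop : Nat.Coprime (q ^ 2) r :=
    Nat.Coprime.pow_left 2 ((Nat.coprime_primes hq hr).2 hqr)
  exact hq2 (hcop.dvd_of_dvd_mul_left h)

theorem h7s34_tameLevel_mul {q r N : ℕ} (hq : q.Prime) (hr : r.Prime) (hqr : q ≠ r)
    (hqN : q ∣ N) (hq2 : ¬ q ^ 2 ∣ N) (h2 : q = 2 → r = 3) (h3 : q = 3 → r = 2) :
    TameLevel q (r * N / q) := by
  obtain ⟨M, rfl⟩ := hqN
  have e : r * (q * M) / q = r * M := by
    rw [show r * (q * M) = q * (r * M) by ring, Nat.mul_div_cancel_left _ hq.pos]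
  rw [e]
  refine ⟨?_, fun hq2' => ?_, fun hq3 => ?_⟩
  · intro hd
    rcases (Nat.Prime.dvd_mul hq).1 hd with h' | h'
    · exact hqr ((Nat.prime_dvd_prime_iff_eq hq hr).1 h')
    · apply hq2
      rw [pow_two]
      exact Nat.mul_dvd_mul_left q h'
  · rw [h2 hq2']; exact dvd_mul_right 3 M
  · rw [h3 hq3]; exact dvd_mul_right 2 M

/-- (GU-F) at all levels from the tame core. -/
theorem h7s34_guFieldAt_of_tame (hT : GUTameStatement) (N q : ℕ) [NeZero N] (hq : q.Prime)
    (hqN : q ∣ N) (hq2 : ¬ q ^ 2 ∣ N) : GUFieldAt N q := by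
  have hN0 : N ≠ 0 := NeZero.ne N
  have hpos : 0 < dedekindPsi N := H12C11b.dedekindPsi_pos N
  have hMq : ¬ q ∣ N / q := by
    obtain ⟨M, rfl⟩ := hqN
    rw [Nat.mul_div_cancel_left _ hq.pos]
    intro hd
    apply hq2
    rw [pow_two]
    exact Nat.mul_dvd_mul_left q hd
  by_cases h2 : q = 2
  · by_cases h3N : 3 ∣ N / q
    · exact hT N q hq hqN hq2 ⟨hMq, fun _ => h3N, fun h3 => by omega⟩
    · have h3N' : ¬ 3 ∣ N := by
        intro hd
        apply h3N
        obtain ⟨M, rfl⟩ := hqN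
        rw [Nat.mul_div_cancel_left _ hq.pos]
        have hcop : Nat.Coprime 3 q := by rw [h2]; norm_num
        exact hcop.dvd_of_dvd_mul_left hd
      haveI : NeZero (3 * N) := ⟨by positivity⟩
      have hψ : dedekindPsi (3 * N) / dedekindPsi N = q ^ 2 := by
        rw [h7_dedekindPsi_prime_mul 3 N Nat.prime_three hN0 h3N', h2]
        exact Nat.mul_div_cancel _ hpos
      refine h7s34_levelChange N (3 * N) (dvd_mul_left N 3) q hq 2 hψ ?_
      refine hT (3 * N) q hq (hqN.mul_left 3)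
        (h7s34_not_sq_dvd_mul hq Nat.prime_three (by omega) hq2) ?_
      exact h7s34_tameLevel_mul hq Nat.prime_three (by omega) hqN hq2 (fun _ => rfl)
        (fun h => by omega)
  · by_cases h3 : q = 3
    · by_cases h2N : 2 ∣ N / q
      · exact hT N q hq hqN hq2 ⟨hMq, fun h => absurd h h2, fun _ => h2N⟩
      · have h2N' : ¬ 2 ∣ N := by
          intro hd
          apply h2N
          obtain ⟨M, rfl⟩ := hqN
          rw [Nat.mul_div_cancel_left _ hq.pos]
          have hcop : Nat.Coprime 2 q := by rw [h3]; norm_num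
          exact hcop.dvd_of_dvd_mul_left hd
        haveI : NeZero (2 * N) := ⟨by positivity⟩
        have hψ : dedekindPsi (2 * N) / dedekindPsi N = q ^ 1 := by
          rw [h7_dedekindPsi_prime_mul 2 N Nat.prime_two hN0 h2N', h3]
          exact Nat.mul_div_cancel _ hpos
        refine h7s34_levelChange N (2 * N) (dvd_mul_left N 2) q hq 1 hψ ?_
        refine hT (2 * N) q hq (hqN.mul_left 2)
          (h7s34_not_sq_dvd_mul hq Nat.prime_two (by omega) hq2) ?_
        exact h7s34_tameLevel_mul hq Nat.prime_two (by omega) hqN hq2 (fun h => by omega)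
          (fun _ => rfl)
    · exact hT N q hq hqN hq2 ⟨hMq, fun h => absurd h h2, fun h => absurd h h3⟩

/-- `GUStatement N` (the input of the S34 assembly) from the tame core. -/
theorem h7s34_gu_of_tame (hT : GUTameStatement) (N : ℕ) [NeZero N] : GUStatement N :=
  h7s34_gu_of_all N (H29GU.guAll_of_field N
    (h7s34_guField_of_at N fun q hq hqN hq2 => h7s34_guFieldAt_of_tame hT N q hq hqN hq2))

/-- the same with the architect's name `H4S34.GUFieldTame` (= `GUFieldAt`, syntactically). -/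
theorem h7s34_gu_of_fieldTame
    (hT : ∀ (N q : ℕ) [NeZero N], q.Prime → q ∣ N → ¬ q ^ 2 ∣ N → TameLevel q (N / q) →
      H4S34.GUFieldTame N q) (N : ℕ) [NeZero N] : GUStatement N :=
  h7s34_gu_of_tame (fun N q _ hq hqN hq2 hT' => hT N q hq hqN hq2 hT') N

end H7S34

end
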