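import Mathlib
import Fermat.Agent.S18.Defs
import Fermat.Agent.S18.TBase_helper19
import Fermat.Agent.S18.TFin_helper19
import Fermat.Agent.S18.C5Units_helper19

/-!
# S34 (item 82), helper1: (A1) — an automorphism `τ ≡ id mod ϖ O` preserves the Gauss valuations

Generic setting of `H7S18`.  `O = {x | GInt R ϖ t x}` is the integral closure of the Gauss DVR
`V = R[t]_(ϖ)` in `F`, a Dedekind domain.  If `σ : F →+* F` maps `O` into `O` and is the identity
modulo `ϖ O`, then `σ a / a ∈ O` for every `a ≠ 0` in `O`.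
-/

set_option autoImplicit false
set_option linter.unusedSectionVars false
set_option linter.style.haveILetI false

namespace H1GU

open Polynomial IntermediateField H7S18 H19S18

section GaussDVR

variable (R : Type) [CommRing R] [IsDomain R] [IsDiscreteValuationRing R]
  (K : Type) [Field K] [CharZero K] [Algebra R K] [IsFractionRing R K]
  {F : Type} [Field F] [Algebra K F] [Algebra R F] [IsScalarTower R K F]

/-- The prime ideal `(ϖ)` of `R[t]`. -/
noncomputable def gaussPrime (ϖ : R) (t : F) : Ideal (Algebra.adjoin R {t}) :=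
  Ideal.span {algebraMap R (Algebra.adjoin R {t}) ϖ}

theorem gaussPrime_isPrime {ϖ : R} (hϖ : Irreducible ϖ) {t : F} (ht : Transcendental R t) :
    (gaussPrime R ϖ t).IsPrime :=
  (Ideal.span_singleton_prime (h19_T_prime R ht hϖ).ne_zero).mpr (h19_T_prime R ht hϖ)

theorem mem_gaussPrime_compl_iff {ϖ : R} {t : F} (s : Algebra.adjoin R {t}) :
    s ∉ gaussPrime R ϖ t ↔ IsGaussUnit R ϖ t (s : F) := by
  rw [gaussPrime, Ideal.mem_span_singleton]
  exact (h19_gaussUnit_iff R ϖ t s).symm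

end GaussDVR

section AbstractDedekind

/-- In a Dedekind domain `O` in which every nonzero prime contains `ϖ`, a ring endomorphism
`σ ≡ id mod ϖ` maps every ideal into itself. -/
theorem ded_map_le {O : Type*} [CommRing O] [IsDedekindDomain O] (σ : O →+* O) (ϖ : O)
    (h1 : ∀ P : Ideal O, P.IsPrime → P ≠ ⊥ → ϖ ∈ P)
    (h2 : ∀ x : O, ∃ z : O, σ x - x = ϖ * z) (I : Ideal O) : Ideal.map σ I ≤ I := by
  classical
  induction I using UniqueFactorizationMonoid.induction_on_prime with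
  | h₁ => rw [Ideal.zero_eq_bot, Ideal.map_bot]
  | h₂ J hJ =>
    rw [Ideal.isUnit_iff] at hJ
    rw [hJ]; exact le_top
  | h₃ J P hJ0 hP ih =>
    rw [Ideal.map_mul]
    refine Ideal.mul_mono ?_ ih
    have hPp : P.IsPrime := Ideal.isPrime_of_prime hP
    have hP0 : P ≠ ⊥ := hP.ne_zero
    rw [Ideal.map_le_iff_le_comap]
    intro x hx
    rw [Ideal.mem_comap]
    obtain ⟨z, hz⟩ := h2 x
    have : σ x = x + ϖ * z := by linear_combination hz
    rw [this]
    exact P.add_mem hx (P.mul_mem_right z (h1 P hPp hP0))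

theorem ded_dvd {O : Type*} [CommRing O] [IsDedekindDomain O] (σ : O →+* O) (ϖ : O)
    (h1 : ∀ P : Ideal O, P.IsPrime → P ≠ ⊥ → ϖ ∈ P)
    (h2 : ∀ x : O, ∃ z : O, σ x - x = ϖ * z) (a : O) : a ∣ σ a := by
  have h := ded_map_le σ ϖ h1 h2 (Ideal.span {a})
  rw [Ideal.map_span, Set.image_singleton, Ideal.span_singleton_le_span_singleton] at h
  exact h

end AbstractDedekind

section Concrete

variable (R : Type) [CommRing R] [IsDomain R] [IsDiscreteValuationRing R]
  (K : Type) [Field K] [CharZero K] [Algebra R K] [IsFractionRing R K]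
  {F : Type} [Field F] [Algebra K F] [Algebra R F] [IsScalarTower R K F]

theorem gu_gint_of_modPi' {E : Type} [Field E] [Algebra R E] {t : E} (ht : Transcendental R t)
    {ϖ : R} (hϖ : Irreducible ϖ)
    {x y : E} (h : ModPi R ϖ t x y) (hy : GInt R ϖ t y) : GInt R ϖ t x := by
  obtain ⟨z, hz, hxy⟩ := h
  have : x = y + algebraMap R E ϖ * z := by linear_combination hxy
  rw [this]
  exact h19_gint_add R ht hϖ hy (h19_gint_mul R ht hϖ
    (h19_gint_of_isInt R ht hϖ (h19_isInt_algebraMap R t ϖ)) hz)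

theorem gu_gint_one' {E : Type} [Field E] [Algebra R E] {t : E} (ht : Transcendental R t)
    {ϖ : R} (hϖ : Irreducible ϖ) : GInt R ϖ t (1 : E) := by
  have := h19_gint_of_isInt R ht hϖ (h19_isInt_algebraMap R t 1)
  rwa [map_one] at this

theorem ded_ext_dvd {V : Type*} [CommRing V] [IsLocalRing V] [IsDedekindDomain V]
    {L : Type*} [Field L] [Algebra V L]
    [IsDedekindDomain (integralClosure V L)]
    (ϖV : V) (hϖV : ϖV ∈ IsLocalRing.maximalIdeal V)
    (σ : L →+* L) (hσO : ∀ x ∈ integralClosure V L, σ x ∈ integralClosure V L)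
    (h2 : ∀ x ∈ integralClosure V L, ∃ z ∈ integralClosure V L, σ x - x = algebraMap V L ϖV * z)
    {a : L} (ha : a ∈ integralClosure V L) : ∃ c ∈ integralClosure V L, σ a = a * c := by
  classical
  let σO : integralClosure V L →+* integralClosure V L :=
    σ.restrict (integralClosure V L) (integralClosure V L) hσO
  let ϖO : integralClosure V L := algebraMap V (integralClosure V L) ϖV
  have h1 : ∀ P : Ideal (integralClosure V L), P.IsPrime → P ≠ ⊥ → ϖO ∈ P := by
    intro P hP hP0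
    have hc0 : P.comap (algebraMap V (integralClosure V L)) ≠ ⊥ :=
      fun h => hP0 (Ideal.eq_bot_of_comap_eq_bot h)
    have hcp : (P.comap (algebraMap V (integralClosure V L))).IsPrime := Ideal.comap_isPrime _ P
    have hcm : P.comap (algebraMap V (integralClosure V L)) = IsLocalRing.maximalIdeal V :=
      IsLocalRing.eq_maximalIdeal (hcp.isMaximal hc0)
    have hmem : ϖV ∈ P.comap (algebraMap V (integralClosure V L)) := by
      rw [hcm]; exact hϖV
    exact hmem
  have h2' : ∀ x : integralClosure V L, ∃ z : integralClosure V L, σO x - x = ϖO * z := by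
    intro x
    obtain ⟨z, hz, hxz⟩ := h2 x x.2
    exact ⟨⟨z, hz⟩, Subtype.ext hxz⟩
  obtain ⟨c, hc⟩ := ded_dvd σO ϖO h1 h2' ⟨a, ha⟩
  exact ⟨c, c.2, congrArg (fun z : integralClosure V L => (z : L)) hc⟩

set_option maxHeartbeats 1000000 in
set_option synthInstance.maxHeartbeats 400000 in
theorem gint_div_of_congr {ϖ : R} (hϖ : Irreducible ϖ) {t : F} (ht : Transcendental K t)
    [FiniteDimensional K⟮t⟯ F]
    (σ : F →+* F) (hσ : ∀ x : F, GInt R ϖ t x → ModPi R ϖ t (σ x) x)
    {a : F} (ha : GInt R ϖ t a) (ha0 : a ≠ 0) : GInt R ϖ t (σ a / a) := by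
  classical
  have htR : Transcendental R t := h19_transc R K ht
  letI : Algebra (Algebra.adjoin R {t}) K⟮t⟯ := (h19_TtoKt R K t).toAlgebra
  haveI : IsFractionRing (Algebra.adjoin R {t}) K⟮t⟯ := h19_T_isFractionRing R K t
  haveI : IsScalarTower (Algebra.adjoin R {t}) K⟮t⟯ F := IsScalarTower.of_algebraMap_eq (fun _ => rfl)
  haveI hPp : (gaussPrime R ϖ t).IsPrime := gaussPrime_isPrime R hϖ htR
  haveI := h19_T_noeth R htR
  let V : Subalgebra (Algebra.adjoin R {t}) K⟮t⟯ :=
    Localization.subalgebra.ofField K⟮t⟯ (gaussPrime R ϖ t).primeCompl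
      (Ideal.primeCompl_le_nonZeroDivisors _)
  haveI hloc : IsLocalization.AtPrime V (gaussPrime R ϖ t) :=
    Localization.subalgebra.isLocalization_ofField K⟮t⟯ (gaussPrime R ϖ t).primeCompl
      (Ideal.primeCompl_le_nonZeroDivisors _)
  haveI hfr : IsFractionRing V K⟮t⟯ :=
    Localization.subalgebra.isFractionRing_ofField K⟮t⟯ (gaussPrime R ϖ t).primeCompl
      (Ideal.primeCompl_le_nonZeroDivisors _)
  haveI : IsLocalRing V := IsLocalization.AtPrime.isLocalRing V (gaussPrime R ϖ t)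
  haveI : IsNoetherianRing V :=
    IsLocalization.isNoetherianRing (gaussPrime R ϖ t).primeCompl V inferInstance
  have hmax : IsLocalRing.maximalIdeal V =
      Ideal.span {algebraMap (Algebra.adjoin R {t}) V (algebraMap R (Algebra.adjoin R {t}) ϖ)} := by
    rw [← IsLocalization.AtPrime.map_eq_maximalIdeal (gaussPrime R ϖ t) V, gaussPrime,
      Ideal.map_span, Set.image_singleton]
  haveI : IsDedekindDomain V := by
    refine ((tfae_of_isNoetherianRing_of_isLocalRing_of_isDomain (R := V)).out 4 2).mp ?_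
    rw [hmax]
    exact ⟨⟨_, rfl⟩⟩
  haveI : CharZero K⟮t⟯ := charZero_of_injective_algebraMap (algebraMap K K⟮t⟯).injective
  haveI : IsDedekindDomain (integralClosure V F) := integralClosure.isDedekindDomain V K⟮t⟯ F
  -- bridges
  have B1 : ∀ x : F, GInt R ϖ t x → IsIntegral V x := by
    rintro x ⟨s, hs, hsx⟩
    have hsT : (⟨s, hs.1⟩ : Algebra.adjoin R {t}) ∈ (gaussPrime R ϖ t).primeCompl :=
      (mem_gaussPrime_compl_iff R _).mpr hs
    have hu : IsUnit (algebraMap (Algebra.adjoin R {t}) V ⟨s, hs.1⟩) :=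
      IsLocalization.map_units V ⟨_, hsT⟩
    obtain ⟨u, hu'⟩ := hu
    have h1 : IsIntegral V (s * x) := IsIntegral.tower_top hsx
    have h2 : IsIntegral V (algebraMap V F ((u⁻¹ : Vˣ) : V)) := isIntegral_algebraMap
    have h3 : algebraMap V F ((u⁻¹ : Vˣ) : V) * (s * x) = x := by
      have e : algebraMap V F (u : V) = s := by
        rw [hu', ← IsScalarTower.algebraMap_apply]
        rfl
      rw [← e, ← mul_assoc, ← map_mul, Units.inv_mul, map_one, one_mul]
    rw [← h3]
    exact h2.mul h1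
  have B2 : ∀ x : F, IsIntegral V x → GInt R ϖ t x := by
    intro x hx
    obtain ⟨m, hm⟩ := IsIntegral.exists_multiple_integral_of_isLocalization
      (gaussPrime R ϖ t).primeCompl x hx
    refine ⟨((m : Algebra.adjoin R {t}) : F), (mem_gaussPrime_compl_iff R _).mp m.2, ?_⟩
    exact hm
  -- the restriction of σ
  have hσO : ∀ x ∈ integralClosure V F, σ x ∈ integralClosure V F := by
    intro x hx
    have hG := B2 x hx
    exact B1 _ (gu_gint_of_modPi' R htR hϖ (hσ x hG) hG)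
  have hϖV : algebraMap (Algebra.adjoin R {t}) V (algebraMap R (Algebra.adjoin R {t}) ϖ) ∈
      IsLocalRing.maximalIdeal V := by
    rw [hmax]; exact Ideal.mem_span_singleton_self _
  have h2 : ∀ x ∈ integralClosure V F, ∃ z ∈ integralClosure V F, σ x - x =
      algebraMap V F (algebraMap (Algebra.adjoin R {t}) V
        (algebraMap R (Algebra.adjoin R {t}) ϖ)) * z := by
    intro x hx
    obtain ⟨z, hz, hxz⟩ := hσ x (B2 x hx)
    exact ⟨z, B1 z hz, hxz⟩
  obtain ⟨c, hcO, hc'⟩ := ded_ext_dvd _ hϖV σ hσO h2 (B1 a ha)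
  have : σ a / a = c := by
    rw [hc']; field_simp
  rw [this]
  exact B2 _ hcO

/-- A ring endomorphism of `F` fixing `t` and preserving `R` preserves `R[t]`. -/
theorem sigma_mem_T {t : F} (σ : F →+* F) (hσt : σ t = t)
    (hσR : ∀ r : R, ∃ r' : R, σ (algebraMap R F r) = algebraMap R F r')
    {s : F} (hs : s ∈ Algebra.adjoin R {t}) : σ s ∈ Algebra.adjoin R {t} := by
  induction hs using Algebra.adjoin_induction with
  | mem x hx =>
    rw [Set.mem_singleton_iff] at hx
    rw [hx, hσt]; exact Algebra.subset_adjoin (Set.mem_singleton t)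
  | algebraMap r =>
    obtain ⟨r', hr'⟩ := hσR r
    rw [hr']; exact Subalgebra.algebraMap_mem _ r'
  | add x y _ _ hx hy => rw [map_add]; exact Subalgebra.add_mem _ hx hy
  | mul x y _ _ hx hy => rw [map_mul]; exact Subalgebra.mul_mem _ hx hy

/-- ... and integrality over `R[t]`. -/
theorem sigma_isInt {t : F} (σ : F →+* F) (hσt : σ t = t)
    (hσR : ∀ r : R, ∃ r' : R, σ (algebraMap R F r) = algebraMap R F r')
    {x : F} (hx : IsInt R t x) : IsInt R t (σ x) := by
  let φ : Algebra.adjoin R {t} →+* Algebra.adjoin R {t} :=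
    σ.restrict (Algebra.adjoin R {t}) (Algebra.adjoin R {t})
      (fun s hs => sigma_mem_T R σ hσt hσR hs)
  exact IsIntegral.map_of_comp_eq φ σ (by ext s; rfl) hx

/-- `τ ϖ ∈ ϖ R` for `τ ≡ id mod ϖ O` preserving `R`. -/
theorem tau_pi {ϖ : R} (hϖ : Irreducible ϖ) {t : F} (htR : Transcendental R t)
    (τ : F →+* F)
    (hτR : ∀ r : R, ∃ r' : R, τ (algebraMap R F r) = algebraMap R F r')
    (hτ : ∀ x : F, GInt R ϖ t x → ModPi R ϖ t (τ x) x) :
    ∃ c : R, τ (algebraMap R F ϖ) = algebraMap R F ϖ * algebraMap R F c := by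
  obtain ⟨r', hr'⟩ := hτR ϖ
  have hGϖ : GInt R ϖ t (algebraMap R F ϖ) :=
    h19_gint_of_isInt R htR hϖ (h19_isInt_algebraMap R t ϖ)
  obtain ⟨z, hz, hxz⟩ := hτ _ hGϖ
  have hnu : ¬ IsUnit r' := by
    intro hu
    apply h19_not_modPi_unit R htR hϖ hu
    refine ⟨1 + z, h19_gint_add R htR hϖ (gu_gint_one' R htR hϖ) hz, ?_⟩
    rw [sub_zero, ← hr']
    linear_combination hxz
  have hmem : r' ∈ IsLocalRing.maximalIdeal R := (IsLocalRing.mem_maximalIdeal r').mpr hnu
  rw [hϖ.maximalIdeal_eq, Ideal.mem_span_singleton] at hmem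
  obtain ⟨c, hc⟩ := hmem
  exact ⟨c, by rw [hr', hc, map_mul]⟩

/-- `τ⁻¹` maps Gauss units to Gauss units. -/
theorem symm_gaussUnit {ϖ : R} (hϖ : Irreducible ϖ) {t : F} (htR : Transcendental R t)
    (τ : F ≃+* F) (hτt : τ t = t)
    (hτR : ∀ r : R, ∃ r' : R, τ (algebraMap R F r) = algebraMap R F r')
    (hτR' : ∀ r : R, ∃ r' : R, τ.symm (algebraMap R F r) = algebraMap R F r')
    (hτ : ∀ x : F, GInt R ϖ t x → ModPi R ϖ t (τ x) x)
    {s : F} (hs : IsGaussUnit R ϖ t s) : IsGaussUnit R ϖ t (τ.symm s) := by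
  have hσt : (τ.symm : F →+* F) t = t := by
    change τ.symm t = t
    rw [RingEquiv.symm_apply_eq, hτt]
  refine ⟨sigma_mem_T R (τ.symm : F →+* F) hσt hτR' hs.1, fun s' hs' he => ?_⟩
  obtain ⟨c, hc⟩ := tau_pi R hϖ htR (τ : F →+* F) hτR hτ
  have h1 : s = τ (algebraMap R F ϖ * s') := by
    rw [← he, RingEquiv.apply_symm_apply]
  have h2 : τ s' ∈ Algebra.adjoin R {t} := sigma_mem_T R (τ : F →+* F) hτt hτR hs'
  apply hs.2 (algebraMap R F c * τ s') (Subalgebra.mul_mem _ (Subalgebra.algebraMap_mem _ c) h2)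
  rw [h1, map_mul]
  have hc' : τ (algebraMap R F ϖ) = algebraMap R F ϖ * algebraMap R F c := hc
  rw [hc']; ring

theorem symm_gint {ϖ : R} (hϖ : Irreducible ϖ) {t : F} (htR : Transcendental R t)
    (τ : F ≃+* F) (hτt : τ t = t)
    (hτR : ∀ r : R, ∃ r' : R, τ (algebraMap R F r) = algebraMap R F r')
    (hτR' : ∀ r : R, ∃ r' : R, τ.symm (algebraMap R F r) = algebraMap R F r')
    (hτ : ∀ x : F, GInt R ϖ t x → ModPi R ϖ t (τ x) x)
    {x : F} (hx : GInt R ϖ t x) : GInt R ϖ t (τ.symm x) := by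
  obtain ⟨s, hs, hsx⟩ := hx
  have hσt : (τ.symm : F →+* F) t = t := by
    change τ.symm t = t
    rw [RingEquiv.symm_apply_eq, hτt]
  refine ⟨τ.symm s, symm_gaussUnit R hϖ htR τ hτt hτR hτR' hτ hs, ?_⟩
  have := sigma_isInt R (τ.symm : F →+* F) hσt hτR' hsx
  rwa [map_mul] at this

theorem symm_modPi {ϖ : R} (hϖ : Irreducible ϖ) {t : F} (htR : Transcendental R t)
    (τ : F ≃+* F) (hτt : τ t = t)
    (hτR : ∀ r : R, ∃ r' : R, τ (algebraMap R F r) = algebraMap R F r')
    (hτR' : ∀ r : R, ∃ r' : R, τ.symm (algebraMap R F r) = algebraMap R F r')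
    (hτ : ∀ x : F, GInt R ϖ t x → ModPi R ϖ t (τ x) x)
    (x : F) (hx : GInt R ϖ t x) : ModPi R ϖ t ((τ.symm : F →+* F) x) x := by
  have hy := symm_gint R hϖ htR τ hτt hτR hτR' hτ hx
  obtain ⟨z, hz, h⟩ := hτ _ hy
  rw [RingEquiv.apply_symm_apply] at h
  exact ⟨-z, h19_gint_neg R hz, by
    change τ.symm x - x = _
    linear_combination -h⟩

/-- **(A1)**: `τ g / g ∈ O` for every `g ≠ 0`: `τ` preserves the Gauss valuations. -/
theorem a1_of_tau {ϖ : R} (hϖ : Irreducible ϖ) {t : F} (ht : Transcendental K t)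
    [FiniteDimensional K⟮t⟯ F]
    (τ : F ≃+* F) (hτt : τ t = t)
    (hτR : ∀ r : R, ∃ r' : R, τ (algebraMap R F r) = algebraMap R F r')
    (hτR' : ∀ r : R, ∃ r' : R, τ.symm (algebraMap R F r) = algebraMap R F r')
    (hτ : ∀ x : F, GInt R ϖ t x → ModPi R ϖ t (τ x) x)
    {g : F} (hg : g ≠ 0) : GInt R ϖ t (τ g / g) := by
  have htR : Transcendental R t := h19_transc R K ht
  -- `g = a / d` with `a` integral over `R[t]`, `d ∈ R[t]`
  obtain ⟨d, hd0, hda⟩ : ∃ d : Algebra.adjoin R {t}, d ≠ 0 ∧ IsInt R t ((d : F) * g) := by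
    letI : Algebra (Algebra.adjoin R {t}) K⟮t⟯ := (h19_TtoKt R K t).toAlgebra
    haveI : IsFractionRing (Algebra.adjoin R {t}) K⟮t⟯ := h19_T_isFractionRing R K t
    haveI : IsScalarTower (Algebra.adjoin R {t}) K⟮t⟯ F :=
      IsScalarTower.of_algebraMap_eq (fun _ => rfl)
    have halg : IsAlgebraic (Algebra.adjoin R {t}) g :=
      (IsFractionRing.isAlgebraic_iff (Algebra.adjoin R {t}) K⟮t⟯ F).mpr
        (Algebra.IsAlgebraic.isAlgebraic g)
    obtain ⟨y, hy0, hy⟩ := halg.exists_integral_multiple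
    exact ⟨y, hy0, hy⟩
  have hdF : (d : F) ≠ 0 := fun h => hd0 (Subtype.ext h)
  have hGd : GInt R ϖ t (d : F) := h19_gint_of_isInt R htR hϖ (h19_mem_T_isInt R t d.2)
  have hGa : GInt R ϖ t ((d : F) * g) := h19_gint_of_isInt R htR hϖ hda
  have ha0 : (d : F) * g ≠ 0 := mul_ne_zero hdF hg
  have h1 := gint_div_of_congr R K hϖ ht (τ : F →+* F) hτ hGa ha0
  have hGτd : GInt R ϖ t (τ (d : F)) := gu_gint_of_modPi' R htR hϖ (hτ _ hGd) hGd
  have hτd0 : τ (d : F) ≠ 0 := by
    rw [Ne, map_eq_zero_iff τ τ.injective]; exact hdF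
  have h2 := gint_div_of_congr R K hϖ ht (τ.symm : F →+* F)
    (symm_modPi R hϖ htR τ hτt hτR hτR' hτ) hGτd hτd0
  have e : τ g / g = ((τ : F →+* F) ((d : F) * g) / ((d : F) * g)) *
      ((τ.symm : F →+* F) (τ (d : F)) / τ (d : F)) := by
    change τ g / g = (τ ((d : F) * g) / ((d : F) * g)) * (τ.symm (τ (d : F)) / τ (d : F))
    rw [RingEquiv.symm_apply_apply, map_mul]
    field_simp
  rw [e]
  exact h19_gint_mul R htR hϖ h1 h2

end Concrete

end H1GU
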