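/-
helper19: item 82 (S34), slice (KD) Kummer descent: pure algebra (Mathlib only).

* `kd_eigen`, `kd_idem`, `kd_sum`: the elements `X(y) = ν ∑_{j<n} y^j` (`ν n = 1`) for
  `y = ζ^k ψ`: `y X = X + ν (y^n - 1)`, `X² - X = (y^n - 1) ν² T`, `∑_k X(ζ^k ψ) = 1`.
* `kd_resolvent`: Lagrange resolvent `γ = ∑_σ (ψ / σψ) σρ` in a finite Galois extension `E / F`,
  `ψ ^ n ∈ F`: if `γ ≠ 0` then `ψ / γ ∈ F`, `γ ^ n ∈ F` and `ψ^n = γ^n (ψ/γ)^n`.
-/
import Mathlib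

set_option autoImplicit false

namespace H19KD

open Finset

section Ring

variable {A : Type*} [CommRing A]

theorem kd_eigen (ν y : A) (n : ℕ) :
    y * (ν * ∑ j ∈ range n, y ^ j) = ν * ∑ j ∈ range n, y ^ j + ν * (y ^ n - 1) := by
  have h := geom_sum_mul y n
  linear_combination ν * h

theorem kd_sum_sub (y : A) (n : ℕ) :
    (∑ j ∈ range n, y ^ j) - n = (∑ j ∈ range n, ∑ i ∈ range j, y ^ i) * (y - 1) := by
  rw [Finset.sum_mul]
  have : ∀ j ∈ range n, (∑ i ∈ range j, y ^ i) * (y - 1) = y ^ j - 1 := fun j _ =>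
    geom_sum_mul y j
  rw [Finset.sum_congr rfl this, Finset.sum_sub_distrib]
  simp

theorem kd_idem (ν y : A) (n : ℕ) (hν : ν * n = 1) :
    (ν * ∑ j ∈ range n, y ^ j) * (ν * ∑ j ∈ range n, y ^ j) - ν * ∑ j ∈ range n, y ^ j
      = (y ^ n - 1) * (ν ^ 2 * ∑ j ∈ range n, ∑ i ∈ range j, y ^ i) := by
  have hS := geom_sum_mul y n
  have hT := kd_sum_sub y n
  linear_combination (ν ^ 2 * ∑ j ∈ range n, y ^ j) * hT +
    (ν ^ 2 * ∑ j ∈ range n, ∑ i ∈ range j, y ^ i) * hS + (ν * ∑ j ∈ range n, y ^ j) * hν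

/-- difference of the `X`'s for `w` and `w * h`. -/
theorem kd_diff (ν w h : A) (n : ℕ) :
    ν * ∑ j ∈ range n, (w * h) ^ j - ν * ∑ j ∈ range n, w ^ j
      = (h - 1) * (ν * ∑ j ∈ range n, w ^ j * ∑ i ∈ range j, h ^ i) := by
  have key : ∑ j ∈ range n, (w * h) ^ j - ∑ j ∈ range n, w ^ j
      = (h - 1) * ∑ j ∈ range n, w ^ j * ∑ i ∈ range j, h ^ i := by
    rw [← Finset.sum_sub_distrib, Finset.mul_sum]
    apply Finset.sum_congr rfl
    intro j _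
    have := geom_sum_mul h j
    rw [mul_pow]
    linear_combination (-(w ^ j)) * this
  linear_combination ν * key

end Ring

section Field

variable {E : Type*} [Field E]

theorem kd_geom_root (ζ : E) (n : ℕ) (hζ : IsPrimitiveRoot ζ n) (j : ℕ) (hj0 : 0 < j)
    (hjn : j < n) : ∑ k ∈ range n, (ζ ^ j) ^ k = 0 := by
  have h1 : ζ ^ j ≠ 1 := hζ.pow_ne_one_of_pos_of_lt hj0.ne' hjn
  have h2 := geom_sum_mul (ζ ^ j) n
  rw [← pow_mul, mul_comm j n, pow_mul, hζ.pow_eq_one, one_pow, sub_self] at h2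
  rcases mul_eq_zero.mp h2 with h | h
  · exact h
  · exact absurd (sub_eq_zero.mp h) h1

theorem kd_sum (ζ ν ψ : E) (n : ℕ) (hn : 0 < n) (hζ : IsPrimitiveRoot ζ n) (hν : ν * n = 1) :
    ∑ k ∈ range n, ν * ∑ j ∈ range n, (ζ ^ k * ψ) ^ j = 1 := by
  rw [← Finset.mul_sum, Finset.sum_comm]
  have : ∀ j ∈ range n, ∑ k ∈ range n, (ζ ^ k * ψ) ^ j = (∑ k ∈ range n, (ζ ^ j) ^ k) * ψ ^ j := by
    intro j _
    rw [Finset.sum_mul]
    apply Finset.sum_congr rfl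
    intro k _
    rw [mul_pow, ← pow_mul, ← pow_mul, mul_comm k j]
  rw [Finset.sum_congr rfl this]
  have h0 : ∀ j ∈ range n, j ≠ 0 → (∑ k ∈ range n, (ζ ^ j) ^ k) * ψ ^ j = 0 := by
    intro j hj hj0
    rw [kd_geom_root ζ n hζ j (Nat.pos_of_ne_zero hj0) (Finset.mem_range.mp hj), zero_mul]
  rw [Finset.sum_eq_single_of_mem 0 (Finset.mem_range.mpr hn) h0]
  simp [hν]

end Field

section Galois

variable {F E : Type*} [Field F] [Field E] [Algebra F E] [FiniteDimensional F E] [IsGalois F E]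

/-- the Lagrange resolvent of `ρ` with respect to `ψ`. -/
noncomputable def kdRes (F : Type*) {E : Type*} [Field F] [Field E] [Algebra F E]
    [FiniteDimensional F E] (ψ ρ : E) : E :=
  ∑ σ : E ≃ₐ[F] E, (ψ / σ ψ) * σ ρ

omit [IsGalois F E] in
theorem kdRes_apply (ψ ρ : E) (hψ0 : ψ ≠ 0) (τ : E ≃ₐ[F] E) :
    τ (kdRes F ψ ρ) = (τ ψ / ψ) * kdRes F ψ ρ := by
  unfold kdRes
  rw [map_sum, Finset.mul_sum]
  have hinj : ∀ σ : E ≃ₐ[F] E, σ ψ ≠ 0 := fun σ h =>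
    hψ0 ((map_eq_zero_iff σ σ.injective).mp h)
  rw [← Equiv.sum_comp (Equiv.mulLeft τ)
    (fun σ : E ≃ₐ[F] E => (τ ψ / ψ) * ((ψ / σ ψ) * σ ρ))]
  apply Finset.sum_congr rfl
  intro σ _
  simp only [Equiv.coe_mulLeft, AlgEquiv.mul_apply, map_mul, map_div₀]
  have h1 := hinj τ
  have h2 := hinj (τ * σ)
  rw [AlgEquiv.mul_apply] at h2
  field_simp

theorem kd_resolvent (n : ℕ) (ψ ρ : E) (hψ0 : ψ ≠ 0) (v : F) (hv : ψ ^ n = algebraMap F E v)
    (hγ : kdRes F ψ ρ ≠ 0) :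
    ∃ c g : F, algebraMap F E c = kdRes F ψ ρ ^ n ∧ algebraMap F E g = ψ / kdRes F ψ ρ ∧
      v = c * g ^ n := by
  have hfix1 : ∀ τ : E ≃ₐ[F] E, τ (ψ / kdRes F ψ ρ) = ψ / kdRes F ψ ρ := by
    intro τ
    rw [map_div₀, kdRes_apply ψ ρ hψ0]
    have : τ ψ ≠ 0 := fun h => hψ0 ((map_eq_zero_iff τ τ.injective).mp h)
    field_simp
  have hfix2 : ∀ τ : E ≃ₐ[F] E, τ (kdRes F ψ ρ ^ n) = kdRes F ψ ρ ^ n := by
    intro τ
    rw [map_pow, kdRes_apply ψ ρ hψ0, mul_pow, div_pow, ← map_pow, hv, AlgEquiv.commutes,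
      div_self, one_mul]
    rw [← hv]; exact pow_ne_zero _ hψ0
  obtain ⟨g, hg⟩ := (IsGalois.mem_range_algebraMap_iff_fixed (F := F) (E := E) _).mpr hfix1
  obtain ⟨c, hc⟩ := (IsGalois.mem_range_algebraMap_iff_fixed (F := F) (E := E) _).mpr hfix2
  refine ⟨c, g, hc, hg, ?_⟩
  apply (algebraMap F E).injective
  rw [map_mul, map_pow, hc, hg, ← hv, div_pow]
  field_simp

end Galois

end H19KD
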