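/-
helper19: item 82 (S34), slice (KD) Kummer descent: one more identity (Mathlib only).
`kd_diffW`: `s^n (X(w h) - X(w)) = (s h - s) · ν ∑_j w^j ∑_{i<j} s^(n-1-i) (s h)^i`.
-/
import Mathlib
import Fermat.Agent.S34.KDAlg_helper19

set_option autoImplicit false

namespace H19KD

open Finset

theorem kd_diffW {A : Type*} [CommRing A] (ν w h s : A) (n : ℕ) :
    s ^ n * (ν * ∑ j ∈ range n, (w * h) ^ j - ν * ∑ j ∈ range n, w ^ j)
      = (s * h - s) * (ν * ∑ j ∈ range n, w ^ j * ∑ i ∈ range j, s ^ (n - 1 - i) * (s * h) ^ i) := by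
  rw [kd_diff]
  have key : s ^ n * ∑ j ∈ range n, w ^ j * ∑ i ∈ range j, h ^ i
      = s * ∑ j ∈ range n, w ^ j * ∑ i ∈ range j, s ^ (n - 1 - i) * (s * h) ^ i := by
    rw [Finset.mul_sum, Finset.mul_sum]
    apply Finset.sum_congr rfl
    intro j hj
    have hjn : j < n := Finset.mem_range.mp hj
    have hterm : ∀ i ∈ range j, s ^ n * h ^ i = s * (s ^ (n - 1 - i) * (s * h) ^ i) := by
      intro i hi
      have hij : i < j := Finset.mem_range.mp hi
      have e : s ^ n = s * s ^ (n - 1 - i) * s ^ i := by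
        rw [← pow_succ', ← pow_add]
        congr 1
        omega
      rw [e, mul_pow]; ring
    have h1 : s ^ n * ∑ i ∈ range j, h ^ i
        = s * ∑ i ∈ range j, s ^ (n - 1 - i) * (s * h) ^ i := by
      rw [Finset.mul_sum, Finset.mul_sum]
      exact Finset.sum_congr rfl hterm
    linear_combination (w ^ j) * h1
  linear_combination ((h - 1) * ν) * key

end H19KD
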