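/-
helper19: item 82 (S34), shortcut route, slice (KD) = "Kummer descent": exact statement.

Generic setting of `H7S18` on a field `F` (finite over `K(t)`, `K` algebraically closed in `F`).
If `v ∈ F` is `≡ 1 mod ϖ O_F` and, at every closed point `𝔫 ∋ ϖ` of both charts, `v · h ^ n` lies
in the local ring `B_𝔫` for some `h ≡ 1 mod ϖ O_F`, then `v = c · g ^ n` with a constant `c ∈ K`.
No hypothesis on the constants of `F(v^(1/n))` is needed.
-/
import Mathlib
import Fermat.Agent.S18.Defs

set_option autoImplicit false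

namespace H19KD

open Polynomial IntermediateField H7S18

/-- `x` lies in the local ring at the maximal ideal `𝔫` of the chart ring
`M = integralClosure R[t] F`. -/
def InLocAt (R : Type) [CommRing R] {F : Type} [Field F] [Algebra R F] (t : F)
    (𝔫 : Ideal (integralClosure (Algebra.adjoin R {t}) F)) (x : F) : Prop :=
  ∃ s : integralClosure (Algebra.adjoin R {t}) F, s ∉ 𝔫 ∧ IsInt R t ((s : F) * x)

/-- local hypothesis of (KD) in the chart `u` (`u = t` or `u = t⁻¹`; `O_F` is always taken with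
respect to `t`): at every maximal ideal `𝔫` of the chart ring containing `ϖ`, there is
`h ≡ 1 mod ϖ O_F` with `v · h ^ n ∈ B_𝔫`. -/
def LocPowAt (R : Type) [CommRing R] {F : Type} [Field F] [Algebra R F] (ϖ : R) (t u : F)
    (n : ℕ) (v : F) : Prop :=
  ∀ 𝔫 : Ideal (integralClosure (Algebra.adjoin R {u}) F), 𝔫.IsMaximal →
    (∀ s : integralClosure (Algebra.adjoin R {u}) F, (s : F) = algebraMap R F ϖ → s ∈ 𝔫) →
    ∃ h : F, ModPi R ϖ t h 1 ∧ InLocAt R u 𝔫 (v * h ^ n)

/-- **(KD) Kummer descent**. -/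
def KDStatement : Prop :=
  ∀ (R : Type) [CommRing R] [IsDomain R] [IsDiscreteValuationRing R]
    (K : Type) [Field K] [CharZero K] [Algebra R K] [IsFractionRing R K]
    (F : Type) [Field F] [Algebra K F] [Algebra R F] [IsScalarTower R K F]
    (ϖ : R) (_ : Irreducible ϖ) (t : F) (_ : Transcendental K t)
    (_ : FiniteDimensional K⟮t⟯ F)
    (_ : ∀ x : F, IsAlgebraic K x → x ∈ (algebraMap K F).range)
    (n : ℕ) (_ : IsUnit (n : R)) (ζ : R) (_ : IsPrimitiveRoot ζ n)
    (v : F) (_ : ModPi R ϖ t v 1)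
    (_ : LocPowAt R ϖ t t n v) (_ : LocPowAt R ϖ t t⁻¹ n v),
    ∃ (c : K) (g : F), v = algebraMap K F c * g ^ n

end H19KD
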