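/-
helper19: item 82 (S34) and S35, slice (KD) Kummer descent, WEAK local hypothesis.

`LocPowAtW`: as `LocPowAt`, but `h ≡ 1 mod ϖ O_F` is only required locally at `𝔫`:
`s' (h - 1) ∈ ϖ O_F` for some `s' ∈ B ∖ 𝔫`.  `KDWStatement`: the Kummer descent with this
hypothesis.  (`LocPowAt → LocPowAtW` with `s' = 1`.)
-/
import Mathlib
import Fermat.Agent.S18.Defs
import Fermat.Agent.S34.KDDefs_helper19

set_option autoImplicit false

namespace H19KD

open Polynomial IntermediateField H7S18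

/-- weak local hypothesis of (KD) in the chart `u`: at every maximal ideal `𝔫 ∋ ϖ` of the chart
ring there are `h` and `s' ∉ 𝔫` with `s' h ≡ s' mod ϖ O_F` and `v · h ^ n ∈ B_𝔫`. -/
def LocPowAtW (R : Type) [CommRing R] {F : Type} [Field F] [Algebra R F] (ϖ : R) (t u : F)
    (n : ℕ) (v : F) : Prop :=
  ∀ 𝔫 : Ideal (integralClosure (Algebra.adjoin R {u}) F), 𝔫.IsMaximal →
    (∀ s : integralClosure (Algebra.adjoin R {u}) F, (s : F) = algebraMap R F ϖ → s ∈ 𝔫) →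
    ∃ h : F, (∃ s' : integralClosure (Algebra.adjoin R {u}) F, s' ∉ 𝔫 ∧
        ModPi R ϖ t ((s' : F) * h) (s' : F)) ∧
      InLocAt R u 𝔫 (v * h ^ n)

theorem locPowAtW_of_locPowAt (R : Type) [CommRing R] {F : Type} [Field F] [Algebra R F] (ϖ : R)
    (t u : F) (n : ℕ) (v : F) (h : LocPowAt R ϖ t u n v) : LocPowAtW R ϖ t u n v := by
  intro 𝔫 hmax hϖ
  obtain ⟨h', hh', hloc⟩ := h 𝔫 hmax hϖ
  refine ⟨h', ⟨1, ?_, ?_⟩, hloc⟩
  · exact fun h1 => hmax.ne_top ((Ideal.eq_top_iff_one 𝔫).mpr h1)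
  · rw [Subalgebra.coe_one, one_mul]
    exact hh'

/-- **(KD-W) Kummer descent, weak local hypothesis**. -/
def KDWStatement : Prop :=
  ∀ (R : Type) [CommRing R] [IsDomain R] [IsDiscreteValuationRing R]
    (K : Type) [Field K] [CharZero K] [Algebra R K] [IsFractionRing R K]
    (F : Type) [Field F] [Algebra K F] [Algebra R F] [IsScalarTower R K F]
    (ϖ : R) (_ : Irreducible ϖ) (t : F) (_ : Transcendental K t)
    (_ : FiniteDimensional K⟮t⟯ F)
    (_ : ∀ x : F, IsAlgebraic K x → x ∈ (algebraMap K F).range)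
    (n : ℕ) (_ : IsUnit (n : R)) (ζ : R) (_ : IsPrimitiveRoot ζ n)
    (v : F) (_ : ModPi R ϖ t v 1)
    (_ : LocPowAtW R ϖ t t n v) (_ : LocPowAtW R ϖ t t⁻¹ n v),
    ∃ (c : K) (g : F), v = algebraMap K F c * g ^ n

end H19KD
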