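/-
helper19: item 82 (S34), shortcut route: connectedness lemma WITHOUT the hypothesis that `K` is
algebraically closed in `E`.

`H19KD.h19_CLr`: in the generic setting of `H7S18` (no hypothesis on the constants of `E`), an
idempotent of `O_E / ϖ` that lies in the image of both charts `M₀ / ϖ` and `M_∞ / ϖ` is congruent
mod `ϖ O_E` to an element `r` integral over `R` (a "constant": `r ∈ M₀ ∩ M_∞`).
-/
import Mathlib
import Fermat.Agent.S18.Defs
import Fermat.Agent.S18.C1_helper19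

set_option autoImplicit false
set_option linter.unusedSectionVars false
set_option linter.style.haveILetI false

namespace H19KD

open Polynomial IntermediateField H7S18 H19S18

/-- **CLr**: the connectedness lemma without the hypothesis on constants. -/
theorem h19_CLr (R : Type) [CommRing R] [IsDomain R] [IsDiscreteValuationRing R]
    (K : Type) [Field K] [CharZero K] [Algebra R K] [IsFractionRing R K]
    (E : Type) [Field E] [Algebra K E] [Algebra R E] [IsScalarTower R K E]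
    (ϖ : R) (hϖ : Irreducible ϖ) (t : E) (ht : Transcendental K t)
    (hfin : FiniteDimensional K⟮t⟯ E)
    (x a b : E) (hxx : ModPi R ϖ t (x * x) x)
    (ha : IsInt R t a) (hxa : ModPi R ϖ t x a)
    (hb : IsInt R t⁻¹ b) (hxb : ModPi R ϖ t x b) :
    ∃ r : E, IsIntegral R r ∧ IsInt R t r ∧ IsInt R t⁻¹ r ∧ ModPi R ϖ t x r := by
  have htR : Transcendental R t := h19_transc R K ht
  have htR' : Transcendental R t⁻¹ := h19_transc R K (h19_transc_inv K ht)
  have ht0 : t ≠ 0 := fun h => htR (h ▸ isAlgebraic_zero)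
  have hinj : Function.Injective (algebraMap R E) := h19_algebraMap_injective R K
  -- membership in O_E
  have hG0 : ∀ y : E, IsInt R t y → GInt R ϖ t y := fun y hy => h19_gint_of_isInt R htR hϖ hy
  have hGinf : ∀ y : E, IsInt R t⁻¹ y → GInt R ϖ t y := fun y hy =>
    h19_gint_of_isInt_inv R htR htR' hϖ hy
  have hGϖ : GInt R ϖ t (algebraMap R E ϖ) := hG0 _ (h19_isInt_algebraMap R t ϖ)
  have hGx : GInt R ϖ t x := by
    obtain ⟨z, hz, h⟩ := hxa
    have : x = a + algebraMap R E ϖ * z := by rw [← h]; ring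
    rw [this]
    exact h19_gint_add R htR hϖ (hG0 a ha) (h19_gint_mul R htR hϖ hGϖ hz)
  -- bounded torsion of `H^1`
  obtain ⟨n, m, hm, hgen⟩ := h19_M0_gens R K ht
  obtain ⟨c, hc⟩ := h19_cl_bounded (R := R) (O := E) ϖ (h19_M R t) (h19_M R t⁻¹) (h19_W R t)
    t t⁻¹ (mul_inv_cancel₀ ht0) (h19_isInt_t R t) (h19_isInt_t R t⁻¹) n m hm
    (fun y hy => hgen y hy) (fun w hw => hw)
    (fun i => h19_cl_loc_inv (R := R) t⁻¹ t (inv_mul_cancel₀ ht0) (m i) (hm i))
  -- the ring `O = O_E` and its subrings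
  set Oe : Subring E := h19_Oe R htR hϖ with hOe
  set M0' : Subring Oe := (h19_M R t).toSubring.comap Oe.subtype with hM0'
  set Minf' : Subring Oe := (h19_M R t⁻¹).toSubring.comap Oe.subtype with hMinf'
  set W' : Subring Oe := (h19_W R t).toSubring.comap Oe.subtype with hW'
  set π' : Oe := ⟨algebraMap R E ϖ, hGϖ⟩ with hπ'
  have hmem0 : ∀ y : Oe, y ∈ M0' ↔ IsInt R t (y : E) := fun y => Iff.rfl
  have hmeminf : ∀ y : Oe, y ∈ Minf' ↔ IsInt R t⁻¹ (y : E) := fun y => Iff.rfl
  have hmemW : ∀ y : Oe, y ∈ W' ↔ ∃ k : ℕ, IsInt R t (t ^ k * (y : E)) := fun y => Iff.rfl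
  have key := h19_cl_glue (O := Oe) π' M0' Minf' W'
    ((hmem0 π').mpr (h19_isInt_algebraMap R t ϖ))
    ((hmeminf π').mpr (h19_isInt_algebraMap R t⁻¹ ϖ))
    (fun y hy => (hmemW y).mpr ⟨0, by rw [pow_zero, one_mul]; exact (hmem0 y).mp hy⟩)
    (fun y hy => (hmemW y).mpr
      (by
        have := h19_cl_loc_inv (R := R) t t⁻¹ (mul_inv_cancel₀ ht0) (y : E) ((hmeminf y).mp hy)
        exact this))
    (fun y hy => (hmem0 y).mpr (h19_lemmaU R htR hϖ y.2 ((hmem0 _).mp hy)))
    (fun y hy => (hmeminf y).mpr (h19_lemmaU_inv R htR htR' hϖ y.2 ((hmeminf _).mp hy)))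
    (fun y hy => by
      obtain ⟨k, hk⟩ := (hmemW _).mp hy
      refine (hmemW y).mpr ⟨k, ?_⟩
      have hty : GInt R ϖ t (t ^ k * (y : E)) :=
        h19_gint_mul R htR hϖ (hG0 _ (h19_mem_T_isInt R t
          (Subalgebra.pow_mem _ (Algebra.subset_adjoin (Set.mem_singleton _)) _))) y.2
      apply h19_lemmaU R htR hϖ hty
      have : algebraMap R E ϖ * (t ^ k * (y : E)) = t ^ k * (algebraMap R E ϖ * (y : E)) := by
        ring
      rw [this]
      exact hk)
    c
    (fun w hw k hk => by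
      obtain ⟨u, hu, v, hv, huv⟩ := hk
      have huv' : algebraMap R E ϖ ^ k * (w : E) = (u : E) + (v : E) := by
        have := congrArg (fun z : Oe => (z : E)) huv
        simpa using this
      obtain ⟨u', hu', v', hv', huv''⟩ := hc (w : E) ((hmemW w).mp hw) k
        ⟨(u : E), (hmem0 u).mp hu, (v : E), (hmeminf v).mp hv, huv'⟩
      refine ⟨⟨u', hG0 u' hu'⟩, hu', ⟨v', hGinf v' hv'⟩, hv', ?_⟩
      apply Subtype.ext
      simpa using huv'')
    ⟨x, hGx⟩
    (by
      obtain ⟨z, hz, h⟩ := hxx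
      refine ⟨⟨z, hz⟩, ?_⟩
      apply Subtype.ext
      change x ^ 2 - x = algebraMap R E ϖ * z
      rw [← h]; ring)
    (by
      obtain ⟨z, hz, h⟩ := hxa
      exact ⟨⟨a, hG0 a ha⟩, ha, ⟨z, hz⟩, Subtype.ext h⟩)
    (by
      obtain ⟨z, hz, h⟩ := hxb
      exact ⟨⟨b, hGinf b hb⟩, hb, ⟨z, hz⟩, Subtype.ext h⟩)
  obtain ⟨r, hr0, hrinf, y, hy⟩ := key
  refine ⟨(r : E), h19_cl_two_charts t (r : E) ((hmem0 r).mp hr0) ((hmeminf r).mp hrinf),
    (hmem0 r).mp hr0, (hmeminf r).mp hrinf, (y : E), y.2, ?_⟩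
  have := congrArg (fun z : Oe => (z : E)) hy
  exact this

end H19KD
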