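/-
helper19: item 82 (S34), slice (KD) Kummer descent, `E`-side:
calculus of `ModPi` and `h19_kummer_const`: in the generic setting of `H7S18` on a field `E`
(no hypothesis on constants), if `ψ ^ n ≡ 1 mod ϖ O_E` and all the elements
`X_k = ν ∑_{j<n} (ζ^k ψ)^j` are congruent mod `ϖ O_E` to elements of both charts, then `ψ` is
congruent mod `ϖ O_E` to an element integral over `R` (a constant).
-/
import Mathlib
import Fermat.Agent.S18.Defs
import Fermat.Agent.S18.C5_helper19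
import Fermat.Agent.S34.CLr_helper19
import Fermat.Agent.S34.KDAlg_helper19

set_option autoImplicit false
set_option linter.unusedSectionVars false
set_option linter.style.haveILetI false

namespace H19KD

open Polynomial IntermediateField H7S18 H19S18 Finset

section Calc

variable (R : Type) [CommRing R] [IsDomain R] [IsDiscreteValuationRing R]
  {E : Type} [Field E] [Algebra R E]

theorem kd_gint_zero {t : E} (ht : Transcendental R t) {ϖ : R} (hϖ : Irreducible ϖ) :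
    GInt R ϖ t 0 := (h19_Oe R ht hϖ).zero_mem

theorem kd_gint_one {t : E} (ht : Transcendental R t) {ϖ : R} (hϖ : Irreducible ϖ) :
    GInt R ϖ t 1 := (h19_Oe R ht hϖ).one_mem

theorem kd_gint_sub {t : E} (ht : Transcendental R t) {ϖ : R} (hϖ : Irreducible ϖ)
    {x y : E} (hx : GInt R ϖ t x) (hy : GInt R ϖ t y) : GInt R ϖ t (x - y) :=
  (h19_Oe R ht hϖ).sub_mem hx hy

theorem kd_modPi_refl {t : E} (ht : Transcendental R t) {ϖ : R} (hϖ : Irreducible ϖ) (x : E) :
    ModPi R ϖ t x x := ⟨0, kd_gint_zero R ht hϖ, by simp⟩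

theorem kd_modPi_of_eq {t : E} (ht : Transcendental R t) {ϖ : R} (hϖ : Irreducible ϖ) {x y : E}
    (h : x = y) : ModPi R ϖ t x y := h ▸ kd_modPi_refl R ht hϖ x

theorem kd_modPi_symm {t : E} {ϖ : R} {x y : E}
    (h : ModPi R ϖ t x y) : ModPi R ϖ t y x := by
  obtain ⟨z, hz, e⟩ := h
  exact ⟨-z, h19_gint_neg R hz, by rw [mul_neg, ← e]; ring⟩

theorem kd_modPi_trans {t : E} (ht : Transcendental R t) {ϖ : R} (hϖ : Irreducible ϖ)
    {x y z : E} (h₁ : ModPi R ϖ t x y) (h₂ : ModPi R ϖ t y z) : ModPi R ϖ t x z := by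
  obtain ⟨u, hu, e₁⟩ := h₁
  obtain ⟨w, hw, e₂⟩ := h₂
  exact ⟨u + w, h19_gint_add R ht hϖ hu hw, by rw [mul_add, ← e₁, ← e₂]; ring⟩

theorem kd_modPi_add {t : E} (ht : Transcendental R t) {ϖ : R} (hϖ : Irreducible ϖ)
    {x y x' y' : E} (h₁ : ModPi R ϖ t x y) (h₂ : ModPi R ϖ t x' y') :
    ModPi R ϖ t (x + x') (y + y') := by
  obtain ⟨u, hu, e₁⟩ := h₁
  obtain ⟨w, hw, e₂⟩ := h₂
  exact ⟨u + w, h19_gint_add R ht hϖ hu hw, by rw [mul_add, ← e₁, ← e₂]; ring⟩

theorem kd_modPi_mul_left {t : E} (ht : Transcendental R t) {ϖ : R} (hϖ : Irreducible ϖ)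
    {c x y : E} (hc : GInt R ϖ t c) (h : ModPi R ϖ t x y) : ModPi R ϖ t (c * x) (c * y) := by
  obtain ⟨u, hu, e⟩ := h
  exact ⟨c * u, h19_gint_mul R ht hϖ hc hu, by rw [← mul_sub, e]; ring⟩

theorem kd_modPi_mul_right {t : E} (ht : Transcendental R t) {ϖ : R} (hϖ : Irreducible ϖ)
    {c x y : E} (hc : GInt R ϖ t c) (h : ModPi R ϖ t x y) : ModPi R ϖ t (x * c) (y * c) := by
  rw [mul_comm x c, mul_comm y c]
  exact kd_modPi_mul_left R ht hϖ hc h

theorem kd_modPi_sum {t : E} (ht : Transcendental R t) {ϖ : R} (hϖ : Irreducible ϖ)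
    {ι : Type*} (s : Finset ι) (f g : ι → E) (h : ∀ i ∈ s, ModPi R ϖ t (f i) (g i)) :
    ModPi R ϖ t (∑ i ∈ s, f i) (∑ i ∈ s, g i) := by
  classical
  induction s using Finset.induction_on with
  | empty => simpa using kd_modPi_refl R ht hϖ (0 : E)
  | insert a s ha ih =>
    rw [Finset.sum_insert ha, Finset.sum_insert ha]
    exact kd_modPi_add R ht hϖ (h a (Finset.mem_insert_self a s))
      (ih (fun i hi => h i (Finset.mem_insert_of_mem hi)))

/-- `x ≡ y mod ϖ` and `y ∈ O_E` give `x ∈ O_E`. -/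
theorem kd_gint_of_modPi {t : E} (ht : Transcendental R t) {ϖ : R} (hϖ : Irreducible ϖ)
    {x y : E} (h : ModPi R ϖ t x y) (hy : GInt R ϖ t y) : GInt R ϖ t x := by
  obtain ⟨z, hz, e⟩ := h
  have : x = y + algebraMap R E ϖ * z := by rw [← e]; ring
  rw [this]
  exact h19_gint_add R ht hϖ hy (h19_gint_mul R ht hϖ (h19_gint_algebraMap R ht hϖ ϖ) hz)

/-- `x ≡ 1 mod ϖ` gives `x ^ j ≡ 1`. -/
theorem kd_modPi_pow_one {t : E} (ht : Transcendental R t) {ϖ : R} (hϖ : Irreducible ϖ)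
    {x : E} (h : ModPi R ϖ t x 1) (j : ℕ) : ModPi R ϖ t (x ^ j) 1 := by
  have hx : GInt R ϖ t x := kd_gint_of_modPi R ht hϖ h (kd_gint_one R ht hϖ)
  induction j with
  | zero => rw [pow_zero]; exact kd_modPi_refl R ht hϖ 1
  | succ j ih =>
    rw [pow_succ]
    have h1 := kd_modPi_mul_right R ht hϖ hx ih
    rw [one_mul] at h1
    exact kd_modPi_trans R ht hϖ h1 h

end Calc

section Const

/-- **Kummer elements are congruent to constants.** -/
theorem h19_kummer_const (R : Type) [CommRing R] [IsDomain R] [IsDiscreteValuationRing R]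
    (K : Type) [Field K] [CharZero K] [Algebra R K] [IsFractionRing R K]
    (E : Type) [Field E] [Algebra K E] [Algebra R E] [IsScalarTower R K E]
    (ϖ : R) (hϖ : Irreducible ϖ) (t : E) (ht : Transcendental K t)
    (hfin : FiniteDimensional K⟮t⟯ E)
    (n : ℕ) (hn0 : 0 < n) (ν : R) (hν : ν * n = 1) (ζ : R) (hζ : IsPrimitiveRoot ζ n)
    (ψ : E) (hψ : ModPi R ϖ t (ψ ^ n) 1)
    (h0 : ∀ k < n, ∃ a, IsInt R t a ∧
      ModPi R ϖ t (algebraMap R E ν * ∑ j ∈ range n, (algebraMap R E (ζ ^ k) * ψ) ^ j) a)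
    (hinf : ∀ k < n, ∃ b, IsInt R t⁻¹ b ∧
      ModPi R ϖ t (algebraMap R E ν * ∑ j ∈ range n, (algebraMap R E (ζ ^ k) * ψ) ^ j) b) :
    ∃ ρ : E, IsIntegral R ρ ∧ ModPi R ϖ t ψ ρ := by
  have htR : Transcendental R t := h19_transc R K ht
  have hinj : Function.Injective (algebraMap R E) := h19_algebraMap_injective R K
  set νE := algebraMap R E ν with hνE
  have hνn : νE * (n : E) = 1 := by
    rw [hνE, ← map_natCast (algebraMap R E), ← map_mul, hν, map_one]
  have hζE : IsPrimitiveRoot (algebraMap R E ζ) n := hζ.map_of_injective hinj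
  have hGR : ∀ r : R, GInt R ϖ t (algebraMap R E r) := fun r => h19_gint_algebraMap R htR hϖ r
  have hGψn : GInt R ϖ t (ψ ^ n) := kd_gint_of_modPi R htR hϖ hψ (kd_gint_one R htR hϖ)
  have hGψ : GInt R ϖ t ψ := h19_gint_of_pow R n hn0 hGψn
  -- the elements `y_k`, `X_k`
  set y : ℕ → E := fun k => algebraMap R E (ζ ^ k) * ψ with hy
  set X : ℕ → E := fun k => νE * ∑ j ∈ range n, (y k) ^ j with hX
  have hGy : ∀ k, GInt R ϖ t (y k) := fun k => h19_gint_mul R htR hϖ (hGR _) hGψ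
  have hyn : ∀ k, (y k) ^ n = ψ ^ n := by
    intro k
    simp only [hy]
    rw [mul_pow, ← map_pow, ← pow_mul, mul_comm k n, pow_mul, hζ.pow_eq_one, one_pow, map_one,
      one_mul]
  have hGS : ∀ (k : ℕ) (m : ℕ), GInt R ϖ t (∑ j ∈ range m, (y k) ^ j) := fun k m =>
    h19_gint_sum R htR hϖ _ _ (fun j _ => h19_gint_pow R htR hϖ (hGy k) j)
  have hGX : ∀ k, GInt R ϖ t (X k) := fun k => h19_gint_mul R htR hϖ (hGR ν) (hGS k n)
  obtain ⟨z, hz, hzψ⟩ := hψ
  -- idempotency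
  have hidem : ∀ k, ModPi R ϖ t (X k * X k) (X k) := by
    intro k
    refine ⟨z * (νE ^ 2 * ∑ j ∈ range n, ∑ i ∈ range j, (y k) ^ i), ?_, ?_⟩
    · refine h19_gint_mul R htR hϖ hz (h19_gint_mul R htR hϖ
        (h19_gint_pow R htR hϖ (hGR ν) 2) ?_)
      exact h19_gint_sum R htR hϖ _ _ (fun j _ => hGS k j)
    · rw [kd_idem νE (y k) n hνn, hyn k, hzψ]; ring
  -- eigen-property
  have heig : ∀ k, ModPi R ϖ t (y k * X k) (X k) := by
    intro k
    refine ⟨νE * z, h19_gint_mul R htR hϖ (hGR ν) hz, ?_⟩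
    rw [kd_eigen νE (y k) n, hyn k, hzψ]; ring
  -- constants from CLr
  have hr : ∀ k, ∃ r : E, k < n → IsIntegral R r ∧ ModPi R ϖ t (X k) r := by
    intro k
    by_cases hk : k < n
    · obtain ⟨a, ha, hXa⟩ := h0 k hk
      obtain ⟨b, hb, hXb⟩ := hinf k hk
      obtain ⟨r, hr1, -, -, hr2⟩ := h19_CLr R K E ϖ hϖ t ht hfin (X k) a b (hidem k) ha hXa hb hXb
      exact ⟨r, fun _ => ⟨hr1, hr2⟩⟩
    · exact ⟨0, fun h => absurd h hk⟩
  choose r hr using hr
  refine ⟨∑ k ∈ range n, algebraMap R E (ζ ^ (n - k)) * r k, ?_, ?_⟩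
  · apply IsIntegral.sum
    intro k hk
    exact IsIntegral.mul isIntegral_algebraMap (hr k (Finset.mem_range.mp hk)).1
  · have hsum : ∑ k ∈ range n, X k = 1 := by
      have := kd_sum (algebraMap R E ζ) νE ψ n hn0 hζE hνn
      simp only [hX, hy, map_pow]
      exact this
    have h1 : ψ = ∑ k ∈ range n, ψ * X k := by
      rw [← Finset.mul_sum, hsum, mul_one]
    have h2 : ∀ k ∈ range n, ModPi R ϖ t (ψ * X k) (algebraMap R E (ζ ^ (n - k)) * r k) := by
      intro k hk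
      have hkn := Finset.mem_range.mp hk
      have hzz : algebraMap R E (ζ ^ (n - k)) * algebraMap R E (ζ ^ k) = 1 := by
        rw [← map_mul, ← pow_add, Nat.sub_add_cancel hkn.le, hζ.pow_eq_one, map_one]
      have e1 : ψ * X k = algebraMap R E (ζ ^ (n - k)) * (y k * X k) := by
        have hyk : y k = algebraMap R E (ζ ^ k) * ψ := rfl
        rw [hyk]
        linear_combination (-(ψ * X k)) * hzz
      rw [e1]
      exact kd_modPi_mul_left R htR hϖ (hGR _)
        (kd_modPi_trans R htR hϖ (heig k) (hr k hkn).2)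
    have h3 := kd_modPi_sum R htR hϖ (range n) _ _ h2
    rw [← h1] at h3
    exact h3

end Const

end H19KD
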