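/-
helper19: item 82 (S34), slice (KD) Kummer descent, Galois part:
* `kd_isInt_aut`, `kd_gint_aut`, `kd_modPi_aut`: automorphisms of `E / F` preserve `M₀(E)`,
  `O_E` and congruences mod `ϖ O_E`;
* `kd_card_dvd`: for `E = F(ψ)`, `ψ ^ n ∈ F`, `μ_n ⊆ F`: `|Aut(E/F)|` divides `n`;
* `kd_finite_tower`: `E` is finite over `K(t_E)`.
-/
import Mathlib
import Fermat.Agent.S18.Defs
import Fermat.Agent.S18.C5Base_helper19
import Fermat.Agent.S18.C5Trace_helper19

set_option autoImplicit false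
set_option linter.unusedSectionVars false
set_option linter.style.haveILetI false

namespace H19KD

open Polynomial IntermediateField H7S18 H19S18 Finset

section Aut

variable (R : Type) [CommRing R] [IsDomain R] [IsDiscreteValuationRing R]
  {F : Type} [Field F] [Algebra R F]
  {E : Type} [Field E] [Algebra R E] [Algebra F E] [IsScalarTower R F E]

theorem kd_isInt_aut (t : F) (σ : E ≃ₐ[F] E) {x : E} (hx : IsInt R (algebraMap F E t) x) :
    IsInt R (algebraMap F E t) (σ x) := by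
  rw [h19_isInt_E_iff] at hx ⊢
  exact IsIntegral.map (σ.toAlgHom.restrictScalars (Algebra.adjoin R {t})) hx

theorem kd_gint_aut (t : F) (ϖ : R) (σ : E ≃ₐ[F] E) {x : E}
    (hx : GInt R ϖ (algebraMap F E t) x) : GInt R ϖ (algebraMap F E t) (σ x) := by
  obtain ⟨s, hs, h⟩ := hx
  obtain ⟨c, hc, rfl⟩ := h19_exists_of_mem_TE R t hs.1
  refine ⟨algebraMap F E c, hs, ?_⟩
  have := kd_isInt_aut R t σ h
  rwa [map_mul, σ.commutes] at this

theorem kd_modPi_aut (t : F) (ϖ : R) (σ : E ≃ₐ[F] E) {x y : E}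
    (h : ModPi R ϖ (algebraMap F E t) x y) : ModPi R ϖ (algebraMap F E t) (σ x) (σ y) := by
  obtain ⟨z, hz, e⟩ := h
  refine ⟨σ z, kd_gint_aut R t ϖ σ hz, ?_⟩
  rw [← map_sub, e, map_mul, IsScalarTower.algebraMap_apply R F E, σ.commutes]

theorem kd_isIntegral_aut (σ : E ≃ₐ[F] E) {x : E} (hx : IsIntegral R x) : IsIntegral R (σ x) :=
  IsIntegral.map (σ.toAlgHom.restrictScalars R) hx

end Aut

section Card

variable {F E : Type*} [Field F] [Field E] [Algebra F E]

theorem kd_aut_eq_of_apply_eq (ψ : E) (hgen : F⟮ψ⟯ = ⊤) (σ τ : E ≃ₐ[F] E) (h : σ ψ = τ ψ) :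
    σ = τ := by
  have key : ∀ x ∈ F⟮ψ⟯, σ x = τ x := by
    intro x hx
    induction hx using IntermediateField.adjoin_induction with
    | mem x hx =>
      rw [Set.mem_singleton_iff] at hx
      rw [hx]; exact h
    | algebraMap x => rw [σ.commutes, τ.commutes]
    | add x y _ _ hx hy => rw [map_add, map_add, hx, hy]
    | inv x _ hx => rw [map_inv₀, map_inv₀, hx]
    | mul x y _ _ hx hy => rw [map_mul, map_mul, hx, hy]
  ext x
  exact key x (by rw [hgen]; trivial)

/-- the Kummer character `σ ↦ σψ / ψ`. -/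
theorem kd_card_dvd [FiniteDimensional F E] (n : ℕ) (hn : 0 < n) (ζ : F)
    (hζ : IsPrimitiveRoot ζ n) (ψ : E) (hψ0 : ψ ≠ 0) (v : F) (hv : ψ ^ n = algebraMap F E v)
    (hgen : F⟮ψ⟯ = ⊤) : Nat.card (E ≃ₐ[F] E) ∣ n := by
  classical
  haveI : NeZero n := ⟨hn.ne'⟩
  have hζE : IsPrimitiveRoot (algebraMap F E ζ) n :=
    hζ.map_of_injective (algebraMap F E).injective
  have hne : ∀ σ : E ≃ₐ[F] E, σ ψ ≠ 0 := fun σ h =>
    hψ0 ((map_eq_zero_iff σ σ.injective).mp h)
  have hpow : ∀ σ : E ≃ₐ[F] E, (σ ψ / ψ) ^ n = 1 := by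
    intro σ
    rw [div_pow, ← map_pow, hv, σ.commutes, div_self]
    rw [← hv]; exact pow_ne_zero _ hψ0
  have hF : ∀ σ : E ≃ₐ[F] E, ∃ c : F, algebraMap F E c = σ ψ / ψ := by
    intro σ
    obtain ⟨i, -, hi⟩ := hζE.eq_pow_of_pow_eq_one (hpow σ)
    exact ⟨ζ ^ i, by rw [map_pow, hi]⟩
  let f : (E ≃ₐ[F] E) →* rootsOfUnity n E :=
    { toFun := fun σ => ⟨Units.mk0 (σ ψ / ψ) (div_ne_zero (hne σ) hψ0), by
        rw [mem_rootsOfUnity]
        apply Units.ext
        simpa using hpow σ⟩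
      map_one' := by
        apply Subtype.ext
        apply Units.ext
        simp [hψ0]
      map_mul' := by
        intro σ τ
        apply Subtype.ext
        apply Units.ext
        obtain ⟨c, hc⟩ := hF τ
        have hτ : τ ψ = algebraMap F E c * ψ := by
          rw [hc]; field_simp
        change (σ * τ) ψ / ψ = (σ ψ / ψ) * (τ ψ / ψ)
        rw [AlgEquiv.mul_apply, hτ, map_mul, σ.commutes]
        field_simp }
  have hinj : Function.Injective f := by
    intro σ τ h
    apply kd_aut_eq_of_apply_eq ψ hgen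
    have h1 := congrArg (fun u : rootsOfUnity n E => ((u : Eˣ) : E)) h
    simp only [f, MonoidHom.coe_mk, OneHom.coe_mk, Units.val_mk0] at h1
    field_simp at h1
    exact h1
  have h1 := Subgroup.card_dvd_of_injective f hinj
  have h2 : Nat.card (rootsOfUnity n E) = n := hζE.card_rootsOfUnity
  rwa [h2] at h1

end Card

section Tower

/-- finiteness in the tower `K⟮t⟯ ⊆ F ⊆ E` transported to `K⟮t_E⟯ ⊆ E`. -/
theorem kd_finite_tower (K : Type) [Field K]
    {F : Type} [Field F] [Algebra K F]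
    {E : Type} [Field E] [Algebra K E] [Algebra F E] [IsScalarTower K F E]
    (t : F) [FiniteDimensional K⟮t⟯ F] [FiniteDimensional F E] :
    FiniteDimensional K⟮algebraMap F E t⟯ E := by
  haveI : Module.Finite K⟮t⟯ E := Module.Finite.trans F E
  exact Module.Finite.of_equiv_equiv (h19_KtEquiv K (E := E) t).toRingEquiv (RingEquiv.refl E)
    (by ext c; rfl)

end Tower

end H19KD
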