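/-
helper19: item 82 (S34), slice (KD) Kummer descent: proof of `H19KD.KDWStatement` and
`H19KD.KDStatement`.

`v ∈ F`, `v ≡ 1 mod ϖ O_F`, and at every closed point `𝔫 ∋ ϖ` of both charts `v · h ^ n ∈ B_𝔫`
for some `h ≡ 1 mod ϖ O_F` (locally at `𝔫`).  Then `v = c · g ^ n` with `c ∈ K`, `g ∈ F`.

Proof: `E` = splitting field of `X ^ n - v`, `ψ ∈ E` a root.  The elements
`X_k = ν ∑_j (ζ^k ψ)^j` lie in both charts mod `ϖ O_E` (`kd_chart`, ideal trick), so by `CLr`
they are congruent to constants and `ψ ≡ ρ`, `ρ` integral over `R` (`h19_kummer_const`).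
The Lagrange resolvent `γ = ∑_σ (ψ / σψ) σρ ≡ |G| ψ` is nonzero, `ψ / γ ∈ F`, `γ ^ n ∈ K`.
-/
import Mathlib
import Fermat.Agent.S18.Defs
import Fermat.Agent.S34.KDDefs_helper19
import Fermat.Agent.S34.KDDefsW_helper19
import Fermat.Agent.S34.KDAlgW_helper19
import Fermat.Agent.S34.KDE_helper19
import Fermat.Agent.S34.KDGal_helper19

set_option autoImplicit false
set_option linter.unusedSectionVars false
set_option linter.style.haveILetI false

namespace H19KD

open Polynomial IntermediateField H7S18 H19S18 Finset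

section Chart

variable (R : Type) [CommRing R] [IsDomain R] [IsDiscreteValuationRing R]
  {F : Type} [Field F] [Algebra R F]
  {E : Type} [Field E] [Algebra R E] [Algebra F E] [IsScalarTower R F E]

/-- **ideal trick** (helper7): the local hypothesis at all closed points of the chart `u` gives
a global chart representative of `X = ν ∑_j w^j` modulo `ϖ O_E`. -/
theorem kd_chart {ϖ : R} (hϖ : Irreducible ϖ) {t : F} (ht : Transcendental R t) (u : F)
    (hB : ∀ b : F, IsInt R u b → GInt R ϖ (algebraMap F E t) (algebraMap F E b))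
    (n : ℕ) (hn0 : 0 < n) (ν : R) (v : F)
    (hloc : LocPowAtW R ϖ t u n v)
    (w : E) (hw : w ^ n = algebraMap F E v) (hGw : GInt R ϖ (algebraMap F E t) w) :
    ∃ a, IsInt R (algebraMap F E u) a ∧
      ModPi R ϖ (algebraMap F E t) (algebraMap R E ν * ∑ j ∈ range n, w ^ j) a := by
  classical
  have htE : Transcendental R (algebraMap F E t) := h19_transc_map R ht
  set tE := algebraMap F E t with htEdef
  set uE := algebraMap F E u with huEdef
  set νE := algebraMap R E ν with hνE
  set X := νE * ∑ j ∈ range n, w ^ j with hX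
  have hGR : ∀ r : R, GInt R ϖ tE (algebraMap R E r) := fun r => h19_gint_algebraMap R htE hϖ r
  have hGX : GInt R ϖ tE X :=
    h19_gint_mul R htE hϖ (hGR ν)
      (h19_gint_sum R htE hϖ _ _ (fun j _ => h19_gint_pow R htE hϖ hGw j))
  let I : Ideal (integralClosure (Algebra.adjoin R {u}) F) :=
    { carrier := {s | ∃ a : E, IsInt R uE a ∧ ModPi R ϖ tE (algebraMap F E (s : F) * X) a}
      add_mem' := by
        rintro s s' ⟨a, ha, h⟩ ⟨a', ha', h'⟩
        refine ⟨a + a', h19_isInt_add R uE ha ha', ?_⟩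
        have : algebraMap F E ((s + s' : integralClosure (Algebra.adjoin R {u}) F) : F) * X
            = algebraMap F E (s : F) * X + algebraMap F E (s' : F) * X := by
          rw [Subalgebra.coe_add, map_add, add_mul]
        rw [this]
        exact kd_modPi_add R htE hϖ h h'
      zero_mem' := by
        refine ⟨0, ?_, ?_⟩
        · have := h19_isInt_algebraMap R uE 0
          rwa [map_zero] at this
        · have : algebraMap F E ((0 : integralClosure (Algebra.adjoin R {u}) F) : F) * X = 0 := by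
            rw [Subalgebra.coe_zero, map_zero, zero_mul]
          rw [this]
          exact kd_modPi_refl R htE hϖ 0
      smul_mem' := by
        rintro c s ⟨a, ha, h⟩
        refine ⟨algebraMap F E (c : F) * a, h19_isInt_mul R uE (h19_isInt_map R u c.2) ha, ?_⟩
        have : algebraMap F E ((c • s : integralClosure (Algebra.adjoin R {u}) F) : F) * X
            = algebraMap F E (c : F) * (algebraMap F E (s : F) * X) := by
          rw [smul_eq_mul, Subalgebra.coe_mul, map_mul, mul_assoc]
        rw [this]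
        exact kd_modPi_mul_left R htE hϖ (hB c c.2) h }
  have hmemI : ∀ s : integralClosure (Algebra.adjoin R {u}) F,
      s ∈ I ↔ ∃ a : E, IsInt R uE a ∧ ModPi R ϖ tE (algebraMap F E (s : F) * X) a :=
    fun s => Iff.rfl
  by_cases hI : I = ⊤
  · have h1 : (1 : integralClosure (Algebra.adjoin R {u}) F) ∈ I := by rw [hI]; trivial
    obtain ⟨a, ha, h⟩ := (hmemI 1).mp h1
    refine ⟨a, ha, ?_⟩
    have e : algebraMap F E ((1 : integralClosure (Algebra.adjoin R {u}) F) : F) * X = X := by
      rw [Subalgebra.coe_one, map_one, one_mul]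
    rwa [e] at h
  · exfalso
    obtain ⟨𝔫, hmax, hle⟩ := Ideal.exists_le_maximal I hI
    have hϖ𝔫 : ∀ s : integralClosure (Algebra.adjoin R {u}) F,
        (s : F) = algebraMap R F ϖ → s ∈ 𝔫 := by
      intro s hs
      apply hle
      refine (hmemI s).mpr ⟨0, ?_, ?_⟩
      · have := h19_isInt_algebraMap R uE 0
        rwa [map_zero] at this
      · refine ⟨X, hGX, ?_⟩
        rw [sub_zero, hs, ← IsScalarTower.algebraMap_apply]
    obtain ⟨h, ⟨s', hs', hh⟩, s, hs, hint⟩ := hloc 𝔫 hmax hϖ𝔫
    set sE := algebraMap F E (s : F) with hsE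
    set sE' := algebraMap F E (s' : F) with hsE'
    set hE := algebraMap F E h with hhE
    have hhE1 : ModPi R ϖ tE (sE' * hE) sE' := by
      have := h19_modPi_map (E := E) R ht ϖ hh
      rwa [map_mul] at this
    have hGs : GInt R ϖ tE sE := hB s s.2
    have hGs' : GInt R ϖ tE sE' := hB s' s'.2
    have hGsh : GInt R ϖ tE (sE' * hE) := kd_gint_of_modPi R htE hϖ hhE1 hGs'
    have hIs : IsInt R uE sE := h19_isInt_map R u s.2
    have hIs' : IsInt R uE sE' := h19_isInt_map R u s'.2
    -- `s w h` is integral over the chart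
    have hswh : IsInt R uE (sE * w * hE) := by
      apply IsIntegral.of_pow hn0
      have e : (sE * w * hE) ^ n = algebraMap F E ((s : F) ^ (n - 1) * ((s : F) * (v * h ^ n))) := by
        rw [map_mul, map_mul, map_mul, map_pow, map_pow, ← hw, mul_pow, mul_pow]
        have : sE ^ n = sE ^ (n - 1) * sE := by
          rw [← pow_succ, Nat.sub_add_cancel hn0]
        rw [this]; ring
      rw [e]
      exact h19_isInt_map R u (h19_isInt_mul R u (IsIntegral.pow s.2 _) hint)
    have hsn : (s' * s) ^ n ∈ I := by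
      refine (hmemI _).mpr
        ⟨sE' ^ n * (νE * ∑ j ∈ range n, sE ^ (n - j) * (sE * w * hE) ^ j), ?_, ?_⟩
      · refine h19_isInt_mul R uE (IsIntegral.pow hIs' _)
          (h19_isInt_mul R uE (h19_isInt_algebraMap R uE ν) ?_)
        apply IsIntegral.sum
        intro j _
        exact h19_isInt_mul R uE (IsIntegral.pow hIs _) (IsIntegral.pow hswh _)
      · have e1 : sE' ^ n * (νE * ∑ j ∈ range n, sE ^ (n - j) * (sE * w * hE) ^ j)
            = sE ^ n * (sE' ^ n * (νE * ∑ j ∈ range n, (w * hE) ^ j)) := by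
          have hterm : ∀ j ∈ range n,
              sE ^ (n - j) * (sE * w * hE) ^ j = sE ^ n * (w * hE) ^ j := by
            intro j hj
            have hjn : j ≤ n := (Finset.mem_range.mp hj).le
            have : sE ^ n = sE ^ (n - j) * sE ^ j := by
              rw [← pow_add, Nat.sub_add_cancel hjn]
            rw [this]; ring
          rw [Finset.sum_congr rfl hterm, ← Finset.mul_sum]; ring
        have e2 : algebraMap F E (((s' * s) ^ n : integralClosure (Algebra.adjoin R {u}) F) : F)
            * X = sE ^ n * (sE' ^ n * X) := by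
          rw [Subalgebra.coe_pow, Subalgebra.coe_mul, map_pow, map_mul, mul_pow]; ring
        rw [e1, e2]
        apply kd_modPi_mul_left R htE hϖ (h19_gint_pow R htE hϖ hGs n)
        apply kd_modPi_symm R
        obtain ⟨z, hz, hzh⟩ := hhE1
        refine ⟨z * (νE * ∑ j ∈ range n, w ^ j *
          ∑ i ∈ range j, sE' ^ (n - 1 - i) * (sE' * hE) ^ i), ?_, ?_⟩
        · refine h19_gint_mul R htE hϖ hz (h19_gint_mul R htE hϖ (hGR ν) ?_)
          refine h19_gint_sum R htE hϖ _ _ (fun j _ => ?_)
          refine h19_gint_mul R htE hϖ (h19_gint_pow R htE hϖ hGw j)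
            (h19_gint_sum R htE hϖ _ _ (fun i _ => ?_))
          exact h19_gint_mul R htE hϖ (h19_gint_pow R htE hϖ hGs' _)
            (h19_gint_pow R htE hϖ hGsh i)
        · rw [hX, ← mul_sub, kd_diffW νE w hE sE' n, hzh]; ring
    have hmem : s' * s ∈ 𝔫 := hmax.isPrime.mem_of_pow_mem n (hle hsn)
    rcases hmax.isPrime.mem_or_mem hmem with h1 | h1
    · exact hs' h1
    · exact hs h1

end Chart

section Main

set_option maxHeartbeats 1000000 in
/-- Kummer descent with the Kummer extension `E = F(ψ)` given abstractly. -/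
theorem h19_KD_aux (R : Type) [CommRing R] [IsDomain R] [IsDiscreteValuationRing R]
    (K : Type) [Field K] [CharZero K] [Algebra R K] [IsFractionRing R K]
    (F : Type) [Field F] [Algebra K F] [Algebra R F] [IsScalarTower R K F]
    (E : Type) [Field E] [Algebra K E] [Algebra R E] [IsScalarTower R K E]
    [Algebra F E] [IsScalarTower K F E] [IsScalarTower R F E]
    [FiniteDimensional F E] [IsGalois F E]
    (ϖ : R) (hϖ : Irreducible ϖ) (t : F) (ht : Transcendental K t)
    (hfin : FiniteDimensional K⟮t⟯ F)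
    (hK : ∀ x : F, IsAlgebraic K x → x ∈ (algebraMap K F).range)
    (n : ℕ) (hn : IsUnit (n : R)) (ζ : R) (hζ : IsPrimitiveRoot ζ n)
    (v : F) (hv : ModPi R ϖ t v 1)
    (h0 : LocPowAtW R ϖ t t n v) (hinf : LocPowAtW R ϖ t t⁻¹ n v)
    (ψ : E) (hψ : ψ ^ n = algebraMap F E v) (hgen : F⟮ψ⟯ = ⊤) :
    ∃ (c : K) (g : F), v = algebraMap K F c * g ^ n := by
  classical
  have htR : Transcendental R t := h19_transc R K ht
  have htE : Transcendental K (algebraMap F E t) :=
    (transcendental_algebraMap_iff (algebraMap F E).injective).mpr ht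
  have htER : Transcendental R (algebraMap F E t) := h19_transc_map R htR
  have htER' : Transcendental R (algebraMap F E t)⁻¹ := h19_transc R K (h19_transc_inv K htE)
  haveI hfinE : FiniteDimensional K⟮algebraMap F E t⟯ E := kd_finite_tower K t
  have hn0 : 0 < n := by
    rcases Nat.eq_zero_or_pos n with h | h
    · exfalso
      rw [h, Nat.cast_zero] at hn
      exact not_isUnit_zero hn
    · exact h
  obtain ⟨ν, hν⟩ : ∃ ν : R, ν * n = 1 := by
    obtain ⟨ν, hν⟩ := hn.exists_left_inv
    exact ⟨ν, hν⟩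
  have hinjRF : Function.Injective (algebraMap R F) := h19_algebraMap_injective R K
  have hζF : IsPrimitiveRoot (algebraMap R F ζ) n := hζ.map_of_injective hinjRF
  -- `v ≠ 0`, `ψ ≠ 0`
  have hv0 : v ≠ 0 := by
    intro h0'
    rw [h0'] at hv
    have h1 : ModPi R ϖ t (algebraMap R F 1) 0 := by
      rw [map_one]; exact kd_modPi_symm R hv
    exact h19_not_modPi_unit R htR hϖ isUnit_one h1
  have hψ0 : ψ ≠ 0 := by
    intro h
    rw [h, zero_pow hn0.ne'] at hψ
    exact hv0 ((map_eq_zero_iff _ (algebraMap F E).injective).mp hψ.symm)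
  have hσψ : ∀ σ : E ≃ₐ[F] E, σ ψ ≠ 0 := fun σ h =>
    hψ0 ((map_eq_zero_iff σ σ.injective).mp h)
  have hσpow : ∀ σ : E ≃ₐ[F] E, (ψ / σ ψ) ^ n = 1 := by
    intro σ
    rw [div_pow, ← map_pow, hψ, σ.commutes, div_self]
    rw [← hψ]; exact pow_ne_zero _ hψ0
  have hψ1 : ModPi R ϖ (algebraMap F E t) (ψ ^ n) 1 := by
    have := h19_modPi_map (E := E) R htR ϖ hv
    rwa [map_one, ← hψ] at this
  have hGψ : GInt R ϖ (algebraMap F E t) ψ :=
    h19_gint_of_pow R n hn0 (kd_gint_of_modPi R htER hϖ hψ1 (kd_gint_one R htER hϖ))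
  -- charts
  have hw : ∀ k, (algebraMap R E (ζ ^ k) * ψ) ^ n = algebraMap F E v := by
    intro k
    rw [mul_pow, ← map_pow, ← pow_mul, mul_comm k n, pow_mul, hζ.pow_eq_one, one_pow, map_one,
      one_mul, hψ]
  have hGw : ∀ k, GInt R ϖ (algebraMap F E t) (algebraMap R E (ζ ^ k) * ψ) := fun k =>
    h19_gint_mul R htER hϖ (h19_gint_algebraMap R htER hϖ _) hGψ
  have hc0 : ∀ k < n, ∃ a, IsInt R (algebraMap F E t) a ∧
      ModPi R ϖ (algebraMap F E t)
        (algebraMap R E ν * ∑ j ∈ range n, (algebraMap R E (ζ ^ k) * ψ) ^ j) a := by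
    intro k _
    exact kd_chart R hϖ htR t
      (fun b hb => h19_gint_of_isInt R htER hϖ (h19_isInt_map R t hb)) n hn0 ν v h0 _
      (hw k) (hGw k)
  have hcinf : ∀ k < n, ∃ b, IsInt R (algebraMap F E t)⁻¹ b ∧
      ModPi R ϖ (algebraMap F E t)
        (algebraMap R E ν * ∑ j ∈ range n, (algebraMap R E (ζ ^ k) * ψ) ^ j) b := by
    intro k _
    have := kd_chart (E := E) R hϖ htR t⁻¹
      (fun b hb => by
        have h1 := h19_isInt_map (E := E) R t⁻¹ hb
        rw [map_inv₀] at h1
        exact h19_gint_of_isInt_inv R htER htER' hϖ h1) n hn0 ν v hinf _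
      (hw k) (hGw k)
    rwa [map_inv₀] at this
  obtain ⟨ρ, hρ, hψρ⟩ := h19_kummer_const R K E ϖ hϖ (algebraMap F E t) htE hfinE n hn0 ν hν ζ hζ
    ψ hψ1 hc0 hcinf
  -- cardinality of the Galois group
  have hcard : Nat.card (E ≃ₐ[F] E) ∣ n :=
    kd_card_dvd n hn0 (algebraMap R F ζ) hζF ψ hψ0 v hψ hgen
  have hunit : IsUnit ((Fintype.card (E ≃ₐ[F] E) : ℕ) : R) := by
    obtain ⟨d, hd⟩ := hcard
    rw [Nat.card_eq_fintype_card] at hd
    have e : (n : R) = ((Fintype.card (E ≃ₐ[F] E) : ℕ) : R) * (d : R) := by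
      rw [hd]; push_cast; rfl
    rw [e] at hn
    exact isUnit_of_mul_isUnit_left hn
  -- the resolvent is nonzero
  have hγ : kdRes F ψ ρ ≠ 0 := by
    intro hγ0
    have hterm : ∀ σ : E ≃ₐ[F] E, ModPi R ϖ (algebraMap F E t) ((ψ / σ ψ) * σ ρ) ψ := by
      intro σ
      have h1 : ModPi R ϖ (algebraMap F E t) (σ ρ) (σ ψ) :=
        kd_modPi_aut R t ϖ σ (kd_modPi_symm R hψρ)
      have hG : GInt R ϖ (algebraMap F E t) (ψ / σ ψ) := by
        apply h19_gint_of_pow R n hn0
        rw [hσpow σ]
        exact kd_gint_one R htER hϖ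
      have h2 := kd_modPi_mul_left R htER hϖ hG h1
      have e : ψ / σ ψ * σ ψ = ψ := by
        have := hσψ σ
        field_simp
      rwa [e] at h2
    have hsum : ModPi R ϖ (algebraMap F E t) (kdRes F ψ ρ) (∑ _σ : E ≃ₐ[F] E, ψ) :=
      kd_modPi_sum R htER hϖ Finset.univ _ _ (fun σ _ => hterm σ)
    rw [hγ0, Finset.sum_const, Finset.card_univ, nsmul_eq_mul] at hsum
    -- `|G| ψ ≡ 0`, hence `|G| ≡ |G| ψ^n ≡ 0`
    have hcE : ((Fintype.card (E ≃ₐ[F] E) : ℕ) : E)
        = algebraMap R E ((Fintype.card (E ≃ₐ[F] E) : ℕ) : R) := by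
      rw [map_natCast]
    have h4 := kd_modPi_mul_right R htER hϖ (h19_gint_pow R htER hϖ hGψ (n - 1))
      (kd_modPi_symm R hsum)
    rw [zero_mul] at h4
    have e4 : ((Fintype.card (E ≃ₐ[F] E) : ℕ) : E) * ψ * ψ ^ (n - 1)
        = ((Fintype.card (E ≃ₐ[F] E) : ℕ) : E) * ψ ^ n := by
      rw [mul_assoc, ← pow_succ', Nat.sub_add_cancel hn0]
    rw [e4] at h4
    have h5 := kd_modPi_mul_left R htER hϖ
      (h19_gint_algebraMap R htER hϖ ((Fintype.card (E ≃ₐ[F] E) : ℕ) : R)) hψ1
    rw [← hcE, mul_one] at h5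
    have h6 := kd_modPi_trans R htER hϖ (kd_modPi_symm R h5) h4
    rw [hcE] at h6
    exact h19_not_modPi_unit R htER hϖ hunit h6
  obtain ⟨c, g, hc, hg, hvcg⟩ := kd_resolvent n ψ ρ hψ0 v hψ hγ
  -- `c ∈ K`
  have hcint : IsIntegral R (algebraMap F E c) := by
    rw [hc]
    apply IsIntegral.pow
    unfold kdRes
    apply IsIntegral.sum
    intro σ _
    apply IsIntegral.mul
    · apply IsIntegral.of_pow hn0
      rw [hσpow σ]
      exact isIntegral_one
    · exact kd_isIntegral_aut R σ hρ
  have hcint' : IsIntegral R c := by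
    have h1 : IsIntegral R (IsScalarTower.toAlgHom R F E c) := hcint
    exact (isIntegral_algHom_iff (IsScalarTower.toAlgHom R F E)
      (algebraMap F E).injective).mp h1
  have hcalg : IsAlgebraic K c :=
    hcint'.isAlgebraic.extendScalars (IsFractionRing.injective R K)
  obtain ⟨c', hc'⟩ := hK c hcalg
  exact ⟨c', g, by rw [hc']; exact hvcg⟩

end Main

section Final

/-- **(KD-W)**: Kummer descent with the weak local hypothesis. -/
theorem h19_KDW : KDWStatement := by
  intro R _ _ _ K _ _ _ _ F _ _ _ _ ϖ hϖ t ht hfin hK n hn ζ hζ v hv h0 hinf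
  classical
  have htR : Transcendental R t := h19_transc R K ht
  have hn0 : 0 < n := by
    rcases Nat.eq_zero_or_pos n with h | h
    · exfalso
      rw [h, Nat.cast_zero] at hn
      exact not_isUnit_zero hn
    · exact h
  haveI : NeZero n := ⟨hn0.ne'⟩
  have hv0 : v ≠ 0 := by
    intro h0'
    rw [h0'] at hv
    have h1 : ModPi R ϖ t (algebraMap R F 1) 0 := by
      rw [map_one]; exact kd_modPi_symm R hv
    exact h19_not_modPi_unit R htR hϖ isUnit_one h1
  have hinjRF : Function.Injective (algebraMap R F) := h19_algebraMap_injective R K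
  have hζF : IsPrimitiveRoot (algebraMap R F ζ) n := hζ.map_of_injective hinjRF
  have hnF : (n : F) ≠ 0 := by
    have : (n : F) = algebraMap R F (n : R) := by rw [map_natCast]
    rw [this]
    exact fun h => hn.ne_zero (hinjRF (h.trans (map_zero _).symm))
  have hsep : (X ^ n - C v : F[X]).Separable := separable_X_pow_sub_C v hnF hv0
  -- a root `ψ` in the splitting field
  have hdeg : (X ^ n - C v : F[X]).degree ≠ 0 := by
    rw [degree_X_pow_sub_C hn0 v]
    exact_mod_cast hn0.ne'
  have hsplit := SplittingField.splits (X ^ n - C v : F[X])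
  have hdeg' : ((X ^ n - C v : F[X]).map
      (algebraMap F (X ^ n - C v : F[X]).SplittingField)).degree ≠ 0 := by
    rw [degree_map]; exact hdeg
  obtain ⟨ψ, hψ⟩ := hsplit.exists_eval_eq_zero hdeg'
  have hψn : ψ ^ n = algebraMap F (X ^ n - C v : F[X]).SplittingField v := by
    rw [eval_map, eval₂_sub, eval₂_pow, eval₂_X, eval₂_C, sub_eq_zero] at hψ
    exact hψ
  haveI : IsGalois F (X ^ n - C v : F[X]).SplittingField :=
    IsGalois.of_separable_splitting_field hsep
  haveI : IsScalarTower R K (X ^ n - C v : F[X]).SplittingField :=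
    IsScalarTower.of_algebraMap_eq (fun r => by
      rw [IsScalarTower.algebraMap_apply R F (X ^ n - C v : F[X]).SplittingField,
        IsScalarTower.algebraMap_apply K F (X ^ n - C v : F[X]).SplittingField,
        ← IsScalarTower.algebraMap_apply R K F])
  have hψ0 : ψ ≠ 0 := by
    intro h
    rw [h, zero_pow hn0.ne'] at hψn
    exact hv0 ((map_eq_zero_iff _ (algebraMap F _).injective).mp hψn.symm)
  have hζE : IsPrimitiveRoot (algebraMap F (X ^ n - C v : F[X]).SplittingField
      (algebraMap R F ζ)) n := hζF.map_of_injective (algebraMap F _).injective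
  -- `E = F(ψ)`
  have hroots : ∀ x ∈ (X ^ n - C v : F[X]).rootSet (X ^ n - C v : F[X]).SplittingField,
      x ∈ F⟮ψ⟯ := by
    intro x hx
    rw [Polynomial.mem_rootSet] at hx
    have hx' : x ^ n = algebraMap F (X ^ n - C v : F[X]).SplittingField v := by
      have := hx.2
      rw [map_sub, map_pow, aeval_X, aeval_C, sub_eq_zero] at this
      exact this
    have h1 : (x / ψ) ^ n = 1 := by
      rw [div_pow, hx', hψn, div_self]
      rw [← hψn]; exact pow_ne_zero _ hψ0
    obtain ⟨i, -, hi⟩ := hζE.eq_pow_of_pow_eq_one h1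
    have hxe : x = algebraMap F (X ^ n - C v : F[X]).SplittingField
        ((algebraMap R F ζ) ^ i) * ψ := by
      rw [map_pow, hi]; field_simp
    rw [hxe]
    exact F⟮ψ⟯.mul_mem (F⟮ψ⟯.algebraMap_mem _) (mem_adjoin_simple_self F ψ)
  have hgen : F⟮ψ⟯ = ⊤ := by
    have h1 : (⊤ : Subalgebra F (X ^ n - C v : F[X]).SplittingField) ≤ F⟮ψ⟯.toSubalgebra := by
      rw [← IsSplittingField.adjoin_rootSet (X ^ n - C v : F[X]).SplittingField
        (X ^ n - C v : F[X])]
      exact Algebra.adjoin_le hroots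
    exact eq_top_iff.mpr (fun x _ => h1 (Algebra.mem_top))
  exact h19_KD_aux R K F (X ^ n - C v : F[X]).SplittingField ϖ hϖ t ht hfin hK n hn ζ hζ v hv
    h0 hinf ψ hψn hgen

/-- **(KD)**: Kummer descent. -/
theorem h19_KD : KDStatement := by
  intro R _ _ _ K _ _ _ _ F _ _ _ _ ϖ hϖ t ht hfin hK n hn ζ hζ v hv h0 hinf
  exact h19_KDW R K F ϖ hϖ t ht hfin hK n hn ζ hζ v hv
    (locPowAtW_of_locPowAt R ϖ t t n v h0) (locPowAtW_of_locPowAt R ϖ t t⁻¹ n v hinf)

end Final

end H19KD
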