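import Mathlib
import Fermat.Agent.S34.Defs_helper4
import Fermat.Agent.S34.GenA1_helper1
import Fermat.Agent.S34.KD_helper19

/-!
# S34 (item 82), helper1: proof of `H4S34.GenStatement` (the generic theorem (GEN))

`(A2)`: for `g` with vertical divisor at a closed point `𝔫` (`VertUnitAt`), the second difference
`(τ-1)² g` is integral at `𝔫`.  With `(L1)` this gives the local hypothesis `LocPowAt` of helper19's
Kummer descent `H19KD.h19_KD` for `v = (τ-1)² f`, in both charts.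
-/

set_option autoImplicit false
set_option linter.unusedSectionVars false
set_option linter.unusedVariables false
set_option linter.style.haveILetI false

namespace H1GU

open Polynomial IntermediateField H7S18 H19S18

section Local

variable (R : Type) [CommRing R] [IsDomain R] [IsDiscreteValuationRing R]
  {F : Type} [Field F] [Algebra R F]

/-- saturation of the chart ring in `O`: `x ∈ O`, `ϖ ^ k x ∈ M₀` implies `x ∈ M₀`. -/
theorem gen_sat {ϖ : R} (hϖ : Irreducible ϖ) {u : F} (hu : Transcendental R u)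
    (k : ℕ) {x : F} (hx : GInt R ϖ u x) (h : IsInt R u (algebraMap R F ϖ ^ k * x)) :
    IsInt R u x := by
  induction k with
  | zero => rwa [pow_zero, one_mul] at h
  | succ k ih =>
    apply ih
    apply h19_lemmaU R hu hϖ
    · exact h19_gint_mul R hu hϖ
        (h19_gint_pow R hu hϖ (h19_gint_of_isInt R hu hϖ (h19_isInt_algebraMap R u ϖ)) k) hx
    · have e : algebraMap R F ϖ * (algebraMap R F ϖ ^ k * x) = algebraMap R F ϖ ^ (k + 1) * x := by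
        ring
      rw [e]; exact h

theorem gen_pi_ne_zero {ϖ : R} (hϖ : Irreducible ϖ) {u : F} (hu : Transcendental R u) :
    algebraMap R F ϖ ≠ 0 := by
  intro h0
  have hinjT : Function.Injective (algebraMap (Algebra.adjoin R {u}) F) :=
    FaithfulSMul.algebraMap_injective _ F
  have h1 : algebraMap R (Algebra.adjoin R {u}) ϖ = 0 := hinjT (by
    rw [map_zero]; exact h0)
  exact (h19_T_prime R hu hϖ).ne_zero h1

/-- the second difference `(τ-1)² x = τ²x · x / (τx)²`. -/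
noncomputable def dd (τ : F ≃+* F) (x : F) : F := τ (τ x) * x / (τ x) ^ 2

theorem dd_mul (τ : F ≃+* F) (x y : F) : dd τ (x * y) = dd τ x * dd τ y := by
  simp only [dd, map_mul]
  by_cases hx : τ x = 0
  · simp [hx]
  by_cases hy : τ y = 0
  · simp [hy]
  field_simp

theorem dd_inv (τ : F ≃+* F) (x : F) : dd τ x⁻¹ = (dd τ x)⁻¹ := by
  simp only [dd, map_inv₀]
  by_cases hx : x = 0
  · simp [hx]
  have h1 : τ x ≠ 0 := by rwa [Ne, map_eq_zero_iff τ τ.injective]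
  have h2 : τ (τ x) ≠ 0 := by rwa [Ne, map_eq_zero_iff τ τ.injective]
  field_simp

theorem dd_pow (τ : F ≃+* F) (x : F) (n : ℕ) : dd τ (x ^ n) = dd τ x ^ n := by
  induction n with
  | zero =>
    simp only [pow_zero, dd, map_one]
    norm_num
  | succ n ih => rw [pow_succ, dd_mul, ih, pow_succ]

theorem dd_eq (τ : F ≃+* F) {x : F} (hx : x ≠ 0) :
    dd τ x = τ (τ x / x) * (τ x⁻¹ / x⁻¹) := by
  have h1 : τ x ≠ 0 := by rwa [Ne, map_eq_zero_iff τ τ.injective]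
  have h2 : τ (τ x) ≠ 0 := by rwa [Ne, map_eq_zero_iff τ τ.injective]
  simp only [dd, map_div₀, map_inv₀]
  field_simp

end Local

section A2

variable (R : Type) [CommRing R] [IsDomain R] [IsDiscreteValuationRing R]
  {F : Type} [Field F] [Algebra R F]
  {ϖ : R} (hϖ : Irreducible ϖ) {u : F} (hu : Transcendental R u)
  (τ : F ≃+* F) (hτu : τ u = u)
  (hτR : ∀ r : R, ∃ r' : R, τ (algebraMap R F r) = algebraMap R F r')
  (hτ : ∀ x : F, GInt R ϖ u x → ModPi R ϖ u (τ x) x)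
  (hA1 : ∀ g : F, g ≠ 0 → GInt R ϖ u (τ g / g))

include hϖ hu hτ hA1 in
/-- `(τ-1)² x ≡ 1 mod ϖ O` for every `x ≠ 0`. -/
theorem dd_modPi {x : F} (hx : x ≠ 0) : ModPi R ϖ u (dd τ x) 1 := by
  have h1 : τ x ≠ 0 := by rwa [Ne, map_eq_zero_iff τ τ.injective]
  have hw : GInt R ϖ u (τ x / x) := hA1 x hx
  have hw' : GInt R ϖ u (τ x⁻¹ / x⁻¹) := hA1 x⁻¹ (inv_ne_zero hx)
  obtain ⟨y, hy, hwy⟩ := hτ _ hw
  refine ⟨y * (τ x⁻¹ / x⁻¹), h19_gint_mul R hu hϖ hy hw', ?_⟩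
  rw [dd_eq τ hx]
  have e : (τ x / x) * (τ x⁻¹ / x⁻¹) = 1 := by
    rw [map_inv₀]; field_simp
  linear_combination (τ x⁻¹ / x⁻¹) * hwy + e

include hϖ hu hτR hτ hA1 in
/-- `τ ϖ = ϖ c` with `c ∈ Rˣ`. -/
theorem tau_pi_unit :
    ∃ c : R, IsUnit c ∧ τ (algebraMap R F ϖ) = algebraMap R F ϖ * algebraMap R F c := by
  obtain ⟨c, hc⟩ := tau_pi R hϖ hu (τ : F →+* F) hτR hτ
  have hc' : τ (algebraMap R F ϖ) = algebraMap R F ϖ * algebraMap R F c := hc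
  refine ⟨c, ?_, hc'⟩
  by_contra hnu
  have hmem : c ∈ IsLocalRing.maximalIdeal R := (IsLocalRing.mem_maximalIdeal c).mpr hnu
  rw [hϖ.maximalIdeal_eq, Ideal.mem_span_singleton] at hmem
  obtain ⟨c₂, hc₂⟩ := hmem
  have hϖ0 : algebraMap R F ϖ ≠ 0 := gen_pi_ne_zero R hϖ hu
  have hτϖ0 : τ (algebraMap R F ϖ) ≠ 0 := by
    rwa [Ne, map_eq_zero_iff τ τ.injective]
  have hc₂0 : algebraMap R F c₂ ≠ 0 := by
    intro h0
    apply hτϖ0
    rw [hc', hc₂, map_mul, h0, mul_zero, mul_zero]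
  have h1 := hA1 (algebraMap R F ϖ)⁻¹ (inv_ne_zero hϖ0)
  have h2 : GInt R ϖ u (algebraMap R F c₂ * (τ (algebraMap R F ϖ)⁻¹ / (algebraMap R F ϖ)⁻¹)) :=
    h19_gint_mul R hu hϖ (h19_gint_of_isInt R hu hϖ (h19_isInt_algebraMap R u c₂)) h1
  have e : algebraMap R F c₂ * (τ (algebraMap R F ϖ)⁻¹ / (algebraMap R F ϖ)⁻¹) =
      (algebraMap R F ϖ)⁻¹ := by
    rw [map_inv₀, hc', hc₂, map_mul]
    field_simp
  rw [e] at h2
  apply h19_not_modPi_unit R hu hϖ (c := (1 : R)) isUnit_one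
  refine ⟨(algebraMap R F ϖ)⁻¹, h2, ?_⟩
  rw [sub_zero, map_one]
  field_simp

include hϖ hu hτu hτR hτ in
/-- `τ` fixes the closed points: `s ∉ 𝔫 ⟹ τ s ∉ 𝔫`. -/
theorem tau_not_mem (𝔫 : Ideal (integralClosure (Algebra.adjoin R {u}) F))
    (hϖ𝔫 : ∀ s : integralClosure (Algebra.adjoin R {u}) F, (s : F) = algebraMap R F ϖ → s ∈ 𝔫)
    {s s' : integralClosure (Algebra.adjoin R {u}) F} (hs : s ∉ 𝔫) (hs' : (s' : F) = τ (s : F)) :
    s' ∉ 𝔫 := by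
  intro hmem
  apply hs
  have hsI : IsInt R u (s : F) := s.2
  have hs'I : IsInt R u (s' : F) := s'.2
  obtain ⟨z, hz, hsz⟩ := hτ _ (h19_gint_of_isInt R hu hϖ hsI)
  have hzI : IsInt R u z := by
    apply h19_lemmaU R hu hϖ hz
    rw [← hsz, ← hs']
    exact h19_isInt_sub R u hs'I hsI
  have hϖI : IsInt R u (algebraMap R F ϖ) := h19_isInt_algebraMap R u ϖ
  have e : s = s' - (⟨algebraMap R F ϖ, hϖI⟩ : integralClosure (Algebra.adjoin R {u}) F) *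
      ⟨z, hzI⟩ := by
    apply Subtype.ext
    change (s : F) = (s' : F) - algebraMap R F ϖ * z
    rw [hs']; linear_combination -hsz
  rw [e]
  exact 𝔫.sub_mem hmem (𝔫.mul_mem_right _ (hϖ𝔫 _ rfl))

include hϖ hu hτu hτR hτ in
theorem inLocAt_tau (𝔫 : Ideal (integralClosure (Algebra.adjoin R {u}) F))
    (hϖ𝔫 : ∀ s : integralClosure (Algebra.adjoin R {u}) F, (s : F) = algebraMap R F ϖ → s ∈ 𝔫)
    {x : F} (hx : H19KD.InLocAt R u 𝔫 x) : H19KD.InLocAt R u 𝔫 (τ x) := by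
  obtain ⟨s, hs, hsx⟩ := hx
  have hτs : IsInt R u (τ (s : F)) := sigma_isInt R (τ : F →+* F) hτu hτR s.2
  refine ⟨⟨τ (s : F), hτs⟩, tau_not_mem R hϖ hu τ hτu hτR hτ 𝔫 hϖ𝔫 hs rfl, ?_⟩
  have := sigma_isInt R (τ : F →+* F) hτu hτR hsx
  rw [map_mul] at this
  exact this

omit [IsDomain R] [IsDiscreteValuationRing R] in
theorem inLocAt_mul (𝔫 : Ideal (integralClosure (Algebra.adjoin R {u}) F)) (h𝔫 : 𝔫.IsPrime)
    {x y : F} (hx : H19KD.InLocAt R u 𝔫 x) (hy : H19KD.InLocAt R u 𝔫 y) :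
    H19KD.InLocAt R u 𝔫 (x * y) := by
  obtain ⟨s, hs, hsx⟩ := hx
  obtain ⟨s', hs', hsy⟩ := hy
  refine ⟨s * s', fun h => (h𝔫.mem_or_mem h).elim hs hs', ?_⟩
  have e : ((s * s' : integralClosure (Algebra.adjoin R {u}) F) : F) * (x * y) =
      ((s : F) * x) * ((s' : F) * y) := by
    rw [Subalgebra.coe_mul]; ring
  rw [e]
  exact IsIntegral.mul hsx hsy

include hϖ hu hτu hτR hτ hA1 in
/-- **(A2)**: if the divisor of `g` at `𝔫` is vertical, then `τ g / g ∈ B_𝔫`. -/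
theorem inLocAt_tau_div (𝔫 : Ideal (integralClosure (Algebra.adjoin R {u}) F))
    (h𝔫 : 𝔫.IsPrime)
    (hϖ𝔫 : ∀ s : integralClosure (Algebra.adjoin R {u}) F, (s : F) = algebraMap R F ϖ → s ∈ 𝔫)
    {g : F} (hg : g ≠ 0) (hV : H4S34.VertUnitAt R ϖ u 𝔫 g) :
    H19KD.InLocAt R u 𝔫 (τ g / g) := by
  obtain ⟨m, ⟨a₁, s₁, hs₁, e₁⟩, ⟨a₂, s₂, hs₂, e₂⟩⟩ := hV
  obtain ⟨c, hcu, hc⟩ := tau_pi_unit R hϖ hu τ hτR hτ hA1
  have hτs₁ : IsInt R u (τ (s₁ : F)) := sigma_isInt R (τ : F →+* F) hτu hτR s₁.2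
  have hτs₁𝔫 : (⟨τ (s₁ : F), hτs₁⟩ : integralClosure (Algebra.adjoin R {u}) F) ∉ 𝔫 :=
    tau_not_mem R hϖ hu τ hτu hτR hτ 𝔫 hϖ𝔫 hs₁ rfl
  have hcI : IsInt R u (algebraMap R F c ^ m) :=
    IsIntegral.pow (h19_isInt_algebraMap R u c) m
  -- `c ^ m` is a unit of `M₀`, so it is not in `𝔫`
  obtain ⟨d, hd⟩ : ∃ d : R, c * d = 1 := ⟨_, hcu.mul_val_inv⟩
  have hdI : IsInt R u (algebraMap R F d ^ m) :=
    IsIntegral.pow (h19_isInt_algebraMap R u d) m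
  have hc𝔫 : (⟨algebraMap R F c ^ m, hcI⟩ : integralClosure (Algebra.adjoin R {u}) F) ∉ 𝔫 := by
    intro hmem
    apply h𝔫.ne_top
    rw [Ideal.eq_top_iff_one]
    have h1 : (1 : integralClosure (Algebra.adjoin R {u}) F) =
        (⟨algebraMap R F c ^ m, hcI⟩ : integralClosure (Algebra.adjoin R {u}) F) *
          ⟨algebraMap R F d ^ m, hdI⟩ := by
      apply Subtype.ext
      change (1 : F) = algebraMap R F c ^ m * algebraMap R F d ^ m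
      rw [← mul_pow, ← map_mul, hd, map_one, one_pow]
    rw [h1]
    exact 𝔫.mul_mem_right _ hmem
  refine ⟨(⟨τ (s₁ : F), hτs₁⟩ * s₂) * ⟨algebraMap R F c ^ m, hcI⟩,
    fun h => (h𝔫.mem_or_mem h).elim (fun h' => (h𝔫.mem_or_mem h').elim hτs₁𝔫 hs₂) hc𝔫, ?_⟩
  have hcoe : (((⟨τ (s₁ : F), hτs₁⟩ * s₂) * ⟨algebraMap R F c ^ m, hcI⟩ :
      integralClosure (Algebra.adjoin R {u}) F) : F) =
      τ (s₁ : F) * (s₂ : F) * algebraMap R F c ^ m := rfl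
  rw [hcoe]
  have hGX : GInt R ϖ u (τ (s₁ : F) * (s₂ : F) * algebraMap R F c ^ m * (τ g / g)) :=
    h19_gint_mul R hu hϖ (h19_gint_of_isInt R hu hϖ
      (IsIntegral.mul (IsIntegral.mul hτs₁ s₂.2) hcI)) (hA1 g hg)
  apply gen_sat R hϖ hu (2 * m) hGX
  have hτa₁ : IsInt R u (τ (a₁ : F)) := sigma_isInt R (τ : F →+* F) hτu hτR a₁.2
  have hprod : IsInt R u (τ (a₁ : F) * (a₂ : F)) := IsIntegral.mul hτa₁ a₂.2
  have hτg : τ g ≠ 0 := by rwa [Ne, map_eq_zero_iff τ τ.injective]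
  have e : algebraMap R F ϖ ^ (2 * m) *
      (τ (s₁ : F) * (s₂ : F) * algebraMap R F c ^ m * (τ g / g)) = τ (a₁ : F) * (a₂ : F) := by
    rw [← e₁, ← e₂, map_mul, map_mul, map_pow, hc]
    field_simp
    ring
  rw [e]
  exact hprod

omit [IsDomain R] [IsDiscreteValuationRing R] in
theorem vertUnitAt_inv (𝔫 : Ideal (integralClosure (Algebra.adjoin R {u}) F))
    {g : F} (hV : H4S34.VertUnitAt R ϖ u 𝔫 g) : H4S34.VertUnitAt R ϖ u 𝔫 g⁻¹ := by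
  obtain ⟨m, h1, h2⟩ := hV
  exact ⟨m, h2, by rwa [inv_inv]⟩

include hϖ hu hτu hτR hτ hA1 in
/-- **(L1) ⟹ local hypothesis of (KD)** in the chart `u`. -/
theorem locPow_of_L1 (n : ℕ) {f : F} (hf : f ≠ 0)
    (𝔫 : Ideal (integralClosure (Algebra.adjoin R {u}) F)) (h𝔫 : 𝔫.IsPrime)
    (hϖ𝔫 : ∀ s : integralClosure (Algebra.adjoin R {u}) F, (s : F) = algebraMap R F ϖ → s ∈ 𝔫)
    (hL : H4S34.L1At R ϖ u 𝔫 n f) :
    ∃ h : F, ModPi R ϖ u h 1 ∧ H19KD.InLocAt R u 𝔫 (dd τ f * h ^ n) := by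
  obtain ⟨z, hz0, hV⟩ := hL
  have hzn : z ^ n ≠ 0 := pow_ne_zero n hz0
  have hg0 : f * (z ^ n)⁻¹ ≠ 0 := mul_ne_zero hf (inv_ne_zero hzn)
  refine ⟨dd τ z⁻¹, dd_modPi R hϖ hu τ hτ hA1 (inv_ne_zero hz0), ?_⟩
  have e : dd τ f * dd τ z⁻¹ ^ n = dd τ (f * (z ^ n)⁻¹) := by
    rw [dd_mul, ← dd_pow, inv_pow]
  rw [e, dd_eq τ hg0]
  have h1 := inLocAt_tau_div R hϖ hu τ hτu hτR hτ hA1 𝔫 h𝔫 hϖ𝔫 hg0 hV
  have h2 := inLocAt_tau_div R hϖ hu τ hτu hτR hτ hA1 𝔫 h𝔫 hϖ𝔫 (inv_ne_zero hg0)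
    (vertUnitAt_inv R 𝔫 hV)
  exact inLocAt_mul R 𝔫 h𝔫 (inLocAt_tau R hϖ hu τ hτu hτR hτ 𝔫 hϖ𝔫 h1) h2

end A2

/-- **(GEN)**: the generic theorem of item 82. -/
theorem genStatement : H4S34.GenStatement := by
  intro R _ _ _ K _ _ _ _ F _ _ _ _ ϖ hϖ t ht hfin hK n hn0 hnu hζ τ hτt hτR hτR' hτ hA1 f hf
    hL0 hLinf
  obtain ⟨ζ, hζ⟩ := hζ
  have htR : Transcendental R t := h19_transc R K ht
  have htR' : Transcendental R t⁻¹ := h19_transc R K (h19_transc_inv K ht)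
  have hτf : τ f ≠ 0 := by rwa [Ne, map_eq_zero_iff τ τ.injective]
  have hττf : τ (τ f) ≠ 0 := by rwa [Ne, map_eq_zero_iff τ τ.injective]
  have hv : ModPi R ϖ t (dd τ f) 1 := dd_modPi R hϖ htR τ hτ hA1 hf
  have h0 : H19KD.LocPowAt R ϖ t t n (dd τ f) := by
    intro 𝔫 hmax hϖ𝔫
    exact locPow_of_L1 R hϖ htR τ hτt hτR hτ hA1 n hf 𝔫 hmax.isPrime hϖ𝔫 (hL0 𝔫 ⟨hmax, hϖ𝔫⟩)
  have hinf : H19KD.LocPowAt R ϖ t t⁻¹ n (dd τ f) := by
    intro 𝔫 hmax hϖ𝔫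
    have hτt' : τ t⁻¹ = t⁻¹ := by rw [map_inv₀, hτt]
    have hτ' : ∀ x : F, GInt R ϖ t⁻¹ x → ModPi R ϖ t⁻¹ (τ x) x := fun x hx =>
      (h19_modPi_inv_iff R htR htR' hϖ _ _).mpr (hτ x ((h19_gint_inv_iff R htR htR' hϖ x).mp hx))
    have hA1' : ∀ g : F, g ≠ 0 → GInt R ϖ t⁻¹ (τ g / g) := fun g hg =>
      (h19_gint_inv_iff R htR htR' hϖ _).mpr (hA1 g hg)
    obtain ⟨h, hh, hloc⟩ := locPow_of_L1 R hϖ htR' τ hτt' hτR hτ' hA1' n hf 𝔫 hmax.isPrime hϖ𝔫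
      (hLinf 𝔫 ⟨hmax, hϖ𝔫⟩)
    exact ⟨h, (h19_modPi_inv_iff R htR htR' hϖ _ _).mp hh, hloc⟩
  obtain ⟨c, g, hcg⟩ := H19KD.h19_KD R K F ϖ hϖ t ht hfin hK n hnu ζ hζ (dd τ f) hv h0 hinf
  have hdd0 : dd τ f ≠ 0 := by
    rw [dd]
    exact div_ne_zero (mul_ne_zero hττf hf) (pow_ne_zero 2 hτf)
  refine ⟨c, g, ?_, ?_⟩
  · rintro rfl
    apply hdd0
    rw [hcg, map_zero, zero_mul]
  · rw [← hcg, dd]
    field_simp

end H1GU
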