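import Mathlib
import Fermat.Agent.S18.TFin_helper19
import Fermat.Agent.S34.Defs_helper4

/-!
# Item 82 (S34), shared BRIDGE (Br1) (helper22): the local ring of a chart at a closed point

`M₀ = H4S34.Chart R t` (the integral closure of `R[t]` in `F`), `𝔫` a prime of `M₀`,
`B` any localisation of `M₀` at `𝔫` that sits inside `F`.

* `H22BR.chart_isFractionRing`, `chart_noeth`, `chart_intClosed`, `chart_isDomain`;
* for `B`: `loc_isDomain`, `loc_isLocalRing`, `loc_noeth`, `loc_intClosed`, `loc_isFractionRing`;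
* `inLoc_iff : H4S34.InLoc R t 𝔫 x ↔ x ∈ (algebraMap B F).range`;
* `vertUnitAt_iff`, `l1At_of_core` (the conclusion of `H9LNC.IsNode.loc_core` / a Kummer core
  gives `H4S34.L1At`);
* the concrete `B`: `Bsub R t 𝔫 hS`, a subalgebra of `F`.
-/

set_option autoImplicit false
set_option synthInstance.maxHeartbeats 400000
set_option linter.unusedSectionVars false
set_option linter.style.haveILetI false

noncomputable section

open Polynomial IntermediateField

namespace H22BR

section Chart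

variable (R : Type) [CommRing R] [IsDomain R] [IsDiscreteValuationRing R]
  (K : Type) [Field K] [CharZero K] [Algebra R K] [IsFractionRing R K]
  {F : Type} [Field F] [Algebra K F] [Algebra R F] [IsScalarTower R K F]

/-- `Frac M₀ = F`. -/
theorem chart_isFractionRing (t : F) [FiniteDimensional K⟮t⟯ F] :
    IsFractionRing (H4S34.Chart R t) F := by
  letI : Algebra (Algebra.adjoin R {t}) K⟮t⟯ := (H19S18.h19_TtoKt R K t).toAlgebra
  haveI : IsFractionRing (Algebra.adjoin R {t}) K⟮t⟯ := H19S18.h19_T_isFractionRing R K t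
  haveI : IsScalarTower (Algebra.adjoin R {t}) K⟮t⟯ F :=
    IsScalarTower.of_algebraMap_eq (fun _ => rfl)
  exact integralClosure.isFractionRing_of_finite_extension K⟮t⟯ F

/-- `M₀` is integrally closed. -/
theorem chart_intClosed (t : F) [FiniteDimensional K⟮t⟯ F] :
    IsIntegrallyClosed (H4S34.Chart R t) := by
  letI : Algebra (Algebra.adjoin R {t}) K⟮t⟯ := (H19S18.h19_TtoKt R K t).toAlgebra
  haveI : IsFractionRing (Algebra.adjoin R {t}) K⟮t⟯ := H19S18.h19_T_isFractionRing R K t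
  haveI : IsScalarTower (Algebra.adjoin R {t}) K⟮t⟯ F :=
    IsScalarTower.of_algebraMap_eq (fun _ => rfl)
  exact integralClosure.isIntegrallyClosedOfFiniteExtension K⟮t⟯

/-- `M₀` is noetherian. -/
theorem chart_noeth {t : F} (ht : Transcendental K t) [FiniteDimensional K⟮t⟯ F] :
    IsNoetherianRing (H4S34.Chart R t) := by
  haveI := H19S18.h19_M0_finite R K ht
  haveI := H19S18.h19_T_noeth R (H19S18.h19_transc R K ht)
  exact IsNoetherianRing.of_finite (Algebra.adjoin R {t}) (H4S34.Chart R t)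

end Chart

section Loc

variable (R : Type) [CommRing R] [IsDomain R] [IsDiscreteValuationRing R]
  (K : Type) [Field K] [CharZero K] [Algebra R K] [IsFractionRing R K]
  {F : Type} [Field F] [Algebra K F] [Algebra R F] [IsScalarTower R K F]

theorem loc_isDomain (t : F) (𝔫 : Ideal (H4S34.Chart R t)) [𝔫.IsPrime]
    (B : Type*) [CommRing B] [Algebra (H4S34.Chart R t) B] [IsLocalization.AtPrime B 𝔫] :
    IsDomain B :=
  IsLocalization.isDomain_of_atPrime B 𝔫

theorem loc_isLocalRing (t : F) (𝔫 : Ideal (H4S34.Chart R t)) [𝔫.IsPrime]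
    (B : Type*) [CommRing B] [Algebra (H4S34.Chart R t) B] [IsLocalization.AtPrime B 𝔫] :
    IsLocalRing B :=
  IsLocalization.AtPrime.isLocalRing B 𝔫

theorem loc_noeth {t : F} (ht : Transcendental K t) [FiniteDimensional K⟮t⟯ F]
    (𝔫 : Ideal (H4S34.Chart R t)) [𝔫.IsPrime]
    (B : Type*) [CommRing B] [Algebra (H4S34.Chart R t) B] [IsLocalization.AtPrime B 𝔫] :
    IsNoetherianRing B :=
  IsLocalization.isNoetherianRing 𝔫.primeCompl B (chart_noeth R K ht)

theorem loc_intClosed (t : F) [FiniteDimensional K⟮t⟯ F]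
    (𝔫 : Ideal (H4S34.Chart R t)) [𝔫.IsPrime]
    (B : Type*) [CommRing B] [Algebra (H4S34.Chart R t) B] [IsLocalization.AtPrime B 𝔫] :
    IsIntegrallyClosed B := by
  haveI := chart_intClosed R K t
  exact isIntegrallyClosed_of_isLocalization B 𝔫.primeCompl 𝔫.primeCompl_le_nonZeroDivisors

theorem loc_isFractionRing (t : F) [FiniteDimensional K⟮t⟯ F]
    (𝔫 : Ideal (H4S34.Chart R t)) [𝔫.IsPrime]
    (B : Type*) [CommRing B] [Algebra (H4S34.Chart R t) B] [IsLocalization.AtPrime B 𝔫]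
    [Algebra B F] [IsScalarTower (H4S34.Chart R t) B F] : IsFractionRing B F := by
  haveI := chart_isFractionRing R K t
  haveI := loc_isDomain R t 𝔫 B
  exact IsFractionRing.isFractionRing_of_isDomain_of_isLocalization 𝔫.primeCompl B F

/-- **`InLoc` is membership in `B ⊆ F`.** -/
theorem inLoc_iff (t : F)
    (𝔫 : Ideal (H4S34.Chart R t)) [𝔫.IsPrime]
    (B : Type*) [CommRing B] [Algebra (H4S34.Chart R t) B] [IsLocalization.AtPrime B 𝔫]
    [Algebra B F] [IsScalarTower (H4S34.Chart R t) B F] (x : F) :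
    H4S34.InLoc R t 𝔫 x ↔ x ∈ (algebraMap B F).range := by
  constructor
  · rintro ⟨a, s, hs, e⟩
    have hsu : IsUnit (algebraMap (H4S34.Chart R t) B s) :=
      IsLocalization.map_units B (⟨s, hs⟩ : 𝔫.primeCompl)
    have hs0 : (s : F) ≠ 0 := by
      intro h0
      apply hs
      have : s = 0 := Subtype.ext h0
      rw [this]; exact 𝔫.zero_mem
    refine ⟨IsLocalization.mk' B a (⟨s, hs⟩ : 𝔫.primeCompl), ?_⟩
    have h1 : algebraMap B F (IsLocalization.mk' B a (⟨s, hs⟩ : 𝔫.primeCompl)) *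
        algebraMap B F (algebraMap (H4S34.Chart R t) B s) =
        algebraMap B F (algebraMap (H4S34.Chart R t) B a) := by
      rw [← map_mul]
      congr 1
      exact IsLocalization.mk'_spec B a (⟨s, hs⟩ : 𝔫.primeCompl)
    rw [← IsScalarTower.algebraMap_apply, ← IsScalarTower.algebraMap_apply] at h1
    have h2 : algebraMap (H4S34.Chart R t) F s = (s : F) := rfl
    have h3 : algebraMap (H4S34.Chart R t) F a = (a : F) := rfl
    rw [h2, h3] at h1
    have : algebraMap B F (IsLocalization.mk' B a (⟨s, hs⟩ : 𝔫.primeCompl)) * (s : F)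
        = x * (s : F) := by rw [h1, ← e]; ring
    exact mul_right_cancel₀ hs0 this
  · rintro ⟨b, rfl⟩
    obtain ⟨⟨a, s⟩, e⟩ := IsLocalization.surj 𝔫.primeCompl b
    refine ⟨a, s.1, s.2, ?_⟩
    have h1 := congrArg (algebraMap B F) e
    rw [map_mul, ← IsScalarTower.algebraMap_apply, ← IsScalarTower.algebraMap_apply] at h1
    have h2 : algebraMap (H4S34.Chart R t) F s.1 = ((s.1 : H4S34.Chart R t) : F) := rfl
    have h3 : algebraMap (H4S34.Chart R t) F a = (a : F) := rfl
    simp only at h1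
    rw [h2, h3] at h1
    rw [← h1]; ring

/-- `VertUnitAt` in terms of `B`. -/
theorem vertUnitAt_iff (ϖ : R) (t : F)
    (𝔫 : Ideal (H4S34.Chart R t)) [𝔫.IsPrime]
    (B : Type*) [CommRing B] [Algebra (H4S34.Chart R t) B] [IsLocalization.AtPrime B 𝔫]
    [Algebra B F] [IsScalarTower (H4S34.Chart R t) B F] (x : F) :
    H4S34.VertUnitAt R ϖ t 𝔫 x ↔ ∃ m : ℕ,
      algebraMap R F ϖ ^ m * x ∈ (algebraMap B F).range ∧
      algebraMap R F ϖ ^ m * x⁻¹ ∈ (algebraMap B F).range := by
  unfold H4S34.VertUnitAt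
  simp only [inLoc_iff R t 𝔫 B]

/-- The conclusion of the local cores (`H9LNC.IsNode.loc_core`, regular Kummer core) gives
`H4S34.L1At`. -/
theorem l1At_of_core (ϖ : R) (t : F)
    (𝔫 : Ideal (H4S34.Chart R t)) [𝔫.IsPrime]
    (B : Type*) [CommRing B] [Algebra (H4S34.Chart R t) B] [IsLocalization.AtPrime B 𝔫]
    [Algebra B F] [IsScalarTower (H4S34.Chart R t) B F]
    (π : B) (hπ : algebraMap B F π = algebraMap R F ϖ) (n : ℕ) (f : F)
    (h : ∃ z : F, z ≠ 0 ∧ ∃ m : ℕ,
      (algebraMap B F π) ^ m * (f / z ^ n) ∈ (algebraMap B F).range ∧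
      (algebraMap B F π) ^ m * (f / z ^ n)⁻¹ ∈ (algebraMap B F).range) :
    H4S34.L1At R ϖ t 𝔫 n f := by
  obtain ⟨z, hz, m, h1, h2⟩ := h
  refine ⟨z, hz, (vertUnitAt_iff R ϖ t 𝔫 B _).mpr ⟨m, ?_, ?_⟩⟩
  · rw [← hπ, ← div_eq_mul_inv]; exact h1
  · rw [← hπ, ← div_eq_mul_inv f]; exact h2

end Loc

section Concrete

variable (R : Type) [CommRing R] [IsDomain R] [IsDiscreteValuationRing R]
  (K : Type) [Field K] [CharZero K] [Algebra R K] [IsFractionRing R K]
  {F : Type} [Field F] [Algebra K F] [Algebra R F] [IsScalarTower R K F]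

/-- The local ring of the chart `t` at the prime `𝔫`, as a subalgebra of `F`. -/
def Bsub (t : F) [FiniteDimensional K⟮t⟯ F] (𝔫 : Ideal (H4S34.Chart R t)) [𝔫.IsPrime] :
    Subalgebra (H4S34.Chart R t) F :=
  haveI := chart_isFractionRing R K t
  Localization.subalgebra.ofField F 𝔫.primeCompl 𝔫.primeCompl_le_nonZeroDivisors

theorem bsub_atPrime (t : F) [FiniteDimensional K⟮t⟯ F] (𝔫 : Ideal (H4S34.Chart R t))
    [𝔫.IsPrime] : IsLocalization.AtPrime (Bsub R K t 𝔫) 𝔫 := by
  haveI := chart_isFractionRing R K t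
  exact Localization.subalgebra.isLocalization_ofField F 𝔫.primeCompl
    𝔫.primeCompl_le_nonZeroDivisors

theorem bsub_tower (t : F) [FiniteDimensional K⟮t⟯ F] (𝔫 : Ideal (H4S34.Chart R t))
    [𝔫.IsPrime] : IsScalarTower (H4S34.Chart R t) (Bsub R K t 𝔫) F :=
  IsScalarTower.of_algebraMap_eq (fun _ => rfl)

theorem mem_bsub_iff (t : F) [FiniteDimensional K⟮t⟯ F] (𝔫 : Ideal (H4S34.Chart R t))
    [𝔫.IsPrime] (x : F) :
    x ∈ Bsub R K t 𝔫 ↔ H4S34.InLoc R t 𝔫 x := by
  haveI := bsub_atPrime R K t 𝔫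
  haveI := bsub_tower R K t 𝔫
  rw [inLoc_iff R t 𝔫 (Bsub R K t 𝔫)]
  constructor
  · intro hx
    exact ⟨⟨x, hx⟩, rfl⟩
  · rintro ⟨b, rfl⟩
    exact b.2

end Concrete

end H22BR

end
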