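import Mathlib

/-!
# helper27 — item 82 (S34): Krull-domain lemma (Mathlib-only)

For a noetherian integrally closed domain `B` with fraction field `K`:

* `H27KR.key` : if a prime `p` is the conductor `{d | d • m ∈ B}` of some `m : K`, then `p` has
  height one and is "locally principal" (`∃ t ∈ p, ∃ s ∉ p, s = m t`).
* `H27KR.mem_range_of_forall_height_one` : `z : K` lying in the local ring `B_p ⊆ K` of every
  height-one prime `p` lies in `B`  (`B = ⋂_{ht p = 1} B_p`).
* `H27KR.isUnit_of_forall_height_one` : if `z` is a unit of every `B_p`, `p` of height one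
  (i.e. `div z = 0`), then `z` is (the image of) a unit of `B`.
* `H27KR.exists_local_generator` : a height-one prime is locally principal.

No localization *rings* are used: the local ring of `B` at `p` inside `K` is described by
`H27KR.InLoc p z : ∃ a b, b ∉ p ∧ z * b = a`.
-/

namespace H27KR

open Ideal Submodule

variable {B : Type*} [CommRing B] [IsDomain B]
variable {K : Type*} [Field K] [Algebra B K] [IsFractionRing B K]

/-- `z : K` lies in the local ring `B_p ⊆ K`. -/
def InLoc (p : Ideal B) (z : K) : Prop :=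
  ∃ a b : B, b ∉ p ∧ z * algebraMap B K b = algebraMap B K a

/-- `z : K` is a unit of the local ring `B_p ⊆ K`. -/
def UnitLoc (p : Ideal B) (z : K) : Prop :=
  ∃ a b : B, a ∉ p ∧ b ∉ p ∧ z * algebraMap B K b = algebraMap B K a

omit [IsDomain B] [IsFractionRing B K] in
theorem UnitLoc.inLoc {p : Ideal B} {z : K} (h : UnitLoc p z) : InLoc p z := by
  obtain ⟨a, b, -, hb, h⟩ := h
  exact ⟨a, b, hb, h⟩

omit [IsDomain B] in
theorem UnitLoc.inv {p : Ideal B} {z : K} (h : UnitLoc p z) :
    UnitLoc p z⁻¹ := by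
  obtain ⟨a, b, ha, hb, h⟩ := h
  have ha0 : algebraMap B K a ≠ 0 := by
    intro h0
    have : a = 0 := (IsFractionRing.injective B K) (by rw [h0, map_zero])
    exact ha (this ▸ p.zero_mem)
  have hz : z ≠ 0 := by
    rintro rfl
    rw [zero_mul] at h
    exact ha0 h.symm
  refine ⟨b, a, hb, ha, ?_⟩
  rw [← h]
  field_simp

omit [IsDomain B] [IsFractionRing B K] in
theorem inLoc_algebraMap (p : Ideal B) [p.IsPrime] (a : B) : InLoc p (algebraMap B K a) :=
  ⟨a, 1, fun h => (inferInstance : p.IsPrime).ne_top ((Ideal.eq_top_iff_one p).2 h), by simp⟩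

variable [IsNoetherianRing B] [IsIntegrallyClosed B]

/-- **Key lemma.**  In a noetherian integrally closed domain, a prime ideal which is the
conductor of some `m ∈ K` has height one and is locally principal. -/
theorem key (m : K) (p : Ideal B) [hp : p.IsPrime]
    (hpm : ∀ d : B, d ∈ p ↔ ∃ a : B, algebraMap B K d * m = algebraMap B K a) :
    p.height = 1 ∧ ∃ t ∈ p, ∃ s : B, s ∉ p ∧ algebraMap B K s = m * algebraMap B K t := by
  have hinj : Function.Injective (algebraMap B K) := IsFractionRing.injective B K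
  -- `p ≠ ⊥`
  have hpbot : p ≠ ⊥ := by
    obtain ⟨a, b, hb, hab⟩ := IsFractionRing.div_surjective (A := B) m
    have hb0 : b ≠ 0 := nonZeroDivisors.ne_zero hb
    have hbK : algebraMap B K b ≠ 0 := fun h0 => hb0 (hinj (by rw [h0, map_zero]))
    have : b ∈ p := (hpm b).2 ⟨a, by rw [← hab]; field_simp⟩
    intro hbot
    rw [hbot] at this
    exact hb0 ((Ideal.mem_bot).1 this)
  -- local generator
  have hex : ∃ t ∈ p, ∃ s : B, s ∉ p ∧ algebraMap B K s = m * algebraMap B K t := by
    by_contra hcon
    replace hcon : ∀ t ∈ p, ∀ s : B, s ∉ p → algebraMap B K s ≠ m * algebraMap B K t := by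
      intro t ht s hs hst
      exact hcon ⟨t, ht, s, hs, hst⟩
    -- then `m • p ⊆ p`, so `m` is integral, so `m ∈ B`, so `1 ∈ p`
    let N : Submodule B K := Submodule.map (Algebra.linearMap B K) p
    have hN0 : N ≠ ⊥ := by
      intro h0
      apply hpbot
      rw [Submodule.eq_bot_iff]
      intro x hx
      have : algebraMap B K x ∈ N := ⟨x, hx, rfl⟩
      rw [h0, Submodule.mem_bot] at this
      exact hinj (by rw [this, map_zero])
    have hNfg : N.FG := Submodule.FG.map _ (IsNoetherian.noetherian p)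
    have hmN : ∀ n ∈ N, m • n ∈ N := by
      rintro n ⟨t, ht, rfl⟩
      obtain ⟨a, ha⟩ := (hpm t).1 ht
      have hap : a ∈ p := by
        by_contra hap
        exact hcon t ht a hap (by rw [← ha, mul_comm])
      refine ⟨a, hap, ?_⟩
      simp only [Algebra.linearMap_apply, smul_eq_mul]
      rw [← ha, mul_comm]
    have hint : IsIntegral B m := isIntegral_of_smul_mem_submodule N hN0 hNfg m hmN
    obtain ⟨a, ha⟩ := IsIntegrallyClosed.algebraMap_eq_of_integral hint
    have : (1 : B) ∈ p := (hpm 1).2 ⟨a, by rw [map_one, one_mul, ha]⟩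
    exact hp.ne_top ((Ideal.eq_top_iff_one p).2 this)
  refine ⟨?_, hex⟩
  obtain ⟨t, ht, s, hs, hst⟩ := hex
  have hmin : p ∈ (Ideal.span {t}).minimalPrimes := by
    refine ⟨⟨hp, (Ideal.span_singleton_le_iff_mem p).2 ht⟩, ?_⟩
    rintro q ⟨hq, htq⟩ hqp d hd
    obtain ⟨a, ha⟩ := (hpm d).1 hd
    have hsd : s * d = a * t := by
      apply hinj
      rw [map_mul, map_mul, hst, ← ha]
      ring
    have htq' : t ∈ q := (Ideal.span_singleton_le_iff_mem q).1 htq
    have : s * d ∈ q := hsd ▸ q.mul_mem_left a htq'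
    rcases hq.mem_or_mem this with h | h
    · exact absurd (hqp h) hs
    · exact h
  have hle : p.height ≤ 1 :=
    Ideal.height_le_one_of_isPrincipal_of_mem_minimalPrimes (Ideal.span {t}) p hmin
  have hne : p.height ≠ 0 := fun h0 => hpbot (Ideal.height_eq_zero_iff_eq_bot.1 h0)
  exact le_antisymm hle (Order.one_le_iff_ne_zero.2 hne)

/-- **Krull**: a noetherian integrally closed domain is the intersection (in its fraction field)
of its localizations at height-one primes. -/
theorem mem_range_of_forall_height_one (z : K)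
    (h : ∀ p : Ideal B, p.IsPrime → p.height = 1 → InLoc p z) :
    z ∈ (algebraMap B K).range := by
  by_contra hz
  let R1 : Submodule B K := LinearMap.range (Algebra.linearMap B K)
  have hx : (R1.mkQ z) ≠ 0 := by
    intro h0
    rw [Submodule.mkQ_apply, Submodule.Quotient.mk_eq_zero] at h0
    obtain ⟨a, ha⟩ := h0
    exact hz ⟨a, ha⟩
  obtain ⟨P, hP, hle⟩ := exists_le_isAssociatedPrime_of_isNoetherianRing B (R1.mkQ z) hx
  rw [isAssociatedPrime_iff] at hP
  obtain ⟨hPprime, y, hy⟩ := hP
  obtain ⟨m, rfl⟩ := R1.mkQ_surjective y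
  have hpm : ∀ d : B, d ∈ P ↔ ∃ a : B, algebraMap B K d * m = algebraMap B K a := by
    intro d
    rw [hy, Submodule.mem_colon_singleton, Submodule.mem_bot, ← map_smul, Submodule.mkQ_apply,
      Submodule.Quotient.mk_eq_zero]
    constructor
    · rintro ⟨a, ha⟩
      exact ⟨a, by rw [← Algebra.smul_def]; exact ha.symm⟩
    · rintro ⟨a, ha⟩
      exact ⟨a, by rw [Algebra.smul_def]; exact ha.symm⟩
  have := hPprime
  obtain ⟨hht, -⟩ := key m P hpm
  obtain ⟨a, b, hb, hab⟩ := h P hPprime hht
  apply hb
  apply hle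
  rw [Submodule.mem_colon_singleton, Submodule.mem_bot, ← map_smul, Submodule.mkQ_apply,
      Submodule.Quotient.mk_eq_zero]
  exact ⟨a, by rw [Algebra.smul_def, mul_comm]; exact hab.symm⟩

/-- `div z = 0 ⇒ z ∈ Bˣ`: a nonzero `z : K` which is a unit of `B_p` for every height-one prime
`p` is the image of a unit of `B`. -/
theorem isUnit_of_forall_height_one (z : K) (hz : z ≠ 0)
    (h : ∀ p : Ideal B, p.IsPrime → p.height = 1 → UnitLoc p z) :
    ∃ u : Bˣ, algebraMap B K (u : B) = z := by
  have hinj : Function.Injective (algebraMap B K) := IsFractionRing.injective B K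
  obtain ⟨a, ha⟩ := mem_range_of_forall_height_one z (fun p hp hh => (h p hp hh).inLoc)
  obtain ⟨a', ha'⟩ := mem_range_of_forall_height_one z⁻¹ (fun p hp hh => (h p hp hh).inv.inLoc)
  have h1 : a * a' = 1 := by
    apply hinj
    rw [map_mul, ha, ha', map_one, mul_inv_cancel₀ hz]
  exact ⟨⟨a, a', h1, by rw [mul_comm]; exact h1⟩, ha⟩

/-- auxiliary form of `exists_local_generator` (with an explicit fraction field). -/
theorem exists_local_generator_aux (K : Type*) [Field K] [Algebra B K] [IsFractionRing B K]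
    (p : Ideal B) [hp : p.IsPrime] (hh : p.height = 1) :
    ∃ t ∈ p, ∀ d ∈ p, ∃ s : B, s ∉ p ∧ ∃ y : B, s * d = y * t := by
  have hinj : Function.Injective (algebraMap B K) := IsFractionRing.injective B K
  have hpbot : p ≠ ⊥ := by
    intro h0
    rw [h0, Ideal.height_bot] at hh
    exact zero_ne_one hh
  obtain ⟨b, hbp, hb0⟩ := Submodule.exists_mem_ne_zero_of_ne_bot hpbot
  -- `p` is minimal over `(b)`
  have hmin : p ∈ (Ideal.span {b}).minimalPrimes := by
    obtain ⟨q, hq, hqp⟩ := Ideal.exists_minimalPrimes_le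
      (show Ideal.span {b} ≤ p from (Ideal.span_singleton_le_iff_mem p).2 hbp)
    have hqprime : q.IsPrime := hq.1.1
    have hbq : b ∈ q := (Ideal.span_singleton_le_iff_mem q).1 hq.1.2
    rcases eq_or_lt_of_le hqp with h | h
    · exact h ▸ hq
    · exfalso
      have : p.FiniteHeight := by
        rw [Ideal.finiteHeight_iff]
        right
        rw [hh]
        exact ENat.one_ne_top
      have hlt := Ideal.height_strict_mono_of_isPrime_of_isPrime h
      rw [hh] at hlt
      have h0 : q.height = 0 := Order.lt_one_iff.1 hlt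
      have : q = ⊥ := Ideal.height_eq_zero_iff_eq_bot.1 h0
      rw [this] at hbq
      exact hb0 ((Ideal.mem_bot).1 hbq)
  -- hence `p = ((b) : a)`
  have hcol : (Ideal.span {b} : Submodule B B).colon {(1 : B)} = Ideal.span {b} := by
    ext d
    rw [Submodule.mem_colon_singleton, smul_eq_mul, mul_one]
  obtain ⟨a, hpa⟩ := Submodule.exists_eq_colon_of_mem_minimalPrimes (N := (Ideal.span {b} : Submodule B B))
    (x := (1 : B)) (I := p) (by rw [hcol]; exact hmin)
  have hbK : algebraMap B K b ≠ 0 := fun h0 => hb0 (hinj (by rw [h0, map_zero]))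
  have hpm : ∀ d : B, d ∈ p ↔
      ∃ c : B, algebraMap B K d * (algebraMap B K a / algebraMap B K b) = algebraMap B K c := by
    intro d
    rw [hpa, Submodule.mem_colon_singleton, smul_eq_mul, Ideal.mem_span_singleton']
    constructor
    · rintro ⟨c, hc⟩
      refine ⟨c, ?_⟩
      rw [mul_div_assoc', ← map_mul, ← hc, map_mul]
      field_simp
    · rintro ⟨c, hc⟩
      refine ⟨c, hinj ?_⟩
      rw [map_mul, map_mul, ← hc]
      field_simp
  obtain ⟨-, t, ht, s, hs, hst⟩ := key (algebraMap B K a / algebraMap B K b) p hpm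
  refine ⟨t, ht, fun d hd => ?_⟩
  obtain ⟨c, hc⟩ := (hpm d).1 hd
  refine ⟨s, hs, c, hinj ?_⟩
  rw [map_mul, map_mul, hst, ← hc]
  ring

/-- A height-one prime of a noetherian integrally closed domain is locally principal:
there is `t ∈ p` such that every `d ∈ p` satisfies `s d = y t` with `s ∉ p`
(i.e. `p B_p = t B_p`, so `B_p` is a discrete valuation ring with uniformizer `t`). -/
theorem exists_local_generator (p : Ideal B) [hp : p.IsPrime] (hh : p.height = 1) :
    ∃ t ∈ p, ∀ d ∈ p, ∃ s : B, s ∉ p ∧ ∃ y : B, s * d = y * t :=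
  exists_local_generator_aux (FractionRing B) p hh

end H27KR
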