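/-
Item 82 (S34), helper4's (GU) route, slice **LNC** (local node lemma), helper9: the valuation-free
core, part (a).

`B` a local domain, `π ∈ B`, `P1, P2` primes with `πB = P1 ∩ P2`, `B/P1`, `B/P2` DVRs and
`P1 + P2 = 𝔪` ("transversal node").  If there is ONE vertical function `f` with `f·f' = π^j`,
`f ∉ P1`, `f' ∉ P2`, `j ≥ 1`, then the node has a finite thickness `1 ≤ k ≤ j`:
`x·y = π^k·unit` with `x ∈ P2`, `y ∈ P1` restricting to uniformizers of `B/P1`, `B/P2`.
-/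
import Mathlib

set_option autoImplicit false
set_option linter.style.haveILetI false
set_option linter.unusedSectionVars false
set_option linter.unusedVariables false

namespace H9LNC

open IsLocalRing

variable {B : Type*} [CommRing B] [IsDomain B] [IsLocalRing B]

/-- a transversal node: `πB = P1 ∩ P2`, `P1 + P2 = 𝔪`, `B/P1` and `B/P2` DVRs -/
structure IsNode (π : B) (P1 P2 : Ideal B) [P1.IsPrime] [P2.IsPrime] : Prop where
  span_eq : Ideal.span {π} = P1 ⊓ P2
  sup_eq : P1 ⊔ P2 = maximalIdeal B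
  dvr1 : IsDiscreteValuationRing (B ⧸ P1)
  dvr2 : IsDiscreteValuationRing (B ⧸ P2)

/-- units of a quotient of a local ring by a proper ideal -/
theorem isUnit_mk_iff (P : Ideal B) (hP : P ≠ ⊤) (b : B) :
    IsUnit (Ideal.Quotient.mk P b) ↔ IsUnit b := by
  constructor
  · intro h
    obtain ⟨c, hc⟩ := h.exists_right_inv
    obtain ⟨c, rfl⟩ := Ideal.Quotient.mk_surjective c
    rw [← map_mul, ← map_one (Ideal.Quotient.mk P), Ideal.Quotient.eq] at hc
    have hle : P ≤ maximalIdeal B := IsLocalRing.le_maximalIdeal hP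
    have h1 : b * c - 1 ∈ maximalIdeal B := hle hc
    have h2 : IsUnit (b * c) := by
      by_contra hn
      have h3 : b * c ∈ maximalIdeal B := (IsLocalRing.mem_maximalIdeal _).2 hn
      have h4 : (1 : B) ∈ maximalIdeal B := by
        have := (maximalIdeal B).sub_mem h3 h1
        rwa [sub_sub_cancel] at this
      exact (IsLocalRing.mem_maximalIdeal _).1 h4 isUnit_one
    exact isUnit_of_mul_isUnit_left h2
  · intro h
    exact h.map _

section node

variable {π : B} {P1 P2 : Ideal B} [hP1 : P1.IsPrime] [hP2 : P2.IsPrime]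

theorem IsNode.symm (h : IsNode π P1 P2) : IsNode π P2 P1 :=
  ⟨by rw [h.span_eq, inf_comm], by rw [sup_comm, h.sup_eq], h.dvr2, h.dvr1⟩

theorem IsNode.pi_mem_left (h : IsNode π P1 P2) : π ∈ P1 := by
  have : π ∈ P1 ⊓ P2 := by rw [← h.span_eq]; exact Ideal.mem_span_singleton_self π
  exact this.1

theorem IsNode.pi_mem_right (h : IsNode π P1 P2) : π ∈ P2 := h.symm.pi_mem_left

theorem IsNode.left_le (h : IsNode π P1 P2) : P1 ≤ maximalIdeal B := by
  rw [← h.sup_eq]; exact le_sup_left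

theorem IsNode.right_le (h : IsNode π P1 P2) : P2 ≤ maximalIdeal B := h.symm.left_le

theorem IsNode.dvd_of_mem (h : IsNode π P1 P2) {z : B} (h1 : z ∈ P1) (h2 : z ∈ P2) : π ∣ z := by
  have : z ∈ Ideal.span {π} := by rw [h.span_eq]; exact ⟨h1, h2⟩
  exact Ideal.mem_span_singleton.1 this

/-- a non-unit of `B` maps into the maximal ideal `(mk x)` of `B/P1` -/
theorem IsNode.exists_sub_mem (h : IsNode π P1 P2) {x : B}
    (hx : Irreducible (Ideal.Quotient.mk P1 x)) {b : B} (hb : b ∈ maximalIdeal B) :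
    ∃ c : B, b - x * c ∈ P1 := by
  haveI := h.dvr1
  have h1 : Ideal.Quotient.mk P1 b ∈ maximalIdeal (B ⧸ P1) := by
    rw [IsLocalRing.mem_maximalIdeal, mem_nonunits_iff, isUnit_mk_iff P1 hP1.ne_top]
    exact (IsLocalRing.mem_maximalIdeal _).1 hb
  rw [hx.maximalIdeal_eq, Ideal.mem_span_singleton] at h1
  obtain ⟨c, hc⟩ := h1
  obtain ⟨c, rfl⟩ := Ideal.Quotient.mk_surjective c
  refine ⟨c, ?_⟩
  rw [← Ideal.Quotient.eq, hc, map_mul]

/-- a uniformizer of `B/P1` lifts to `P2` -/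
theorem IsNode.exists_unif (h : IsNode π P1 P2) :
    ∃ x ∈ P2, Irreducible (Ideal.Quotient.mk P1 x) := by
  haveI := h.dvr1
  obtain ⟨ϖ, hϖ⟩ := IsDiscreteValuationRing.exists_irreducible (B ⧸ P1)
  obtain ⟨b, rfl⟩ := Ideal.Quotient.mk_surjective ϖ
  have hb : b ∈ maximalIdeal B := by
    rw [IsLocalRing.mem_maximalIdeal, mem_nonunits_iff, ← isUnit_mk_iff P1 hP1.ne_top]
    exact hϖ.not_isUnit
  rw [← h.sup_eq] at hb
  obtain ⟨p1, hp1, p2, hp2, rfl⟩ := Submodule.mem_sup.1 hb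
  refine ⟨p2, hp2, ?_⟩
  have : Ideal.Quotient.mk P1 (p1 + p2) = Ideal.Quotient.mk P1 p2 := by
    rw [map_add, Ideal.Quotient.eq_zero_iff_mem.2 hp1, zero_add]
  rw [← this]
  exact hϖ

/-- `𝔪 = (x, y, π)` -/
theorem IsNode.exists_decomp (h : IsNode π P1 P2) {x y : B} (hxP : x ∈ P2) (hyP : y ∈ P1)
    (hx : Irreducible (Ideal.Quotient.mk P1 x)) (hy : Irreducible (Ideal.Quotient.mk P2 y))
    {b : B} (hb : b ∈ maximalIdeal B) : ∃ α β γ : B, b = α * x + β * y + γ * π := by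
  obtain ⟨c, hc⟩ := h.symm.exists_sub_mem hy hb
  have hp : b - y * c ∈ maximalIdeal B := h.right_le hc
  obtain ⟨c', hc'⟩ := h.exists_sub_mem hx hp
  have h2 : b - y * c - x * c' ∈ P2 := P2.sub_mem hc (P2.mul_mem_right _ hxP)
  obtain ⟨γ, hγ⟩ := h.dvd_of_mem hc' h2
  refine ⟨c', c, γ, ?_⟩
  have : b = (b - y * c - x * c') + y * c + x * c' := by ring
  rw [this, hγ]
  ring

theorem IsNode.pi_ne_zero (h : IsNode π P1 P2) {f f' : B} {j : ℕ} (hj : 1 ≤ j)
    (hff : f * f' = π ^ j) (hf : f ∉ P1) (hf' : f' ∉ P2) : π ≠ 0 := by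
  rintro rfl
  rw [zero_pow (by omega)] at hff
  rcases mul_eq_zero.1 hff with h0 | h0
  · exact hf (h0 ▸ P1.zero_mem)
  · exact hf' (h0 ▸ P2.zero_mem)

/-- `π^j B = P1^{(j)} ∩ P2^{(j)}`, valuation-free form -/
theorem IsNode.pow_dvd_of (h : IsNode π P1 P2) (hπ : π ≠ 0) (j : ℕ) {z s s' : B}
    (hs : s ∉ P1) (hs' : s' ∉ P2) (h1 : π ^ j ∣ z * s) (h2 : π ^ j ∣ z * s') : π ^ j ∣ z := by
  induction j with
  | zero => simp
  | succ j ih =>
    obtain ⟨z', rfl⟩ := ih ((pow_dvd_pow π (Nat.le_succ j)).trans h1)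
      ((pow_dvd_pow π (Nat.le_succ j)).trans h2)
    have hπj : π ^ j ≠ 0 := pow_ne_zero _ hπ
    have e1 : π ∣ z' * s := by
      rw [pow_succ, mul_assoc] at h1
      exact (mul_dvd_mul_iff_left hπj).1 h1
    have e2 : π ∣ z' * s' := by
      rw [pow_succ, mul_assoc] at h2
      exact (mul_dvd_mul_iff_left hπj).1 h2
    have m1 : z' ∈ P1 := by
      have : z' * s ∈ P1 := by
        obtain ⟨c, hc⟩ := e1
        rw [hc]; exact P1.mul_mem_right _ h.pi_mem_left
      exact (hP1.mem_or_mem this).resolve_right hs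
    have m2 : z' ∈ P2 := by
      have : z' * s' ∈ P2 := by
        obtain ⟨c, hc⟩ := e2
        rw [hc]; exact P2.mul_mem_right _ h.pi_mem_right
      exact (hP2.mem_or_mem this).resolve_right hs'
    obtain ⟨c, rfl⟩ := h.dvd_of_mem m1 m2
    exact ⟨c, by rw [pow_succ]; ring⟩

/-- the bound: the thickness is at most `j` -/
theorem IsNode.bound (h : IsNode π P1 P2) {f f' : B} {j : ℕ} (hj : 1 ≤ j)
    (hff : f * f' = π ^ j) (hf : f ∉ P1) (hf' : f' ∉ P2) {x y : B}
    (hx : Irreducible (Ideal.Quotient.mk P1 x)) (hy : y ∉ P2)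
    (hdvd : π ^ (j + 1) ∣ x * y) : False := by
  have hπ : π ≠ 0 := h.pi_ne_zero hj hff hf hf'
  have hfP2 : f ∈ P2 := by
    have : f * f' ∈ P2 := by
      rw [hff]
      exact P2.pow_mem_of_mem h.pi_mem_right j (by omega)
    exact (hP2.mem_or_mem this).resolve_right hf'
  have hf'0 : f' ≠ 0 := fun h0 => hf' (h0 ▸ P2.zero_mem)
  obtain ⟨b, hb⟩ := hdvd
  -- `z = x f'` is divisible by `π^j`
  have h1 : π ^ j ∣ x * f' * f := ⟨x, by rw [mul_assoc, mul_comm f' f, hff]; ring⟩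
  have h2 : π ^ j ∣ x * f' * y := ⟨π * b * f', by
    have : x * f' * y = x * y * f' := by ring
    rw [this, hb, pow_succ]; ring⟩
  obtain ⟨g, hg⟩ := h.pow_dvd_of hπ j hf hy h1 h2
  have hπj : π ^ j ≠ 0 := pow_ne_zero _ hπ
  have hgP2 : g ∈ P2 := by
    have e : π ^ j * (g * y) = π ^ j * (π * b * f') := by
      have : x * f' * y = x * y * f' := by ring
      calc π ^ j * (g * y) = x * f' * y := by rw [hg]; ring
        _ = x * y * f' := this
        _ = π ^ j * (π * b * f') := by rw [hb, pow_succ]; ring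
    have e' : g * y = π * b * f' := mul_left_cancel₀ hπj e
    have : g * y ∈ P2 := by
      rw [e', mul_assoc]
      exact P2.mul_mem_right _ h.pi_mem_right
    exact (hP2.mem_or_mem this).resolve_right hy
  have hxfg : x = f * g := by
    have e : x * f' = f * g * f' := by
      rw [hg, ← hff]; ring
    exact mul_right_cancel₀ hf'0 e
  rw [hxfg, map_mul] at hx
  rcases hx.isUnit_or_isUnit rfl with hu | hu
  · rw [isUnit_mk_iff P1 hP1.ne_top] at hu
    exact (IsLocalRing.mem_maximalIdeal _).1 (h.right_le hfP2) hu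
  · rw [isUnit_mk_iff P1 hP1.ne_top] at hu
    exact (IsLocalRing.mem_maximalIdeal _).1 (h.right_le hgP2) hu

/-- one step of the iteration -/
theorem IsNode.step (h : IsNode π P1 P2) {x y b : B} {i : ℕ} (hi : 1 ≤ i)
    (hxP : x ∈ P2) (hyP : y ∈ P1)
    (hx : Irreducible (Ideal.Quotient.mk P1 x)) (hy : Irreducible (Ideal.Quotient.mk P2 y))
    (hxy : x * y = π ^ i * b) (hb : b ∈ maximalIdeal B) :
    ∃ x' y' b' : B, x' ∈ P2 ∧ y' ∈ P1 ∧ Irreducible (Ideal.Quotient.mk P1 x') ∧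
      Irreducible (Ideal.Quotient.mk P2 y') ∧ x' * y' = π ^ (i + 1) * b' := by
  obtain ⟨α, β, γ, hd⟩ := h.exists_decomp hxP hyP hx hy hb
  have hπi1 : π ^ i ∈ P1 := P1.pow_mem_of_mem h.pi_mem_left i (by omega)
  have hπi2 : π ^ i ∈ P2 := P2.pow_mem_of_mem h.pi_mem_right i (by omega)
  refine ⟨x - π ^ i * β, y - π ^ i * α, γ + π ^ (i - 1) * (α * β),
    P2.sub_mem hxP (P2.mul_mem_right _ hπi2), P1.sub_mem hyP (P1.mul_mem_right _ hπi1), ?_, ?_, ?_⟩
  · have : Ideal.Quotient.mk P1 (x - π ^ i * β) = Ideal.Quotient.mk P1 x := by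
      rw [map_sub, Ideal.Quotient.eq_zero_iff_mem.2 (P1.mul_mem_right _ hπi1), sub_zero]
    rw [this]; exact hx
  · have : Ideal.Quotient.mk P2 (y - π ^ i * α) = Ideal.Quotient.mk P2 y := by
      rw [map_sub, Ideal.Quotient.eq_zero_iff_mem.2 (P2.mul_mem_right _ hπi2), sub_zero]
    rw [this]; exact hy
  · have e : π ^ i = π * π ^ (i - 1) := by
      rw [← pow_succ']
      congr 1
      omega
    calc (x - π ^ i * β) * (y - π ^ i * α)
        = x * y - π ^ i * (α * x + β * y) + π ^ i * π ^ i * (α * β) := by ring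
      _ = π ^ i * b - π ^ i * (α * x + β * y) + π ^ i * π ^ i * (α * β) := by rw [hxy]
      _ = π ^ i * (γ * π) + π ^ i * π ^ i * (α * β) := by rw [hd]; ring
      _ = π ^ i * (γ * π) + π ^ i * (π * π ^ (i - 1)) * (α * β) := by rw [← e]
      _ = π ^ (i + 1) * (γ + π ^ (i - 1) * (α * β)) := by rw [pow_succ]; ring

/-- **LNC (a): the structure of a node**. -/
theorem IsNode.structure (h : IsNode π P1 P2) {f f' : B} {j : ℕ} (hj : 1 ≤ j)
    (hff : f * f' = π ^ j) (hf : f ∉ P1) (hf' : f' ∉ P2) :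
    ∃ (k : ℕ) (x y u : B), 1 ≤ k ∧ k ≤ j ∧ x ∈ P2 ∧ y ∈ P1 ∧ IsUnit u ∧
      x * y = π ^ k * u ∧ Irreducible (Ideal.Quotient.mk P1 x) ∧
      Irreducible (Ideal.Quotient.mk P2 y) := by
  have key : ∀ d i : ℕ, 1 ≤ i → i + d = j → ∀ x y b : B, x ∈ P2 → y ∈ P1 →
      Irreducible (Ideal.Quotient.mk P1 x) → Irreducible (Ideal.Quotient.mk P2 y) →
      x * y = π ^ i * b →
      ∃ (k : ℕ) (x y u : B), 1 ≤ k ∧ k ≤ j ∧ x ∈ P2 ∧ y ∈ P1 ∧ IsUnit u ∧
        x * y = π ^ k * u ∧ Irreducible (Ideal.Quotient.mk P1 x) ∧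
        Irreducible (Ideal.Quotient.mk P2 y) := by
    intro d
    induction d with
    | zero =>
      intro i hi hij x y b hxP hyP hx hy hxy
      by_cases hb : IsUnit b
      · exact ⟨i, x, y, b, hi, by omega, hxP, hyP, hb, hxy, hx, hy⟩
      · exfalso
        obtain ⟨x', y', b', hx'P, hy'P, hx', hy', hxy'⟩ :=
          h.step hi hxP hyP hx hy hxy ((IsLocalRing.mem_maximalIdeal _).2 hb)
        have hy'2 : y' ∉ P2 := fun hmem =>
          hy'.ne_zero (Ideal.Quotient.eq_zero_iff_mem.2 hmem)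
        have hij' : i = j := by omega
        subst hij'
        exact h.bound hj hff hf hf' hx' hy'2 ⟨b', hxy'⟩
    | succ d ih =>
      intro i hi hij x y b hxP hyP hx hy hxy
      by_cases hb : IsUnit b
      · exact ⟨i, x, y, b, hi, by omega, hxP, hyP, hb, hxy, hx, hy⟩
      · obtain ⟨x', y', b', hx'P, hy'P, hx', hy', hxy'⟩ :=
          h.step hi hxP hyP hx hy hxy ((IsLocalRing.mem_maximalIdeal _).2 hb)
        exact ih (i + 1) (by omega) (by omega) x' y' b' hx'P hy'P hx' hy' hxy'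
  obtain ⟨x, hxP, hx⟩ := h.exists_unif
  obtain ⟨y, hyP, hy⟩ := h.symm.exists_unif
  obtain ⟨b, hb⟩ := h.dvd_of_mem (P1.mul_mem_left x hyP) (P2.mul_mem_right y hxP)
  exact key (j - 1) 1 le_rfl (by omega) x y b hxP hyP hx hy (by rw [pow_one]; exact hb)

end node

end H9LNC
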