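/-
Item 82 (S34), helper4's (GU) route, slice **LNC** (local node lemma), helper9: part (b),
"sections through a node".

`B` a Noetherian local domain with a transversal node `πB = P1 ∩ P2` in standard form
`x·y = π^k·u`.  A *section* is a prime `Q` with `π ∉ Q` and `Q + πB = 𝔪`.  Then
`Q = (z, z')` with `z = x - π^a ε`, `z' = y - π^{k-a} ε⁻¹ u`, `1 ≤ a < k`, `z·y = -π^a ε z'`;
`z` generates `Q` locally at `Q`, `Q` is the only horizontal prime through `z`,
`z ≡ x` on `P1` and `z·y = π^a·w` with `w ∉ P2`.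
-/
import Fermat.Agent.S34.LNCCore_helper9

set_option autoImplicit false
set_option linter.style.haveILetI false
set_option linter.unusedSectionVars false
set_option linter.unusedVariables false

namespace H9LNC

open IsLocalRing

variable {B : Type*} [CommRing B] [IsDomain B] [IsLocalRing B] [IsNoetherianRing B]

/-- membership in `π^i • (B/I)` -/
theorem mk_mem_pow_smul_iff (I : Ideal B) (π : B) (i : ℕ) (b : B) :
    (Ideal.Quotient.mk I b : B ⧸ I) ∈ (Ideal.span {π}) ^ i • (⊤ : Submodule B (B ⧸ I)) ↔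
      ∃ c : B, b - π ^ i * c ∈ I := by
  rw [Ideal.span_singleton_pow, Submodule.ideal_span_singleton_smul,
    Submodule.mem_smul_pointwise_iff_exists]
  constructor
  · rintro ⟨m, -, hm⟩
    obtain ⟨c, rfl⟩ := Ideal.Quotient.mk_surjective m
    refine ⟨c, ?_⟩
    rw [← Ideal.Quotient.eq, ← hm]
    rfl
  · rintro ⟨c, hc⟩
    refine ⟨Ideal.Quotient.mk I c, Submodule.mem_top, ?_⟩
    rw [← Ideal.Quotient.eq] at hc
    rw [hc]
    rfl

/-- Krull intersection, elementwise: `b ∉ I` is exactly divisible by some power of `π` mod `I` -/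
theorem exists_max_pow (I : Ideal B) {π : B} (hπ : π ∈ maximalIdeal B) {b : B} (hb : b ∉ I) :
    ∃ (n : ℕ) (c : B), b - π ^ n * c ∈ I ∧ ∀ c' : B, b - π ^ (n + 1) * c' ∉ I := by
  have hne : Ideal.span {π} ≠ (⊤ : Ideal B) := by
    intro h
    have : Ideal.span {π} ≤ maximalIdeal B := by
      rw [Ideal.span_singleton_le_iff_mem]; exact hπ
    rw [h] at this
    exact (IsLocalRing.maximalIdeal.isMaximal B).ne_top (top_le_iff.1 this)
  have hK := Ideal.iInf_pow_smul_eq_bot_of_isLocalRing (R := B) (M := B ⧸ I) (Ideal.span {π}) hne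
  have hb0 : (Ideal.Quotient.mk I b : B ⧸ I) ∉ (⊥ : Submodule B (B ⧸ I)) := by
    rw [Submodule.mem_bot, Ideal.Quotient.eq_zero_iff_mem]; exact hb
  rw [← hK, Submodule.mem_iInf] at hb0
  push Not at hb0
  classical
  have hex : ∃ i : ℕ, ¬ ∃ c : B, b - π ^ i * c ∈ I := by
    obtain ⟨i, hi⟩ := hb0
    exact ⟨i, fun hc => hi ((mk_mem_pow_smul_iff I π i b).2 hc)⟩
  have hmin : ∀ m : ℕ, m < Nat.find hex → ¬ ¬ ∃ c : B, b - π ^ m * c ∈ I :=
    fun m hm => Nat.find_min hex hm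
  have hspec := Nat.find_spec hex
  have h0 : Nat.find hex ≠ 0 := by
    intro h0
    rw [h0] at hspec
    exact hspec ⟨b, by simp⟩
  obtain ⟨n, hn⟩ := Nat.exists_eq_succ_of_ne_zero h0
  have hlt : n < Nat.find hex := by omega
  have h1 := hmin n hlt
  push Not at h1
  obtain ⟨c, hc⟩ := h1
  refine ⟨n, c, hc, fun c' hc' => ?_⟩
  rw [hn] at hspec
  exact hspec ⟨c', hc'⟩

/-- if `I + πB = 𝔪`, every `b ∉ I` is `π^n·unit` mod `I` -/
theorem exists_pow_unit {I : Ideal B} {π : B} (hI : I ⊔ Ideal.span {π} = maximalIdeal B)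
    {b : B} (hb : b ∉ I) : ∃ (n : ℕ) (c : B), IsUnit c ∧ b - π ^ n * c ∈ I := by
  have hπ : π ∈ maximalIdeal B := by
    rw [← hI]; exact Ideal.mem_sup_right (Ideal.mem_span_singleton_self π)
  obtain ⟨n, c, hc, hmax⟩ := exists_max_pow I hπ hb
  refine ⟨n, c, ?_, hc⟩
  by_contra hu
  have hcm : c ∈ maximalIdeal B := (IsLocalRing.mem_maximalIdeal _).2 hu
  rw [← hI] at hcm
  obtain ⟨i, hi, p, hp, rfl⟩ := Submodule.mem_sup.1 hcm
  obtain ⟨c'', rfl⟩ := Ideal.mem_span_singleton.1 hp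
  refine hmax c'' ?_
  have : b - π ^ (n + 1) * c'' = (b - π ^ n * (i + π * c'')) + π ^ n * i := by
    rw [pow_succ]; ring
  rw [this]
  exact I.add_mem hc (I.mul_mem_left _ hi)

/-- a prime through `I` not containing `π` equals `I`, when `I + πB = 𝔪` -/
theorem eq_of_sup_span {I : Ideal B} {π : B} (hI : I ⊔ Ideal.span {π} = maximalIdeal B)
    (Q : Ideal B) [hQ : Q.IsPrime] (hIQ : I ≤ Q) (hπQ : π ∉ Q) : Q = I := by
  refine le_antisymm (fun q hq => ?_) hIQ
  by_contra hqI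
  obtain ⟨n, c, hc, hmem⟩ := exists_pow_unit hI hqI
  have h1 : π ^ n * c ∈ Q := by
    have : π ^ n * c = q - (q - π ^ n * c) := by ring
    rw [this]
    exact Q.sub_mem hq (hIQ hmem)
  rcases hQ.mem_or_mem h1 with h2 | h2
  · exact hπQ (hQ.mem_of_pow_mem n h2)
  · exact hQ.ne_top (Ideal.eq_top_of_isUnit_mem _ h2 hc)

section node

variable {π : B} {P1 P2 : Ideal B} [hP1 : P1.IsPrime] [hP2 : P2.IsPrime]

/-- the node equation forbids horizontal primes through `x` -/
theorem IsNode.not_mem_of_horizontal (h : IsNode π P1 P2) {k : ℕ} {x y u : B} (hu : IsUnit u)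
    (hxy : x * y = π ^ k * u) (Q : Ideal B) [hQ : Q.IsPrime] (hπQ : π ∉ Q) : x ∉ Q := by
  intro hx
  have h1 : π ^ k * u ∈ Q := by rw [← hxy]; exact Q.mul_mem_right _ hx
  rcases hQ.mem_or_mem h1 with h2 | h2
  · exact hπQ (hQ.mem_of_pow_mem k h2)
  · exact hQ.ne_top (Ideal.eq_top_of_isUnit_mem _ h2 hu)

/-- **LNC (b), explicit form**: a section `Q` through a node in standard form. -/
theorem IsNode.section_explicit (h : IsNode π P1 P2) {k : ℕ} {x y u : B} (hk : 1 ≤ k)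
    (hxP : x ∈ P2) (hyP : y ∈ P1) (hu : IsUnit u) (hxy : x * y = π ^ k * u)
    (hx : Irreducible (Ideal.Quotient.mk P1 x)) (hy : Irreducible (Ideal.Quotient.mk P2 y))
    (Q : Ideal B) [hQ : Q.IsPrime] (hπQ : π ∉ Q)
    (hsec : Q ⊔ Ideal.span {π} = maximalIdeal B) :
    ∃ (a : ℕ) (ε ε' : B), 1 ≤ a ∧ a < k ∧ ε * ε' = 1 ∧
      Q = Ideal.span {x - π ^ a * ε, y - π ^ (k - a) * (ε' * u)} ∧
      (x - π ^ a * ε) * y = -(π ^ a * ε * (y - π ^ (k - a) * (ε' * u))) := by
  have hxQ : x ∉ Q := h.not_mem_of_horizontal hu hxy Q hπQ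
  obtain ⟨a, ε, hε, hz⟩ := exists_pow_unit hsec hxQ
  obtain ⟨ε', hεε'⟩ := hε.exists_right_inv
  have hQm : Q ≤ maximalIdeal B := IsLocalRing.le_maximalIdeal hQ.ne_top
  have hxm : x ∈ maximalIdeal B := h.right_le hxP
  have hym : y ∈ maximalIdeal B := h.left_le hyP
  have ha1 : 1 ≤ a := by
    by_contra ha
    have ha0 : a = 0 := by omega
    subst ha0
    rw [pow_zero, one_mul] at hz
    have : ε ∈ maximalIdeal B := by
      have e : ε = x - (x - ε) := by ring
      rw [e]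
      exact (maximalIdeal B).sub_mem hxm (hQm hz)
    exact (IsLocalRing.mem_maximalIdeal _).1 this hε
  have hak : a < k := by
    by_contra hak
    have hka : k ≤ a := by omega
    -- `π^k (u - π^{a-k} ε y) = z y ∈ Q`
    have e : π ^ k * (u - π ^ (a - k) * ε * y) = (x - π ^ a * ε) * y := by
      have e1 : π ^ a = π ^ k * π ^ (a - k) := by
        rw [← pow_add]; congr 1; omega
      have : (x - π ^ a * ε) * y = x * y - π ^ a * ε * y := by ring
      rw [this, hxy, e1]; ring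
    have h1 : π ^ k * (u - π ^ (a - k) * ε * y) ∈ Q := by
      rw [e]; exact Q.mul_mem_right _ hz
    have h2 : u - π ^ (a - k) * ε * y ∈ Q := by
      rcases hQ.mem_or_mem h1 with h3 | h3
      · exact absurd (hQ.mem_of_pow_mem k h3) hπQ
      · exact h3
    have : u ∈ maximalIdeal B := by
      have e2 : u = (u - π ^ (a - k) * ε * y) + π ^ (a - k) * ε * y := by ring
      rw [e2]
      exact (maximalIdeal B).add_mem (hQm h2) ((maximalIdeal B).mul_mem_left _ hym)
    exact (IsLocalRing.mem_maximalIdeal _).1 this hu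
  have hid : (x - π ^ a * ε) * y = -(π ^ a * ε * (y - π ^ (k - a) * (ε' * u))) := by
    have e1 : π ^ k = π ^ a * π ^ (k - a) := by
      rw [← pow_add]; congr 1; omega
    calc (x - π ^ a * ε) * y = x * y - π ^ a * ε * y := by ring
      _ = π ^ k * u - π ^ a * ε * y := by rw [hxy]
      _ = π ^ a * π ^ (k - a) * u * 1 - π ^ a * ε * y := by rw [← e1, mul_one]
      _ = π ^ a * π ^ (k - a) * u * (ε * ε') - π ^ a * ε * y := by rw [hεε']
      _ = -(π ^ a * ε * (y - π ^ (k - a) * (ε' * u))) := by ring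
  have hz' : y - π ^ (k - a) * (ε' * u) ∈ Q := by
    have h1 : π ^ a * ε * (y - π ^ (k - a) * (ε' * u)) ∈ Q := by
      have : π ^ a * ε * (y - π ^ (k - a) * (ε' * u)) = -((x - π ^ a * ε) * y) := by
        rw [hid, neg_neg]
      rw [this]
      exact Q.neg_mem (Q.mul_mem_right _ hz)
    rcases hQ.mem_or_mem h1 with h2 | h2
    · rcases hQ.mem_or_mem h2 with h3 | h3
      · exact absurd (hQ.mem_of_pow_mem a h3) hπQ
      · exact absurd (Ideal.eq_top_of_isUnit_mem _ h3 hε) hQ.ne_top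
    · exact h2
  refine ⟨a, ε, ε', ha1, hak, hεε', ?_, hid⟩
  -- `J = (z, z')` satisfies `J + (π) = 𝔪`
  set J : Ideal B := Ideal.span {x - π ^ a * ε, y - π ^ (k - a) * (ε' * u)} with hJ
  have hJQ : J ≤ Q := by
    rw [hJ, Ideal.span_le]
    rintro t (rfl | rfl)
    · exact hz
    · exact hz'
  have hzJ : x - π ^ a * ε ∈ J := Ideal.subset_span (by simp)
  have hz'J : y - π ^ (k - a) * (ε' * u) ∈ J := Ideal.subset_span (by simp)
  have hπm : π ∈ maximalIdeal B := h.left_le h.pi_mem_left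
  have hJsup : J ⊔ Ideal.span {π} = maximalIdeal B := by
    refine le_antisymm ?_ ?_
    · refine sup_le (hJQ.trans hQm) ?_
      rw [Ideal.span_singleton_le_iff_mem]; exact hπm
    · intro b hb
      obtain ⟨α, β, γ, rfl⟩ := h.exists_decomp hxP hyP hx hy hb
      have hπs : π ∈ J ⊔ Ideal.span {π} :=
        Ideal.mem_sup_right (Ideal.mem_span_singleton_self π)
      have hπa : π ^ a ∈ J ⊔ Ideal.span {π} := Ideal.pow_mem_of_mem _ hπs a (by omega)
      have hπka : π ^ (k - a) ∈ J ⊔ Ideal.span {π} :=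
        Ideal.pow_mem_of_mem _ hπs (k - a) (by omega)
      have hxs : x ∈ J ⊔ Ideal.span {π} := by
        have : x = (x - π ^ a * ε) + π ^ a * ε := by ring
        rw [this]
        exact Ideal.add_mem _ (Ideal.mem_sup_left hzJ) (Ideal.mul_mem_right _ _ hπa)
      have hys : y ∈ J ⊔ Ideal.span {π} := by
        have : y = (y - π ^ (k - a) * (ε' * u)) + π ^ (k - a) * (ε' * u) := by ring
        rw [this]
        exact Ideal.add_mem _ (Ideal.mem_sup_left hz'J) (Ideal.mul_mem_right _ _ hπka)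
      exact Ideal.add_mem _ (Ideal.add_mem _ (Ideal.mul_mem_left _ _ hxs)
        (Ideal.mul_mem_left _ _ hys)) (Ideal.mul_mem_left _ _ hπs)
  exact eq_of_sup_span hJsup Q hJQ hπQ

/-- **LNC (b)**: the local equation `z` of a section `Q` through a node in standard form. -/
theorem IsNode.section_unif (h : IsNode π P1 P2) {k : ℕ} {x y u : B} (hk : 1 ≤ k)
    (hxP : x ∈ P2) (hyP : y ∈ P1) (hu : IsUnit u) (hxy : x * y = π ^ k * u)
    (hx : Irreducible (Ideal.Quotient.mk P1 x)) (hy : Irreducible (Ideal.Quotient.mk P2 y))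
    (Q : Ideal B) [hQ : Q.IsPrime] (hπQ : π ∉ Q)
    (hsec : Q ⊔ Ideal.span {π} = maximalIdeal B) :
    ∃ z ∈ Q, (∀ q ∈ Q, ∃ s c : B, s ∉ Q ∧ q * s = z * c) ∧
      (∀ Q' : Ideal B, Q'.IsPrime → z ∈ Q' → π ∉ Q' → Q' = Q) ∧
      Ideal.Quotient.mk P1 z = Ideal.Quotient.mk P1 x ∧ z ∈ P2 ∧ z ∉ P1 ∧
      (∃ (a : ℕ) (w : B), 1 ≤ a ∧ a < k ∧ w ∉ P2 ∧ z * y = π ^ a * w) := by
  obtain ⟨a, ε, ε', ha1, hak, hεε', hQeq, hid⟩ :=
    h.section_explicit hk hxP hyP hu hxy hx hy Q hπQ hsec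
  have hε : IsUnit ε := IsUnit.of_mul_eq_one _ hεε'
  have hzQ : x - π ^ a * ε ∈ Q := by
    rw [hQeq]; exact Ideal.subset_span (by simp)
  have hπa1 : π ^ a ∈ P1 := P1.pow_mem_of_mem h.pi_mem_left a (by omega)
  have hπa2 : π ^ a ∈ P2 := P2.pow_mem_of_mem h.pi_mem_right a (by omega)
  have hmk : Ideal.Quotient.mk P1 (x - π ^ a * ε) = Ideal.Quotient.mk P1 x := by
    rw [map_sub, Ideal.Quotient.eq_zero_iff_mem.2 (P1.mul_mem_right _ hπa1), sub_zero]
  have hπsQ : π ^ a * ε ∉ Q := by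
    intro hmem
    rcases hQ.mem_or_mem hmem with h3 | h3
    · exact hπQ (hQ.mem_of_pow_mem a h3)
    · exact hQ.ne_top (Ideal.eq_top_of_isUnit_mem _ h3 hε)
  refine ⟨x - π ^ a * ε, hzQ, ?_, ?_, hmk, ?_, ?_, ?_⟩
  · intro q hq
    rw [hQeq] at hq
    obtain ⟨c1, c2, rfl⟩ := Ideal.mem_span_pair.1 hq
    refine ⟨π ^ a * ε, c1 * (π ^ a * ε) - c2 * y, hπsQ, ?_⟩
    have : (c1 * (x - π ^ a * ε) + c2 * (y - π ^ (k - a) * (ε' * u))) * (π ^ a * ε)
        = (x - π ^ a * ε) * (c1 * (π ^ a * ε))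
          + c2 * (π ^ a * ε * (y - π ^ (k - a) * (ε' * u))) := by ring
    rw [this]
    have e2 : π ^ a * ε * (y - π ^ (k - a) * (ε' * u)) = -((x - π ^ a * ε) * y) := by
      rw [hid, neg_neg]
    rw [e2]; ring
  · intro Q' hQ' hzQ' hπQ'
    haveI := hQ'
    -- `z' ∈ Q'`
    have hz' : y - π ^ (k - a) * (ε' * u) ∈ Q' := by
      have h1 : π ^ a * ε * (y - π ^ (k - a) * (ε' * u)) ∈ Q' := by
        have : π ^ a * ε * (y - π ^ (k - a) * (ε' * u)) = -((x - π ^ a * ε) * y) := by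
          rw [hid, neg_neg]
        rw [this]
        exact Q'.neg_mem (Q'.mul_mem_right _ hzQ')
      rcases hQ'.mem_or_mem h1 with h2 | h2
      · rcases hQ'.mem_or_mem h2 with h3 | h3
        · exact absurd (hQ'.mem_of_pow_mem a h3) hπQ'
        · exact absurd (Ideal.eq_top_of_isUnit_mem _ h3 hε) hQ'.ne_top
      · exact h2
    have hJQ' : Q ≤ Q' := by
      rw [hQeq, Ideal.span_le]
      rintro t (rfl | rfl)
      · exact hzQ'
      · exact hz'
    exact eq_of_sup_span hsec Q' hJQ' hπQ'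
  · exact P2.sub_mem hxP (P2.mul_mem_right _ hπa2)
  · intro hmem
    have := Ideal.Quotient.eq_zero_iff_mem.2 hmem
    rw [hmk] at this
    exact hx.ne_zero this
  · refine ⟨a, π ^ (k - a) * u - ε * y, ha1, hak, ?_, ?_⟩
    · intro hw
      have hπka : π ^ (k - a) ∈ P2 := P2.pow_mem_of_mem h.pi_mem_right (k - a) (by omega)
      have h1 : ε * y ∈ P2 := by
        have : ε * y = π ^ (k - a) * u - (π ^ (k - a) * u - ε * y) := by ring
        rw [this]
        exact P2.sub_mem (P2.mul_mem_right _ hπka) hw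
      rcases hP2.mem_or_mem h1 with h2 | h2
      · exact hP2.ne_top (Ideal.eq_top_of_isUnit_mem _ h2 hε)
      · exact hy.ne_zero (Ideal.Quotient.eq_zero_iff_mem.2 h2)
    · have e1 : π ^ k = π ^ a * π ^ (k - a) := by
        rw [← pow_add]; congr 1; omega
      have : (x - π ^ a * ε) * y = x * y - π ^ a * ε * y := by ring
      rw [this, hxy, e1]; ring

end node

end H9LNC
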