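/-
Item 82 (S34), helper4's slice table v1, slice **(LOC) node half**, helper9: the Mathlib-only core.

`B` a Noetherian integrally closed local domain with fraction field `F`, with a transversal node
`πB = P1 ∩ P2` and a vertical pair `g·g' = π^j`.  If `f ∈ Fˣ` is, at every horizontal height-one
prime `Q` (`π ∉ Q`), an `n`-th power times a unit of `B_Q`, and every horizontal height-one prime
at which `f` is not a unit is a section (`Q + πB = 𝔪`), then there is `z ∈ Fˣ` with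
`π^m·(f/z^n) ∈ B` and `π^m·(f/z^n)⁻¹ ∈ B` for some `m`  ("`div(f/z^n)` is vertical").
-/
import Fermat.Agent.S34.LNCSec_helper9
import Fermat.Agent.S34.Krull_helper27

set_option autoImplicit false
set_option linter.style.haveILetI false
set_option linter.unusedSectionVars false
set_option linter.unusedVariables false

namespace H9LNC

open IsLocalRing H27KR

section unitloc

variable {B : Type*} [CommRing B] [IsDomain B]
  {F : Type*} [Field F] [Algebra B F] [IsFractionRing B F]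

theorem one_notMem_of_prime (Q : Ideal B) [hQ : Q.IsPrime] : (1 : B) ∉ Q :=
  fun h => hQ.ne_top ((Ideal.eq_top_iff_one Q).2 h)

theorem algebraMap_ne_zero_of_ne_zero {b : B} (hb : b ≠ 0) : algebraMap B F b ≠ 0 := by
  intro h
  exact hb ((IsFractionRing.injective B F) (by rw [h, map_zero]))

theorem unitLoc_one (Q : Ideal B) [hQ : Q.IsPrime] : UnitLoc Q (1 : F) :=
  ⟨1, 1, one_notMem_of_prime Q, one_notMem_of_prime Q, by simp⟩

theorem unitLoc_algebraMap (Q : Ideal B) [hQ : Q.IsPrime] {b : B} (hb : b ∉ Q) :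
    UnitLoc Q (algebraMap B F b) :=
  ⟨b, 1, hb, one_notMem_of_prime Q, by simp⟩

theorem unitLoc_mul (Q : Ideal B) [hQ : Q.IsPrime] {x y : F} (hx : UnitLoc Q x)
    (hy : UnitLoc Q y) : UnitLoc Q (x * y) := by
  obtain ⟨a, s, ha, hs, h1⟩ := hx
  obtain ⟨a', s', ha', hs', h2⟩ := hy
  refine ⟨a * a', s * s', fun h => ?_, fun h => ?_, ?_⟩
  · rcases hQ.mem_or_mem h with h | h
    · exact ha h
    · exact ha' h
  · rcases hQ.mem_or_mem h with h | h
    · exact hs h
    · exact hs' h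
  · rw [map_mul, map_mul, ← h1, ← h2]; ring

theorem unitLoc_pow (Q : Ideal B) [hQ : Q.IsPrime] {x : F} (hx : UnitLoc Q x) (n : ℕ) :
    UnitLoc Q (x ^ n) := by
  induction n with
  | zero => rw [pow_zero]; exact unitLoc_one Q
  | succ n ih => rw [pow_succ]; exact unitLoc_mul Q ih hx

theorem unitLoc_zpow (Q : Ideal B) [hQ : Q.IsPrime] {x : F} (hx : UnitLoc Q x) (n : ℤ) :
    UnitLoc Q (x ^ n) := by
  rcases Int.eq_nat_or_neg n with ⟨k, rfl | rfl⟩
  · rw [zpow_natCast]; exact unitLoc_pow Q hx k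
  · rw [zpow_neg, zpow_natCast]; exact (unitLoc_pow Q hx k).inv

theorem unitLoc_div (Q : Ideal B) [hQ : Q.IsPrime] {x y : F} (hx : UnitLoc Q x)
    (hy : UnitLoc Q y) : UnitLoc Q (x / y) := by
  rw [div_eq_mul_inv]; exact unitLoc_mul Q hx hy.inv

theorem unitLoc_prod (Q : Ideal B) [hQ : Q.IsPrime] {ι : Type*} (s : Finset ι) (g : ι → F)
    (h : ∀ i ∈ s, UnitLoc Q (g i)) : UnitLoc Q (∏ i ∈ s, g i) :=
  Finset.prod_induction g (fun x => UnitLoc Q x) (fun _ _ hx hy => unitLoc_mul Q hx hy)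
    (unitLoc_one Q) h

theorem inLoc_algebraMap_mul (Q : Ideal B) {x : F} (hx : InLoc Q x) (b : B) :
    InLoc Q (algebraMap B F b * x) := by
  obtain ⟨a, s, hs, h1⟩ := hx
  exact ⟨b * a, s, hs, by rw [map_mul, ← h1]; ring⟩

/-- if `x = ϖ^e·unit` at `Q` and `m + e ≥ 0` then `ϖ^m x ∈ B_Q` -/
theorem inLoc_of_zpow (Q : Ideal B) [hQ : Q.IsPrime] {ϖ : B} (hϖ : ϖ ≠ 0) {x : F} {e : ℤ}
    (hx : UnitLoc Q (x / (algebraMap B F ϖ) ^ e)) (m : ℕ) (hm : 0 ≤ (m : ℤ) + e) :
    InLoc Q ((algebraMap B F ϖ) ^ m * x) := by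
  have hϖF : algebraMap B F ϖ ≠ 0 := algebraMap_ne_zero_of_ne_zero hϖ
  obtain ⟨k, hk⟩ := Int.eq_ofNat_of_zero_le hm
  have e1 : (algebraMap B F ϖ) ^ m * x
      = algebraMap B F (ϖ ^ k) * (x / (algebraMap B F ϖ) ^ e) := by
    rw [map_pow, ← zpow_natCast (algebraMap B F ϖ) k, ← hk, zpow_add₀ hϖF, zpow_natCast]
    have : (algebraMap B F ϖ) ^ e ≠ 0 := zpow_ne_zero _ hϖF
    field_simp
  rw [e1]
  exact inLoc_algebraMap_mul Q hx.inLoc _

end unitloc

section dvr

variable {B : Type*} [CommRing B] [IsDomain B] [IsNoetherianRing B]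
  {F : Type*} [Field F] [Algebra B F] [IsFractionRing B F]

/-- `B_Q` is a DVR with uniformizer `z`: every nonzero `b ∈ B` is `z^m·unit` at `Q` -/
theorem exists_pow_mul_unit_at (Q : Ideal B) [hQ : Q.IsPrime] {z : B} (hzQ : z ∈ Q)
    (hgen : ∀ q ∈ Q, ∃ s c : B, s ∉ Q ∧ q * s = z * c) {b : B} (hb : b ≠ 0) :
    ∃ (m : ℕ) (a s : B), a ∉ Q ∧ s ∉ Q ∧ b * s = z ^ m * a := by
  by_contra hcon
  have hall : ∀ m : ℕ, ∃ a s : B, s ∉ Q ∧ b * s = z ^ m * a := by
    intro m
    induction m with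
    | zero => exact ⟨b, 1, one_notMem_of_prime Q, by simp⟩
    | succ m ih =>
      obtain ⟨a, s, hs, h1⟩ := ih
      have ha : a ∈ Q := by
        by_contra ha
        exact hcon ⟨m, a, s, ha, hs, h1⟩
      obtain ⟨s', c, hs', h2⟩ := hgen a ha
      refine ⟨c, s * s', fun h => ?_, ?_⟩
      · rcases hQ.mem_or_mem h with h | h
        · exact hs h
        · exact hs' h
      · calc b * (s * s') = b * s * s' := by ring
          _ = z ^ m * (a * s') := by rw [h1]; ring
          _ = z ^ (m + 1) * c := by rw [h2, pow_succ]; ring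
  -- pass to the localization
  let L := Localization.AtPrime Q
  have hzL : algebraMap B L z ∈ maximalIdeal L :=
    (IsLocalization.AtPrime.to_map_mem_maximal_iff L Q z).2 hzQ
  have hne : Ideal.span {algebraMap B L z} ≠ (⊤ : Ideal L) := by
    intro h
    have hle : Ideal.span {algebraMap B L z} ≤ maximalIdeal L := by
      rw [Ideal.span_singleton_le_iff_mem]; exact hzL
    rw [h] at hle
    exact (IsLocalRing.maximalIdeal.isMaximal L).ne_top (top_le_iff.1 hle)
  have hK := Ideal.iInf_pow_eq_bot_of_isLocalRing (Ideal.span {algebraMap B L z}) hne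
  have hmem : algebraMap B L b ∈ (⨅ i : ℕ, Ideal.span {algebraMap B L z} ^ i : Ideal L) := by
    rw [Ideal.mem_iInf]
    intro m
    obtain ⟨a, s, hs, h1⟩ := hall m
    have hsu : IsUnit (algebraMap B L s) :=
      IsLocalization.map_units L (⟨s, hs⟩ : Q.primeCompl)
    obtain ⟨t, ht⟩ := hsu.exists_right_inv
    rw [Ideal.span_singleton_pow, Ideal.mem_span_singleton]
    refine ⟨algebraMap B L a * t, ?_⟩
    calc algebraMap B L b = algebraMap B L b * (algebraMap B L s * t) := by rw [ht, mul_one]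
      _ = algebraMap B L (b * s) * t := by rw [map_mul]; ring
      _ = algebraMap B L z ^ m * (algebraMap B L a * t) := by
          rw [h1, map_mul, map_pow]; ring
  rw [hK, Ideal.mem_bot] at hmem
  have hinj : Function.Injective (algebraMap B L) :=
    IsLocalization.injective L Q.primeCompl_le_nonZeroDivisors
  exact hb (hinj (by rw [hmem, map_zero]))

/-- `B_Q` is a DVR with uniformizer `z`: every `w ∈ Fˣ` is `z^m·unit` at `Q`, `m ∈ ℤ` -/
theorem exists_zpow_unitLoc (Q : Ideal B) [hQ : Q.IsPrime] {z : B} (hz0 : z ≠ 0) (hzQ : z ∈ Q)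
    (hgen : ∀ q ∈ Q, ∃ s c : B, s ∉ Q ∧ q * s = z * c) {w : F} (hw : w ≠ 0) :
    ∃ m : ℤ, UnitLoc Q (w / (algebraMap B F z) ^ m) := by
  obtain ⟨c, d, hd0, hwcd⟩ := IsFractionRing.div_surjective (A := B) w
  have hd : d ≠ 0 := nonZeroDivisors.ne_zero hd0
  have hc : c ≠ 0 := by
    rintro rfl
    rw [map_zero, zero_div] at hwcd
    exact hw hwcd.symm
  have hzF : algebraMap B F z ≠ 0 := algebraMap_ne_zero_of_ne_zero hz0
  have hdF : algebraMap B F d ≠ 0 := algebraMap_ne_zero_of_ne_zero hd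
  obtain ⟨mc, ac, sc, hac, hsc, h1⟩ := exists_pow_mul_unit_at Q hzQ hgen hc
  obtain ⟨md, ad, sd, had, hsd, h2⟩ := exists_pow_mul_unit_at Q hzQ hgen hd
  have h1F : algebraMap B F c * algebraMap B F sc
      = algebraMap B F z ^ mc * algebraMap B F ac := by
    rw [← map_mul, h1, map_mul, map_pow]
  have h2F : algebraMap B F d * algebraMap B F sd
      = algebraMap B F z ^ md * algebraMap B F ad := by
    rw [← map_mul, h2, map_mul, map_pow]
  have hadF : algebraMap B F ad ≠ 0 :=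
    algebraMap_ne_zero_of_ne_zero (fun h => had (h ▸ Q.zero_mem))
  have hscF : algebraMap B F sc ≠ 0 :=
    algebraMap_ne_zero_of_ne_zero (fun h => hsc (h ▸ Q.zero_mem))
  refine ⟨(mc : ℤ) - (md : ℤ), ac * sd, ad * sc, fun h => ?_, fun h => ?_, ?_⟩
  · rcases hQ.mem_or_mem h with h | h
    · exact hac h
    · exact hsd h
  · rcases hQ.mem_or_mem h with h | h
    · exact had h
    · exact hsc h
  · rw [← hwcd, zpow_sub₀ hzF, zpow_natCast, zpow_natCast, map_mul, map_mul]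
    have hzc : algebraMap B F z ^ mc ≠ 0 := pow_ne_zero _ hzF
    have hzd : algebraMap B F z ^ md ≠ 0 := pow_ne_zero _ hzF
    field_simp
    linear_combination (algebraMap B F z ^ md * algebraMap B F ad) * h1F
      - (algebraMap B F z ^ mc * algebraMap B F ac) * h2F

end dvr

section node

variable {B : Type*} [CommRing B] [IsDomain B] [IsLocalRing B] [IsNoetherianRing B]
  {F : Type*} [Field F] [Algebra B F] [IsFractionRing B F]
  {π : B} {P1 P2 : Ideal B} [hP1 : P1.IsPrime] [hP2 : P2.IsPrime]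

/-- the two branches of a node are different -/
theorem IsNode.not_le (h : IsNode π P1 P2) : ¬ P2 ≤ P1 := by
  intro hle
  have h1 : P1 = maximalIdeal B := by
    rw [← h.sup_eq]; exact (sup_eq_left.2 hle).symm
  haveI := h.dvr1
  have hmax : P1.IsMaximal := h1 ▸ IsLocalRing.maximalIdeal.isMaximal B
  have hf : IsField (B ⧸ P1) := (Ideal.Quotient.maximal_ideal_iff_isField_quotient P1).1 hmax
  exact IsDiscreteValuationRing.not_isField (B ⧸ P1) hf

/-- `π` generates `P1` locally at `P1` -/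
theorem IsNode.gen_left (h : IsNode π P1 P2) :
    ∀ p ∈ P1, ∃ s c : B, s ∉ P1 ∧ p * s = π * c := by
  intro p hp
  obtain ⟨s, hs2, hs1⟩ := Set.not_subset.1 h.not_le
  obtain ⟨c, hc⟩ := h.dvd_of_mem (P1.mul_mem_right s hp) (P2.mul_mem_left p hs2)
  exact ⟨s, c, hs1, hc⟩

/-- the vertical height-one primes are `P1` and `P2` -/
theorem IsNode.eq_of_pi_mem (h : IsNode π P1 P2) (hπ0 : π ≠ 0) (Q : Ideal B) [hQ : Q.IsPrime]
    (hht : Q.height = 1) (hπQ : π ∈ Q) : Q = P1 ∨ Q = P2 := by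
  have hle : P1 ⊓ P2 ≤ Q := by
    rw [← h.span_eq, Ideal.span_singleton_le_iff_mem]; exact hπQ
  have key : ∀ P : Ideal B, P.IsPrime → π ∈ P → P ≤ Q → Q = P := by
    intro P hP hπP hPQ
    by_contra hne
    have hlt : P < Q := lt_of_le_of_ne hPQ (fun e => hne e.symm)
    haveI := hP
    have h1 : P.height < Q.height := Ideal.height_strict_mono_of_isPrime_of_isPrime hlt
    rw [hht, Order.lt_one_iff, Ideal.height_eq_zero_iff_eq_bot] at h1
    rw [h1] at hπP
    exact hπ0 ((Ideal.mem_bot).1 hπP)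
  rcases (Ideal.IsPrime.inf_le hQ).1 hle with h1 | h2
  · exact Or.inl (key P1 hP1 h.pi_mem_left h1)
  · exact Or.inr (key P2 hP2 h.pi_mem_right h2)

/-- **(LOC) node half, Mathlib-only core.** -/
theorem IsNode.loc_core [IsIntegrallyClosed B] (h : IsNode π P1 P2)
    {g g' : B} {j : ℕ} (hj : 1 ≤ j) (hgg : g * g' = π ^ j) (hg : g ∉ P1) (hg' : g' ∉ P2)
    (n : ℕ) (f : F) (hf : f ≠ 0)
    (hloc : ∀ Q : Ideal B, Q.IsPrime → Q.height = 1 → π ∉ Q → ∃ (w : F) (a s : B),
      a ∉ Q ∧ s ∉ Q ∧ f * algebraMap B F s = w ^ n * algebraMap B F a)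
    (hsec : ∀ Q : Ideal B, Q.IsPrime → Q.height = 1 → π ∉ Q → ¬ UnitLoc Q f →
      Q ⊔ Ideal.span {π} = maximalIdeal B) :
    ∃ z : F, z ≠ 0 ∧ ∃ m : ℕ,
      (algebraMap B F π) ^ m * (f / z ^ n) ∈ (algebraMap B F).range ∧
      (algebraMap B F π) ^ m * (f / z ^ n)⁻¹ ∈ (algebraMap B F).range := by
  classical
  have hπ0 : π ≠ 0 := h.pi_ne_zero hj hgg hg hg'
  obtain ⟨k, x, y, u, hk, -, hxP, hyP, hu, hxy, hx, hy⟩ := h.structure hj hgg hg hg'
  -- the bad set
  set S : Set (Ideal B) :=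
    {Q | Q.IsPrime ∧ Q.height = 1 ∧ π ∉ Q ∧ ¬ UnitLoc Q f} with hSdef
  have hSfin : S.Finite := by
    obtain ⟨c, d, hd0, hfcd⟩ := IsFractionRing.div_surjective (A := B) f
    have hd : d ≠ 0 := nonZeroDivisors.ne_zero hd0
    have hc : c ≠ 0 := by
      rintro rfl
      rw [map_zero, zero_div] at hfcd
      exact hf hfcd.symm
    have hdF : algebraMap B F d ≠ 0 := algebraMap_ne_zero_of_ne_zero hd
    have hsub : S ⊆ (Ideal.span {c}).minimalPrimes ∪ (Ideal.span {d}).minimalPrimes := by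
      rintro Q ⟨hQ, hht, -, hnu⟩
      haveI := hQ
      have hmin : ∀ e : B, e ≠ 0 → e ∈ Q → Q ∈ (Ideal.span {e}).minimalPrimes := by
        intro e he heQ
        refine Ideal.mem_minimalPrimes_of_height_le
          ((Ideal.span_singleton_le_iff_mem Q).2 heQ) ?_
        rw [hht, Order.one_le_iff_pos, pos_iff_ne_zero]
        intro h0
        rw [Ideal.height_eq_zero_iff_eq_bot, Ideal.span_singleton_eq_bot] at h0
        exact he h0
      by_cases hcQ : c ∈ Q
      · exact Or.inl (hmin c hc hcQ)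
      · by_cases hdQ : d ∈ Q
        · exact Or.inr (hmin d hd hdQ)
        · exfalso
          exact hnu ⟨c, d, hcQ, hdQ, by rw [← hfcd]; field_simp⟩
    exact ((Ideal.finite_minimalPrimes_of_isNoetherianRing B _).union
      (Ideal.finite_minimalPrimes_of_isNoetherianRing B _)).subset hsub
  -- local data at the bad primes
  have key : ∀ Q : Ideal B, ∃ (zQ : B) (mQ : ℤ), zQ ≠ 0 ∧ (Q ∈ S →
      (∀ Q' : Ideal B, Q'.IsPrime → zQ ∈ Q' → π ∉ Q' → Q' = Q) ∧
      UnitLoc Q (f / ((algebraMap B F zQ) ^ mQ) ^ n)) := by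
    intro Q
    by_cases hQS : Q ∈ S
    · obtain ⟨hQ, hht, hπQ, hnu⟩ := hQS
      haveI := hQ
      have hs := hsec Q hQ hht hπQ hnu
      obtain ⟨z, hzQ, hgen, huniq, -, -, hz1, -⟩ :=
        h.section_unif hk hxP hyP hu hxy hx hy Q hπQ hs
      have hz0 : z ≠ 0 := fun h0 => hz1 (h0 ▸ P1.zero_mem)
      obtain ⟨w, a, s, ha, hs', hw⟩ := hloc Q hQ hht hπQ
      have hsF : algebraMap B F s ≠ 0 :=
        algebraMap_ne_zero_of_ne_zero (fun h0 => hs' (h0 ▸ Q.zero_mem))
      have hw0 : w ≠ 0 := by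
        rintro rfl
        by_cases hn : n = 0
        · subst hn
          rw [pow_zero, one_mul] at hw
          exact hnu ⟨a, s, ha, hs', hw⟩
        · rw [zero_pow hn, zero_mul] at hw
          rcases mul_eq_zero.1 hw with h0 | h0
          · exact hf h0
          · exact hsF h0
      obtain ⟨m, hm⟩ := exists_zpow_unitLoc (F := F) Q hz0 hzQ hgen hw0
      refine ⟨z, m, hz0, fun _ => ⟨huniq, ?_⟩⟩
      have hzF : algebraMap B F z ≠ 0 := algebraMap_ne_zero_of_ne_zero hz0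
      have e1 : f / ((algebraMap B F z) ^ m) ^ n
          = (f / w ^ n) * (w / (algebraMap B F z) ^ m) ^ n := by
        have : (algebraMap B F z) ^ m ≠ 0 := zpow_ne_zero _ hzF
        have hwn : w ^ n ≠ 0 := pow_ne_zero _ hw0
        rw [div_pow]
        field_simp
      rw [e1]
      refine unitLoc_mul Q ⟨a, s, ha, hs', ?_⟩ (unitLoc_pow Q hm n)
      have hwn : w ^ n ≠ 0 := pow_ne_zero _ hw0
      rw [div_mul_eq_mul_div, hw]
      field_simp
    · exact ⟨1, 0, one_ne_zero, fun hh => absurd hh hQS⟩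
  choose zf mf hzf0 hprop using key
  set T : Finset (Ideal B) := hSfin.toFinset with hT
  set Z : F := ∏ Q ∈ T, (algebraMap B F (zf Q)) ^ (mf Q) with hZ
  have hfac0 : ∀ Q : Ideal B, (algebraMap B F (zf Q)) ^ (mf Q) ≠ 0 := fun Q =>
    zpow_ne_zero _ (algebraMap_ne_zero_of_ne_zero (hzf0 Q))
  have hZ0 : Z ≠ 0 := Finset.prod_ne_zero_iff.2 (fun Q _ => hfac0 Q)
  -- units away from the own prime
  have hfacU : ∀ (Q' : Ideal B) [Q'.IsPrime], π ∉ Q' → ∀ Q ∈ T, Q ≠ Q' →
      UnitLoc Q' ((algebraMap B F (zf Q)) ^ (mf Q)) := by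
    intro Q' hQ' hπQ' Q hQT hne
    have hQS : Q ∈ S := (Set.Finite.mem_toFinset hSfin).1 hQT
    refine unitLoc_zpow Q' (unitLoc_algebraMap Q' ?_) _
    intro hmem
    exact hne ((hprop Q hQS).1 Q' hQ' hmem hπQ').symm
  -- `f / Z^n` is a unit at all horizontal height-one primes
  have hhor : ∀ Q' : Ideal B, Q'.IsPrime → Q'.height = 1 → π ∉ Q' → UnitLoc Q' (f / Z ^ n) := by
    intro Q' hQ' hht hπQ'
    haveI := hQ'
    by_cases hQS : Q' ∈ S
    · have hQT : Q' ∈ T := (Set.Finite.mem_toFinset hSfin).2 hQS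
      have hZe : Z = (algebraMap B F (zf Q')) ^ (mf Q')
          * ∏ Q ∈ T.erase Q', (algebraMap B F (zf Q)) ^ (mf Q) :=
        (Finset.mul_prod_erase T _ hQT).symm
      have hrest : UnitLoc Q' (∏ Q ∈ T.erase Q', (algebraMap B F (zf Q)) ^ (mf Q)) :=
        unitLoc_prod Q' _ _ (fun Q hQ =>
          hfacU Q' hπQ' Q (Finset.mem_of_mem_erase hQ) (Finset.ne_of_mem_erase hQ))
      have e1 : f / Z ^ n = (f / ((algebraMap B F (zf Q')) ^ (mf Q')) ^ n)
          * ((∏ Q ∈ T.erase Q', (algebraMap B F (zf Q)) ^ (mf Q)) ^ n)⁻¹ := by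
        rw [hZe, mul_pow, div_mul_eq_div_div, div_eq_mul_inv _ (_ ^ n)]
      rw [e1]
      exact unitLoc_mul Q' (hprop Q' hQS).2 (unitLoc_pow Q' hrest n).inv
    · have hfu : UnitLoc Q' f := by
        by_contra hnu
        exact hQS ⟨hQ', hht, hπQ', hnu⟩
      have hZu : UnitLoc Q' Z :=
        unitLoc_prod Q' _ _ (fun Q hQ => hfacU Q' hπQ' Q hQ (fun e => hQS (e ▸
          (Set.Finite.mem_toFinset hSfin).1 hQ)))
      exact unitLoc_div Q' hfu (unitLoc_pow Q' hZu n)
  -- vertical primes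
  have hh0 : f / Z ^ n ≠ 0 := div_ne_zero hf (pow_ne_zero _ hZ0)
  obtain ⟨e1, he1⟩ := exists_zpow_unitLoc (F := F) P1 hπ0 h.pi_mem_left h.gen_left hh0
  obtain ⟨e2, he2⟩ := exists_zpow_unitLoc (F := F) P2 hπ0 h.symm.pi_mem_left h.symm.gen_left hh0
  have hinv : ∀ (P : Ideal B) (e : ℤ), UnitLoc P ((f / Z ^ n) / (algebraMap B F π) ^ e) →
      UnitLoc P ((f / Z ^ n)⁻¹ / (algebraMap B F π) ^ (-e)) := by
    intro P e hu'
    have : (f / Z ^ n)⁻¹ / (algebraMap B F π) ^ (-e)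
        = ((f / Z ^ n) / (algebraMap B F π) ^ e)⁻¹ := by
      simp only [zpow_neg, div_eq_mul_inv, mul_inv_rev, inv_inv]
      ring
    rw [this]
    exact hu'.inv
  refine ⟨Z, hZ0, e1.natAbs + e2.natAbs, ?_, ?_⟩
  · refine mem_range_of_forall_height_one _ (fun Q hQ hht => ?_)
    haveI := hQ
    by_cases hπQ : π ∈ Q
    · rcases h.eq_of_pi_mem hπ0 Q hht hπQ with rfl | rfl
      · exact inLoc_of_zpow Q hπ0 he1 _ (by omega)
      · exact inLoc_of_zpow Q hπ0 he2 _ (by omega)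
    · rw [← map_pow]
      exact inLoc_algebraMap_mul Q (hhor Q hQ hht hπQ).inLoc _
  · refine mem_range_of_forall_height_one _ (fun Q hQ hht => ?_)
    haveI := hQ
    by_cases hπQ : π ∈ Q
    · rcases h.eq_of_pi_mem hπ0 Q hht hπQ with rfl | rfl
      · exact inLoc_of_zpow Q hπ0 (hinv Q e1 he1) _ (by omega)
      · exact inLoc_of_zpow Q hπ0 (hinv Q e2 he2) _ (by omega)
    · rw [← map_pow]
      exact inLoc_algebraMap_mul Q (hhor Q hQ hht hπQ).inv.inLoc _

end node

end H9LNC
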