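/-
Item 82 (S34), slice (LOC) node half, helper9: **LocNode for an abstract local ring `B`**.

`R` a DVR with uniformizer `ϖ`, `K = Frac R`, `F / K` a field, `B` a noetherian integrally closed
local domain with `R → B → F`, `Frac B = F`, with a transversal node `ϖB = P1 ∩ P2` and a vertical
pair.  If `n ∣ V.ord f` for all places `V` of `F / K` and the places in the support of `div f`
are `K`-rational, then `f = (unit of B[1/ϖ]) · zⁿ`.
-/
import Fermat.Agent.S34.LocNode_helper9
import Fermat.Agent.S34.KRPlace_helper25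

set_option autoImplicit false
set_option linter.style.haveILetI false
set_option linter.unusedSectionVars false
set_option linter.unusedVariables false

namespace H9LNC

open IsLocalRing H27KR AlgebraicCurve

section locprincipal

variable {B : Type*} [CommRing B] [IsDomain B] [IsNoetherianRing B]

/-- a finitely generated ideal inside a locally principal prime has a common denominator -/
theorem exists_common_denominator (Q : Ideal B) [hQ : Q.IsPrime] {t : B}
    (hgen : ∀ d ∈ Q, ∃ s : B, s ∉ Q ∧ ∃ y : B, s * d = y * t) (G : Finset B) :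
    (∀ g ∈ G, g ∈ Q) → ∃ u : B, u ∉ Q ∧ ∀ b ∈ Ideal.span (G : Set B), ∃ c : B, u * b = c * t := by
  classical
  induction G using Finset.induction_on with
  | empty =>
    intro _
    refine ⟨1, one_notMem_of_prime Q, fun b hb => ?_⟩
    rw [Finset.coe_empty, Ideal.span_empty, Ideal.mem_bot] at hb
    exact ⟨0, by rw [hb]; ring⟩
  | insert g G hg ih =>
    intro hmem
    obtain ⟨u', hu', hgen'⟩ := ih (fun x hx => hmem x (Finset.mem_insert_of_mem hx))
    obtain ⟨s, hs, y, hsy⟩ := hgen g (hmem g (Finset.mem_insert_self g G))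
    refine ⟨u' * s, fun h => ?_, fun b hb => ?_⟩
    · rcases hQ.mem_or_mem h with h | h
      · exact hu' h
      · exact hs h
    · rw [Finset.coe_insert, Ideal.mem_span_insert] at hb
      obtain ⟨r, b', hb', rfl⟩ := hb
      obtain ⟨c', hc'⟩ := hgen' b' hb'
      refine ⟨u' * r * y + s * c', ?_⟩
      calc u' * s * (r * g + b') = u' * r * (s * g) + s * (u' * b') := by ring
        _ = (u' * r * y + s * c') * t := by rw [hsy, hc']; ring

/-- a height-one prime of a noetherian integrally closed domain is locally principal -/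
theorem isLocPrincipal_of_height_one [IsIntegrallyClosed B] (Q : Ideal B) [hQ : Q.IsPrime]
    (hht : Q.height = 1) : ∃ a u : B, a ≠ 0 ∧ H25KR.IsLocPrincipal Q a u := by
  obtain ⟨t, htQ, hgen⟩ := H27KR.exists_local_generator Q hht
  have hQ0 : Q ≠ ⊥ := by
    intro h0
    rw [h0, Ideal.height_bot] at hht
    exact zero_ne_one hht
  have ht0 : t ≠ 0 := by
    rintro rfl
    apply hQ0
    rw [Submodule.eq_bot_iff]
    intro d hd
    obtain ⟨s, hs, y, hsy⟩ := hgen d hd
    rw [mul_zero] at hsy
    rcases mul_eq_zero.1 hsy with h | h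
    · exact absurd (h ▸ Q.zero_mem) hs
    · exact h
  obtain ⟨G, hG⟩ := (IsNoetherian.noetherian Q : Q.FG)
  have hGQ : ∀ g ∈ G, g ∈ Q := fun g hg => by
    rw [← hG]; exact Ideal.subset_span hg
  obtain ⟨u, hu, hall⟩ := exists_common_denominator Q hgen G hGQ
  refine ⟨t, u, ht0, ⟨htQ, hu, fun b hb => ?_⟩⟩
  apply hall
  have : Ideal.span (G : Set B) = Q := hG
  rw [this]; exact hb

end locprincipal

section generic

variable {R : Type*} [CommRing R] [IsDomain R] [IsDiscreteValuationRing R]
  {K : Type*} [Field K] [Algebra R K] [IsFractionRing R K]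
  {F : Type*} [Field F] [Algebra K F] [Algebra R F] [IsScalarTower R K F]
  {B : Type*} [CommRing B] [IsDomain B] [IsNoetherianRing B]
  [Algebra B F] [IsFractionRing B F] [Algebra R B] [IsScalarTower R B F]

theorem algebraMap_RBF (r : R) :
    algebraMap B F (algebraMap R B r) = algebraMap K F (algebraMap R K r) := by
  rw [← IsScalarTower.algebraMap_apply R B F, ← IsScalarTower.algebraMap_apply R K F]

/-- nonzero elements of `R` are units at a horizontal prime -/
theorem algebraMap_notMem_of_horizontal {ϖ : R} (hϖ : Irreducible ϖ) (Q : Ideal B)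
    [hQ : Q.IsPrime] (hπQ : algebraMap R B ϖ ∉ Q) {s : R} (hs : s ≠ 0) :
    algebraMap R B s ∉ Q := by
  obtain ⟨i, v, rfl⟩ := IsDiscreteValuationRing.eq_unit_mul_pow_irreducible hs hϖ
  intro hmem
  rw [map_mul, map_pow] at hmem
  rcases hQ.mem_or_mem hmem with h | h
  · exact hQ.ne_top (Ideal.eq_top_of_isUnit_mem _ h (v.isUnit.map _))
  · exact hπQ (hQ.mem_of_pow_mem i h)

/-- `K ⊆ B_Q` for a horizontal prime `Q` -/
theorem algebraMap_mem_valSub_of_horizontal {ϖ : R} (hϖ : Irreducible ϖ) {Q : Ideal B}
    [hQ : Q.IsPrime] {a u : B} (h : H25KR.IsLocPrincipal Q a u)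
    (hπQ : algebraMap R B ϖ ∉ Q) (k : K) : algebraMap K F k ∈ H25KR.valSub F Q h := by
  obtain ⟨r, s, hs, hk⟩ := IsFractionRing.div_surjective (A := R) k
  have hs0 : s ≠ 0 := nonZeroDivisors.ne_zero hs
  have hsK : algebraMap R K s ≠ 0 := by
    intro h0
    exact hs0 ((IsFractionRing.injective R K) (by rw [h0, map_zero]))
  rw [H25KR.mem_valSub_iff]
  refine ⟨algebraMap R B r, algebraMap R B s, algebraMap_notMem_of_horizontal hϖ Q hπQ hs0, ?_⟩
  have e1 : algebraMap B F (algebraMap R B s) = algebraMap K F (algebraMap R K s) :=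
    algebraMap_RBF s
  have e2 : algebraMap B F (algebraMap R B r) = algebraMap K F (algebraMap R K r) :=
    algebraMap_RBF r
  rw [e1, e2, ← map_mul]
  congr 1
  rw [← hk]
  field_simp

variable [IsLocalRing B] [IsIntegrallyClosed B]

/-- **Br3, generic**: the centre on `B` of a `K`-rational horizontal place is a section -/
theorem section_of_rational {ϖ : R} (hϖ : Irreducible ϖ)
    (hπm : algebraMap R B ϖ ∈ maximalIdeal B) {Q : Ideal B}
    [hQ : Q.IsPrime] {a u : B} (h : H25KR.IsLocPrincipal Q a u) (ha0 : a ≠ 0)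
    (hK : ∀ k : K, algebraMap K F k ∈ H25KR.valSub F Q h)
    (hrat : ∀ x : F, 0 ≤ (H25KR.placeOf h K ha0 hK).ord x →
      ∃ c : K, x = algebraMap K F c ∨
        0 < (H25KR.placeOf h K ha0 hK).ord (x - algebraMap K F c)) :
    Q ⊔ Ideal.span {algebraMap R B ϖ} = maximalIdeal B := by
  set V := H25KR.placeOf h K ha0 hK with hV
  have hinjB : Function.Injective (algebraMap B F) := IsFractionRing.injective B F
  have hQm : Q ≤ maximalIdeal B := IsLocalRing.le_maximalIdeal hQ.ne_top
  -- `ord ≥ 0` on `B`
  have hnonneg : ∀ b : B, 0 ≤ V.ord (algebraMap B F b) := by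
    intro b
    by_cases hb : b = 0
    · rw [hb, map_zero, Place.ord_zero]
    · obtain ⟨n, s, c, hs, hc, e⟩ := H25KR.exists_pow h b hb
      rw [H25KR.ord_placeOf h ha0 hK hs hc e]
      exact Int.natCast_nonneg n
  have hpos : ∀ b : B, 0 < V.ord (algebraMap B F b) → b ∈ Q := by
    intro b hb
    have hb0 : b ≠ 0 := by
      rintro rfl
      rw [map_zero, Place.ord_zero] at hb
      exact lt_irrefl _ hb
    exact (H25KR.ord_placeOf_pos_iff h ha0 hK hb0).1 hb
  -- non-units of `R` map into `(π)`
  have hnonunit : ∀ r : R, ¬ IsUnit r → algebraMap R B r ∈ Ideal.span {algebraMap R B ϖ} := by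
    intro r hr
    have : r ∈ maximalIdeal R := (IsLocalRing.mem_maximalIdeal _).2 hr
    rw [hϖ.maximalIdeal_eq, Ideal.mem_span_singleton] at this
    obtain ⟨r', rfl⟩ := this
    rw [map_mul]
    exact Ideal.mul_mem_right _ _ (Ideal.mem_span_singleton_self _)
  have hπspan : Ideal.span {algebraMap R B ϖ} ≤ maximalIdeal B := by
    rw [Ideal.span_singleton_le_iff_mem]; exact hπm
  refine le_antisymm (sup_le hQm hπspan) ?_
  intro b hb
  obtain ⟨c, hc⟩ := hrat (algebraMap B F b) (hnonneg b)
  -- `c ∈ R`
  have hcR : ∃ r : R, algebraMap R K r = c := by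
    by_cases hc0 : c = 0
    · exact ⟨0, by rw [map_zero, hc0]⟩
    rcases ValuationRing.isInteger_or_isInteger R c with hi | hi
    · exact hi
    · obtain ⟨r', hr'⟩ := hi
      by_cases hu : IsUnit r'
      · obtain ⟨v, hv⟩ := hu.exists_right_inv
        refine ⟨v, ?_⟩
        have h1 : algebraMap R K r' * algebraMap R K v = 1 := by rw [← map_mul, hv, map_one]
        rw [hr'] at h1
        calc algebraMap R K v = c * (c⁻¹ * algebraMap R K v) := by
              rw [← mul_assoc, mul_inv_cancel₀ hc0, one_mul]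
          _ = c := by rw [h1, mul_one]
      · exfalso
        have hρ' : algebraMap R B r' ∈ maximalIdeal B := hπspan (hnonunit r' hu)
        have hρ'F : algebraMap B F (algebraMap R B r') = (algebraMap K F c)⁻¹ := by
          rw [algebraMap_RBF (K := K) r', hr', map_inv₀]
        have hcF : algebraMap K F c ≠ 0 := (map_ne_zero _).2 hc0
        have hy : algebraMap B F (algebraMap R B r' * b - 1)
            = (algebraMap K F c)⁻¹ * (algebraMap B F b - algebraMap K F c) := by
          rw [map_sub, map_mul, map_one, hρ'F]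
          field_simp
        have hyQ : algebraMap R B r' * b - 1 ∈ maximalIdeal B := by
          rcases hc with hc | hc
          · have h0 : algebraMap B F (algebraMap R B r' * b - 1) = 0 := by
              rw [hy, hc, sub_self, mul_zero]
            have h0' : algebraMap R B r' * b - 1 = 0 := hinjB (by rw [h0, map_zero])
            rw [h0']; exact zero_mem _
          · have hne : algebraMap B F b - algebraMap K F c ≠ 0 := by
              intro h0
              rw [h0, Place.ord_zero] at hc
              exact lt_irrefl _ hc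
            apply hQm
            apply hpos
            rw [hy, V.ord_mul (inv_ne_zero hcF) hne]
            have h1 : 0 ≤ V.ord (algebraMap K F c)⁻¹ := by
              rw [← hρ'F]; exact hnonneg _
            omega
        have h1 : (1 : B) ∈ maximalIdeal B := by
          have : (1 : B) = algebraMap R B r' * b - (algebraMap R B r' * b - 1) := by ring
          rw [this]
          exact sub_mem (Ideal.mul_mem_left _ _ hb) hyQ
        exact (IsLocalRing.mem_maximalIdeal _).1 h1 isUnit_one
  obtain ⟨r, rfl⟩ := hcR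
  have hρF : algebraMap B F (algebraMap R B r) = algebraMap K F (algebraMap R K r) :=
    algebraMap_RBF r
  have hdiff : b - algebraMap R B r ∈ Q := by
    rcases hc with hc | hc
    · have : b = algebraMap R B r := hinjB (by rw [hρF]; exact hc)
      rw [this, sub_self]; exact Q.zero_mem
    · apply hpos
      rw [map_sub, hρF]; exact hc
  have hρm : algebraMap R B r ∈ maximalIdeal B := by
    have : algebraMap R B r = b - (b - algebraMap R B r) := by ring
    rw [this]; exact sub_mem hb (hQm hdiff)
  have hrnu : ¬ IsUnit r := fun hu => (IsLocalRing.mem_maximalIdeal _).1 hρm (hu.map _)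
  have e : b = (b - algebraMap R B r) + algebraMap R B r := by ring
  rw [e]
  exact Ideal.add_mem _ (Ideal.mem_sup_left hdiff) (Ideal.mem_sup_right (hnonunit r hrnu))

/-- **(LOC) node half for an abstract local ring `B`**. -/
theorem loc_node_generic {ϖ : R} (hϖ : Irreducible ϖ) {P1 P2 : Ideal B}
    [hP1 : P1.IsPrime] [hP2 : P2.IsPrime] (h : IsNode (algebraMap R B ϖ) P1 P2)
    {g g' : B} {j : ℕ} (hj : 1 ≤ j) (hgg : g * g' = (algebraMap R B ϖ) ^ j)
    (hg : g ∉ P1) (hg' : g' ∉ P2) (n : ℕ) (f : F) (hf : f ≠ 0)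
    (hdiv : ∀ V : Place K F, (n : ℤ) ∣ V.ord f)
    (hrat : ∀ V : Place K F, V.ord f ≠ 0 → ∀ x : F, 0 ≤ V.ord x →
      ∃ c : K, x = algebraMap K F c ∨ 0 < V.ord (x - algebraMap K F c)) :
    ∃ z : F, z ≠ 0 ∧ ∃ m : ℕ,
      (algebraMap B F (algebraMap R B ϖ)) ^ m * (f / z ^ n) ∈ (algebraMap B F).range ∧
      (algebraMap B F (algebraMap R B ϖ)) ^ m * (f / z ^ n)⁻¹ ∈ (algebraMap B F).range := by
  have hπm : algebraMap R B ϖ ∈ maximalIdeal B := h.left_le h.pi_mem_left
  refine h.loc_core hj hgg hg hg' n f hf ?_ ?_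
  · intro Q hQ hht hπQ
    haveI := hQ
    obtain ⟨a, u, ha0, hlp⟩ := isLocPrincipal_of_height_one Q hht
    have hK : ∀ k : K, algebraMap K F k ∈ H25KR.valSub F Q hlp :=
      algebraMap_mem_valSub_of_horizontal hϖ hlp hπQ
    obtain ⟨z, c, s, hz0, hc, hs, hfs⟩ :=
      H25KR.exists_unit_mul_pow_of_dvd_ord hlp ha0 hK hf (hdiv (H25KR.placeOf hlp K ha0 hK))
    exact ⟨z, c, s, hc, hs, by rw [hfs, mul_comm]⟩
  · intro Q hQ hht hπQ hnu
    haveI := hQ
    obtain ⟨a, u, ha0, hlp⟩ := isLocPrincipal_of_height_one Q hht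
    have hK : ∀ k : K, algebraMap K F k ∈ H25KR.valSub F Q hlp :=
      algebraMap_mem_valSub_of_horizontal hϖ hlp hπQ
    have hord : (H25KR.placeOf hlp K ha0 hK).ord f ≠ 0 := by
      intro h0
      have hdvd : ((0 : ℕ) : ℤ) ∣ (H25KR.placeOf hlp K ha0 hK).ord f := by
        rw [h0]; exact dvd_zero _
      obtain ⟨z, c, s, hz0, hc, hs, hfs⟩ :=
        H25KR.exists_unit_mul_pow_of_dvd_ord hlp ha0 hK hf hdvd
      rw [pow_zero, mul_one] at hfs
      exact hnu ⟨c, s, hc, hs, hfs⟩
    exact section_of_rational hϖ hπm hlp ha0 hK (hrat _ hord)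

end generic

end H9LNC
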