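/-
Item 82 (S34), slice (LOC) node half, helper9: **element-form node data ⟹ `H9LNC.IsNode`**.

`M` a domain, `𝔫` a prime, `B` a localization of `M` at `𝔫` (noetherian local domain).
Element-form node data on `M` at `𝔫` (the `M`-form of `H4S34.NodeAt`) give a transversal node
`ϖB = P₁B ∩ P₂B` of `B` in the sense of `H9LNC.IsNode`, with a vertical pair.
-/
import Fermat.Agent.S34.LNCCore_helper9

set_option autoImplicit false
set_option linter.style.haveILetI false
set_option linter.unusedSectionVars false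
set_option linter.unusedVariables false

namespace H9LNC

open IsLocalRing

/-- element form of a transversal node with a vertical pair, on a ring `M` at a prime `𝔫` -/
structure NodeData {M : Type*} [CommRing M] (𝔫 : Ideal M) (ϖ : M) (P₁ P₂ : Ideal M) : Prop where
  prime1 : P₁.IsPrime
  prime2 : P₂.IsPrime
  le1 : P₁ ≤ 𝔫
  le2 : P₂ ≤ 𝔫
  pi1 : ϖ ∈ P₁
  pi2 : ϖ ∈ P₂
  inter : ∀ y : M, y ∈ P₁ → y ∈ P₂ → ∃ a s : M, s ∉ 𝔫 ∧ s * y = a * ϖ
  sup : ∀ y ∈ 𝔫, ∃ s : M, s ∉ 𝔫 ∧ s * y ∈ P₁ ⊔ P₂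
  unif1 : ∃ x ∈ 𝔫, x ∉ P₁ ∧ ∀ y ∈ 𝔫, ∃ s c : M, s ∉ 𝔫 ∧ s * y - c * x ∈ P₁
  unif2 : ∃ x ∈ 𝔫, x ∉ P₂ ∧ ∀ y ∈ 𝔫, ∃ s c : M, s ∉ 𝔫 ∧ s * y - c * x ∈ P₂
  vert : ∃ (a a' s s' : M) (j : ℕ), 1 ≤ j ∧ s ∉ 𝔫 ∧ s' ∉ 𝔫 ∧ a ∉ P₁ ∧ a' ∉ P₂ ∧
    a * a' = ϖ ^ j * (s * s')

section

variable {M : Type*} [CommRing M] [IsDomain M] (𝔫 : Ideal M) [h𝔫 : 𝔫.IsPrime]
  (B : Type*) [CommRing B] [IsDomain B] [Algebra M B] [IsLocalization.AtPrime B 𝔫]
  [IsLocalRing B] [IsNoetherianRing B]

theorem loc_unit {s : M} (hs : s ∉ 𝔫) : IsUnit (algebraMap M B s) :=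
  IsLocalization.map_units B (⟨s, hs⟩ : 𝔫.primeCompl)

include h𝔫 in
theorem loc_inj (_h : IsLocalization.AtPrime B 𝔫) : Function.Injective (algebraMap M B) :=
  IsLocalization.injective B (Ideal.primeCompl_le_nonZeroDivisors 𝔫)

/-- membership in an extended ideal -/
theorem mem_map_iff (P : Ideal M) (b : B) :
    b ∈ P.map (algebraMap M B) ↔ ∃ p s : M, p ∈ P ∧ s ∉ 𝔫 ∧ b * algebraMap M B s = algebraMap M B p := by
  rw [IsLocalization.mem_map_algebraMap_iff 𝔫.primeCompl B]
  constructor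
  · rintro ⟨⟨p, s⟩, h⟩
    exact ⟨p.1, s.1, p.2, s.2, h⟩
  · rintro ⟨p, s, hp, hs, h⟩
    exact ⟨⟨⟨p, hp⟩, ⟨s, hs⟩⟩, h⟩

/-- contraction of the extension of a prime inside `𝔫` -/
theorem mem_of_map_mem {P : Ideal M} (hP : P.IsPrime) (hle : P ≤ 𝔫) {a : M}
    (ha : algebraMap M B a ∈ P.map (algebraMap M B)) : a ∈ P := by
  obtain ⟨p, s, hp, hs, h⟩ := (mem_map_iff 𝔫 B P _).1 ha
  rw [← map_mul] at h
  have h' : a * s = p := loc_inj 𝔫 B inferInstance h
  have : a * s ∈ P := h' ▸ hp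
  rcases hP.mem_or_mem this with h1 | h1
  · exact h1
  · exact absurd (hle h1) hs

theorem map_isPrime {P : Ideal M} (hP : P.IsPrime) (hle : P ≤ 𝔫) :
    (P.map (algebraMap M B)).IsPrime := by
  refine IsLocalization.isPrime_of_isPrime_disjoint 𝔫.primeCompl B P hP ?_
  rw [Set.disjoint_left]
  intro s hs hsP
  exact hs (hle hsP)

theorem maximalIdeal_eq_map : maximalIdeal B = 𝔫.map (algebraMap M B) :=
  (IsLocalization.AtPrime.map_eq_maximalIdeal 𝔫 B).symm

/-- every element of the maximal ideal of `B` is `y/s` with `y ∈ 𝔫` -/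
theorem exists_of_mem_maximalIdeal {b : B} (hb : b ∈ maximalIdeal B) :
    ∃ y s : M, y ∈ 𝔫 ∧ s ∉ 𝔫 ∧ b * algebraMap M B s = algebraMap M B y := by
  rw [maximalIdeal_eq_map 𝔫 B] at hb
  exact (mem_map_iff 𝔫 B 𝔫 b).1 hb

/-- one branch of a node is a DVR -/
theorem dvr_of_unif {P : Ideal M} (hP : P.IsPrime) (hle : P ≤ 𝔫)
    (hun : ∃ x ∈ 𝔫, x ∉ P ∧ ∀ y ∈ 𝔫, ∃ s c : M, s ∉ 𝔫 ∧ s * y - c * x ∈ P) :
    haveI := map_isPrime 𝔫 B hP hle
    IsDiscreteValuationRing (B ⧸ P.map (algebraMap M B)) := by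
  haveI hPB := map_isPrime 𝔫 B hP hle
  obtain ⟨x, hx𝔫, hxP, hgen⟩ := hun
  set PB : Ideal B := P.map (algebraMap M B) with hPBdef
  haveI : Nontrivial (B ⧸ PB) := Ideal.Quotient.nontrivial_iff.2 hPB.ne_top
  haveI : IsLocalRing (B ⧸ PB) :=
    IsLocalRing.of_surjective' (Ideal.Quotient.mk PB) Ideal.Quotient.mk_surjective
  have hxmax : algebraMap M B x ∈ maximalIdeal B := by
    rw [maximalIdeal_eq_map 𝔫 B]; exact Ideal.mem_map_of_mem _ hx𝔫
  have hx0 : Ideal.Quotient.mk PB (algebraMap M B x) ≠ 0 := by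
    intro h0
    exact hxP (mem_of_map_mem 𝔫 B hP hle (Ideal.Quotient.eq_zero_iff_mem.1 h0))
  have hxnu : Ideal.Quotient.mk PB (algebraMap M B x) ∈ maximalIdeal (B ⧸ PB) := by
    rw [IsLocalRing.mem_maximalIdeal, mem_nonunits_iff, isUnit_mk_iff PB hPB.ne_top]
    exact (IsLocalRing.mem_maximalIdeal _).1 hxmax
  have hnf : ¬ IsField (B ⧸ PB) := by
    rw [IsLocalRing.isField_iff_maximalIdeal_eq]
    intro hbot
    rw [hbot, Ideal.mem_bot] at hxnu
    exact hx0 hxnu
  have hprinc : (maximalIdeal (B ⧸ PB)).IsPrincipal := by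
    refine ⟨⟨Ideal.Quotient.mk PB (algebraMap M B x), ?_⟩⟩
    refine le_antisymm ?_ ?_
    · intro d hd
      obtain ⟨b, rfl⟩ := Ideal.Quotient.mk_surjective d
      have hb : b ∈ maximalIdeal B := by
        rw [IsLocalRing.mem_maximalIdeal, mem_nonunits_iff] at hd ⊢
        rwa [isUnit_mk_iff PB hPB.ne_top] at hd
      obtain ⟨y, s, hy, hs, hbs⟩ := exists_of_mem_maximalIdeal 𝔫 B hb
      obtain ⟨s', c, hs', hmem⟩ := hgen y hy
      obtain ⟨t, ht⟩ := (loc_unit 𝔫 B hs).exists_right_inv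
      obtain ⟨t', ht'⟩ := (loc_unit 𝔫 B hs').exists_right_inv
      have hmemB : algebraMap M B (s' * y - c * x) ∈ PB := Ideal.mem_map_of_mem _ hmem
      have e1 : b = algebraMap M B y * t := by
        calc b = b * (algebraMap M B s * t) := by rw [ht, mul_one]
          _ = (b * algebraMap M B s) * t := by ring
          _ = algebraMap M B y * t := by rw [hbs]
      have e2 : b - algebraMap M B x * (algebraMap M B c * t * t')
          = algebraMap M B (s' * y - c * x) * (t * t') := by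
        rw [map_sub, map_mul, map_mul, e1]
        calc algebraMap M B y * t - algebraMap M B x * (algebraMap M B c * t * t')
            = algebraMap M B y * t * 1 - algebraMap M B x * (algebraMap M B c * t * t') := by
              rw [mul_one]
          _ = algebraMap M B y * t * (algebraMap M B s' * t')
              - algebraMap M B x * (algebraMap M B c * t * t') := by rw [ht']
          _ = (algebraMap M B s' * algebraMap M B y - algebraMap M B c * algebraMap M B x)
              * (t * t') := by ring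
      have hmem2 : b - algebraMap M B x * (algebraMap M B c * t * t') ∈ PB := by
        rw [e2]; exact PB.mul_mem_right _ hmemB
      rw [Submodule.mem_span_singleton]
      refine ⟨Ideal.Quotient.mk PB (algebraMap M B c * t * t'), ?_⟩
      rw [smul_eq_mul, ← map_mul, eq_comm, Ideal.Quotient.eq]
      have : b - algebraMap M B c * t * t' * algebraMap M B x
          = b - algebraMap M B x * (algebraMap M B c * t * t') := by ring
      rw [this]
      exact hmem2
    · rw [Submodule.span_le]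
      rintro d hd
      rw [Set.mem_singleton_iff] at hd
      rw [hd]
      exact hxnu
  exact ((IsDiscreteValuationRing.TFAE (B ⧸ PB) hnf).out 0 4).2 hprinc

/-- **element-form node data ⟹ `IsNode` on the localization**, with a vertical pair -/
theorem isNode_of_nodeData {ϖ : M} {P₁ P₂ : Ideal M} (hN : NodeData 𝔫 ϖ P₁ P₂) :
    ∃ (hp1 : (P₁.map (algebraMap M B)).IsPrime) (hp2 : (P₂.map (algebraMap M B)).IsPrime),
      @IsNode B _ _ (algebraMap M B ϖ) (P₁.map (algebraMap M B)) (P₂.map (algebraMap M B))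
        hp1 hp2 ∧
      ∃ (g g' : B) (j : ℕ), 1 ≤ j ∧ g * g' = (algebraMap M B ϖ) ^ j ∧
        g ∉ P₁.map (algebraMap M B) ∧ g' ∉ P₂.map (algebraMap M B) := by
  have hp1 := map_isPrime 𝔫 B hN.prime1 hN.le1
  have hp2 := map_isPrime 𝔫 B hN.prime2 hN.le2
  refine ⟨hp1, hp2, ⟨?_, ?_, dvr_of_unif 𝔫 B hN.prime1 hN.le1 hN.unif1,
    dvr_of_unif 𝔫 B hN.prime2 hN.le2 hN.unif2⟩, ?_⟩
  · -- `ϖ B = P₁B ∩ P₂B`
    refine le_antisymm ?_ ?_
    · rw [Ideal.span_singleton_le_iff_mem]
      exact ⟨Ideal.mem_map_of_mem _ hN.pi1, Ideal.mem_map_of_mem _ hN.pi2⟩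
    · rintro b ⟨hb1, hb2⟩
      obtain ⟨p1, s1, hp1', hs1, h1⟩ := (mem_map_iff 𝔫 B P₁ b).1 hb1
      obtain ⟨p2, s2, hp2', hs2, h2⟩ := (mem_map_iff 𝔫 B P₂ b).1 hb2
      have hy : p1 * s2 = p2 * s1 := by
        apply loc_inj 𝔫 B inferInstance
        rw [map_mul, map_mul, ← h1, ← h2]; ring
      have hy1 : p1 * s2 ∈ P₁ := P₁.mul_mem_right _ hp1'
      have hy2 : p1 * s2 ∈ P₂ := by rw [hy]; exact P₂.mul_mem_right _ hp2'
      obtain ⟨a, s, hs, hsa⟩ := hN.inter _ hy1 hy2
      obtain ⟨t1, ht1⟩ := (loc_unit 𝔫 B hs1).exists_right_inv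
      obtain ⟨t2, ht2⟩ := (loc_unit 𝔫 B hs2).exists_right_inv
      obtain ⟨t, ht⟩ := (loc_unit 𝔫 B hs).exists_right_inv
      rw [Ideal.mem_span_singleton]
      refine ⟨algebraMap M B a * (t1 * t2 * t), ?_⟩
      have hsaB : algebraMap M B s * (algebraMap M B p1 * algebraMap M B s2)
          = algebraMap M B a * algebraMap M B ϖ := by
        rw [← map_mul, ← map_mul, hsa, map_mul]
      calc b = b * ((algebraMap M B s1 * t1) * (algebraMap M B s2 * t2)
              * (algebraMap M B s * t)) := by rw [ht1, ht2, ht]; ring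
        _ = (algebraMap M B s * ((b * algebraMap M B s1) * algebraMap M B s2))
              * (t1 * t2 * t) := by ring
        _ = (algebraMap M B a * algebraMap M B ϖ) * (t1 * t2 * t) := by rw [h1, hsaB]
        _ = algebraMap M B ϖ * (algebraMap M B a * (t1 * t2 * t)) := by ring
  · -- `P₁B + P₂B = 𝔪`
    rw [maximalIdeal_eq_map 𝔫 B, ← Ideal.map_sup]
    refine le_antisymm (Ideal.map_mono (sup_le hN.le1 hN.le2)) ?_
    rw [Ideal.map_le_iff_le_comap]
    intro y hy
    obtain ⟨s, hs, hsy⟩ := hN.sup y hy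
    obtain ⟨t, ht⟩ := (loc_unit 𝔫 B hs).exists_right_inv
    rw [Ideal.mem_comap]
    have : algebraMap M B y = algebraMap M B (s * y) * t := by
      rw [map_mul]
      calc algebraMap M B y = algebraMap M B y * (algebraMap M B s * t) := by rw [ht, mul_one]
        _ = algebraMap M B s * algebraMap M B y * t := by ring
    rw [this]
    exact Ideal.mul_mem_right _ _ (Ideal.mem_map_of_mem _ hsy)
  · -- the vertical pair
    obtain ⟨a, a', s, s', j, hj, hs, hs', ha, ha', haa⟩ := hN.vert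
    obtain ⟨t, ht⟩ := (loc_unit 𝔫 B hs).exists_right_inv
    obtain ⟨t', ht'⟩ := (loc_unit 𝔫 B hs').exists_right_inv
    refine ⟨algebraMap M B a * t, algebraMap M B a' * t', j, hj, ?_, ?_, ?_⟩
    · calc algebraMap M B a * t * (algebraMap M B a' * t')
          = algebraMap M B (a * a') * (t * t') := by rw [map_mul]; ring
        _ = algebraMap M B ϖ ^ j * ((algebraMap M B s * t) * (algebraMap M B s' * t')) := by
            rw [haa, map_mul, map_pow, map_mul]; ring
        _ = algebraMap M B ϖ ^ j := by rw [ht, ht', mul_one, mul_one]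
    · intro hmem
      have h1 : algebraMap M B a ∈ P₁.map (algebraMap M B) := by
        have : algebraMap M B a = (algebraMap M B a * t) * algebraMap M B s := by
          calc algebraMap M B a = algebraMap M B a * (algebraMap M B s * t) := by
                rw [ht, mul_one]
            _ = (algebraMap M B a * t) * algebraMap M B s := by ring
        rw [this]
        exact Ideal.mul_mem_right _ _ hmem
      exact ha (mem_of_map_mem 𝔫 B hN.prime1 hN.le1 h1)
    · intro hmem
      have h1 : algebraMap M B a' ∈ P₂.map (algebraMap M B) := by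
        have : algebraMap M B a' = (algebraMap M B a' * t') * algebraMap M B s' := by
          calc algebraMap M B a' = algebraMap M B a' * (algebraMap M B s' * t') := by
                rw [ht', mul_one]
            _ = (algebraMap M B a' * t') * algebraMap M B s' := by ring
        rw [this]
        exact Ideal.mul_mem_right _ _ hmem
      exact ha' (mem_of_map_mem 𝔫 B hN.prime2 hN.le2 h1)

end

end H9LNC
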