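/-
Item 82 (S34), slice (LOC) node half, helper9: assembly of `H4S34.LocNodeStatement` from the
abstract theorem `H9LNC.loc_node_generic`, for ANY model `B` of the local ring `(M₀)_𝔫`
(`M₀ = H4S34.Chart R t`) carrying the bridge instances (Br1).
-/
import Fermat.Agent.S34.Defs_helper4
import Fermat.Agent.S34.NodeAt_helper9
import Fermat.Agent.S34.LocNodeGen_helper9

set_option autoImplicit false
set_option linter.style.haveILetI false
set_option linter.unusedSectionVars false
set_option linter.unusedVariables false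

namespace H9LNC

open H4S34 AlgebraicCurve

section conv

variable (R : Type) [CommRing R] {E : Type} [Field E] [Algebra R E]

/-- `H4S34.NodeAt` (element form in `E`) gives `NodeData` on the chart ring -/
theorem nodeData_of_nodeAt (ϖ : R) (hϖE : algebraMap R E ϖ ≠ 0) (t : E)
    (𝔫 : Ideal (Chart R t)) (ϖM : Chart R t) (hϖM : (ϖM : E) = algebraMap R E ϖ)
    (hN : NodeAt R ϖ t 𝔫) :
    ∃ P₁ P₂ : Ideal (Chart R t), NodeData 𝔫 ϖM P₁ P₂ := by
  obtain ⟨P₁, P₂, hp1, hp2, hle1, hle2, hpi, hinter, hsup, hun1, hun2, hvert⟩ := hN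
  refine ⟨P₁, P₂, ⟨hp1, hp2, hle1, hle2, (hpi ϖM hϖM).1, (hpi ϖM hϖM).2, ?_, hsup, hun1, hun2,
    ?_⟩⟩
  · intro y hy1 hy2
    obtain ⟨a, s, hs, hsa⟩ := hinter y hy1 hy2
    refine ⟨a, s, hs, ?_⟩
    apply Subtype.ext
    push_cast
    rw [hϖM]
    have : (s : E) * ((y : E) * (algebraMap R E ϖ)⁻¹) * algebraMap R E ϖ
        = (a : E) * algebraMap R E ϖ := by rw [hsa]
    rw [← this]
    field_simp
  · obtain ⟨a, a', s, s', j, hj, hs, hs', ha, ha', haa⟩ := hvert
    refine ⟨a, a', s, s', j, hj, hs, hs', ha, ha', ?_⟩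
    apply Subtype.ext
    push_cast
    rw [hϖM]
    exact haa

end conv

/-- **LocNode, modulo the bridge (Br1)**: for any model `B` of `(M₀)_𝔫` with the bridge
instances. -/
theorem locNode_of_bridge
    (R : Type) [CommRing R] [IsDomain R] [IsDiscreteValuationRing R]
    (K : Type) [Field K] [Algebra R K] [IsFractionRing R K]
    (F : Type) [Field F] [Algebra K F] [Algebra R F] [IsScalarTower R K F]
    (ϖ : R) (hϖ : Irreducible ϖ) (t : F)
    (n : ℕ) (f : F) (hf : f ≠ 0)
    (hdiv : ∀ V : Place K F, (n : ℤ) ∣ V.ord f)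
    (hrat : ∀ V : Place K F, V.ord f ≠ 0 → ∀ x : F, 0 ≤ V.ord x →
      ∃ c : K, x = algebraMap K F c ∨ 0 < V.ord (x - algebraMap K F c))
    (𝔫 : Ideal (Chart R t)) [h𝔫 : 𝔫.IsPrime] (hN : NodeAt R ϖ t 𝔫)
    (B : Type) [CommRing B] [IsDomain B] [IsLocalRing B] [IsNoetherianRing B]
    [IsIntegrallyClosed B] [Algebra (Chart R t) B] [IsLocalization.AtPrime B 𝔫]
    [Algebra B F] [IsFractionRing B F] [IsScalarTower (Chart R t) B F]
    (hIn : ∀ x : F, x ∈ (algebraMap B F).range → InLoc R t 𝔫 x) :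
    L1At R ϖ t 𝔫 n f := by
  have hϖE : algebraMap R F ϖ ≠ 0 := by
    rw [IsScalarTower.algebraMap_apply R K F]
    intro h0
    have h1 : algebraMap R K ϖ = 0 := (algebraMap K F).injective (by rw [h0, map_zero])
    exact hϖ.ne_zero ((IsFractionRing.injective R K) (by rw [h1, map_zero]))
  obtain ⟨P₁, P₂, hND⟩ :=
    nodeData_of_nodeAt R ϖ hϖE t 𝔫 (algebraMap R (Chart R t) ϖ) rfl hN
  obtain ⟨hp1, hp2, hnode, g, g', j, hj, hgg, hg, hg'⟩ := isNode_of_nodeData 𝔫 B hND
  letI : Algebra R B := ((algebraMap (Chart R t) B).comp (algebraMap R (Chart R t))).toAlgebra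
  have hRB : ∀ r : R, algebraMap R B r = algebraMap (Chart R t) B (algebraMap R (Chart R t) r) :=
    fun _ => rfl
  haveI : IsScalarTower R B F := IsScalarTower.of_algebraMap_eq (fun r => by
    rw [hRB, ← IsScalarTower.algebraMap_apply (Chart R t) B F,
      ← IsScalarTower.algebraMap_apply R (Chart R t) F])
  haveI := hp1
  haveI := hp2
  have hnode' : IsNode (algebraMap R B ϖ) (P₁.map (algebraMap (Chart R t) B))
      (P₂.map (algebraMap (Chart R t) B)) := hnode
  have hgg' : g * g' = (algebraMap R B ϖ) ^ j := hgg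
  obtain ⟨z, hz0, m, h1, h2⟩ :=
    loc_node_generic (K := K) (F := F) hϖ hnode' hj hgg' hg hg' n f hf hdiv hrat
  have hπF : algebraMap B F (algebraMap R B ϖ) = algebraMap R F ϖ :=
    (IsScalarTower.algebraMap_apply R B F ϖ).symm
  rw [hπF] at h1 h2
  rw [div_eq_mul_inv] at h1 h2
  exact ⟨z, hz0, m, hIn _ h1, hIn _ h2⟩

end H9LNC
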