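/-
Item 82 (S34), slice (LOC) node half, helper9: **`H4S34.LocNodeStatement`**.

Assembly: `H9LNC.locNode_of_bridge` (LNC (a)+(b), Krull/Hartogs, places of horizontal height-one
primes, rational ⇒ section) applied to helper22's concrete model `H22BR.Bsub` of the local ring
of the chart at `𝔫`.
-/
import Fermat.Agent.S34.LocNodeAsm_helper9
import Fermat.Agent.S34.LocBridge_helper22

set_option autoImplicit false
set_option linter.style.haveILetI false
set_option linter.unusedSectionVars false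
set_option linter.unusedVariables false
set_option synthInstance.maxHeartbeats 400000

namespace H9LNC

open H4S34 AlgebraicCurve

/-- **(LOC), node half.** -/
theorem locNodeStatement : H4S34.LocNodeStatement := by
  intro R _ _ _ K _ _ _ _ F _ _ _ _ ϖ hϖ t ht hfin n hn f hf hdiv hrat 𝔫 h𝔫 hN
  haveI : 𝔫.IsPrime := h𝔫.1.isPrime
  haveI := hfin
  haveI := H22BR.bsub_atPrime R K t 𝔫
  haveI := H22BR.bsub_tower R K t 𝔫
  haveI := H22BR.loc_isDomain R t 𝔫 (H22BR.Bsub R K t 𝔫)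
  haveI := H22BR.loc_isLocalRing R t 𝔫 (H22BR.Bsub R K t 𝔫)
  haveI := H22BR.loc_noeth R K ht 𝔫 (H22BR.Bsub R K t 𝔫)
  haveI := H22BR.loc_intClosed R K t 𝔫 (H22BR.Bsub R K t 𝔫)
  haveI := H22BR.loc_isFractionRing R K t 𝔫 (H22BR.Bsub R K t 𝔫)
  exact locNode_of_bridge R K F ϖ hϖ t n f hf hdiv hrat 𝔫 hN (H22BR.Bsub R K t 𝔫)
    (fun x hx => (H22BR.inLoc_iff R t 𝔫 (H22BR.Bsub R K t 𝔫) x).2 hx)

end H9LNC
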