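/-
helper21, item 82 (S34), slice (LOC): the BRIDGE "locally principal prime ↦ place".

`M` a noetherian domain with fraction field `F`, `P` a prime of `M` that is locally principal
(`H25KR.IsLocPrincipal P a u`, `a ≠ 0`), `K` a field with `K → F` landing in `M_P`.  Then
`M_P = H25KR.valSub F P h` is a discrete valuation ring, hence a `Place K F`:

* `H21PB.placeOf`            : the place, `toValuationSubring = valSub F P h` (by `rfl`);
* `H21PB.ord_of_nmem`        : `ord s = 0` for `s ∉ P`;
* `H21PB.ord_unif`           : `ord a = 1`;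
* `H21PB.ord_eq`             : `f · s · a^l = c · a^k`, `s, c ∉ P`  ⟹  `ord f = k - l`;
* `H21PB.exists_repr`        : every `f ≠ 0` has such a representation;
* `H21PB.exists_pow_of_dvd`  : `n ∣ ord f` ⟹ `f · s = wⁿ · c` with `s, c ∉ P`
                               (the local hypothesis of `H5CA.h5ca_reg_kummer`);
* `H21PB.ord_eq_zero_iff`    : `ord f = 0 ↔ f · s = c` for some `s, c ∉ P`.
-/
import Mathlib
import Fermat.Prelude.Def_AlgebraicCurve_DivisorClassGroup
import Fermat.Agent.S34.KR_helper25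

set_option autoImplicit false
set_option linter.unusedSectionVars false
set_option linter.unusedVariables false
set_option linter.style.haveILetI false

noncomputable section

namespace H21PB

open AlgebraicCurve H25KR

variable {M : Type*} [CommRing M] [IsDomain M] [IsNoetherianRing M]
variable {F : Type*} [Field F] [Algebra M F] [IsFractionRing M F]
variable {P : Ideal M} [hP : P.IsPrime] {a u : M} (h : IsLocPrincipal P a u)

omit [IsNoetherianRing M] in
theorem map_ne_zero' {x : M} (hx : x ≠ 0) : algebraMap M F x ≠ 0 :=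
  fun h0 => hx (IsFractionRing.injective M F (by rw [h0, map_zero]))

omit [IsDomain M] [IsNoetherianRing M] hP in
theorem ne_zero_of_nmem {s : M} (hs : s ∉ P) : s ≠ 0 := fun h0 => hs (h0 ▸ P.zero_mem)

/-- the unit of `M_P` attached to an element outside `P` -/
def unitOf {s : M} (hs : s ∉ P) : (valSub F P h)ˣ where
  val := ⟨algebraMap M F s, algebraMap_mem_valSub h s⟩
  inv := ⟨(algebraMap M F s)⁻¹, inv_algebraMap_mem_valSub h hs⟩
  val_inv := Subtype.ext (mul_inv_cancel₀ (map_ne_zero' (ne_zero_of_nmem hs)))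
  inv_val := Subtype.ext (inv_mul_cancel₀ (map_ne_zero' (ne_zero_of_nmem hs)))

@[simp] theorem coe_unitOf {s : M} (hs : s ∉ P) :
    (((unitOf (F := F) h hs : (valSub F P h)ˣ) : valSub F P h) : F) = algebraMap M F s := rfl

/-- the uniformizer `a` as an element of `M_P` -/
def unif : valSub F P h := ⟨algebraMap M F a, algebraMap_mem_valSub h a⟩

@[simp] theorem coe_unif : ((unif (F := F) h : valSub F P h) : F) = algebraMap M F a := rfl

theorem unif_not_isUnit (ha0 : a ≠ 0) : ¬ IsUnit (unif (F := F) h) := by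
  intro hu
  have h1 : algebraMap M F a ∈ (valSub F P h).nonunits :=
    (algebraMap_mem_nonunits_iff h a).2 h.mem
  rw [ValuationSubring.mem_nonunits_iff_or] at h1
  obtain ⟨v, hv⟩ := isUnit_iff_exists_inv.1 hu
  have h2 : algebraMap M F a * (v : F) = 1 := by
    have := congrArg (fun z : valSub F P h => (z : F)) hv
    simpa using this
  have hinv : (algebraMap M F a)⁻¹ ∈ valSub F P h := by
    rw [inv_eq_of_mul_eq_one_right h2]
    exact v.2
  rcases h1 with h0 | h1
  · exact map_ne_zero' ha0 h0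
  · exact h1 hinv

theorem unif_irreducible (ha0 : a ≠ 0) : Irreducible (unif (F := F) h) := by
  refine ⟨unif_not_isUnit h ha0, ?_⟩
  intro x y hxy
  by_contra hcon
  rw [not_or] at hcon
  obtain ⟨hx, hy⟩ := hcon
  have hxn : (x : F) ∈ (valSub F P h).nonunits := by
    rw [ValuationSubring.coe_mem_nonunits_iff]
    exact hx
  have hyn : (y : F) ∈ (valSub F P h).nonunits := by
    rw [ValuationSubring.coe_mem_nonunits_iff]
    exact hy
  obtain ⟨x', hx', ex⟩ := exists_eq_mul_of_mem_nonunits h hxn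
  obtain ⟨y', hy', ey⟩ := exists_eq_mul_of_mem_nonunits h hyn
  have haF : algebraMap M F a ≠ 0 := map_ne_zero' ha0
  have e1 : algebraMap M F a = (x : F) * (y : F) := by
    have := congrArg (fun z : valSub F P h => (z : F)) hxy
    simpa using this
  have e4 : algebraMap M F a = (algebraMap M F a * x') * (algebraMap M F a * y') := by
    rw [← ex, ← ey]; exact e1
  have e2 : algebraMap M F a * (x' * y') = 1 := by
    have e3 : algebraMap M F a * (algebraMap M F a * (x' * y')) = algebraMap M F a * 1 := by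
      linear_combination (-1 : F) * e4
    exact mul_left_cancel₀ haF e3
  apply unif_not_isUnit (F := F) h ha0
  refine isUnit_iff_exists_inv.2 ⟨⟨x' * y', (valSub F P h).mul_mem x' y' hx' hy'⟩, ?_⟩
  exact Subtype.ext e2

/-- every nonzero element of `M_P` is a unit times a power of `a` -/
theorem exists_associated (x : valSub F P h) (hx : x ≠ 0) :
    ∃ n : ℕ, Associated (unif (F := F) h ^ n) x := by
  obtain ⟨xv, m, s, hs, e⟩ := x
  have hxv : xv ≠ 0 := fun h0 => hx (Subtype.ext h0)
  have hs0 : algebraMap M F s ≠ 0 := map_ne_zero' (ne_zero_of_nmem hs)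
  have hm0 : m ≠ 0 := by
    rintro rfl
    rw [map_zero] at e
    exact (mul_ne_zero hxv hs0) e
  obtain ⟨n, s', c, hs', hc, e'⟩ := exists_pow h m hm0
  have hs'0 : algebraMap M F s' ≠ 0 := map_ne_zero' (ne_zero_of_nmem hs')
  refine ⟨n, unitOf h hc * (unitOf h hs')⁻¹ * (unitOf h hs)⁻¹, ?_⟩
  apply Subtype.ext
  have E : algebraMap M F s' * algebraMap M F m = algebraMap M F c * algebraMap M F a ^ n := by
    rw [← map_mul, e', map_mul, map_pow]
  have hinv1 : ((((unitOf (F := F) h hs')⁻¹ : (valSub F P h)ˣ) : valSub F P h) : F) =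
      (algebraMap M F s')⁻¹ := rfl
  have hinv2 : ((((unitOf (F := F) h hs)⁻¹ : (valSub F P h)ˣ) : valSub F P h) : F) =
      (algebraMap M F s)⁻¹ := rfl
  show ((unif (F := F) h ^ n * ((unitOf h hc * (unitOf h hs')⁻¹ * (unitOf h hs)⁻¹ :
      (valSub F P h)ˣ) : valSub F P h) : valSub F P h) : F) = xv
  push_cast
  rw [hinv1, hinv2, coe_unif, coe_unitOf]
  have : xv = algebraMap M F m / algebraMap M F s := by rw [eq_div_iff hs0, e]
  rw [this]
  field_simp
  linear_combination (-1 : F) * E

theorem hasFactorization (ha0 : a ≠ 0) :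
    IsDiscreteValuationRing.HasUnitMulPowIrreducibleFactorization (valSub F P h) :=
  ⟨unif h, unif_irreducible h ha0, fun {x} hx => exists_associated h x hx⟩

theorem isDVR (ha0 : a ≠ 0) : IsDiscreteValuationRing (valSub F P h) :=
  IsDiscreteValuationRing.ofHasUnitMulPowIrreducibleFactorization (hasFactorization h ha0)

theorem isPIR (ha0 : a ≠ 0) : IsPrincipalIdealRing (valSub F P h) :=
  haveI := isDVR (F := F) h ha0
  inferInstance

section place

variable (K : Type*) [Field K] [Algebra K F]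

/-- **the place of a locally principal prime** -/
def placeOf (ha0 : a ≠ 0) (hK : ∀ c : K, algebraMap K F c ∈ valSub F P h) : Place K F where
  toValuationSubring := valSub F P h
  algebraMap_mem' := hK
  ne_top' := valSub_ne_top h h.mem ha0
  isPrincipalIdealRing' := isPIR h ha0

variable {K}
variable (ha0 : a ≠ 0) (hK : ∀ c : K, algebraMap K F c ∈ valSub F P h)

@[simp] theorem placeOf_toValuationSubring :
    (placeOf h K ha0 hK).toValuationSubring = valSub F P h := rfl

theorem mem_placeOf_iff {x : F} :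
    x ∈ (placeOf h K ha0 hK).toValuationSubring ↔
      ∃ m s : M, s ∉ P ∧ x * algebraMap M F s = algebraMap M F m := Iff.rfl

theorem ord_of_nmem {s : M} (hs : s ∉ P) : (placeOf h K ha0 hK).ord (algebraMap M F s) = 0 :=
  (placeOf h K ha0 hK).ord_coe_unit (unitOf h hs)

theorem ord_unif : (placeOf h K ha0 hK).ord (algebraMap M F a) = 1 :=
  (placeOf h K ha0 hK).ord_coe_irreducible (π := unif h) (unif_irreducible h ha0)

theorem ord_pow' (x : F) (k : ℕ) :
    (placeOf h K ha0 hK).ord (x ^ k) = k * (placeOf h K ha0 hK).ord x := by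
  have := (placeOf h K ha0 hK).ord_zpow x (k : ℤ)
  rwa [zpow_natCast] at this

/-- `f · s · a^l = c · a^k` with `s, c ∉ P` gives `ord f = k - l` -/
theorem ord_eq {f : F} {s c : M} {k l : ℕ} (hs : s ∉ P) (hc : c ∉ P)
    (e : f * algebraMap M F s * algebraMap M F a ^ l = algebraMap M F c * algebraMap M F a ^ k) :
    (placeOf h K ha0 hK).ord f = (k : ℤ) - l := by
  have haF : algebraMap M F a ≠ 0 := map_ne_zero' ha0
  have hsF : algebraMap M F s ≠ 0 := map_ne_zero' (ne_zero_of_nmem hs)
  have hcF : algebraMap M F c ≠ 0 := map_ne_zero' (ne_zero_of_nmem hc)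
  have hf : f ≠ 0 := by
    rintro rfl
    rw [zero_mul, zero_mul] at e
    exact (mul_ne_zero hcF (pow_ne_zero k haF)) e.symm
  have e1 := congrArg (placeOf h K ha0 hK).ord e
  rw [Place.ord_mul _ (mul_ne_zero hf hsF) (pow_ne_zero l haF), Place.ord_mul _ hf hsF,
    Place.ord_mul _ hcF (pow_ne_zero k haF), ord_pow', ord_pow', ord_unif, ord_of_nmem h ha0 hK hs,
    ord_of_nmem h ha0 hK hc] at e1
  linarith

include h in
/-- every `f ≠ 0` is `(c / s) · a^(k - l)` with `s, c ∉ P` -/
theorem exists_repr {f : F} (hf : f ≠ 0) :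
    ∃ (s c : M) (k l : ℕ), s ∉ P ∧ c ∉ P ∧
      f * algebraMap M F s * algebraMap M F a ^ l = algebraMap M F c * algebraMap M F a ^ k := by
  obtain ⟨m₁, m₂, hm₂, rfl⟩ := IsFractionRing.div_surjective (A := M) f
  have hm₂0 : m₂ ≠ 0 := nonZeroDivisors.ne_zero hm₂
  have hm₁0 : m₁ ≠ 0 := by
    rintro rfl
    apply hf
    simp
  have hm₂K : algebraMap M F m₂ ≠ 0 := map_ne_zero' hm₂0
  obtain ⟨n₁, s₁, c₁, hs₁, hc₁, e₁⟩ := exists_pow h m₁ hm₁0
  obtain ⟨n₂, s₂, c₂, hs₂, hc₂, e₂⟩ := exists_pow h m₂ hm₂0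
  have E₁ : algebraMap M F s₁ * algebraMap M F m₁ = algebraMap M F c₁ * algebraMap M F a ^ n₁ := by
    rw [← map_mul, e₁, map_mul, map_pow]
  have E₂ : algebraMap M F s₂ * algebraMap M F m₂ = algebraMap M F c₂ * algebraMap M F a ^ n₂ := by
    rw [← map_mul, e₂, map_mul, map_pow]
  refine ⟨s₁ * c₂, c₁ * s₂, n₁, n₂, mul_nmem hs₁ hc₂, mul_nmem hc₁ hs₂, ?_⟩
  rw [map_mul, map_mul]
  field_simp
  linear_combination (algebraMap M F c₂ * algebraMap M F a ^ n₂) * E₁ -
    (algebraMap M F c₁ * algebraMap M F a ^ n₁) * E₂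

/-- `n ∣ ord f` gives the local hypothesis of `H5CA.h5ca_reg_kummer` at `P` -/
theorem exists_pow_of_dvd {n : ℕ} {f : F} (hf : f ≠ 0)
    (hdvd : (n : ℤ) ∣ (placeOf h K ha0 hK).ord f) :
    ∃ (w : F) (c s : M), w ≠ 0 ∧ c ∉ P ∧ s ∉ P ∧
      f * algebraMap M F s = w ^ n * algebraMap M F c := by
  have haF : algebraMap M F a ≠ 0 := map_ne_zero' ha0
  obtain ⟨s, c, k, l, hs, hc, e⟩ := exists_repr h hf
  have hord := ord_eq h ha0 hK hs hc e
  obtain ⟨d, hd⟩ := hdvd
  refine ⟨algebraMap M F a ^ d, c, s, zpow_ne_zero d haF, hc, hs, ?_⟩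
  have e2 : (algebraMap M F a ^ d) ^ n = algebraMap M F a ^ ((k : ℤ) - l) := by
    rw [← zpow_natCast, ← zpow_mul, mul_comm, ← hd, hord]
  rw [e2, zpow_sub₀ haF, zpow_natCast, zpow_natCast]
  field_simp
  linear_combination e

/-- `ord f = 0` iff `f` is a unit of `M_P` -/
theorem ord_eq_zero_iff {f : F} (hf : f ≠ 0) :
    (placeOf h K ha0 hK).ord f = 0 ↔
      ∃ s c : M, s ∉ P ∧ c ∉ P ∧ f * algebraMap M F s = algebraMap M F c := by
  constructor
  · intro h0
    obtain ⟨w, c, s, hw, hc, hs, e⟩ := exists_pow_of_dvd (n := 0) h ha0 hK hf (by rw [h0]; simp)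
    exact ⟨s, c, hs, hc, by rw [e, pow_zero, one_mul]⟩
  · rintro ⟨s, c, hs, hc, e⟩
    have := ord_eq (k := 0) (l := 0) h ha0 hK hs hc (by rw [pow_zero, mul_one, mul_one, e])
    simpa using this

end place

end H21PB
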