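/-
Item 82 (S34), slice (I6) "regular points" (helper5), pure commutative algebra, Mathlib only.

`B` noetherian local domain, `π ≠ 0` with `(π)` prime and `𝔪 = (π, t)` (i.e. `B/π` is a DVR or a
field: a REGULAR point of the special fibre).  Then
* every prime of height one is principal (Nakayama in `B/π`), so `B` is a UFD;
* an `h ∈ Fˣ` that is, at every height-one prime `Q`, an `n`-th power times a unit of `B_Q`
  (i.e. `n ∣ v_Q(h)`) is globally `gⁿ · u` with `u ∈ Bˣ`: the Kummer cover `F(h^{1/n})` is étale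
  over `B` (for `n ∈ Bˣ`).
-/
import Mathlib

set_option autoImplicit false
set_option linter.style.haveILetI false

noncomputable section

namespace H5CA

open IsLocalRing

section principal

variable {B : Type*} [CommRing B] [IsDomain B] [IsNoetherianRing B] [IsLocalRing B]

/-- in a noetherian local domain whose maximal ideal is `(π, t)` with `(π)` prime, the quotient
`B/π` is a principal ideal ring -/
theorem h5ca_quot_pir (π t : B) (hπ : (Ideal.span {π}).IsPrime)
    (hm : maximalIdeal B = Ideal.span {π, t}) :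
    IsPrincipalIdealRing (B ⧸ Ideal.span {π}) := by
  haveI : IsDomain (B ⧸ Ideal.span {π}) := Ideal.Quotient.isDomain _
  haveI : IsLocalRing (B ⧸ Ideal.span {π}) :=
    IsLocalRing.of_surjective' (Ideal.Quotient.mk (Ideal.span {π})) Ideal.Quotient.mk_surjective
  have hmax : maximalIdeal (B ⧸ Ideal.span {π})
      = Ideal.span {Ideal.Quotient.mk (Ideal.span {π}) t} := by
    apply le_antisymm
    · intro x hx
      obtain ⟨b, rfl⟩ := Ideal.Quotient.mk_surjective x
      have hb : b ∈ maximalIdeal B := by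
        rw [mem_maximalIdeal, mem_nonunits_iff] at hx ⊢
        intro hu
        exact hx (hu.map _)
      rw [hm, Ideal.mem_span_pair] at hb
      obtain ⟨a, c, rfl⟩ := hb
      rw [map_add, map_mul, map_mul]
      have : Ideal.Quotient.mk (Ideal.span {π}) π = 0 :=
        Ideal.Quotient.eq_zero_iff_mem.2 (Ideal.mem_span_singleton_self π)
      rw [this, mul_zero, zero_add]
      exact Ideal.mul_mem_left _ _ (Ideal.mem_span_singleton_self _)
    · rw [Ideal.span_singleton_le_iff_mem, mem_maximalIdeal, mem_nonunits_iff]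
      intro hu
      have ht : t ∈ maximalIdeal B := by
        rw [hm]
        exact Ideal.subset_span (by simp)
      have : IsUnit t := by
        obtain ⟨v, hv⟩ := hu.exists_right_inv
        obtain ⟨v, rfl⟩ := Ideal.Quotient.mk_surjective v
        rw [← map_mul, ← map_one (Ideal.Quotient.mk (Ideal.span {π})), Ideal.Quotient.eq,
          Ideal.mem_span_singleton] at hv
        obtain ⟨c, hc⟩ := hv
        have hπm : π ∈ maximalIdeal B := by
          rw [hm]
          exact Ideal.subset_span (by simp)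
        have h1 : t * v = 1 + π * c := by rw [← hc]; ring
        have h2 : IsUnit (1 + π * c) := by
          by_contra hnu
          have h3 : (1 + π * c) ∈ maximalIdeal B := (mem_maximalIdeal _).2 hnu
          have h4 : (1 : B) ∈ maximalIdeal B := by
            have := (maximalIdeal B).sub_mem h3 ((maximalIdeal B).mul_mem_right c hπm)
            simpa using this
          exact (maximalIdeal.isMaximal B).ne_top ((Ideal.eq_top_iff_one _).2 h4)
        rw [← h1] at h2
        exact isUnit_of_mul_isUnit_left h2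
      exact (mem_maximalIdeal t).1 ht this
  have h5 : (maximalIdeal (B ⧸ Ideal.span {π})).IsPrincipal := ⟨⟨_, hmax⟩⟩
  exact ((tfae_of_isNoetherianRing_of_isLocalRing_of_isDomain
    (R := B ⧸ Ideal.span {π})).out 4 0).1 h5

/-- **regular points: primes not containing `π` are principal** (Nakayama) -/
theorem h5ca_reg_isPrincipal_of_not_mem (π t : B) (hπ : (Ideal.span {π}).IsPrime)
    (hm : maximalIdeal B = Ideal.span {π, t}) (Q : Ideal B) (hQ : Q.IsPrime) (hπQ : π ∉ Q) :
    Q.IsPrincipal := by
  haveI := h5ca_quot_pir π t hπ hm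
  obtain ⟨qb, hqb⟩ := (IsPrincipalIdealRing.principal
    (Q.map (Ideal.Quotient.mk (Ideal.span {π})))).principal
  have hqbmem : qb ∈ Q.map (Ideal.Quotient.mk (Ideal.span {π})) := by
    rw [hqb]
    exact Submodule.mem_span_singleton_self qb
  obtain ⟨q₀, hq₀, rfl⟩ := (Ideal.mem_map_iff_of_surjective _ Ideal.Quotient.mk_surjective).1 hqbmem
  have hπm : π ∈ maximalIdeal B := by
    rw [hm]
    exact Ideal.subset_span (by simp)
  refine ⟨⟨q₀, le_antisymm ?_ ?_⟩⟩
  · -- Nakayama
    have hle : Q ≤ Ideal.span {q₀} ⊔ Ideal.span {π} • Q := by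
      intro q hq
      have h1 : Ideal.Quotient.mk (Ideal.span {π}) q ∈
          Q.map (Ideal.Quotient.mk (Ideal.span {π})) := Ideal.mem_map_of_mem _ hq
      rw [hqb] at h1
      obtain ⟨bb, hbb⟩ := Submodule.mem_span_singleton.1 h1
      obtain ⟨b, rfl⟩ := Ideal.Quotient.mk_surjective bb
      have h2 : q - b * q₀ ∈ Ideal.span {π} := by
        rw [← Ideal.Quotient.eq, map_mul]
        exact hbb.symm
      obtain ⟨c, hc⟩ := Ideal.mem_span_singleton'.1 h2
      have h3 : c * π ∈ Q := by
        rw [hc]
        exact Q.sub_mem hq (Q.mul_mem_left b hq₀)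
      have hcQ : c ∈ Q := (hQ.mem_or_mem h3).resolve_right hπQ
      have h4 : q = b * q₀ + π * c := by
        rw [mul_comm π c, hc]; ring
      rw [h4]
      refine Submodule.add_mem_sup (Ideal.mul_mem_left _ _ (Ideal.mem_span_singleton_self _)) ?_
      exact Submodule.smul_mem_smul (Ideal.mem_span_singleton_self π) hcQ
    have hjac : Ideal.span {π} ≤ Ideal.jacobson (⊥ : Ideal B) := by
      rw [IsLocalRing.jacobson_eq_maximalIdeal ⊥ bot_ne_top, Ideal.span_singleton_le_iff_mem]
      exact hπm
    exact Submodule.le_of_le_smul_of_le_jacobson_bot (IsNoetherian.noetherian Q) hjac hle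
  · exact (Ideal.span_singleton_le_iff_mem _).2 hq₀

/-- **regular points: every prime of height one is principal** -/
theorem h5ca_reg_isPrincipal (π t : B) (hπ0 : π ≠ 0) (hπ : (Ideal.span {π}).IsPrime)
    (hm : maximalIdeal B = Ideal.span {π, t}) (Q : Ideal B) (hQ : Q.IsPrime)
    (hh : Q.height = 1) : Q.IsPrincipal := by
  by_cases hπQ : π ∈ Q
  · haveI := hπ
    haveI := hQ
    have hle : Ideal.span {π} ≤ Q := (Ideal.span_singleton_le_iff_mem _).2 hπQ
    have hne : (Ideal.span {π}).height ≠ 0 := by
      intro h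
      have := Ideal.height_eq_zero_iff_eq_bot.1 h
      exact hπ0 (Ideal.span_singleton_eq_bot.1 this)
    have h1 : Q.height ≤ (Ideal.span {π}).height := by
      rw [hh]
      exact Order.one_le_iff_pos.2 (pos_iff_ne_zero.2 hne)
    haveI : (Ideal.span {π}).FiniteHeight := by
      refine ⟨Or.inr ?_⟩
      have h2 : (Ideal.span {π}).height ≤ Q.height := Ideal.height_mono hle
      rw [hh] at h2
      exact ne_top_of_le_ne_top (by simp) h2
    have := Ideal.eq_of_le_of_height_le (h := hle) (h_height := h1)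
    exact ⟨⟨π, this.symm⟩⟩
  · exact h5ca_reg_isPrincipal_of_not_mem π t hπ hm Q hQ hπQ

/-- **a regular point is factorial** -/
theorem h5ca_reg_ufd (π t : B) (hπ0 : π ≠ 0) (hπ : (Ideal.span {π}).IsPrime)
    (hm : maximalIdeal B = Ideal.span {π, t}) : UniqueFactorizationMonoid B :=
  UniqueFactorizationMonoid.of_forall_isPrincipal_of_height_eq_one
    (fun Q hQ hh => h5ca_reg_isPrincipal π t hπ0 hπ hm Q hQ hh)

end principal

section ufd

variable {B : Type*} [CommRing B] [IsDomain B] [UniqueFactorizationMonoid B]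

/-- in a UFD, a nonzero element all of whose prime multiplicities are divisible by `n` is a unit
times an `n`-th power -/
theorem h5ca_ufd_pow (n : ℕ) (b : B) (hb : b ≠ 0)
    (h : ∀ p : B, Prime p → n ∣ multiplicity p b) :
    ∃ (g : B) (u : Bˣ), b = u * g ^ n := by
  classical
  revert hb h
  refine UniqueFactorizationMonoid.induction_on_coprime
    (P := fun b => b ≠ 0 → (∀ p : B, Prime p → n ∣ multiplicity p b) →
      ∃ (g : B) (u : Bˣ), b = u * g ^ n) b ?_ ?_ ?_ ?_
  · intro h0
    exact absurd rfl h0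
  · intro x hx _ _
    exact ⟨1, hx.unit, by simp⟩
  · intro p i hp _ h
    obtain ⟨k, hk⟩ := multiplicity_pow_self_of_prime hp i ▸ h p hp
    exact ⟨p ^ k, 1, by rw [Units.val_one, one_mul, ← pow_mul, hk, mul_comm]⟩
  · intro x y hxy hx hy hne h
    have hx0 : x ≠ 0 := left_ne_zero_of_mul hne
    have hy0 : y ≠ 0 := right_ne_zero_of_mul hne
    have key : ∀ p : B, Prime p → n ∣ multiplicity p x ∧ n ∣ multiplicity p y := by
      intro p hp
      have h1 := h p hp
      rw [multiplicity_mul hp (FiniteMultiplicity.of_prime_left hp hne)] at h1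
      by_cases hpx : p ∣ x
      · have hpy : ¬ p ∣ y := fun hpy => hp.not_isUnit (hxy hpx hpy)
        have h2 : multiplicity p y = 0 := multiplicity_eq_zero.2 hpy
        rw [h2, add_zero] at h1
        exact ⟨h1, h2 ▸ dvd_zero n⟩
      · have h2 : multiplicity p x = 0 := multiplicity_eq_zero.2 hpx
        rw [h2, zero_add] at h1
        exact ⟨h2 ▸ dvd_zero n, h1⟩
    obtain ⟨g1, u1, h1⟩ := hx hx0 (fun p hp => (key p hp).1)
    obtain ⟨g2, u2, h2⟩ := hy hy0 (fun p hp => (key p hp).2)
    refine ⟨g1 * g2, u1 * u2, ?_⟩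
    rw [h1, h2, Units.val_mul, mul_pow]
    ring

variable {F : Type*} [Field F] [Algebra B F] [IsFractionRing B F]

/-- in the fraction field of a UFD: an element that is, at every prime `p`, an `n`-th power times
a `p`-unit, is an `n`-th power times a unit -/
theorem h5ca_ufd_kummer (n : ℕ) (hn : 0 < n) (h : F) (hh0 : h ≠ 0)
    (hloc : ∀ p : B, Prime p → ∃ (w : F) (a s : B), ¬ p ∣ a ∧ ¬ p ∣ s ∧
      h * algebraMap B F s = w ^ n * algebraMap B F a) :
    ∃ (g : F) (u : Bˣ), h = g ^ n * algebraMap B F u := by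
  classical
  have hinj : Function.Injective (algebraMap B F) := IsFractionRing.injective B F
  obtain ⟨c, d, hd0, hcd⟩ := IsFractionRing.div_surjective (A := B) h
  have hd : d ≠ 0 := nonZeroDivisors.ne_zero hd0
  have hdF : algebraMap B F d ≠ 0 := fun h => hd (hinj (h.trans (map_zero _).symm))
  have hc : c ≠ 0 := by
    rintro rfl
    rw [map_zero, zero_div] at hcd
    exact hh0 hcd.symm
  obtain ⟨m, rfl⟩ : ∃ m, n = m + 1 := ⟨n - 1, by omega⟩
  -- `b = c d^m`, `h = b / d^(m+1)`
  have hb0 : c * d ^ m ≠ 0 := mul_ne_zero hc (pow_ne_zero _ hd)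
  have hhb : h * algebraMap B F d ^ (m + 1) = algebraMap B F (c * d ^ m) := by
    rw [← hcd, map_mul, map_pow, pow_succ]
    field_simp
  have hmult : ∀ p : B, Prime p → (m + 1) ∣ multiplicity p (c * d ^ m) := by
    intro p hp
    obtain ⟨w, a, s, hpa, hps, hw⟩ := hloc p hp
    obtain ⟨c', d', hd'0, hw'⟩ := IsFractionRing.div_surjective (A := B) w
    have hd' : d' ≠ 0 := nonZeroDivisors.ne_zero hd'0
    have hd'F : algebraMap B F d' ≠ 0 := fun h => hd' (hinj (h.trans (map_zero _).symm))
    have hs0 : s ≠ 0 := fun h => hps (h ▸ dvd_zero p)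
    have ha0 : a ≠ 0 := fun h => hpa (h ▸ dvd_zero p)
    have hc'0 : c' ≠ 0 := by
      rintro rfl
      rw [map_zero, zero_div] at hw'
      rw [← hw', zero_pow (Nat.succ_ne_zero m), zero_mul] at hw
      have hsF : algebraMap B F s ≠ 0 := fun h => hs0 (hinj (h.trans (map_zero _).symm))
      exact (mul_ne_zero hh0 hsF) hw
    -- the identity in `B`
    have hB : (c * d ^ m) * s * d' ^ (m + 1) = c' ^ (m + 1) * a * d ^ (m + 1) := by
      apply hinj
      simp only [map_mul, map_pow]
      have hhb' : algebraMap B F c * algebraMap B F d ^ m = h * algebraMap B F d ^ (m + 1) := by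
        rw [hhb, map_mul, map_pow]
      rw [hhb']
      have h1 : h * algebraMap B F s = (algebraMap B F c' / algebraMap B F d') ^ (m + 1)
          * algebraMap B F a := by rw [hw, hw']
      have h2 : h * algebraMap B F s * algebraMap B F d' ^ (m + 1)
          = algebraMap B F c' ^ (m + 1) * algebraMap B F a := by
        rw [h1, div_pow]
        field_simp
      calc h * algebraMap B F d ^ (m + 1) * algebraMap B F s * algebraMap B F d' ^ (m + 1)
          = (h * algebraMap B F s * algebraMap B F d' ^ (m + 1)) * algebraMap B F d ^ (m + 1) := by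
            ring
        _ = algebraMap B F c' ^ (m + 1) * algebraMap B F a * algebraMap B F d ^ (m + 1) := by
            rw [h2]
    have hfin : ∀ z : B, z ≠ 0 → FiniteMultiplicity p z :=
      fun z hz => FiniteMultiplicity.of_prime_left hp hz
    have e1 := congrArg (multiplicity p) hB
    have hL0 : (c * d ^ m) * s * d' ^ (m + 1) ≠ 0 :=
      mul_ne_zero (mul_ne_zero hb0 hs0) (pow_ne_zero _ hd')
    have hR0 : c' ^ (m + 1) * a * d ^ (m + 1) ≠ 0 :=
      mul_ne_zero (mul_ne_zero (pow_ne_zero _ hc'0) ha0) (pow_ne_zero _ hd)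
    rw [multiplicity_mul hp (hfin _ hL0), multiplicity_mul hp (hfin _ (mul_ne_zero hb0 hs0)),
      multiplicity_mul hp (hfin _ hR0),
      multiplicity_mul hp (hfin _ (mul_ne_zero (pow_ne_zero _ hc'0) ha0)),
      (hfin _ hd').multiplicity_pow hp, (hfin _ hc'0).multiplicity_pow hp,
      (hfin _ hd).multiplicity_pow hp, multiplicity_eq_zero.2 hps,
      multiplicity_eq_zero.2 hpa] at e1
    have e2 : multiplicity p (c * d ^ m) + (m + 1) * multiplicity p d'
        = (m + 1) * (multiplicity p c' + multiplicity p d) := by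
      rw [mul_add]
      simpa using e1
    have e3 : (m + 1) ∣ multiplicity p (c * d ^ m) + (m + 1) * multiplicity p d' :=
      e2 ▸ dvd_mul_right _ _
    exact (Nat.dvd_add_left (dvd_mul_right _ _)).1 e3
  obtain ⟨g, u, hg⟩ := h5ca_ufd_pow (m + 1) (c * d ^ m) hb0 hmult
  refine ⟨algebraMap B F g / algebraMap B F d, u, ?_⟩
  rw [div_pow, ← map_pow, div_mul_eq_mul_div, eq_div_iff (pow_ne_zero _ hdF), hhb, hg, map_mul,
    map_pow, mul_comm]

end ufd

section final

variable {B : Type*} [CommRing B] [IsDomain B] [IsNoetherianRing B] [IsLocalRing B]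
  {F : Type*} [Field F] [Algebra B F] [IsFractionRing B F]

/-- **(I6) regular points**: at a regular point of the special fibre (`(π)` prime, `𝔪 = (π, t)`),
an element `h ≠ 0` of `F` that is an `n`-th power times a unit of `B_Q` at every height-one prime
`Q` is an `n`-th power times a unit of `B`. -/
theorem h5ca_reg_kummer (π t : B) (hπ0 : π ≠ 0) (hπ : (Ideal.span {π}).IsPrime)
    (hm : maximalIdeal B = Ideal.span {π, t}) (n : ℕ) (hn : 0 < n) (h : F) (hh0 : h ≠ 0)
    (hloc : ∀ Q : Ideal B, Q.IsPrime → Q.height = 1 → ∃ (w : F) (a s : B), a ∉ Q ∧ s ∉ Q ∧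
      h * algebraMap B F s = w ^ n * algebraMap B F a) :
    ∃ (g : F) (u : Bˣ), h = g ^ n * algebraMap B F u := by
  haveI : UniqueFactorizationMonoid B := h5ca_reg_ufd π t hπ0 hπ hm
  refine h5ca_ufd_kummer n hn h hh0 ?_
  intro p hp
  have hP : (Ideal.span {p}).IsPrime := (Ideal.span_singleton_prime hp.ne_zero).2 hp
  have hmin : Ideal.span {p} ∈ (Ideal.span {p}).minimalPrimes :=
    ⟨⟨hP, le_rfl⟩, fun _ hQ _ => hQ.2⟩
  have hle1 : (Ideal.span {p}).height ≤ 1 :=
    Ideal.height_le_one_of_isPrincipal_of_mem_minimalPrimes (Ideal.span {p}) _ hmin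
  have hne0 : (Ideal.span {p}).height ≠ 0 := by
    intro h0
    haveI := hP
    exact hp.ne_zero (Ideal.span_singleton_eq_bot.1 (Ideal.height_eq_zero_iff_eq_bot.1 h0))
  have hh : (Ideal.span {p}).height = 1 :=
    le_antisymm hle1 (Order.one_le_iff_pos.2 (pos_iff_ne_zero.2 hne0))
  obtain ⟨w, a, s, ha, hs, hw⟩ := hloc _ hP hh
  exact ⟨w, a, s, fun h => ha (Ideal.mem_span_singleton.2 h),
    fun h => hs (Ideal.mem_span_singleton.2 h), hw⟩

end final

end H5CA

end
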