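/-
helper21, item 82 (S34), slice (LOC), regular half: the ABSTRACT core.

`B` a noetherian local domain with fraction field `F`, `π ≠ 0` with `(π)` prime and
`𝔪 = (π, x)` (a regular point of the special fibre), `K ⊆ B[1/π]` a field.  If `f ∈ Fˣ` has
`n ∣ V.ord f` at every place `V` of `F / K`, then `f = π^e · u · zⁿ` with `u ∈ Bˣ`; in
particular `π^m (f / zⁿ)^{±1} ∈ B` for some `m`.
-/
import Mathlib
import Fermat.Prelude.Def_AlgebraicCurve_DivisorClassGroup
import Fermat.Agent.S34.KR_helper25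
import Fermat.Agent.S34.Reg_helper5
import Fermat.Agent.S34.PlaceBridge_helper21

set_option autoImplicit false
set_option linter.unusedSectionVars false
set_option linter.unusedVariables false
set_option linter.style.haveILetI false

noncomputable section

namespace H21LR

open AlgebraicCurve H25KR IsLocalRing

variable {B : Type*} [CommRing B] [IsDomain B] [IsNoetherianRing B] [IsLocalRing B]
variable {F : Type*} [Field F] [Algebra B F] [IsFractionRing B F]
variable {K : Type*} [Field K] [Algebra K F]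

omit [IsNoetherianRing B] [IsLocalRing B] in
theorem isLocPrincipal_span {p : B} (hp : Prime p) : IsLocPrincipal (Ideal.span {p}) p 1 where
  mem := Ideal.mem_span_singleton_self p
  nmem := fun h1 => hp.not_isUnit (isUnit_of_dvd_one (Ideal.mem_span_singleton.1 h1))
  gen := fun b hb => by
    obtain ⟨c, rfl⟩ := Ideal.mem_span_singleton.1 hb
    exact ⟨c, by ring⟩

omit [IsNoetherianRing B] [IsLocalRing B] in
theorem span_isPrime {p : B} (hp : Prime p) : (Ideal.span {p}).IsPrime :=
  (Ideal.span_singleton_prime hp.ne_zero).2 hp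

/-- **(LOC), regular half, abstract core, unit form**: `f = π^(k-l) · u · gⁿ`. -/
theorem locReg_unit (π x : B) (hπ0 : π ≠ 0) (hπ : (Ideal.span {π}).IsPrime)
    (hm : maximalIdeal B = Ideal.span {π, x})
    (hK : ∀ c : K, ∃ (k : ℕ) (b : B),
      algebraMap K F c * algebraMap B F π ^ k = algebraMap B F b)
    (n : ℕ) (hn : 0 < n) (f : F) (hf : f ≠ 0)
    (hdiv : ∀ V : Place K F, (n : ℤ) ∣ V.ord f) :
    ∃ (g : F) (u : Bˣ) (k l : ℕ), g ≠ 0 ∧
      f * algebraMap B F π ^ l = g ^ n * algebraMap B F u * algebraMap B F π ^ k := by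
  classical
  haveI : UniqueFactorizationMonoid B := H5CA.h5ca_reg_ufd π x hπ0 hπ hm
  have hπp : Prime π := (Ideal.span_singleton_prime hπ0).1 hπ
  have hπF : algebraMap B F π ≠ 0 := H21PB.map_ne_zero' hπ0
  haveI := hπ
  obtain ⟨s, c, k, l, hs, hc, e⟩ :=
    H21PB.exists_repr (F := F) (isLocPrincipal_span hπp) hf
  have hs0 : s ≠ 0 := H21PB.ne_zero_of_nmem hs
  have hc0 : c ≠ 0 := H21PB.ne_zero_of_nmem hc
  have hsF : algebraMap B F s ≠ 0 := H21PB.map_ne_zero' hs0
  have hcF : algebraMap B F c ≠ 0 := H21PB.map_ne_zero' hc0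
  have hsπ : ¬ π ∣ s := fun hd => hs (Ideal.mem_span_singleton.2 hd)
  have hcπ : ¬ π ∣ c := fun hd => hc (Ideal.mem_span_singleton.2 hd)
  -- the `π`-primitive part
  set f' : F := algebraMap B F c / algebraMap B F s with hf'
  have hf'0 : f' ≠ 0 := div_ne_zero hcF hsF
  have hff' : f * algebraMap B F π ^ l = f' * algebraMap B F π ^ k := by
    rw [hf']
    field_simp
    linear_combination e
  have hloc : ∀ p : B, Prime p → ∃ (w : F) (a s : B), ¬ p ∣ a ∧ ¬ p ∣ s ∧
      f' * algebraMap B F s = w ^ n * algebraMap B F a := by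
    intro p hp
    by_cases hpπ : p ∣ π
    · -- `p` is associated to `π`
      have hπ_dvd_p : π ∣ p := by
        obtain ⟨d, hd⟩ := hpπ
        rcases hπp.dvd_or_dvd (⟨1, by rw [mul_one]; exact hd.symm⟩ : π ∣ p * d) with h1 | h1
        · exact h1
        · exfalso
          obtain ⟨d', rfl⟩ := h1
          have h2 : π * 1 = π * (p * d') := by
            rw [mul_one]
            calc π = p * (π * d') := hd
              _ = π * (p * d') := by ring
          have h3 := mul_left_cancel₀ hπ0 h2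
          exact hp.not_isUnit (isUnit_of_dvd_one ⟨d', h3⟩)
      refine ⟨1, c, s, fun hd => hcπ (hπ_dvd_p.trans hd), fun hd => hsπ (hπ_dvd_p.trans hd), ?_⟩
      rw [hf', one_pow, one_mul]
      field_simp
    · -- `p` is a horizontal prime: use the place of `B_(p)`
      haveI hPp : (Ideal.span {p}).IsPrime := span_isPrime hp
      have hπP : π ∉ Ideal.span {p} := fun hmem => hpπ (Ideal.mem_span_singleton.1 hmem)
      have hπkP : ∀ j : ℕ, π ^ j ∉ Ideal.span {p} := fun j hmem =>
        hπP (hPp.mem_of_pow_mem j hmem)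
      have hKV : ∀ c : K, algebraMap K F c ∈ valSub F (Ideal.span {p}) (isLocPrincipal_span hp) := by
        intro c
        obtain ⟨j, b, hb⟩ := hK c
        exact ⟨b, π ^ j, hπkP j, by rw [map_pow]; exact hb⟩
      obtain ⟨w, c₁, s₁, hw, hc₁, hs₁, e₁⟩ :=
        H21PB.exists_pow_of_dvd (isLocPrincipal_span hp) hp.ne_zero hKV hf
          (hdiv (H21PB.placeOf (isLocPrincipal_span hp) K hp.ne_zero hKV))
      refine ⟨w, c₁ * π ^ l, s₁ * π ^ k, ?_, ?_, ?_⟩
      · intro hd
        exact H25KR.mul_nmem hc₁ (hπkP l) (Ideal.mem_span_singleton.2 hd)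
      · intro hd
        exact H25KR.mul_nmem hs₁ (hπkP k) (Ideal.mem_span_singleton.2 hd)
      · rw [map_mul, map_mul, map_pow, map_pow]
        linear_combination (algebraMap B F π ^ l) * e₁ - (algebraMap B F s₁) * hff'
  obtain ⟨g, u, hgu⟩ := H5CA.h5ca_ufd_kummer n hn f' hf'0 hloc
  have hg0 : g ≠ 0 := by
    rintro rfl
    rw [zero_pow hn.ne', zero_mul] at hgu
    exact hf'0 hgu
  exact ⟨g, u, k, l, hg0, by rw [hff', hgu]⟩

/-- **(LOC), regular half, abstract core**: `π^m (f / zⁿ)^{±1} ∈ B`. -/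
theorem locReg_core (π x : B) (hπ0 : π ≠ 0) (hπ : (Ideal.span {π}).IsPrime)
    (hm : maximalIdeal B = Ideal.span {π, x})
    (hK : ∀ c : K, ∃ (k : ℕ) (b : B),
      algebraMap K F c * algebraMap B F π ^ k = algebraMap B F b)
    (n : ℕ) (hn : 0 < n) (f : F) (hf : f ≠ 0)
    (hdiv : ∀ V : Place K F, (n : ℤ) ∣ V.ord f) :
    ∃ z : F, z ≠ 0 ∧ ∃ (m : ℕ) (b₁ b₂ : B),
      algebraMap B F π ^ m * (f * (z ^ n)⁻¹) = algebraMap B F b₁ ∧
      algebraMap B F π ^ m * (f * (z ^ n)⁻¹)⁻¹ = algebraMap B F b₂ := by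
  obtain ⟨g, u, k, l, hg0, e⟩ := locReg_unit π x hπ0 hπ hm hK n hn f hf hdiv
  have hπF : algebraMap B F π ≠ 0 := H21PB.map_ne_zero' hπ0
  have huF : algebraMap B F (u : B) ≠ 0 := H21PB.map_ne_zero' u.ne_zero
  have hgn : g ^ n ≠ 0 := pow_ne_zero n hg0
  have hfe : f * (g ^ n)⁻¹ = algebraMap B F u * algebraMap B F π ^ k / algebraMap B F π ^ l := by
    field_simp
    linear_combination e
  have huinv : algebraMap B F ((u⁻¹ : Bˣ) : B) = (algebraMap B F (u : B))⁻¹ := by
    apply eq_inv_of_mul_eq_one_left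
    rw [← map_mul, Units.inv_mul, map_one]
  refine ⟨g, hg0, k + l, u * π ^ (2 * k), ((u⁻¹ : Bˣ) : B) * π ^ (2 * l), ?_, ?_⟩
  · rw [hfe, map_mul, map_pow]
    field_simp
    ring
  · rw [hfe, map_mul, map_pow, huinv]
    field_simp
    ring

end H21LR
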