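/-
helper21, item 82 (S34), slice (LOC), regular half: the core in ELEMENT form.

`A` a noetherian domain with fraction field `F`, `𝔫` a prime of `A`, `ϖ ∈ 𝔫`, `ϖ ≠ 0`,
`K ⊆ A[1/ϖ]` a field.  Hypotheses in element form (exactly `H4S34.RegAt`):
* `𝔫 A_𝔫 = (ϖ, x)`;
* `ϖ` is prime in `A_𝔫`.
Then `n ∣ div f` (over `K`) gives `z ≠ 0` with `ϖ^m (f / zⁿ)^{±1} ∈ A_𝔫`.
-/
import Mathlib
import Fermat.Prelude.Def_AlgebraicCurve_DivisorClassGroup
import Fermat.Agent.S34.LocRegCore_helper21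

set_option autoImplicit false
set_option linter.unusedSectionVars false
set_option linter.unusedVariables false
set_option linter.style.haveILetI false

noncomputable section

namespace H21LR

open AlgebraicCurve IsLocalRing

section general

variable {A : Type*} [CommRing A] [IsDomain A] [IsNoetherianRing A]
variable {F : Type*} [Field F] [Algebra A F] [IsFractionRing A F]
variable {K : Type*} [Field K] [Algebra K F]

omit [IsNoetherianRing A] in
theorem primeCompl_le (𝔫 : Ideal A) [𝔫.IsPrime] : 𝔫.primeCompl ≤ nonZeroDivisors A :=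
  fun s hs => mem_nonZeroDivisors_of_ne_zero (fun h0 => hs (h0 ▸ 𝔫.zero_mem))

variable (B : Type*) [CommRing B] [Algebra A B] (𝔫 : Ideal A) [h𝔫 : 𝔫.IsPrime]
  [hB : IsLocalization.AtPrime B 𝔫] [Algebra B F] [IsScalarTower A B F]

omit [IsNoetherianRing A] [IsDomain A] [IsFractionRing A F] in
theorem algMap_algMap (a : A) : algebraMap B F (algebraMap A B a) = algebraMap A F a :=
  (IsScalarTower.algebraMap_apply A B F a).symm

omit [IsNoetherianRing A] in
theorem map_den_ne_zero (s : 𝔫.primeCompl) : algebraMap A F (s : A) ≠ 0 := by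
  intro h0
  have : (s : A) = 0 := IsFractionRing.injective A F (by rw [h0, map_zero])
  exact s.2 (this ▸ 𝔫.zero_mem)

omit [IsNoetherianRing A] in
theorem algMap_mk' (a : A) (s : 𝔫.primeCompl) :
    algebraMap B F (IsLocalization.mk' B a s) = algebraMap A F a / algebraMap A F (s : A) := by
  rw [eq_div_iff (map_den_ne_zero 𝔫 s), ← algMap_algMap (F := F) B (s : A), ← map_mul,
    IsLocalization.mk'_spec, algMap_algMap]

omit [IsNoetherianRing A] in
include h𝔫 hB in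
theorem algMap_injective : Function.Injective (algebraMap B F) := by
  have hinj : Function.Injective (algebraMap A B) :=
    IsLocalization.injective B (primeCompl_le 𝔫)
  intro x y hxy
  obtain ⟨a, s, rfl⟩ := IsLocalization.exists_mk'_eq 𝔫.primeCompl x
  obtain ⟨b, r, rfl⟩ := IsLocalization.exists_mk'_eq 𝔫.primeCompl y
  rw [algMap_mk', algMap_mk', div_eq_div_iff (map_den_ne_zero 𝔫 s) (map_den_ne_zero 𝔫 r),
    ← map_mul, ← map_mul] at hxy
  have h1 : a * (r : A) = b * (s : A) := IsFractionRing.injective A F hxy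
  rw [IsLocalization.mk'_eq_iff_eq, mul_comm, h1, mul_comm]

omit [IsNoetherianRing A] in
include F in
/-- `ϖ` is prime in the localisation -/
theorem prime_map (ϖ : A) (hϖ0 : ϖ ≠ 0) (hϖ𝔫 : ϖ ∈ 𝔫)
    (hprime : ∀ a b : A, (∃ c s : A, s ∉ 𝔫 ∧ s * (a * b) = c * ϖ) →
      (∃ c s : A, s ∉ 𝔫 ∧ s * a = c * ϖ) ∨ (∃ c s : A, s ∉ 𝔫 ∧ s * b = c * ϖ)) :
    Prime (algebraMap A B ϖ) := by
  haveI : IsLocalRing B := IsLocalization.AtPrime.isLocalRing B 𝔫
  have hinj : Function.Injective (algebraMap A B) :=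
    IsLocalization.injective B (primeCompl_le 𝔫)
  have hϖF : algebraMap A F ϖ ≠ 0 := fun h0 =>
    hϖ0 (IsFractionRing.injective A F (by rw [h0, map_zero]))
  have key : ∀ (a : A) , (∃ c s : A, s ∉ 𝔫 ∧ s * a = c * ϖ) →
      ∀ sa : 𝔫.primeCompl, algebraMap A B ϖ ∣ IsLocalization.mk' B a sa := by
    rintro a ⟨c, s, hs, e⟩ sa
    refine ⟨IsLocalization.mk' B c (⟨s, hs⟩ * sa), ?_⟩
    apply algMap_injective (F := F) B 𝔫
    have hs0 := map_den_ne_zero (F := F) 𝔫 ⟨s, hs⟩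
    have hsa0 := map_den_ne_zero (F := F) 𝔫 sa
    have e' : algebraMap A F s * algebraMap A F a = algebraMap A F c * algebraMap A F ϖ := by
      rw [← map_mul, e, map_mul]
    rw [map_mul, algMap_mk', algMap_mk', algMap_algMap]
    simp only [Submonoid.coe_mul, map_mul]
    simp only at hs0
    field_simp
    linear_combination e'
  refine ⟨fun h0 => hϖ0 (hinj (by rw [h0, map_zero])), ?_, ?_⟩
  · intro hu
    have := (IsLocalization.AtPrime.to_map_mem_maximal_iff B 𝔫 ϖ).2 hϖ𝔫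
    exact this hu
  · intro a b hab
    obtain ⟨a₀, sa, rfl⟩ := IsLocalization.exists_mk'_eq 𝔫.primeCompl a
    obtain ⟨b₀, sb, rfl⟩ := IsLocalization.exists_mk'_eq 𝔫.primeCompl b
    obtain ⟨c, hc⟩ := hab
    obtain ⟨c₀, sc, rfl⟩ := IsLocalization.exists_mk'_eq 𝔫.primeCompl c
    have hsa0 := map_den_ne_zero (F := F) 𝔫 sa
    have hsb0 := map_den_ne_zero (F := F) 𝔫 sb
    have hsc0 := map_den_ne_zero (F := F) 𝔫 sc
    have h1 := congrArg (algebraMap B F) hc
    rw [map_mul, map_mul, algMap_mk', algMap_mk', algMap_mk', algMap_algMap] at h1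
    have h2 : algebraMap A F ((sc : A) * (a₀ * b₀)) =
        algebraMap A F ((c₀ * sa * sb) * ϖ) := by
      simp only [map_mul]
      field_simp at h1
      linear_combination h1
    have h3 : (sc : A) * (a₀ * b₀) = (c₀ * sa * sb) * ϖ := IsFractionRing.injective A F h2
    rcases hprime a₀ b₀ ⟨c₀ * sa * sb, sc, sc.2, h3⟩ with h4 | h4
    · exact Or.inl (key a₀ h4 sa)
    · exact Or.inr (key b₀ h4 sb)

omit [IsNoetherianRing A] in
include F in
/-- the maximal ideal of the localisation is `(ϖ, x)` -/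
theorem maximalIdeal_eq [IsLocalRing B] (ϖ x : A) (hϖ𝔫 : ϖ ∈ 𝔫) (hx𝔫 : x ∈ 𝔫)
    (hgen : ∀ y ∈ 𝔫, ∃ s a b : A, s ∉ 𝔫 ∧ s * y = a * ϖ + b * x) :
    maximalIdeal B = Ideal.span {algebraMap A B ϖ, algebraMap A B x} := by
  apply le_antisymm
  · intro z hz
    obtain ⟨y, sy, rfl⟩ := IsLocalization.exists_mk'_eq 𝔫.primeCompl z
    have hy : y ∈ 𝔫 := (IsLocalization.AtPrime.mk'_mem_maximal_iff B 𝔫 y sy).1 hz
    obtain ⟨s, a, b, hs, e⟩ := hgen y hy
    rw [Ideal.mem_span_pair]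
    refine ⟨IsLocalization.mk' B a (⟨s, hs⟩ * sy), IsLocalization.mk' B b (⟨s, hs⟩ * sy), ?_⟩
    apply algMap_injective (F := F) B 𝔫
    have hs0 := map_den_ne_zero (F := F) 𝔫 ⟨s, hs⟩
    have hsy0 := map_den_ne_zero (F := F) 𝔫 sy
    have e' : algebraMap A F s * algebraMap A F y =
        algebraMap A F a * algebraMap A F ϖ + algebraMap A F b * algebraMap A F x := by
      rw [← map_mul, e, map_add, map_mul, map_mul]
    rw [map_add, map_mul, map_mul, algMap_mk', algMap_mk', algMap_mk', algMap_algMap,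
      algMap_algMap]
    simp only [Submonoid.coe_mul, map_mul]
    simp only at hs0
    field_simp
    linear_combination (-1 : F) * e'
  · rw [Ideal.span_le]
    rintro z (rfl | rfl)
    · exact (IsLocalization.AtPrime.to_map_mem_maximal_iff B 𝔫 ϖ).2 hϖ𝔫
    · exact (IsLocalization.AtPrime.to_map_mem_maximal_iff B 𝔫 x).2 hx𝔫

omit [IsNoetherianRing A] in
include h𝔫 hB in
/-- membership in the image of the localisation, in element form -/
theorem mem_range_iff (z : F) :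
    z ∈ (algebraMap B F).range ↔
      ∃ a s : A, s ∉ 𝔫 ∧ algebraMap A F s * z = algebraMap A F a := by
  constructor
  · rintro ⟨b, rfl⟩
    obtain ⟨a, s, rfl⟩ := IsLocalization.exists_mk'_eq 𝔫.primeCompl b
    refine ⟨a, s, s.2, ?_⟩
    rw [algMap_mk', mul_div_cancel₀ _ (map_den_ne_zero 𝔫 s)]
  · rintro ⟨a, s, hs, e⟩
    refine ⟨IsLocalization.mk' B a (⟨s, hs⟩ : 𝔫.primeCompl), ?_⟩
    rw [algMap_mk', div_eq_iff (map_den_ne_zero (F := F) 𝔫 (⟨s, hs⟩ : 𝔫.primeCompl)), ← e,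
      mul_comm]

end general

section final

variable {A : Type*} [CommRing A] [IsDomain A] [IsNoetherianRing A]
variable {F : Type*} [Field F] [Algebra A F] [IsFractionRing A F]
variable {K : Type*} [Field K] [Algebra K F]

/-- **(LOC), regular half, element form** -/
theorem locReg_elem (𝔫 : Ideal A) [h𝔫 : 𝔫.IsPrime] (ϖ : A) (hϖ0 : ϖ ≠ 0) (hϖ𝔫 : ϖ ∈ 𝔫)
    (hgen : ∃ x ∈ 𝔫, ∀ y ∈ 𝔫, ∃ s a b : A, s ∉ 𝔫 ∧ s * y = a * ϖ + b * x)
    (hprime : ∀ a b : A, (∃ c s : A, s ∉ 𝔫 ∧ s * (a * b) = c * ϖ) →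
      (∃ c s : A, s ∉ 𝔫 ∧ s * a = c * ϖ) ∨ (∃ c s : A, s ∉ 𝔫 ∧ s * b = c * ϖ))
    (hK : ∀ c : K, ∃ (k : ℕ) (b : A),
      algebraMap K F c * algebraMap A F ϖ ^ k = algebraMap A F b)
    (n : ℕ) (hn : 0 < n) (f : F) (hf : f ≠ 0)
    (hdiv : ∀ V : Place K F, (n : ℤ) ∣ V.ord f) :
    ∃ z : F, z ≠ 0 ∧ ∃ (m : ℕ) (a₁ s₁ a₂ s₂ : A), s₁ ∉ 𝔫 ∧ s₂ ∉ 𝔫 ∧
      algebraMap A F s₁ * (algebraMap A F ϖ ^ m * (f * (z ^ n)⁻¹)) = algebraMap A F a₁ ∧
      algebraMap A F s₂ * (algebraMap A F ϖ ^ m * (f * (z ^ n)⁻¹)⁻¹) = algebraMap A F a₂ := by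
  -- the local ring as a subalgebra of `F`
  let B := Localization.subalgebra.ofField F 𝔫.primeCompl (primeCompl_le 𝔫)
  haveI hBloc : IsLocalization.AtPrime B 𝔫 :=
    Localization.subalgebra.isLocalization_ofField F 𝔫.primeCompl (primeCompl_le 𝔫)
  haveI : IsFractionRing B F := inferInstance
  haveI : IsScalarTower A B F := inferInstance
  haveI : IsLocalRing B := IsLocalization.AtPrime.isLocalRing B 𝔫
  haveI : IsNoetherianRing B := IsLocalization.isNoetherianRing 𝔫.primeCompl B inferInstance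
  haveI : IsDomain B := inferInstance
  obtain ⟨x, hx𝔫, hgen'⟩ := hgen
  have hπp : Prime (algebraMap A B ϖ) := prime_map (F := F) B 𝔫 ϖ hϖ0 hϖ𝔫 hprime
  have hπ : (Ideal.span {algebraMap A B ϖ}).IsPrime :=
    (Ideal.span_singleton_prime hπp.ne_zero).2 hπp
  have hm : maximalIdeal B = Ideal.span {algebraMap A B ϖ, algebraMap A B x} :=
    maximalIdeal_eq (F := F) B 𝔫 ϖ x hϖ𝔫 hx𝔫 hgen'
  have hK' : ∀ c : K, ∃ (k : ℕ) (b : B),
      algebraMap K F c * algebraMap B F (algebraMap A B ϖ) ^ k = algebraMap B F b := by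
    intro c
    obtain ⟨k, b, hb⟩ := hK c
    exact ⟨k, algebraMap A B b, by rw [algMap_algMap, algMap_algMap]; exact hb⟩
  obtain ⟨z, hz, m, b₁, b₂, e₁, e₂⟩ :=
    locReg_core (algebraMap A B ϖ) (algebraMap A B x) hπp.ne_zero hπ hm hK' n hn f hf hdiv
  rw [algMap_algMap] at e₁ e₂
  obtain ⟨a₁, s₁, hs₁, E₁⟩ := (mem_range_iff (F := F) B 𝔫 _).1 ⟨b₁, e₁.symm⟩
  obtain ⟨a₂, s₂, hs₂, E₂⟩ := (mem_range_iff (F := F) B 𝔫 _).1 ⟨b₂, e₂.symm⟩
  exact ⟨z, hz, m, a₁, s₁, a₂, s₂, hs₁, hs₂, E₁, E₂⟩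

end final

end H21LR
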