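/-
helper21, item 82 (S34), slice (LOC), regular half: proof of `H4S34.LocRegStatement`.
-/
import Mathlib
import Fermat.Agent.S18.TBase_helper19
import Fermat.Agent.S18.TFin_helper19
import Fermat.Agent.S34.Defs_helper4
import Fermat.Agent.S34.LocRegCore_helper21
import Fermat.Agent.S34.LocRegLoc_helper21

set_option autoImplicit false
set_option linter.unusedSectionVars false
set_option linter.unusedVariables false
set_option linter.style.haveILetI false
set_option synthInstance.maxHeartbeats 400000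

noncomputable section

namespace H21LR

open Polynomial IntermediateField AlgebraicCurve H7S18 H4S34 IsLocalRing

section chart

variable (R : Type) [CommRing R] [IsDomain R] [IsDiscreteValuationRing R]
  (K : Type) [Field K] [CharZero K] [Algebra R K] [IsFractionRing R K]
  {F : Type} [Field F] [Algebra K F] [Algebra R F] [IsScalarTower R K F]

/-- the chart ring is noetherian -/
theorem chart_noeth {t : F} (ht : Transcendental K t) [FiniteDimensional K⟮t⟯ F] :
    IsNoetherianRing (Chart R t) := by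
  haveI := H19S18.h19_T_noeth R (H19S18.h19_transc R K ht)
  haveI : Module.Finite (Algebra.adjoin R {t}) (Chart R t) := H19S18.h19_M0_finite R K ht
  exact IsNoetherianRing.of_finite (Algebra.adjoin R {t}) (Chart R t)

/-- the chart ring has fraction field `F` -/
theorem chart_isFractionRing {t : F} (ht : Transcendental K t) [FiniteDimensional K⟮t⟯ F] :
    IsFractionRing (Chart R t) F := by
  letI : Algebra (Algebra.adjoin R {t}) K⟮t⟯ := (H19S18.h19_TtoKt R K t).toAlgebra
  haveI : IsFractionRing (Algebra.adjoin R {t}) K⟮t⟯ := H19S18.h19_T_isFractionRing R K t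
  haveI : IsScalarTower (Algebra.adjoin R {t}) K⟮t⟯ F :=
    IsScalarTower.of_algebraMap_eq (fun _ => rfl)
  exact integralClosure.isFractionRing_of_finite_extension K⟮t⟯ F

end chart

/-- **(LOC), regular half** -/
theorem locRegStatement : H4S34.LocRegStatement := by
  intro R _ _ _ K _ _ _ _ F _ _ _ _ ϖ hϖ t ht hfin n hn f hf hdiv 𝔫 h𝔫 hreg
  haveI := hfin
  haveI : IsNoetherianRing (Chart R t) := chart_noeth R K ht
  haveI : IsFractionRing (Chart R t) F := chart_isFractionRing R K ht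
  haveI : 𝔫.IsPrime := h𝔫.1.isPrime
  have hinjR : Function.Injective (algebraMap R F) := H19S18.h19_algebraMap_injective R K
  have hϖF : algebraMap R F ϖ ≠ 0 := fun h0 => hϖ.ne_zero (hinjR (by rw [h0, map_zero]))
  -- `ϖ` as an element of the chart ring
  let ϖM : Chart R t :=
    algebraMap (Algebra.adjoin R {t}) (Chart R t) (algebraMap R (Algebra.adjoin R {t}) ϖ)
  have hϖMcoe : (ϖM : F) = algebraMap R F ϖ := rfl
  have hcoe : ∀ a : Chart R t, algebraMap (Chart R t) F a = (a : F) := fun _ => rfl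
  have hϖM0 : ϖM ≠ 0 := by
    intro h0
    apply hϖF
    rw [← hϖMcoe, h0]
    rfl
  have hϖM𝔫 : ϖM ∈ 𝔫 := h𝔫.2 ϖM hϖMcoe
  have hgen : ∃ x ∈ 𝔫, ∀ y ∈ 𝔫, ∃ s a b : Chart R t, s ∉ 𝔫 ∧ s * y = a * ϖM + b * x := by
    obtain ⟨x, hx, hx'⟩ := hreg.1
    refine ⟨x, hx, fun y hy => ?_⟩
    obtain ⟨s, a, b, hs, e⟩ := hx' y hy
    refine ⟨s, a, b, hs, Subtype.ext ?_⟩
    push_cast
    rw [e, hϖMcoe]
  have hprime : ∀ a b : Chart R t, (∃ c s : Chart R t, s ∉ 𝔫 ∧ s * (a * b) = c * ϖM) →
      (∃ c s : Chart R t, s ∉ 𝔫 ∧ s * a = c * ϖM) ∨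
        (∃ c s : Chart R t, s ∉ 𝔫 ∧ s * b = c * ϖM) := by
    rintro a b ⟨c, s, hs, e⟩
    have e' : (s : F) * ((a : F) * b) = c * algebraMap R F ϖ := by
      have := congrArg (fun z : Chart R t => (z : F)) e
      simpa [hϖMcoe] using this
    have h1 : InLoc R t 𝔫 ((a : F) * b * (algebraMap R F ϖ)⁻¹) := by
      refine ⟨c, s, hs, ?_⟩
      field_simp
      linear_combination e'
    have conv : ∀ d : Chart R t, InLoc R t 𝔫 ((d : F) * (algebraMap R F ϖ)⁻¹) →
        ∃ c s : Chart R t, s ∉ 𝔫 ∧ s * d = c * ϖM := by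
      rintro d ⟨c', s', hs', e''⟩
      refine ⟨c', s', hs', Subtype.ext ?_⟩
      push_cast
      rw [hϖMcoe, ← e'']
      field_simp
    rcases hreg.2 a b h1 with h2 | h2
    · exact Or.inl (conv a h2)
    · exact Or.inr (conv b h2)
  have hK : ∀ c : K, ∃ (k : ℕ) (b : Chart R t),
      algebraMap K F c * algebraMap (Chart R t) F ϖM ^ k = algebraMap (Chart R t) F b := by
    intro c
    obtain ⟨r₁, r₂, hr₂, rfl⟩ := IsFractionRing.div_surjective (A := R) c
    have hr₂0 : r₂ ≠ 0 := nonZeroDivisors.ne_zero hr₂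
    obtain ⟨k, u, hu⟩ := IsDiscreteValuationRing.associated_pow_irreducible hr₂0 hϖ
    refine ⟨k, algebraMap (Algebra.adjoin R {t}) (Chart R t)
      (algebraMap R (Algebra.adjoin R {t}) (r₁ * u)), ?_⟩
    have hb : algebraMap (Chart R t) F (algebraMap (Algebra.adjoin R {t}) (Chart R t)
      (algebraMap R (Algebra.adjoin R {t}) (r₁ * u))) = algebraMap R F (r₁ * u) := rfl
    rw [hb, hcoe, hϖMcoe, map_div₀, ← IsScalarTower.algebraMap_apply R K F,
      ← IsScalarTower.algebraMap_apply R K F, ← map_pow, ← hu, map_mul, map_mul]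
    have hr₂F : algebraMap R F r₂ ≠ 0 := fun h0 => hr₂0 (hinjR (by rw [h0, map_zero]))
    field_simp
  obtain ⟨z, hz, m, a₁, s₁, a₂, s₂, hs₁, hs₂, E₁, E₂⟩ :=
    locReg_elem (A := Chart R t) (F := F) (K := K) 𝔫 ϖM hϖM0 hϖM𝔫 hgen hprime hK n hn f hf hdiv
  exact ⟨z, hz, m, ⟨a₁, s₁, hs₁, E₁⟩, ⟨a₂, s₂, hs₂, E₂⟩⟩

end H21LR
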