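import Mathlib
import Fermat.Agent.S34.Asm_helper4
import Fermat.Agent.S34.GULevel_helper7
import Fermat.Agent.S34.Final_helper7
import Fermat.Agent.S34.Descent_helper29
import Fermat.Agent.S34.Gen_helper1
import Fermat.Agent.S34.LocReg_helper21
import Fermat.Agent.S34.LocNodeFinal_helper9
import Fermat.Agent.S34.ChartChange_helper20

/-!
# Item 82 (S34), architect file (helper4): the complete chain

`H4S34.s34_of_slices`: the statement of S34 from the six open slices of
`S34/Defs_helper4.lean` (`GenStatement`, `LocRegStatement`, `LocNodeStatement`,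
`ChartChangeStatement`, `DichStatement`, `TauStatement`).  Everything else is proved:
`DescentStatement` (helper29), level change (helper21, helper7), (B1) (helper29), the trace
machine (helper7).
-/

set_option autoImplicit false
set_option linter.style.haveILetI false

noncomputable section

open H7S18

namespace H4S34

/-- (GU), function-field form, at a tame pair `(N, q)`. -/
theorem guFieldTame_of (hGen : GenStatement) (hLR : LocRegStatement) (hLN : LocNodeStatement)
    (hCC : ChartChangeStatement) (hDich : DichStatement) (hTau : TauStatement)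
    (N : ℕ) [NeZero N] (q : ℕ) (hq : q.Prime) (hqN : q ∣ N) (hq2 : ¬ q ^ 2 ∣ N)
    (hT : TameLevel q (N / q)) : GUFieldTame N q := by
  haveI : Fact q.Prime := ⟨hq⟩
  intro n hn hqn
  exact guFieldAt_of hGen hLR hLN hCC hDich hTau H29DS.descentStatement N q hqN hq2 hT n hn hqn

/-- (GU) at every level. -/
theorem gu_of_slices (hGen : GenStatement) (hLR : LocRegStatement) (hLN : LocNodeStatement)
    (hCC : ChartChangeStatement) (hDich : DichStatement) (hTau : TauStatement)
    (N : ℕ) [NeZero N] : H7S34.GUStatement N :=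
  H7S34.h7s34_gu_of_fieldTame
    (fun N q _ hq hqN hq2 hT => guFieldTame_of hGen hLR hLN hCC hDich hTau N q hq hqN hq2 hT) N

variable {p : ℕ} {N : ℕ} [NeZero N] {S : Finset ℕ}
  {𝒪 : Type} [CommRing 𝒪] [IsDomain 𝒪] [IsDiscreteValuationRing 𝒪]
  [IsAdicComplete (IsLocalRing.maximalIdeal 𝒪) 𝒪]
  {θ : CuspForm.heckeAlgebra N 2 (↑S : Set ℕ) →+* IsLocalRing.ResidueField 𝒪}
  {T : Type} [CommRing T] [IsLocalRing T] [IsNoetherianRing T]
  [IsAdicComplete (IsLocalRing.maximalIdeal T) T] [Algebra 𝒪 T] [IsLocalHom (algebraMap 𝒪 T)]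
  [Module.Finite 𝒪 T] [Module.Free 𝒪 T]

/-- **S34** from the six open slices. -/
theorem s34_of_slices (hGen : GenStatement) (hLR : LocRegStatement) (hLN : LocNodeStatement)
    (hCC : ChartChangeStatement) (hDich : DichStatement) (hTau : TauStatement)
    (hp : p.Prime) (hp𝒪 : (p : 𝒪) ∈ IsLocalRing.maximalIdeal 𝒪) (hpS : p ∈ S)
    (hNS : ∀ q : ℕ, q.Prime → q ∣ N → q ∈ S)
    (H : CuspForm.HeckeGaloisRepDatum N (↑S : Set ℕ) 𝒪 θ T)
    (q : ℕ) (hq : q.Prime) (hqp : q ≠ p) (hqN : q ∣ N) (hq2 : ¬ q ^ 2 ∣ N) :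
    H.ρ.IsUnipotentOnInertiaAt q :=
  H7S34.h7s34_of_gu (gu_of_slices hGen hLR hLN hCC hDich hTau N) hp hp𝒪 hpS hNS H q hq hqp
    hqN hq2

/-- **S34** from the two concrete slices `DichStatement` (DICH) and `TauStatement` (TAU);
(GEN) helper1 + helper19, (LOC) helper21 + helper9 + helper22 + helper25, (CHART) helper20,
(B2) helper29 are proved. -/
theorem s34_of_dich_tau (hDich : DichStatement) (hTau : TauStatement)
    (hp : p.Prime) (hp𝒪 : (p : 𝒪) ∈ IsLocalRing.maximalIdeal 𝒪) (hpS : p ∈ S)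
    (hNS : ∀ q : ℕ, q.Prime → q ∣ N → q ∈ S)
    (H : CuspForm.HeckeGaloisRepDatum N (↑S : Set ℕ) 𝒪 θ T)
    (q : ℕ) (hq : q.Prime) (hqp : q ≠ p) (hqN : q ∣ N) (hq2 : ¬ q ^ 2 ∣ N) :
    H.ρ.IsUnipotentOnInertiaAt q :=
  s34_of_slices H1GU.genStatement H21LR.locRegStatement H9LNC.locNodeStatement
    H20CC.h20cc_chartChange hDich hTau hp hp𝒪 hpS hNS H q hq hqp hqN hq2

end H4S34

end
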