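/-
helper26: item 82 (S34), slice (DICH), abstract part.  Mathlib only (+ `H9LNC.IsNode`).

Setting: `M` a commutative ring (later: the integral closure of `R[t]` in `F1 = K1·F_N`),
`ϖ ∈ M`, `P1 P2` prime ideals with `(ϖ) = P1 ∩ P2` (the two components of the special fibre),
`𝔫` a maximal ideal with `ϖ ∈ 𝔫` (a closed point of the special fibre), `B` the localization of
`M` at `𝔫`.

Hypotheses in localisation-free ELEMENT form:
* `UnifAt P 𝔫 t` : `t ∈ 𝔫`, `t ∉ P` and `t` generates `𝔫` modulo `P` locally at `𝔫`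
  (i.e. `(M/P)_𝔫` is a DVR with uniformizer `t`); follows from `M/P` Dedekind
  (`unifAt_of_dedekind`);
* `TransvAt P1 P2 𝔫` : locally at `𝔫`, `𝔫 = P1 + P2` (conclusion of `H12TR.transv_elem`).

Conclusions (the dichotomy):
* `reg`  : only one component through `𝔫` ⇒ `(ϖ)` is prime in `B` and `𝔪_B = (ϖ, t)`
  (the hypotheses of `H5CA.h5ca_reg_*` / `H21RP`);
* `node` : both components through `𝔫` ⇒ `H9LNC.IsNode ϖ P1B P2B` on `B`;
* `dich` : the disjunction; `vert_*` : transport of a vertical function `g·g' = ϖ^j`.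
-/
import Mathlib
import Fermat.Agent.S34.LNCCore_helper9

set_option autoImplicit false
set_option linter.style.haveILetI false
set_option linter.unusedSectionVars false
set_option linter.unusedVariables false

namespace H26DI

open IsLocalRing

section defs

variable {M : Type*} [CommRing M]

/-- element form of "`(M/P)_𝔫` is a DVR with uniformizer `t`". -/
def UnifAt (P 𝔫 : Ideal M) (t : M) : Prop :=
  t ∈ 𝔫 ∧ t ∉ P ∧ ∀ z ∈ 𝔫, ∃ u : M, u ∉ 𝔫 ∧ ∃ c : M, u * z - c * t ∈ P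

/-- element form of transversality: locally at `𝔫`, `𝔫 = P1 + P2`. -/
def TransvAt (P1 P2 𝔫 : Ideal M) : Prop :=
  ∀ z ∈ 𝔫, ∃ u : M, u ∉ 𝔫 ∧ u * z ∈ P1 ⊔ P2

theorem UnifAt.of_le {P 𝔫 : Ideal M} {t : M} (h : UnifAt P 𝔫 t) : t ∈ 𝔫 := h.1

end defs

section dedekind

variable {M : Type*} [CommRing M]

/-- If `M/P` is a Dedekind domain and `𝔫 ⊋ P` is maximal, then `(M/P)_𝔫` has a uniformizer
coming from `M` (element form). -/
theorem unifAt_of_dedekind (P 𝔫 : Ideal M) [P.IsPrime] [h𝔫 : 𝔫.IsMaximal]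
    [IsDedekindDomain (M ⧸ P)] (hle : P ≤ 𝔫) (hne : P ≠ 𝔫) :
    ∃ t : M, UnifAt P 𝔫 t := by
  classical
  set mk := Ideal.Quotient.mk P with hmk
  have hsurj : Function.Surjective mk := Ideal.Quotient.mk_surjective
  set 𝔮 : Ideal (M ⧸ P) := 𝔫.map mk with h𝔮
  have hcomap : 𝔮.comap mk = 𝔫 := by
    rw [h𝔮, Ideal.comap_map_of_surjective mk hsurj]
    have : Ideal.comap mk ⊥ = P := by
      rw [← RingHom.ker_eq_comap_bot, hmk, Ideal.mk_ker]
    rw [this]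
    exact sup_eq_left.mpr hle
  have hmem : ∀ x : M, mk x ∈ 𝔮 ↔ x ∈ 𝔫 := by
    intro x
    rw [← Ideal.mem_comap, hcomap]
  have h𝔮top : 𝔮 ≠ ⊤ := by
    intro h
    have h1 : mk 1 ∈ 𝔮 := by rw [h]; exact Submodule.mem_top
    exact h𝔫.ne_top ((Ideal.eq_top_iff_one 𝔫).mpr ((hmem 1).mp h1))
  have h𝔮bot : 𝔮 ≠ ⊥ := by
    intro h
    apply hne
    apply le_antisymm hle
    intro x hx
    have h1 : mk x ∈ 𝔮 := (hmem x).mpr hx
    rw [h, Ideal.mem_bot] at h1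
    exact Ideal.Quotient.eq_zero_iff_mem.mp h1
  obtain ⟨tb, htb1, htb2⟩ := Ideal.exists_mem_pow_notMem_pow_succ 𝔮 h𝔮bot h𝔮top 1
  rw [pow_one] at htb1
  obtain ⟨t, rfl⟩ := hsurj tb
  have hdvd : 𝔮 ∣ Ideal.span {mk t} := by
    rw [Ideal.dvd_iff_le, Ideal.span_singleton_le_iff_mem]
    exact htb1
  obtain ⟨J, hJ⟩ := hdvd
  have hJ𝔮 : ¬ J ≤ 𝔮 := by
    intro hle'
    apply htb2
    have h1 : mk t ∈ Ideal.span {mk t} := Ideal.mem_span_singleton_self _
    rw [hJ] at h1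
    have h2 : 𝔮 * J ≤ 𝔮 ^ (1 + 1) := by
      rw [pow_succ, pow_one]
      exact Ideal.mul_mono_right hle'
    exact h2 h1
  obtain ⟨ub, hub1, hub2⟩ := SetLike.not_le_iff_exists.mp hJ𝔮
  obtain ⟨u, rfl⟩ := hsurj ub
  refine ⟨t, (hmem t).mp htb1, ?_, ?_⟩
  · intro htP
    apply htb2
    rw [Ideal.Quotient.eq_zero_iff_mem.mpr htP]
    exact Ideal.zero_mem _
  · intro z hz
    refine ⟨u, fun hu => hub2 ((hmem u).mpr hu), ?_⟩
    have h1 : mk z * mk u ∈ 𝔮 * J := Ideal.mul_mem_mul ((hmem z).mpr hz) hub1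
    rw [← hJ, Ideal.mem_span_singleton'] at h1
    obtain ⟨cb, hcb⟩ := h1
    obtain ⟨c, rfl⟩ := hsurj cb
    refine ⟨c, ?_⟩
    rw [← Ideal.Quotient.eq_zero_iff_mem, map_sub, map_mul, map_mul]
    show mk u * mk z - mk c * mk t = 0
    rw [hcb]
    ring

end dedekind

section loc

variable {M : Type*} [CommRing M] (𝔫 : Ideal M) [h𝔫 : 𝔫.IsMaximal]
variable (B : Type*) [CommRing B] [Algebra M B] [IsLocalization.AtPrime B 𝔫]

/-- a prime below `𝔫` stays prime in `B = M_𝔫` -/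
theorem map_isPrime (P : Ideal M) [hP : P.IsPrime] (hle : P ≤ 𝔫) :
    (P.map (algebraMap M B)).IsPrime := by
  refine IsLocalization.isPrime_of_isPrime_disjoint 𝔫.primeCompl B P hP ?_
  rw [Set.disjoint_left]
  intro x hx hxP
  exact hx (hle hxP)

/-- contraction of the extension of a prime below `𝔫` -/
theorem mem_map_iff (P : Ideal M) [hP : P.IsPrime] (hle : P ≤ 𝔫) (x : M) :
    algebraMap M B x ∈ P.map (algebraMap M B) ↔ x ∈ P := by
  have hd : Disjoint (𝔫.primeCompl : Set M) (P : Set M) := by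
    rw [Set.disjoint_left]
    intro x hx hxP
    exact hx (hle hxP)
  have h := IsLocalization.under_map_of_isPrime_disjoint 𝔫.primeCompl B hP hd
  constructor
  · intro hx
    have : x ∈ (Ideal.map (algebraMap M B) P).under M := hx
    rwa [h] at this
  · intro hx
    exact Ideal.mem_map_of_mem _ hx

/-- an ideal not below `𝔫` becomes the unit ideal in `B = M_𝔫` -/
theorem map_eq_top (P : Ideal M) (hnle : ¬ P ≤ 𝔫) : P.map (algebraMap M B) = ⊤ := by
  obtain ⟨s, hsP, hs𝔫⟩ := SetLike.not_le_iff_exists.mp hnle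
  have hu : IsUnit (algebraMap M B s) :=
    IsLocalization.map_units B (⟨s, hs𝔫⟩ : 𝔫.primeCompl)
  exact Ideal.eq_top_of_isUnit_mem _ (Ideal.mem_map_of_mem _ hsP) hu

include h𝔫 in
/-- `(ϖ) = P1 ∩ P2` localizes -/
theorem span_map_eq (ϖ : M) (P1 P2 : Ideal M) (hspan : Ideal.span {ϖ} = P1 ⊓ P2) :
    Ideal.span {algebraMap M B ϖ} = P1.map (algebraMap M B) ⊓ P2.map (algebraMap M B) := by
  rw [← IsLocalization.map_inf 𝔫.primeCompl B, ← hspan, Ideal.map_span, Set.image_singleton]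

variable [IsLocalRing B]

/-- the maximal ideal of `B` is generated by the image of `𝔫` -/
theorem maximalIdeal_eq_map : maximalIdeal B = 𝔫.map (algebraMap M B) :=
  (IsLocalization.AtPrime.map_eq_maximalIdeal 𝔫 B).symm

theorem map_le_maximalIdeal (P : Ideal M) (hle : P ≤ 𝔫) :
    P.map (algebraMap M B) ≤ maximalIdeal B := by
  rw [maximalIdeal_eq_map 𝔫 B]
  exact Ideal.map_mono hle

/-- `UnifAt` localizes: `𝔪_B = P·B + (t)` -/
theorem maximalIdeal_eq_sup_span (P : Ideal M) (hle : P ≤ 𝔫) (t : M) (ht : UnifAt P 𝔫 t) :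
    maximalIdeal B = P.map (algebraMap M B) ⊔ Ideal.span {algebraMap M B t} := by
  apply le_antisymm
  · rw [maximalIdeal_eq_map 𝔫 B, Ideal.map_le_iff_le_comap]
    intro z hz
    rw [Ideal.mem_comap]
    obtain ⟨u, hu, c, hc⟩ := ht.2.2 z hz
    have huu : IsUnit (algebraMap M B u) :=
      IsLocalization.map_units B (⟨u, hu⟩ : 𝔫.primeCompl)
    obtain ⟨v, hv⟩ := huu
    have h1 : algebraMap M B u * algebraMap M B z =
        algebraMap M B (u * z - c * t) + algebraMap M B c * algebraMap M B t := by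
      rw [← map_mul, ← map_mul, ← map_add]
      congr 1
      ring
    have h2 : algebraMap M B u * algebraMap M B z ∈
        P.map (algebraMap M B) ⊔ Ideal.span {algebraMap M B t} := by
      rw [h1]
      exact Ideal.add_mem _ (Ideal.mem_sup_left (Ideal.mem_map_of_mem _ hc))
        (Ideal.mem_sup_right (Ideal.mul_mem_left _ _ (Ideal.mem_span_singleton_self _)))
    have h3 : algebraMap M B z = (↑v⁻¹ : B) * (algebraMap M B u * algebraMap M B z) := by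
      rw [← hv, ← mul_assoc, Units.inv_mul, one_mul]
    rw [h3]
    exact Ideal.mul_mem_left _ _ h2
  · refine sup_le (map_le_maximalIdeal 𝔫 B P hle) ?_
    rw [Ideal.span_singleton_le_iff_mem, maximalIdeal_eq_map 𝔫 B]
    exact Ideal.mem_map_of_mem _ ht.1

/-- `TransvAt` localizes: `𝔪_B = P1·B + P2·B` -/
theorem sup_map_eq_maximalIdeal (P1 P2 : Ideal M) (h1 : P1 ≤ 𝔫) (h2 : P2 ≤ 𝔫)
    (htr : TransvAt P1 P2 𝔫) :
    P1.map (algebraMap M B) ⊔ P2.map (algebraMap M B) = maximalIdeal B := by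
  apply le_antisymm
  · exact sup_le (map_le_maximalIdeal 𝔫 B P1 h1) (map_le_maximalIdeal 𝔫 B P2 h2)
  · rw [maximalIdeal_eq_map 𝔫 B, Ideal.map_le_iff_le_comap]
    intro z hz
    rw [Ideal.mem_comap]
    obtain ⟨u, hu, huz⟩ := htr z hz
    have huu : IsUnit (algebraMap M B u) :=
      IsLocalization.map_units B (⟨u, hu⟩ : 𝔫.primeCompl)
    obtain ⟨v, hv⟩ := huu
    have h3 : algebraMap M B (u * z) ∈ P1.map (algebraMap M B) ⊔ P2.map (algebraMap M B) := by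
      rw [← Ideal.map_sup]
      exact Ideal.mem_map_of_mem _ huz
    have h4 : algebraMap M B z = (↑v⁻¹ : B) * algebraMap M B (u * z) := by
      rw [map_mul, ← hv, ← mul_assoc, Units.inv_mul, one_mul]
    rw [h4]
    exact Ideal.mul_mem_left _ _ h3

/-- **(DICH), regular case**: only the component `P1` passes through `𝔫`.  Then `(ϖ)` is a
prime of `B = M_𝔫` and `𝔪_B = (ϖ, t)`. -/
theorem reg (ϖ : M) (P1 P2 : Ideal M) [hP1 : P1.IsPrime]
    (hspan : Ideal.span {ϖ} = P1 ⊓ P2) (h1 : P1 ≤ 𝔫) (h2 : ¬ P2 ≤ 𝔫) (t : M)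
    (ht : UnifAt P1 𝔫 t) :
    (Ideal.span {algebraMap M B ϖ}).IsPrime ∧
      maximalIdeal B = Ideal.span {algebraMap M B ϖ, algebraMap M B t} := by
  have hs : Ideal.span {algebraMap M B ϖ} = P1.map (algebraMap M B) := by
    rw [span_map_eq 𝔫 B ϖ P1 P2 hspan, map_eq_top 𝔫 B P2 h2, inf_top_eq]
  refine ⟨?_, ?_⟩
  · rw [hs]
    exact map_isPrime 𝔫 B P1 h1
  · rw [maximalIdeal_eq_sup_span 𝔫 B P1 h1 t ht, ← hs, ← Ideal.span_union,
      Set.singleton_union]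

/-- **(DICH), regular case**, symmetric form. -/
theorem reg' (ϖ : M) (P1 P2 : Ideal M) [hP2 : P2.IsPrime]
    (hspan : Ideal.span {ϖ} = P1 ⊓ P2) (h1 : ¬ P1 ≤ 𝔫) (h2 : P2 ≤ 𝔫) (t : M)
    (ht : UnifAt P2 𝔫 t) :
    (Ideal.span {algebraMap M B ϖ}).IsPrime ∧
      maximalIdeal B = Ideal.span {algebraMap M B ϖ, algebraMap M B t} :=
  reg 𝔫 B ϖ P2 P1 (by rw [hspan, inf_comm]) h2 h1 t ht

variable [IsDomain B]

/-- the quotient of `B` by the extension of a component is a DVR -/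
theorem dvr_quot [IsNoetherianRing M] (P : Ideal M) [hP : P.IsPrime] (hle : P ≤ 𝔫) (t : M)
    (ht : UnifAt P 𝔫 t) [hP' : (P.map (algebraMap M B)).IsPrime] :
    IsDiscreteValuationRing (B ⧸ P.map (algebraMap M B)) := by
  set P' := P.map (algebraMap M B) with hP'def
  haveI : IsNoetherianRing B := IsLocalization.isNoetherianRing 𝔫.primeCompl B inferInstance
  haveI : IsDomain (B ⧸ P') := Ideal.Quotient.isDomain P'
  haveI : IsLocalRing (B ⧸ P') :=
    IsLocalRing.of_surjective' (Ideal.Quotient.mk P') Ideal.Quotient.mk_surjective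
  have hmaxeq := maximalIdeal_eq_sup_span 𝔫 B P hle t ht
  -- the maximal ideal of the quotient
  have hmax : maximalIdeal (B ⧸ P') = Ideal.span {Ideal.Quotient.mk P' (algebraMap M B t)} := by
    apply le_antisymm
    · intro x hx
      obtain ⟨b, rfl⟩ := Ideal.Quotient.mk_surjective x
      have hb : b ∈ maximalIdeal B := by
        rw [mem_maximalIdeal, mem_nonunits_iff] at hx ⊢
        exact fun hbu => hx (hbu.map _)
      rw [hmaxeq] at hb
      obtain ⟨p, hp, y, hy, rfl⟩ := Submodule.mem_sup.mp hb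
      obtain ⟨c, rfl⟩ := Ideal.mem_span_singleton'.mp hy
      rw [map_add, Ideal.Quotient.eq_zero_iff_mem.mpr hp, zero_add, map_mul]
      exact Ideal.mul_mem_left _ _ (Ideal.mem_span_singleton_self _)
    · rw [Ideal.span_singleton_le_iff_mem, mem_maximalIdeal, mem_nonunits_iff]
      intro hu
      have hin : algebraMap M B t ∈ maximalIdeal B := by
        rw [maximalIdeal_eq_map 𝔫 B]
        exact Ideal.mem_map_of_mem _ ht.1
      have hnu : ¬ IsUnit (algebraMap M B t) := (mem_maximalIdeal _).mp hin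
      exact hnu ((H9LNC.isUnit_mk_iff P' hP'.ne_top _).mp hu)
  have hnf : ¬ IsField (B ⧸ P') := by
    rw [IsLocalRing.isField_iff_maximalIdeal_eq, hmax]
    intro h
    have h1 : Ideal.Quotient.mk P' (algebraMap M B t) ∈
        Ideal.span {Ideal.Quotient.mk P' (algebraMap M B t)} :=
      Ideal.mem_span_singleton_self _
    rw [h, Ideal.mem_bot, Ideal.Quotient.eq_zero_iff_mem] at h1
    exact ht.2.1 ((mem_map_iff 𝔫 B P hle t).mp h1)
  refine ((IsDiscreteValuationRing.TFAE (B ⧸ P') hnf).out 0 4).mpr ?_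
  rw [hmax]
  exact ⟨⟨_, rfl⟩⟩

/-- **(DICH), node case**: both components pass through `𝔫`, transversally.  Then `B = M_𝔫` is
a transversal node in the sense of `H9LNC.IsNode`. -/
theorem node [IsNoetherianRing M] (ϖ : M) (P1 P2 : Ideal M) [hP1 : P1.IsPrime]
    [hP2 : P2.IsPrime] (hspan : Ideal.span {ϖ} = P1 ⊓ P2) (h1 : P1 ≤ 𝔫) (h2 : P2 ≤ 𝔫)
    (t1 t2 : M) (ht1 : UnifAt P1 𝔫 t1) (ht2 : UnifAt P2 𝔫 t2) (htr : TransvAt P1 P2 𝔫)
    [hP1' : (P1.map (algebraMap M B)).IsPrime] [hP2' : (P2.map (algebraMap M B)).IsPrime] :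
    H9LNC.IsNode (algebraMap M B ϖ) (P1.map (algebraMap M B)) (P2.map (algebraMap M B)) where
  span_eq := span_map_eq 𝔫 B ϖ P1 P2 hspan
  sup_eq := sup_map_eq_maximalIdeal 𝔫 B P1 P2 h1 h2 htr
  dvr1 := dvr_quot 𝔫 B P1 h1 t1 ht1
  dvr2 := dvr_quot 𝔫 B P2 h2 t2 ht2

/-- transport of a vertical function to `B = M_𝔫` -/
theorem vert (ϖ : M) (P1 P2 : Ideal M) [hP1 : P1.IsPrime] [hP2 : P2.IsPrime]
    (h1 : P1 ≤ 𝔫) (h2 : P2 ≤ 𝔫) (g g' : M) (j : ℕ) (hgg : g * g' = ϖ ^ j) (hg : g ∉ P1)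
    (hg' : g' ∉ P2) :
    algebraMap M B g * algebraMap M B g' = algebraMap M B ϖ ^ j ∧
      algebraMap M B g ∉ P1.map (algebraMap M B) ∧
      algebraMap M B g' ∉ P2.map (algebraMap M B) := by
  refine ⟨by rw [← map_mul, hgg, map_pow], ?_, ?_⟩
  · rw [mem_map_iff 𝔫 B P1 h1]
    exact hg
  · rw [mem_map_iff 𝔫 B P2 h2]
    exact hg'

/-- one of the two components passes through a closed point of the special fibre -/
theorem le_or_le (ϖ : M) (P1 P2 : Ideal M) (hspan : Ideal.span {ϖ} = P1 ⊓ P2) (hϖ : ϖ ∈ 𝔫) :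
    P1 ≤ 𝔫 ∨ P2 ≤ 𝔫 := by
  have hle : P1 ⊓ P2 ≤ 𝔫 := by
    rw [← hspan, Ideal.span_singleton_le_iff_mem]
    exact hϖ
  have hmul : P1 * P2 ≤ 𝔫 := le_trans Ideal.mul_le_inf hle
  exact (Ideal.IsPrime.mul_le inferInstance).mp hmul

/-- **(DICH)**: at a closed point `𝔫 ∋ ϖ` of the special fibre, `B = M_𝔫` is either regular
(`(ϖ)` prime, `𝔪_B = (ϖ, t)`) or a transversal node. -/
theorem dich [IsNoetherianRing M] (ϖ : M) (P1 P2 : Ideal M) [hP1 : P1.IsPrime]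
    [hP2 : P2.IsPrime] (hspan : Ideal.span {ϖ} = P1 ⊓ P2) (hϖ : ϖ ∈ 𝔫)
    (hU1 : P1 ≤ 𝔫 → ∃ t, UnifAt P1 𝔫 t) (hU2 : P2 ≤ 𝔫 → ∃ t, UnifAt P2 𝔫 t)
    (htr : P1 ≤ 𝔫 → P2 ≤ 𝔫 → TransvAt P1 P2 𝔫) :
    ((Ideal.span {algebraMap M B ϖ}).IsPrime ∧
      ∃ t : B, maximalIdeal B = Ideal.span {algebraMap M B ϖ, t}) ∨
    (P1 ≤ 𝔫 ∧ P2 ≤ 𝔫 ∧
      ∃ (_ : (P1.map (algebraMap M B)).IsPrime) (_ : (P2.map (algebraMap M B)).IsPrime),
        H9LNC.IsNode (algebraMap M B ϖ) (P1.map (algebraMap M B))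
          (P2.map (algebraMap M B))) := by
  by_cases h1 : P1 ≤ 𝔫
  · by_cases h2 : P2 ≤ 𝔫
    · right
      obtain ⟨t1, ht1⟩ := hU1 h1
      obtain ⟨t2, ht2⟩ := hU2 h2
      haveI hP1' := map_isPrime 𝔫 B P1 h1
      haveI hP2' := map_isPrime 𝔫 B P2 h2
      exact ⟨h1, h2, hP1', hP2', node 𝔫 B ϖ P1 P2 hspan h1 h2 t1 t2 ht1 ht2 (htr h1 h2)⟩
    · left
      obtain ⟨t1, ht1⟩ := hU1 h1
      obtain ⟨hp, hm⟩ := reg 𝔫 B ϖ P1 P2 hspan h1 h2 t1 ht1
      exact ⟨hp, _, hm⟩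
  · left
    have h2 : P2 ≤ 𝔫 := (le_or_le 𝔫 ϖ P1 P2 hspan hϖ).resolve_left h1
    obtain ⟨t2, ht2⟩ := hU2 h2
    obtain ⟨hp, hm⟩ := reg' 𝔫 B ϖ P1 P2 hspan h1 h2 t2 ht2
    exact ⟨hp, _, hm⟩

end loc

end H26DI
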