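/-
helper26: item 82 (S34), slice (DICH), generic element-form assembly.

Generic setting of `H4S34` (`Chart R t` = integral closure of `R[t]` in `E`).  Given the two
components `P₁, P₂` (primes of the chart with `P₁ ∩ P₂ = ϖ·M₀`), at a closed point `𝔫`:
* `regAt_of_left/right` : only one component through `𝔫`, with a uniformizer ⇒ `H4S34.RegAt`;
* `nodeAt_of`           : both components, uniformizers, transversality, vertical pair ⇒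
                          `H4S34.NodeAt`;
* `dich_elem`           : the dichotomy `RegAt ∨ NodeAt`.
The hypotheses `UnifAt`, `TransvAt` are those of `S34/DichAbs_helper26.lean`.
-/
import Mathlib
import Fermat.Agent.S34.Defs_helper4
import Fermat.Agent.S34.DichAbs_helper26

set_option autoImplicit false
set_option linter.style.haveILetI false
set_option linter.unusedSectionVars false
set_option linter.unusedVariables false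

noncomputable section

namespace H26DI

open H7S18 H4S34

section

variable (R : Type) [CommRing R] {E : Type} [Field E] [Algebra R E]

/-- constants of `R` lie in the chart -/
theorem exists_chart_coe (t : E) (r : R) : ∃ y : Chart R t, (y : E) = algebraMap R E r := by
  refine ⟨⟨algebraMap R E r, ?_⟩, rfl⟩
  have h : algebraMap R E r = algebraMap (Algebra.adjoin R {t}) E
      ⟨algebraMap R E r, Subalgebra.algebraMap_mem _ r⟩ := rfl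
  rw [h]
  exact isIntegral_algebraMap

/-- The two components of the special fibre of the chart `t` (element form):
`P₁, P₂` primes of `M₀` with `P₁ ∩ P₂ = ϖ·M₀`. -/
structure TwoComp (ϖ : R) (t : E) (P₁ P₂ : Ideal (Chart R t)) : Prop where
  prime1 : P₁.IsPrime
  prime2 : P₂.IsPrime
  pi_mem : ∀ y : Chart R t, (y : E) = algebraMap R E ϖ → y ∈ P₁ ∧ y ∈ P₂
  cap : ∀ y : Chart R t, y ∈ P₁ → y ∈ P₂ → ∃ a : Chart R t, (y : E) = algebraMap R E ϖ * a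

variable {R}

theorem TwoComp.symm {ϖ : R} {t : E} {P₁ P₂ : Ideal (Chart R t)} (h : TwoComp R ϖ t P₁ P₂) :
    TwoComp R ϖ t P₂ P₁ :=
  ⟨h.prime2, h.prime1, fun y hy => ⟨(h.pi_mem y hy).2, (h.pi_mem y hy).1⟩,
    fun y h2 h1 => h.cap y h1 h2⟩

/-- one of the components passes through every closed point -/
theorem TwoComp.le_or_le {ϖ : R} {t : E} {P₁ P₂ : Ideal (Chart R t)} (h : TwoComp R ϖ t P₁ P₂)
    (𝔫 : Ideal (Chart R t)) (h𝔫 : IsClosedPt R ϖ t 𝔫) : P₁ ≤ 𝔫 ∨ P₂ ≤ 𝔫 := by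
  haveI := h𝔫.1
  by_contra hcon
  rw [not_or] at hcon
  obtain ⟨a, ha1, ha2⟩ := SetLike.not_le_iff_exists.mp hcon.1
  obtain ⟨b, hb1, hb2⟩ := SetLike.not_le_iff_exists.mp hcon.2
  obtain ⟨c, hc⟩ := h.cap (a * b) (P₁.mul_mem_right _ ha1) (P₂.mul_mem_left _ hb1)
  obtain ⟨y, hy⟩ := exists_chart_coe R t ϖ
  have hy𝔫 : y ∈ 𝔫 := h𝔫.2 y hy
  have hab : a * b = y * c := by
    apply Subtype.ext
    rw [hc, ← hy]
    rfl
  have : a * b ∈ 𝔫 := by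
    rw [hab]
    exact 𝔫.mul_mem_right _ hy𝔫
  rcases (Ideal.IsMaximal.isPrime h𝔫.1).mem_or_mem this with h1 | h1
  · exact ha2 h1
  · exact hb2 h1

/-- **regular point**: only `P₁` passes through `𝔫`. -/
theorem regAt_of_left {ϖ : R} {t : E} {P₁ P₂ : Ideal (Chart R t)} (h : TwoComp R ϖ t P₁ P₂)
    (hϖ0 : algebraMap R E ϖ ≠ 0)
    (𝔫 : Ideal (Chart R t)) (h𝔫 : IsClosedPt R ϖ t 𝔫) (h1 : P₁ ≤ 𝔫) (h2 : ¬ P₂ ≤ 𝔫)
    (x : Chart R t) (hx : UnifAt P₁ 𝔫 x) : RegAt R ϖ t 𝔫 := by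
  haveI := h𝔫.1
  have h𝔫p : 𝔫.IsPrime := Ideal.IsMaximal.isPrime h𝔫.1
  obtain ⟨s₂, hs₂P, hs₂𝔫⟩ := SetLike.not_le_iff_exists.mp h2
  have hP1 := h.prime1
  refine ⟨⟨x, hx.1, ?_⟩, ?_⟩
  · intro y hy
    obtain ⟨u, hu, c, hc⟩ := hx.2.2 y hy
    obtain ⟨a, ha⟩ := h.cap (s₂ * (u * y - c * x)) (P₁.mul_mem_left _ hc)
      (P₂.mul_mem_right _ hs₂P)
    refine ⟨s₂ * u, a, s₂ * c, fun hmem => ?_, ?_⟩
    · rcases h𝔫p.mem_or_mem hmem with h' | h'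
      · exact hs₂𝔫 h'
      · exact hu h'
    · have e : ((s₂ * (u * y - c * x) : Chart R t) : E) = algebraMap R E ϖ * a := ha
      have e' : ((s₂ * (u * y - c * x) : Chart R t) : E) =
          (s₂ : E) * ((u : E) * (y : E) - (c : E) * (x : E)) := rfl
      rw [e'] at e
      show ((s₂ : E) * (u : E)) * (y : E) = (a : E) * algebraMap R E ϖ + ((s₂ : E) * (c : E)) * x
      linear_combination e
  · intro a b hab
    obtain ⟨a₀, s, hs, hsa⟩ := hab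
    obtain ⟨yϖ, hyϖ⟩ := exists_chart_coe R t ϖ
    have hyϖ1 : yϖ ∈ P₁ := (h.pi_mem yϖ hyϖ).1
    have hmul : s * (a * b) = yϖ * a₀ := by
      apply Subtype.ext
      show (s : E) * ((a : E) * (b : E)) = (yϖ : E) * (a₀ : E)
      rw [hyϖ, ← hsa]
      field_simp
    have hmem : s * (a * b) ∈ P₁ := by
      rw [hmul]
      exact P₁.mul_mem_right _ hyϖ1
    have hs1 : s ∉ P₁ := fun h' => hs (h1 h')
    have hab1 : a * b ∈ P₁ := (hP1.mem_or_mem hmem).resolve_left hs1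
    have key : ∀ z : Chart R t, z ∈ P₁ → InLoc R t 𝔫 ((z : E) * (algebraMap R E ϖ)⁻¹) := by
      intro z hz
      obtain ⟨a', ha'⟩ := h.cap (s₂ * z) (P₁.mul_mem_left _ hz) (P₂.mul_mem_right _ hs₂P)
      refine ⟨a', s₂, hs₂𝔫, ?_⟩
      have e : (s₂ : E) * (z : E) = algebraMap R E ϖ * a' := ha'
      field_simp
      linear_combination e
    rcases hP1.mem_or_mem hab1 with h' | h'
    · exact Or.inl (key a h')
    · exact Or.inr (key b h')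

/-- **regular point**: only `P₂` passes through `𝔫`. -/
theorem regAt_of_right {ϖ : R} {t : E} {P₁ P₂ : Ideal (Chart R t)} (h : TwoComp R ϖ t P₁ P₂)
    (hϖ0 : algebraMap R E ϖ ≠ 0)
    (𝔫 : Ideal (Chart R t)) (h𝔫 : IsClosedPt R ϖ t 𝔫) (h1 : ¬ P₁ ≤ 𝔫) (h2 : P₂ ≤ 𝔫)
    (x : Chart R t) (hx : UnifAt P₂ 𝔫 x) : RegAt R ϖ t 𝔫 :=
  regAt_of_left h.symm hϖ0 𝔫 h𝔫 h2 h1 x hx

/-- **transversal node**: both components pass through `𝔫`. -/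
theorem nodeAt_of {ϖ : R} {t : E} {P₁ P₂ : Ideal (Chart R t)} (h : TwoComp R ϖ t P₁ P₂)
    (hϖ0 : algebraMap R E ϖ ≠ 0)
    (𝔫 : Ideal (Chart R t)) (h1 : P₁ ≤ 𝔫) (h2 : P₂ ≤ 𝔫)
    (x₁ : Chart R t) (hx₁ : UnifAt P₁ 𝔫 x₁) (x₂ : Chart R t) (hx₂ : UnifAt P₂ 𝔫 x₂)
    (htr : TransvAt P₁ P₂ 𝔫)
    (hv : ∃ (a a' s s' : Chart R t) (j : ℕ), 1 ≤ j ∧ s ∉ 𝔫 ∧ s' ∉ 𝔫 ∧ a ∉ P₁ ∧ a' ∉ P₂ ∧
      (a : E) * a' = algebraMap R E ϖ ^ j * (s * s')) (h𝔫 : 𝔫 ≠ ⊤) :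
    NodeAt R ϖ t 𝔫 := by
  refine ⟨P₁, P₂, h.prime1, h.prime2, h1, h2, h.pi_mem, ?_, htr, ?_, ?_, hv⟩
  · intro y hy1 hy2
    obtain ⟨a, ha⟩ := h.cap y hy1 hy2
    refine ⟨a, 1, fun h' => h𝔫 ((Ideal.eq_top_iff_one 𝔫).mpr h'), ?_⟩
    rw [ha]
    show (1 : E) * _ = _
    field_simp
  · obtain ⟨hx1, hx2, hx3⟩ := hx₁
    refine ⟨x₁, hx1, hx2, fun y hy => ?_⟩
    obtain ⟨u, hu, c, hc⟩ := hx3 y hy
    exact ⟨u, c, hu, hc⟩
  · obtain ⟨hx1, hx2, hx3⟩ := hx₂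
    refine ⟨x₂, hx1, hx2, fun y hy => ?_⟩
    obtain ⟨u, hu, c, hc⟩ := hx3 y hy
    exact ⟨u, c, hu, hc⟩

/-- **(DICH), generic element form**: with the two components `P₁, P₂`, uniformizers on each
component, transversality and a vertical pair at the common points, every closed point is a
regular point or a transversal node with a vertical pair. -/
theorem dich_elem {ϖ : R} {t : E} {P₁ P₂ : Ideal (Chart R t)} (h : TwoComp R ϖ t P₁ P₂)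
    (hϖ0 : algebraMap R E ϖ ≠ 0)
    (𝔫 : Ideal (Chart R t)) (h𝔫 : IsClosedPt R ϖ t 𝔫)
    (hU1 : P₁ ≤ 𝔫 → ∃ x, UnifAt P₁ 𝔫 x) (hU2 : P₂ ≤ 𝔫 → ∃ x, UnifAt P₂ 𝔫 x)
    (htr : P₁ ≤ 𝔫 → P₂ ≤ 𝔫 → TransvAt P₁ P₂ 𝔫)
    (hv : P₁ ≤ 𝔫 → P₂ ≤ 𝔫 →
      ∃ (a a' s s' : Chart R t) (j : ℕ), 1 ≤ j ∧ s ∉ 𝔫 ∧ s' ∉ 𝔫 ∧ a ∉ P₁ ∧ a' ∉ P₂ ∧
        (a : E) * a' = algebraMap R E ϖ ^ j * (s * s')) :
    RegAt R ϖ t 𝔫 ∨ NodeAt R ϖ t 𝔫 := by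
  by_cases h1 : P₁ ≤ 𝔫
  · by_cases h2 : P₂ ≤ 𝔫
    · right
      obtain ⟨x₁, hx₁⟩ := hU1 h1
      obtain ⟨x₂, hx₂⟩ := hU2 h2
      exact nodeAt_of h hϖ0 𝔫 h1 h2 x₁ hx₁ x₂ hx₂ (htr h1 h2) (hv h1 h2) h𝔫.1.ne_top
    · left
      obtain ⟨x₁, hx₁⟩ := hU1 h1
      exact regAt_of_left h hϖ0 𝔫 h𝔫 h1 h2 x₁ hx₁
  · left
    have h2 : P₂ ≤ 𝔫 := (h.le_or_le 𝔫 h𝔫).resolve_left h1
    obtain ⟨x₂, hx₂⟩ := hU2 h2
    exact regAt_of_right h hϖ0 𝔫 h𝔫 h1 h2 x₂ hx₂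

/-- **(DICH) at separated points**: if at most one component passes through `𝔫`
(cusp separation), `𝔫` is a regular point. -/
theorem regAt_of_sep {ϖ : R} {t : E} {P₁ P₂ : Ideal (Chart R t)} (h : TwoComp R ϖ t P₁ P₂)
    (hϖ0 : algebraMap R E ϖ ≠ 0)
    (𝔫 : Ideal (Chart R t)) (h𝔫 : IsClosedPt R ϖ t 𝔫)
    (hU1 : P₁ ≤ 𝔫 → ∃ x, UnifAt P₁ 𝔫 x) (hU2 : P₂ ≤ 𝔫 → ∃ x, UnifAt P₂ 𝔫 x)
    (hsep : ¬ (P₁ ≤ 𝔫 ∧ P₂ ≤ 𝔫)) : RegAt R ϖ t 𝔫 := by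
  by_cases h1 : P₁ ≤ 𝔫
  · have h2 : ¬ P₂ ≤ 𝔫 := fun h2 => hsep ⟨h1, h2⟩
    obtain ⟨x₁, hx₁⟩ := hU1 h1
    exact regAt_of_left h hϖ0 𝔫 h𝔫 h1 h2 x₁ hx₁
  · have h2 : P₂ ≤ 𝔫 := (h.le_or_le 𝔫 h𝔫).resolve_left h1
    obtain ⟨x₂, hx₂⟩ := hU2 h2
    exact regAt_of_right h hϖ0 𝔫 h𝔫 h1 h2 x₂ hx₂

end

end H26DI

end
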