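import Fermat.Agent.S34.ALqK_helper12
import Fermat.Agent.S18.DefsD

/-!
# Item 82 (S34), input (I1) at the `K₁`-level: INTERFACE (helper8)

Level `N = M q`, `q` prime, `q ∤ M`; `K₁ ⊆ ℚ̄`, `R = descVal A K₁ = A ∩ K₁`, `F₁ = FK K₁ (M q)`,
`w = H12AL.wqKHom K₁ M q` (Atkin–Lehner), `t` a base function.

* `InG R x`  : the series `x ∈ K₁((𝐪))` lies in the Gauss ring `O_{w₁}` of `R`
               (`x · ε g = ε f` with `f, g ∈ R((𝐪))`, `g` with a unit coefficient);
* `InGm R x` : `x` lies in its maximal ideal (moreover no coefficient of `f` is a unit).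

`PairGaussStatement` (**(I1)**):  for `x ∈ F₁`
* `GInt R ϖ t x ↔ InG x ∧ InG (w x)`                (`O = O_{w₁} ∩ O_{w₂}`: no third extension);
* `InGm x → InGm (w x) → ModPi R ϖ t x 0`           (`ϖ O = 𝔭₁ ∩ 𝔭₂`: `e(w₁) = e(w₂) = 1`).

Proof (helper8, in progress): pair basis `y_{a,i} = b_a · j_q^i` (`S34/PairBasisCore/Lift_helper8`).
-/

set_option autoImplicit false
set_option synthInstance.maxHeartbeats 400000

noncomputable section

open ModularCurve H7S18

namespace H8PB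

/-- `x ∈ O_{w₁}`, the Gauss ring of `R` in `K((𝐪))`. -/
def InG {K : Type} [Field K] (R : ValuationSubring K) (x : LaurentSeries K) : Prop :=
  ∃ f g : LaurentSeries R, (∃ n, IsUnit (g.coeff n)) ∧
    x * coeffMap R.subtype g = coeffMap R.subtype f

/-- `x ∈ 𝔪_{w₁}`, the maximal ideal of the Gauss ring. -/
def InGm {K : Type} [Field K] (R : ValuationSubring K) (x : LaurentSeries K) : Prop :=
  ∃ f g : LaurentSeries R, (∃ n, IsUnit (g.coeff n)) ∧ (∀ n, ¬ IsUnit (f.coeff n)) ∧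
    x * coeffMap R.subtype g = coeffMap R.subtype f

/-- **(I1)** at the `K₁`-level (see the header). -/
def PairGaussStatement : Prop :=
  ∀ (M : ℕ) [NeZero M] (q : ℕ) [NeZero q] (hq : q.Prime) (hqM : ¬ q ∣ M) (_ : TameLevel q M)
    (A : ValuationSubring (AlgebraicClosure ℚ)) (_ : A.LiesOverPrime q)
    (K₁ : IntermediateField ℚ (AlgebraicClosure ℚ)) (_ : FiniteDimensional ℚ K₁)
    [Algebra ↥(descVal A K₁) (FK K₁ (M * q))]
    [IsScalarTower ↥(descVal A K₁) K₁ (FK K₁ (M * q))]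
    (ϖ : ↥(descVal A K₁)) (_ : Irreducible ϖ)
    (t₀ : LaurentSeries ℚ) (_ : IsBase (baseKind q) t₀)
    (t : FK K₁ (M * q)) (_ : (t : LaurentSeries K₁) = coeffEmb K₁ t₀)
    (x : FK K₁ (M * q)),
    (GInt ↥(descVal A K₁) ϖ t x ↔
      InG (descVal A K₁) (x : LaurentSeries K₁) ∧
        InG (descVal A K₁) ((H12AL.wqKHom K₁ M q hq hqM x : FK K₁ (M * q)) :
          LaurentSeries K₁)) ∧
    (InGm (descVal A K₁) (x : LaurentSeries K₁) →
      InGm (descVal A K₁) ((H12AL.wqKHom K₁ M q hq hqM x : FK K₁ (M * q)) :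
        LaurentSeries K₁) →
      ModPi ↥(descVal A K₁) ϖ t x 0)

end H8PB

end
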