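import Mathlib
import Fermat.Agent.S18.GVBase_helper28
import Fermat.Agent.S34.PairDefs_helper8
import Fermat.Agent.S34.DichElem_helper26

/-!
# Item 82 (S34), (DICH) concrete, part (b) (helper22): the two components of a chart

Generic part.  `K` a field, `R` a valuation subring of `K`, `S` an intermediate field of
`K((𝐪)) / K`, `c : S`, `M₀ = H4S34.Chart R c`, `σ : S →+* S` (later `id` and the Atkin–Lehner
involution `w`).

* `H22DC.inG_iff`, `H22DC.inGm_iff` : `H8PB.InG`, `H8PB.InGm` in the language of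
  `H28GV.gvO`, `H28GV.gvRed` (with `π` the residue map of `R`);
* `H22DC.compIdeal σ hmem : Ideal M₀`, the kernel of `y ↦ gvRed (σ y)`; it is prime
  (`compIdeal_isPrime`) and `y ∈ compIdeal ↔ InGm R (σ y)` (`mem_compIdeal`).
-/

set_option autoImplicit false
set_option synthInstance.maxHeartbeats 400000
set_option linter.unusedSectionVars false
set_option linter.style.haveILetI false

noncomputable section

open ModularCurve H7S18 H4S34 H28GV

namespace H22DC

section Gauss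

variable {K : Type} [Field K] (R : ValuationSubring K)

/-- the residue map of `R` -/
abbrev resR : ↥R →+* IsLocalRing.ResidueField ↥R := IsLocalRing.residue ↥R

theorem gvRho_ne_zero_iff (g : LaurentSeries ↥R) :
    gvRho R (resR R) g ≠ 0 ↔ ∃ n, IsUnit (g.coeff n) := by
  constructor
  · intro h
    by_contra hcon
    rw [not_exists] at hcon
    apply h
    ext n
    rw [gvRho_coeff]
    have : g.coeff n ∈ IsLocalRing.maximalIdeal ↥R := by
      rw [IsLocalRing.mem_maximalIdeal, mem_nonunits_iff]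
      exact hcon n
    show (IsLocalRing.residue ↥R) (g.coeff n) = 0
    rw [IsLocalRing.residue_eq_zero_iff]
    exact this
  · rintro ⟨n, hn⟩ h0
    have h1 : (gvRho R (resR R) g).coeff n = 0 := by rw [h0]; rfl
    rw [gvRho_coeff, IsLocalRing.residue_eq_zero_iff, IsLocalRing.mem_maximalIdeal,
      mem_nonunits_iff] at h1
    exact h1 hn

theorem gvRho_eq_zero_iff (f : LaurentSeries ↥R) :
    gvRho R (resR R) f = 0 ↔ ∀ n, ¬ IsUnit (f.coeff n) := by
  rw [← not_iff_not, ← ne_eq, gvRho_ne_zero_iff, not_forall]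
  simp only [not_not]

/-- `InG` is membership in the Gauss ring `gvO`. -/
theorem inG_iff (x : LaurentSeries K) : H8PB.InG R x ↔ x ∈ gvO R (resR R) := by
  constructor
  · rintro ⟨f, g, hg, h⟩
    exact ⟨f, g, (gvRho_ne_zero_iff R g).mpr hg, h⟩
  · rintro ⟨f, g, hg, h⟩
    exact ⟨f, g, (gvRho_ne_zero_iff R g).mp hg, h⟩

/-- `InGm` is the kernel of the reduction map `gvRed`. -/
theorem inGm_iff (x : LaurentSeries K) :
    H8PB.InGm R x ↔ ∃ h : x ∈ gvO R (resR R), gvRed R (resR R) ⟨x, h⟩ = 0 := by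
  constructor
  · rintro ⟨f, g, hg, hf, h⟩
    have hg' := (gvRho_ne_zero_iff R g).mpr hg
    refine ⟨⟨f, g, hg', h⟩, ?_⟩
    rw [gvRed_eq R (resR R) ⟨x, ⟨f, g, hg', h⟩⟩ f g hg' h, (gvRho_eq_zero_iff R f).mpr hf,
      zero_div]
  · rintro ⟨⟨f, g, hg, h⟩, h0⟩
    rw [gvRed_eq R (resR R) ⟨x, ⟨f, g, hg, h⟩⟩ f g hg h, div_eq_zero_iff] at h0
    rcases h0 with h0 | h0
    · exact ⟨f, g, (gvRho_ne_zero_iff R g).mp hg, (gvRho_eq_zero_iff R f).mp h0, h⟩
    · exact absurd h0 hg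

theorem inGm_inG {x : LaurentSeries K} (h : H8PB.InGm R x) : H8PB.InG R x := by
  obtain ⟨f, g, hg, -, h⟩ := h
  exact ⟨f, g, hg, h⟩

end Gauss

section Comp

variable {K : Type} [Field K] (R : ValuationSubring K)
  {S : IntermediateField K (LaurentSeries K)} [Algebra ↥R ↥S]
  (c : ↥S) (σ : ↥S →+* ↥S)

/-- the ring homomorphism `M₀ → gvO`, `y ↦ σ y`. -/
def toGv (hmem : ∀ y : Chart ↥R c, H8PB.InG R ((σ (y : ↥S) : ↥S) : LaurentSeries K)) :
    Chart ↥R c →+* ↥(gvO R (resR R)) where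
  toFun y := ⟨((σ (y : ↥S) : ↥S) : LaurentSeries K), (inG_iff R _).mp (hmem y)⟩
  map_one' := by
    apply Subtype.ext
    simp
  map_mul' x y := by
    apply Subtype.ext
    simp
  map_zero' := by
    apply Subtype.ext
    simp
  map_add' x y := by
    apply Subtype.ext
    simp

/-- **the component** `{y ∈ M₀ | σ y ∈ 𝔪_{w₁}}`. -/
def compIdeal (hmem : ∀ y : Chart ↥R c, H8PB.InG R ((σ (y : ↥S) : ↥S) : LaurentSeries K)) :
    Ideal (Chart ↥R c) :=
  RingHom.ker ((gvRed R (resR R)).comp (toGv R c σ hmem))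

theorem compIdeal_isPrime
    (hmem : ∀ y : Chart ↥R c, H8PB.InG R ((σ (y : ↥S) : ↥S) : LaurentSeries K)) :
    (compIdeal R c σ hmem).IsPrime :=
  RingHom.ker_isPrime _

theorem mem_compIdeal
    (hmem : ∀ y : Chart ↥R c, H8PB.InG R ((σ (y : ↥S) : ↥S) : LaurentSeries K))
    (y : Chart ↥R c) :
    y ∈ compIdeal R c σ hmem ↔ H8PB.InGm R ((σ (y : ↥S) : ↥S) : LaurentSeries K) := by
  rw [compIdeal, RingHom.mem_ker, inGm_iff]
  constructor
  · intro h
    exact ⟨(inG_iff R _).mp (hmem y), h⟩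
  · rintro ⟨h, h0⟩
    exact h0

end Comp

section Two

variable {K : Type} [Field K] (R : ValuationSubring K)
  {S : IntermediateField K (LaurentSeries K)} [Algebra ↥R ↥S] [IsScalarTower ↥R K ↥S]

theorem coe_algebraMap_R (r : ↥R) :
    ((algebraMap ↥R ↥S r : ↥S) : LaurentSeries K) = HahnSeries.C ((r : ↥R) : K) := by
  rw [IsScalarTower.algebraMap_apply ↥R K ↥S]
  show algebraMap K (LaurentSeries K) (algebraMap ↥R K r) = _
  rw [algebraMap_laurentSeries_eq_single]
  rfl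

theorem inGm_algebraMap {ϖ : ↥R} (hϖ : ¬ IsUnit ϖ) :
    H8PB.InGm R ((algebraMap ↥R ↥S ϖ : ↥S) : LaurentSeries K) := by
  refine ⟨HahnSeries.C ϖ, 1, ⟨0, ?_⟩, ?_, ?_⟩
  · rw [HahnSeries.coeff_one]
    simp
  · intro n
    by_cases hn : n = 0
    · subst hn
      simpa using hϖ
    · rw [HahnSeries.C_apply, HahnSeries.coeff_single_of_ne hn]
      exact not_isUnit_zero
  · rw [map_one, mul_one, coe_algebraMap_R]
    exact (gvEps_C R ϖ).symm

/-- **The two components** (generic core): from the pair statement `hPG` (the content of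
`H8PB.PairGaussStatement` at `x`), for a chart `c` whose elements are `GInt` and which is
saturated in `O` (Lemma U). -/
theorem twoComp_core (ϖ : ↥R) (hϖ : ¬ IsUnit ϖ) (t c : ↥S) (w : ↥S →+* ↥S)
    (hwϖ : w (algebraMap ↥R ↥S ϖ) = algebraMap ↥R ↥S ϖ)
    (hPG : ∀ x : ↥S, (GInt ↥R ϖ t x ↔
        H8PB.InG R (x : LaurentSeries K) ∧ H8PB.InG R ((w x : ↥S) : LaurentSeries K)) ∧
      (H8PB.InGm R (x : LaurentSeries K) → H8PB.InGm R ((w x : ↥S) : LaurentSeries K) →
        ModPi ↥R ϖ t x 0))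
    (hint : ∀ y : Chart ↥R c, GInt ↥R ϖ t (y : ↥S))
    (hU : ∀ z : ↥S, GInt ↥R ϖ t z → IsInt ↥R c (algebraMap ↥R ↥S ϖ * z) → IsInt ↥R c z)
    (P₁ P₂ : Ideal (Chart ↥R c))
    (h1 : ∀ y : Chart ↥R c, y ∈ P₁ ↔ H8PB.InGm R (((y : ↥S)) : LaurentSeries K))
    (h2 : ∀ y : Chart ↥R c, y ∈ P₂ ↔ H8PB.InGm R ((w (y : ↥S) : ↥S) : LaurentSeries K)) :
    H26DI.TwoComp ↥R ϖ c P₁ P₂ := by
  have hmem1 : ∀ y : Chart ↥R c,
      H8PB.InG R (((RingHom.id ↥S) (y : ↥S) : ↥S) : LaurentSeries K) :=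
    fun y => ((hPG y).1.mp (hint y)).1
  have hmem2 : ∀ y : Chart ↥R c, H8PB.InG R ((w (y : ↥S) : ↥S) : LaurentSeries K) :=
    fun y => ((hPG y).1.mp (hint y)).2
  have e1 : P₁ = compIdeal R c (RingHom.id ↥S) hmem1 := by
    ext y
    rw [h1, mem_compIdeal]
    rfl
  have e2 : P₂ = compIdeal R c w hmem2 := by
    ext y
    rw [h2, mem_compIdeal]
  refine ⟨?_, ?_, ?_, ?_⟩
  · rw [e1]; exact compIdeal_isPrime R c _ hmem1
  · rw [e2]; exact compIdeal_isPrime R c _ hmem2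
  · intro y hy
    constructor
    · rw [h1, hy]
      exact inGm_algebraMap R hϖ
    · rw [h2, hy, hwϖ]
      exact inGm_algebraMap R hϖ
  · intro y hy1 hy2
    obtain ⟨z, hz, hyz⟩ := (hPG y).2 ((h1 y).mp hy1) ((h2 y).mp hy2)
    rw [sub_zero] at hyz
    have hyint : IsInt ↥R c (algebraMap ↥R ↥S ϖ * z) := by
      rw [← hyz]
      exact y.2
    exact ⟨⟨z, hU z hz hyint⟩, hyz⟩

end Two

end H22DC

end
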