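/-
helper26: item 82 (S34), slice (DICH), CONCRETE interface.

Setting = `H8PB.PairGaussStatement` (helper8): level `M q`, `q ∤ M`, `TameLevel q M`,
`K₁ ⊆ ℚ̄` a number field, `R = descVal A K₁`, `F₁ = FK K₁ (M q)`, `w = H12AL.wqKHom K₁ M q`,
`t` the base function, chart `c = t` or `c = t⁻¹`.

The two components of the special fibre of the chart `c` are the ideals of
`M₀ = H4S34.Chart R c`
  `P₁ = {y | InGm R y}`,   `P₂ = {y | InGm R (w y)}`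
(`IsComp1`, `IsComp2`; they are constructed in `S34/DichComp_helper26.lean` from
`PairGaussStatement`, together with `H26DI.TwoComp`: both prime, `P₁ ∩ P₂ = ϖ M₀`).

Concrete inputs of (DICH), each for `K₁` large (`K₀ ≤ K₁`, `K₁` normal over `ℚ`):
* `CompUnif1Statement`, `CompUnif2Statement` **(I2)**: a uniformizer of `(M₀/P_i)_𝔫` at every
  closed point `𝔫 ⊇ P_i` of the chart `t`, and of the chart `t⁻¹` over `t = ∞`;
* `CompTransvStatement` **(I3)**: transversality `𝔫 = P₁ + P₂` locally at the common points of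
  the chart `t`;
* `CompVertStatement` **(I4)**: a vertical pair `g g' = ϖ^j`, `g ∉ P₁`, `g' ∉ P₂` in `B_𝔫` at the
  common points of the chart `t`;
* `CompCuspStatement` **(CUSP)**: no common point of the chart `t⁻¹` over `t = ∞`.
`S34/DichAsm_helper26.lean`: `PairGaussStatement` + these five ⟹ `H4S34.DichStatement`.
-/
import Mathlib
import Fermat.Agent.S34.Defs_helper4
import Fermat.Agent.S34.PairDefs_helper8
import Fermat.Agent.S34.DichAbs_helper26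

set_option autoImplicit false
set_option synthInstance.maxHeartbeats 400000
set_option linter.unusedVariables false

noncomputable section

open ModularCurve H7S18 H4S34

namespace H26DI

/-- `P₁` is the first component of the chart `c`: `P₁ = {y ∈ M₀ | y ∈ 𝔪_{w₁}}`. -/
def IsComp1 {M : ℕ} [NeZero M] {q : ℕ} [NeZero q]
    (A : ValuationSubring (AlgebraicClosure ℚ))
    (K₁ : IntermediateField ℚ (AlgebraicClosure ℚ))
    [Algebra ↥(descVal A K₁) (FK K₁ (M * q))]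
    (c : FK K₁ (M * q)) (P₁ : Ideal (Chart ↥(descVal A K₁) c)) : Prop :=
  ∀ y : Chart ↥(descVal A K₁) c,
    y ∈ P₁ ↔ H8PB.InGm (descVal A K₁) (((y : FK K₁ (M * q))) : LaurentSeries K₁)

/-- `P₂` is the second component of the chart `c`: `P₂ = {y ∈ M₀ | w y ∈ 𝔪_{w₁}}`. -/
def IsComp2 {M : ℕ} [NeZero M] {q : ℕ} [NeZero q] (hq : q.Prime) (hqM : ¬ q ∣ M)
    (A : ValuationSubring (AlgebraicClosure ℚ))
    (K₁ : IntermediateField ℚ (AlgebraicClosure ℚ))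
    [Algebra ↥(descVal A K₁) (FK K₁ (M * q))]
    (c : FK K₁ (M * q)) (P₂ : Ideal (Chart ↥(descVal A K₁) c)) : Prop :=
  ∀ y : Chart ↥(descVal A K₁) c,
    y ∈ P₂ ↔ H8PB.InGm (descVal A K₁)
      ((H12AL.wqKHom K₁ M q hq hqM (y : FK K₁ (M * q)) : FK K₁ (M * q)) : LaurentSeries K₁)

/-- the closed points considered in (DICH): all closed points of the chart `t`, and the closed
points of the chart `t⁻¹` over `t = ∞`. -/
def IsDichPt {R : Type} [CommRing R] {E : Type} [Field E] [Algebra R E] (t c : E)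
    (𝔫 : Ideal (Chart R c)) : Prop :=
  c = t ∨ (c = t⁻¹ ∧ ∀ y : Chart R c, (y : E) = t⁻¹ → y ∈ 𝔫)

/-- **(I2), first component**: uniformizers of `M₀ / P₁` at the closed points. -/
def CompUnif1Statement : Prop :=
  ∀ (M : ℕ) [NeZero M] (q : ℕ) [NeZero q] (hq : q.Prime) (hqM : ¬ q ∣ M) (_ : TameLevel q M)
    (A : ValuationSubring (AlgebraicClosure ℚ)) (_ : A.LiesOverPrime q),
    ∃ K₀ : IntermediateField ℚ (AlgebraicClosure ℚ), FiniteDimensional ℚ K₀ ∧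
    ∀ (K₁ : IntermediateField ℚ (AlgebraicClosure ℚ)) (_ : K₀ ≤ K₁) (_ : FiniteDimensional ℚ K₁)
      (_ : Normal ℚ K₁)
      [Algebra ↥(descVal A K₁) (FK K₁ (M * q))]
      [IsScalarTower ↥(descVal A K₁) K₁ (FK K₁ (M * q))]
      (ϖ : ↥(descVal A K₁)) (_ : Irreducible ϖ)
      (t₀ : LaurentSeries ℚ) (_ : IsBase (baseKind q) t₀)
      (t : FK K₁ (M * q)) (_ : (t : LaurentSeries K₁) = coeffEmb K₁ t₀)
      (c : FK K₁ (M * q)) (P₁ : Ideal (Chart ↥(descVal A K₁) c)) (_ : IsComp1 A K₁ c P₁)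
      (𝔫 : Ideal (Chart ↥(descVal A K₁) c)) (_ : IsClosedPt ↥(descVal A K₁) ϖ c 𝔫)
      (_ : IsDichPt t c 𝔫),
      P₁ ≤ 𝔫 → ∃ x, UnifAt P₁ 𝔫 x

/-- **(I2), second component**: uniformizers of `M₀ / P₂` at the closed points. -/
def CompUnif2Statement : Prop :=
  ∀ (M : ℕ) [NeZero M] (q : ℕ) [NeZero q] (hq : q.Prime) (hqM : ¬ q ∣ M) (_ : TameLevel q M)
    (A : ValuationSubring (AlgebraicClosure ℚ)) (_ : A.LiesOverPrime q),
    ∃ K₀ : IntermediateField ℚ (AlgebraicClosure ℚ), FiniteDimensional ℚ K₀ ∧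
    ∀ (K₁ : IntermediateField ℚ (AlgebraicClosure ℚ)) (_ : K₀ ≤ K₁) (_ : FiniteDimensional ℚ K₁)
      (_ : Normal ℚ K₁)
      [Algebra ↥(descVal A K₁) (FK K₁ (M * q))]
      [IsScalarTower ↥(descVal A K₁) K₁ (FK K₁ (M * q))]
      (ϖ : ↥(descVal A K₁)) (_ : Irreducible ϖ)
      (t₀ : LaurentSeries ℚ) (_ : IsBase (baseKind q) t₀)
      (t : FK K₁ (M * q)) (_ : (t : LaurentSeries K₁) = coeffEmb K₁ t₀)
      (c : FK K₁ (M * q)) (P₂ : Ideal (Chart ↥(descVal A K₁) c))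
      (_ : IsComp2 hq hqM A K₁ c P₂)
      (𝔫 : Ideal (Chart ↥(descVal A K₁) c)) (_ : IsClosedPt ↥(descVal A K₁) ϖ c 𝔫)
      (_ : IsDichPt t c 𝔫),
      P₂ ≤ 𝔫 → ∃ x, UnifAt P₂ 𝔫 x

/-- **(I3)**: transversality at the common points of the chart `t`. -/
def CompTransvStatement : Prop :=
  ∀ (M : ℕ) [NeZero M] (q : ℕ) [NeZero q] (hq : q.Prime) (hqM : ¬ q ∣ M) (_ : TameLevel q M)
    (A : ValuationSubring (AlgebraicClosure ℚ)) (_ : A.LiesOverPrime q),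
    ∃ K₀ : IntermediateField ℚ (AlgebraicClosure ℚ), FiniteDimensional ℚ K₀ ∧
    ∀ (K₁ : IntermediateField ℚ (AlgebraicClosure ℚ)) (_ : K₀ ≤ K₁) (_ : FiniteDimensional ℚ K₁)
      (_ : Normal ℚ K₁)
      [Algebra ↥(descVal A K₁) (FK K₁ (M * q))]
      [IsScalarTower ↥(descVal A K₁) K₁ (FK K₁ (M * q))]
      (ϖ : ↥(descVal A K₁)) (_ : Irreducible ϖ)
      (t₀ : LaurentSeries ℚ) (_ : IsBase (baseKind q) t₀)
      (t : FK K₁ (M * q)) (_ : (t : LaurentSeries K₁) = coeffEmb K₁ t₀)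
      (P₁ P₂ : Ideal (Chart ↥(descVal A K₁) t)) (_ : IsComp1 A K₁ t P₁)
      (_ : IsComp2 hq hqM A K₁ t P₂)
      (𝔫 : Ideal (Chart ↥(descVal A K₁) t)) (_ : IsClosedPt ↥(descVal A K₁) ϖ t 𝔫),
      P₁ ≤ 𝔫 → P₂ ≤ 𝔫 → TransvAt P₁ P₂ 𝔫

/-- **(I4)**: a vertical pair at the common points of the chart `t`. -/
def CompVertStatement : Prop :=
  ∀ (M : ℕ) [NeZero M] (q : ℕ) [NeZero q] (hq : q.Prime) (hqM : ¬ q ∣ M) (_ : TameLevel q M)
    (A : ValuationSubring (AlgebraicClosure ℚ)) (_ : A.LiesOverPrime q),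
    ∃ K₀ : IntermediateField ℚ (AlgebraicClosure ℚ), FiniteDimensional ℚ K₀ ∧
    ∀ (K₁ : IntermediateField ℚ (AlgebraicClosure ℚ)) (_ : K₀ ≤ K₁) (_ : FiniteDimensional ℚ K₁)
      (_ : Normal ℚ K₁)
      [Algebra ↥(descVal A K₁) (FK K₁ (M * q))]
      [IsScalarTower ↥(descVal A K₁) K₁ (FK K₁ (M * q))]
      (ϖ : ↥(descVal A K₁)) (_ : Irreducible ϖ)
      (t₀ : LaurentSeries ℚ) (_ : IsBase (baseKind q) t₀)
      (t : FK K₁ (M * q)) (_ : (t : LaurentSeries K₁) = coeffEmb K₁ t₀)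
      (P₁ P₂ : Ideal (Chart ↥(descVal A K₁) t)) (_ : IsComp1 A K₁ t P₁)
      (_ : IsComp2 hq hqM A K₁ t P₂)
      (𝔫 : Ideal (Chart ↥(descVal A K₁) t)) (_ : IsClosedPt ↥(descVal A K₁) ϖ t 𝔫),
      P₁ ≤ 𝔫 → P₂ ≤ 𝔫 →
      ∃ (a a' s s' : Chart ↥(descVal A K₁) t) (j : ℕ), 1 ≤ j ∧ s ∉ 𝔫 ∧ s' ∉ 𝔫 ∧ a ∉ P₁ ∧
        a' ∉ P₂ ∧
        ((a : FK K₁ (M * q)) * a' =
          algebraMap ↥(descVal A K₁) (FK K₁ (M * q)) ϖ ^ j * (s * s'))

/-- **(CUSP)**: cusp separation: no closed point of the chart `t⁻¹` over `t = ∞` lies on both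
components. -/
def CompCuspStatement : Prop :=
  ∀ (M : ℕ) [NeZero M] (q : ℕ) [NeZero q] (hq : q.Prime) (hqM : ¬ q ∣ M) (_ : TameLevel q M)
    (A : ValuationSubring (AlgebraicClosure ℚ)) (_ : A.LiesOverPrime q),
    ∃ K₀ : IntermediateField ℚ (AlgebraicClosure ℚ), FiniteDimensional ℚ K₀ ∧
    ∀ (K₁ : IntermediateField ℚ (AlgebraicClosure ℚ)) (_ : K₀ ≤ K₁) (_ : FiniteDimensional ℚ K₁)
      (_ : Normal ℚ K₁)
      [Algebra ↥(descVal A K₁) (FK K₁ (M * q))]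
      [IsScalarTower ↥(descVal A K₁) K₁ (FK K₁ (M * q))]
      (ϖ : ↥(descVal A K₁)) (_ : Irreducible ϖ)
      (t₀ : LaurentSeries ℚ) (_ : IsBase (baseKind q) t₀)
      (t : FK K₁ (M * q)) (_ : (t : LaurentSeries K₁) = coeffEmb K₁ t₀)
      (P₁ P₂ : Ideal (Chart ↥(descVal A K₁) t⁻¹)) (_ : IsComp1 A K₁ t⁻¹ P₁)
      (_ : IsComp2 hq hqM A K₁ t⁻¹ P₂)
      (𝔫 : Ideal (Chart ↥(descVal A K₁) t⁻¹)) (_ : IsClosedPt ↥(descVal A K₁) ϖ t⁻¹ 𝔫)
      (_ : ∀ y : Chart ↥(descVal A K₁) t⁻¹, (y : FK K₁ (M * q)) = t⁻¹ → y ∈ 𝔫),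
      ¬ (P₁ ≤ 𝔫 ∧ P₂ ≤ 𝔫)

end H26DI

end
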