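import Mathlib
import Fermat.Agent.S34.DichComp_helper22
import Fermat.Agent.S34.DichDefs_helper26
import Fermat.Agent.S18.TBase_helper19
import Fermat.Agent.S18.C12bAux_helper7
import Fermat.Agent.S18.C6b_helper4
import Fermat.Agent.S18.C6e_helper9

/-!
# Item 82 (S34), (DICH) concrete: components and assembly (helper22)

Setting of `S34/DichDefs_helper26.lean` (level `M q`, `R = descVal A K₁`, `F₁ = FK K₁ (M q)`,
`w = H12AL.wqKHom K₁ M q`, chart `c = t` or `c = t⁻¹`).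

* `H22DA.exists_comp`  : from `H8PB.PairGaussStatement`, the two components `P₁, P₂` of the
  chart `c` exist (`H26DI.IsComp1`, `H26DI.IsComp2`);
* `H22DA.twoComp`      : they form `H26DI.TwoComp` (both prime, `ϖ ∈ P₁ ∩ P₂`,
  `P₁ ∩ P₂ = ϖ M₀`);
* `H22DA.dichStatement`: `PairGaussStatement` + `CompUnif1/2Statement` + `CompTransvStatement`
  + `CompVertStatement` + `CompCuspStatement` ⟹ `H4S34.DichStatement`.
-/

set_option autoImplicit false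
set_option synthInstance.maxHeartbeats 400000
set_option maxHeartbeats 1000000
set_option linter.unusedSectionVars false
set_option linter.unusedVariables false
set_option linter.style.haveILetI false

noncomputable section

open Polynomial IntermediateField ModularCurve H7S18 H4S34 H26DI

namespace H22DA

section Concrete

variable (hPG : H8PB.PairGaussStatement)
  (M : ℕ) [NeZero M] (q : ℕ) [NeZero q] (hq : q.Prime) (hqM : ¬ q ∣ M) (hT : TameLevel q M)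
  (A : ValuationSubring (AlgebraicClosure ℚ)) (hA : A.LiesOverPrime q)
  (K₁ : IntermediateField ℚ (AlgebraicClosure ℚ)) (hfin : FiniteDimensional ℚ K₁)
  [Algebra ↥(descVal A K₁) (FK K₁ (M * q))]
  [IsScalarTower ↥(descVal A K₁) K₁ (FK K₁ (M * q))]
  (ϖ : ↥(descVal A K₁)) (hϖ : Irreducible ϖ)
  (t₀ : LaurentSeries ℚ) (ht₀ : IsBase (baseKind q) t₀)
  (t : FK K₁ (M * q)) (ht : (t : LaurentSeries K₁) = coeffEmb K₁ t₀)

include hT ht₀ ht in
/-- the base function is transcendental -/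
theorem base_transcendental : Transcendental K₁ t := by
  have hi : baseKind q = 1 ∨ (baseKind q = 2 ∧ 2 ∣ M * q) ∨ (baseKind q = 3 ∧ 3 ∣ M * q) := by
    rcases h7_baseKind_ok hT with h | h | h
    · exact Or.inl h
    · exact Or.inr (Or.inl ⟨h.1, Dvd.dvd.mul_right h.2 q⟩)
    · exact Or.inr (Or.inr ⟨h.1, Dvd.dvd.mul_right h.2 q⟩)
  obtain ⟨t₁, ht₁coe, ht₁tr, -, -⟩ := H9C6e.fieldBasics (M * q) (baseKind q) hi t₀ ht₀ K₁
  have : t = t₁ := Subtype.ext (ht.trans ht₁coe.symm)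
  rw [this]
  exact ht₁tr

include hPG hq hqM hT hA hfin hϖ ht₀ ht in
/-- **the two components form `TwoComp`.** -/
theorem twoComp (c : FK K₁ (M * q)) (hc : c = t ∨ c = t⁻¹)
    (P₁ P₂ : Ideal (Chart ↥(descVal A K₁) c)) (h1 : IsComp1 A K₁ c P₁)
    (h2 : IsComp2 hq hqM A K₁ c P₂) : TwoComp ↥(descVal A K₁) ϖ c P₁ P₂ := by
  haveI : Fact q.Prime := ⟨hq⟩
  obtain ⟨hdvr, -, -⟩ := H4DVR.dvrStatement q A hA K₁ hfin
  haveI := hdvr
  have htr : Transcendental K₁ t := base_transcendental M q hT K₁ t₀ ht₀ t ht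
  have htrR : Transcendental ↥(descVal A K₁) t := H19S18.h19_transc ↥(descVal A K₁) K₁ htr
  have htr' : Transcendental K₁ t⁻¹ := H19S18.h19_transc_inv K₁ htr
  have htrR' : Transcendental ↥(descVal A K₁) t⁻¹ :=
    H19S18.h19_transc ↥(descVal A K₁) K₁ htr'
  have hPG' := hPG M q hq hqM hT A hA K₁ hfin ϖ hϖ t₀ ht₀ t ht
  have hwϖ : H12AL.wqKHom K₁ M q hq hqM (algebraMap ↥(descVal A K₁) (FK K₁ (M * q)) ϖ) =
      algebraMap ↥(descVal A K₁) (FK K₁ (M * q)) ϖ := by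
    rw [IsScalarTower.algebraMap_apply ↥(descVal A K₁) K₁ (FK K₁ (M * q))]
    exact H12AL.wqKHom_const K₁ M q hq hqM _
  refine H22DC.twoComp_core (descVal A K₁) ϖ hϖ.not_isUnit t c (H12AL.wqKHom K₁ M q hq hqM) hwϖ
    hPG' ?_ ?_ P₁ P₂ h1 h2
  · intro y
    rcases hc with rfl | rfl
    · exact H19S18.h19_gint_of_isInt ↥(descVal A K₁) htrR hϖ y.2
    · exact H19S18.h19_gint_of_isInt_inv ↥(descVal A K₁) htrR htrR' hϖ y.2
  · intro z hz hint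
    rcases hc with rfl | rfl
    · exact H19S18.h19_lemmaU ↥(descVal A K₁) htrR hϖ hz hint
    · exact H19S18.h19_lemmaU_inv ↥(descVal A K₁) htrR htrR' hϖ hz hint

include hPG hq hqM hT hA hfin hϖ ht₀ ht in
/-- **the two components exist.** -/
theorem exists_comp (c : FK K₁ (M * q)) (hc : c = t ∨ c = t⁻¹) :
    ∃ P₁ P₂ : Ideal (Chart ↥(descVal A K₁) c),
      IsComp1 A K₁ c P₁ ∧ IsComp2 hq hqM A K₁ c P₂ := by
  haveI : Fact q.Prime := ⟨hq⟩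
  obtain ⟨hdvr, -, -⟩ := H4DVR.dvrStatement q A hA K₁ hfin
  haveI := hdvr
  have htr : Transcendental K₁ t := base_transcendental M q hT K₁ t₀ ht₀ t ht
  have htrR : Transcendental ↥(descVal A K₁) t := H19S18.h19_transc ↥(descVal A K₁) K₁ htr
  have htr' : Transcendental K₁ t⁻¹ := H19S18.h19_transc_inv K₁ htr
  have htrR' : Transcendental ↥(descVal A K₁) t⁻¹ :=
    H19S18.h19_transc ↥(descVal A K₁) K₁ htr'
  have hPG' := hPG M q hq hqM hT A hA K₁ hfin ϖ hϖ t₀ ht₀ t ht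
  have hint : ∀ y : Chart ↥(descVal A K₁) c, GInt ↥(descVal A K₁) ϖ t (y : FK K₁ (M * q)) := by
    intro y
    rcases hc with rfl | rfl
    · exact H19S18.h19_gint_of_isInt ↥(descVal A K₁) htrR hϖ y.2
    · exact H19S18.h19_gint_of_isInt_inv ↥(descVal A K₁) htrR htrR' hϖ y.2
  have hmem1 : ∀ y : Chart ↥(descVal A K₁) c, H8PB.InG (descVal A K₁)
      (((RingHom.id (FK K₁ (M * q))) (y : FK K₁ (M * q)) : FK K₁ (M * q)) : LaurentSeries K₁) :=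
    fun y => ((hPG' y).1.mp (hint y)).1
  have hmem2 : ∀ y : Chart ↥(descVal A K₁) c, H8PB.InG (descVal A K₁)
      ((H12AL.wqKHom K₁ M q hq hqM (y : FK K₁ (M * q)) : FK K₁ (M * q)) : LaurentSeries K₁) :=
    fun y => ((hPG' y).1.mp (hint y)).2
  refine ⟨H22DC.compIdeal (descVal A K₁) c (RingHom.id _) hmem1,
    H22DC.compIdeal (descVal A K₁) c (H12AL.wqKHom K₁ M q hq hqM) hmem2, ?_, ?_⟩
  · intro y
    rw [H22DC.mem_compIdeal]
    rfl
  · intro y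
    rw [H22DC.mem_compIdeal]

end Concrete

/-- **(DICH), concrete assembly**: the pair statement (I1) and the five concrete inputs
(I2) × 2, (I3), (I4), (CUSP) give `H4S34.DichStatement`. -/
theorem dichStatement (hPG : H8PB.PairGaussStatement) (hU1 : CompUnif1Statement)
    (hU2 : CompUnif2Statement) (hTr : CompTransvStatement) (hV : CompVertStatement)
    (hC : CompCuspStatement) : H4S34.DichStatement := by
  intro N instN q instq hqN hq2 hT A hA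
  have hq : q.Prime := Fact.out
  obtain ⟨M, rfl⟩ : ∃ M, N = M * q := ⟨N / q, (Nat.div_mul_cancel hqN).symm⟩
  haveI : NeZero q := ⟨hq.ne_zero⟩
  haveI : NeZero M := ⟨by
    rintro rfl
    exact NeZero.ne (0 * q) (zero_mul q)⟩
  have hqM : ¬ q ∣ M := by
    intro h
    apply hq2
    obtain ⟨m, rfl⟩ := h
    exact ⟨m, by ring⟩
  have hT' : TameLevel q M := by
    rwa [Nat.mul_div_cancel M hq.pos] at hT
  obtain ⟨K1, hK1, h1⟩ := hU1 M q hq hqM hT' A hA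
  obtain ⟨K2, hK2, h2⟩ := hU2 M q hq hqM hT' A hA
  obtain ⟨K3, hK3, h3⟩ := hTr M q hq hqM hT' A hA
  obtain ⟨K4, hK4, h4⟩ := hV M q hq hqM hT' A hA
  obtain ⟨K5, hK5, h5⟩ := hC M q hq hqM hT' A hA
  haveI := hK1
  haveI := hK2
  haveI := hK3
  haveI := hK4
  haveI := hK5
  haveI h12 : FiniteDimensional ℚ ↥(K1 ⊔ K2) := IntermediateField.finiteDimensional_sup K1 K2
  haveI h123 : FiniteDimensional ℚ ↥(K1 ⊔ K2 ⊔ K3) :=
    IntermediateField.finiteDimensional_sup (K1 ⊔ K2) K3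
  haveI h1234 : FiniteDimensional ℚ ↥(K1 ⊔ K2 ⊔ K3 ⊔ K4) :=
    IntermediateField.finiteDimensional_sup (K1 ⊔ K2 ⊔ K3) K4
  refine ⟨K1 ⊔ K2 ⊔ K3 ⊔ K4 ⊔ K5,
    IntermediateField.finiteDimensional_sup (K1 ⊔ K2 ⊔ K3 ⊔ K4) K5, ?_⟩
  intro K₁ hle hfin hnorm algRF towRF ϖ hϖ t₀ ht₀ t ht
  have hle1 : K1 ≤ K₁ := le_trans (le_sup_left.trans (le_sup_left.trans
    (le_sup_left.trans le_sup_left))) hle
  have hle2 : K2 ≤ K₁ := le_trans (le_sup_right.trans (le_sup_left.trans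
    (le_sup_left.trans le_sup_left))) hle
  have hle3 : K3 ≤ K₁ := le_trans (le_sup_right.trans (le_sup_left.trans le_sup_left)) hle
  have hle4 : K4 ≤ K₁ := le_trans (le_sup_right.trans le_sup_left) hle
  have hle5 : K5 ≤ K₁ := le_trans le_sup_right hle
  haveI : Fact q.Prime := ⟨hq⟩
  obtain ⟨hdvr, -, -⟩ := H4DVR.dvrStatement q A hA K₁ hfin
  haveI := hdvr
  have hϖ0 : algebraMap ↥(descVal A K₁) (FK K₁ (M * q)) ϖ ≠ 0 := by
    intro h0
    apply hϖ.ne_zero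
    exact H19S18.h19_algebraMap_injective ↥(descVal A K₁) K₁ (h0.trans (map_zero _).symm)
  constructor
  · intro 𝔫 h𝔫
    obtain ⟨P₁, P₂, hP1, hP2⟩ := exists_comp hPG M q hq hqM hT' A hA K₁ hfin ϖ hϖ t₀ ht₀ t ht
      t (Or.inl rfl)
    have htc := twoComp hPG M q hq hqM hT' A hA K₁ hfin ϖ hϖ t₀ ht₀ t ht t (Or.inl rfl)
      P₁ P₂ hP1 hP2
    refine dich_elem htc hϖ0 𝔫 h𝔫 ?_ ?_ ?_ ?_
    · exact h1 K₁ hle1 hfin hnorm ϖ hϖ t₀ ht₀ t ht t P₁ hP1 𝔫 h𝔫 (Or.inl rfl)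
    · exact h2 K₁ hle2 hfin hnorm ϖ hϖ t₀ ht₀ t ht t P₂ hP2 𝔫 h𝔫 (Or.inl rfl)
    · exact h3 K₁ hle3 hfin hnorm ϖ hϖ t₀ ht₀ t ht P₁ P₂ hP1 hP2 𝔫 h𝔫
    · exact h4 K₁ hle4 hfin hnorm ϖ hϖ t₀ ht₀ t ht P₁ P₂ hP1 hP2 𝔫 h𝔫
  · intro 𝔫 h𝔫 hinf
    obtain ⟨P₁, P₂, hP1, hP2⟩ := exists_comp hPG M q hq hqM hT' A hA K₁ hfin ϖ hϖ t₀ ht₀ t ht
      t⁻¹ (Or.inr rfl)
    have htc := twoComp hPG M q hq hqM hT' A hA K₁ hfin ϖ hϖ t₀ ht₀ t ht t⁻¹ (Or.inr rfl)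
      P₁ P₂ hP1 hP2
    refine regAt_of_sep htc hϖ0 𝔫 h𝔫 ?_ ?_ ?_
    · exact h1 K₁ hle1 hfin hnorm ϖ hϖ t₀ ht₀ t ht t⁻¹ P₁ hP1 𝔫 h𝔫 (Or.inr ⟨rfl, hinf⟩)
    · exact h2 K₁ hle2 hfin hnorm ϖ hϖ t₀ ht₀ t ht t⁻¹ P₂ hP2 𝔫 h𝔫 (Or.inr ⟨rfl, hinf⟩)
    · exact h5 K₁ hle5 hfin hnorm ϖ hϖ t₀ ht₀ t ht P₁ P₂ hP1 hP2 𝔫 h𝔫 hinf

end H22DA

end
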