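import Fermat.Agent.S34.PairDefs_helper8

/-!
# Item 82 (S34), input (I1): sub-slices of `H8PB.PairGaussStatement` (helper8)

* `GIntClosedStatement` (**P-INT**, generic, Mathlib + S18 only): `O_E = {GInt}` is integrally
  closed in `E`: a root of a monic polynomial with `GInt` coefficients is `GInt`.
  [common Gauss unit `s` for the coefficients, `P.scaleRoots s` has coefficients in `M₀`,
  `integralClosure_idem`.]
* `LevelGIntStatement` (**P-LVL**): an element of `F₁(M q)` of level `M` lying in the Gauss ring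
  is `GInt` (with respect to the base function `t` of level `M q`).
  [`H28UG.gauss_inst` at level `M` (`TameLevel q M`) + transfer along `F₁(M) ⊆ F₁(M q)`
  (`H19S18.h19_gint_map`).]
* `JqGIntStatement` (**P-JQ**): `j_q = j(𝐪^q)` is `GInt`.
  [P-LVL for `j`, the modular equation `H28S28.h10_root` and P-INT.]
-/

set_option autoImplicit false
set_option synthInstance.maxHeartbeats 400000

noncomputable section

open ModularCurve H7S18

namespace H8PB

/-- **P-INT**: `O_E` is integrally closed. -/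
def GIntClosedStatement : Prop :=
  ∀ (R : Type) [CommRing R] [IsDomain R] [IsDiscreteValuationRing R]
    (K : Type) [Field K] [Algebra R K] [IsFractionRing R K]
    (E : Type) [Field E] [Algebra K E] [Algebra R E] [IsScalarTower R K E]
    (ϖ : R) (_ : Irreducible ϖ) (t : E) (_ : Transcendental K t)
    (P : Polynomial E) (_ : P.Monic) (_ : ∀ i, GInt R ϖ t (P.coeff i))
    (x : E) (_ : P.eval x = 0),
    GInt R ϖ t x

/-- **P-LVL**: elements of level `M` in the Gauss ring are `GInt` at level `M q`. -/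
def LevelGIntStatement : Prop :=
  ∀ (M : ℕ) [NeZero M] (q : ℕ) [NeZero q] (_ : q.Prime) (_ : ¬ q ∣ M) (_ : TameLevel q M)
    (A : ValuationSubring (AlgebraicClosure ℚ)) (_ : A.LiesOverPrime q)
    (K₁ : IntermediateField ℚ (AlgebraicClosure ℚ)) (_ : FiniteDimensional ℚ K₁)
    [Algebra ↥(descVal A K₁) (FK K₁ (M * q))]
    [IsScalarTower ↥(descVal A K₁) K₁ (FK K₁ (M * q))]
    (ϖ : ↥(descVal A K₁)) (_ : Irreducible ϖ)
    (t₀ : LaurentSeries ℚ) (_ : IsBase (baseKind q) t₀)
    (t : FK K₁ (M * q)) (_ : (t : LaurentSeries K₁) = coeffEmb K₁ t₀)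
    (x : FK K₁ (M * q)),
    (x : LaurentSeries K₁) ∈ laurentBaseChange K₁ (modularFunctionFieldFull M) →
      InG (descVal A K₁) (x : LaurentSeries K₁) → GInt ↥(descVal A K₁) ϖ t x

/-- **P-JQ**: `j(𝐪^q)` is `GInt`. -/
def JqGIntStatement : Prop :=
  ∀ (M : ℕ) [NeZero M] (q : ℕ) [NeZero q] (_ : q.Prime) (_ : ¬ q ∣ M) (_ : TameLevel q M)
    (A : ValuationSubring (AlgebraicClosure ℚ)) (_ : A.LiesOverPrime q)
    (K₁ : IntermediateField ℚ (AlgebraicClosure ℚ)) (_ : FiniteDimensional ℚ K₁)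
    [Algebra ↥(descVal A K₁) (FK K₁ (M * q))]
    [IsScalarTower ↥(descVal A K₁) K₁ (FK K₁ (M * q))]
    (ϖ : ↥(descVal A K₁)) (_ : Irreducible ϖ)
    (t₀ : LaurentSeries ℚ) (_ : IsBase (baseKind q) t₀)
    (t : FK K₁ (M * q)) (_ : (t : LaurentSeries K₁) = coeffEmb K₁ t₀)
    (x : FK K₁ (M * q)),
    (x : LaurentSeries K₁) = qExpand K₁ q (jqModC K₁) → GInt ↥(descVal A K₁) ϖ t x

end H8PB

end
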