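import Mathlib
import Fermat.Agent.S37.R3Red_helper23
import Fermat.Prelude.Thm_ModularCurve_coeff_jqModC_neg_one

/-!
# Item 82 (S34), input (I1): the PAIR basis at level `N = q M`, `q ∤ M` — core (helper8)

`k` a field of characteristic `q`, `J = jqModC k`, `Φ = qExpand k q` (`𝐪 ↦ 𝐪^q`).
If `b̄_1, …, b̄_m ∈ k((𝐪))` are linearly independent over `k(J)` (e.g. the reduction of a
`GVBasis` of level `M`), then the `(q+1) m` pairs

  `(b̄_a · Φ(J)^i ,  Φ(b̄_a) · J^i)`,   `0 ≤ i ≤ q`,

(the reductions of `y_{a,i} = b_a · j(𝐪^q)^i` at the two Gauss valuations `w₁` and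
`w₂ = w₁ ∘ W`, `W` the partial Atkin–Lehner swap) are linearly independent over `k(J)`, acting on
the second component through `Φ`.

* `h8pb_order_indep` : `1, J, …, J^{q-1}` are linearly independent over `Φ(k((𝐪)))`;
* `h8pb_core`        : the statement above.
-/

set_option autoImplicit false

open ModularCurve HahnSeries

noncomputable section

namespace H8PB

section Order

variable (k : Type) [Field k] (q : ℕ) [NeZero q]

theorem h8pb_order_jq : (jqModC k).order = -1 :=
  P2MW.S_ModularCurve_coeff_jqModC_neg_one.ModularCurve.CharLRows.order_jqModC k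

theorem h8pb_jq_ne_zero : jqModC k ≠ 0 := jqModC_ne_zero_of_nontrivial k

/-- the order of a series in `𝐪^q` is divisible by `q` -/
theorem h8pb_dvd_order_qExpand (f : LaurentSeries k) : (q : ℤ) ∣ (qExpand k q f).order := by
  by_cases h0 : qExpand k q f = 0
  · rw [h0, HahnSeries.order_zero]; exact dvd_zero _
  · by_contra hnd
    exact (HahnSeries.coeff_order_eq_zero.not.mpr h0) (qExpand_coeff_of_not_dvd q f hnd)

theorem h8pb_order_term (f : LaurentSeries k) (hf : qExpand k q f ≠ 0) (i : ℕ) :
    (qExpand k q f * jqModC k ^ i).order = (qExpand k q f).order - i := by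
  have hJ : jqModC k ^ i ≠ 0 := pow_ne_zero _ (h8pb_jq_ne_zero k)
  rw [HahnSeries.order_mul hf hJ, HahnSeries.order_pow, h8pb_order_jq]
  simp
  ring

/-- `1, J, …, J^{q-1}` are linearly independent over the series in `𝐪^q`. -/
theorem h8pb_order_indep (E : ℕ → LaurentSeries k)
    (h : ∑ i ∈ Finset.range q, qExpand k q (E i) * jqModC k ^ i = 0) :
    ∀ i < q, E i = 0 := by
  classical
  by_contra hne
  push Not at hne
  obtain ⟨i₁, hi₁, hE₁⟩ := hne
  set T : ℕ → LaurentSeries k := fun i => qExpand k q (E i) * jqModC k ^ i with hT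
  set s : Finset ℕ := (Finset.range q).filter (fun i => E i ≠ 0) with hs
  have hs1 : i₁ ∈ s := by
    rw [hs, Finset.mem_filter]
    exact ⟨Finset.mem_range.mpr hi₁, hE₁⟩
  obtain ⟨i₀, hi₀, hmin⟩ := Finset.exists_min_image s (fun i => (T i).order) ⟨i₁, hs1⟩
  have hmem : ∀ i ∈ s, i < q ∧ qExpand k q (E i) ≠ 0 := by
    intro i hi
    rw [hs, Finset.mem_filter] at hi
    refine ⟨Finset.mem_range.mp hi.1, fun h0 => hi.2 ?_⟩
    exact qExpand_injective q (h0.trans (map_zero _).symm)
  have hTne : ∀ i ∈ s, T i ≠ 0 := fun i hi =>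
    mul_ne_zero (hmem i hi).2 (pow_ne_zero _ (h8pb_jq_ne_zero k))
  have hord : ∀ i ∈ s, (T i).order = (qExpand k q (E i)).order - i := fun i hi =>
    h8pb_order_term k q (E i) (hmem i hi).2 i
  -- distinct orders
  have hlt : ∀ i ∈ s, i ≠ i₀ → (T i₀).order < (T i).order := by
    intro i hi hne
    refine lt_of_le_of_ne (hmin i hi) (fun heq => hne ?_)
    rw [hord i hi, hord i₀ hi₀] at heq
    obtain ⟨a, ha⟩ := h8pb_dvd_order_qExpand k q (E i)
    obtain ⟨b, hb⟩ := h8pb_dvd_order_qExpand k q (E i₀)
    rw [ha, hb] at heq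
    have h1 : (q : ℤ) ∣ (i : ℤ) - (i₀ : ℤ) := ⟨a - b, by rw [mul_sub]; linarith [heq]⟩
    have h2 := (hmem i hi).1
    have h3 := (hmem i₀ hi₀).1
    have h4 : (i : ℤ) - i₀ = 0 := by
      apply Int.eq_zero_of_abs_lt_dvd h1
      rw [abs_lt]
      constructor <;> omega
    omega
  have hc := congrArg (fun x : LaurentSeries k => x.coeff (T i₀).order) h
  simp only [HahnSeries.coeff_sum, HahnSeries.coeff_zero] at hc
  rw [Finset.sum_eq_single i₀] at hc
  · exact (HahnSeries.coeff_order_eq_zero.not.mpr (hTne i₀ hi₀)) hc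
  · intro i hi hne
    by_cases hE : E i = 0
    · show (qExpand k q (E i) * jqModC k ^ i).coeff _ = 0
      rw [hE, map_zero, zero_mul, HahnSeries.coeff_zero]
    · have his : i ∈ s := by
        rw [hs, Finset.mem_filter]
        exact ⟨hi, hE⟩
      exact HahnSeries.coeff_eq_zero_of_lt_order (hlt i his hne)
  · intro hi
    exact absurd (Finset.mem_range.mpr (hmem i₀ hi₀).1) hi

end Order

section Core

variable (k : Type) [Field k] (q : ℕ) [Fact q.Prime] [CharP k q]

/-- Kronecker's congruence in characteristic `q`: `J(𝐪^q) = J(𝐪)^q`. -/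
theorem h8pb_kronecker :
    haveI : NeZero q := ⟨(Fact.out : q.Prime).ne_zero⟩
    qExpand k q (jqModC k) = jqModC k ^ q := by
  haveI : NeZero q := ⟨(Fact.out : q.Prime).ne_zero⟩
  rw [H23R3.h23r3_frobenius q (jqModC k), coeffMap_jqModC]

/-- `J ≠ J^(q²)` -/
theorem h8pb_jq_ne_pow : jqModC k ≠ jqModC k ^ (q * q) := by
  intro h
  have h1 := congrArg HahnSeries.order h
  rw [HahnSeries.order_pow, h8pb_order_jq] at h1
  have hq : 2 ≤ q := (Fact.out : q.Prime).two_le
  have h2 : (4 : ℤ) ≤ ((q * q : ℕ) : ℤ) := by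
    have : 4 ≤ q * q := by nlinarith
    exact_mod_cast this
  simp only [nsmul_eq_mul] at h1
  linarith

/-- the field `k(J)` -/
abbrev KJ : IntermediateField k (LaurentSeries k) := IntermediateField.adjoin k {jqModC k}

/-- `J` as an element of `k(J)` -/
def jK : KJ k := ⟨jqModC k, IntermediateField.mem_adjoin_simple_self k _⟩

@[simp] theorem coe_jK : ((jK k : KJ k) : LaurentSeries k) = jqModC k := rfl

/-- **pair basis, core**: see the header. -/
theorem h8pb_core {m : ℕ} (b : Fin m → LaurentSeries k)
    (hb : LinearIndependent ↥(KJ k) b) (c : Fin m → ℕ → KJ k)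
    (h1 : haveI : NeZero q := ⟨(Fact.out : q.Prime).ne_zero⟩
      ∑ a, ∑ i ∈ Finset.range (q + 1),
        (c a i : LaurentSeries k) * b a * (qExpand k q (jqModC k)) ^ i = 0)
    (h2 : haveI : NeZero q := ⟨(Fact.out : q.Prime).ne_zero⟩
      ∑ a, ∑ i ∈ Finset.range (q + 1),
        qExpand k q ((c a i : LaurentSeries k) * b a) * (jqModC k) ^ i = 0) :
    ∀ a, ∀ i ≤ q, c a i = 0 := by
  classical
  haveI : NeZero q := ⟨(Fact.out : q.Prime).ne_zero⟩
  have hq : 2 ≤ q := (Fact.out : q.Prime).two_le
  have hli := Fintype.linearIndependent_iff.mp hb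
  have hsmul : ∀ (g : KJ k) (x : LaurentSeries k), g • x = (g : LaurentSeries k) * x :=
    fun g x => rfl
  -- the column sums
  set D : ℕ → LaurentSeries k := fun i => ∑ a, (c a i : LaurentSeries k) * b a with hD
  have h2' : ∑ i ∈ Finset.range (q + 1), qExpand k q (D i) * (jqModC k) ^ i = 0 := by
    rw [← h2, Finset.sum_comm]
    refine Finset.sum_congr rfl (fun i _ => ?_)
    rw [hD, map_sum, Finset.sum_mul]
  set E : ℕ → LaurentSeries k := fun i => if i = 0 then D 0 + D q * jqModC k else D i with hE
  have h3 : ∑ i ∈ Finset.range q, qExpand k q (E i) * (jqModC k) ^ i = 0 := by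
    have h4 : ∀ i ∈ Finset.range q, qExpand k q (E i) * (jqModC k) ^ i =
        qExpand k q (D i) * (jqModC k) ^ i +
          (if i = 0 then qExpand k q (D q) * (jqModC k) ^ q else 0) := by
      intro i _
      by_cases hi : i = 0
      · subst hi
        simp only [hE, if_true, map_add, map_mul, pow_zero, mul_one, h8pb_kronecker k q]
      · simp only [hE, if_neg hi, add_zero]
    rw [Finset.sum_congr rfl h4, Finset.sum_add_distrib, Finset.sum_ite_eq' (Finset.range q) 0,
      if_pos (Finset.mem_range.mpr (by omega)), ← Finset.sum_range_succ]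
    exact h2'
  have h5 := h8pb_order_indep k q E h3
  -- middle columns vanish
  have hmid : ∀ a, ∀ i, 0 < i → i < q → c a i = 0 := by
    intro a i hi0 hiq
    have h6 : D i = 0 := by
      have := h5 i hiq
      simpa only [hE, if_neg (Nat.pos_iff_ne_zero.mp hi0)] using this
    have h7 : ∑ a, (c a i) • b a = 0 := by
      simpa only [hsmul] using h6
    exact hli (fun a => c a i) h7 a
  -- first relation between columns `0` and `q`
  have hrel2 : ∀ a, c a 0 + c a q * jK k = 0 := by
    have h6 : D 0 + D q * jqModC k = 0 := by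
      have := h5 0 (by omega)
      simpa only [hE, if_true] using this
    have h7 : ∑ a, (c a 0 + c a q * jK k) • b a = 0 := by
      simp only [hsmul]
      rw [← h6, hD, Finset.sum_mul, ← Finset.sum_add_distrib]
      refine Finset.sum_congr rfl (fun a _ => ?_)
      push_cast
      rw [coe_jK]
      ring
    exact fun a => hli (fun a => c a 0 + c a q * jK k) h7 a
  -- second relation
  have hrel1 : ∀ a, c a 0 + c a q * jK k ^ (q * q) = 0 := by
    have h7 : ∑ a, (c a 0 + c a q * jK k ^ (q * q)) • b a = 0 := by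
      simp only [hsmul]
      rw [← h1]
      refine Finset.sum_congr rfl (fun a _ => ?_)
      rw [Finset.sum_range_succ, Finset.sum_eq_single 0]
      · push_cast
        rw [coe_jK, h8pb_kronecker k q, ← pow_mul]
        ring
      · intro i hi hi0
        rw [hmid a i (Nat.pos_of_ne_zero hi0) (Finset.mem_range.mp hi)]
        simp
      · intro h0
        exact absurd (Finset.mem_range.mpr (by omega)) h0
    exact fun a => hli (fun a => c a 0 + c a q * jK k ^ (q * q)) h7 a
  have hq0 : ∀ a, c a q = 0 := by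
    intro a
    have h8 : c a q * (jK k - jK k ^ (q * q)) = 0 := by
      have := hrel2 a
      have := hrel1 a
      linear_combination hrel2 a - hrel1 a
    rcases mul_eq_zero.mp h8 with h9 | h9
    · exact h9
    · exfalso
      apply h8pb_jq_ne_pow k q
      have h10 := congrArg (fun x : KJ k => (x : LaurentSeries k)) (sub_eq_zero.mp h9)
      simpa using h10
  intro a i hi
  rcases Nat.eq_zero_or_pos i with h0 | h0
  · subst h0
    have := hrel2 a
    rw [hq0 a, zero_mul, add_zero] at this
    exact this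
  · rcases Nat.lt_or_ge i q with hlt | hge
    · exact hmid a i h0 hlt
    · have : i = q := le_antisymm hi hge
      subst this
      exact hq0 a

end Core

end H8PB

end
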