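import Mathlib
import Fermat.Agent.S18.GVFam_helper28
import Fermat.Agent.S34.PairBasisCore_helper8

/-!
# Item 82 (S34), input (I1): the PAIR basis at level `N = q M` — lift to `(L, A, π)` (helper8)

`A ⊆ L` a valuation subring, `π : A →+* k`, `char k = q`, `t = j` (over `A`), `Φ = qExpand _ q`.
`y : Fin m → A((𝐪))` with `ρ y` linearly independent over `k(J)` (a `GVBasis` of level `M`).
The pair family is

  `y1 (a, i) = y_a · Φ(t)^i`   (the `ι₁`-expansion of `b_a · j_q^i`),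
  `y2 (a, i) = Φ(y_a) · t^i`   (its `ι₂ = W`-expansion),         `0 ≤ i ≤ q`.

For `c_p ∈ L(j)` put `x = Σ c_p ε(y1 p)` and `x' = Σ Φ(c_p) ε(y2 p)` (`= W x`).

* `h8pb_pair_sum`: if not all `c_p` vanish there are `a ∈ Lˣ`, `Q`, `R_p ∈ A[X]` with
  `ρ Q(t) ≠ 0`, `c_p · ε Q(t) = a · ε R_p(t)`, `x · ε Q(t) = a · ε f₁`, `x' · ε Q(Φ t) = a · ε f₂`
  and `ρ f₁ ≠ 0` **or** `ρ f₂ ≠ 0`   (`min (w₁ x) (w₂ x) = v(a) = min_p w(c_p)`).
* `h8pb_coeff_mem`: `x ∈ gvO` and `x' ∈ gvO` ⟹ all `c_p ∈ gvO`.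
* `h8pb_coeff_red`: if moreover both reductions vanish, the reductions of all `c_p` vanish.
* `h8pb_integral`: if `x` and `x'` are integral over `gvO`, all `c_p ∈ gvO`.
-/

set_option autoImplicit false
set_option linter.unusedSectionVars false
set_option linter.style.longLine false

open ModularCurve HahnSeries H28GV

noncomputable section

namespace H8PB

variable {L : Type*} [Field L] (A : ValuationSubring L) {k : Type} [Field k] (π : A →+* k)
variable (q : ℕ) [Fact q.Prime] [NeZero q] [CharP k q]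
variable {m : ℕ} (y : Fin m → LaurentSeries A)

/-- the `ι₁`-expansions `y_a · j(𝐪^q)^i` -/
def y1 (p : Fin m × Fin (q + 1)) : LaurentSeries A :=
  y p.1 * (qExpand A q (jqModC A)) ^ (p.2 : ℕ)

/-- the `ι₂`-expansions `y_a(𝐪^q) · j^i` -/
def y2 (p : Fin m × Fin (q + 1)) : LaurentSeries A :=
  qExpand A q (y p.1) * (jqModC A) ^ (p.2 : ℕ)

theorem h8pb_rho_jq : gvRho A π (jqModC A) = jqModC k := coeffMap_jqModC _

theorem h8pb_eps_qExpand (f : LaurentSeries A) :
    gvEps A (qExpand A q f) = qExpand L q (gvEps A f) := coeffMap_qExpand _ _ _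

theorem h8pb_rho_qExpand (f : LaurentSeries A) :
    gvRho A π (qExpand A q f) = qExpand k q (gvRho A π f) := coeffMap_qExpand _ _ _

theorem h8pb_qExpand_ev (t : LaurentSeries A) (P : Polynomial A) :
    qExpand A q (gvEv A t P) = gvEv A (qExpand A q t) P := by
  rw [gvEv, gvEv, Polynomial.hom_eval₂]
  congr 1
  ext c : 1
  rw [RingHom.comp_apply]
  exact qExpand_C q c

theorem h8pb_trans : Transcendental k (gvRho A π (jqModC A)) := by
  rw [h8pb_rho_jq]
  exact P2MW.S_ModularCurve_coeff_jqModC_neg_one.ModularCurve.CharLRows.transcendental_jqModC k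

theorem h8pb_qExpand_aeval (P : Polynomial k) (s : LaurentSeries k) :
    Polynomial.aeval (qExpand k q s) P = qExpand k q (Polynomial.aeval s P) := by
  have := Polynomial.aeval_algHom_apply (qExpandAlgHomC k q) s P
  simpa using this

/-- the two reductions of a polynomial combination cannot vanish together -/
theorem h8pb_red_or (hy : LinearIndependent ↥(KJ k) (fun a => gvRho A π (y a)))
    (R : Fin m × Fin (q + 1) → Polynomial A)
    (hR : ∃ p, gvRho A π (gvEv A (jqModC A) (R p)) ≠ 0) :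
    gvRho A π (gvPComb A (jqModC A) (y1 A q y) R) ≠ 0 ∨
      gvRho A π (gvPComb A (qExpand A q (jqModC A)) (y2 A q y) R) ≠ 0 := by
  classical
  by_contra hcon
  push Not at hcon
  obtain ⟨h1, h2⟩ := hcon
  obtain ⟨⟨a₀, i₀⟩, hp₀⟩ := hR
  -- the coefficients in `k(J)`
  let cc : Fin m → ℕ → KJ k := fun a i =>
    if h : i < q + 1 then
      ⟨Polynomial.aeval (jqModC k) ((R (a, ⟨i, h⟩)).map π), gv_aeval_mem_adjoin _ _⟩
    else 0
  have hcc : ∀ (a : Fin m) (i : Fin (q + 1)),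
      ((cc a (i : ℕ) : KJ k) : LaurentSeries k) =
        Polynomial.aeval (jqModC k) ((R (a, i)).map π) := by
    intro a i
    simp only [cc, dif_pos i.2]
  have e1 : ∑ a, ∑ i ∈ Finset.range (q + 1),
      (cc a i : LaurentSeries k) * gvRho A π (y a) * (qExpand k q (jqModC k)) ^ i = 0 := by
    rw [← h1, gvRho_pcomb, Fintype.sum_prod_type]
    refine Finset.sum_congr rfl (fun a _ => ?_)
    rw [Finset.sum_range]
    refine Finset.sum_congr rfl (fun i _ => ?_)
    rw [hcc, h8pb_rho_jq]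
    show _ = _ * gvRho A π (y a * (qExpand A q (jqModC A)) ^ (i : ℕ))
    rw [map_mul (gvRho A π), map_pow, h8pb_rho_qExpand, h8pb_rho_jq]
    ring
  have e2 : ∑ a, ∑ i ∈ Finset.range (q + 1),
      qExpand k q ((cc a i : LaurentSeries k) * gvRho A π (y a)) * (jqModC k) ^ i = 0 := by
    rw [← h2, gvRho_pcomb, Fintype.sum_prod_type]
    refine Finset.sum_congr rfl (fun a _ => ?_)
    rw [Finset.sum_range]
    refine Finset.sum_congr rfl (fun i _ => ?_)
    rw [hcc, h8pb_rho_qExpand, h8pb_rho_jq, h8pb_qExpand_aeval]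
    show _ = _ * gvRho A π (qExpand A q (y a) * jqModC A ^ (i : ℕ))
    rw [map_mul (gvRho A π), map_pow, h8pb_rho_qExpand, h8pb_rho_jq, map_mul (qExpand k q)]
    ring
  have h3 := h8pb_core k q (fun a => gvRho A π (y a)) hy cc e1 e2 a₀ i₀
    (Nat.lt_succ_iff.mp i₀.2)
  apply hp₀
  rw [gvRho_ev, h8pb_rho_jq, ← hcc a₀ i₀, h3]
  rfl

/-- **pair decomposition** (see the header) -/
theorem h8pb_pair_sum (hy : LinearIndependent ↥(KJ k) (fun a => gvRho A π (y a)))
    (c : Fin m × Fin (q + 1) → LaurentSeries L)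
    (hc : ∀ p, c p ∈ IntermediateField.adjoin L {gvEps A (jqModC A)}) (hc0 : ∃ p, c p ≠ 0) :
    ∃ (a : L) (Q : Polynomial A) (R : Fin m × Fin (q + 1) → Polynomial A), a ≠ 0 ∧
      gvRho A π (gvEv A (jqModC A) Q) ≠ 0 ∧
      (gvRho A π (gvPComb A (jqModC A) (y1 A q y) R) ≠ 0 ∨
        gvRho A π (gvPComb A (qExpand A q (jqModC A)) (y2 A q y) R) ≠ 0) ∧
      (∀ p, c p * gvEps A (gvEv A (jqModC A) Q) =
        HahnSeries.C a * gvEps A (gvEv A (jqModC A) (R p))) ∧
      (∑ p, c p * gvEps A (y1 A q y p)) * gvEps A (gvEv A (jqModC A) Q) =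
        HahnSeries.C a * gvEps A (gvPComb A (jqModC A) (y1 A q y) R) ∧
      (∑ p, qExpand L q (c p) * gvEps A (y2 A q y p)) *
          gvEps A (gvEv A (qExpand A q (jqModC A)) Q) =
        HahnSeries.C a * gvEps A (gvPComb A (qExpand A q (jqModC A)) (y2 A q y) R) := by
  classical
  have ht := h8pb_trans A π
  obtain ⟨Q, a, P, hQ, hne, hz, h⟩ := gv_common_den A π (jqModC A) ht c hc
  have ha0 : a ≠ 0 := by
    obtain ⟨i, hi⟩ := hc0
    intro h0
    exact (hne i hi).1 (by rw [h0]; rfl)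
  obtain ⟨a₀, b, ha₀, ⟨i₀, hb1⟩, hab⟩ := gv_scale A a ha0
  have hai₀ : a i₀ ≠ 0 := by
    rw [hab i₀, hb1]
    exact mul_ne_zero ha₀ (by exact one_ne_zero)
  have hci₀ : c i₀ ≠ 0 := fun h0 => hai₀ (hz i₀ h0)
  have hterm : ∀ p, c p * gvEps A (gvEv A (jqModC A) Q) =
      HahnSeries.C a₀ * gvEps A (gvEv A (jqModC A) (Polynomial.C (b p) * P p)) := by
    intro p
    rw [h p, gvEv_mul, gvEv_C, map_mul, gvEps_C, hab p, map_mul]
    ring
  have hterm' : ∀ p, qExpand L q (c p) * gvEps A (gvEv A (qExpand A q (jqModC A)) Q) =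
      HahnSeries.C a₀ *
        gvEps A (gvEv A (qExpand A q (jqModC A)) (Polynomial.C (b p) * P p)) := by
    intro p
    have := congrArg (qExpand L q) (hterm p)
    rw [map_mul, map_mul, ← h8pb_eps_qExpand, ← h8pb_eps_qExpand, h8pb_qExpand_ev,
      h8pb_qExpand_ev, qExpand_C] at this
    exact this
  refine ⟨a₀, Q, fun p => Polynomial.C (b p) * P p, ha₀, hQ, ?_, hterm, ?_, ?_⟩
  · apply h8pb_red_or A π q y hy
    refine ⟨i₀, ?_⟩
    rw [hb1, map_one, one_mul]
    exact (hne i₀ hci₀).2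
  · rw [Finset.sum_mul, gvPComb, map_sum, Finset.mul_sum]
    refine Finset.sum_congr rfl (fun p _ => ?_)
    rw [mul_right_comm, hterm p, map_mul]
    ring
  · rw [Finset.sum_mul, gvPComb, map_sum, Finset.mul_sum]
    refine Finset.sum_congr rfl (fun p _ => ?_)
    rw [mul_right_comm, hterm' p, map_mul]
    ring

/-! ### Consequences -/

/-- a constant in the Gauss ring lies in `A` (copy of `H28GV.gv_const_mem`, to keep the import
closure of this file small) -/
theorem h8pb_const_mem' (hπ : ∀ a : A, π a ≠ 0 → ((a : L))⁻¹ ∈ A) (c : L)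
    (hc : (HahnSeries.C c : LaurentSeries L) ∈ gvO A π) : c ∈ A := by
  obtain ⟨f, g, hg, h⟩ := hc
  obtain ⟨n, hn⟩ : ∃ n, π (g.coeff n) ≠ 0 := by
    by_contra h0
    push Not at h0
    exact hg (HahnSeries.ext (funext fun n => by rw [gvRho_coeff, h0 n]; rfl))
  have h1 := congrArg (fun z => z.coeff n) h
  simp only [HahnSeries.C_mul_eq_smul, HahnSeries.coeff_smul, gvEps_coeff, smul_eq_mul] at h1
  have hgn : ((g.coeff n : A) : L) ≠ 0 := by
    intro h0
    apply hn
    have : g.coeff n = 0 := Subtype.ext h0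
    rw [this, map_zero]
  have h2 : c = ((f.coeff n : A) : L) * ((g.coeff n : A) : L)⁻¹ := by
    rw [← h1, mul_assoc, mul_inv_cancel₀ hgn, mul_one]
  rw [h2]
  exact A.mul_mem _ _ (f.coeff n).2 (hπ _ hn)

/-- `x · ε g = a · ε f`, `x ∈ gvO`, `ρ f ≠ 0` ⟹ `a ∈ A`. -/
theorem h8pb_const_of_rel (hπ : ∀ a : A, π a ≠ 0 → ((a : L))⁻¹ ∈ A)
    (x : LaurentSeries L) (hx : x ∈ gvO A π) (a : L) (f g : LaurentSeries A)
    (hf : gvRho A π f ≠ 0) (h : x * gvEps A g = HahnSeries.C a * gvEps A f) : a ∈ A := by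
  apply h8pb_const_mem' A π hπ
  have hf0 : gvEps A f ≠ 0 := gvEps_ne_zero_of_rho A π f hf
  have h1 : (HahnSeries.C a : LaurentSeries L) = (x * gvEps A g) / gvEps A f := by
    rw [h, mul_div_assoc, div_self hf0, mul_one]
  rw [h1]
  exact gv_div_mem A π ⟨_, (gvO A π).mul_mem hx (gvEps_mem_gvO A π g)⟩
    ⟨_, gvEps_mem_gvO A π f⟩ (by rw [gvRed_eps]; exact hf)

/-- reduction of a relation `x · ε g = a · ε f` with `a ∈ A` -/
theorem h8pb_red_rel (x : LaurentSeries L) (hx : x ∈ gvO A π) (a : A) (f g : LaurentSeries A)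
    (h : x * gvEps A g = HahnSeries.C (a : L) * gvEps A f) :
    gvRed A π ⟨x, hx⟩ * gvRho A π g = HahnSeries.C (π a) * gvRho A π f := by
  have h1 : (⟨x, hx⟩ : gvO A π) * ⟨gvEps A g, gvEps_mem_gvO A π g⟩ =
      ⟨HahnSeries.C (a : L), gv_C_mem A π a⟩ * ⟨gvEps A f, gvEps_mem_gvO A π f⟩ :=
    Subtype.ext h
  have h2 := congrArg (gvRed A π) h1
  rw [map_mul, map_mul, gvRed_eps, gvRed_eps, gvRed_C] at h2
  exact h2

/-- the pair constant of an integral pair lies in `A` -/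
theorem h8pb_pair_const_mem (hπ : ∀ a : A, π a ≠ 0 → ((a : L))⁻¹ ∈ A)
    (x x' : LaurentSeries L) (hx : x ∈ gvO A π) (hx' : x' ∈ gvO A π)
    (a : L) (f f' g g' : LaurentSeries A)
    (hor : gvRho A π f ≠ 0 ∨ gvRho A π f' ≠ 0)
    (h : x * gvEps A g = HahnSeries.C a * gvEps A f)
    (h' : x' * gvEps A g' = HahnSeries.C a * gvEps A f') : a ∈ A := by
  rcases hor with hf | hf
  · exact h8pb_const_of_rel A π hπ x hx a f g hf h
  · exact h8pb_const_of_rel A π hπ x' hx' a f' g' hf h'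

/-- **coefficients of an element of `O_{w₁} ∩ O_{w₂}`** lie in the Gauss ring. -/
theorem h8pb_coeff_mem (hπ : ∀ a : A, π a ≠ 0 → ((a : L))⁻¹ ∈ A)
    (hy : LinearIndependent ↥(KJ k) (fun a => gvRho A π (y a)))
    (c : Fin m × Fin (q + 1) → LaurentSeries L)
    (hc : ∀ p, c p ∈ IntermediateField.adjoin L {gvEps A (jqModC A)})
    (hx : ∑ p, c p * gvEps A (y1 A q y p) ∈ gvO A π)
    (hx' : ∑ p, qExpand L q (c p) * gvEps A (y2 A q y p) ∈ gvO A π) :
    ∀ p, c p ∈ gvO A π := by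
  classical
  by_cases hc0 : ∃ p, c p ≠ 0
  · obtain ⟨a, Q, R, ha, hQ, hor, hterm, h1, h2⟩ := h8pb_pair_sum A π q y hy c hc hc0
    have haA : a ∈ A := h8pb_pair_const_mem A π hπ _ _ hx hx' a _ _ _ _ hor h1 h2
    intro p
    have hQ0 : gvEps A (gvEv A (jqModC A) Q) ≠ 0 := gvEps_ne_zero_of_rho A π _ hQ
    have h3 : c p = (HahnSeries.C a * gvEps A (gvEv A (jqModC A) (R p))) /
        gvEps A (gvEv A (jqModC A) Q) := by
      rw [← hterm p, mul_div_assoc, div_self hQ0, mul_one]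
    rw [h3]
    exact gv_div_mem A π
      ⟨_, (gvO A π).mul_mem (gv_C_mem A π ⟨a, haA⟩) (gvEps_mem_gvO A π _)⟩
      ⟨_, gvEps_mem_gvO A π _⟩ (by rw [gvRed_eps]; exact hQ)
  · push Not at hc0
    intro p
    rw [hc0 p]
    exact (gvO A π).zero_mem

/-- **coefficients of an element of `𝔭₁ ∩ 𝔭₂`** have zero reduction. -/
theorem h8pb_coeff_red (hπ : ∀ a : A, π a ≠ 0 → ((a : L))⁻¹ ∈ A)
    (hy : LinearIndependent ↥(KJ k) (fun a => gvRho A π (y a)))
    (c : Fin m × Fin (q + 1) → LaurentSeries L)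
    (hc : ∀ p, c p ∈ IntermediateField.adjoin L {gvEps A (jqModC A)})
    (hx : ∑ p, c p * gvEps A (y1 A q y p) ∈ gvO A π)
    (hx' : ∑ p, qExpand L q (c p) * gvEps A (y2 A q y p) ∈ gvO A π)
    (hr : gvRed A π ⟨_, hx⟩ = 0) (hr' : gvRed A π ⟨_, hx'⟩ = 0) :
    ∀ p, ∃ h : c p ∈ gvO A π, gvRed A π ⟨c p, h⟩ = 0 := by
  classical
  have hmem := h8pb_coeff_mem A π q y hπ hy c hc hx hx'
  by_cases hc0 : ∃ p, c p ≠ 0
  · obtain ⟨a, Q, R, ha, hQ, hor, hterm, h1, h2⟩ := h8pb_pair_sum A π q y hy c hc hc0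
    have haA : a ∈ A := h8pb_pair_const_mem A π hπ _ _ hx hx' a _ _ _ _ hor h1 h2
    have hpa : π ⟨a, haA⟩ = 0 := by
      have e1 := h8pb_red_rel A π _ hx ⟨a, haA⟩ _ _ h1
      have e2 := h8pb_red_rel A π _ hx' ⟨a, haA⟩ _ _ h2
      rw [hr, zero_mul] at e1
      rw [hr', zero_mul] at e2
      have key : ∀ z : LaurentSeries k, z ≠ 0 →
          (0 : LaurentSeries k) = HahnSeries.C (π ⟨a, haA⟩) * z → π ⟨a, haA⟩ = 0 := by
        intro z hz e
        rcases mul_eq_zero.mp e.symm with h0 | h0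
        · exact HahnSeries.C_injective (h0.trans (map_zero _).symm)
        · exact absurd h0 hz
      rcases hor with hf | hf
      · exact key _ hf e1
      · exact key _ hf e2
    intro p
    refine ⟨hmem p, ?_⟩
    have e3 := h8pb_red_rel A π (c p) (hmem p) ⟨a, haA⟩ _ _ (hterm p)
    rw [hpa, map_zero, zero_mul] at e3
    rcases mul_eq_zero.mp e3 with h0 | h0
    · exact h0
    · exact absurd h0 hQ
  · push Not at hc0
    intro p
    refine ⟨hmem p, ?_⟩
    have : (⟨c p, hmem p⟩ : gvO A π) = 0 := Subtype.ext (hc0 p)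
    rw [this, map_zero]

/-! ### Integral elements -/

/-- if `x = a · (ε f / ε g)` (`ρ f, ρ g ≠ 0`) is integral over the Gauss ring, then `a ∈ A`. -/
theorem h8pb_const_of_integral (hπ0 : ∀ a : A, ¬ IsUnit a → π a = 0)
    (x : LaurentSeries L) (hx : IsIntegral (gvO A π) x) (a : L) (f g : LaurentSeries A)
    (hf : gvRho A π f ≠ 0) (hg : gvRho A π g ≠ 0)
    (h : x * gvEps A g = HahnSeries.C a * gvEps A f) : a ∈ A := by
  classical
  by_contra haA
  have ha0 : a ≠ 0 := fun h0 => haA (by rw [h0]; exact A.zero_mem)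
  have hinv : a⁻¹ ∈ A := (A.mem_or_inv_mem a).resolve_left haA
  have hnu : ¬ IsUnit (⟨a⁻¹, hinv⟩ : A) := by
    intro hu
    obtain ⟨b, hb⟩ := hu.exists_right_inv
    have h3 : a⁻¹ * (b : L) = 1 := by
      have := congrArg (fun x : A => (x : L)) hb
      simpa using this
    have h4 : (b : L) = a := by
      have := congrArg (fun z => a * z) h3
      simpa [← mul_assoc, mul_inv_cancel₀ ha0] using this
    exact haA (h4 ▸ b.2)
  have hπa : π ⟨a⁻¹, hinv⟩ = 0 := hπ0 _ hnu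
  set r : gvO A π := ⟨HahnSeries.C a⁻¹, gv_C_mem A π ⟨a⁻¹, hinv⟩⟩ with hr
  have hrred : gvRed A π r = 0 := by
    rw [hr]
    exact (gvRed_C A π ⟨a⁻¹, hinv⟩).trans (by rw [hπa, map_zero])
  set u : gvO A π := ⟨_, gv_div_mem A π ⟨_, gvEps_mem_gvO A π f⟩ ⟨_, gvEps_mem_gvO A π g⟩
    (by rw [gvRed_eps]; exact hg)⟩ with hu
  have hured : gvRed A π u ≠ 0 := by
    rw [hu, gvRed_div A π ⟨_, gvEps_mem_gvO A π f⟩ ⟨_, gvEps_mem_gvO A π g⟩
      (by rw [gvRed_eps]; exact hg), gvRed_eps, gvRed_eps]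
    exact div_ne_zero hf hg
  have hg0 : gvEps A g ≠ 0 := gvEps_ne_zero_of_rho A π g hg
  have hux : (u : LaurentSeries L) = (r : LaurentSeries L) * x := by
    show gvEps A f / gvEps A g = HahnSeries.C a⁻¹ * x
    rw [div_eq_iff hg0, mul_assoc, h, ← mul_assoc, ← map_mul, inv_mul_cancel₀ ha0, map_one,
      one_mul]
  obtain ⟨P, hP, hPx⟩ := hx
  have h1 := Polynomial.scaleRoots_eval₂_eq_zero (algebraMap (gvO A π) (LaurentSeries L))
    (s := r) hPx
  have h2 : Polynomial.eval₂ (algebraMap (gvO A π) (LaurentSeries L))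
      (algebraMap (gvO A π) (LaurentSeries L) u) (P.scaleRoots r) = 0 := by
    have e : algebraMap (gvO A π) (LaurentSeries L) u =
        algebraMap (gvO A π) (LaurentSeries L) r * x := hux
    rw [e]
    exact h1
  rw [Polynomial.eval₂_at_apply] at h2
  have h3 : (P.scaleRoots r).eval u = 0 := by
    have hinj : Function.Injective (algebraMap (gvO A π) (LaurentSeries L)) :=
      Subtype.val_injective
    exact hinj (h2.trans (map_zero _).symm)
  have h4 : ((P.scaleRoots r).map (gvRed A π)).eval (gvRed A π u) = 0 := by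
    rw [Polynomial.eval_map, Polynomial.eval₂_at_apply, h3, map_zero]
  have hlc : gvRed A π P.leadingCoeff ≠ 0 := by
    rw [hP.leadingCoeff, map_one]
    exact one_ne_zero
  rw [Polynomial.map_scaleRoots _ _ _ hlc, hrred, Polynomial.scaleRoots_zero,
    Polynomial.leadingCoeff_map_of_leadingCoeff_ne_zero _ hlc, hP.leadingCoeff, map_one,
    one_smul, Polynomial.eval_pow, Polynomial.eval_X] at h4
  exact hured (pow_eq_zero_iff (by
    intro h0
    rw [h0, pow_zero] at h4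
    exact one_ne_zero h4) |>.mp h4)

/-- **integral elements**: if `x = Σ c_p ε(y1 p)` and `x' = Σ Φ(c_p) ε(y2 p)` are integral over
the Gauss ring, all `c_p` lie in the Gauss ring. -/
theorem h8pb_integral (hπ0 : ∀ a : A, ¬ IsUnit a → π a = 0)
    (hy : LinearIndependent ↥(KJ k) (fun a => gvRho A π (y a)))
    (c : Fin m × Fin (q + 1) → LaurentSeries L)
    (hc : ∀ p, c p ∈ IntermediateField.adjoin L {gvEps A (jqModC A)})
    (hx : IsIntegral (gvO A π) (∑ p, c p * gvEps A (y1 A q y p)))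
    (hx' : IsIntegral (gvO A π) (∑ p, qExpand L q (c p) * gvEps A (y2 A q y p))) :
    ∀ p, c p ∈ gvO A π := by
  classical
  by_cases hc0 : ∃ p, c p ≠ 0
  · obtain ⟨a, Q, R, ha, hQ, hor, hterm, h1, h2⟩ := h8pb_pair_sum A π q y hy c hc hc0
    have hQ' : gvRho A π (gvEv A (qExpand A q (jqModC A)) Q) ≠ 0 := by
      rw [← h8pb_qExpand_ev, h8pb_rho_qExpand]
      intro h0
      exact hQ (qExpand_injective q (h0.trans (map_zero _).symm))
    have haA : a ∈ A := by
      rcases hor with hf | hf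
      · exact h8pb_const_of_integral A π hπ0 _ hx a _ _ hf hQ h1
      · exact h8pb_const_of_integral A π hπ0 _ hx' a _ _ hf hQ' h2
    intro p
    have hQ0 : gvEps A (gvEv A (jqModC A) Q) ≠ 0 := gvEps_ne_zero_of_rho A π _ hQ
    have h3 : c p = (HahnSeries.C a * gvEps A (gvEv A (jqModC A) (R p))) /
        gvEps A (gvEv A (jqModC A) Q) := by
      rw [← hterm p, mul_div_assoc, div_self hQ0, mul_one]
    rw [h3]
    exact gv_div_mem A π
      ⟨_, (gvO A π).mul_mem (gv_C_mem A π ⟨a, haA⟩) (gvEps_mem_gvO A π _)⟩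
      ⟨_, gvEps_mem_gvO A π _⟩ (by rw [gvRed_eps]; exact hQ)
  · push Not at hc0
    intro p
    rw [hc0 p]
    exact (gvO A π).zero_mem

end H8PB

end
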