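import Mathlib
import Fermat.Agent.S34.PairBasisLift_helper8

/-!
# Item 82 (S34), input (I1): the PAIR basis — lift, part 2 (helper8)

* `h8pb_qExpand_mem` : the Gauss ring is stable under `𝐪 ↦ 𝐪^q`;
* `h8pb_coeff_div`   : if `x = Σ c_p ε(y1 p)` and `x' = Σ c_p(𝐪^q) ε(y2 p)` lie in the maximal
  ideals of the Gauss ring and the kernel of `π` is generated by `ϖ`, then every `c_p` is
  `ϖ` times an element of the Gauss ring  (`ϖ O = 𝔭₁ ∩ 𝔭₂`, i.e. `e(w₁) = e(w₂) = 1`).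
-/

set_option autoImplicit false
set_option linter.unusedSectionVars false
set_option linter.style.longLine false

open ModularCurve HahnSeries H28GV

noncomputable section

namespace H8PB

variable {L : Type*} [Field L] (A : ValuationSubring L) {k : Type} [Field k] (π : A →+* k)
variable (q : ℕ) [Fact q.Prime] [NeZero q] [CharP k q]
variable {m : ℕ} (y : Fin m → LaurentSeries A)

/-- the Gauss ring is stable under `𝐪 ↦ 𝐪^q` -/
theorem h8pb_qExpand_mem (x : LaurentSeries L) (hx : x ∈ gvO A π) :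
    qExpand L q x ∈ gvO A π := by
  obtain ⟨f, g, hg, h⟩ := hx
  refine ⟨qExpand A q f, qExpand A q g, ?_, ?_⟩
  · rw [h8pb_rho_qExpand]
    intro h0
    exact hg (qExpand_injective q (h0.trans (map_zero _).symm))
  · rw [h8pb_eps_qExpand, h8pb_eps_qExpand, ← map_mul, h]

/-- **`ϖ O = 𝔭₁ ∩ 𝔭₂`**: the coefficients of an element of `𝔭₁ ∩ 𝔭₂` are divisible by `ϖ`. -/
theorem h8pb_coeff_div (hπ : ∀ a : A, π a ≠ 0 → ((a : L))⁻¹ ∈ A)
    (hy : LinearIndependent ↥(KJ k) (fun a => gvRho A π (y a)))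
    (c : Fin m × Fin (q + 1) → LaurentSeries L)
    (hc : ∀ p, c p ∈ IntermediateField.adjoin L {gvEps A (jqModC A)})
    (hx : ∑ p, c p * gvEps A (y1 A q y p) ∈ gvO A π)
    (hx' : ∑ p, qExpand L q (c p) * gvEps A (y2 A q y p) ∈ gvO A π)
    (hr : gvRed A π ⟨_, hx⟩ = 0) (hr' : gvRed A π ⟨_, hx'⟩ = 0)
    (ϖ : A) (hϖ : ∀ a : A, π a = 0 → ∃ b : A, a = ϖ * b) :
    ∀ p, ∃ c' : LaurentSeries L, c' ∈ gvO A π ∧ c p = HahnSeries.C (ϖ : L) * c' := by
  classical
  by_cases hc0 : ∃ p, c p ≠ 0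
  · obtain ⟨a, Q, R, ha, hQ, hor, hterm, h1, h2⟩ := h8pb_pair_sum A π q y hy c hc hc0
    have haA : a ∈ A := h8pb_pair_const_mem A π hπ _ _ hx hx' a _ _ _ _ hor h1 h2
    have hpa : π ⟨a, haA⟩ = 0 := by
      have e1 := h8pb_red_rel A π _ hx ⟨a, haA⟩ _ _ h1
      have e2 := h8pb_red_rel A π _ hx' ⟨a, haA⟩ _ _ h2
      rw [hr, zero_mul] at e1
      rw [hr', zero_mul] at e2
      have key : ∀ z : LaurentSeries k, z ≠ 0 →
          (0 : LaurentSeries k) = HahnSeries.C (π ⟨a, haA⟩) * z → π ⟨a, haA⟩ = 0 := by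
        intro z hz e
        rcases mul_eq_zero.mp e.symm with h0 | h0
        · exact HahnSeries.C_injective (h0.trans (map_zero _).symm)
        · exact absurd h0 hz
      rcases hor with hf | hf
      · exact key _ hf e1
      · exact key _ hf e2
    obtain ⟨b, hb⟩ := hϖ _ hpa
    have hab : a = (ϖ : L) * (b : L) := by
      have := congrArg (fun z : A => (z : L)) hb
      simpa using this
    intro p
    have hQ0 : gvEps A (gvEv A (jqModC A) Q) ≠ 0 := gvEps_ne_zero_of_rho A π _ hQ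
    refine ⟨(HahnSeries.C (b : L) * gvEps A (gvEv A (jqModC A) (R p))) /
        gvEps A (gvEv A (jqModC A) Q), ?_, ?_⟩
    · exact gv_div_mem A π
        ⟨_, (gvO A π).mul_mem (gv_C_mem A π b) (gvEps_mem_gvO A π _)⟩
        ⟨_, gvEps_mem_gvO A π _⟩ (by rw [gvRed_eps]; exact hQ)
    · rw [eq_comm, ← mul_div_assoc, div_eq_iff hQ0, hterm p, hab, map_mul]
      ring
  · push Not at hc0
    intro p
    exact ⟨0, (gvO A π).zero_mem, by rw [hc0 p, mul_zero]⟩

end H8PB

end
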