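import Mathlib
import Fermat.Agent.S34.PairBasisLift2_helper8
import Fermat.Agent.S34.PairDefs_helper8
import Fermat.Agent.S18.C5_helper19

/-!
# Item 82 (S34), input (I1): generic lemmas for the assembly of `PairGaussStatement` (helper8)

`A ⊆ L` a valuation subring, `π = IsLocalRing.residue A`, `gvO A π` the Gauss ring.

* `h8pg_rho_ne_iff`   : `ρ g ≠ 0 ↔ g` has a unit coefficient;
* `h8pg_inG_iff`      : `InG A x ↔ x ∈ gvO A π`;
* `h8pg_inGm_red`     : `InGm A x → gvRed x = 0`;
* `h8pg_psi_aeval`    : for a ring hom `ψ : F → L((𝐪))` with `ψ r = C r`, `ψ t = ε T'`: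
                        `ψ (aeval t P) = ε (gvEv T' P)`;
* `h8pg_psi_unit`     : Gauss units are mapped to units of the Gauss ring;
* `h8pg_psi_integral` : `IsInt`-elements are mapped to elements integral over the Gauss ring.
-/

set_option autoImplicit false
set_option linter.unusedSectionVars false
set_option linter.style.longLine false
set_option linter.unusedVariables false
set_option synthInstance.maxHeartbeats 400000

open ModularCurve HahnSeries H28GV H7S18

noncomputable section

namespace H8PB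

section Gen

variable {L : Type} [Field L] (A : ValuationSubring L)

theorem h8pg_rho_ne_iff (g : LaurentSeries A) :
    gvRho A (IsLocalRing.residue A) g ≠ 0 ↔ ∃ n, IsUnit (g.coeff n) := by
  constructor
  · intro h
    by_contra h0
    push Not at h0
    apply h
    ext n
    rw [gvRho_coeff, HahnSeries.coeff_zero]
    exact (IsLocalRing.residue_eq_zero_iff _).mpr ((IsLocalRing.mem_maximalIdeal _).mpr (h0 n))
  · rintro ⟨n, hn⟩ h0
    have h1 := congrArg (fun z => z.coeff n) h0
    simp only [gvRho_coeff, HahnSeries.coeff_zero] at h1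
    exact ((IsLocalRing.mem_maximalIdeal _).mp ((IsLocalRing.residue_eq_zero_iff _).mp h1)) hn

theorem h8pg_rho_eq_zero (f : LaurentSeries A) (hf : ∀ n, ¬ IsUnit (f.coeff n)) :
    gvRho A (IsLocalRing.residue A) f = 0 := by
  by_contra h
  obtain ⟨n, hn⟩ := (h8pg_rho_ne_iff A f).mp h
  exact hf n hn

theorem h8pg_inG_iff (x : LaurentSeries L) :
    InG A x ↔ x ∈ gvO A (IsLocalRing.residue A) := by
  constructor
  · rintro ⟨f, g, hg, h⟩
    exact ⟨f, g, (h8pg_rho_ne_iff A g).mpr hg, h⟩
  · rintro ⟨f, g, hg, h⟩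
    exact ⟨f, g, (h8pg_rho_ne_iff A g).mp hg, h⟩

theorem h8pg_inGm_red (x : LaurentSeries L) (hx : InGm A x) :
    ∃ h : x ∈ gvO A (IsLocalRing.residue A), gvRed A (IsLocalRing.residue A) ⟨x, h⟩ = 0 := by
  obtain ⟨f, g, hg, hf, h⟩ := hx
  have hg' := (h8pg_rho_ne_iff A g).mpr hg
  refine ⟨⟨f, g, hg', h⟩, ?_⟩
  rw [gvRed_eq A (IsLocalRing.residue A) ⟨x, ⟨f, g, hg', h⟩⟩ f g hg' h, h8pg_rho_eq_zero A f hf,
    zero_div]

theorem h8pg_hpi0 : ∀ a : A, ¬ IsUnit a → IsLocalRing.residue A a = 0 := fun a ha =>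
  (IsLocalRing.residue_eq_zero_iff a).mpr ((IsLocalRing.mem_maximalIdeal a).mpr ha)

theorem h8pg_hpi : ∀ a : A, IsLocalRing.residue A a ≠ 0 → ((a : L))⁻¹ ∈ A := by
  intro a ha
  have hu : IsUnit a := by
    by_contra h
    exact ha (h8pg_hpi0 A a h)
  obtain ⟨b, hb⟩ := hu.exists_right_inv
  have h1 : (a : L) * (b : L) = 1 := by
    have := congrArg (fun z : A => (z : L)) hb
    simpa using this
  rw [← eq_inv_of_mul_eq_one_right h1]
  exact b.2

variable {F : Type} [Field F] [Algebra A F] (ψ : F →+* LaurentSeries L)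

theorem h8pg_psi_aeval (hψ : ∀ r : A, ψ (algebraMap A F r) = HahnSeries.C (r : L))
    (t : F) (T' : LaurentSeries A) (ht : ψ t = gvEps A T') (P : Polynomial A) :
    ψ (Polynomial.aeval t P) = gvEps A (gvEv A T' P) := by
  rw [gvEv, Polynomial.hom_eval₂, Polynomial.aeval_def, Polynomial.hom_eval₂, ht]
  congr 1
  ext r : 1
  rw [RingHom.comp_apply, RingHom.comp_apply, hψ, gvEps_C]

theorem h8pg_psi_mem (hψ : ∀ r : A, ψ (algebraMap A F r) = HahnSeries.C (r : L))
    (t : F) (T' : LaurentSeries A) (ht : ψ t = gvEps A T') (z : F)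
    (hz : z ∈ Algebra.adjoin A {t}) : ψ z ∈ gvO A (IsLocalRing.residue A) := by
  obtain ⟨P, rfl⟩ := Algebra.adjoin_mem_exists_aeval A t hz
  rw [h8pg_psi_aeval A ψ hψ t T' ht P]
  exact gvEps_mem_gvO A _ _

theorem h8pg_psi_integral (hψ : ∀ r : A, ψ (algebraMap A F r) = HahnSeries.C (r : L))
    (t : F) (T' : LaurentSeries A) (ht : ψ t = gvEps A T') (z : F) (hz : IsInt A t z) :
    IsIntegral (gvO A (IsLocalRing.residue A)) (ψ z) := by
  let φ : Algebra.adjoin A {t} →+* gvO A (IsLocalRing.residue A) :=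
    (ψ.comp (algebraMap (Algebra.adjoin A {t}) F)).codRestrict (gvO A (IsLocalRing.residue A))
      (fun u => h8pg_psi_mem A ψ hψ t T' ht _ u.2)
  exact IsIntegral.map_of_comp_eq φ ψ (RingHom.ext fun u => rfl) hz

theorem h8pg_psi_unit {k' : Type} [Field k'] (π : A →+* k') (T' : LaurentSeries A)
    (hT' : Transcendental k' (gvRho A π T')) (ϖ : A) (hϖ : ∀ a : A, π a = 0 → ϖ ∣ a)
    (P : Polynomial A) (hP : ¬ Polynomial.C ϖ ∣ P) : gvRho A π (gvEv A T' P) ≠ 0 := by
  rw [gvRho_ev]
  intro h0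
  have h1 : P.map π = 0 := by
    by_contra hne
    exact (transcendental_iff.mp hT') _ h0 |> hne
  apply hP
  rw [Polynomial.C_dvd_iff_dvd_coeff]
  intro n
  apply hϖ
  have h2 := congrArg (fun z => Polynomial.coeff z n) h1
  simpa using h2

/-- transcendence is preserved by `𝐪 ↦ 𝐪^q` -/
theorem h8pg_transc_qExpand {k' : Type} [Field k'] (q : ℕ) [NeZero q] (s : LaurentSeries k')
    (hs : Transcendental k' s) : Transcendental k' (qExpand k' q s) := by
  rw [transcendental_iff] at hs ⊢
  intro P hP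
  apply hs P
  apply qExpand_injective (R := k') q
  have h := Polynomial.aeval_algHom_apply (qExpandAlgHomC k' q) s P
  have h2 : Polynomial.aeval (qExpand k' q s) P = qExpand k' q (Polynomial.aeval s P) := by
    simpa using h
  rw [map_zero, ← h2, hP]

end Gen

end H8PB

end
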