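import Fermat.Agent.S34.ALq_helper12
import Fermat.Agent.S18.C6f_helper1
import Fermat.Agent.W3G.RIGLD_helper1

/-!
# Item 82 (S34), slice (I1)/(I3): the Atkin–Lehner involution `w_ℓ` over a subfield `K₁ ⊆ ℚ̄`
(helper12)

`K₁ : IntermediateField ℚ ℚ̄` (no finiteness or normality needed), `ℓ` prime, `ℓ ∤ N`,
`F₁ = FK K₁ (N ℓ) = K₁ · F_{Nℓ} ⊆ K₁((q))`.

* `H12AL.phiK K₁ M : F₁ →+* F̄` the coefficient extension (helper1's `lbcMap`), injective;
* `H12AL.wqKHom K₁ N ℓ hℓ hℓN : F₁ →+* F₁`, `H12AL.wqK … : F₁ ≃+* F₁` with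
  `phiK (wqKHom x) = wqBarHom (phiK x)` (`phiK_wqKHom`);
* `wqKHom_invol`, `wqKHom_const`, `coe_wqKHom_of_level` (`w x = x(q^ℓ)` for `x` of level `N`),
  `wqKHom_qExpand` (`w (x(q^ℓ)) = x`), `wqKHom_galois` (commutes with the coefficientwise action
  of `σ ∈ G_ℚ` stabilising `K₁`).

Proof of the descent: `wqBarHom` commutes with `Gal(ℚ̄/K₁)`, so the coefficients of
`wqBarHom (phiK x)` lie in `K₁` (infinite Galois theory), and helper1's linear disjointness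
`H1RIG.mem_lbc_of_coeffMap_mem` gives membership in `K₁ · F_{Nℓ}`.
-/

set_option autoImplicit false
set_option linter.style.longLine false
set_option linter.unusedSectionVars false
set_option linter.unusedVariables false
set_option linter.style.haveILetI false

noncomputable section

open ModularCurve RH24 H29W

namespace H12AL

variable (K₁ : IntermediateField ℚ Kbar)

/-- the coefficient extension `K₁ · F_M → ℚ̄ · F_M` -/
def phiK (M : ℕ) [NeZero M] :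
    ↥(laurentBaseChange ↥K₁ (modularFunctionFieldFull M)) →+* modularFunctionFieldBar M :=
  H1S18.lbcMap (algebraMap ↥K₁ Kbar) (modularFunctionFieldFull M)

theorem coe_phiK (M : ℕ) [NeZero M] (x : ↥(laurentBaseChange ↥K₁ (modularFunctionFieldFull M))) :
    ((phiK K₁ M x : modularFunctionFieldBar M) : LaurentSeries Kbar) =
      coeffMap (algebraMap ↥K₁ Kbar) (x : LaurentSeries ↥K₁) := rfl

theorem coeffMap_algebraMap_injective :
    Function.Injective (coeffMap (algebraMap ↥K₁ Kbar)) := by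
  intro x y h
  ext n
  have := congrArg (fun z : LaurentSeries Kbar => z.coeff n) h
  simp only [coeffMap_coeff] at this
  exact this

theorem phiK_injective (M : ℕ) [NeZero M] : Function.Injective (phiK K₁ M) := by
  intro x y h
  apply Subtype.ext
  apply coeffMap_algebraMap_injective K₁
  have := congrArg (fun z : modularFunctionFieldBar M => (z : LaurentSeries Kbar)) h
  exact this

/-- a Laurent series over `ℚ̄` with coefficients in `K₁` comes from `K₁((q))` -/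
theorem exists_coeffMap_eq (Y : LaurentSeries Kbar) (h : ∀ n, Y.coeff n ∈ K₁) :
    ∃ y : LaurentSeries ↥K₁, coeffMap (algebraMap ↥K₁ Kbar) y = Y := by
  refine ⟨⟨fun n => ⟨Y.coeff n, h n⟩, Y.isPWO_support.mono ?_⟩, ?_⟩
  · intro n hn
    rw [Function.mem_support] at hn
    rw [HahnSeries.mem_support]
    intro h0
    exact hn (Subtype.ext h0)
  · ext n
    rfl

theorem isGalois_Kbar : IsGalois ℚ Kbar := by
  have h : (DivisionRing.toRatAlgebra : Algebra ℚ Kbar) = AlgebraicClosure.instAlgebra ℚ :=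
    Subsingleton.elim _ _
  rw [h]
  infer_instance

/-- elements of `ℚ̄` fixed by `Gal(ℚ̄/K₁)` lie in `K₁` -/
theorem mem_of_fixed (a : Kbar)
    (h : ∀ σ : Kbar ≃ₐ[ℚ] Kbar, (∀ c : ↥K₁, σ (c : Kbar) = c) → σ a = a) : a ∈ K₁ := by
  have h1 : a ∈ IntermediateField.fixedField K₁.fixingSubgroup := by
    rw [IntermediateField.mem_fixedField_iff]
    intro σ hσ
    apply h σ
    intro c
    exact (IntermediateField.mem_fixingSubgroup_iff K₁ σ).mp hσ c c.2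
  haveI : IsGalois ℚ Kbar := isGalois_Kbar
  rwa [InfiniteGalois.fixedField_fixingSubgroup] at h1

variable (N ℓ : ℕ) [NeZero N] [NeZero ℓ]

/-- the coefficients of `w (φ x)` lie in `K₁` -/
theorem coeff_wqBarHom_phiK_mem (hℓ : ℓ.Prime) (hℓN : ¬ ℓ ∣ N)
    (x : ↥(laurentBaseChange ↥K₁ (modularFunctionFieldFull (N * ℓ)))) (n : ℤ) :
    ((wqBarHom N ℓ hℓ hℓN (phiK K₁ (N * ℓ) x) : modularFunctionFieldBar (N * ℓ)) :
      LaurentSeries Kbar).coeff n ∈ K₁ := by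
  apply mem_of_fixed
  intro σ hσ
  have hfix : arithmeticRingAut (modularFunctionFieldFull (N * ℓ)) σ (phiK K₁ (N * ℓ) x) =
      phiK K₁ (N * ℓ) x := by
    apply Subtype.ext
    rw [coe_arithmeticRingAut_apply, coe_phiK, coeffMap_coeffMap]
    apply coeffMap_congr
    ext c
    exact hσ c
  have h := wqBarHom_galois N ℓ hℓ hℓN σ (phiK K₁ (N * ℓ) x)
  rw [hfix] at h
  have h2 := congrArg (fun z : modularFunctionFieldBar (N * ℓ) =>
    (z : LaurentSeries Kbar).coeff n) h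
  simp only [coe_arithmeticRingAut_apply, coeffMap_coeff] at h2
  exact h2.symm

/-- `w` preserves the image of `K₁ · F_{Nℓ}` -/
theorem wqBarHom_phiK_mem_range (hℓ : ℓ.Prime) (hℓN : ¬ ℓ ∣ N)
    (x : ↥(laurentBaseChange ↥K₁ (modularFunctionFieldFull (N * ℓ)))) :
    wqBarHom N ℓ hℓ hℓN (phiK K₁ (N * ℓ) x) ∈ (phiK K₁ (N * ℓ)).range := by
  obtain ⟨y, hy⟩ := exists_coeffMap_eq K₁ _ (coeff_wqBarHom_phiK_mem K₁ N ℓ hℓ hℓN x)
  have hmem : y ∈ laurentBaseChange ↥K₁ (modularFunctionFieldFull (N * ℓ)) := by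
    apply H1RIG.mem_lbc_of_coeffMap_mem (K := Kbar)
    rw [hy]
    exact (wqBarHom N ℓ hℓ hℓN (phiK K₁ (N * ℓ) x)).2
  exact ⟨⟨y, hmem⟩, Subtype.ext hy⟩

/-- `K₁ · F_M ≃ range φ` -/
def phiKEquiv (M : ℕ) [NeZero M] :
    ↥(laurentBaseChange ↥K₁ (modularFunctionFieldFull M)) ≃+* (phiK K₁ M).range :=
  RingEquiv.ofBijective (phiK K₁ M).rangeRestrict
    ⟨fun x y h => phiK_injective K₁ M (congrArg Subtype.val h),
      (phiK K₁ M).rangeRestrict_surjective⟩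

/-- **the Atkin–Lehner involution** `w_ℓ` of `K₁ · F_{Nℓ}`, as a ring homomorphism -/
def wqKHom (hℓ : ℓ.Prime) (hℓN : ¬ ℓ ∣ N) :
    ↥(laurentBaseChange ↥K₁ (modularFunctionFieldFull (N * ℓ))) →+*
      ↥(laurentBaseChange ↥K₁ (modularFunctionFieldFull (N * ℓ))) :=
  (phiKEquiv K₁ (N * ℓ)).symm.toRingHom.comp
    (((wqBarHom N ℓ hℓ hℓN).comp (phiK K₁ (N * ℓ))).codRestrict (phiK K₁ (N * ℓ)).range
      (wqBarHom_phiK_mem_range K₁ N ℓ hℓ hℓN))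

/-- characterisation: `φ (w x) = w̄ (φ x)` -/
theorem phiK_wqKHom (hℓ : ℓ.Prime) (hℓN : ¬ ℓ ∣ N)
    (x : ↥(laurentBaseChange ↥K₁ (modularFunctionFieldFull (N * ℓ)))) :
    phiK K₁ (N * ℓ) (wqKHom K₁ N ℓ hℓ hℓN x) = wqBarHom N ℓ hℓ hℓN (phiK K₁ (N * ℓ) x) := by
  have h := (phiKEquiv K₁ (N * ℓ)).apply_symm_apply
    (((wqBarHom N ℓ hℓ hℓN).comp (phiK K₁ (N * ℓ))).codRestrict (phiK K₁ (N * ℓ)).range
      (wqBarHom_phiK_mem_range K₁ N ℓ hℓ hℓN) x)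
  exact congrArg Subtype.val h

/-- coefficient form of the characterisation -/
theorem coeffMap_wqKHom (hℓ : ℓ.Prime) (hℓN : ¬ ℓ ∣ N)
    (x : ↥(laurentBaseChange ↥K₁ (modularFunctionFieldFull (N * ℓ)))) :
    coeffMap (algebraMap ↥K₁ Kbar) ((wqKHom K₁ N ℓ hℓ hℓN x : _) : LaurentSeries ↥K₁) =
      ((wqBarHom N ℓ hℓ hℓN (phiK K₁ (N * ℓ) x) : modularFunctionFieldBar (N * ℓ)) :
        LaurentSeries Kbar) := by
  rw [← phiK_wqKHom, coe_phiK]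

theorem wqKHom_invol (hℓ : ℓ.Prime) (hℓN : ¬ ℓ ∣ N)
    (x : ↥(laurentBaseChange ↥K₁ (modularFunctionFieldFull (N * ℓ)))) :
    wqKHom K₁ N ℓ hℓ hℓN (wqKHom K₁ N ℓ hℓ hℓN x) = x := by
  apply phiK_injective
  rw [phiK_wqKHom, phiK_wqKHom, wqBarHom_invol]

theorem wqKHom_comp_self (hℓ : ℓ.Prime) (hℓN : ¬ ℓ ∣ N) :
    (wqKHom K₁ N ℓ hℓ hℓN).comp (wqKHom K₁ N ℓ hℓ hℓN) = RingHom.id _ :=
  RingHom.ext (wqKHom_invol K₁ N ℓ hℓ hℓN)

/-- **the Atkin–Lehner involution** `w_ℓ` of `K₁ · F_{Nℓ}`, as a ring automorphism -/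
def wqK (hℓ : ℓ.Prime) (hℓN : ¬ ℓ ∣ N) :
    ↥(laurentBaseChange ↥K₁ (modularFunctionFieldFull (N * ℓ))) ≃+*
      ↥(laurentBaseChange ↥K₁ (modularFunctionFieldFull (N * ℓ))) :=
  RingEquiv.ofRingHom (wqKHom K₁ N ℓ hℓ hℓN) (wqKHom K₁ N ℓ hℓ hℓN)
    (wqKHom_comp_self K₁ N ℓ hℓ hℓN) (wqKHom_comp_self K₁ N ℓ hℓ hℓN)

@[simp] theorem wqK_apply (hℓ : ℓ.Prime) (hℓN : ¬ ℓ ∣ N)
    (x : ↥(laurentBaseChange ↥K₁ (modularFunctionFieldFull (N * ℓ)))) :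
    wqK K₁ N ℓ hℓ hℓN x = wqKHom K₁ N ℓ hℓ hℓN x := rfl

@[simp] theorem wqK_symm_apply (hℓ : ℓ.Prime) (hℓN : ¬ ℓ ∣ N)
    (x : ↥(laurentBaseChange ↥K₁ (modularFunctionFieldFull (N * ℓ)))) :
    (wqK K₁ N ℓ hℓ hℓN).symm x = wqKHom K₁ N ℓ hℓ hℓN x := rfl

/-- `w c = c` for constants `c ∈ K₁` -/
theorem wqKHom_const (hℓ : ℓ.Prime) (hℓN : ¬ ℓ ∣ N) (c : ↥K₁) :
    wqKHom K₁ N ℓ hℓ hℓN (algebraMap ↥K₁ _ c) = algebraMap ↥K₁ _ c := by
  apply phiK_injective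
  rw [phiK_wqKHom]
  have h1 : phiK K₁ (N * ℓ) (algebraMap ↥K₁ _ c) =
      algebraMap Kbar (modularFunctionFieldBar (N * ℓ)) (algebraMap ↥K₁ Kbar c) := by
    apply Subtype.ext
    rw [coe_phiK]
    exact H1S18.coeffMap_algebraMap_hom (algebraMap ↥K₁ Kbar) c
  rw [h1, wqBarHom_const]

/-- on functions of level `N`: `w x = x(q^ℓ)` -/
theorem coe_wqKHom_of_level (hℓ : ℓ.Prime) (hℓN : ¬ ℓ ∣ N)
    (x : ↥(laurentBaseChange ↥K₁ (modularFunctionFieldFull (N * ℓ))))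
    (hx : (x : LaurentSeries ↥K₁) ∈ laurentBaseChange ↥K₁ (modularFunctionFieldFull N)) :
    ((wqKHom K₁ N ℓ hℓ hℓN x : _) : LaurentSeries ↥K₁) = qExpand ↥K₁ ℓ (x : LaurentSeries ↥K₁) := by
  apply coeffMap_algebraMap_injective K₁
  rw [coeffMap_wqKHom, coeffMap_qExpand]
  have hx' : ((phiK K₁ (N * ℓ) x : modularFunctionFieldBar (N * ℓ)) : LaurentSeries Kbar) ∈
      modularFunctionFieldBar N := by
    rw [coe_phiK]
    exact H1S18.coeffMap_mem_lbc (algebraMap ↥K₁ Kbar) (modularFunctionFieldFull N) hx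
  rw [coe_wqBarHom_of_level N ℓ hℓ hℓN _ hx', coe_phiK]

/-- `w (x(q^ℓ)) = x` for `x` of level `N` -/
theorem wqKHom_qExpand (hℓ : ℓ.Prime) (hℓN : ¬ ℓ ∣ N)
    (x y : ↥(laurentBaseChange ↥K₁ (modularFunctionFieldFull (N * ℓ))))
    (hx : (x : LaurentSeries ↥K₁) ∈ laurentBaseChange ↥K₁ (modularFunctionFieldFull N))
    (hy : (y : LaurentSeries ↥K₁) = qExpand ↥K₁ ℓ (x : LaurentSeries ↥K₁)) :
    wqKHom K₁ N ℓ hℓ hℓN y = x := by
  have h : y = wqKHom K₁ N ℓ hℓ hℓN x := by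
    apply Subtype.ext
    rw [hy, coe_wqKHom_of_level K₁ N ℓ hℓ hℓN x hx]
  rw [h, wqKHom_invol]

/-- **Galois equivariance over `K₁`**: if `σ ∈ G_ℚ` and `σ₁ : K₁ →+* K₁` is its restriction,
then `w` commutes with the coefficientwise actions. -/
theorem wqKHom_galois (hℓ : ℓ.Prime) (hℓN : ¬ ℓ ∣ N) (σ : Kbar ≃ₐ[ℚ] Kbar)
    (σ₁ : ↥K₁ →+* ↥K₁) (hσ : ∀ c : ↥K₁, ((σ₁ c : ↥K₁) : Kbar) = σ (c : Kbar))
    (x y : ↥(laurentBaseChange ↥K₁ (modularFunctionFieldFull (N * ℓ))))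
    (hy : (y : LaurentSeries ↥K₁) = coeffMap σ₁ (x : LaurentSeries ↥K₁)) :
    ((wqKHom K₁ N ℓ hℓ hℓN y : _) : LaurentSeries ↥K₁) =
      coeffMap σ₁ ((wqKHom K₁ N ℓ hℓ hℓN x : _) : LaurentSeries ↥K₁) := by
  apply coeffMap_algebraMap_injective K₁
  have hcomm : ∀ z : LaurentSeries ↥K₁,
      coeffMap (algebraMap ↥K₁ Kbar) (coeffMap σ₁ z) =
        coeffMap (σ : Kbar →+* Kbar) (coeffMap (algebraMap ↥K₁ Kbar) z) := by
    intro z
    rw [coeffMap_coeffMap, coeffMap_coeffMap]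
    apply coeffMap_congr
    ext c
    exact hσ c
  rw [coeffMap_wqKHom, hcomm, coeffMap_wqKHom]
  have h1 : phiK K₁ (N * ℓ) y =
      arithmeticRingAut (modularFunctionFieldFull (N * ℓ)) σ (phiK K₁ (N * ℓ) x) := by
    apply Subtype.ext
    rw [coe_phiK, hy, hcomm, coe_arithmeticRingAut_apply, coe_phiK]
  rw [h1, wqBarHom_galois, coe_arithmeticRingAut_apply]

end H12AL

end
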