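import Mathlib
import Fermat.Agent.S34.PairBasisLift_helper8
import Fermat.Agent.S34.ALqK_helper12
import Fermat.Agent.S18.GVBasisGen_helper28
import Fermat.Agent.S18.A0_helper28
import Fermat.Agent.S28.WP2Psi

/-!
# Item 82 (S34), input (I1): the pair basis spans `F₁(M q)` (helper8)

`K₁ ⊆ ℚ̄`, `R` a valuation subring of `K₁` with residue field of characteristic `q ∤ M`,
`y = B.y` a `GVBasis` of level `M`, `w = H12AL.wqKHom K₁ M q` the Atkin–Lehner involution of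
`F₁ = FK K₁ (M q)`.

* `h8pb_w_sum`  : `w (Σ c_p ε(y1 p)) = Σ c_p(𝐪^q) ε(y2 p)` for `c_p ∈ K₁(j)`;
* `h8pb_li`     : the `ε(y1 p)` are linearly independent over `K₁(j)`;
* `h8pb_span`   : every `x ∈ F₁` is `Σ c_p ε(y1 p)` with `c_p ∈ K₁(j)`, and then
                  `w x = Σ c_p(𝐪^q) ε(y2 p)`.
-/

set_option autoImplicit false
set_option linter.unusedSectionVars false
set_option linter.style.longLine false
set_option linter.unusedVariables false
set_option synthInstance.maxHeartbeats 400000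

open ModularCurve HahnSeries H28GV H12AL RH24

noncomputable section

namespace H8PB

variable (K₁ : IntermediateField ℚ Kbar) (R : ValuationSubring ↥K₁)
variable (M q : ℕ) [NeZero M] [NeZero q]

theorem h8pb_fullC_mono : modularFunctionFieldFullC ↥K₁ M ≤ modularFunctionFieldFullC ↥K₁ (M * q) := by
  apply IntermediateField.adjoin.mono
  rintro x ⟨d, hd, hdM, rfl⟩
  exact ⟨d, hd, Dvd.dvd.mul_right hdM q, rfl⟩

theorem h8pb_mem_top_of_fullC {x : LaurentSeries ↥K₁} (hx : x ∈ modularFunctionFieldFullC ↥K₁ M) :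
    x ∈ laurentBaseChange ↥K₁ (modularFunctionFieldFull (M * q)) :=
  gv_mem_base_of_full (M * q) (h8pb_fullC_mono K₁ M q hx)

theorem h8pb_adjoin_le : IntermediateField.adjoin ↥K₁ {jqModC ↥K₁} ≤ modularFunctionFieldFullC ↥K₁ M := by
  rw [IntermediateField.adjoin_le_iff]
  rintro x rfl
  exact jqModC_mem_full ↥K₁ M

theorem h8pb_eps_jq : gvEps R (jqModC R) = jqModC ↥K₁ := coeffMap_jqModC _

theorem coeffMap_qExpand_eps (f : LaurentSeries R) :
    gvEps R (qExpand R q f) = qExpand ↥K₁ q (gvEps R f) := coeffMap_qExpand _ _ _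

variable {m : ℕ} (y : Fin m → LaurentSeries R)

/-- `w (Σ c_p ε(y1 p)) = Σ c_p(𝐪^q) ε(y2 p)` -/
theorem h8pb_w_sum (hq : q.Prime) (hqM : ¬ q ∣ M)
    (hy : ∀ a, gvEps R (y a) ∈ modularFunctionFieldFullC ↥K₁ M)
    (c : Fin m × Fin (q + 1) → LaurentSeries ↥K₁)
    (hc : ∀ p, c p ∈ IntermediateField.adjoin ↥K₁ {jqModC ↥K₁})
    (x : ↥(laurentBaseChange ↥K₁ (modularFunctionFieldFull (M * q))))
    (hx : (x : LaurentSeries ↥K₁) = ∑ p, c p * gvEps R (y1 R q y p)) :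
    ((wqKHom K₁ M q hq hqM x : _) : LaurentSeries ↥K₁) =
      ∑ p, qExpand ↥K₁ q (c p) * gvEps R (y2 R q y p) := by
  classical
  haveI : Fact q.Prime := ⟨hq⟩
  have hcM : ∀ p, c p ∈ modularFunctionFieldFullC ↥K₁ M := fun p => h8pb_adjoin_le K₁ M (hc p)
  let ch : Fin m × Fin (q + 1) → ↥(laurentBaseChange ↥K₁ (modularFunctionFieldFull (M * q))) :=
    fun p => ⟨c p, h8pb_mem_top_of_fullC K₁ M q (hcM p)⟩
  let yh : Fin m → ↥(laurentBaseChange ↥K₁ (modularFunctionFieldFull (M * q))) :=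
    fun a => ⟨gvEps R (y a), h8pb_mem_top_of_fullC K₁ M q (hy a)⟩
  let jh : ↥(laurentBaseChange ↥K₁ (modularFunctionFieldFull (M * q))) :=
    ⟨jqModC ↥K₁, h8pb_mem_top_of_fullC K₁ M q (jqModC_mem_full ↥K₁ M)⟩
  let jqh : ↥(laurentBaseChange ↥K₁ (modularFunctionFieldFull (M * q))) :=
    ⟨qExpand ↥K₁ q (jqModC ↥K₁),
    gv_mem_base_of_full (M * q) (jqModCd_mem_full ↥K₁ (M * q) (Dvd.intro_left M rfl))⟩
  have hx' : x = ∑ p, ch p * (yh p.1 * jqh ^ (p.2 : ℕ)) := by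
    apply Subtype.ext
    rw [hx, IntermediateField.coe_sum]
    refine Finset.sum_congr rfl (fun p _ => ?_)
    show c p * gvEps R (y p.1 * (qExpand R q (jqModC R)) ^ (p.2 : ℕ)) =
      c p * (gvEps R (y p.1) * (qExpand ↥K₁ q (jqModC ↥K₁)) ^ (p.2 : ℕ))
    rw [map_mul, map_pow, h8pb_eps_qExpand, h8pb_eps_jq]
  have hwc : ∀ p, ((wqKHom K₁ M q hq hqM (ch p) : _) : LaurentSeries ↥K₁) = qExpand ↥K₁ q (c p) :=
    fun p => coe_wqKHom_of_level K₁ M q hq hqM (ch p) (gv_mem_base_of_full M (hcM p))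
  have hwy : ∀ a, ((wqKHom K₁ M q hq hqM (yh a) : _) : LaurentSeries ↥K₁) =
      qExpand ↥K₁ q (gvEps R (y a)) :=
    fun a => coe_wqKHom_of_level K₁ M q hq hqM (yh a) (gv_mem_base_of_full M (hy a))
  have hwj : wqKHom K₁ M q hq hqM jqh = jh :=
    wqKHom_qExpand K₁ M q hq hqM jh jqh (gv_mem_base_of_full M (jqModC_mem_full ↥K₁ M)) rfl
  rw [hx', map_sum, IntermediateField.coe_sum]
  refine Finset.sum_congr rfl (fun p _ => ?_)
  rw [map_mul, map_mul, map_pow, hwj]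
  show ((wqKHom K₁ M q hq hqM (ch p) : _) : LaurentSeries ↥K₁) *
      (((wqKHom K₁ M q hq hqM (yh p.1) : _) : LaurentSeries ↥K₁) * (jqModC ↥K₁) ^ (p.2 : ℕ)) =
    qExpand ↥K₁ q (c p) * gvEps R (qExpand R q (y p.1) * (jqModC R) ^ (p.2 : ℕ))
  rw [hwc, hwy, map_mul, map_pow, h8pb_eps_qExpand, h8pb_eps_jq]

variable [CharP (IsLocalRing.ResidueField R) q]

theorem h8pb_y1_mem (hy : ∀ a, gvEps R (y a) ∈ modularFunctionFieldFullC ↥K₁ M)
    (p : Fin m × Fin (q + 1)) :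
    gvEps R (y1 R q y p) ∈ modularFunctionFieldFullC ↥K₁ (M * q) := by
  show gvEps R (y p.1 * (qExpand R q (jqModC R)) ^ (p.2 : ℕ)) ∈ _
  rw [map_mul, map_pow, coeffMap_qExpand_eps K₁ R q, h8pb_eps_jq]
  exact mul_mem (h8pb_fullC_mono K₁ M q (hy p.1))
    (pow_mem (jqModCd_mem_full ↥K₁ (M * q) (Dvd.intro_left M rfl)) _)

/-- the `ε(y1 p)` are linearly independent over `K₁(j)` -/
theorem h8pb_li (hq : q.Prime) (hqM : ¬ q ∣ M) (B : GVBasis R (IsLocalRing.residue R) M) :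
    LinearIndependent ↥(IntermediateField.adjoin ↥K₁ {jqModC ↥K₁})
      (fun p : Fin (dedekindPsi M) × Fin (q + 1) => gvEps R (y1 R q B.y p)) := by
  classical
  haveI : Fact q.Prime := ⟨hq⟩
  rw [Fintype.linearIndependent_iff]
  intro c hc
  by_contra hne
  push Not at hne
  obtain ⟨p₀, hp₀⟩ := hne
  have hc' : ∀ p, ((c p : ↥(IntermediateField.adjoin ↥K₁ {jqModC ↥K₁})) : LaurentSeries ↥K₁) ∈
      IntermediateField.adjoin ↥K₁ {gvEps R (jqModC R)} := by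
    intro p
    rw [h8pb_eps_jq]
    exact (c p).2
  have hc0 : ∃ p, ((c p : ↥(IntermediateField.adjoin ↥K₁ {jqModC ↥K₁})) : LaurentSeries ↥K₁) ≠ 0 :=
    ⟨p₀, fun h => hp₀ (Subtype.ext h)⟩
  obtain ⟨a, Q, Rp, ha, hQ, hor, hterm, h1, h2⟩ :=
    h8pb_pair_sum R (IsLocalRing.residue R) q B.y B.li
      (fun p => ((c p : ↥(IntermediateField.adjoin ↥K₁ {jqModC ↥K₁})) : LaurentSeries ↥K₁)) hc' hc0
  have hsum : ∑ p, ((c p : ↥(IntermediateField.adjoin ↥K₁ {jqModC ↥K₁})) : LaurentSeries ↥K₁) *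
      gvEps R (y1 R q B.y p) = 0 := hc
  have hw := h8pb_w_sum K₁ R M q B.y hq hqM B.eps_mem
    (fun p => ((c p : ↥(IntermediateField.adjoin ↥K₁ {jqModC ↥K₁})) : LaurentSeries ↥K₁))
    (fun p => (c p).2) 0 (by rw [hsum]; rfl)
  rw [map_zero] at hw
  have hw' : ∑ p, qExpand ↥K₁ q
      ((c p : ↥(IntermediateField.adjoin ↥K₁ {jqModC ↥K₁})) : LaurentSeries ↥K₁) *
      gvEps R (y2 R q B.y p) = 0 := hw.symm
  have hCa : (HahnSeries.C a : LaurentSeries ↥K₁) ≠ 0 := fun h =>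
    ha (HahnSeries.C_injective (h.trans (map_zero _).symm))
  have key : ∀ f : LaurentSeries R, (0 : LaurentSeries ↥K₁) = HahnSeries.C a * gvEps R f →
      gvRho R (IsLocalRing.residue R) f = 0 := by
    intro f hf
    rcases mul_eq_zero.mp hf.symm with h0 | h0
    · exact absurd h0 hCa
    · rw [(gvEps_eq_zero_iff R f).mp h0, map_zero]
  rw [hsum, zero_mul] at h1
  rw [hw', zero_mul] at h2
  rcases hor with hf | hf
  · exact hf (key _ h1)
  · exact hf (key _ h2)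

/-- **the pair basis spans**: every `x ∈ F₁(M q)` is `Σ c_p ε(y1 p)` with `c_p ∈ K₁(j)`, and
`w x = Σ c_p(𝐪^q) ε(y2 p)`. -/
theorem h8pb_span (hq : q.Prime) (hqM : ¬ q ∣ M) (B : GVBasis R (IsLocalRing.residue R) M)
    (x : ↥(laurentBaseChange ↥K₁ (modularFunctionFieldFull (M * q)))) :
    ∃ c : Fin (dedekindPsi M) × Fin (q + 1) → LaurentSeries ↥K₁,
      (∀ p, c p ∈ IntermediateField.adjoin ↥K₁ {jqModC ↥K₁}) ∧
      (x : LaurentSeries ↥K₁) = ∑ p, c p * gvEps R (y1 R q B.y p) ∧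
      ((wqKHom K₁ M q hq hqM x : _) : LaurentSeries ↥K₁) =
        ∑ p, qExpand ↥K₁ q (c p) * gvEps R (y2 R q B.y p) := by
  classical
  have hcard : dedekindPsi (M * q) = dedekindPsi M * (q + 1) := by
    rw [mul_comm M q, H28S28.h10_psi_mul_of_not_dvd hq (NeZero.ne M) hqM, mul_comm]
  let e : Fin (dedekindPsi (M * q)) ≃ Fin (dedekindPsi M) × Fin (q + 1) :=
    (finCongr hcard).trans finProdFinEquiv.symm
  have hli := (h8pb_li K₁ R M q hq hqM B).comp e e.injective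
  obtain ⟨c0, hc0, hx0⟩ := gv_span_of_li ↥K₁ (M * q)
    (fun i => gvEps R (y1 R q B.y (e i)))
    (fun i => h8pb_y1_mem K₁ R M q B.y B.eps_mem (e i)) hli (x : LaurentSeries ↥K₁)
    (gv_coe_mem_full (M * q) x)
  have hx1 : (x : LaurentSeries ↥K₁) = ∑ p, c0 (e.symm p) * gvEps R (y1 R q B.y p) := by
    rw [hx0]
    refine Fintype.sum_equiv e _ _ (fun i => ?_)
    rw [Equiv.symm_apply_apply]
  exact ⟨fun p => c0 (e.symm p), fun p => hc0 _, hx1,
    h8pb_w_sum K₁ R M q B.y hq hqM B.eps_mem _ (fun p => hc0 _) x hx1⟩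

end H8PB

end
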