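import Mathlib
import Fermat.Agent.S34.PairGIntGen_helper8
import Fermat.Agent.S34.PairSpan_helper8
import Fermat.Agent.S34.PairDefs2_helper8

/-!
# Item 82 (S34), input (I1): `PairGaussStatement` from the pair basis (helper8), generic core

`K₁ ⊆ ℚ̄`, `R` a discrete valuation subring of `K₁` with residue characteristic `q ∤ M`,
`F₁ = FK K₁ (M q)`, `w = H12AL.wqKHom K₁ M q`, `t ∈ F₁` of level `M` with `t = ε T'`,
`ρ T'` transcendental.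

* `h8pg_forward`  : `GInt x → x ∈ O_{w₁} ∧ w x ∈ O_{w₁}`;
* `h8pg_backward` : (P-LVL, P-JQ) `x ∈ O_{w₁} → w x ∈ O_{w₁} → GInt x`;
* `h8pg_modpi`    : (P-LVL, P-JQ) `x ∈ 𝔪_{w₁} → w x ∈ 𝔪_{w₁} → ModPi x 0`.
-/

set_option autoImplicit false
set_option linter.unusedSectionVars false
set_option linter.style.longLine false
set_option linter.unusedVariables false
set_option linter.style.haveILetI false
set_option synthInstance.maxHeartbeats 400000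

open ModularCurve HahnSeries H28GV H12AL RH24 H7S18

noncomputable section

namespace H8PB

section Main

variable (K₁ : IntermediateField ℚ Kbar) (R : ValuationSubring ↥K₁)
variable (M q : ℕ) [NeZero M] [NeZero q]
variable [IsDiscreteValuationRing ↥R] [CharP (IsLocalRing.ResidueField ↥R) q]
variable [Algebra ↥R (FK ↥K₁ (M * q))] [IsScalarTower ↥R ↥K₁ (FK ↥K₁ (M * q))]

/-- the inclusion `F₁ → K₁((𝐪))` -/
def coeHom : FK ↥K₁ (M * q) →+* LaurentSeries ↥K₁ :=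
  algebraMap (FK ↥K₁ (M * q)) (LaurentSeries ↥K₁)

theorem coeHom_apply (x : FK ↥K₁ (M * q)) : coeHom K₁ M q x = (x : LaurentSeries ↥K₁) := rfl

theorem coeHom_const (r : R) :
    coeHom K₁ M q (algebraMap ↥R (FK ↥K₁ (M * q)) r) = HahnSeries.C ((r : ↥K₁)) := by
  rw [IsScalarTower.algebraMap_apply ↥R ↥K₁ (FK ↥K₁ (M * q)), coeHom_apply]
  exact gv_coe_algebraMap (M * q) _

theorem coeHom_w_const (hq : q.Prime) (hqM : ¬ q ∣ M) (r : R) :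
    (coeHom K₁ M q).comp (wqKHom K₁ M q hq hqM) (algebraMap ↥R (FK ↥K₁ (M * q)) r) =
      HahnSeries.C ((r : ↥K₁)) := by
  rw [RingHom.comp_apply, IsScalarTower.algebraMap_apply ↥R ↥K₁ (FK ↥K₁ (M * q)),
    wqKHom_const, coeHom_apply]
  exact gv_coe_algebraMap (M * q) _

theorem h8pg_hdiv (ϖ : R) (hϖ : Irreducible ϖ) :
    ∀ a : R, IsLocalRing.residue ↥R a = 0 → ϖ ∣ a := by
  intro a ha
  have h1 : a ∈ IsLocalRing.maximalIdeal ↥R := (IsLocalRing.residue_eq_zero_iff a).mp ha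
  rw [hϖ.maximalIdeal_eq] at h1
  exact Ideal.mem_span_singleton.mp h1

/-- **forward**: `GInt x → x ∈ O_{w₁} ∧ w x ∈ O_{w₁}` -/
theorem h8pg_forward (hq : q.Prime) (hqM : ¬ q ∣ M) (B : GVBasis R (IsLocalRing.residue ↥R) M)
    (ϖ : R) (hϖ : Irreducible ϖ) (t : FK ↥K₁ (M * q)) (htr : Transcendental ↥R t)
    (T' : LaurentSeries ↥R) (ht : (t : LaurentSeries ↥K₁) = gvEps R T')
    (hT' : Transcendental (IsLocalRing.ResidueField ↥R) (gvRho R (IsLocalRing.residue ↥R) T'))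
    (htM : (t : LaurentSeries ↥K₁) ∈ laurentBaseChange ↥K₁ (modularFunctionFieldFull M))
    (x : FK ↥K₁ (M * q)) (hx : GInt ↥R ϖ t x) :
    (x : LaurentSeries ↥K₁) ∈ gvO R (IsLocalRing.residue ↥R) ∧
      ((wqKHom K₁ M q hq hqM x : FK ↥K₁ (M * q)) : LaurentSeries ↥K₁) ∈
        gvO R (IsLocalRing.residue ↥R) := by
  classical
  have hqF : Fact q.Prime := ⟨hq⟩
  obtain ⟨s, hs, hsx⟩ := hx
  obtain ⟨P, rfl⟩ := Algebra.adjoin_mem_exists_aeval ↥R t hs.1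
  have hP := (H19S18.h19_gaussUnit_aeval_iff ↥R htr ϖ P).mp hs
  have ht₂ : (coeHom K₁ M q).comp (wqKHom K₁ M q hq hqM) t = gvEps R (qExpand ↥R q T') := by
    rw [RingHom.comp_apply, coeHom_apply, coe_wqKHom_of_level K₁ M q hq hqM t htM, ht,
      coeffMap_qExpand_eps]
  have hT₂ : Transcendental (IsLocalRing.ResidueField ↥R)
      (gvRho R (IsLocalRing.residue ↥R) (qExpand ↥R q T')) := by
    rw [h8pb_rho_qExpand]
    exact h8pg_transc_qExpand q _ hT'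
  have hi₁ := h8pg_psi_integral R (coeHom K₁ M q) (coeHom_const K₁ R M q) t T' ht _ hsx
  have hi₂ := h8pg_psi_integral R ((coeHom K₁ M q).comp (wqKHom K₁ M q hq hqM))
    (coeHom_w_const K₁ R M q hq hqM) t _ ht₂ _ hsx
  obtain ⟨c, hc, hx1, hx2⟩ := h8pb_span K₁ R M q hq hqM B (Polynomial.aeval t P * x)
  have hc' : ∀ p, c p ∈ IntermediateField.adjoin ↥K₁ {gvEps R (jqModC ↥R)} := by
    intro p
    rw [h8pb_eps_jq]
    exact hc p
  rw [coeHom_apply, hx1] at hi₁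
  rw [RingHom.comp_apply, coeHom_apply, hx2] at hi₂
  have hcmem := h8pb_integral R (IsLocalRing.residue ↥R) q B.y (h8pg_hpi0 R) B.li c hc' hi₁ hi₂
  have hm₁ : ((Polynomial.aeval t P * x : FK ↥K₁ (M * q)) : LaurentSeries ↥K₁) ∈
      gvO R (IsLocalRing.residue ↥R) := by
    rw [hx1]
    exact Subring.sum_mem _ (fun p _ => Subring.mul_mem _ (hcmem p) (gvEps_mem_gvO R _ _))
  have hm₂ : ((wqKHom K₁ M q hq hqM (Polynomial.aeval t P * x) : FK ↥K₁ (M * q)) :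
      LaurentSeries ↥K₁) ∈ gvO R (IsLocalRing.residue ↥R) := by
    rw [hx2]
    exact Subring.sum_mem _ (fun p _ => Subring.mul_mem _
      (h8pb_qExpand_mem R (IsLocalRing.residue ↥R) q _ (hcmem p)) (gvEps_mem_gvO R _ _))
  have hs₁ := h8pg_psi_aeval R (coeHom K₁ M q) (coeHom_const K₁ R M q) t T' ht P
  have hs₂ := h8pg_psi_aeval R ((coeHom K₁ M q).comp (wqKHom K₁ M q hq hqM))
    (coeHom_w_const K₁ R M q hq hqM) t _ ht₂ P
  have hu₁ := h8pg_psi_unit R (IsLocalRing.residue ↥R) T' hT' ϖ (h8pg_hdiv K₁ R ϖ hϖ) P hP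
  have hu₂ := h8pg_psi_unit R (IsLocalRing.residue ↥R) _ hT₂ ϖ (h8pg_hdiv K₁ R ϖ hϖ) P hP
  have hne₁ := gvEps_ne_zero_of_rho R (IsLocalRing.residue ↥R) _ hu₁
  have hne₂ := gvEps_ne_zero_of_rho R (IsLocalRing.residue ↥R) _ hu₂
  constructor
  · have e : (x : LaurentSeries ↥K₁) =
        ((Polynomial.aeval t P * x : FK ↥K₁ (M * q)) : LaurentSeries ↥K₁) /
          gvEps R (gvEv R T' P) := by
      rw [← hs₁, eq_div_iff (by rw [hs₁]; exact hne₁), coeHom_apply, mul_comm]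
      rfl
    rw [e]
    exact gv_div_mem R (IsLocalRing.residue ↥R) ⟨_, hm₁⟩ ⟨_, gvEps_mem_gvO R _ _⟩
      (by rw [gvRed_eps]; exact hu₁)
  · have e : ((wqKHom K₁ M q hq hqM x : FK ↥K₁ (M * q)) : LaurentSeries ↥K₁) =
        ((wqKHom K₁ M q hq hqM (Polynomial.aeval t P * x) : FK ↥K₁ (M * q)) :
          LaurentSeries ↥K₁) / gvEps R (gvEv R (qExpand ↥R q T') P) := by
      rw [← hs₂, eq_div_iff (by rw [hs₂]; exact hne₂), RingHom.comp_apply, coeHom_apply, map_mul,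
        mul_comm]
      rfl
    rw [e]
    exact gv_div_mem R (IsLocalRing.residue ↥R) ⟨_, hm₂⟩ ⟨_, gvEps_mem_gvO R _ _⟩
      (by rw [gvRed_eps]; exact hu₂)

/-- `GInt` of `Σ c_p ε(y1 p)` with `c_p ∈ K₁(j) ∩ O_{w₁}` (P-LVL, P-JQ) -/
theorem h8pg_combine (hq : q.Prime) (hqM : ¬ q ∣ M) (B : GVBasis R (IsLocalRing.residue ↥R) M)
    (ϖ : R) (hϖ : Irreducible ϖ) (t : FK ↥K₁ (M * q)) (htr : Transcendental ↥R t)
    (hLVL : ∀ x : FK ↥K₁ (M * q),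
      (x : LaurentSeries ↥K₁) ∈ laurentBaseChange ↥K₁ (modularFunctionFieldFull M) →
      InG R (x : LaurentSeries ↥K₁) → GInt ↥R ϖ t x)
    (hJQ : ∀ x : FK ↥K₁ (M * q),
      (x : LaurentSeries ↥K₁) = qExpand ↥K₁ q (jqModC ↥K₁) → GInt ↥R ϖ t x)
    (c : Fin (dedekindPsi M) × Fin (q + 1) → LaurentSeries ↥K₁)
    (hc : ∀ p, c p ∈ IntermediateField.adjoin ↥K₁ {jqModC ↥K₁})
    (hcm : ∀ p, c p ∈ gvO R (IsLocalRing.residue ↥R))
    (x : FK ↥K₁ (M * q))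
    (hx : (x : LaurentSeries ↥K₁) = ∑ p, c p * gvEps R (y1 R q B.y p)) :
    GInt ↥R ϖ t x := by
  classical
  have hcM : ∀ p, c p ∈ laurentBaseChange ↥K₁ (modularFunctionFieldFull M) := fun p =>
    gv_mem_base_of_full M (h8pb_adjoin_le K₁ M (hc p))
  have hcN : ∀ p, c p ∈ laurentBaseChange ↥K₁ (modularFunctionFieldFull (M * q)) := fun p =>
    h8pb_mem_top_of_fullC K₁ M q (h8pb_adjoin_le K₁ M (hc p))
  have hyM : ∀ a, gvEps R (B.y a) ∈ laurentBaseChange ↥K₁ (modularFunctionFieldFull M) :=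
    fun a => gv_mem_base_of_full M (B.eps_mem a)
  have hyN : ∀ a, gvEps R (B.y a) ∈ laurentBaseChange ↥K₁ (modularFunctionFieldFull (M * q)) :=
    fun a => h8pb_mem_top_of_fullC K₁ M q (B.eps_mem a)
  have hjN : qExpand ↥K₁ q (jqModC ↥K₁) ∈
      laurentBaseChange ↥K₁ (modularFunctionFieldFull (M * q)) :=
    gv_mem_base_of_full (M * q) (jqModCd_mem_full ↥K₁ (M * q) (Dvd.intro_left M rfl))
  have hGc : ∀ p, GInt ↥R ϖ t (⟨c p, hcN p⟩ : FK ↥K₁ (M * q)) := fun p =>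
    hLVL _ (hcM p) ((h8pg_inG_iff R _).mpr (hcm p))
  have hGy : ∀ a, GInt ↥R ϖ t (⟨gvEps R (B.y a), hyN a⟩ : FK ↥K₁ (M * q)) := fun a =>
    hLVL _ (hyM a) ((h8pg_inG_iff R _).mpr (gvEps_mem_gvO R _ _))
  have hGj : GInt ↥R ϖ t (⟨qExpand ↥K₁ q (jqModC ↥K₁), hjN⟩ : FK ↥K₁ (M * q)) := hJQ _ rfl
  have e : x = ∑ p : Fin (dedekindPsi M) × Fin (q + 1),
      (⟨c p, hcN p⟩ : FK ↥K₁ (M * q)) * ((⟨gvEps R (B.y p.1), hyN p.1⟩ : FK ↥K₁ (M * q)) *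
        (⟨qExpand ↥K₁ q (jqModC ↥K₁), hjN⟩ : FK ↥K₁ (M * q)) ^ (p.2 : ℕ)) := by
    apply Subtype.ext
    rw [hx]
    show _ = coeHom K₁ M q _
    rw [map_sum]
    refine Finset.sum_congr rfl (fun p _ => ?_)
    rw [map_mul, map_mul, map_pow]
    show c p * gvEps R (B.y p.1 * (qExpand ↥R q (jqModC ↥R)) ^ (p.2 : ℕ)) =
      c p * (gvEps R (B.y p.1) * (qExpand ↥K₁ q (jqModC ↥K₁)) ^ (p.2 : ℕ))
    rw [map_mul, map_pow, coeffMap_qExpand_eps K₁ R q, h8pb_eps_jq]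
  rw [e]
  exact H19S18.h19_gint_sum ↥R htr hϖ _ _ (fun p _ => H19S18.h19_gint_mul ↥R htr hϖ (hGc p)
    (H19S18.h19_gint_mul ↥R htr hϖ (hGy p.1) (H19S18.h19_gint_pow ↥R htr hϖ hGj _)))

/-- **backward**: `x ∈ O_{w₁} → w x ∈ O_{w₁} → GInt x` (P-LVL, P-JQ) -/
theorem h8pg_backward (hq : q.Prime) (hqM : ¬ q ∣ M) (B : GVBasis R (IsLocalRing.residue ↥R) M)
    (ϖ : R) (hϖ : Irreducible ϖ) (t : FK ↥K₁ (M * q)) (htr : Transcendental ↥R t)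
    (hLVL : ∀ x : FK ↥K₁ (M * q),
      (x : LaurentSeries ↥K₁) ∈ laurentBaseChange ↥K₁ (modularFunctionFieldFull M) →
      InG R (x : LaurentSeries ↥K₁) → GInt ↥R ϖ t x)
    (hJQ : ∀ x : FK ↥K₁ (M * q),
      (x : LaurentSeries ↥K₁) = qExpand ↥K₁ q (jqModC ↥K₁) → GInt ↥R ϖ t x)
    (x : FK ↥K₁ (M * q)) (hx : (x : LaurentSeries ↥K₁) ∈ gvO R (IsLocalRing.residue ↥R))
    (hx' : ((wqKHom K₁ M q hq hqM x : FK ↥K₁ (M * q)) : LaurentSeries ↥K₁) ∈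
      gvO R (IsLocalRing.residue ↥R)) :
    GInt ↥R ϖ t x := by
  classical
  have hqF : Fact q.Prime := ⟨hq⟩
  obtain ⟨c, hc, hx1, hx2⟩ := h8pb_span K₁ R M q hq hqM B x
  have hc' : ∀ p, c p ∈ IntermediateField.adjoin ↥K₁ {gvEps R (jqModC ↥R)} := by
    intro p
    rw [h8pb_eps_jq]
    exact hc p
  rw [hx1] at hx
  rw [hx2] at hx'
  have hcmem := h8pb_coeff_mem R (IsLocalRing.residue ↥R) q B.y (h8pg_hpi R) B.li c hc' hx hx'
  exact h8pg_combine K₁ R M q hq hqM B ϖ hϖ t htr hLVL hJQ c hc hcmem x hx1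

/-- **`ϖ O = 𝔭₁ ∩ 𝔭₂`**: `x ∈ 𝔪_{w₁} → w x ∈ 𝔪_{w₁} → ModPi x 0` (P-LVL, P-JQ) -/
theorem h8pg_modpi (hq : q.Prime) (hqM : ¬ q ∣ M) (B : GVBasis R (IsLocalRing.residue ↥R) M)
    (ϖ : R) (hϖ : Irreducible ϖ) (t : FK ↥K₁ (M * q)) (htr : Transcendental ↥R t)
    (hLVL : ∀ x : FK ↥K₁ (M * q),
      (x : LaurentSeries ↥K₁) ∈ laurentBaseChange ↥K₁ (modularFunctionFieldFull M) →
      InG R (x : LaurentSeries ↥K₁) → GInt ↥R ϖ t x)
    (hJQ : ∀ x : FK ↥K₁ (M * q),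
      (x : LaurentSeries ↥K₁) = qExpand ↥K₁ q (jqModC ↥K₁) → GInt ↥R ϖ t x)
    (x : FK ↥K₁ (M * q)) (hx : InGm R (x : LaurentSeries ↥K₁))
    (hx' : InGm R ((wqKHom K₁ M q hq hqM x : FK ↥K₁ (M * q)) : LaurentSeries ↥K₁)) :
    ModPi ↥R ϖ t x 0 := by
  classical
  have hqF : Fact q.Prime := ⟨hq⟩
  obtain ⟨c, hc, hx1, hx2⟩ := h8pb_span K₁ R M q hq hqM B x
  have hc' : ∀ p, c p ∈ IntermediateField.adjoin ↥K₁ {gvEps R (jqModC ↥R)} := by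
    intro p
    rw [h8pb_eps_jq]
    exact hc p
  obtain ⟨hm, hr⟩ := h8pg_inGm_red R _ hx
  obtain ⟨hm', hr'⟩ := h8pg_inGm_red R _ hx'
  have key : ∀ (u v : LaurentSeries ↥K₁) (hu : u ∈ gvO R (IsLocalRing.residue ↥R)),
      gvRed R (IsLocalRing.residue ↥R) ⟨u, hu⟩ = 0 → u = v →
      ∃ hv : v ∈ gvO R (IsLocalRing.residue ↥R),
        gvRed R (IsLocalRing.residue ↥R) ⟨v, hv⟩ = 0 := by
    intro u v hu hr e
    subst e
    exact ⟨hu, hr⟩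
  obtain ⟨h1, hr1⟩ := key _ _ hm hr hx1
  obtain ⟨h2, hr2⟩ := key _ _ hm' hr' hx2
  have hdiv := h8pb_coeff_div R (IsLocalRing.residue ↥R) q B.y (h8pg_hpi R) B.li c hc' h1 h2
    hr1 hr2 ϖ (fun a ha => by
      obtain ⟨b, hb⟩ := h8pg_hdiv K₁ R ϖ hϖ a ha
      exact ⟨b, hb⟩)
  choose c' hc'm hc'e using hdiv
  have hϖ0 : (HahnSeries.C ((ϖ : ↥R) : ↥K₁) : LaurentSeries ↥K₁) ≠ 0 := by
    intro h0
    have h1 : ((ϖ : ↥R) : ↥K₁) = 0 := HahnSeries.C_injective (h0.trans (map_zero _).symm)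
    exact hϖ.ne_zero (Subtype.ext h1)
  have hCmem : (HahnSeries.C ((ϖ : ↥R) : ↥K₁) : LaurentSeries ↥K₁) ∈
      IntermediateField.adjoin ↥K₁ {jqModC ↥K₁} := by
    have h := (IntermediateField.adjoin ↥K₁ {jqModC ↥K₁}).algebraMap_mem ((ϖ : ↥R) : ↥K₁)
    rw [algebraMap_laurentSeries_eq_single] at h
    exact h
  have hc'a : ∀ p, c' p ∈ IntermediateField.adjoin ↥K₁ {jqModC ↥K₁} := by
    intro p
    have e : c' p = (HahnSeries.C ((ϖ : ↥R) : ↥K₁) : LaurentSeries ↥K₁)⁻¹ * c p := by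
      rw [hc'e p, inv_mul_cancel_left₀ hϖ0]
    rw [e]
    exact mul_mem (inv_mem hCmem) (hc p)
  have hzmem : ∑ p, c' p * gvEps R (y1 R q B.y p) ∈
      laurentBaseChange ↥K₁ (modularFunctionFieldFull (M * q)) :=
    sum_mem (fun p _ => mul_mem (h8pb_mem_top_of_fullC K₁ M q (h8pb_adjoin_le K₁ M (hc'a p)))
      (gv_mem_base_of_full (M * q) (h8pb_y1_mem K₁ R M q B.y B.eps_mem p)))
  refine ⟨⟨_, hzmem⟩, h8pg_combine K₁ R M q hq hqM B ϖ hϖ t htr hLVL hJQ c' hc'a hc'm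
    ⟨_, hzmem⟩ rfl, ?_⟩
  rw [sub_zero]
  apply Subtype.ext
  show (x : LaurentSeries ↥K₁) = coeHom K₁ M q (algebraMap ↥R (FK ↥K₁ (M * q)) ϖ * ⟨_, hzmem⟩)
  rw [map_mul, coeHom_const, hx1, coeHom_apply, Finset.mul_sum]
  refine Finset.sum_congr rfl (fun p _ => ?_)
  rw [hc'e p, mul_assoc]

end Main

end H8PB

end
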