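import Mathlib
import Fermat.Agent.S34.PairDefs2_helper8
import Fermat.Agent.S18.C7_helper28
import Fermat.Agent.S18.C6e_helper9
import Fermat.Agent.S18.C6b_helper4
import Fermat.Agent.S18.C5Base_helper19

/-!
# Item 82 (S34), input (I1), sub-slice P-LVL (helper28): `H8PB.LevelGIntStatement`

An element `x` of `F₁(M q)` which lies in `F₁(M)` and in the Gauss ring is `GInt` at level
`M q`: apply `H28UG.gaussStatement` at the tame level `M` and transfer along `F₁(M) ⊆ F₁(M q)`
(`H19S18.h19_gint_map`).  The transfer is done generically (intermediate fields `F ≤ E` as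
variables), so that no definitional unfolding between two levels is ever needed.
-/

set_option autoImplicit false
set_option linter.unusedSectionVars false
set_option linter.style.haveILetI false
set_option synthInstance.maxHeartbeats 400000

noncomputable section

open ModularCurve H7S18

namespace H28PL

/-- generic transfer of `GInt` along an inclusion `F ≤ E` of intermediate fields -/
theorem gint_of_le {R K Λ : Type} [CommRing R] [IsDomain R] [IsDiscreteValuationRing R]
    [Field K] [Field Λ] [Algebra R K] [Algebra K Λ]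
    (F E : IntermediateField K Λ) (h : F ≤ E)
    [Algebra R F] [IsScalarTower R K F] [Algebra R E] [IsScalarTower R K E]
    (ϖ : R) (tΛ xΛ : Λ) (htF : tΛ ∈ F) (hxF : xΛ ∈ F) (htE : tΛ ∈ E) (hxE : xΛ ∈ E)
    (htr : Transcendental R (⟨tΛ, htF⟩ : F))
    (hG : GInt R ϖ (⟨tΛ, htF⟩ : F) (⟨xΛ, hxF⟩ : F)) :
    GInt R ϖ (⟨tΛ, htE⟩ : E) (⟨xΛ, hxE⟩ : E) := by
  letI : Algebra F E := (IntermediateField.inclusion h).toRingHom.toAlgebra
  haveI : IsScalarTower R F E := IsScalarTower.of_algebraMap_eq (fun r => by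
    rw [IsScalarTower.algebraMap_apply R K E, IsScalarTower.algebraMap_apply R K F]
    exact ((IntermediateField.inclusion h).commutes _).symm)
  exact H19S18.h19_gint_map R htr ϖ hG

/-- monotonicity of the base change -/
theorem laurentBaseChange_le (L : Type) [Field L] [Algebra ℚ L]
    {F₀ F₁ : IntermediateField ℚ (LaurentSeries ℚ)} (h : F₀ ≤ F₁) :
    laurentBaseChange L F₀ ≤ laurentBaseChange L F₁ := by
  rw [laurentBaseChange, IntermediateField.adjoin_le_iff]
  rintro _ ⟨y, hy, rfl⟩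
  exact coeffEmb_mem_laurentBaseChange L (h hy)

/-- the kind of base function is admissible at a tame level -/
theorem baseKind_ok {q M : ℕ} (hT : TameLevel q M) :
    baseKind q = 1 ∨ (baseKind q = 2 ∧ 2 ∣ M) ∨ (baseKind q = 3 ∧ 3 ∣ M) := by
  unfold baseKind
  by_cases h2 : q = 2
  · right; right
    rw [if_pos h2]
    exact ⟨rfl, hT.2.1 h2⟩
  · by_cases h3 : q = 3
    · right; left
      rw [if_neg h2, if_pos h3]
      exact ⟨rfl, hT.2.2 h3⟩
    · left
      rw [if_neg h2, if_neg h3]

/-- a unit coefficient gives a nonzero reduction -/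
theorem rho_ne_zero_of_unit (A : ValuationSubring (AlgebraicClosure ℚ))
    (K₁ : IntermediateField ℚ (AlgebraicClosure ℚ)) (g : LaurentSeries ↥(descVal A K₁))
    (hg : ∃ n, IsUnit (g.coeff n)) :
    coeffMap ((IsLocalRing.residue A).comp (descIncl A K₁)) g ≠ 0 := by
  obtain ⟨n, hn⟩ := hg
  intro h0
  have h1 := congrArg (fun z => z.coeff n) h0
  simp only [coeffMap_coeff, HahnSeries.coeff_zero, RingHom.comp_apply] at h1
  have h2 : IsUnit (descIncl A K₁ (g.coeff n)) := hn.map (descIncl A K₁)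
  exact ((IsLocalRing.residue_eq_zero_iff _).mp h1) h2

/-- **P-LVL** -/
theorem levelGInt : H8PB.LevelGIntStatement := by
  intro M _ q _ hq hqM hT A hA K₁ hK₁ _ _ ϖ hϖ t₀ ht₀ t ht x hxM hG
  haveI : Fact q.Prime := ⟨hq⟩
  obtain ⟨hdvr, -, -⟩ := H4DVR.dvrStatement q A hA K₁ hK₁
  haveI := hdvr
  obtain ⟨tM, htM, htrK, -, -⟩ := H9C6e.fieldBasics M (baseKind q) (baseKind_ok hT) t₀ ht₀ K₁
  letI algRF : Algebra ↥(descVal A K₁) (FK K₁ M) :=
    ((algebraMap K₁ (FK K₁ M)).comp (algebraMap ↥(descVal A K₁) K₁)).toAlgebra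
  haveI towRF : IsScalarTower ↥(descVal A K₁) K₁ (FK K₁ M) :=
    IsScalarTower.of_algebraMap_eq (fun _ => rfl)
  obtain ⟨f, g, hgu, hfg⟩ := hG
  have hg := rho_ne_zero_of_unit A K₁ g hgu
  have hGM := (H28UG.gaussStatement M q hT A hA K₁ hK₁ ϖ hϖ t₀ ht₀ tM htM).2 f g
    ⟨(x : LaurentSeries K₁), hxM⟩ hg hfg
  have hle : laurentBaseChange K₁ (modularFunctionFieldFull M) ≤
      laurentBaseChange K₁ (modularFunctionFieldFull (M * q)) :=
    laurentBaseChange_le K₁ (full_degeneracy_le (Dvd.intro q rfl))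
  have htMmem : coeffEmb K₁ t₀ ∈ laurentBaseChange K₁ (modularFunctionFieldFull M) := by
    rw [← htM]; exact tM.2
  have htEmem : coeffEmb K₁ t₀ ∈ laurentBaseChange K₁ (modularFunctionFieldFull (M * q)) := by
    rw [← ht]; exact t.2
  have etM : tM = ⟨coeffEmb K₁ t₀, htMmem⟩ := Subtype.ext htM
  have et : t = ⟨coeffEmb K₁ t₀, htEmem⟩ := Subtype.ext ht
  have htrR : Transcendental ↥(descVal A K₁) tM :=
    Transcendental.restrictScalars (S := K₁)
      (FaithfulSMul.algebraMap_injective ↥(descVal A K₁) K₁) htrK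
  rw [etM] at hGM htrR
  rw [et]
  exact gint_of_le (R := ↥(descVal A K₁)) (K := K₁) (Λ := LaurentSeries K₁)
    (laurentBaseChange K₁ (modularFunctionFieldFull M))
    (laurentBaseChange K₁ (modularFunctionFieldFull (M * q))) hle ϖ
    (coeffEmb K₁ t₀) (x : LaurentSeries K₁) htMmem hxM htEmem x.2 htrR hGM

end H28PL

end
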