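import Mathlib
import Fermat.Agent.S34.PairGInt_helper8
import Fermat.Agent.S34.PairLvl_helper28
import Fermat.Agent.S18.C7a_helper1
import Fermat.Agent.S18.C7d_helper4

/-!
# Item 82 (S34), input (I1): `PairGaussStatement` from P-LVL and P-JQ (helper8)

`h8pg_pairGauss_of : LevelGIntStatement → JqGIntStatement → PairGaussStatement`:
instantiation of the generic core (`S34/PairGInt_helper8`) at `R = descVal A K₁ = A ∩ K₁`.
-/

set_option autoImplicit false
set_option linter.unusedSectionVars false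
set_option linter.style.longLine false
set_option linter.unusedVariables false
set_option linter.style.haveILetI false
set_option synthInstance.maxHeartbeats 400000

open ModularCurve HahnSeries H28GV H12AL RH24 H7S18

noncomputable section

namespace H8PB

theorem h8pg_baseKind_ok {q M : ℕ} (hT : TameLevel q M) :
    baseKind q = 1 ∨ (baseKind q = 2 ∧ 2 ∣ M * q) ∨ (baseKind q = 3 ∧ 3 ∣ M * q) := by
  rcases H28PL.baseKind_ok hT with h | ⟨h, h'⟩ | ⟨h, h'⟩
  · exact Or.inl h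
  · exact Or.inr (Or.inl ⟨h, Dvd.dvd.mul_right h' q⟩)
  · exact Or.inr (Or.inr ⟨h, Dvd.dvd.mul_right h' q⟩)

set_option maxHeartbeats 1600000 in
/-- **(I1)** from P-LVL and P-JQ -/
theorem h8pg_pairGauss_of (hLVL : LevelGIntStatement) (hJQ : JqGIntStatement) :
    PairGaussStatement := by
  intro M _ q _ hq hqM hT A hA K₁ hK₁ _ _ ϖ hϖ t₀ ht₀ t ht x
  haveI hqF : Fact q.Prime := ⟨hq⟩
  obtain ⟨hdvr, -, -⟩ := H4DVR.dvrStatement q A hA K₁ hK₁
  haveI := hdvr
  obtain ⟨hperf, hcharp⟩ := H1S18.c7Perfect q A hA K₁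
  haveI := hcharp
  obtain ⟨hc1, ⟨T, hTT⟩, hj⟩ := H4C7d.c7BaseStatement (baseKind q) t₀ ht₀
  have hchar : ∀ r : ℕ, r.Prime → r ∣ M →
      (r : IsLocalRing.ResidueField ↥(descVal A K₁)) ≠ 0 := by
    intro r hr hrM h0
    have h1 := (CharP.cast_eq_zero_iff (IsLocalRing.ResidueField ↥(descVal A K₁)) q r).mp h0
    have h2 : q = r := (Nat.prime_dvd_prime_iff_eq hq hr).mp h1
    exact hqM (h2 ▸ hrM)
  obtain ⟨B⟩ := gv_basis_nonempty_gen (descVal A K₁) (IsLocalRing.residue ↥(descVal A K₁)) M hchar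
  -- transcendence of `t`
  obtain ⟨tN, htN, htrK, -, -⟩ :=
    H9C6e.fieldBasics (M * q) (baseKind q) (h8pg_baseKind_ok hT) t₀ ht₀ K₁
  have etN : tN = t := Subtype.ext (htN.trans ht.symm)
  rw [etN] at htrK
  have htrR : Transcendental ↥(descVal A K₁) t :=
    Transcendental.restrictScalars (S := K₁)
      (FaithfulSMul.algebraMap_injective ↥(descVal A K₁) K₁) htrK
  -- the integral series of `t`
  have hT1 : T.coeff (-1) = 1 := by
    have h1 : (coeffMap (Int.castRingHom ℚ) T).coeff (-1) = 1 := by rw [hTT]; exact hc1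
    rw [coeffMap_coeff] at h1
    have h2 : ((T.coeff (-1) : ℤ) : ℚ) = ((1 : ℤ) : ℚ) := by
      rw [Int.cast_one]
      exact h1
    exact Int.cast_injective h2
  have htA : (t : LaurentSeries ↥K₁) =
      gvEps (descVal A K₁) (coeffMap (Int.castRingHom ↥(descVal A K₁)) T) := by
    rw [ht, ← hTT, coeffEmb, coeffMap_coeffMap, gvEps_def, coeffMap_coeffMap]
    exact coeffMap_congr (RingHom.ext_int _ _) T
  have hρ : gvRho (descVal A K₁) (IsLocalRing.residue ↥(descVal A K₁))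
      (coeffMap (Int.castRingHom ↥(descVal A K₁)) T) =
      coeffMap (Int.castRingHom (IsLocalRing.ResidueField ↥(descVal A K₁))) T := by
    rw [gvRho_def, coeffMap_coeffMap]
    exact coeffMap_congr (RingHom.ext_int _ _) T
  have hT' : Transcendental (IsLocalRing.ResidueField ↥(descVal A K₁))
      (gvRho (descVal A K₁) (IsLocalRing.residue ↥(descVal A K₁))
        (coeffMap (Int.castRingHom ↥(descVal A K₁)) T)) := by
    refine H28UG.transcendental_of_pole _ ?_
    rw [hρ, coeffMap_coeff, hT1]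
    simp
  -- `t` is of level `M`
  obtain ⟨tM, htM, -⟩ := H9C6e.fieldBasics M (baseKind q) (H28PL.baseKind_ok hT) t₀ ht₀ K₁
  have htMmem : (t : LaurentSeries ↥K₁) ∈ laurentBaseChange ↥K₁ (modularFunctionFieldFull M) := by
    rw [ht, ← htM]
    exact tM.2
  have hL := hLVL M q hq hqM hT A hA K₁ hK₁ ϖ hϖ t₀ ht₀ t ht
  have hJ := hJQ M q hq hqM hT A hA K₁ hK₁ ϖ hϖ t₀ ht₀ t ht
  refine ⟨⟨fun hG => ?_, fun h => ?_⟩, fun h1 h2 => ?_⟩
  · obtain ⟨a, b⟩ := h8pg_forward K₁ (descVal A K₁) M q hq hqM B ϖ hϖ t htrR _ htA hT' htMmem x hG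
    exact ⟨(h8pg_inG_iff (descVal A K₁) _).mpr a, (h8pg_inG_iff (descVal A K₁) _).mpr b⟩
  · exact h8pg_backward K₁ (descVal A K₁) M q hq hqM B ϖ hϖ t htrR hL hJ x
      ((h8pg_inG_iff (descVal A K₁) _).mp h.1) ((h8pg_inG_iff (descVal A K₁) _).mp h.2)
  · exact h8pg_modpi K₁ (descVal A K₁) M q hq hqM B ϖ hϖ t htrR hL hJ x h1 h2

end H8PB

end
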