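/-
helper24: item 82 (S34), input (I1), sub-slice **P-INT** (`H8PB.GIntClosedStatement`).

`O_E = {x : GInt R ϖ t x}` (the integral closure in `E` of the Gauss localization `R[t]_(ϖ)`) is
integrally closed in `E`: a root of a monic polynomial with `GInt` coefficients is `GInt`.

Proof: a common Gauss unit `d` with `d · c_i` integral over `R[t]` for the lower coefficients
`c_i`; then `d · x` is a root of the monic polynomial `P.scaleRoots d`, whose coefficients are
integral over `R[t]` (`H28UG.isIntegral_mul_of_monic_root` over `T = integralClosure R[t] E`);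
transitivity of integrality.
-/
import Mathlib
import Fermat.Agent.S18.UnrGenA_helper28
import Fermat.Agent.S34.PairDefs2_helper8

set_option autoImplicit false
set_option linter.unusedSectionVars false
set_option linter.unusedVariables false

open Polynomial IntermediateField

namespace H24PI

open H7S18 H21S18 H28UG

section generic

variable {R : Type} [CommRing R] [IsDomain R] {E : Type} [Field E] [Algebra R E]

/-- common Gauss-unit denominator of a finite family of `GInt` elements -/
theorem gInt_common_den {ϖ : R} (hϖ : Prime ϖ) {t : E} (ht : Transcendental R t) {ι : Type*}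
    (s : Finset ι) (f : ι → E) (hf : ∀ i ∈ s, GInt R ϖ t (f i)) :
    ∃ d, IsGaussUnit R ϖ t d ∧ ∀ i ∈ s, IsInt R t (d * f i) := by
  classical
  induction s using Finset.induction_on with
  | empty => exact ⟨1, isGaussUnit_one hϖ ht, fun i hi => absurd hi (Finset.notMem_empty i)⟩
  | insert a s ha ih =>
    obtain ⟨d, hd, hds⟩ := ih (fun i hi => hf i (Finset.mem_insert_of_mem hi))
    obtain ⟨s₁, hs₁, h₁⟩ := hf a (Finset.mem_insert_self a s)
    refine ⟨s₁ * d, isGaussUnit_mul hϖ ht hs₁ hd, fun i hi => ?_⟩
    rcases Finset.mem_insert.mp hi with rfl | hi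
    · have e : s₁ * d * f i = d * (s₁ * f i) := by ring
      rw [e]
      exact isInt_mul (isInt_of_mem hd.1) h₁
    · have e : s₁ * d * f i = s₁ * (d * f i) := by ring
      rw [e]
      exact isInt_mul (isInt_of_mem hs₁.1) (hds i hi)

/-- **P-INT, core**: a root of a monic polynomial with `GInt` coefficients is `GInt`. -/
theorem gInt_of_monic_root_gInt {ϖ : R} (hϖ : Prime ϖ) {t : E} (ht : Transcendental R t)
    (y : E) (p : E[X]) (hp : p.Monic) (hy : p.eval y = 0)
    (hc : ∀ i, GInt R ϖ t (p.coeff i)) : GInt R ϖ t y := by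
  obtain ⟨d, hd, hds⟩ := gInt_common_den hϖ ht (Finset.range p.natDegree)
    (fun i => p.coeff i) (fun i _ => hc i)
  refine ⟨d, hd, ?_⟩
  have hdT : d ∈ integralClosure (↥(Algebra.adjoin R {t})) E := isInt_of_mem hd.1
  have h1 : IsIntegral (↥(integralClosure (↥(Algebra.adjoin R {t})) E)) (d * y) :=
    isIntegral_mul_of_monic_root (R := ↥(Algebra.adjoin R {t}))
      (integralClosure (↥(Algebra.adjoin R {t})) E) d y hdT p hp hy
      (fun i hi => hds i (Finset.mem_range.mpr hi))
  exact isIntegral_trans (R := ↥(Algebra.adjoin R {t}))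
    (A := ↥(integralClosure (↥(Algebra.adjoin R {t})) E)) (d * y) h1

end generic

/-- **P-INT** (`H8PB.GIntClosedStatement`): `O_E` is integrally closed. -/
theorem h24pi_gIntClosed : H8PB.GIntClosedStatement := by
  intro R _ _ _ K _ _ _ E _ _ _ _ ϖ hϖ t ht P hP hc x hx
  have hϖp : Prime ϖ := hϖ.prime
  have htR : Transcendental R t := H21S18.transcendental_base (K := K) ht
  exact gInt_of_monic_root_gInt hϖp htR x P hP hx hc

end H24PI
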