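import Fermat.Agent.S34.PairDefs2_helper8
import Fermat.Agent.S28.DegreeBounds
import Fermat.Agent.S18.C6b_helper4
import Fermat.Agent.S18.C6e_helper9
import Fermat.Agent.S18.TBase_helper19
import Fermat.Agent.S34.PairInt_helper24
import Fermat.Agent.S34.PairLvl_helper28

/-!
# Item 82 (S34), input (I1), sub-slice **P-JQ** (helper25)

`H25JQ.jqGInt : H8PB.JqGIntStatement` (`j_q = j(𝐪^q)` is `GInt`) from the two other sub-slices
`H8PB.GIntClosedStatement` (P-INT) and `H8PB.LevelGIntStatement` (P-LVL), by the modular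
equation `Φ_q(j, j_q) = 0` (`H28S28.h10_root`): `j` is `GInt` (P-LVL, `j` has level `M` and is a
series with integral coefficients), so the monic polynomial `Φ_q(j, Y)` has `GInt` coefficients,
and its root `j_q` is `GInt` (P-INT).
-/

set_option autoImplicit false
set_option linter.style.haveILetI false
set_option synthInstance.maxHeartbeats 400000

noncomputable section

open ModularCurve H7S18

namespace H25JQ

/-- `ℤ[X] → E`, `X ↦ a`, has its values in every subring containing `a`. -/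
theorem eval₂_int_mem {E : Type} [CommRing E] (S : Subring E) {a : E} (ha : a ∈ S)
    (c : Polynomial ℤ) : Polynomial.eval₂ (Int.castRingHom E) a c ∈ S := by
  rw [Polynomial.eval₂_eq_sum_range]
  refine S.sum_mem fun i _ => S.mul_mem ?_ (S.pow_mem ha i)
  simp

/-- the kind of the base function is admissible at level `M q` for a tame level `M` -/
theorem baseKind_admissible (M q : ℕ) (hT : TameLevel q M) :
    baseKind q = 1 ∨ (baseKind q = 2 ∧ 2 ∣ M * q) ∨ (baseKind q = 3 ∧ 3 ∣ M * q) := by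
  unfold baseKind
  split_ifs with h2 h3
  · exact Or.inr (Or.inr ⟨rfl, Dvd.dvd.mul_right (hT.2.1 h2) q⟩)
  · exact Or.inr (Or.inl ⟨rfl, Dvd.dvd.mul_right (hT.2.2 h3) q⟩)
  · exact Or.inl rfl

/-- `j ∈ F_K(N)` -/
theorem jqModC_mem_FK (K : Type) [Field K] [Algebra ℚ K] (N : ℕ) [NeZero N] :
    jqModC K ∈ laurentBaseChange K (modularFunctionFieldFull N) := by
  have h := coeffEmb_mem_laurentBaseChange K (H9C6e.jq_mem_full (N := N))
  have e : coeffEmb K jq = jqModC K := by
    rw [← jqModC_rat]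
    exact coeffMap_jqModC (algebraMap ℚ K)
  rwa [e] at h

/-- `j` lies in the Gauss ring. -/
theorem inG_jqModC {K : Type} [Field K] (R : ValuationSubring K) :
    H8PB.InG R (jqModC K) := by
  refine ⟨jqModC R, 1, ⟨0, ?_⟩, ?_⟩
  · simp
  · rw [map_one, mul_one, coeffMap_jqModC]

/-- **P-JQ** from P-INT and P-LVL. -/
theorem jqGInt_of_closed_of_level (hI : H8PB.GIntClosedStatement)
    (hL : H8PB.LevelGIntStatement) : H8PB.JqGIntStatement := by
  intro M _ q _ hq hqM hT A hA K₁ hK₁ _ _ ϖ hϖ t₀ ht₀ t ht x hx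
  haveI : Fact q.Prime := ⟨hq⟩
  obtain ⟨hdvr, -, -⟩ := H4DVR.dvrStatement q A hA K₁ hK₁
  haveI := hdvr
  -- the base function is transcendental
  obtain ⟨t', ht', htr', -, -⟩ :=
    H9C6e.fieldBasics (M * q) (baseKind q) (baseKind_admissible M q hT) t₀ ht₀ K₁
  have htt : t = t' := Subtype.ext (ht.trans ht'.symm)
  have htr : Transcendental K₁ t := htt ▸ htr'
  have htrR : Transcendental ↥(descVal A K₁) t := H19S18.h19_transc ↥(descVal A K₁) K₁ htr
  -- `j` is `GInt`
  set jj : FK K₁ (M * q) := ⟨jqModC K₁, jqModC_mem_FK K₁ (M * q)⟩ with hjj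
  have hjG : GInt ↥(descVal A K₁) ϖ t jj :=
    hL M q hq hqM hT A hA K₁ hK₁ ϖ hϖ t₀ ht₀ t ht jj (jqModC_mem_FK K₁ M)
      (inG_jqModC (descVal A K₁))
  -- the modular polynomial
  obtain ⟨Φ, hΦ⟩ := H28S28.h10_exists_modPoly q (H28S28.h10_hasModEq_all q hq)
  set ψ : Polynomial ℤ →+* FK K₁ (M * q) :=
    Polynomial.eval₂RingHom (Int.castRingHom (FK K₁ (M * q))) jj with hψ
  refine hI ↥(descVal A K₁) K₁ (FK K₁ (M * q)) ϖ hϖ t htr (Φ.map ψ) (hΦ.1.map ψ) ?_ x ?_
  · intro i
    rw [Polynomial.coeff_map]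
    have h1 : jj ∈ H19S18.h19_Oe ↥(descVal A K₁) htrR hϖ :=
      (H19S18.h19_mem_Oe ↥(descVal A K₁) htrR hϖ jj).2 hjG
    have h2 := eval₂_int_mem (H19S18.h19_Oe ↥(descVal A K₁) htrR hϖ) h1 (Φ.coeff i)
    exact (H19S18.h19_mem_Oe ↥(descVal A K₁) htrR hϖ _).1 h2
  · rw [Polynomial.eval_map]
    set ι : FK K₁ (M * q) →+* LaurentSeries K₁ :=
      (laurentBaseChange K₁ (modularFunctionFieldFull (M * q))).val.toRingHom with hι
    have hιinj : Function.Injective ι := Subtype.val_injective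
    apply hιinj
    rw [map_zero, Polynomial.hom_eval₂]
    have hcomp : ι.comp ψ = H28S28.h10ev (jqModC K₁) := by
      refine Polynomial.ringHom_ext' (Subsingleton.elim _ _) ?_
      simp [hψ, hι, hjj, H28S28.h10ev]
    have hιx : ι x = qExpand K₁ q (jqModC K₁) := hx
    rw [hcomp, hιx]
    haveI : NeZero (1 * q) := ⟨by simpa using hq.ne_zero⟩
    have h := H28S28.h10_root q Φ hΦ K₁ 1
    unfold H28S28.h10ev2 at h
    simpa [qExpand_one_apply] using h

/-- **P-JQ**, unconditional: `j(𝐪^q)` is `GInt`. -/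
theorem jqGInt : H8PB.JqGIntStatement :=
  jqGInt_of_closed_of_level H24PI.h24pi_gIntClosed H28PL.levelGInt

end H25JQ

end
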