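import Mathlib
import Fermat.Agent.S34.PairGauss_helper8
import Fermat.Agent.S34.PairJq_helper25

/-!
# Item 82 (S34), input (I1): `H8PB.PairGaussStatement`, unconditional (helper8)

`h8pg_pairGauss : PairGaussStatement`, from the pair basis (helper8), P-LVL (helper28),
P-INT (helper24) and P-JQ (helper25).
-/

set_option autoImplicit false

namespace H8PB

/-- **(I1)**: the Gauss ring of `F₁(M q)` is `O_{w₁} ∩ O_{w₂}`, and `ϖ O = 𝔭₁ ∩ 𝔭₂`. -/
theorem h8pg_pairGauss : PairGaussStatement :=
  h8pg_pairGauss_of H28PL.levelGInt H25JQ.jqGInt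

end H8PB
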