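/-
Item 82 (S34), slice **(TAU)**, generic part (helper3).

Generic setting of `H7S18`: `R` a domain, `ϖ ∈ R` prime, `E ⊇ R` a field, `t : E` transcendental
over `R`.  `σ : E ≃+* E` is a ring automorphism which is `σR`-semilinear over `R`, fixes `t`, and
is trivial on `R / ϖ` ("`σ` lies in the inertia group").  Then

* `σ` preserves the chart ring `R[t]` and is trivial on `R[t] / ϖ`         (`h3tau_adjoin`),
* `σ` preserves `IsGaussUnit`, `IsInt`, `GInt`, `GBase`,
* `σ` is trivial on the Gauss ring modulo `ϖ`                              (`h3tau_gbase`),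
* if `O_E = {GInt}` is spanned over the Gauss ring by `σ`-fixed elements, `σ` is trivial on
  `O_E / ϖ O_E`:  `GInt x → ModPi (σ x) x`                                  (`h3tau_modPi`).
-/
import Mathlib
import Fermat.Agent.S18.Glue_helper21

set_option autoImplicit false
set_option linter.unusedSectionVars false
set_option linter.unusedVariables false
set_option linter.style.haveILetI false

open Polynomial

namespace H3TAU

open H7S18 H21S18

/-- the hypotheses on `σ`: semilinear over `σR`, fixes `t`, trivial modulo `ϖ` on `R`. -/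
structure IsInertial {R : Type} [CommRing R] {E : Type} [Field E] [Algebra R E]
    (ϖ : R) (t : E) (σ : E ≃+* E) (σR : R →+* R) : Prop where
  semilinear : ∀ r : R, σ (algebraMap R E r) = algebraMap R E (σR r)
  fix_t : σ t = t
  cong : ∀ r : R, ∃ r' : R, σR r - r = ϖ * r'

/-- `O_E = {GInt}` is spanned over the Gauss ring `R[t]_(ϖ)` by finitely many `σ`-fixed
elements (consequence of the pair basis (PB) of (I1)). -/
def HasFixedSpan (R : Type) [CommRing R] {E : Type} [Field E] [Algebra R E]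
    (ϖ : R) (t : E) (σ : E ≃+* E) : Prop :=
  ∃ (ι : Type) (_ : Fintype ι) (y : ι → E), (∀ b, σ (y b) = y b) ∧ (∀ b, GInt R ϖ t (y b)) ∧
    ∀ x : E, GInt R ϖ t x → ∃ c : ι → E, (∀ b, GBase R ϖ t (c b)) ∧ x = ∑ b, c b * y b

section

variable {R : Type} [CommRing R] [IsDomain R] {E : Type} [Field E] [Algebra R E]
  {ϖ : R} {t : E} {σ : E ≃+* E} {σR : R →+* R}

/-- `σ (P(t)) = (σR P)(t)` -/
theorem h3tau_aeval (h : IsInertial ϖ t σ σR) (P : R[X]) :
    σ (Polynomial.aeval t P) = Polynomial.aeval t (P.map σR) := by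
  have h1 : (σ : E →+* E).comp (algebraMap R E) = (algebraMap R E).comp σR :=
    RingHom.ext fun r => h.semilinear r
  rw [Polynomial.aeval_def, Polynomial.aeval_def, Polynomial.eval₂_map, ← h1]
  have h2 := Polynomial.hom_eval₂ P (algebraMap R E) (σ : E →+* E) t
  rw [show (σ : E →+* E) t = t from h.fix_t] at h2
  exact h2

/-- `σR P ≡ P mod ϖ` for polynomials -/
theorem h3tau_map_sub (hc : ∀ r : R, ∃ r' : R, σR r - r = ϖ * r') (P : R[X]) :
    ∃ Q : R[X], P.map σR - P = Polynomial.C ϖ * Q := by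
  induction P using Polynomial.induction_on' with
  | add p q hp hq =>
    obtain ⟨Q₁, h₁⟩ := hp
    obtain ⟨Q₂, h₂⟩ := hq
    refine ⟨Q₁ + Q₂, ?_⟩
    rw [Polynomial.map_add, mul_add, ← h₁, ← h₂]
    ring
  | monomial n r =>
    obtain ⟨r', hr'⟩ := hc r
    refine ⟨Polynomial.monomial n r', ?_⟩
    rw [Polynomial.map_monomial, ← map_sub, hr', Polynomial.C_mul_monomial]

/-- `σ` preserves `R[t]` and is trivial on `R[t] / ϖ`. -/
theorem h3tau_adjoin (h : IsInertial ϖ t σ σR) {a : E} (ha : a ∈ Algebra.adjoin R {t}) :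
    σ a ∈ Algebra.adjoin R {t} ∧
      ∃ a' ∈ Algebra.adjoin R {t}, σ a - a = algebraMap R E ϖ * a' := by
  obtain ⟨P, rfl⟩ := exists_poly_of_mem ha
  rw [h3tau_aeval h]
  refine ⟨aeval_mem t _, ?_⟩
  obtain ⟨Q, hQ⟩ := h3tau_map_sub h.cong P
  refine ⟨Polynomial.aeval t Q, aeval_mem t Q, ?_⟩
  rw [← map_sub, hQ, map_mul, Polynomial.aeval_C]

/-- `σ` restricted to the chart ring -/
def h3tau_chart (h : IsInertial ϖ t σ σR) : Algebra.adjoin R {t} →+* Algebra.adjoin R {t} where
  toFun a := ⟨σ (a : E), (h3tau_adjoin h a.2).1⟩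
  map_one' := Subtype.ext (map_one σ)
  map_mul' a b := Subtype.ext (map_mul σ _ _)
  map_zero' := Subtype.ext (map_zero σ)
  map_add' a b := Subtype.ext (map_add σ _ _)

/-- `σ` preserves integrality over the chart ring. -/
theorem h3tau_isInt (h : IsInertial ϖ t σ σR) {x : E} (hx : IsInt R t x) : IsInt R t (σ x) := by
  have key := IsIntegral.map_of_comp_eq (h3tau_chart h) (σ : E →+* E)
    (RingHom.ext fun a => rfl) hx
  exact key

/-- `σ` preserves Gauss units. -/
theorem h3tau_gaussUnit (h : IsInertial ϖ t σ σR) {s : E} (hs : IsGaussUnit R ϖ t s) :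
    IsGaussUnit R ϖ t (σ s) := by
  obtain ⟨h1, a', ha', h2⟩ := h3tau_adjoin h hs.1
  refine ⟨h1, fun s' hs' he => ?_⟩
  refine hs.2 (s' - a') (Subalgebra.sub_mem _ hs' ha') ?_
  have : s = σ s - (σ s - s) := by ring
  rw [this, h2, he]
  ring

/-- `σ` preserves `O_E`. -/
theorem h3tau_gint (h : IsInertial ϖ t σ σR) {x : E} (hx : GInt R ϖ t x) :
    GInt R ϖ t (σ x) := by
  obtain ⟨s, hs, hsx⟩ := hx
  refine ⟨σ s, h3tau_gaussUnit h hs, ?_⟩
  rw [← map_mul]
  exact h3tau_isInt h hsx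

/-- elements of the Gauss ring lie in `O_E` -/
theorem h3tau_gint_of_gbase {c : E} (hc : GBase R ϖ t c) : GInt R ϖ t c := by
  obtain ⟨s, a, hs, ha, hsa⟩ := hc
  exact ⟨s, hs, by rw [hsa]; exact isInt_of_mem ha⟩

/-- `σ` is trivial on the Gauss ring modulo `ϖ`. -/
theorem h3tau_gbase (hϖ : Prime ϖ) (ht : Transcendental R t) (h : IsInertial ϖ t σ σR) {c : E}
    (hc : GBase R ϖ t c) : ∃ c' : E, GBase R ϖ t c' ∧ σ c - c = algebraMap R E ϖ * c' := by
  obtain ⟨s, a, hs, ha, hsa⟩ := hc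
  obtain ⟨hσs, s', hs', hs2⟩ := h3tau_adjoin h hs.1
  obtain ⟨hσa, a', ha', ha2⟩ := h3tau_adjoin h ha
  have hσsu := h3tau_gaussUnit h hs
  have hs0 : s ≠ 0 := by
    rintro rfl
    exact hs.2 0 (Subalgebra.zero_mem _) (by simp)
  have hσs0 : σ s ≠ 0 := by
    intro h0
    exact hσsu.2 0 (Subalgebra.zero_mem _) (by rw [h0]; simp)
  have hc : c = a / s := by
    rw [eq_div_iff hs0, mul_comm]
    exact hsa
  have hσc : σ c = σ a / σ s := by rw [hc, map_div₀]
  refine ⟨(a' * s - a * s') / (s * σ s), ⟨s * σ s, a' * s - a * s',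
    isGaussUnit_mul hϖ ht hs hσsu,
    Subalgebra.sub_mem _ (Subalgebra.mul_mem _ ha' hs.1) (Subalgebra.mul_mem _ ha hs'), ?_⟩, ?_⟩
  · field_simp
  · have e1 : σ a = a + algebraMap R E ϖ * a' := by rw [← ha2]; ring
    have e2 : σ s = s + algebraMap R E ϖ * s' := by rw [← hs2]; ring
    rw [hσc, hc]
    rw [div_sub_div _ _ hσs0 hs0, mul_div_assoc', div_eq_div_iff (mul_ne_zero hσs0 hs0)
      (mul_ne_zero hs0 hσs0)]
    rw [e1]
    generalize σ s = w at e2 ⊢
    subst e2
    ring

/-- **(TAU), generic**: `σ` is trivial on `O_E / ϖ O_E` when `O_E` is spanned over the Gauss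
ring by `σ`-fixed elements. -/
theorem h3tau_modPi (hϖ : Prime ϖ) (ht : Transcendental R t) (h : IsInertial ϖ t σ σR)
    (hB : HasFixedSpan R ϖ t σ) {x : E} (hx : GInt R ϖ t x) : ModPi R ϖ t (σ x) x := by
  classical
  obtain ⟨ι, hι, y, hy, hyint, hspan⟩ := hB
  obtain ⟨c, hc, rfl⟩ := hspan x hx
  choose c' hc' hcc' using fun b => h3tau_gbase hϖ ht h (hc b)
  refine ⟨∑ b, c' b * y b, ?_, ?_⟩
  · -- `GInt` of a finite sum
    have key : ∀ s : Finset ι, GInt R ϖ t (∑ b ∈ s, c' b * y b) := by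
      intro s
      induction s using Finset.induction_on with
      | empty => simpa using gInt_zero hϖ ht
      | insert b s hb ih =>
        rw [Finset.sum_insert hb]
        exact gInt_add hϖ ht (gInt_mul hϖ ht (h3tau_gint_of_gbase (hc' b)) (hyint b)) ih
    exact key Finset.univ
  · rw [map_sum, ← Finset.sum_sub_distrib, Finset.mul_sum]
    refine Finset.sum_congr rfl fun b _ => ?_
    rw [map_mul, hy b, ← sub_mul, hcc' b, mul_assoc]

end

end H3TAU
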