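/-
Item 82 (S34), slice **(TAU)**, concrete part (helper3).

`A ⊆ ℚ̄` a valuation subring, `K₁ ⊆ ℚ̄` normal over `ℚ`, `R = descVal A K₁ = A ∩ K₁`,
`F₁ = FK K₁ N = K₁ · F_N ⊆ K₁((q))`.  For `τ ∈ Gal(ℚ̄/ℚ)`:

* `H3TAU.tau1 K₁ N τ : FK K₁ N ≃+* FK K₁ N`, the coefficientwise action of `τ|K₁`;
* `h3tau_compat`   : `φ (τ₁ x) = τ • φ x` for the base change `φ : F₁ → F_ℚ̄` of C6f;
* `h3tau_fix`      : `τ₁` fixes every element with rational `q`-expansion (e.g. the base
                     function `t`);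
* `H3TAU.tauR`     : for `τ` in the decomposition group of `A`, the induced `R →+* R`;
* `h3tau_isInertial` : for `τ` in the inertia group of `A`, `τ₁` is inertial in the sense of
                     `H3TAU.IsInertial` (semilinear, fixes `t`, trivial on `R / ϖ`);
* `h3tau_final`    : hence `GInt x → ModPi (τ₁ x) x` as soon as `O = {GInt}` is spanned over
                     the Gauss ring by `τ₁`-fixed elements (pair basis (PB) of (I1)).
-/
import Mathlib
import Fermat.Agent.S18.DefsD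
import Fermat.Agent.S05.Inertia
import Fermat.Agent.S34.TauGen_helper3

set_option autoImplicit false
set_option linter.unusedSectionVars false
set_option linter.unusedVariables false
set_option linter.style.haveILetI false
set_option linter.overlappingInstances false
set_option synthInstance.maxHeartbeats 400000

noncomputable section

namespace H3TAU

open ModularCurve H7S18 Polynomial

local notation "Qb" => AlgebraicClosure ℚ

variable (K₁ : IntermediateField ℚ Qb) [Normal ℚ K₁] (N : ℕ) [NeZero N]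

/-- the restriction of `τ` to the normal subfield `K₁` -/
def resK (τ : Qb ≃ₐ[ℚ] Qb) : K₁ ≃ₐ[ℚ] K₁ := τ.restrictNormal K₁

theorem resK_commutes (τ : Qb ≃ₐ[ℚ] Qb) (x : K₁) :
    algebraMap K₁ Qb (resK K₁ τ x) = τ (algebraMap K₁ Qb x) :=
  AlgEquiv.restrictNormal_commutes τ K₁ x

/-- **`τ₁`**: the coefficientwise action of `τ|K₁` on `F₁ = FK K₁ N`. -/
def tau1 (τ : Qb ≃ₐ[ℚ] Qb) : FK K₁ N ≃+* FK K₁ N :=
  arithmeticRingAut (modularFunctionFieldFull N) (resK K₁ τ)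

theorem coe_tau1 (τ : Qb ≃ₐ[ℚ] Qb) (x : FK K₁ N) :
    ((tau1 K₁ N τ x : FK K₁ N) : LaurentSeries K₁) =
      coeffMap ((resK K₁ τ : K₁ ≃ₐ[ℚ] K₁) : K₁ →+* K₁) (x : LaurentSeries K₁) :=
  rfl

theorem tau1_algebraMap (τ : Qb ≃ₐ[ℚ] Qb) (a : K₁) :
    tau1 K₁ N τ (algebraMap K₁ (FK K₁ N) a) = algebraMap K₁ (FK K₁ N) (resK K₁ τ a) :=
  arithmeticRingAut_algebraMap (modularFunctionFieldFull N) (resK K₁ τ) a

/-- `τ₁` fixes the elements with rational `q`-expansion. -/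
theorem h3tau_fix (τ : Qb ≃ₐ[ℚ] Qb) (t : FK K₁ N) (t₀ : LaurentSeries ℚ)
    (ht : (t : LaurentSeries K₁) = coeffEmb K₁ t₀) : tau1 K₁ N τ t = t := by
  apply Subtype.ext
  rw [coe_tau1, ht, coeffMap_coeffEmb]

/-- **compatibility with the arithmetic Galois action on `F_ℚ̄`** through the base change `φ`
of C6f. -/
theorem h3tau_compat (τ : Qb ≃ₐ[ℚ] Qb) (φ : FK K₁ N →+* FK Qb N)
    (hφ : ∀ x : FK K₁ N, ((φ x : FK Qb N) : LaurentSeries Qb) =
      coeffMap (algebraMap K₁ Qb) (x : LaurentSeries K₁)) (x : FK K₁ N) :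
    φ (tau1 K₁ N τ x) = arithmeticGalois (modularFunctionFieldFull N) τ • φ x := by
  apply Subtype.ext
  rw [coe_arithmeticGalois_smul, hφ, hφ, coe_tau1, coeffMap_coeffMap, coeffMap_coeffMap]
  refine coeffMap_congr (RingHom.ext fun a => ?_) _
  exact resK_commutes K₁ τ a

variable {K₁}

/-- `τ|K₁` preserves `R = A ∩ K₁` for `τ` in the decomposition group of `A`. -/
theorem resK_mem (A : ValuationSubring Qb) {τ : Qb ≃ₐ[ℚ] Qb}
    (hτ : τ ∈ A.decompositionSubgroup ℚ) (r : descVal A K₁) :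
    resK K₁ τ (r : K₁) ∈ descVal A K₁ := by
  show algebraMap K₁ Qb (resK K₁ τ (r : K₁)) ∈ A
  rw [resK_commutes]
  exact Fermat.Agent.H9.h9_decomposition_apply_mem A hτ r.2

/-- **`τ_R`**: the action of `τ` on `R = A ∩ K₁`. -/
def tauR (A : ValuationSubring Qb) {τ : Qb ≃ₐ[ℚ] Qb}
    (hτ : τ ∈ A.decompositionSubgroup ℚ) : descVal A K₁ →+* descVal A K₁ where
  toFun r := ⟨resK K₁ τ (r : K₁), resK_mem A hτ r⟩
  map_one' := Subtype.ext (map_one _)
  map_mul' a b := Subtype.ext (map_mul _ _ _)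
  map_zero' := Subtype.ext (map_zero _)
  map_add' a b := Subtype.ext (map_add _ _ _)

theorem coe_tauR (A : ValuationSubring Qb) {τ : Qb ≃ₐ[ℚ] Qb}
    (hτ : τ ∈ A.decompositionSubgroup ℚ) (r : descVal A K₁) :
    ((tauR A hτ r : descVal A K₁) : K₁) = resK K₁ τ (r : K₁) := rfl

/-- inertia acts trivially on `R / 𝔪_R`. -/
theorem tauR_sub_mem (A : ValuationSubring Qb) {τ : Qb ≃ₐ[ℚ] Qb}
    (hτ : τ ∈ A.inertiaSubgroupIn ℚ) (r : descVal A K₁) :
    tauR A (Fermat.Agent.H9.h9_inertia_mem_decomposition A hτ) r - r ∈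
      IsLocalRing.maximalIdeal (descVal A K₁) := by
  rw [← ValuationSubring.coe_mem_nonunits_iff]
  -- nonunits of the comap
  have h1 := Fermat.Agent.H9.h9_inertia_apply_sub_mem_nonunits A hτ
    (a := algebraMap K₁ Qb (r : K₁)) r.2
  rw [← resK_commutes, ← map_sub] at h1
  rw [ValuationSubring.mem_nonunits_iff_or] at h1 ⊢
  rcases h1 with h1 | h1
  · left
    exact (map_eq_zero_iff _ (algebraMap K₁ Qb).injective).1 h1
  · right
    intro h2
    apply h1
    rw [← map_inv₀]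
    exact h2

/-- inertia acts trivially on `R / ϖ`. -/
theorem tauR_cong (A : ValuationSubring Qb) [IsDomain (descVal A K₁)]
    [IsDiscreteValuationRing (descVal A K₁)] {ϖ : descVal A K₁} (hϖ : Irreducible ϖ)
    {τ : Qb ≃ₐ[ℚ] Qb} (hτ : τ ∈ A.inertiaSubgroupIn ℚ) (r : descVal A K₁) :
    ∃ r' : descVal A K₁,
      tauR A (Fermat.Agent.H9.h9_inertia_mem_decomposition A hτ) r - r = ϖ * r' := by
  have h := tauR_sub_mem A hτ r
  rw [hϖ.maximalIdeal_eq, Ideal.mem_span_singleton'] at h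
  obtain ⟨r', hr'⟩ := h
  exact ⟨r', by rw [← hr', mul_comm]⟩

variable (K₁)

/-- **(TAU)**: for `τ` in the inertia group of `A`, `τ₁` is inertial: semilinear over `τ_R`,
fixes the base function `t`, trivial on `R / ϖ`. -/
theorem h3tau_isInertial (A : ValuationSubring Qb) [IsDomain (descVal A K₁)]
    [IsDiscreteValuationRing (descVal A K₁)]
    [Algebra ↥(descVal A K₁) (FK K₁ N)] [IsScalarTower ↥(descVal A K₁) K₁ (FK K₁ N)]
    {ϖ : descVal A K₁} (hϖ : Irreducible ϖ)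
    {τ : Qb ≃ₐ[ℚ] Qb} (hτ : τ ∈ A.inertiaSubgroupIn ℚ)
    (t₀ : LaurentSeries ℚ) (t : FK K₁ N) (ht : (t : LaurentSeries K₁) = coeffEmb K₁ t₀) :
    IsInertial ϖ t (tau1 K₁ N τ)
      (tauR A (Fermat.Agent.H9.h9_inertia_mem_decomposition A hτ)) where
  semilinear r := by
    rw [IsScalarTower.algebraMap_apply ↥(descVal A K₁) K₁ (FK K₁ N),
      IsScalarTower.algebraMap_apply ↥(descVal A K₁) K₁ (FK K₁ N), tau1_algebraMap]
    rfl
  fix_t := h3tau_fix K₁ N τ t t₀ ht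
  cong r := tauR_cong A hϖ hτ r

/-- **(TAU), final form**: `τ₁` is trivial on `O / ϖ O` when `O = {GInt}` is spanned over the
Gauss ring by `τ₁`-fixed elements. -/
theorem h3tau_final (A : ValuationSubring Qb) [IsDomain (descVal A K₁)]
    [IsDiscreteValuationRing (descVal A K₁)]
    [Algebra ↥(descVal A K₁) (FK K₁ N)] [IsScalarTower ↥(descVal A K₁) K₁ (FK K₁ N)]
    {ϖ : descVal A K₁} (hϖ : Irreducible ϖ)
    {τ : Qb ≃ₐ[ℚ] Qb} (hτ : τ ∈ A.inertiaSubgroupIn ℚ)
    (t₀ : LaurentSeries ℚ) (t : FK K₁ N) (ht : (t : LaurentSeries K₁) = coeffEmb K₁ t₀)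
    (htr : Transcendental ↥(descVal A K₁) t)
    (hB : HasFixedSpan ↥(descVal A K₁) ϖ t (tau1 K₁ N τ))
    {x : FK K₁ N} (hx : GInt ↥(descVal A K₁) ϖ t x) :
    ModPi ↥(descVal A K₁) ϖ t (tau1 K₁ N τ x) x :=
  h3tau_modPi hϖ.prime htr (h3tau_isInertial K₁ N A hϖ hτ t₀ t ht) hB hx

end H3TAU

end
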