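/-
Item 82 (S34), slice **(TAU)**: `H4S34.TauStatement` from the rational spanning family of (I1)
(helper3).

`H3TAU.RatSpanStatement` : for `K₁` large, `O = {GInt}` is spanned over the Gauss ring
`R[t]_(ϖ)` by finitely many elements of `F₁` with RATIONAL `q`-expansion (consequence of the
pair basis (PB), whose elements are monomials in the `j(q^d)`).

`H3TAU.tau_of_ratSpan : RatSpanStatement → H4S34.TauStatement`.
-/
import Mathlib
import Fermat.Agent.S34.Defs_helper4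
import Fermat.Agent.S34.Tau_helper3
import Fermat.Agent.S18.C6b_helper4
import Fermat.Agent.S18.C6e_helper9
import Fermat.Agent.S18.C12bAux_helper7
import Fermat.Agent.S18.TBase_helper19
import Fermat.Agent.S34.GenA1_helper1

set_option autoImplicit false
set_option linter.unusedSectionVars false
set_option linter.unusedVariables false
set_option linter.style.haveILetI false
set_option linter.overlappingInstances false
set_option synthInstance.maxHeartbeats 400000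
set_option maxHeartbeats 1000000

noncomputable section

namespace H3TAU

open ModularCurve H7S18 H4S34 Polynomial

local notation "Qb" => AlgebraicClosure ℚ

/-- **(I1), form needed by (TAU)**: for `K₁` large, `O = {GInt}` is spanned over the Gauss ring
by finitely many elements with rational `q`-expansion. -/
def RatSpanStatement : Prop :=
  ∀ (N : ℕ) [NeZero N] (q : ℕ) [Fact q.Prime] (_ : q ∣ N) (_ : ¬ q ^ 2 ∣ N)
    (_ : TameLevel q (N / q))
    (A : ValuationSubring Qb) (_ : A.LiesOverPrime q),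
    ∃ K₀ : IntermediateField ℚ Qb, FiniteDimensional ℚ K₀ ∧
    ∀ (K₁ : IntermediateField ℚ Qb) (_ : K₀ ≤ K₁) (_ : FiniteDimensional ℚ K₁)
      (_ : Normal ℚ K₁)
      [Algebra ↥(descVal A K₁) (FK K₁ N)] [IsScalarTower ↥(descVal A K₁) K₁ (FK K₁ N)]
      (ϖ : ↥(descVal A K₁)) (_ : Irreducible ϖ)
      (t₀ : LaurentSeries ℚ) (_ : IsBase (baseKind q) t₀)
      (t : FK K₁ N) (_ : (t : LaurentSeries K₁) = coeffEmb K₁ t₀),
      ∃ (ι : Type) (_ : Fintype ι) (y : ι → FK K₁ N),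
        (∀ b, ∃ y₀ : LaurentSeries ℚ, (y b : LaurentSeries K₁) = coeffEmb K₁ y₀) ∧
        (∀ b, GInt ↥(descVal A K₁) ϖ t (y b)) ∧
        ∀ x : FK K₁ N, GInt ↥(descVal A K₁) ϖ t x →
          ∃ c : ι → FK K₁ N, (∀ b, GBase ↥(descVal A K₁) ϖ t (c b)) ∧ x = ∑ b, c b * y b

/-- the base kind is admissible at level `N` when `q ∣ N` and `N / q` is a tame level. -/
theorem h3tau_baseKind_ok {q N : ℕ} (hqN : q ∣ N) (hT : TameLevel q (N / q)) :
    baseKind q = 1 ∨ (baseKind q = 2 ∧ 2 ∣ N) ∨ (baseKind q = 3 ∧ 3 ∣ N) := by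
  have hdiv : N / q ∣ N := Nat.div_dvd_of_dvd hqN
  rcases h7_baseKind_ok hT with h | h | h
  · exact Or.inl h
  · exact Or.inr (Or.inl ⟨h.1, h.2.trans hdiv⟩)
  · exact Or.inr (Or.inr ⟨h.1, h.2.trans hdiv⟩)

variable (K₁ : IntermediateField ℚ Qb) [Normal ℚ K₁] (N : ℕ) [NeZero N]

theorem resK_symm_commutes (τ : Qb ≃ₐ[ℚ] Qb) (x : K₁) :
    algebraMap K₁ Qb ((resK K₁ τ).symm x) = τ.symm (algebraMap K₁ Qb x) := by
  rw [AlgEquiv.eq_symm_apply, ← resK_commutes, AlgEquiv.apply_symm_apply]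

theorem tau1_symm_algebraMap (τ : Qb ≃ₐ[ℚ] Qb) (a : K₁) :
    (tau1 K₁ N τ).symm (algebraMap K₁ (FK K₁ N) a) =
      algebraMap K₁ (FK K₁ N) ((resK K₁ τ).symm a) := by
  rw [RingEquiv.symm_apply_eq, tau1_algebraMap, AlgEquiv.apply_symm_apply]

/-- **packaging**: the conclusion of `TauStatement` for `τ₁ = tau1 K₁ N τ`, from the triviality
of `τ₁` on `O / ϖ O`.  (The last clause is helper1's (A1), `H1GU.a1_of_tau`.) -/
theorem h3tau_pack (q : ℕ) [Fact q.Prime] (hqN : q ∣ N) (hT : TameLevel q (N / q))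
    (A : ValuationSubring Qb) (hA : A.LiesOverPrime q) (hfin : FiniteDimensional ℚ K₁)
    [Algebra ↥(descVal A K₁) (FK K₁ N)] [IsScalarTower ↥(descVal A K₁) K₁ (FK K₁ N)]
    (ϖ : ↥(descVal A K₁)) (hϖ : Irreducible ϖ)
    (t₀ : LaurentSeries ℚ) (ht₀ : IsBase (baseKind q) t₀)
    (t : FK K₁ N) (ht : (t : LaurentSeries K₁) = coeffEmb K₁ t₀)
    (τ : Qb ≃ₐ[ℚ] Qb) (hτ : τ ∈ A.inertiaSubgroupIn ℚ)
    (h5 : ∀ x : FK K₁ N, GInt ↥(descVal A K₁) ϖ t x →
      ModPi ↥(descVal A K₁) ϖ t (tau1 K₁ N τ x) x) :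
    ∃ τ₁ : FK K₁ N ≃+* FK K₁ N,
        (∀ (x : FK K₁ N) (y : modularFunctionFieldBar N),
          (y : LaurentSeries (AlgebraicClosure ℚ)) =
              coeffMap (algebraMap K₁ (AlgebraicClosure ℚ)) (x : LaurentSeries K₁) →
          ((arithmeticGalois (modularFunctionFieldFull N) τ • y : modularFunctionFieldBar N) :
              LaurentSeries (AlgebraicClosure ℚ)) =
            coeffMap (algebraMap K₁ (AlgebraicClosure ℚ)) (τ₁ x : LaurentSeries K₁)) ∧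
        τ₁ t = t ∧
        (∀ r : ↥(descVal A K₁), ∃ r' : ↥(descVal A K₁),
          τ₁ (algebraMap ↥(descVal A K₁) (FK K₁ N) r) =
            algebraMap ↥(descVal A K₁) (FK K₁ N) r') ∧
        (∀ r : ↥(descVal A K₁), ∃ r' : ↥(descVal A K₁),
          τ₁.symm (algebraMap ↥(descVal A K₁) (FK K₁ N) r) =
            algebraMap ↥(descVal A K₁) (FK K₁ N) r') ∧
        (∀ x : FK K₁ N, GInt ↥(descVal A K₁) ϖ t x → ModPi ↥(descVal A K₁) ϖ t (τ₁ x) x) ∧
        ∀ g : FK K₁ N, g ≠ 0 → GInt ↥(descVal A K₁) ϖ t (τ₁ g / g) := by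
  obtain ⟨hdvr, -, -⟩ := H4DVR.dvrStatement q A hA K₁ hfin
  haveI := hdvr
  have hτd : τ ∈ A.decompositionSubgroup ℚ := Fermat.Agent.H9.h9_inertia_mem_decomposition A hτ
  -- transcendence of `t`
  obtain ⟨t', ht'coe, ht'tr, ht'fin, -⟩ :=
    H9C6e.fieldBasics N (baseKind q) (h3tau_baseKind_ok hqN hT) t₀ ht₀ K₁
  have htt' : t' = t := Subtype.ext (by rw [ht'coe, ht])
  subst htt'
  have hR : ∀ r : ↥(descVal A K₁), ∃ r' : ↥(descVal A K₁),
      tau1 K₁ N τ (algebraMap ↥(descVal A K₁) (FK K₁ N) r) =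
        algebraMap ↥(descVal A K₁) (FK K₁ N) r' := by
    intro r
    exact ⟨tauR A hτd r, (h3tau_isInertial K₁ N A hϖ hτ t₀ t' ht).semilinear r⟩
  have hR' : ∀ r : ↥(descVal A K₁), ∃ r' : ↥(descVal A K₁),
      (tau1 K₁ N τ).symm (algebraMap ↥(descVal A K₁) (FK K₁ N) r) =
        algebraMap ↥(descVal A K₁) (FK K₁ N) r' := by
    intro r
    have hmem : (resK K₁ τ).symm (r : K₁) ∈ descVal A K₁ := by
      show algebraMap K₁ Qb ((resK K₁ τ).symm (r : K₁)) ∈ A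
      rw [resK_symm_commutes]
      have h1 : τ.symm ∈ A.decompositionSubgroup ℚ := inv_mem hτd
      exact Fermat.Agent.H9.h9_decomposition_apply_mem A h1 r.2
    refine ⟨⟨_, hmem⟩, ?_⟩
    rw [IsScalarTower.algebraMap_apply ↥(descVal A K₁) K₁ (FK K₁ N),
      IsScalarTower.algebraMap_apply ↥(descVal A K₁) K₁ (FK K₁ N), tau1_symm_algebraMap]
    rfl
  refine ⟨tau1 K₁ N τ, ?_, h3tau_fix K₁ N τ t' t₀ ht, hR, hR', h5, ?_⟩
  · -- compatibility
    intro x y hxy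
    rw [coe_arithmeticGalois_smul, hxy, coe_tau1, coeffMap_coeffMap, coeffMap_coeffMap]
    refine coeffMap_congr (RingHom.ext fun a => ?_) _
    exact (resK_commutes K₁ τ a).symm
  · -- (A1)
    intro g hg
    haveI := ht'fin
    exact H1GU.a1_of_tau ↥(descVal A K₁) K₁ hϖ ht'tr (tau1 K₁ N τ)
      (h3tau_fix K₁ N τ t' t₀ ht) hR hR' h5 hg

/-- **(TAU)** from the rational spanning family. -/
theorem tau_of_ratSpan (h : RatSpanStatement) : TauStatement := by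
  intro N _ q _ hqN hq2 hT A hA
  obtain ⟨K₀, hK₀, hspan⟩ := h N q hqN hq2 hT A hA
  refine ⟨K₀, hK₀, ?_⟩
  intro K₁ hK₀₁ hfin hnorm _ _ ϖ hϖ t₀ ht₀ t ht τ hτ
  haveI := hnorm
  obtain ⟨hdvr, -, -⟩ := H4DVR.dvrStatement q A hA K₁ hfin
  haveI := hdvr
  obtain ⟨t', ht'coe, ht'tr, -, -⟩ :=
    H9C6e.fieldBasics N (baseKind q) (h3tau_baseKind_ok hqN hT) t₀ ht₀ K₁
  have htt' : t' = t := Subtype.ext (by rw [ht'coe, ht])
  rw [htt'] at ht'tr
  have htr : Transcendental ↥(descVal A K₁) t := H19S18.h19_transc ↥(descVal A K₁) K₁ ht'tr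
  refine h3tau_pack K₁ N q hqN hT A hA hfin ϖ hϖ t₀ ht₀ t ht τ hτ ?_
  intro x hx
  obtain ⟨ι, hι, y, hyrat, hyint, hyspan⟩ := hspan K₁ hK₀₁ hfin hnorm ϖ hϖ t₀ ht₀ t ht
  refine h3tau_final K₁ N A hϖ hτ t₀ t ht htr ⟨ι, hι, y, ?_, hyint, hyspan⟩ hx
  intro b
  obtain ⟨y₀, hy₀⟩ := hyrat b
  exact h3tau_fix K₁ N τ (y b) y₀ hy₀

end H3TAU

end
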