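/-
Item 82 (S34), slice **(TAU)**, valuation part 1 (helper3): bounded series and (GV1) for the
Gauss valuation, at ANY level.

`K` a field, `R` a valuation subring of `K` which is a DVR.  A series `x ∈ K((q))` is *bounded*
if `r x ∈ ε R((q))` for some `r ∈ R ∖ {0}`.

* `h3b_norm`  : a bounded series `x ≠ 0` is `c · ε Y` with `c ∈ Kˣ`, `ρ Y ≠ 0`;
* `h3b_quot`  : every element of `F_K(N) = K(j(q^d) : d ∣ N)` is a quotient of bounded series;
* `h3b_nf`    : (GV1, weak form) every `x ≠ 0` of `F_K(N)` satisfies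
                `x · ε Y₂ = c · ε Y₁` with `c ∈ Kˣ`, `ρ Y₁ ≠ 0`, `ρ Y₂ ≠ 0`.
No hypothesis on the level (the residue characteristic may divide `N`).
-/
import Mathlib
import Fermat.Agent.S18.GVBar_helper28

set_option autoImplicit false
set_option linter.unusedSectionVars false
set_option linter.unusedVariables false
set_option linter.style.haveILetI false

noncomputable section

namespace H3TAU

open ModularCurve HahnSeries H28GV

variable {K : Type} [Field K] (R : ValuationSubring K)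

/-- the residue reduction of integral series -/
abbrev rhoR : LaurentSeries R →+* LaurentSeries (IsLocalRing.ResidueField R) :=
  gvRho R (IsLocalRing.residue R)

theorem h3b_rho_eq_zero_iff (f : LaurentSeries R) :
    rhoR R f = 0 ↔ ∀ n, ¬ IsUnit (f.coeff n) := by
  constructor
  · intro h n
    have h1 : (rhoR R f).coeff n = 0 := by rw [h]; rfl
    rw [gvRho_coeff, IsLocalRing.residue_eq_zero_iff] at h1
    exact (IsLocalRing.mem_maximalIdeal _).1 h1
  · intro h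
    ext n
    rw [gvRho_coeff, HahnSeries.coeff_zero, IsLocalRing.residue_eq_zero_iff]
    exact (IsLocalRing.mem_maximalIdeal _).2 (h n)

theorem h3b_rho_ne_zero_iff (g : LaurentSeries R) :
    rhoR R g ≠ 0 ↔ ∃ n, IsUnit (g.coeff n) := by
  rw [Ne, h3b_rho_eq_zero_iff]
  push Not
  rfl

/-- `x` is bounded: `r x` is integral for some `r ∈ R ∖ {0}`. -/
def IsBdd (x : LaurentSeries K) : Prop :=
  ∃ r : R, r ≠ 0 ∧ ∃ Y : LaurentSeries R, HahnSeries.C (r : K) * x = gvEps R Y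

variable {R}

theorem IsBdd.of_eps (Y : LaurentSeries R) : IsBdd R (gvEps R Y) :=
  ⟨1, one_ne_zero, Y, by simp⟩

theorem IsBdd.zero : IsBdd R (0 : LaurentSeries K) := by
  have := IsBdd.of_eps (R := R) 0
  rwa [map_zero] at this

theorem IsBdd.one : IsBdd R (1 : LaurentSeries K) := by
  have := IsBdd.of_eps (R := R) 1
  rwa [map_one] at this

theorem IsBdd.add {x y : LaurentSeries K} (hx : IsBdd R x) (hy : IsBdd R y) :
    IsBdd R (x + y) := by
  obtain ⟨r, hr, X, hX⟩ := hx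
  obtain ⟨s, hs, Y, hY⟩ := hy
  refine ⟨r * s, mul_ne_zero hr hs, HahnSeries.C s * X + HahnSeries.C r * Y, ?_⟩
  rw [map_add, map_mul, map_mul, gvEps_C, gvEps_C, ← hX, ← hY]
  push_cast
  rw [map_mul]
  ring

theorem IsBdd.mul {x y : LaurentSeries K} (hx : IsBdd R x) (hy : IsBdd R y) :
    IsBdd R (x * y) := by
  obtain ⟨r, hr, X, hX⟩ := hx
  obtain ⟨s, hs, Y, hY⟩ := hy
  refine ⟨r * s, mul_ne_zero hr hs, X * Y, ?_⟩
  rw [map_mul, ← hX, ← hY]
  push_cast
  rw [map_mul]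
  ring

theorem IsBdd.neg {x : LaurentSeries K} (hx : IsBdd R x) : IsBdd R (-x) := by
  obtain ⟨r, hr, X, hX⟩ := hx
  exact ⟨r, hr, -X, by rw [map_neg, ← hX]; ring⟩

theorem IsBdd.const (c : K) : IsBdd R (HahnSeries.C c) := by
  by_cases hc0 : c = 0
  · rw [hc0, map_zero]; exact IsBdd.zero
  rcases R.mem_or_inv_mem c with h | h
  · have := IsBdd.of_eps (R := R) (HahnSeries.C ⟨c, h⟩)
    rwa [gvEps_C] at this
  · refine ⟨⟨c⁻¹, h⟩, ?_, 1, ?_⟩
    · intro h0
      have : (c⁻¹ : K) = 0 := congrArg Subtype.val h0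
      exact hc0 (inv_eq_zero.1 this)
    · rw [map_one, ← map_mul]
      show HahnSeries.C (c⁻¹ * c) = 1
      rw [inv_mul_cancel₀ hc0, map_one]

/-- dividing an integral series with zero reduction by the uniformizer -/
theorem h3b_div_unif [IsDiscreteValuationRing R] {ϖ : R} (hϖ : Irreducible ϖ)
    (Y : LaurentSeries R) (hY : rhoR R Y = 0) :
    ∃ Y' : LaurentSeries R, Y = HahnSeries.C ϖ * Y' := by
  have hϖ0 : (ϖ : K) ≠ 0 := fun h => hϖ.ne_zero (Subtype.ext h)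
  have hdiv : ∀ n, ∃ r : R, Y.coeff n = ϖ * r := by
    intro n
    have h1 := (h3b_rho_eq_zero_iff R Y).1 hY n
    have h2 : Y.coeff n ∈ IsLocalRing.maximalIdeal R := (IsLocalRing.mem_maximalIdeal _).2 h1
    rw [hϖ.maximalIdeal_eq, Ideal.mem_span_singleton'] at h2
    obtain ⟨r, hr⟩ := h2
    exact ⟨r, by rw [← hr, mul_comm]⟩
  have hmem : ∀ n, (HahnSeries.C (ϖ : K)⁻¹ * gvEps R Y).coeff n ∈ R := by
    intro n
    rw [HahnSeries.C_mul_eq_smul, HahnSeries.coeff_smul, gvEps_coeff]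
    obtain ⟨r, hr⟩ := hdiv n
    rw [hr]
    show (ϖ : K)⁻¹ * ((ϖ : K) * (r : K)) ∈ R
    rw [inv_mul_cancel_left₀ hϖ0]
    exact r.2
  obtain ⟨Y', hY'⟩ := gv_exists_eps_eq R _ hmem
  refine ⟨Y', gvEps_injective R ?_⟩
  rw [map_mul, gvEps_C, hY', ← mul_assoc, ← map_mul, mul_inv_cancel₀ hϖ0, map_one, one_mul]

/-- **normalization**: a nonzero bounded series is a constant times an integral series with
nonzero reduction. -/
theorem h3b_norm [IsDiscreteValuationRing R] {x : LaurentSeries K} (hx : x ≠ 0)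
    (hb : IsBdd R x) :
    ∃ c : K, c ≠ 0 ∧ ∃ Y : LaurentSeries R, rhoR R Y ≠ 0 ∧ x = HahnSeries.C c * gvEps R Y := by
  obtain ⟨ϖ, hϖ⟩ := IsDiscreteValuationRing.exists_irreducible R
  have hϖ0 : (ϖ : K) ≠ 0 := fun h => hϖ.ne_zero (Subtype.ext h)
  -- the key induction
  have key : ∀ (k : ℕ) (n₀ : ℤ) (Y : LaurentSeries R), ¬ ϖ ^ (k + 1) ∣ Y.coeff n₀ →
      ∃ (j : ℕ) (Y' : LaurentSeries R), rhoR R Y' ≠ 0 ∧ Y = HahnSeries.C (ϖ ^ j) * Y' := by
    intro k
    induction k with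
    | zero =>
      intro n₀ Y h
      refine ⟨0, Y, ?_, by simp⟩
      rw [h3b_rho_ne_zero_iff]
      refine ⟨n₀, ?_⟩
      by_contra hu
      have h2 : Y.coeff n₀ ∈ IsLocalRing.maximalIdeal R := (IsLocalRing.mem_maximalIdeal _).2 hu
      rw [hϖ.maximalIdeal_eq, Ideal.mem_span_singleton] at h2
      exact h (by simpa using h2)
    | succ k ih =>
      intro n₀ Y h
      by_cases hρ : rhoR R Y = 0
      · obtain ⟨Y₁, hY₁⟩ := h3b_div_unif hϖ Y hρ
        have h1 : ¬ ϖ ^ (k + 1) ∣ Y₁.coeff n₀ := by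
          intro hd
          apply h
          rw [hY₁, HahnSeries.C_mul_eq_smul, HahnSeries.coeff_smul, smul_eq_mul, pow_succ']
          exact mul_dvd_mul_left ϖ hd
        obtain ⟨j, Y', hY', hj⟩ := ih n₀ Y₁ h1
        refine ⟨j + 1, Y', hY', ?_⟩
        rw [hY₁, hj, pow_succ', map_mul, mul_assoc]
      · exact ⟨0, Y, hρ, by simp⟩
  obtain ⟨r, hr, Y, hY⟩ := hb
  have hr0 : (r : K) ≠ 0 := fun h => hr (Subtype.ext h)
  have hCr : HahnSeries.C (r : K) ≠ (0 : LaurentSeries K) := by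
    intro h
    have h' := congrArg (fun z : LaurentSeries K => z.coeff 0) h
    simp only [HahnSeries.C_apply, HahnSeries.coeff_single_same, HahnSeries.coeff_zero] at h'
    exact hr0 h'
  have hY0 : Y ≠ 0 := by
    intro h
    rw [h, map_zero] at hY
    rcases mul_eq_zero.1 hY with h1 | h1
    · exact hCr h1
    · exact hx h1
  obtain ⟨n₀, hn₀⟩ : ∃ n₀, Y.coeff n₀ ≠ 0 := by
    by_contra h
    push Not at h
    exact hY0 (HahnSeries.ext (funext h))
  have hfin : FiniteMultiplicity ϖ (Y.coeff n₀) :=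
    FiniteMultiplicity.of_not_isUnit hϖ.not_isUnit hn₀
  obtain ⟨k, hk⟩ := hfin
  obtain ⟨j, Y', hY', hj⟩ := key k n₀ Y hk
  refine ⟨(r : K)⁻¹ * (ϖ : K) ^ j, mul_ne_zero (inv_ne_zero hr0) (pow_ne_zero _ hϖ0), Y', hY', ?_⟩
  have h1 : gvEps R Y = HahnSeries.C ((ϖ : K) ^ j) * gvEps R Y' := by
    rw [hj, map_mul, gvEps_C]
    push_cast
    rfl
  rw [map_mul, mul_assoc, ← h1, ← hY, ← mul_assoc, ← map_mul, inv_mul_cancel₀ hr0, map_one,
    one_mul]

variable (R)

/-- every element of `F_K(N)` is a quotient of bounded series. -/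
theorem h3b_quot (N : ℕ) [NeZero N] (x : LaurentSeries K)
    (hx : x ∈ modularFunctionFieldFullC K N) :
    ∃ a b : LaurentSeries K, IsBdd R a ∧ IsBdd R b ∧ b ≠ 0 ∧ x * b = a := by
  have hx' : x ∈ IntermediateField.adjoin K (divisorExpansionsC K N) := hx
  induction hx' using IntermediateField.adjoin_induction with
  | mem y hy =>
    obtain ⟨d, hne, hdvd, rfl⟩ := hy
    have := hne
    refine ⟨qExpand K d (jqModC K), 1, ?_, IsBdd.one, one_ne_zero, mul_one _⟩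
    rw [← gvEps_jd R d]
    exact IsBdd.of_eps _
  | algebraMap c =>
    refine ⟨algebraMap K (LaurentSeries K) c, 1, ?_, IsBdd.one, one_ne_zero, mul_one _⟩
    have : algebraMap K (LaurentSeries K) c = HahnSeries.C c := by
      rw [algebraMap_laurentSeries_eq_single]
      rfl
    rw [this]
    exact IsBdd.const c
  | add y z hy hz ihy ihz =>
    obtain ⟨a, b, ha, hb, hb0, h⟩ := ihy hy
    obtain ⟨a', b', ha', hb', hb0', h'⟩ := ihz hz
    refine ⟨a * b' + a' * b, b * b', (ha.mul hb').add (ha'.mul hb), hb.mul hb',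
      mul_ne_zero hb0 hb0', ?_⟩
    rw [← h, ← h']
    ring
  | inv y hy ihy =>
    obtain ⟨a, b, ha, hb, hb0, h⟩ := ihy hy
    by_cases hy0 : y = 0
    · exact ⟨0, 1, IsBdd.zero, IsBdd.one, one_ne_zero, by rw [hy0, inv_zero, zero_mul]⟩
    · have ha0 : a ≠ 0 := by
        rw [← h]
        exact mul_ne_zero hy0 hb0
      refine ⟨b, a, hb, ha, ha0, ?_⟩
      rw [← h, ← mul_assoc, inv_mul_cancel₀ hy0, one_mul]
  | mul y z hy hz ihy ihz =>
    obtain ⟨a, b, ha, hb, hb0, h⟩ := ihy hy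
    obtain ⟨a', b', ha', hb', hb0', h'⟩ := ihz hz
    refine ⟨a * a', b * b', ha.mul ha', hb.mul hb', mul_ne_zero hb0 hb0', ?_⟩
    rw [← h, ← h']
    ring

/-- **(GV1), weak form, at any level**: every nonzero element of `F_K(N)` is
`c · ε Y₁ / ε Y₂` with `c ∈ Kˣ`, `ρ Y₁ ≠ 0`, `ρ Y₂ ≠ 0`. -/
theorem h3b_nf [IsDiscreteValuationRing R] (N : ℕ) [NeZero N] (x : LaurentSeries K)
    (hx : x ∈ modularFunctionFieldFullC K N) (hx0 : x ≠ 0) :
    ∃ (c : K) (Y₁ Y₂ : LaurentSeries R), c ≠ 0 ∧ rhoR R Y₁ ≠ 0 ∧ rhoR R Y₂ ≠ 0 ∧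
      x * gvEps R Y₂ = HahnSeries.C c * gvEps R Y₁ := by
  obtain ⟨a, b, ha, hb, hb0, h⟩ := h3b_quot R N x hx
  have ha0 : a ≠ 0 := by
    rw [← h]
    exact mul_ne_zero hx0 hb0
  obtain ⟨c₁, hc₁, Y₁, hY₁, rfl⟩ := h3b_norm ha0 ha
  obtain ⟨c₂, hc₂, Y₂, hY₂, rfl⟩ := h3b_norm hb0 hb
  refine ⟨c₁ / c₂, Y₁, Y₂, div_ne_zero hc₁ hc₂, hY₁, hY₂, ?_⟩
  have hC : HahnSeries.C c₂ ≠ (0 : LaurentSeries K) := by
    intro h0
    have h' := congrArg (fun z : LaurentSeries K => z.coeff 0) h0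
    simp only [HahnSeries.C_apply, HahnSeries.coeff_single_same, HahnSeries.coeff_zero] at h'
    exact hc₂ h'
  have h2 : HahnSeries.C c₂ * (x * gvEps R Y₂) = HahnSeries.C c₂ *
      (HahnSeries.C (c₁ / c₂) * gvEps R Y₁) := by
    rw [← mul_assoc (HahnSeries.C c₂) (HahnSeries.C (c₁ / c₂)), ← map_mul,
      mul_div_cancel₀ _ hc₂, ← h]
    ring
  exact mul_left_cancel₀ hC h2

end H3TAU

end
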