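/-
Item 82 (S34), slice **(TAU)**, valuation part 2 (helper3): an inertial automorphism of the
coefficient field acts trivially on the residue field of the Gauss valuation and preserves it.

`K` a field, `R` a valuation subring (a DVR), `σ : K ≃+* K` with `σ R = R` and `σ r ≡ r mod 𝔪_R`.
With `InG`, `InGm` of `H8PB` (Gauss ring of `R` in `K((q))` and its maximal ideal):

* `h3v_inGm_sub` : `InG x → InGm (σ x - x)`                          (`σ` coefficientwise);
* `h3v_inG_div`  : `x ∈ F_K(N)`, `x ≠ 0`  ⟹  `InG (σ x / x)`          (any level `N`).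
-/
import Mathlib
import Fermat.Agent.S34.TauBdd_helper3
import Fermat.Agent.S34.PairDefs_helper8

set_option autoImplicit false
set_option linter.unusedSectionVars false
set_option linter.unusedVariables false
set_option linter.style.haveILetI false

noncomputable section

namespace H3TAU

open ModularCurve HahnSeries H28GV H8PB

variable {K : Type} [Field K] (R : ValuationSubring K)

/-- `σ` preserves `R` (in both directions) and is trivial on the residue field. -/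
structure IsInertialK (σ : K ≃+* K) : Prop where
  mem : ∀ r : K, r ∈ R → σ r ∈ R
  mem_symm : ∀ r : K, r ∈ R → σ.symm r ∈ R
  cong : ∀ r : K, r ∈ R → σ r - r ∈ R.nonunits

variable {R} {σ : K ≃+* K}

/-- the action of `σ` on `R` -/
def sigR (h : IsInertialK R σ) : R →+* R where
  toFun r := ⟨σ (r : K), h.mem _ r.2⟩
  map_one' := Subtype.ext (map_one σ)
  map_mul' a b := Subtype.ext (map_mul σ _ _)
  map_zero' := Subtype.ext (map_zero σ)
  map_add' a b := Subtype.ext (map_add σ _ _)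

theorem h3v_eps_sig (h : IsInertialK R σ) (Y : LaurentSeries R) :
    gvEps R (coeffMap (sigR h) Y) = coeffMap (σ : K →+* K) (gvEps R Y) := by
  ext n
  rfl

theorem h3v_residue_sig (h : IsInertialK R σ) (r : R) :
    IsLocalRing.residue R (sigR h r) = IsLocalRing.residue R r := by
  rw [← sub_eq_zero, ← map_sub, IsLocalRing.residue_eq_zero_iff,
    ← ValuationSubring.coe_mem_nonunits_iff]
  exact h.cong _ r.2

theorem h3v_rho_sig (h : IsInertialK R σ) (Y : LaurentSeries R) :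
    rhoR R (coeffMap (sigR h) Y) = rhoR R Y := by
  ext n
  rw [gvRho_coeff, gvRho_coeff, coeffMap_coeff, h3v_residue_sig]

/-- `InG` in terms of `ε`, `ρ` -/
theorem h3v_inG_iff (x : LaurentSeries K) :
    InG R x ↔ ∃ f g : LaurentSeries R, rhoR R g ≠ 0 ∧ x * gvEps R g = gvEps R f := by
  constructor
  · rintro ⟨f, g, hg, h⟩
    exact ⟨f, g, (h3b_rho_ne_zero_iff R g).2 hg, h⟩
  · rintro ⟨f, g, hg, h⟩
    exact ⟨f, g, (h3b_rho_ne_zero_iff R g).1 hg, h⟩

/-- `InGm` in terms of `ε`, `ρ` -/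
theorem h3v_inGm_iff (x : LaurentSeries K) :
    InGm R x ↔ ∃ f g : LaurentSeries R, rhoR R g ≠ 0 ∧ rhoR R f = 0 ∧
      x * gvEps R g = gvEps R f := by
  constructor
  · rintro ⟨f, g, hg, hf, h⟩
    exact ⟨f, g, (h3b_rho_ne_zero_iff R g).2 hg, (h3b_rho_eq_zero_iff R f).2 hf, h⟩
  · rintro ⟨f, g, hg, hf, h⟩
    exact ⟨f, g, (h3b_rho_ne_zero_iff R g).1 hg, (h3b_rho_eq_zero_iff R f).1 hf, h⟩

/-- **`σ` is trivial on the residue field of the Gauss valuation.** -/
theorem h3v_inGm_sub (h : IsInertialK R σ) {x : LaurentSeries K} (hx : InG R x) :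
    InGm R (coeffMap (σ : K →+* K) x - x) := by
  rw [h3v_inG_iff] at hx
  obtain ⟨f, g, hg, hfg⟩ := hx
  rw [h3v_inGm_iff]
  have h1 : coeffMap (σ : K →+* K) x * gvEps R (coeffMap (sigR h) g) =
      gvEps R (coeffMap (sigR h) f) := by
    rw [h3v_eps_sig, h3v_eps_sig, ← map_mul, hfg]
  refine ⟨coeffMap (sigR h) f * g - f * coeffMap (sigR h) g, g * coeffMap (sigR h) g, ?_, ?_, ?_⟩
  · rw [map_mul, h3v_rho_sig]
    exact mul_ne_zero hg hg
  · rw [map_sub, map_mul, map_mul, h3v_rho_sig, h3v_rho_sig, sub_self]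
  · rw [map_sub, map_mul, map_mul, map_mul, ← h1, ← hfg]
    ring

/-- `σ r / r` and `r / σ r` lie in `R` for `r ∈ R ∖ {0}`. -/
theorem h3v_sig_div_mem_of_mem [IsDiscreteValuationRing R] (h : IsInertialK R σ) (r : R)
    (hr : r ≠ 0) : σ (r : K) / r ∈ R ∧ (r : K) / σ (r : K) ∈ R := by
  obtain ⟨ϖ, hϖ⟩ := IsDiscreteValuationRing.exists_irreducible R
  have hϖ0 : (ϖ : K) ≠ 0 := fun h0 => hϖ.ne_zero (Subtype.ext h0)
  have hσϖ0 : σ (ϖ : K) ≠ 0 := fun h0 => hϖ0 ((map_eq_zero_iff σ σ.injective).1 h0)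
  -- units go to units
  have hunit : ∀ u : Rˣ, σ ((u : R) : K) / ((u : R) : K) ∈ R ∧
      ((u : R) : K) / σ ((u : R) : K) ∈ R := by
    intro u
    have hu0 : ((u : R) : K) ≠ 0 := fun h0 => u.ne_zero (Subtype.ext h0)
    have hinv : (((u⁻¹ : Rˣ) : R) : K) = (((u : R) : K))⁻¹ := by
      have h1 : ((u⁻¹ : Rˣ) : R) * (u : R) = 1 := by simp
      have h2 : (((u⁻¹ : Rˣ) : R) : K) * ((u : R) : K) = 1 := by
        exact_mod_cast congrArg Subtype.val h1
      exact eq_inv_of_mul_eq_one_left h2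
    constructor
    · rw [div_eq_mul_inv, ← hinv]
      exact R.mul_mem _ _ (h.mem _ (u : R).2) ((u⁻¹ : Rˣ) : R).2
    · rw [div_eq_mul_inv, ← map_inv₀, ← hinv]
      exact R.mul_mem _ _ (u : R).2 (h.mem _ ((u⁻¹ : Rˣ) : R).2)
  -- the uniformizer
  have hmax : ∀ m : K, m ∈ R.nonunits → ∃ b : R, m = ϖ * b := by
    intro m hm
    have hmR : m ∈ R := R.nonunits_le hm
    have h2 : (⟨m, hmR⟩ : R) ∈ IsLocalRing.maximalIdeal R :=
      (ValuationSubring.coe_mem_nonunits_iff (A := R) (a := ⟨m, hmR⟩)).1 hm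
    rw [hϖ.maximalIdeal_eq, Ideal.mem_span_singleton'] at h2
    obtain ⟨b, hb⟩ := h2
    refine ⟨b, ?_⟩
    have := congrArg Subtype.val hb
    simp only [MulMemClass.coe_mul] at this
    rw [← this, mul_comm]
  have hϖnu : (ϖ : K) ∈ R.nonunits :=
    (ValuationSubring.coe_mem_nonunits_iff (A := R) (a := ϖ)).2
      ((IsLocalRing.mem_maximalIdeal _).2 hϖ.not_isUnit)
  have hσϖ : σ (ϖ : K) ∈ R.nonunits := by
    have h1 := h.cong _ ϖ.2
    have h2 : (⟨σ (ϖ : K) - ϖ, R.nonunits_le h1⟩ : R) ∈ IsLocalRing.maximalIdeal R :=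
      (ValuationSubring.coe_mem_nonunits_iff (A := R)).1 h1
    have h3 : ϖ ∈ IsLocalRing.maximalIdeal R := (IsLocalRing.mem_maximalIdeal _).2 hϖ.not_isUnit
    have h4 := Ideal.add_mem _ h2 h3
    have h5 : (⟨σ (ϖ : K) - ϖ, R.nonunits_le h1⟩ : R) + ϖ = ⟨σ (ϖ : K), h.mem _ ϖ.2⟩ :=
      Subtype.ext (by simp)
    rw [h5] at h4
    exact (ValuationSubring.coe_mem_nonunits_iff (A := R) (a := ⟨σ (ϖ : K), h.mem _ ϖ.2⟩)).2 h4
  have hσsϖ : σ.symm (ϖ : K) ∈ R.nonunits := by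
    have hmem := h.mem_symm _ ϖ.2
    rw [ValuationSubring.mem_nonunits_iff_or]
    right
    intro hinv
    -- then `ϖ⁻¹ = σ ((σ.symm ϖ)⁻¹) ∈ R`
    have h1 := h.mem _ hinv
    rw [map_inv₀, RingEquiv.apply_symm_apply] at h1
    have h2 : (ϖ : K) ∉ R.nonunits := by
      rw [ValuationSubring.mem_nonunits_iff_or]
      push Not
      exact ⟨hϖ0, h1⟩
    exact h2 hϖnu
  obtain ⟨b, hb⟩ := hmax _ hσϖ
  obtain ⟨b', hb'⟩ := hmax _ hσsϖ
  have ha : σ (ϖ : K) / ϖ ∈ R := by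
    rw [hb, mul_div_cancel_left₀ _ hϖ0]
    exact b.2
  have ha' : (ϖ : K) / σ (ϖ : K) ∈ R := by
    have h1 : (ϖ : K) = σ (ϖ : K) * σ (b' : K) := by
      rw [← map_mul, ← hb', RingEquiv.apply_symm_apply]
    have h2 : (ϖ : K) / σ (ϖ : K) = σ (b' : K) := by
      rw [div_eq_iff hσϖ0, mul_comm]
      exact h1
    rw [h2]
    exact h.mem _ b'.2
  obtain ⟨n, u, hru⟩ := IsDiscreteValuationRing.eq_unit_mul_pow_irreducible hr hϖ
  have hrK : (r : K) = ((u : R) : K) * (ϖ : K) ^ n := by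
    rw [hru]
    push_cast
    rfl
  have hu0 : ((u : R) : K) ≠ 0 := fun h0 => u.ne_zero (Subtype.ext h0)
  have hσu0 : σ ((u : R) : K) ≠ 0 := fun h0 => hu0 ((map_eq_zero_iff σ σ.injective).1 h0)
  constructor
  · have e : σ (r : K) / r = (σ ((u : R) : K) / ((u : R) : K)) * (σ (ϖ : K) / ϖ) ^ n := by
      rw [hrK, map_mul, map_pow, div_pow]
      field_simp
    rw [e]
    exact R.mul_mem _ _ (hunit u).1 (pow_mem ha n)
  · have e : (r : K) / σ (r : K) =
        (((u : R) : K) / σ ((u : R) : K)) * ((ϖ : K) / σ (ϖ : K)) ^ n := by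
      rw [hrK, map_mul, map_pow, div_pow]
      field_simp
    rw [e]
    exact R.mul_mem _ _ (hunit u).2 (pow_mem ha' n)

/-- `σ` preserves the valuation of `K`: `σ c / c ∈ R` for `c ≠ 0`. -/
theorem h3v_sig_div_mem [IsDiscreteValuationRing R] (h : IsInertialK R σ) (c : K) (hc : c ≠ 0) :
    σ c / c ∈ R := by
  rcases R.mem_or_inv_mem c with h1 | h1
  · exact (h3v_sig_div_mem_of_mem h ⟨c, h1⟩ (fun h0 => hc (congrArg Subtype.val h0))).1
  · have h2 := (h3v_sig_div_mem_of_mem h ⟨c⁻¹, h1⟩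
      (fun h0 => hc (inv_eq_zero.1 (congrArg Subtype.val h0)))).2
    have e : (c⁻¹ : K) / σ (c⁻¹ : K) = σ c / c := by
      rw [map_inv₀]
      field_simp
    rw [← e]
    exact h2

theorem h3v_coeffMap_C (τ : K →+* K) (c : K) :
    coeffMap τ (HahnSeries.C c : LaurentSeries K) = HahnSeries.C (τ c) := by
  show coeffMap τ (HahnSeries.single 0 c) = HahnSeries.single 0 (τ c)
  rw [coeffMap_single]

/-- **`σ` preserves the Gauss valuation** on `F_K(N)`, at any level `N`. -/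
theorem h3v_inG_div [IsDiscreteValuationRing R] (h : IsInertialK R σ) (N : ℕ) [NeZero N]
    (x : LaurentSeries K) (hx : x ∈ modularFunctionFieldFullC K N) (hx0 : x ≠ 0) :
    InG R (coeffMap (σ : K →+* K) x / x) := by
  obtain ⟨c, Y₁, Y₂, hc, hY₁, hY₂, hrel⟩ := h3b_nf R N x hx hx0
  rw [h3v_inG_iff]
  have hu := h3v_sig_div_mem h c hc
  have h1 : coeffMap (σ : K →+* K) x * gvEps R (coeffMap (sigR h) Y₂) =
      HahnSeries.C (σ c) * gvEps R (coeffMap (sigR h) Y₁) := by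
    rw [h3v_eps_sig, h3v_eps_sig, ← map_mul, hrel, map_mul, h3v_coeffMap_C]
    rfl
  refine ⟨HahnSeries.C ⟨σ c / c, hu⟩ * coeffMap (sigR h) Y₁ * Y₂, coeffMap (sigR h) Y₂ * Y₁,
    ?_, ?_⟩
  · rw [map_mul, h3v_rho_sig]
    exact mul_ne_zero hY₂ hY₁
  · rw [div_mul_eq_mul_div, div_eq_iff hx0, map_mul, map_mul, map_mul, gvEps_C]
    have e1 : coeffMap (σ : K →+* K) x * (gvEps R (coeffMap (sigR h) Y₂) * gvEps R Y₁) =
        HahnSeries.C (σ c) * gvEps R (coeffMap (sigR h) Y₁) * gvEps R Y₁ := by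
      rw [← mul_assoc, h1]
    have e2 : HahnSeries.C (σ c / c) * gvEps R (coeffMap (sigR h) Y₁) * gvEps R Y₂ * x =
        HahnSeries.C (σ c / c) * gvEps R (coeffMap (sigR h) Y₁) * (x * gvEps R Y₂) := by ring
    rw [e1]
    show _ = HahnSeries.C (σ c / c) * gvEps R (coeffMap (sigR h) Y₁) * gvEps R Y₂ * x
    rw [e2, hrel]
    have e3 : HahnSeries.C (σ c / c) * gvEps R (coeffMap (sigR h) Y₁) *
        (HahnSeries.C c * gvEps R Y₁) = (HahnSeries.C (σ c / c) * HahnSeries.C c) *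
          gvEps R (coeffMap (sigR h) Y₁) * gvEps R Y₁ := by ring
    rw [e3, ← map_mul, div_mul_cancel₀ _ hc]

end H3TAU

end
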