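/-
Item 82 (S34), slice **(TAU)**: `H4S34.TauStatement` from (I1) = `H8PB.PairGaussStatement`
(helper3).

`H3TAU.tau_of_pairGauss : H8PB.PairGaussStatement → H4S34.TauStatement`.

`τ₁ = H3TAU.tau1 K₁ N τ` (coefficientwise action of `τ|K₁`); it commutes with the Atkin–Lehner
automorphism `w` (helper12), is trivial on the residue field of the Gauss valuation
(`h3v_inGm_sub`) and preserves the Gauss valuation (`h3v_inG_div`); by (I1),
`O = O_{w₁} ∩ O_{w₂}` and `ϖ O = 𝔭₁ ∩ 𝔭₂`.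
-/
import Mathlib
import Fermat.Agent.S34.Defs_helper4
import Fermat.Agent.S34.TauFinal_helper3
import Fermat.Agent.S34.TauVal_helper3

set_option autoImplicit false
set_option linter.unusedSectionVars false
set_option linter.unusedVariables false
set_option linter.style.haveILetI false
set_option linter.overlappingInstances false
set_option synthInstance.maxHeartbeats 400000
set_option maxHeartbeats 1000000

noncomputable section

namespace H3TAU

open ModularCurve H7S18 H4S34 H8PB H28GV Polynomial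

local notation "Qb" => AlgebraicClosure ℚ

variable (K₁ : IntermediateField ℚ Qb) [Normal ℚ K₁]

/-- `τ|K₁` as a ring automorphism of `K₁` -/
def resKR (τ : Qb ≃ₐ[ℚ] Qb) : K₁ ≃+* K₁ := (resK K₁ τ).toRingEquiv

theorem resKR_apply (τ : Qb ≃ₐ[ℚ] Qb) (a : K₁) : resKR K₁ τ a = resK K₁ τ a := rfl

theorem resKR_symm_apply (τ : Qb ≃ₐ[ℚ] Qb) (a : K₁) :
    (resKR K₁ τ).symm a = (resK K₁ τ).symm a := rfl

/-- for `τ` in the inertia group of `A`, `τ|K₁` is inertial for `R = A ∩ K₁`. -/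
theorem h3tau_isInertialK (A : ValuationSubring Qb) {τ : Qb ≃ₐ[ℚ] Qb}
    (hτ : τ ∈ A.inertiaSubgroupIn ℚ) : IsInertialK (descVal A K₁) (resKR K₁ τ) where
  mem r hr := resK_mem A (Fermat.Agent.H9.h9_inertia_mem_decomposition A hτ) ⟨r, hr⟩
  mem_symm r hr := by
    show algebraMap K₁ Qb ((resK K₁ τ).symm r) ∈ A
    rw [resK_symm_commutes]
    have h1 : τ.symm ∈ A.decompositionSubgroup ℚ :=
      inv_mem (Fermat.Agent.H9.h9_inertia_mem_decomposition A hτ)
    exact Fermat.Agent.H9.h9_decomposition_apply_mem A h1 hr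
  cong r hr := by
    have h1 := tauR_sub_mem (K₁ := K₁) A hτ ⟨r, hr⟩
    exact (ValuationSubring.coe_mem_nonunits_iff (A := descVal A K₁)).2 h1

/-- **(TAU)** from (I1). -/
theorem tau_of_pairGauss (hPG : PairGaussStatement) : TauStatement := by
  intro N _ q _ hqN hq2 hT A hA
  refine ⟨⊥, ?_, ?_⟩
  · exact IntermediateField.instFiniteSubtypeMemBot ℚ
  intro K₁ _ hfin hnorm _ _ ϖ hϖ t₀ ht₀ t ht τ hτ
  haveI := hnorm
  refine h3tau_pack K₁ N q hqN hT A hA hfin ϖ hϖ t₀ ht₀ t ht τ hτ ?_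
  have hq : q.Prime := Fact.out
  -- `N = M * q`
  obtain ⟨M, hM⟩ := hqN
  have hN : N = M * q := by rw [hM, mul_comm]
  subst hN
  have hM0 : M ≠ 0 := by
    rintro rfl
    exact (NeZero.ne (0 * q)) (zero_mul q)
  haveI : NeZero M := ⟨hM0⟩
  haveI : NeZero q := ⟨hq.ne_zero⟩
  have hqM : ¬ q ∣ M := by
    intro hd
    apply hq2
    rw [pow_two]
    exact mul_dvd_mul_right hd q
  have hT' : TameLevel q M := by
    rwa [Nat.mul_div_cancel _ hq.pos] at hT
  obtain ⟨hdvr, -, -⟩ := H4DVR.dvrStatement q A hA K₁ hfin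
  haveI := hdvr
  have hin := h3tau_isInertialK K₁ A hτ
  -- the two parts of (I1)
  have hPG1 := fun x => (hPG M q hq hqM hT' A hA K₁ hfin ϖ hϖ t₀ ht₀ t ht x).1
  have hPG2 := fun x => (hPG M q hq hqM hT' A hA K₁ hfin ϖ hϖ t₀ ht₀ t ht x).2
  -- `τ₁` commutes with `w`
  have hw : ∀ x : FK K₁ (M * q),
      ((H12AL.wqKHom K₁ M q hq hqM (tau1 K₁ (M * q) τ x) : FK K₁ (M * q)) : LaurentSeries K₁) =
        coeffMap ((resKR K₁ τ : K₁ ≃+* K₁) : K₁ →+* K₁)
          ((H12AL.wqKHom K₁ M q hq hqM x : FK K₁ (M * q)) : LaurentSeries K₁) := by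
    intro x
    exact H12AL.wqKHom_galois K₁ M q hq hqM τ ((resKR K₁ τ : K₁ ≃+* K₁) : K₁ →+* K₁)
      (fun c => resK_commutes K₁ τ c) x (tau1 K₁ (M * q) τ x) rfl
  have hcoe : ∀ x : FK K₁ (M * q), ((tau1 K₁ (M * q) τ x : FK K₁ (M * q)) : LaurentSeries K₁) =
      coeffMap ((resKR K₁ τ : K₁ ≃+* K₁) : K₁ →+* K₁) (x : LaurentSeries K₁) := fun x => rfl
  intro x hx
  obtain ⟨hx1, hx2⟩ := (hPG1 x).1 hx
  have h1 : InGm (descVal A K₁)
      (((tau1 K₁ (M * q) τ x - x : FK K₁ (M * q)) : FK K₁ (M * q)) : LaurentSeries K₁) := by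
    have := h3v_inGm_sub hin hx1
    rw [← hcoe] at this
    exact this
  have h2 : InGm (descVal A K₁)
      ((H12AL.wqKHom K₁ M q hq hqM (tau1 K₁ (M * q) τ x - x) : FK K₁ (M * q)) :
        LaurentSeries K₁) := by
    have := h3v_inGm_sub hin hx2
    rw [← hw] at this
    rw [map_sub]
    exact this
  obtain ⟨z, hz, hzeq⟩ := hPG2 _ h1 h2
  exact ⟨z, hz, by rw [← hzeq, sub_zero]⟩

end H3TAU

end
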