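import Mathlib
import Fermat.Agent.S34.Chain_helper4
import Fermat.Agent.S34.DichAsm_helper22
import Fermat.Agent.S34.TauPG_helper3
import Fermat.Agent.S34.PairGaussFinal_helper8

/-!
# Item 82 (S34), architect file (helper4): the chain, second half

(I1) `H8PB.h8pg_pairGauss` (helper8) is proved, hence (TAU) (`H3TAU.tau_of_pairGauss`, helper3);
(DICH) is reduced by `H22DA.dichStatement` (helper22 + helper26) to the five concrete
statements `CompUnif1/2`, `CompTransv`, `CompVert`, `CompCusp` of `S34/DichDefs_helper26.lean`.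
-/

set_option autoImplicit false
set_option linter.style.haveILetI false

noncomputable section

open H7S18

namespace H4S34

/-- (TAU), unconditional. -/
theorem tauStatement : TauStatement := H3TAU.tau_of_pairGauss H8PB.h8pg_pairGauss

/-- (DICH) from the five concrete statements. -/
theorem dich_of_comp (cu1 : H26DI.CompUnif1Statement) (cu2 : H26DI.CompUnif2Statement)
    (ctr : H26DI.CompTransvStatement) (cv : H26DI.CompVertStatement)
    (cc : H26DI.CompCuspStatement) : DichStatement :=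
  H22DA.dichStatement H8PB.h8pg_pairGauss cu1 cu2 ctr cv cc

variable {p : ℕ} {N : ℕ} [NeZero N] {S : Finset ℕ}
  {𝒪 : Type} [CommRing 𝒪] [IsDomain 𝒪] [IsDiscreteValuationRing 𝒪]
  [IsAdicComplete (IsLocalRing.maximalIdeal 𝒪) 𝒪]
  {θ : CuspForm.heckeAlgebra N 2 (↑S : Set ℕ) →+* IsLocalRing.ResidueField 𝒪}
  {T : Type} [CommRing T] [IsLocalRing T] [IsNoetherianRing T]
  [IsAdicComplete (IsLocalRing.maximalIdeal T) T] [Algebra 𝒪 T] [IsLocalHom (algebraMap 𝒪 T)]
  [Module.Finite 𝒪 T] [Module.Free 𝒪 T]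

/-- **S34** from the five concrete statements of (DICH). -/
theorem s34_of_comp (cu1 : H26DI.CompUnif1Statement) (cu2 : H26DI.CompUnif2Statement)
    (ctr : H26DI.CompTransvStatement) (cv : H26DI.CompVertStatement)
    (cc : H26DI.CompCuspStatement)
    (hp : p.Prime) (hp𝒪 : (p : 𝒪) ∈ IsLocalRing.maximalIdeal 𝒪) (hpS : p ∈ S)
    (hNS : ∀ q : ℕ, q.Prime → q ∣ N → q ∈ S)
    (H : CuspForm.HeckeGaloisRepDatum N (↑S : Set ℕ) 𝒪 θ T)
    (q : ℕ) (hq : q.Prime) (hqp : q ≠ p) (hqN : q ∣ N) (hq2 : ¬ q ^ 2 ∣ N) :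
    H.ρ.IsUnipotentOnInertiaAt q :=
  s34_of_dich_tau (dich_of_comp cu1 cu2 ctr cv cc) tauStatement hp hp𝒪 hpS hNS H q hq hqp
    hqN hq2

end H4S34

end
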