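import Mathlib
import Fermat.Agent.S34.DichDefs_helper26

/-!
# Item 82 (S34), architect file (helper4): the slice (CUSP0)

For `q ∈ {2, 3}` the base function `t` is a Hauptmodul of level `3` resp. `2` (kinds `3`, `2`),
and the chart `t` contains the cusps over `t = 0`.  (CUSP0): such a closed point does not lie on
both components (`j = (t+27)(t+243)³/t³` resp. `(t+256)³/t²` has a pole there; apply
`H27CS.cusp_not_both`).  Consumers: (I3) `CompTransv` (`hwt`), (I4) `CompVert`, (E) `CompUnif2`: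
at the common points of the chart `t` one has `t ∉ 𝔫`, so `t⁻¹ ∈ B_𝔫`.
-/

set_option autoImplicit false
set_option synthInstance.maxHeartbeats 400000
set_option linter.unusedVariables false

noncomputable section

open ModularCurve H7S18 H4S34

namespace H4S34

/-- **(CUSP0)**: for `q ∈ {2, 3}` no closed point of the chart `t` over `t = 0` lies on both
components. -/
def CompCusp0Statement : Prop :=
  ∀ (M : ℕ) [NeZero M] (q : ℕ) [NeZero q] (hq : q.Prime) (hqM : ¬ q ∣ M) (_ : TameLevel q M)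
    (_ : q = 2 ∨ q = 3)
    (A : ValuationSubring (AlgebraicClosure ℚ)) (_ : A.LiesOverPrime q)
    (K₁ : IntermediateField ℚ (AlgebraicClosure ℚ)) (_ : FiniteDimensional ℚ K₁)
    [Algebra ↥(descVal A K₁) (FK K₁ (M * q))]
    [IsScalarTower ↥(descVal A K₁) K₁ (FK K₁ (M * q))]
    (ϖ : ↥(descVal A K₁)) (_ : Irreducible ϖ)
    (t₀ : LaurentSeries ℚ) (_ : IsBase (baseKind q) t₀)
    (t : FK K₁ (M * q)) (_ : (t : LaurentSeries K₁) = coeffEmb K₁ t₀)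
    (P₁ P₂ : Ideal (Chart ↥(descVal A K₁) t)) (_ : H26DI.IsComp1 A K₁ t P₁)
    (_ : H26DI.IsComp2 hq hqM A K₁ t P₂)
    (𝔫 : Ideal (Chart ↥(descVal A K₁) t)) (_ : IsClosedPt ↥(descVal A K₁) ϖ t 𝔫)
    (_ : ∀ y : Chart ↥(descVal A K₁) t, (y : FK K₁ (M * q)) = t → y ∈ 𝔫),
    ¬ (P₁ ≤ 𝔫 ∧ P₂ ≤ 𝔫)

/-- consequence used by the consumers: at a common point of the chart `t` (`q ∈ {2,3}`), the
element `t` of the chart ring is not in `𝔫`. -/
theorem t_notMem_of_cusp0 (h : CompCusp0Statement)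
    (M : ℕ) [NeZero M] (q : ℕ) [NeZero q] (hq : q.Prime) (hqM : ¬ q ∣ M) (hT : TameLevel q M)
    (h23 : q = 2 ∨ q = 3)
    (A : ValuationSubring (AlgebraicClosure ℚ)) (hA : A.LiesOverPrime q)
    (K₁ : IntermediateField ℚ (AlgebraicClosure ℚ)) (hK₁ : FiniteDimensional ℚ K₁)
    [Algebra ↥(descVal A K₁) (FK K₁ (M * q))]
    [IsScalarTower ↥(descVal A K₁) K₁ (FK K₁ (M * q))]
    (ϖ : ↥(descVal A K₁)) (hϖ : Irreducible ϖ)
    (t₀ : LaurentSeries ℚ) (ht₀ : IsBase (baseKind q) t₀)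
    (t : FK K₁ (M * q)) (ht : (t : LaurentSeries K₁) = coeffEmb K₁ t₀)
    (P₁ P₂ : Ideal (Chart ↥(descVal A K₁) t)) (h1 : H26DI.IsComp1 A K₁ t P₁)
    (h2 : H26DI.IsComp2 hq hqM A K₁ t P₂)
    (𝔫 : Ideal (Chart ↥(descVal A K₁) t)) (h𝔫 : IsClosedPt ↥(descVal A K₁) ϖ t 𝔫)
    (hP₁ : P₁ ≤ 𝔫) (hP₂ : P₂ ≤ 𝔫) :
    ∀ y : Chart ↥(descVal A K₁) t, (y : FK K₁ (M * q)) = t → y ∉ 𝔫 := by
  intro y hy hmem
  refine h M q hq hqM hT h23 A hA K₁ hK₁ ϖ hϖ t₀ ht₀ t ht P₁ P₂ h1 h2 𝔫 h𝔫 ?_ ⟨hP₁, hP₂⟩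
  intro y' hy'
  have : y' = y := Subtype.ext (hy'.trans hy.symm)
  exact this ▸ hmem

end H4S34

end
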