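/-
Item 82 (S34, wave 4), slice **(I4)** (helper15): the VERTICAL FUNCTION = the modular unit
`f = Δ(q)/Δ(q^p)` and `u = p^12 Δ(q^p)/Δ(q) = p^12 / f` (`p` the prime with `p ‖ N`).

Everything is formal, from the modular equation package `H28S28.HasModEq p`
(`H23M.h15g_hasModEq`): `Φ, T, G ∈ ℤ[j][X]`, `T` monic with constant term `± p^12`, and

* `Φ(j, j_p) = 0`, `Φ(j_p, j) = 0`;
* `T(j, u) = 0`, `T(j_p, f) = 0`          (so `u`, `f` are integral over `ℤ[j]` and over `ℤ[j_p]`);
* `G(j, j_p) = u · Φ'(j, j_p)`, `G(j_p, j) = f · Φ'(j_p, j)`, `Φ'(j, j_p) ≠ 0 ≠ Φ'(j_p, j)`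
  (Lagrange), hence every ring homomorphism `σ` with `σ j = j_p`, `σ j_p = j` has `σ u = f`
  and `σ f = u`  (Atkin–Lehner: `w₂(f) = w₁(u) = 12 v(p) - w₁(f)`);
* `f` has integral `q`-expansion `q^(1-p) (1 + …)` (so `w₁(f) = 0` for the Gauss valuation).

Namespace `H15U`.
-/
import Fermat.Agent.S16.BridgeU_helper11
import Fermat.Prelude.Def_ModularCurve_ModularUnit

set_option autoImplicit false
set_option linter.style.longLine false
set_option linter.unusedVariables false
set_option linter.unusedSectionVars false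
set_option linter.style.haveILetI false

open ModularCurve HahnSeries Polynomial H28S28

noncomputable section

namespace H15U

/-! ### the two units -/

section defs

variable (R : Type) [CommRing R] (p : ℕ) [NeZero p]

/-- `u = p^12 Δ(q^p)/Δ(q)` -/
def uq : LaurentSeries R := (p : LaurentSeries R) ^ 12 * qExpand R p (deltaq R) * deltaqInv R

/-- `f = Δ(q)/Δ(q^p)` -/
def fq : LaurentSeries R := deltaq R * qExpand R p (deltaqInv R)

theorem qExpand_deltaq_mul_inv : qExpand R p (deltaq R) * qExpand R p (deltaqInv R) = 1 := by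
  rw [← map_mul, H23M.deltaq_mul_deltaqInv, map_one]

/-- `u f = p^12` -/
theorem uq_mul_fq : uq R p * fq R p = (p : LaurentSeries R) ^ 12 := by
  unfold uq fq
  have h1 := qExpand_deltaq_mul_inv R p
  have h2 := H23M.deltaq_mul_deltaqInv R
  calc (p : LaurentSeries R) ^ 12 * qExpand R p (deltaq R) * deltaqInv R *
        (deltaq R * qExpand R p (deltaqInv R))
      = (p : LaurentSeries R) ^ 12 * (qExpand R p (deltaq R) * qExpand R p (deltaqInv R)) *
          (deltaq R * deltaqInv R) := by ring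
    _ = (p : LaurentSeries R) ^ 12 := by rw [h1, h2, mul_one, mul_one]

variable {R} in
theorem coeffMap_uq {S : Type} [CommRing S] (φ : R →+* S) : coeffMap φ (uq R p) = uq S p := by
  unfold uq
  rw [map_mul, map_mul, map_pow, map_natCast, coeffMap_qExpand, H23M.h21_coeffMap_deltaq,
    H23M.h21_coeffMap_deltaqInv]

variable {R} in
theorem coeffMap_fq {S : Type} [CommRing S] (φ : R →+* S) : coeffMap φ (fq R p) = fq S p := by
  unfold fq
  rw [map_mul, coeffMap_qExpand, H23M.h21_coeffMap_deltaq, H23M.h21_coeffMap_deltaqInv]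

end defs

/-! ### the relations of the modular equation package -/

/-- the three polynomial identities of `HasModEq` -/
def IsModTriple (p : ℕ) [NeZero p] (Φ T G : Polynomial (Polynomial ℤ)) : Prop :=
  ∀ (A : Type) [CommRing A] (ζ : Aˣ), (Polynomial.cyclotomic p A).eval (ζ : A) = 0 →
    Φ.map (baseEval A p) = ∏ i : Option (Fin p), (X - Polynomial.C (xconj A p ζ i)) ∧
    T.map (baseEval A p) = ∏ i : Option (Fin p), (X - Polynomial.C (yconj A p ζ i)) ∧
    G.map (baseEval A p) = ∑ i : Option (Fin p),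
      Polynomial.C (yconj A p ζ i) * ∏ i' ∈ Finset.univ.erase i, (X - Polynomial.C (xconj A p ζ i'))

theorem IsModTriple.modPair {p : ℕ} [NeZero p] {Φ T G : Polynomial (Polynomial ℤ)}
    (h : IsModTriple p Φ T G) : H11BR.h11br_IsModPair p Φ G :=
  fun A _ ζ hζ => ⟨(h A ζ hζ).1, (h A ζ hζ).2.2⟩

theorem coeffMap_h10ev2 {R S : Type} [CommRing R] [CommRing S] (φ : R →+* S)
    (Ψ : Polynomial (Polynomial ℤ)) (a b : LaurentSeries R) :
    coeffMap φ (h10ev2 Ψ a b) = h10ev2 Ψ (coeffMap φ a) (coeffMap φ b) :=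
  h10ev2_hom (coeffMap φ) Ψ a b

section Rel

variable (p : ℕ) [NeZero p] (Φ T G : Polynomial (Polynomial ℤ)) (hM : IsModTriple p Φ T G)

/-- the index `0` -/
def i0 : Option (Fin p) := some ⟨0, Nat.pos_of_ne_zero (NeZero.ne p)⟩

theorem xconj_i0 (A : Type) [CommRing A] (ζ : Aˣ) : xconj A p ζ (i0 p) = jqModC A := by
  show tw (ζ ^ ((⟨0, Nat.pos_of_ne_zero (NeZero.ne p)⟩ : Fin p) : ℕ)) (jqModC A) = _
  simp only [pow_zero]
  rw [h10_tw_one_apply]

theorem yconj_i0 (A : Type) [CommRing A] (ζ : Aˣ) : yconj A p ζ (i0 p) = fq A p := by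
  show tw (ζ ^ ((⟨0, Nat.pos_of_ne_zero (NeZero.ne p)⟩ : Fin p) : ℕ)) (deltaq A) *
    qExpand A p (deltaqInv A) = _
  simp only [pow_zero]
  rw [h10_tw_one_apply]
  rfl

include hM

/-- `T(j, u) = 0` over `ℤ` -/
theorem T_root_u_int : h10ev2 T (jqModC ℤ) (uq ℤ p) = 0 := by
  obtain ⟨ζ, hζ⟩ := h10_exists_zeta p
  have hfac := (hM h10Qbar ζ hζ).2.1
  set ι : LaurentSeries ℤ →+* LaurentSeries h10Qbar :=
    (qExpand h10Qbar p).comp (coeffMap (Int.castRingHom h10Qbar)) with hι
  have hinj : Function.Injective ι := by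
    rw [hι, RingHom.coe_comp]
    exact (qExpand_injective p).comp (h10_coeffMap_injective _ h10_intCast_Qbar_injective)
  apply hinj
  rw [map_zero, h10ev2_hom]
  have h1 : ι (jqModC ℤ) = qExpand h10Qbar p (jqModC h10Qbar) := by
    rw [hι, RingHom.comp_apply, coeffMap_jqModC]
  have h3 : ι (uq ℤ p) = yconj h10Qbar p ζ none := by
    unfold uq
    rw [map_mul, map_mul, map_pow, map_natCast]
    rw [hι, RingHom.comp_apply, RingHom.comp_apply, coeffMap_qExpand,
      H23M.h21_coeffMap_deltaq, H23M.h21_coeffMap_deltaqInv, qExpand_qExpand]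
    rfl
  rw [h1, h3, h10ev2_eq_eval_map, ← h10_baseEval_eq, hfac, Polynomial.eval_prod]
  apply Finset.prod_eq_zero (Finset.mem_univ none)
  simp

/-- `T(j_p, f) = 0` over `ℤ` -/
theorem T_root_f_int : h10ev2 T (qExpand ℤ p (jqModC ℤ)) (fq ℤ p) = 0 := by
  obtain ⟨ζ, hζ⟩ := h10_exists_zeta p
  have hfac := (hM h10Qbar ζ hζ).2.1
  set ι : LaurentSeries ℤ →+* LaurentSeries h10Qbar :=
    coeffMap (Int.castRingHom h10Qbar) with hι
  have hinj : Function.Injective ι := h10_coeffMap_injective _ h10_intCast_Qbar_injective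
  apply hinj
  rw [map_zero, h10ev2_hom]
  have h1 : ι (qExpand ℤ p (jqModC ℤ)) = qExpand h10Qbar p (jqModC h10Qbar) := by
    rw [hι, coeffMap_qExpand, coeffMap_jqModC]
  have h2 : ι (fq ℤ p) = yconj h10Qbar p ζ (i0 p) := by
    rw [hι, coeffMap_fq, yconj_i0]
  rw [h1, h2, h10ev2_eq_eval_map, ← h10_baseEval_eq, hfac, Polynomial.eval_prod]
  apply Finset.prod_eq_zero (Finset.mem_univ (i0 p))
  simp

/-- the Lagrange relation at the conjugate `0`:  `G(j_p, j) = f · Φ'(j_p, j)` over `ℤ` -/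
theorem G_rel_f_int :
    h10ev2 G (qExpand ℤ p (jqModC ℤ)) (jqModC ℤ) =
      fq ℤ p * h10ev2 (Polynomial.derivative Φ) (qExpand ℤ p (jqModC ℤ)) (jqModC ℤ) := by
  obtain ⟨ζ, hζ⟩ := h10_exists_zeta p
  have hΦ := (hM h10Qbar ζ hζ).1
  have hG := (hM h10Qbar ζ hζ).2.2
  set ι : LaurentSeries ℤ →+* LaurentSeries h10Qbar :=
    coeffMap (Int.castRingHom h10Qbar) with hι
  have hinj : Function.Injective ι := h10_coeffMap_injective _ h10_intCast_Qbar_injective
  apply hinj
  rw [map_mul, h10ev2_hom, h10ev2_hom]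
  have h1 : ι (qExpand ℤ p (jqModC ℤ)) = qExpand h10Qbar p (jqModC h10Qbar) := by
    rw [hι, coeffMap_qExpand, coeffMap_jqModC]
  have h2 : ι (jqModC ℤ) = xconj h10Qbar p ζ (i0 p) := by
    rw [hι, coeffMap_jqModC, xconj_i0]
  have h3 : ι (fq ℤ p) = yconj h10Qbar p ζ (i0 p) := by
    rw [hι, coeffMap_fq, yconj_i0]
  rw [h1, h2, h3, h10ev2_eq_eval_map, h10ev2_eq_eval_map, ← h10_baseEval_eq,
    ← Polynomial.derivative_map, hG, hΦ, H11BR.h11br_eval_lag, H11BR.h11br_eval_deriv]

/-- nonvanishing of `Φ'(j_p, j)` over `ℤ` (`p` prime) -/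
theorem dPhi_ne_zero_f_int (hp : p.Prime) :
    h10ev2 (Polynomial.derivative Φ) (qExpand ℤ p (jqModC ℤ)) (jqModC ℤ) ≠ 0 := by
  obtain ⟨ζ, hζ⟩ := h10_exists_zeta p
  have hΦ := (hM h10Qbar ζ hζ).1
  have hprim : IsPrimitiveRoot (ζ : h10Qbar) p := by
    haveI : NeZero ((p : ℕ) : h10Qbar) := ⟨by exact_mod_cast hp.ne_zero⟩
    exact (Polynomial.isRoot_cyclotomic_iff).1 hζ
  set ι : LaurentSeries ℤ →+* LaurentSeries h10Qbar :=
    coeffMap (Int.castRingHom h10Qbar) with hι
  intro h0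
  have h0' := congrArg ι h0
  rw [map_zero, h10ev2_hom] at h0'
  have h1 : ι (qExpand ℤ p (jqModC ℤ)) = qExpand h10Qbar p (jqModC h10Qbar) := by
    rw [hι, coeffMap_qExpand, coeffMap_jqModC]
  have h2 : ι (jqModC ℤ) = xconj h10Qbar p ζ (i0 p) := by
    rw [hι, coeffMap_jqModC, xconj_i0]
  rw [h1, h2, h10ev2_eq_eval_map, ← h10_baseEval_eq, ← Polynomial.derivative_map, hΦ,
    H11BR.h11br_eval_deriv, Finset.prod_eq_zero_iff] at h0'
  obtain ⟨i, hi, hi0⟩ := h0'
  have hne : i ≠ i0 p := (Finset.mem_erase.mp hi).1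
  have heq : xconj h10Qbar p ζ (i0 p) = xconj h10Qbar p ζ i := sub_eq_zero.mp hi0
  rw [xconj_i0] at heq
  cases i with
  | none =>
    have hc := congrArg (fun x : LaurentSeries h10Qbar => x.coeff (-((p * p : ℕ) : ℤ))) heq
    simp only [xconj] at hc
    rw [h10_qExpand_coeff_neg, coeff_jqModC_neg_one, coeff_jqModC_of_lt] at hc
    · exact zero_ne_one hc
    · have : (1 : ℤ) < ((p * p : ℕ) : ℤ) := by
        have h2 := hp.two_le
        have : 1 < p * p := by nlinarith
        exact_mod_cast this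
      linarith
  | some b =>
    have hc := congrArg (fun x : LaurentSeries h10Qbar => x.coeff (-1)) heq
    simp only [xconj] at hc
    rw [h10_tw_jq_coeff_neg_one, coeff_jqModC_neg_one] at hc
    have hb1 : ((ζ ^ (b : ℕ) : h10Qbarˣ) : h10Qbar) = 1 := by
      have h3 : ((ζ ^ (b : ℕ))⁻¹ : h10Qbarˣ) = 1 := Units.ext hc.symm
      have h4 : (ζ ^ (b : ℕ) : h10Qbarˣ) = 1 := inv_eq_one.mp h3
      rw [h4]; rfl
    rw [Units.val_pow_eq_pow_val] at hb1
    have hb0 : (b : ℕ) ≠ 0 := by
      intro hb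
      apply hne
      show some b = some ⟨0, Nat.pos_of_ne_zero (NeZero.ne p)⟩
      congr 1
      exact Fin.ext hb
    have hdvd : p ∣ (b : ℕ) := (hprim.pow_eq_one_iff_dvd _).1 hb1
    exact absurd (Nat.le_of_dvd (Nat.pos_of_ne_zero hb0) hdvd) (not_le.mpr b.2)

/-! ### the relations over an arbitrary ring -/

/-- `T(j, u) = 0` -/
theorem T_root_u (R : Type) [CommRing R] : h10ev2 T (jqModC R) (uq R p) = 0 := by
  have h := congrArg (coeffMap (Int.castRingHom R)) (T_root_u_int p Φ T G hM)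
  rwa [map_zero, coeffMap_h10ev2, coeffMap_jqModC, coeffMap_uq] at h

/-- `T(j_p, f) = 0` -/
theorem T_root_f (R : Type) [CommRing R] :
    h10ev2 T (qExpand R p (jqModC R)) (fq R p) = 0 := by
  have h := congrArg (coeffMap (Int.castRingHom R)) (T_root_f_int p Φ T G hM)
  rwa [map_zero, coeffMap_h10ev2, coeffMap_qExpand, coeffMap_jqModC, coeffMap_fq] at h

/-- `Φ(j, j_p) = 0` -/
theorem Phi_root (R : Type) [CommRing R] :
    h10ev2 Φ (jqModC R) (qExpand R p (jqModC R)) = 0 := by
  obtain ⟨ζ, hζ⟩ := h10_exists_zeta p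
  have hfac := (hM h10Qbar ζ hζ).1
  have hint : h10ev2 Φ (jqModC ℤ) (qExpand ℤ p (jqModC ℤ)) = 0 := by
    set ι : LaurentSeries ℤ →+* LaurentSeries h10Qbar :=
      (qExpand h10Qbar p).comp (coeffMap (Int.castRingHom h10Qbar)) with hι
    have hinj : Function.Injective ι := by
      rw [hι, RingHom.coe_comp]
      exact (qExpand_injective p).comp (h10_coeffMap_injective _ h10_intCast_Qbar_injective)
    apply hinj
    rw [map_zero, h10ev2_hom]
    have h1 : ι (jqModC ℤ) = qExpand h10Qbar p (jqModC h10Qbar) := by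
      rw [hι, RingHom.comp_apply, coeffMap_jqModC]
    have h2 : ι (qExpand ℤ p (jqModC ℤ)) = xconj h10Qbar p ζ none := by
      rw [hι, RingHom.comp_apply, coeffMap_qExpand, coeffMap_jqModC, qExpand_qExpand]
      rfl
    rw [h1, h2, h10ev2_eq_eval_map, ← h10_baseEval_eq, hfac, Polynomial.eval_prod]
    apply Finset.prod_eq_zero (Finset.mem_univ none)
    simp
  have h := congrArg (coeffMap (Int.castRingHom R)) hint
  rwa [map_zero, coeffMap_h10ev2, coeffMap_qExpand, coeffMap_jqModC] at h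

/-- `Φ(j_p, j) = 0` -/
theorem Phi_root' (R : Type) [CommRing R] :
    h10ev2 Φ (qExpand R p (jqModC R)) (jqModC R) = 0 := by
  obtain ⟨ζ, hζ⟩ := h10_exists_zeta p
  have hfac := (hM h10Qbar ζ hζ).1
  have hint : h10ev2 Φ (qExpand ℤ p (jqModC ℤ)) (jqModC ℤ) = 0 := by
    set ι : LaurentSeries ℤ →+* LaurentSeries h10Qbar :=
      coeffMap (Int.castRingHom h10Qbar) with hι
    have hinj : Function.Injective ι := h10_coeffMap_injective _ h10_intCast_Qbar_injective
    apply hinj
    rw [map_zero, h10ev2_hom]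
    have h1 : ι (qExpand ℤ p (jqModC ℤ)) = qExpand h10Qbar p (jqModC h10Qbar) := by
      rw [hι, coeffMap_qExpand, coeffMap_jqModC]
    have h2 : ι (jqModC ℤ) = xconj h10Qbar p ζ (i0 p) := by
      rw [hι, coeffMap_jqModC, xconj_i0]
    rw [h1, h2, h10ev2_eq_eval_map, ← h10_baseEval_eq, hfac, Polynomial.eval_prod]
    apply Finset.prod_eq_zero (Finset.mem_univ (i0 p))
    simp
  have h := congrArg (coeffMap (Int.castRingHom R)) hint
  rwa [map_zero, coeffMap_h10ev2, coeffMap_qExpand, coeffMap_jqModC] at h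

/-- Lagrange: `G(j, j_p) = u · Φ'(j, j_p)` -/
theorem G_rel_u (R : Type) [CommRing R] :
    h10ev2 G (jqModC R) (qExpand R p (jqModC R)) =
      uq R p * h10ev2 (Polynomial.derivative Φ) (jqModC R) (qExpand R p (jqModC R)) := by
  have h := congrArg (coeffMap (Int.castRingHom R))
    (H11BR.h11br_G_rel_int p Φ G (IsModTriple.modPair hM))
  rw [map_mul, coeffMap_h10ev2, coeffMap_h10ev2, coeffMap_qExpand, coeffMap_jqModC] at h
  rw [h]
  congr 1
  exact coeffMap_uq p (Int.castRingHom R)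

/-- Lagrange: `G(j_p, j) = f · Φ'(j_p, j)` -/
theorem G_rel_f (R : Type) [CommRing R] :
    h10ev2 G (qExpand R p (jqModC R)) (jqModC R) =
      fq R p * h10ev2 (Polynomial.derivative Φ) (qExpand R p (jqModC R)) (jqModC R) := by
  have h := congrArg (coeffMap (Int.castRingHom R)) (G_rel_f_int p Φ T G hM)
  rwa [map_mul, coeffMap_h10ev2, coeffMap_h10ev2, coeffMap_qExpand, coeffMap_jqModC,
    coeffMap_fq] at h

/-- `Φ'(j, j_p) ≠ 0` in characteristic `0` -/
theorem dPhi_ne_zero_u (hp : p.Prime) (R : Type) [CommRing R] [CharZero R] :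
    h10ev2 (Polynomial.derivative Φ) (jqModC R) (qExpand R p (jqModC R)) ≠ 0 := by
  have h := H11BR.h11br_dPhi_ne_zero_int p Φ G (IsModTriple.modPair hM) hp.one_lt
  intro h0
  apply h
  apply h10_coeffMap_injective (Int.castRingHom R) Int.cast_injective
  rw [map_zero, coeffMap_h10ev2, coeffMap_qExpand, coeffMap_jqModC]
  exact h0

/-- `Φ'(j_p, j) ≠ 0` in characteristic `0` -/
theorem dPhi_ne_zero_f (hp : p.Prime) (R : Type) [CommRing R] [CharZero R] :
    h10ev2 (Polynomial.derivative Φ) (qExpand R p (jqModC R)) (jqModC R) ≠ 0 := by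
  have h := dPhi_ne_zero_f_int p Φ T G hM hp
  intro h0
  apply h
  apply h10_coeffMap_injective (Int.castRingHom R) Int.cast_injective
  rw [map_zero, coeffMap_h10ev2, coeffMap_qExpand, coeffMap_jqModC]
  exact h0

end Rel

/-! ### the package of a prime -/

/-- the modular equation triple of a prime `p` -/
theorem exists_modTriple (p : ℕ) [NeZero p] [Fact p.Prime] :
    ∃ Φ T G : Polynomial (Polynomial ℤ), Φ.Monic ∧ Φ.natDegree = p + 1 ∧ T.Monic ∧
      T.natDegree = p + 1 ∧
      (T.coeff 0 = Polynomial.C ((p : ℤ) ^ 12) ∨ T.coeff 0 = Polynomial.C (-(p : ℤ) ^ 12)) ∧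
      IsModTriple p Φ T G := by
  obtain ⟨Φ, T, G, h1, h2, h3, h4, h5, h6⟩ := H23M.h15g_hasModEq p
  exact ⟨Φ, T, G, h1, h2, h3, h4, h5, h6⟩

/-! ### integrality -/

section integral

variable {R S : Type} [CommRing R] [CommRing S]

theorem isIntegralElem_pow (φ : R →+* S) {x : S} (hx : φ.IsIntegralElem x) (n : ℕ) :
    φ.IsIntegralElem (x ^ n) := by
  induction n with
  | zero => rw [pow_zero]; exact RingHom.isIntegralElem_one φ
  | succ n ih => rw [pow_succ]; exact RingHom.IsIntegralElem.mul φ ih hx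

theorem isIntegralElem_sum (φ : R →+* S) {ι : Type} (s : Finset ι) (g : ι → S)
    (hg : ∀ i ∈ s, φ.IsIntegralElem (g i)) : φ.IsIntegralElem (∑ i ∈ s, g i) := by
  classical
  induction s using Finset.induction_on with
  | empty => rw [Finset.sum_empty]; exact RingHom.isIntegralElem_zero φ
  | insert a s ha ih =>
    rw [Finset.sum_insert ha]
    exact RingHom.IsIntegralElem.add φ (hg a (Finset.mem_insert_self a s))
      (ih (fun i hi => hg i (Finset.mem_insert_of_mem hi)))

/-- a polynomial expression `Ψ(a, b)` with `b` integral over `ℤ[a]` is integral over `ℤ[a]` -/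
theorem isIntegralElem_h10ev2 (Ψ : Polynomial (Polynomial ℤ)) (a b : LaurentSeries R)
    (hb : (h10ev a).IsIntegralElem b) : (h10ev a).IsIntegralElem (h10ev2 Ψ a b) := by
  unfold h10ev2
  rw [Polynomial.eval₂_eq_sum_range]
  refine isIntegralElem_sum _ _ _ (fun n _ => ?_)
  exact RingHom.IsIntegralElem.mul _ (RingHom.isIntegralElem_map _) (isIntegralElem_pow _ hb n)

end integral

section consumers

variable (p : ℕ) [NeZero p] [Fact p.Prime]

/-- `u = p^12 Δ(q^p)/Δ(q)` is integral over `ℤ[j]` -/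
theorem uq_integral (R : Type) [CommRing R] : (h10ev (jqModC R)).IsIntegralElem (uq R p) := by
  obtain ⟨Φ, T, G, -, -, hT, -, -, hM⟩ := exists_modTriple p
  exact ⟨T, hT, T_root_u p Φ T G hM R⟩

/-- `f = Δ(q)/Δ(q^p)` is integral over `ℤ[j_p]` -/
theorem fq_integral' (R : Type) [CommRing R] :
    (h10ev (qExpand R p (jqModC R))).IsIntegralElem (fq R p) := by
  obtain ⟨Φ, T, G, -, -, hT, -, -, hM⟩ := exists_modTriple p
  exact ⟨T, hT, T_root_f p Φ T G hM R⟩

/-- `j_p` is integral over `ℤ[j]` -/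
theorem jp_integral (R : Type) [CommRing R] :
    (h10ev (jqModC R)).IsIntegralElem (qExpand R p (jqModC R)) := by
  obtain ⟨Φ, T, G, hΦ, -, -, -, -, hM⟩ := exists_modTriple p
  exact ⟨Φ, hΦ, Phi_root p Φ T G hM R⟩

/-- `j` is integral over `ℤ[j_p]` -/
theorem j_integral' (R : Type) [CommRing R] :
    (h10ev (qExpand R p (jqModC R))).IsIntegralElem (jqModC R) := by
  obtain ⟨Φ, T, G, hΦ, -, -, -, -, hM⟩ := exists_modTriple p
  exact ⟨Φ, hΦ, Phi_root' p Φ T G hM R⟩

theorem natCast_pow_ne_zero_int : ((p : LaurentSeries ℤ) ^ 12) ≠ 0 := by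
  apply pow_ne_zero
  have hC : (p : LaurentSeries ℤ) = HahnSeries.C (p : ℤ) := by simp
  rw [hC]
  intro h0
  have := HahnSeries.C_injective (Γ := ℤ) (R := ℤ) (h0.trans (map_zero _).symm)
  exact (NeZero.ne p) (by exact_mod_cast this)

theorem uq_int_ne_zero : uq ℤ p ≠ 0 := by
  intro h
  have := uq_mul_fq ℤ p
  rw [h, zero_mul] at this
  exact natCast_pow_ne_zero_int p this.symm

theorem fq_int_ne_zero : fq ℤ p ≠ 0 := by
  intro h
  have := uq_mul_fq ℤ p
  rw [h, mul_zero] at this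
  exact natCast_pow_ne_zero_int p this.symm

theorem h10ev_C_int {A : Type} [CommRing A] (a : LaurentSeries A) (c : ℤ) :
    h10ev a (Polynomial.C c) = (c : LaurentSeries A) := by
  unfold h10ev
  rw [Polynomial.coe_eval₂RingHom, Polynomial.eval₂_C]
  rfl

/-- `f = ε Q(j, u)` with `Q = T / X`, `ε = ± 1`: `f ∈ ℤ[j, u]` -/
theorem fq_eq_poly_u : ∃ (Q : Polynomial (Polynomial ℤ)) (ε : ℤ), (ε = 1 ∨ ε = -1) ∧
    ∀ (R : Type) [CommRing R],
      fq R p = (ε : LaurentSeries R) * h10ev2 Q (jqModC R) (uq R p) := by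
  obtain ⟨Φ, T, G, -, -, hT, -, hT0, hM⟩ := exists_modTriple p
  -- `T(j,u) = u Q(j,u) + T(0)`
  have hsplit : ∀ (a b : LaurentSeries ℤ),
      h10ev2 T a b = h10ev2 T.divX a b * b + h10ev a (T.coeff 0) := by
    intro a b
    conv_lhs => rw [← Polynomial.divX_mul_X_add T]
    unfold h10ev2
    rw [Polynomial.eval₂_add, Polynomial.eval₂_mul, Polynomial.eval₂_X, Polynomial.eval₂_C]
  have hroot := T_root_u_int p Φ T G hM
  rw [hsplit] at hroot
  have key : ∀ ε : ℤ, h10ev (jqModC ℤ) (T.coeff 0) = -((ε : LaurentSeries ℤ) * (p : LaurentSeries ℤ) ^ 12) →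
      ε * ε = 1 → fq ℤ p = (ε : LaurentSeries ℤ) * h10ev2 T.divX (jqModC ℤ) (uq ℤ p) := by
    intro ε h0 hε
    rw [h0] at hroot
    have h1 : h10ev2 T.divX (jqModC ℤ) (uq ℤ p) * uq ℤ p =
        (ε : LaurentSeries ℤ) * (p : LaurentSeries ℤ) ^ 12 := by
      have := hroot
      linear_combination this
    have hε' : (ε : LaurentSeries ℤ) * (ε : LaurentSeries ℤ) = 1 := by
      rw [← Int.cast_mul, hε, Int.cast_one]
    apply mul_left_cancel₀ (uq_int_ne_zero p)
    rw [uq_mul_fq]
    calc (p : LaurentSeries ℤ) ^ 12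
        = (ε : LaurentSeries ℤ) * ((ε : LaurentSeries ℤ) * (p : LaurentSeries ℤ) ^ 12) := by
          rw [← mul_assoc, hε', one_mul]
      _ = (ε : LaurentSeries ℤ) * (h10ev2 T.divX (jqModC ℤ) (uq ℤ p) * uq ℤ p) := by rw [h1]
      _ = uq ℤ p * ((ε : LaurentSeries ℤ) * h10ev2 T.divX (jqModC ℤ) (uq ℤ p)) := by ring
  have transfer : ∀ ε : ℤ,
      fq ℤ p = (ε : LaurentSeries ℤ) * h10ev2 T.divX (jqModC ℤ) (uq ℤ p) →
      ∀ (R : Type) [CommRing R],
        fq R p = (ε : LaurentSeries R) * h10ev2 T.divX (jqModC R) (uq R p) := by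
    intro ε h R _
    have h' := congrArg (coeffMap (Int.castRingHom R)) h
    rwa [coeffMap_fq, map_mul, map_intCast, coeffMap_h10ev2, coeffMap_jqModC, coeffMap_uq] at h'
  rcases hT0 with h0 | h0
  · refine ⟨T.divX, -1, Or.inr rfl, transfer (-1) (key (-1) ?_ (by norm_num))⟩
    rw [h0, h10ev_C_int]
    push_cast
    ring
  · refine ⟨T.divX, 1, Or.inl rfl, transfer 1 (key 1 ?_ (by norm_num))⟩
    rw [h0, h10ev_C_int]
    push_cast
    ring

/-- `f = Δ(q)/Δ(q^p)` is integral over `ℤ[j]` -/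
theorem fq_integral (R : Type) [CommRing R] : (h10ev (jqModC R)).IsIntegralElem (fq R p) := by
  obtain ⟨Q, ε, -, h⟩ := fq_eq_poly_u p
  rw [h R]
  refine RingHom.IsIntegralElem.mul _ ?_ (isIntegralElem_h10ev2 Q _ _ (uq_integral p R))
  have : (ε : LaurentSeries R) = h10ev (jqModC R) (Polynomial.C ε) := (h10ev_C_int _ ε).symm
  rw [this]
  exact RingHom.isIntegralElem_map _

/-! ### the `q`-expansion of `f`: integral, leading coefficient `1` (Gauss valuation `0`) -/

theorem qExpand_deltaqInv_eq_inv :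
    qExpand ℚ p (deltaqInv ℚ) = (qExpand ℚ p (deltaq ℚ))⁻¹ := by
  have h := qExpand_deltaq_mul_inv ℚ p
  have hne : qExpand ℚ p (deltaq ℚ) ≠ 0 := by
    intro h0
    rw [h0, zero_mul] at h
    exact zero_ne_one h
  exact eq_inv_of_mul_eq_one_right h

/-- over `ℚ`, `f` is the prelude's `modularUnitSeries p` -/
theorem fq_rat : fq ℚ p = modularUnitSeries p := by
  unfold fq modularUnitSeries deltaSeriesN
  rw [qExpand_deltaqInv_eq_inv]
  rfl

theorem fq_int_coeff_cast (k : ℤ) : (((fq ℤ p).coeff k : ℤ) : ℚ) = (modularUnitSeries p).coeff k := by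
  rw [← fq_rat, ← coeffMap_fq p (Int.castRingHom ℚ), coeffMap_coeff]
  rfl

/-- the coefficients of `f` are the images of the integers `(fq ℤ p).coeff k` -/
theorem fq_coeff (R : Type) [CommRing R] (k : ℤ) :
    (fq R p).coeff k = (((fq ℤ p).coeff k : ℤ) : R) := by
  rw [← coeffMap_fq p (Int.castRingHom R), coeffMap_coeff]
  rfl

/-- leading coefficient `1` at `q^(1-p)` -/
theorem fq_coeff_lead (R : Type) [CommRing R] : (fq R p).coeff (1 - (p : ℤ)) = 1 := by
  have h : (fq ℤ p).coeff (1 - (p : ℤ)) = 1 := by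
    have := fq_int_coeff_cast p (1 - (p : ℤ))
    rw [coeff_modularUnitSeries_self] at this
    exact_mod_cast this
  rw [fq_coeff, h, Int.cast_one]

/-- no terms below `q^(1-p)` -/
theorem fq_coeff_of_lt (R : Type) [CommRing R] {k : ℤ} (hk : k < 1 - (p : ℤ)) :
    (fq R p).coeff k = 0 := by
  have h : (fq ℤ p).coeff k = 0 := by
    have := fq_int_coeff_cast p k
    rw [coeff_modularUnitSeries_of_lt p hk] at this
    exact_mod_cast this
  rw [fq_coeff, h, Int.cast_zero]

/-! ### the swap (Atkin–Lehner) -/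

/-- **swap**: a ring homomorphism `σ` of a ring `F ⊆ K((q))` (`K` a field of characteristic `0`)
with `σ j = j_p`, `σ j_p = j` maps `u` to `f`. -/
theorem swap_u {K : Type} [Field K] [CharZero K] {F : Type} [CommRing F]
    (ι : F →+* LaurentSeries K) (hι : Function.Injective ι) (σ : F →+* F) (a b u f : F)
    (ha : ι a = jqModC K) (hb : ι b = qExpand K p (jqModC K))
    (hu : ι u = uq K p) (hf : ι f = fq K p) (hσa : σ a = b) (hσb : σ b = a) : σ u = f := by
  obtain ⟨Φ, T, G, -, -, -, -, -, hM⟩ := exists_modTriple p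
  have hp : p.Prime := Fact.out
  -- the polynomial expressions inside `F`
  let ev2 : Polynomial (Polynomial ℤ) → F → F → F := fun Ψ x y =>
    Ψ.eval₂ (Polynomial.eval₂RingHom (Int.castRingHom F) x) y
  have hev : ∀ (τ : F →+* LaurentSeries K) (Ψ : Polynomial (Polynomial ℤ)) (x y : F),
      τ (ev2 Ψ x y) = h10ev2 Ψ (τ x) (τ y) := by
    intro τ Ψ x y
    show τ (Ψ.eval₂ (Polynomial.eval₂RingHom (Int.castRingHom F) x) y) = _
    unfold h10ev2
    rw [Polynomial.hom_eval₂]
    congr 1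
    refine Polynomial.ringHom_ext' (Subsingleton.elim _ _) ?_
    simp [h10ev]
  have hevσ : ∀ (Ψ : Polynomial (Polynomial ℤ)) (x y : F),
      σ (ev2 Ψ x y) = ev2 Ψ (σ x) (σ y) := by
    intro Ψ x y
    show σ (Ψ.eval₂ (Polynomial.eval₂RingHom (Int.castRingHom F) x) y) =
      Ψ.eval₂ (Polynomial.eval₂RingHom (Int.castRingHom F) (σ x)) (σ y)
    rw [Polynomial.hom_eval₂]
    congr 1
    refine Polynomial.ringHom_ext' (Subsingleton.elim _ _) ?_
    simp
  -- `G(a,b) = u Φ'(a,b)` in `F`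
  have h1 : ev2 G a b = u * ev2 (Polynomial.derivative Φ) a b := by
    apply hι
    rw [map_mul, hev, hev, ha, hb, hu]
    exact G_rel_u p Φ T G hM K
  -- `G(b,a) = f Φ'(b,a)` in `F`
  have h2 : ev2 G b a = f * ev2 (Polynomial.derivative Φ) b a := by
    apply hι
    rw [map_mul, hev, hev, ha, hb, hf]
    exact G_rel_f p Φ T G hM K
  have h3 : ι (ev2 (Polynomial.derivative Φ) b a) ≠ 0 := by
    rw [hev, ha, hb]
    exact dPhi_ne_zero_f p Φ T G hM hp K
  have h4 := congrArg σ h1
  rw [map_mul, hevσ, hevσ, hσa, hσb, h2] at h4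
  apply hι
  have h5 := congrArg ι h4
  rw [map_mul, map_mul] at h5
  exact (mul_right_cancel₀ h3 h5).symm

/-- **swap**: the same `σ` maps `f` to `u` if `p` is invertible in `F` (e.g. `F` a `ℚ`-algebra) -/
theorem swap_f {K : Type} [Field K] [CharZero K] {F : Type} [CommRing F]
    (ι : F →+* LaurentSeries K) (hι : Function.Injective ι) (σ : F →+* F) (a b u f : F)
    (ha : ι a = jqModC K) (hb : ι b = qExpand K p (jqModC K))
    (hu : ι u = uq K p) (hf : ι f = fq K p) (hσa : σ a = b) (hσb : σ b = a) : σ f = u := by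
  have h := swap_u p ι hι σ a b u f ha hb hu hf hσa hσb
  -- `u f = p^12` in `F`
  have huf : u * f = (p : F) ^ 12 := by
    apply hι
    rw [map_mul, hu, hf, map_pow, map_natCast]
    exact uq_mul_fq K p
  have h1 := congrArg σ huf
  rw [map_mul, h, map_pow, map_natCast, ← huf] at h1
  -- `f σ(f) = u f`, cancel `f`
  have hfne : ι f ≠ 0 := by
    rw [hf]
    intro h0
    have := uq_mul_fq K p
    rw [h0, mul_zero] at this
    have hp0 : ((p : LaurentSeries K) ^ 12) ≠ 0 := by
      apply pow_ne_zero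
      have hC : (p : LaurentSeries K) = HahnSeries.C (p : K) := by simp
      rw [hC]
      intro h00
      have := HahnSeries.C_injective (Γ := ℤ) (R := K) (h00.trans (map_zero _).symm)
      exact (NeZero.ne p) (by exact_mod_cast this)
    exact hp0 this.symm
  apply hι
  have h2 := congrArg ι h1
  rw [map_mul, map_mul, mul_comm (ι u) (ι f)] at h2
  exact mul_left_cancel₀ hfne h2

/-! ### membership in the function fields -/

theorem fq_mul_inv (R : Type) [CommRing R] :
    fq R p * (qExpand R p (deltaq R) * deltaqInv R) = 1 := by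
  unfold fq
  have h1 := qExpand_deltaq_mul_inv R p
  have h2 := H23M.deltaq_mul_deltaqInv R
  calc deltaq R * qExpand R p (deltaqInv R) * (qExpand R p (deltaq R) * deltaqInv R)
      = (qExpand R p (deltaq R) * qExpand R p (deltaqInv R)) * (deltaq R * deltaqInv R) := by ring
    _ = 1 := by rw [h1, h2, mul_one]

/-- `f ∈ F_N` for `p ∣ N` -/
theorem fq_mem_full (N : ℕ) [NeZero N] (hpN : p ∣ N) : fq ℚ p ∈ modularFunctionFieldFull N := by
  apply full_degeneracy_le hpN
  have h := H11BR.h11br_uN_mem p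
  have h1 := fq_mul_inv p ℚ
  have h2 : fq ℚ p = (qExpand ℚ p (deltaq ℚ) * deltaqInv ℚ)⁻¹ := eq_inv_of_mul_eq_one_left h1
  rw [h2]
  exact (modularFunctionFieldFull p).inv_mem h

/-- `u ∈ F_N` for `p ∣ N` -/
theorem uq_mem_full (N : ℕ) [NeZero N] (hpN : p ∣ N) : uq ℚ p ∈ modularFunctionFieldFull N := by
  apply full_degeneracy_le hpN
  have h := H11BR.h11br_uN_mem p
  unfold uq
  rw [mul_assoc]
  exact (modularFunctionFieldFull p).mul_mem
    ((modularFunctionFieldFull p).pow_mem (natCast_mem _ p) 12) h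

theorem coeffEmb_fq (K : Type) [Field K] [Algebra ℚ K] : coeffEmb K (fq ℚ p) = fq K p :=
  coeffMap_fq p (algebraMap ℚ K)

theorem coeffEmb_uq (K : Type) [Field K] [Algebra ℚ K] : coeffEmb K (uq ℚ p) = uq K p :=
  coeffMap_uq p (algebraMap ℚ K)

/-- `f ∈ F_K(N)` for `p ∣ N` -/
theorem fq_mem_FK (K : Type) [Field K] [Algebra ℚ K] (N : ℕ) [NeZero N] (hpN : p ∣ N) :
    fq K p ∈ laurentBaseChange K (modularFunctionFieldFull N) := by
  rw [← coeffEmb_fq]
  exact coeffEmb_mem_laurentBaseChange K (fq_mem_full p N hpN)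

/-- `u ∈ F_K(N)` for `p ∣ N` -/
theorem uq_mem_FK (K : Type) [Field K] [Algebra ℚ K] (N : ℕ) [NeZero N] (hpN : p ∣ N) :
    uq K p ∈ laurentBaseChange K (modularFunctionFieldFull N) := by
  rw [← coeffEmb_uq]
  exact coeffEmb_mem_laurentBaseChange K (uq_mem_full p N hpN)

end consumers

/-! ### integrality over a subring containing `j` -/

/-- an element integral over `ℤ[a]` is integral over every subring containing `a` -/
theorem isIntegral_subring {R : Type} [CommRing R] (A' : Subring (LaurentSeries R))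
    (a : LaurentSeries R) (ha : a ∈ A') (x : LaurentSeries R)
    (hx : (h10ev a).IsIntegralElem x) : IsIntegral A' x := by
  obtain ⟨P, hP, hPx⟩ := hx
  let φ' : Polynomial ℤ →+* A' := Polynomial.eval₂RingHom (Int.castRingHom A') ⟨a, ha⟩
  have hcomp : (algebraMap A' (LaurentSeries R)).comp φ' = h10ev a := by
    refine Polynomial.ringHom_ext' (Subsingleton.elim _ _) ?_
    show algebraMap A' (LaurentSeries R) (φ' Polynomial.X) = h10ev a Polynomial.X
    rw [h10ev_X]
    show algebraMap A' (LaurentSeries R)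
      (Polynomial.eval₂ (Int.castRingHom A') ⟨a, ha⟩ Polynomial.X) = a
    rw [Polynomial.eval₂_X]
    rfl
  refine ⟨P.map φ', hP.map _, ?_⟩
  rw [Polynomial.eval₂_map, hcomp]
  exact hPx

/-- `f` is integral over every subring of `R((q))` containing `j` -/
theorem fq_isIntegral (p : ℕ) [NeZero p] [Fact p.Prime] {R : Type} [CommRing R]
    (A' : Subring (LaurentSeries R)) (hj : jqModC R ∈ A') : IsIntegral A' (fq R p) :=
  isIntegral_subring A' _ hj _ (fq_integral p R)

/-- `u` is integral over every subring of `R((q))` containing `j` -/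
theorem uq_isIntegral (p : ℕ) [NeZero p] [Fact p.Prime] {R : Type} [CommRing R]
    (A' : Subring (LaurentSeries R)) (hj : jqModC R ∈ A') : IsIntegral A' (uq R p) :=
  isIntegral_subring A' _ hj _ (uq_integral p R)

/-- `j_p` is integral over every subring of `R((q))` containing `j` -/
theorem jp_isIntegral (p : ℕ) [NeZero p] [Fact p.Prime] {R : Type} [CommRing R]
    (A' : Subring (LaurentSeries R)) (hj : jqModC R ∈ A') :
    IsIntegral A' (qExpand R p (jqModC R)) :=
  isIntegral_subring A' _ hj _ (jp_integral p R)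

/-- `j` is integral over every subring of `R((q))` containing `j_p` -/
theorem j_isIntegral' (p : ℕ) [NeZero p] [Fact p.Prime] {R : Type} [CommRing R]
    (A' : Subring (LaurentSeries R)) (hj : qExpand R p (jqModC R) ∈ A') :
    IsIntegral A' (jqModC R) :=
  isIntegral_subring A' _ hj _ (j_integral' p R)

end H15U

end
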