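/-
helper24: item 82 (S34), slice (I3) concrete, input (i) of helper12 (LOCAL form, all kinds).

For a base function `t` (kind 1: `j`, kind 2: `h₂`, kind 3: `h₃`) the function
`t(𝐪^q) = w_q t` is integral over `R[t, t⁻¹]`: there is `D` with `t ^ D * t(𝐪^q)` integral over
`R[t]` (`IsInt R t`).

Proof: `j t^k = G(t)` with `G ∈ ℤ[X]` monic of degree `> k` (C9: `H4HM.hm2`, `hm3`); applying
`𝐪 ↦ 𝐪^q`, `t(𝐪^q)` is integral over `ℤ[j(𝐪^q)]`; `j(𝐪^q)` is integral over `ℤ[j]` (modular
equation, `H15U.jp_integral`); and `t^{k m} H(j) ∈ ℤ[t]` for `H ∈ ℤ[X]` of degree `≤ m`.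
-/
import Mathlib
import Fermat.Agent.S34.Unit_helper15
import Fermat.Agent.S18.C8Branch_helper4
import Fermat.Agent.S18.UnrGenA_helper28
import Fermat.Agent.S18.GVBar_helper28
import Fermat.Agent.S18.A0_helper28
import Fermat.Agent.S18.DefsD
import Fermat.Agent.S18.C6e_helper9
import Fermat.Agent.S34.ALqK_helper12

set_option autoImplicit false
set_option linter.unusedSectionVars false
set_option linter.unusedVariables false
set_option linter.style.haveILetI false

open Polynomial ModularCurve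

noncomputable section

namespace H24BI

/-! ### integrality over `ℤ[a]`, in terms of `RingHom.IsIntegralElem` -/

section core

variable {Ω : Type} [CommRing Ω]

/-- evaluation `ℤ[X] → Ω`, `X ↦ a` -/
def evZ (a : Ω) : Polynomial ℤ →+* Ω := Polynomial.eval₂RingHom (Int.castRingHom Ω) a

@[simp] theorem evZ_X (a : Ω) : evZ a Polynomial.X = a := by
  simp [evZ]

@[simp] theorem evZ_C (a : Ω) (c : ℤ) : evZ a (Polynomial.C c) = (c : Ω) := by
  simp [evZ]

theorem evZ_apply (a : Ω) (H : Polynomial ℤ) :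
    evZ a H = Polynomial.eval₂ (Int.castRingHom Ω) a H := rfl

theorem evZ_comp {Ω' : Type} [CommRing Ω'] (φ : Ω →+* Ω') (a : Ω) :
    φ.comp (evZ a) = evZ (φ a) := by
  refine Polynomial.ringHom_ext' (Subsingleton.elim _ _) ?_
  simp

theorem evZ_hom {Ω' : Type} [CommRing Ω'] (φ : Ω →+* Ω') (a : Ω) (H : Polynomial ℤ) :
    φ (evZ a H) = evZ (φ a) H := by
  rw [← evZ_comp]
  rfl

/-- a root `t'` of `G(Y) - j' Y^k` (`G` monic of degree `> k`) is integral over `ℤ[j']` -/
theorem isIntegralElem_of_rel (G : Polynomial ℤ) (hG : G.Monic) (k : ℕ) (hk : k < G.natDegree)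
    (t' j' : Ω) (h : evZ t' G = j' * t' ^ k) : (evZ j').IsIntegralElem t' := by
  have hGm : (G.map (Polynomial.C : ℤ →+* Polynomial ℤ)).Monic := hG.map _
  have hdeg : (Polynomial.C (Polynomial.X : Polynomial ℤ) *
      (Polynomial.X : Polynomial (Polynomial ℤ)) ^ k).degree <
      (G.map (Polynomial.C : ℤ →+* Polynomial ℤ)).degree := by
    rw [Polynomial.degree_eq_natDegree hGm.ne_zero, hG.natDegree_map]
    refine lt_of_le_of_lt (Polynomial.degree_C_mul_X_pow_le k _) ?_
    exact_mod_cast hk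
  refine ⟨G.map (Polynomial.C : ℤ →+* Polynomial ℤ) -
      Polynomial.C (Polynomial.X : Polynomial ℤ) * (Polynomial.X : Polynomial (Polynomial ℤ)) ^ k,
    hGm.sub_of_left hdeg, ?_⟩
  rw [Polynomial.eval₂_sub, Polynomial.eval₂_map, Polynomial.eval₂_mul, Polynomial.eval₂_C,
    Polynomial.eval₂_pow, Polynomial.eval₂_X, evZ_X]
  have hc : (evZ j').comp (Polynomial.C : ℤ →+* Polynomial ℤ) = Int.castRingHom Ω :=
    RingHom.ext_int _ _
  rw [hc, ← evZ_apply, h, sub_self]

/-- transitivity: `j'` integral over `ℤ[j]`, `x` integral over `ℤ[j']` ⟹ `x` integral over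
`ℤ[j]` -/
theorem isIntegralElem_trans (j j' x : Ω) (h1 : (evZ j).IsIntegralElem j')
    (h2 : (evZ j').IsIntegralElem x) : (evZ j).IsIntegralElem x := by
  letI : Algebra (Polynomial ℤ) Ω := (evZ j).toAlgebra
  have hj' : j' ∈ integralClosure (Polynomial ℤ) Ω := h1
  let ψ : Polynomial ℤ →+* ↥(integralClosure (Polynomial ℤ) Ω) :=
    Polynomial.eval₂RingHom (Int.castRingHom _) ⟨j', hj'⟩
  have hcomp : (algebraMap (↥(integralClosure (Polynomial ℤ) Ω)) Ω).comp ψ = evZ j' := by
    refine Polynomial.ringHom_ext' (Subsingleton.elim _ _) ?_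
    show algebraMap (↥(integralClosure (Polynomial ℤ) Ω)) Ω (ψ Polynomial.X) = evZ j' Polynomial.X
    rw [evZ_X]
    show algebraMap (↥(integralClosure (Polynomial ℤ) Ω)) Ω
      (Polynomial.eval₂ (Int.castRingHom _) ⟨j', hj'⟩ Polynomial.X) = j'
    rw [Polynomial.eval₂_X]
    rfl
  obtain ⟨P, hP, hPx⟩ := h2
  have h3 : IsIntegral (↥(integralClosure (Polynomial ℤ) Ω)) x := by
    refine ⟨P.map ψ, hP.map _, ?_⟩
    rw [Polynomial.eval₂_map, hcomp]
    exact hPx
  exact isIntegral_trans (R := Polynomial ℤ) (A := ↥(integralClosure (Polynomial ℤ) Ω)) x h3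

end core

/-! ### clearing the denominators `t^k` -/

section clear

variable {R : Type} [CommRing R] {E : Type} [Field E] [Algebra R E]

theorem evZ_mem_adjoin (t : E) (H : Polynomial ℤ) : evZ t H ∈ Algebra.adjoin R {t} := by
  rw [evZ_apply, Polynomial.eval₂_eq_sum_range]
  refine Subalgebra.sum_mem _ (fun i _ => ?_)
  refine Subalgebra.mul_mem _ ?_ (Subalgebra.pow_mem _ (Algebra.self_mem_adjoin_singleton R t) i)
  show ((H.coeff i : ℤ) : E) ∈ Algebra.adjoin R {t}
  exact Subalgebra.intCast_mem _ _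

/-- `t^{k M} H(j) ∈ R[t]` when `j t^k = G(t)` and `deg H ≤ M` -/
theorem pow_mul_evZ_mem (G : Polynomial ℤ) (k : ℕ) (t j : E) (h : evZ t G = j * t ^ k)
    (H : Polynomial ℤ) (M : ℕ) (hM : H.natDegree ≤ M) :
    t ^ (k * M) * evZ j H ∈ Algebra.adjoin R {t} := by
  rw [evZ_apply, Polynomial.eval₂_eq_sum_range, Finset.mul_sum]
  refine Subalgebra.sum_mem _ (fun l hl => ?_)
  have hl' : l ≤ M := le_trans (Nat.lt_succ_iff.mp (Finset.mem_range.mp hl)) hM
  have e : t ^ (k * M) * (Int.castRingHom E (H.coeff l) * j ^ l) =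
      ((H.coeff l : ℤ) : E) * t ^ (k * (M - l)) * (evZ t G) ^ l := by
    rw [h, mul_pow, ← pow_mul]
    have hsplit : t ^ (k * M) = t ^ (k * (M - l)) * t ^ (k * l) := by
      rw [← pow_add, ← Nat.mul_add, Nat.sub_add_cancel hl']
    rw [hsplit]
    simp only [eq_intCast]
    ring
  rw [e]
  refine Subalgebra.mul_mem _ (Subalgebra.mul_mem _ (Subalgebra.intCast_mem _ _)
    (Subalgebra.pow_mem _ (Algebra.self_mem_adjoin_singleton R t) _))
    (Subalgebra.pow_mem _ (evZ_mem_adjoin t G) l)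

/-- **clearing denominators**: if `j t^k = G(t)` and `x` is integral over `ℤ[j]`, then
`t^D x` is integral over `R[t]` for some `D` -/
theorem isIntegral_pow_mul_of_rel (G : Polynomial ℤ) (k : ℕ) (t j x : E)
    (h : evZ t G = j * t ^ k) (hx : (evZ j).IsIntegralElem x) :
    ∃ D : ℕ, IsIntegral (Algebra.adjoin R {t}) (t ^ D * x) := by
  obtain ⟨P, hP, hPx⟩ := hx
  set M : ℕ := (Finset.range (P.natDegree + 1)).sup (fun i => (P.coeff i).natDegree) with hMdef
  refine ⟨k * M, ?_⟩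
  have hpm : (P.map (evZ j)).Monic := hP.map _
  have hy : (P.map (evZ j)).eval x = 0 := by
    rw [Polynomial.eval_map]
    exact hPx
  refine H28UG.isIntegral_mul_of_monic_root (Algebra.adjoin R {t}) (t ^ (k * M)) x
    (Subalgebra.pow_mem _ (Algebra.self_mem_adjoin_singleton R t) _) (P.map (evZ j)) hpm hy ?_
  intro i hi
  rw [Polynomial.coeff_map]
  refine pow_mul_evZ_mem G k t j h (P.coeff i) M ?_
  have hi' : i ∈ Finset.range (P.natDegree + 1) := by
    rw [Finset.mem_range]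
    have : (P.map (evZ j)).natDegree ≤ P.natDegree := Polynomial.natDegree_map_le
    omega
  exact Finset.le_sup (f := fun i => (P.coeff i).natDegree) hi'

end clear

/-! ### the three kinds of base functions -/

section base

variable (K : Type) [Field K] [Algebra ℚ K]

/-- the relation `j t^k = G(t)` for a base function, over `K` -/
theorem exists_rel (i : ℕ) (t₀ : LaurentSeries ℚ) (ht₀ : H7S18.IsBase i t₀) :
    ∃ (G : Polynomial ℤ) (k : ℕ), G.Monic ∧ k < G.natDegree ∧
      evZ (coeffEmb K t₀) G = jqModC K * (coeffEmb K t₀) ^ k := by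
  have h0 := ht₀
  rcases ht₀ with ⟨rfl, h⟩ | ⟨rfl, h⟩ | ⟨rfl, -, -⟩
  · refine ⟨Polynomial.X, 0, Polynomial.monic_X, by rw [Polynomial.natDegree_X]; exact Nat.one_pos,
      ?_⟩
    rw [evZ_X, pow_zero, mul_one, h]
    exact H28GV.gv_coeffEmb_jq K
  · have e : coeffEmb K t₀ = H4HM.t2 K := by
      rw [H4BR.eq_t2_of_isBase h0]
      exact H4HM.coeffMap_t2 (algebraMap ℚ K)
    refine ⟨(Polynomial.X + Polynomial.C 256) ^ 3, 2,
      (Polynomial.monic_X_add_C (256 : ℤ)).pow 3, ?_, ?_⟩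
    · rw [((Polynomial.monic_X_add_C (256 : ℤ))).natDegree_pow, Polynomial.natDegree_X_add_C]
      norm_num
    · rw [e, map_pow, map_add, evZ_X, evZ_C, H4HM.hm2 K]
      norm_num
  · have e : coeffEmb K t₀ = H4HM.t3 K := by
      rw [H4BR.eq_t3_of_isBase h0]
      exact H4HM.coeffMap_t3 (algebraMap ℚ K)
    refine ⟨(Polynomial.X + Polynomial.C 27) * (Polynomial.X + Polynomial.C 243) ^ 3, 3,
      (Polynomial.monic_X_add_C (27 : ℤ)).mul ((Polynomial.monic_X_add_C (243 : ℤ)).pow 3), ?_, ?_⟩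
    · rw [((Polynomial.monic_X_add_C (27 : ℤ))).natDegree_mul
        ((Polynomial.monic_X_add_C (243 : ℤ)).pow 3),
        ((Polynomial.monic_X_add_C (243 : ℤ))).natDegree_pow, Polynomial.natDegree_X_add_C,
        Polynomial.natDegree_X_add_C]
      norm_num
    · rw [e, map_mul, map_pow, map_add, map_add, evZ_X, evZ_C, evZ_C, H4HM.hm3 K]
      norm_num

variable (N : ℕ) [NeZero N]

/-- **input (i), local form, all kinds**: for a base function `t` and `x = t(𝐪^q)` in
`F_K(N)`, some `t^D x` is integral over `R[t]`. -/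
theorem h24bi_base_isInt (q : ℕ) [NeZero q] [Fact q.Prime]
    (R : Type) [CommRing R] [Algebra R (H7S18.FK K N)]
    (i : ℕ) (t₀ : LaurentSeries ℚ) (ht₀ : H7S18.IsBase i t₀)
    (t x : H7S18.FK K N) (ht : (t : LaurentSeries K) = coeffEmb K t₀)
    (hx : (x : LaurentSeries K) = qExpand K q (coeffEmb K t₀)) :
    ∃ D : ℕ, H7S18.IsInt R t (t ^ D * x) := by
  obtain ⟨G, k, hG, hk, hrel⟩ := exists_rel K i t₀ ht₀
  -- the relation for `t(𝐪^q)`
  have hrel' : evZ (qExpand K q (coeffEmb K t₀)) G =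
      qExpand K q (jqModC K) * (qExpand K q (coeffEmb K t₀)) ^ k := by
    rw [← evZ_hom, hrel, map_mul, map_pow]
  -- integrality over `ℤ[j]` in `K((𝐪))`
  have h1 : (evZ (qExpand K q (jqModC K))).IsIntegralElem (qExpand K q (coeffEmb K t₀)) :=
    isIntegralElem_of_rel G hG k hk _ _ hrel'
  have h2 : (evZ (jqModC K)).IsIntegralElem (qExpand K q (jqModC K)) := H15U.jp_integral q K
  have h3 : (evZ (jqModC K)).IsIntegralElem (qExpand K q (coeffEmb K t₀)) :=
    isIntegralElem_trans _ _ _ h2 h1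
  -- transfer to `F_K(N)`
  have hjmem : jqModC K ∈ laurentBaseChange K (modularFunctionFieldFull N) :=
    H28GV.gv_mem_base_of_full N (jqModC_mem_full K N)
  set ι : H7S18.FK K N →+* LaurentSeries K :=
    (laurentBaseChange K (modularFunctionFieldFull N)).val.toRingHom with hι
  have hιinj : Function.Injective ι := Subtype.val_injective
  have hιt : ι t = coeffEmb K t₀ := ht
  have hιx : ι x = qExpand K q (coeffEmb K t₀) := hx
  have hιj : ι (⟨jqModC K, hjmem⟩ : H7S18.FK K N) = jqModC K := rfl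
  have hrelE : evZ t G = (⟨jqModC K, hjmem⟩ : H7S18.FK K N) * t ^ k := by
    apply hιinj
    rw [evZ_hom, map_mul, map_pow, hιt, hιj]
    exact hrel
  have hxE : (evZ (⟨jqModC K, hjmem⟩ : H7S18.FK K N)).IsIntegralElem x := by
    obtain ⟨P, hP, hPx⟩ := h3
    refine ⟨P, hP, hιinj ?_⟩
    rw [Polynomial.hom_eval₂, evZ_comp, hιj, hιx, map_zero]
    exact hPx
  exact isIntegral_pow_mul_of_rel G k t _ x hrelE hxE

end base

/-! ### the Atkin–Lehner form (helper12's `w = H12AL.wqKHom`) -/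

section AL

/-- the base function of kind `baseKind q` has level `M` when `M` is a tame level for `q` -/
theorem base_mem_of_tame (M q : ℕ) [NeZero M] (hT : H7S18.TameLevel q M)
    (t₀ : LaurentSeries ℚ) (ht₀ : H7S18.IsBase (H7S18.baseKind q) t₀) :
    t₀ ∈ modularFunctionFieldFull M := by
  refine (H9C6e.base_data M (H7S18.baseKind q) ?_ t₀ ht₀).1
  unfold H7S18.baseKind
  by_cases h2 : q = 2
  · rw [if_pos h2]
    exact Or.inr (Or.inr ⟨rfl, hT.2.1 h2⟩)
  · rw [if_neg h2]
    by_cases h3 : q = 3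
    · rw [if_pos h3]
      exact Or.inr (Or.inl ⟨rfl, hT.2.2 h3⟩)
    · rw [if_neg h3]
      exact Or.inl rfl

/-- **input (i), local form**: `t ^ D * w_q t` is integral over `R[t]` for some `D`
(`t` a base function of level `M`, `w_q` the Atkin–Lehner involution of level `M q`). -/
theorem h24bi_wq_isInt (K₁ : IntermediateField ℚ (AlgebraicClosure ℚ)) (M q : ℕ) [NeZero M]
    [NeZero q] (hq : q.Prime) (hqM : ¬ q ∣ M)
    (R : Type) [CommRing R] [Algebra R (H7S18.FK K₁ (M * q))]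
    (i : ℕ) (t₀ : LaurentSeries ℚ) (ht₀ : H7S18.IsBase i t₀)
    (hlev : t₀ ∈ modularFunctionFieldFull M)
    (t : H7S18.FK K₁ (M * q)) (ht : (t : LaurentSeries K₁) = coeffEmb K₁ t₀) :
    ∃ D : ℕ, H7S18.IsInt R t (t ^ D * H12AL.wqKHom K₁ M q hq hqM t) := by
  haveI : Fact q.Prime := ⟨hq⟩
  have hmem : (t : LaurentSeries K₁) ∈ laurentBaseChange K₁ (modularFunctionFieldFull M) := by
    rw [ht]
    exact coeffEmb_mem_laurentBaseChange K₁ hlev
  have hx := H12AL.coe_wqKHom_of_level K₁ M q hq hqM t hmem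
  rw [ht] at hx
  exact h24bi_base_isInt K₁ (M * q) q R i t₀ ht₀ t _ ht hx

/-- the same for the base function of kind `baseKind q` at a tame level -/
theorem h24bi_wq_isInt_tame (K₁ : IntermediateField ℚ (AlgebraicClosure ℚ)) (M q : ℕ) [NeZero M]
    [NeZero q] (hq : q.Prime) (hqM : ¬ q ∣ M) (hT : H7S18.TameLevel q M)
    (R : Type) [CommRing R] [Algebra R (H7S18.FK K₁ (M * q))]
    (t₀ : LaurentSeries ℚ) (ht₀ : H7S18.IsBase (H7S18.baseKind q) t₀)
    (t : H7S18.FK K₁ (M * q)) (ht : (t : LaurentSeries K₁) = coeffEmb K₁ t₀) :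
    ∃ D : ℕ, H7S18.IsInt R t (t ^ D * H12AL.wqKHom K₁ M q hq hqM t) :=
  h24bi_wq_isInt K₁ M q hq hqM R _ t₀ ht₀ (base_mem_of_tame M q hT t₀ ht₀) t ht

end AL

end H24BI

end
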