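import Fermat.Agent.S34.TransvConc_helper12
import Fermat.Agent.S34.DichDefs_helper26
import Fermat.Agent.S34.BaseInt_helper24
import Fermat.Agent.S18.TBase_helper19
import Fermat.Agent.S18.C6e_helper9
import Fermat.Agent.S18.C6b_helper4
import Fermat.Agent.S34.Cusp0Defs_helper4

/-!
# Item 82 (S34), slice (I3): `H26DI.CompTransvStatement` (helper12)

`H12TC.compTransv`: the concrete transversality statement of (DICH), from

* `H8PB.PairGaussStatement` (I1, helper8),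
* `H26DI.CompUnif1Statement` (I2: a uniformizer of `(M₀/P₁)_𝔫`),
* `H12TC.ResCompStatement` (**residue comparison**, "component 1 = level `M`"): every element
  of the chart ring is congruent modulo `P₁` to an element of level `M`,
* `H12TC.NodeBaseStatement` (kinds 2, 3 only): no common point of the two components lies over
  the cusp `t = 0` of the chart `t`.
-/

set_option autoImplicit false
set_option linter.style.longLine false
set_option linter.unusedSectionVars false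
set_option linter.unusedVariables false
set_option linter.style.haveILetI false
set_option synthInstance.maxHeartbeats 400000
set_option maxHeartbeats 1000000

noncomputable section

open ModularCurve H7S18 H4S34 H26DI

namespace H12TC

/-- **(b) residue comparison** ("component 1 = level `M`"): every element of the chart ring of
level `M q` is congruent modulo `P₁` to an element of the chart ring which is of level `M`. -/
def ResCompStatement : Prop :=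
  ∀ (M : ℕ) [NeZero M] (q : ℕ) [NeZero q] (hq : q.Prime) (hqM : ¬ q ∣ M) (_ : TameLevel q M)
    (A : ValuationSubring (AlgebraicClosure ℚ)) (_ : A.LiesOverPrime q),
    ∃ K₀ : IntermediateField ℚ (AlgebraicClosure ℚ), FiniteDimensional ℚ K₀ ∧
    ∀ (K₁ : IntermediateField ℚ (AlgebraicClosure ℚ)) (_ : K₀ ≤ K₁) (_ : FiniteDimensional ℚ K₁)
      (_ : Normal ℚ K₁)
      [Algebra ↥(descVal A K₁) (FK K₁ (M * q))]
      [IsScalarTower ↥(descVal A K₁) K₁ (FK K₁ (M * q))]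
      (ϖ : ↥(descVal A K₁)) (_ : Irreducible ϖ)
      (t₀ : LaurentSeries ℚ) (_ : IsBase (baseKind q) t₀)
      (t : FK K₁ (M * q)) (_ : (t : LaurentSeries K₁) = coeffEmb K₁ t₀)
      (P₁ : Ideal (Chart ↥(descVal A K₁) t)) (_ : IsComp1 A K₁ t P₁)
      (y : Chart ↥(descVal A K₁) t),
      ∃ y' : Chart ↥(descVal A K₁) t,
        (((y' : FK K₁ (M * q))) : LaurentSeries K₁) ∈
          laurentBaseChange ↥K₁ (modularFunctionFieldFull M) ∧ y - y' ∈ P₁

/-- **(c0)** for the base functions of kind 2, 3 (`q = 3, 2`): no common point of the two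
components of the chart `t` lies over the cusp `t = 0`. -/
def NodeBaseStatement : Prop :=
  ∀ (M : ℕ) [NeZero M] (q : ℕ) [NeZero q] (hq : q.Prime) (hqM : ¬ q ∣ M) (_ : TameLevel q M)
    (_ : q = 2 ∨ q = 3)
    (A : ValuationSubring (AlgebraicClosure ℚ)) (_ : A.LiesOverPrime q),
    ∃ K₀ : IntermediateField ℚ (AlgebraicClosure ℚ), FiniteDimensional ℚ K₀ ∧
    ∀ (K₁ : IntermediateField ℚ (AlgebraicClosure ℚ)) (_ : K₀ ≤ K₁) (_ : FiniteDimensional ℚ K₁)
      (_ : Normal ℚ K₁)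
      [Algebra ↥(descVal A K₁) (FK K₁ (M * q))]
      [IsScalarTower ↥(descVal A K₁) K₁ (FK K₁ (M * q))]
      (ϖ : ↥(descVal A K₁)) (_ : Irreducible ϖ)
      (t₀ : LaurentSeries ℚ) (_ : IsBase (baseKind q) t₀)
      (t : FK K₁ (M * q)) (_ : (t : LaurentSeries K₁) = coeffEmb K₁ t₀)
      (P₁ P₂ : Ideal (Chart ↥(descVal A K₁) t)) (_ : IsComp1 A K₁ t P₁)
      (_ : IsComp2 hq hqM A K₁ t P₂)
      (𝔫 : Ideal (Chart ↥(descVal A K₁) t)) (_ : IsClosedPt ↥(descVal A K₁) ϖ t 𝔫),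
      P₁ ≤ 𝔫 → P₂ ≤ 𝔫 → ∀ y : Chart ↥(descVal A K₁) t, (y : FK K₁ (M * q)) = t → y ∉ 𝔫

/-! ### kind 1: `w j = j(𝐪^q)` is integral over `R[j]` -/

section Kind1

/-- an element integral over `ℤ[t]` is integral over `R[t]` -/
theorem isInt_of_evZ {R : Type} [CommRing R] {E : Type} [Field E] [Algebra R E] (t x : E)
    (hx : (H24BI.evZ t).IsIntegralElem x) : IsInt R t x := by
  obtain ⟨P, hP, hPx⟩ := hx
  have hpm : (P.map (H24BI.evZ t)).Monic := hP.map _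
  have hy : (P.map (H24BI.evZ t)).eval x = 0 := by
    rw [Polynomial.eval_map]
    exact hPx
  have h := H28UG.isIntegral_mul_of_monic_root (Algebra.adjoin R {t}) 1 x (one_mem _)
    (P.map (H24BI.evZ t)) hpm hy (fun i _ => by
      rw [Polynomial.coeff_map, one_mul]
      exact H24BI.evZ_mem_adjoin t _)
  rwa [one_mul] at h

/-- `w j = j(𝐪^q)` is integral over `R[j]` -/
theorem wq_isInt_kind1 (K₁ : IntermediateField ℚ (AlgebraicClosure ℚ)) (M q : ℕ) [NeZero M]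
    [NeZero q] (hq : q.Prime) (hqM : ¬ q ∣ M)
    (R : Type) [CommRing R] [Algebra R (FK K₁ (M * q))]
    (t₀ : LaurentSeries ℚ) (ht₀ : IsBase 1 t₀)
    (t : FK K₁ (M * q)) (ht : (t : LaurentSeries K₁) = coeffEmb K₁ t₀) :
    IsInt R t (H12AL.wqKHom K₁ M q hq hqM t) := by
  haveI : Fact q.Prime := ⟨hq⟩
  have ht₀' : t₀ = jq := by
    rcases ht₀ with ⟨-, h⟩ | ⟨h, -⟩ | ⟨h, -⟩
    · exact h
    · omega
    · omega
  have hlev : t₀ ∈ modularFunctionFieldFull M := by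
    rw [ht₀']
    have := jqd_mem_full M (one_dvd M)
    rwa [qExpand_one_apply] at this
  have hmem : (t : LaurentSeries K₁) ∈ laurentBaseChange K₁ (modularFunctionFieldFull M) := by
    rw [ht]
    exact coeffEmb_mem_laurentBaseChange K₁ hlev
  have hx := H12AL.coe_wqKHom_of_level K₁ M q hq hqM t hmem
  have htj : (t : LaurentSeries K₁) = jqModC K₁ := by
    rw [ht, ht₀']
    exact H28GV.gv_coeffEmb_jq K₁
  rw [htj] at hx
  apply isInt_of_evZ
  obtain ⟨P, hP, hPx⟩ := H15U.jp_integral q ↥K₁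
  refine ⟨P, hP, Subtype.val_injective ?_⟩
  set ι : FK K₁ (M * q) →+* LaurentSeries K₁ :=
    (laurentBaseChange K₁ (modularFunctionFieldFull (M * q))).val.toRingHom with hι
  change ι (Polynomial.eval₂ (H24BI.evZ t) (H12AL.wqKHom K₁ M q hq hqM t) P) = ι 0
  rw [Polynomial.hom_eval₂, H24BI.evZ_comp, map_zero]
  have h1 : ι t = jqModC K₁ := htj
  have h2 : ι (H12AL.wqKHom K₁ M q hq hqM t) = qExpand K₁ q (jqModC K₁) := hx
  rw [h1, h2]
  exact hPx

end Kind1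

/-! ### the assembly -/

theorem baseKind_hi (M q : ℕ) (hT : TameLevel q M) :
    baseKind q = 1 ∨ (baseKind q = 2 ∧ 2 ∣ M * q) ∨ (baseKind q = 3 ∧ 3 ∣ M * q) := by
  unfold baseKind
  by_cases h2 : q = 2
  · rw [if_pos h2]
    exact Or.inr (Or.inr ⟨rfl, Dvd.dvd.mul_right (hT.2.1 h2) q⟩)
  · rw [if_neg h2]
    by_cases h3 : q = 3
    · rw [if_pos h3]
      exact Or.inr (Or.inl ⟨rfl, Dvd.dvd.mul_right (hT.2.2 h3) q⟩)
    · rw [if_neg h3]
      exact Or.inl rfl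

theorem baseKind_eq_one (q : ℕ) (h : ¬ (q = 2 ∨ q = 3)) : baseKind q = 1 := by
  unfold baseKind
  push Not at h
  rw [if_neg h.1, if_neg h.2]

/-- **(I3)**: `CompTransvStatement` from (I1), (I2), the residue comparison and (for kinds 2, 3)
the separation of the components over the cusp `t = 0`. -/
theorem compTransv (hPG : H8PB.PairGaussStatement) (hU : H26DI.CompUnif1Statement)
    (hRC : ResCompStatement) (hNB : NodeBaseStatement) : H26DI.CompTransvStatement := by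
  intro M _ q _ hq hqM hT A hA
  haveI : Fact q.Prime := ⟨hq⟩
  obtain ⟨K₀₁, hK₀₁, hU'⟩ := hU M q hq hqM hT A hA
  obtain ⟨K₀₂, hK₀₂, hRC'⟩ := hRC M q hq hqM hT A hA
  -- the number field for (c0)
  have hNB' : ∃ K₀ : IntermediateField ℚ (AlgebraicClosure ℚ), FiniteDimensional ℚ K₀ ∧
      ((q = 2 ∨ q = 3) →
      ∀ (K₁ : IntermediateField ℚ (AlgebraicClosure ℚ)) (_ : K₀ ≤ K₁)
        (_ : FiniteDimensional ℚ K₁) (_ : Normal ℚ K₁)
        [Algebra ↥(descVal A K₁) (FK K₁ (M * q))]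
        [IsScalarTower ↥(descVal A K₁) K₁ (FK K₁ (M * q))]
        (ϖ : ↥(descVal A K₁)) (_ : Irreducible ϖ)
        (t₀ : LaurentSeries ℚ) (_ : IsBase (baseKind q) t₀)
        (t : FK K₁ (M * q)) (_ : (t : LaurentSeries K₁) = coeffEmb K₁ t₀)
        (P₁ P₂ : Ideal (Chart ↥(descVal A K₁) t)) (_ : IsComp1 A K₁ t P₁)
        (_ : IsComp2 hq hqM A K₁ t P₂)
        (𝔫 : Ideal (Chart ↥(descVal A K₁) t)) (_ : IsClosedPt ↥(descVal A K₁) ϖ t 𝔫),
        P₁ ≤ 𝔫 → P₂ ≤ 𝔫 → ∀ y : Chart ↥(descVal A K₁) t, (y : FK K₁ (M * q)) = t → y ∉ 𝔫) := by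
    by_cases h23 : q = 2 ∨ q = 3
    · obtain ⟨K₀, hK₀, h⟩ := hNB M q hq hqM hT h23 A hA
      exact ⟨K₀, hK₀, fun _ => h⟩
    · exact ⟨⊥, inferInstance, fun h => absurd h h23⟩
  obtain ⟨K₀₃, hK₀₃, hNB''⟩ := hNB'
  haveI := hK₀₁
  haveI := hK₀₂
  haveI := hK₀₃
  refine ⟨K₀₁ ⊔ K₀₂ ⊔ K₀₃, inferInstance, ?_⟩
  intro K₁ hle hfin hnorm _ _ ϖ hϖ t₀ ht₀ t ht P₁ P₂ hc1 hc2 𝔫 hcl h1 h2
  haveI := hnorm
  haveI : 𝔫.IsPrime := hcl.1.isPrime
  have hle₁ : K₀₁ ≤ K₁ := le_trans (le_trans le_sup_left le_sup_left) hle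
  have hle₂ : K₀₂ ≤ K₁ := le_trans (le_trans le_sup_right le_sup_left) hle
  have hle₃ : K₀₃ ≤ K₁ := le_trans le_sup_right hle
  -- `R` is a DVR, `t` is transcendental
  obtain ⟨hdvr, -, -⟩ := H4DVR.dvrStatement q A hA K₁ hfin
  haveI := hdvr
  obtain ⟨t', ht'coe, ht'tr, -, -⟩ :=
    H9C6e.fieldBasics (M * q) (baseKind q) (baseKind_hi M q hT) t₀ ht₀ ↥K₁
  have htt : t' = t := Subtype.ext (ht'coe.trans ht.symm)
  rw [htt] at ht'tr
  have htR : Transcendental ↥(descVal A K₁) t := H19S18.h19_transc ↥(descVal A K₁) ↥K₁ ht'tr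
  -- (I1)
  have hPGx : ∀ x : Chart ↥(descVal A K₁) t,
      H8PB.InG (descVal A K₁) (((x : FK K₁ (M * q))) : LaurentSeries K₁) ∧
        H8PB.InG (descVal A K₁)
          ((H12AL.wqKHom K₁ M q hq hqM (x : FK K₁ (M * q)) : FK K₁ (M * q)) :
            LaurentSeries K₁) := fun x =>
    (hPG M q hq hqM hT A hA K₁ hfin ϖ hϖ t₀ ht₀ t ht (x : FK K₁ (M * q))).1.mp
      (H19S18.h19_gint_of_isInt ↥(descVal A K₁) htR hϖ x.2)
  -- (I2) + (b): a uniformizer of level `M`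
  obtain ⟨x, hx𝔫, hxP, hxu⟩ :=
    hU' K₁ hle₁ hfin hnorm ϖ hϖ t₀ ht₀ t ht t P₁ hc1 𝔫 hcl (Or.inl rfl) h1
  obtain ⟨f, hfM, hxf⟩ := hRC' K₁ hle₂ hfin hnorm ϖ hϖ t₀ ht₀ t ht P₁ hc1 x
  have hf𝔫 : f ∈ 𝔫 := by
    have e : f = x - (x - f) := by ring
    rw [e]
    exact sub_mem hx𝔫 (h1 hxf)
  have hunif : ∀ z ∈ 𝔫, ∃ u : Chart ↥(descVal A K₁) t, u ∉ 𝔫 ∧
      ∃ c : Chart ↥(descVal A K₁) t, u * z - c * f ∈ P₁ := by
    intro z hz
    obtain ⟨u, hu, c, hc⟩ := hxu z hz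
    refine ⟨u, hu, c, ?_⟩
    have e : u * z - c * f = (u * z - c * x) + c * (x - f) := by ring
    rw [e]
    exact add_mem hc (P₁.mul_mem_left _ hxf)
  -- `w t ∈ B_𝔫`
  have hint_t : IsInt ↥(descVal A K₁) t t := H19S18.h19_isInt_t ↥(descVal A K₁) t
  have hwt : InLoc ↥(descVal A K₁) t 𝔫 (H12AL.wqKHom K₁ M q hq hqM t) := by
    by_cases h23 : q = 2 ∨ q = 3
    · obtain ⟨D, hD⟩ := H24BI.h24bi_wq_isInt_tame K₁ M q hq hqM hT ↥(descVal A K₁) t₀ ht₀ t ht
      have ht𝔫 : (⟨t, hint_t⟩ : Chart ↥(descVal A K₁) t) ∉ 𝔫 :=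
        hNB'' h23 K₁ hle₃ hfin hnorm ϖ hϖ t₀ ht₀ t ht P₁ P₂ hc1 hc2 𝔫 hcl h1 h2 _ rfl
      refine ⟨⟨_, hD⟩, (⟨t, hint_t⟩ : Chart ↥(descVal A K₁) t) ^ D,
        fun h => ht𝔫 (Ideal.IsPrime.mem_of_pow_mem ‹_› D h), ?_⟩
      push_cast
      rfl
    · have hk : IsBase 1 t₀ := by
        have := baseKind_eq_one q h23
        rwa [this] at ht₀
      have hI := wq_isInt_kind1 K₁ M q hq hqM ↥(descVal A K₁) t₀ hk t ht
      exact ⟨⟨_, hI⟩, 1, fun h => (Ideal.ne_top_iff_one 𝔫).mp (Ideal.IsPrime.ne_top ‹_›) h,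
        by simp⟩
  exact (transv_core A K₁ M q hq hqM hA t₀ t ht P₁ P₂ 𝔫 h2 (fun y hy => (hc2 y).mpr hy)
    (fun y => (hPGx y).2) hwt f hfM (hPGx f).1 hf𝔫 hunif).1

/-- the architect's `H4S34.CompCusp0Statement` gives `NodeBaseStatement`. -/
theorem nodeBase_of_cusp0 (h : H4S34.CompCusp0Statement) : NodeBaseStatement := by
  intro M _ q _ hq hqM hT h23 A hA
  refine ⟨⊥, inferInstance, ?_⟩
  intro K₁ _ hfin _ _ _ ϖ hϖ t₀ ht₀ t ht P₁ P₂ hc1 hc2 𝔫 hcl h1 h2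
  exact H4S34.t_notMem_of_cusp0 h M q hq hqM hT h23 A hA K₁ hfin ϖ hϖ t₀ ht₀ t ht P₁ P₂ hc1 hc2
    𝔫 hcl h1 h2

/-- **(I3)** in the architect's interface: `CompTransvStatement` from (I1), (I2), the residue
comparison (C) and (CUSP0). -/
theorem compTransv' (hPG : H8PB.PairGaussStatement) (hU : H26DI.CompUnif1Statement)
    (hRC : ResCompStatement) (hC0 : H4S34.CompCusp0Statement) : H26DI.CompTransvStatement :=
  compTransv hPG hU hRC (nodeBase_of_cusp0 hC0)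

end H12TC

end
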