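import Fermat.Agent.S34.VertConc_helper15
import Fermat.Agent.S34.BaseInt_helper24
import Fermat.Agent.S34.Cusp0Defs_helper4
import Fermat.Agent.S18.C7d_helper4

/-!
# helper15, item 82 (S34), (DICH) concrete, slice (I4): `H26DI.CompVertStatement`

`H15V.compVert : H4S34.CompCusp0Statement → H26DI.CompVertStatement`: at a common point `𝔫` of
the two components of the chart `t`, the functions `a = t^{k n₁} f_q`, `a' = t^{k n₂} u_q`
(`f_q = Δ(𝐪^q)/Δ`, `u_q = q^{12} / f_q`) form a vertical pair: `a a' = q^{12} t^{k(n₁+n₂)}`,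
`a ∉ P₁`, `a' ∉ P₂`, and `t ∉ 𝔫` (for `q ∈ {2, 3}` by (CUSP0); for the chart `j` no power of `t`
is needed).
-/

set_option autoImplicit false
set_option synthInstance.maxHeartbeats 400000

noncomputable section

open ModularCurve H7S18 H4S34 H26DI

namespace H15V

/-- a base function has an integral model with leading coefficient `1` -/
theorem exists_model (i : ℕ) (t₀ : LaurentSeries ℚ) (ht₀ : IsBase i t₀) :
    ∃ tZ : LaurentSeries ℤ, coeffMap (Int.castRingHom ℚ) tZ = t₀ ∧ tZ.coeff (-1) = 1 := by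
  have h0 := ht₀
  rcases ht₀ with ⟨rfl, h⟩ | ⟨rfl, h⟩ | ⟨rfl, -, -⟩
  · exact ⟨jqModC ℤ, by rw [coeffMap_jqModC, h]; rfl, H4C7d.jq_coeff_neg_one ℤ⟩
  · exact ⟨H4HM.t2 ℤ, by rw [H4HM.coeffMap_t2, H4BR.eq_t2_of_isBase h0],
      H4HM.t2_coeff_neg_one ℤ⟩
  · exact ⟨H4HM.t3 ℤ, by rw [H4HM.coeffMap_t3, H4BR.eq_t3_of_isBase h0],
      H4HM.t3_coeff_neg_one ℤ⟩

/-- the integral model over a valuation ring -/
theorem exists_tR {K : Type} [Field K] [Algebra ℚ K] (R : ValuationSubring K)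
    (i : ℕ) (t₀ : LaurentSeries ℚ) (ht₀ : IsBase i t₀) :
    ∃ tR : LaurentSeries ↥R, coeffMap R.subtype tR = coeffEmb K t₀ ∧ red R tR ≠ 0 := by
  obtain ⟨tZ, h1, h2⟩ := exists_model i t₀ ht₀
  refine ⟨coeffMap (Int.castRingHom ↥R) tZ, ?_, ?_⟩
  · rw [← h1, coeffEmb, coeffMap_coeffMap, coeffMap_coeffMap]
    exact coeffMap_congr (RingHom.ext fun c => by simp) tZ
  · intro h0
    have h3 := congrArg (fun z : LaurentSeries (IsLocalRing.ResidueField R) => z.coeff (-1)) h0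
    simp only [red, coeffMap_coeff, HahnSeries.coeff_zero, h2, map_one] at h3
    exact one_ne_zero h3

/-- **(I4)**: the vertical pair at the common points of the chart `t`, from (CUSP0). -/
theorem compVert (h0 : H4S34.CompCusp0Statement) : H26DI.CompVertStatement := by
  intro M _ q _ hq hqM hT A hA
  refine ⟨⊥, inferInstance, ?_⟩
  intro K₁ _ hfd _ _ _ ϖ hϖ t₀ ht₀ t ht P₁ P₂ h1 h2 𝔫 h𝔫 hP₁ hP₂
  have : Fact q.Prime := ⟨hq⟩
  obtain ⟨tR, htR, hred⟩ := exists_tR (descVal A K₁) (baseKind q) t₀ ht₀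
  have hlev : (t : LaurentSeries K₁) ∈ laurentBaseChange K₁ (modularFunctionFieldFull M) := by
    rw [ht]
    exact coeffEmb_mem_laurentBaseChange K₁ (H24BI.base_mem_of_tame M q hT t₀ ht₀)
  by_cases h23 : q = 2 ∨ q = 3
  · -- kinds 2, 3: `t ∉ 𝔫` by (CUSP0)
    obtain ⟨G, k, -, -, hrel⟩ := H24BI.exists_rel K₁ (baseKind q) t₀ ht₀
    have hrel' : H9C6e.JK K₁ (M * q) * t ^ k = H15C.ev t G := by
      apply theta_injective K₁ (M * q)
      rw [map_mul, map_pow, H15C.ev_hom_apply, theta_apply, theta_apply, H9C6e.coe_JK, ht]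
      exact hrel.symm
    exact vert_conc A K₁ hq hqM hA hfd ϖ hϖ t tR (htR.trans ht.symm) hred hlev k G hrel' P₁ P₂
      h1 h2 𝔫 h𝔫.1.isPrime
      (fun _ => H4S34.t_notMem_of_cusp0 h0 M q hq hqM hT h23 A hA K₁ hfd ϖ hϖ t₀ ht₀ t ht
        P₁ P₂ h1 h2 𝔫 h𝔫 hP₁ hP₂)
  · -- kind 1: `t = j`
    have hk : baseKind q = 1 := by
      unfold baseKind
      rw [if_neg (fun h => h23 (Or.inl h)), if_neg (fun h => h23 (Or.inr h))]
    rw [hk] at ht₀
    have htJ : t = H9C6e.JK K₁ (M * q) := by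
      apply theta_injective K₁ (M * q)
      rw [theta_apply, theta_apply, H9C6e.coe_JK, ht, H4BR.eq_jq_of_isBase ht₀]
      exact H28GV.gv_coeffEmb_jq K₁
    have hrel' : H9C6e.JK K₁ (M * q) * t ^ 0 = H15C.ev t Polynomial.X := by
      rw [pow_zero, mul_one, H15C.ev_X, htJ]
    exact vert_conc A K₁ hq hqM hA hfd ϖ hϖ t tR (htR.trans ht.symm) hred hlev 0 Polynomial.X
      hrel' P₁ P₂ h1 h2 𝔫 h𝔫.1.isPrime (fun h => absurd rfl h)

end H15V

end
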