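import Mathlib
import Fermat.Agent.S34.Chain2_helper4
import Fermat.Agent.S34.TransvAsm_helper12
import Fermat.Agent.S34.Vert_helper15
import Fermat.Agent.S34.Cusp0Defs_helper4

/-!
# Item 82 (S34), architect file (helper4): the chain, third part

`CompVert` (helper15) and `CompTransv` (helper12) are proved from the leaves:
S34 ⟸ `CompUnif1` + `CompUnif2` + `CompCusp` + `CompCusp0` + `ResComp`.
-/

set_option autoImplicit false
set_option linter.style.haveILetI false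

noncomputable section

open H7S18

namespace H4S34

variable {p : ℕ} {N : ℕ} [NeZero N] {S : Finset ℕ}
  {𝒪 : Type} [CommRing 𝒪] [IsDomain 𝒪] [IsDiscreteValuationRing 𝒪]
  [IsAdicComplete (IsLocalRing.maximalIdeal 𝒪) 𝒪]
  {θ : CuspForm.heckeAlgebra N 2 (↑S : Set ℕ) →+* IsLocalRing.ResidueField 𝒪}
  {T : Type} [CommRing T] [IsLocalRing T] [IsNoetherianRing T]
  [IsAdicComplete (IsLocalRing.maximalIdeal T) T] [Algebra 𝒪 T] [IsLocalHom (algebraMap 𝒪 T)]
  [Module.Finite 𝒪 T] [Module.Free 𝒪 T]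

/-- **S34** from the five leaves `CompUnif1`, `CompUnif2`, `CompCusp`, `CompCusp0`,
`ResComp`. -/
theorem s34_of_leaves (cu1 : H26DI.CompUnif1Statement) (cu2 : H26DI.CompUnif2Statement)
    (cc : H26DI.CompCuspStatement) (c0 : CompCusp0Statement) (rc : H12TC.ResCompStatement)
    (hp : p.Prime) (hp𝒪 : (p : 𝒪) ∈ IsLocalRing.maximalIdeal 𝒪) (hpS : p ∈ S)
    (hNS : ∀ q : ℕ, q.Prime → q ∣ N → q ∈ S)
    (H : CuspForm.HeckeGaloisRepDatum N (↑S : Set ℕ) 𝒪 θ T)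
    (q : ℕ) (hq : q.Prime) (hqp : q ≠ p) (hqN : q ∣ N) (hq2 : ¬ q ^ 2 ∣ N) :
    H.ρ.IsUnipotentOnInertiaAt q :=
  s34_of_comp cu1 cu2 (H12TC.compTransv' H8PB.h8pg_pairGauss cu1 rc c0) (H15V.compVert c0) cc
    hp hp𝒪 hpS hNS H q hq hqp hqN hq2

end H4S34

end
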