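import Mathlib

/-!
# helper27 — item 82 (S34): separation of the two components at the cusps (abstract part)

Mathlib only.  Notation of the application: `U = 1/j`, `V = 1/j_q` in the chart at infinity `B'`
(integral closure of `R[1/j]` in `F₁`), `P₁, P₂` the two vertical primes (centres of the two Gauss
valuations), `𝔫 ∋ U` a closed point over `1/j = 0` ("cusp of the special fibre").

The modular equation `Φ_q(j, j_q) = 0` with `deg_j (coeff_k Φ) ≤ q` (`1 ≤ k ≤ q`) and constant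
coefficient `± j^(q+1) + …` reads, after multiplication by `U^(q+1) V^(q+1)`:

  `c V^(q+1) + U V W + U^(q+1) = 0`,   `c = ε + U c'`                         (`InvRel`)

* `H27CS.invRel_of_poly` : this inversion, for any `Φ : ℤ[X][Y]` with the degree bounds.
* `H27CS.e_quadratic` : `e := U^q / V` satisfies the MONIC equation
  `e² + W e + c (U V)^(q-1) = 0`: `e` is integral over `ℤ[U, V, c, W]` — no Hartogs, no valuations.
* `H27CS.cV_integral` : `(c V)^(q+1) + … = 0`: `c V` is integral over `ℤ[U, c, …]`, and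
  `V ∈ 𝔫` as soon as `U ∈ 𝔫`, `c ∉ 𝔫` (`H27CS.V_mem_of_U_mem`).
* `H27CS.cusp_sep` : **no prime `𝔫` containing `U` contains both `P₁` and `P₂`** when
  `V - U^q ∈ P₁`, `U - V^q ∈ P₂` (Kronecker congruences), `V ∉ P₁`, `V ∉ P₂`, `2 ≤ q`:
  indeed `e ≡ 1 mod P₁` and `e ≡ V^(q²-1) mod P₂`.
-/

set_option autoImplicit false

namespace H27CS

open Polynomial

section rel

variable {S : Type*} [CommRing S]

/-- the inverted modular relation `c V^(q+1) + U V W + U^(q+1) = 0`. -/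
def InvRel (q : ℕ) (U V c W : S) : Prop :=
  c * V ^ (q + 1) + U * V * W + U ^ (q + 1) = 0

/-- `e V = U^q` and the inverted relation give `V² (e² + W e + c (U V)^(q-1)) = 0`. -/
theorem e_quadratic_mul (q : ℕ) (hq : 1 ≤ q) {U V c W e : S} (h : InvRel q U V c W)
    (he : e * V = U ^ q) :
    V ^ 2 * (e ^ 2 + W * e + c * (U * V) ^ (q - 1)) = 0 := by
  obtain ⟨r, rfl⟩ : ∃ r, q = r + 1 := ⟨q - 1, by omega⟩
  have h' : c * V ^ (r + 1 + 1) + U * V * W + U ^ (r + 1 + 1) = 0 := h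
  have : V ^ 2 * (e ^ 2 + W * e + c * (U * V) ^ (r + 1 - 1))
      = (e * V) ^ 2 + W * (e * V) * V + c * U ^ r * V ^ (r + 2) := by
    rw [Nat.add_sub_cancel, mul_pow]
    ring
  rw [this, he]
  have : (U ^ (r + 1)) ^ 2 + W * U ^ (r + 1) * V + c * U ^ r * V ^ (r + 2)
      = U ^ r * (c * V ^ (r + 1 + 1) + U * V * W + U ^ (r + 1 + 1)) := by ring
  rw [this, h', mul_zero]

/-- **integrality of `e = U^q / V`**: in a domain, `e² + W e + c (U V)^(q-1) = 0`. -/
theorem e_quadratic [IsDomain S] (q : ℕ) (hq : 1 ≤ q) {U V c W e : S} (h : InvRel q U V c W)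
    (he : e * V = U ^ q) (hV : V ≠ 0) :
    e ^ 2 + W * e + c * (U * V) ^ (q - 1) = 0 := by
  have := e_quadratic_mul q hq h he
  rcases mul_eq_zero.1 this with h0 | h0
  · exact absurd (pow_eq_zero_iff (two_ne_zero)|>.1 h0) hV
  · exact h0

/-- `V^(q+1)` is a multiple of `U` times a unit-free expression: `c V^(q+1) ∈ (U)`. -/
theorem c_mul_pow_mem (q : ℕ) {U V c W : S} (h : InvRel q U V c W) :
    c * V ^ (q + 1) ∈ Ideal.span {U} := by
  have h' : c * V ^ (q + 1) + U * V * W + U ^ (q + 1) = 0 := h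
  have : c * V ^ (q + 1) = U * (-(V * W) - U ^ q) := by
    have e1 : c * V ^ (q + 1) = -(U * V * W + U ^ (q + 1)) := by
      rw [eq_neg_iff_add_eq_zero, ← add_assoc]; exact h'
    rw [e1]; ring
  rw [this]
  exact Ideal.mul_mem_right _ _ (Ideal.mem_span_singleton_self U)

/-- at a prime `𝔫 ∋ U` with `c ∉ 𝔫`: `V ∈ 𝔫`. -/
theorem V_mem_of_U_mem (q : ℕ) {U V c W : S} (h : InvRel q U V c W)
    (n : Ideal S) [hn : n.IsPrime] (hU : U ∈ n) (hc : c ∉ n) : V ∈ n := by
  have h1 : c * V ^ (q + 1) ∈ n :=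
    (Ideal.span_singleton_le_iff_mem n).2 hU (c_mul_pow_mem q h)
  rcases hn.mem_or_mem h1 with h2 | h2
  · exact absurd h2 hc
  · exact hn.mem_of_pow_mem _ h2

end rel

section sep

variable {S : Type*} [CommRing S]

/-- **Cusp separation.**  `n` prime, `V ∈ n`, `e V = U^q`; Kronecker congruences
`V ≡ U^q mod P₁`, `U ≡ V^q mod P₂`; `V ∉ P₁`, `V ∉ P₂`; `q ≥ 2`.
Then `P₁` and `P₂` are not both contained in `n`. -/
theorem cusp_sep (q : ℕ) (hq : 2 ≤ q) {U V e : S} (he : e * V = U ^ q)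
    (P₁ P₂ n : Ideal S) [hP₁ : P₁.IsPrime] [hP₂ : P₂.IsPrime] [hn : n.IsPrime]
    (hVn : V ∈ n) (h1 : V - U ^ q ∈ P₁) (h2 : U - V ^ q ∈ P₂)
    (hV1 : V ∉ P₁) (hV2 : V ∉ P₂) :
    ¬ (P₁ ≤ n ∧ P₂ ≤ n) := by
  rintro ⟨hle1, hle2⟩
  -- `e ≡ 1 mod P₁`
  have e1 : e - 1 ∈ P₁ := by
    have : (e - 1) * V ∈ P₁ := by
      have : (e - 1) * V = -(V - U ^ q) := by rw [sub_mul, he]; ring
      rw [this]; exact P₁.neg_mem h1
    rcases hP₁.mem_or_mem this with h | h
    · exact h
    · exact absurd h hV1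
  -- `e ≡ V^(q²-1) mod P₂`
  have e2 : e - V ^ (q * q - 1) ∈ P₂ := by
    have hqq : q * q - 1 + 1 = q * q := by
      have : 1 ≤ q * q := Nat.one_le_iff_ne_zero.2 (by positivity)
      omega
    have hpow : U ^ q - (V ^ q) ^ q ∈ P₂ := by
      obtain ⟨d, hd⟩ := sub_dvd_pow_sub_pow U (V ^ q) q
      rw [hd]; exact P₂.mul_mem_right _ h2
    have : (e - V ^ (q * q - 1)) * V ∈ P₂ := by
      have : (e - V ^ (q * q - 1)) * V = U ^ q - (V ^ q) ^ q := by
        rw [sub_mul, he, ← pow_succ, hqq, pow_mul]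
      rw [this]; exact hpow
    rcases hP₂.mem_or_mem this with h | h
    · exact h
    · exact absurd h hV2
  have hpos : 1 ≤ q * q - 1 := by
    have : 4 ≤ q * q := by nlinarith
    omega
  have h3 : V ^ (q * q - 1) ∈ n := n.pow_mem_of_mem hVn _ (by omega)
  have h4 : e ∈ n := by
    have := n.add_mem (hle2 e2) h3
    rwa [sub_add_cancel] at this
  have h5 : (1 : S) ∈ n := by
    have := n.sub_mem h4 (hle1 e1)
    rwa [sub_sub_cancel] at this
  exact hn.ne_top ((Ideal.eq_top_iff_one n).2 h5)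

end sep

end H27CS

namespace H27CS

open Polynomial

section inversion

variable {S : Type*} [CommRing S]

/-- evaluation of integer polynomials at `a : S`. -/
noncomputable def ev (a : S) : Polynomial ℤ →+* S :=
  Polynomial.eval₂RingHom (Int.castRingHom S) a

/-- evaluation of `Ψ ∈ ℤ[X][Y]` at `(a, b)`. -/
noncomputable def ev2 (Ψ : Polynomial (Polynomial ℤ)) (a b : S) : S := Ψ.eval₂ (ev a) b

/-- `U^d c(J) = (reflect d c)(U)` when `J U = 1`, `deg c ≤ d`. -/
theorem pow_mul_ev_eq_reflect {J U : S} (hJU : J * U = 1) (d : ℕ) (c : Polynomial ℤ)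
    (hc : c.natDegree ≤ d) : U ^ d * ev J c = ev U (c.reflect d) := by
  let _ : Invertible J := ⟨U, by rw [mul_comm]; exact hJU, hJU⟩
  have h := Polynomial.eval₂_reflect_mul_pow (Int.castRingHom S) J d c hc
  have hU : ⅟J = U := rfl
  rw [hU] at h
  have h1 : U ^ d * J ^ d = 1 := by rw [← mul_pow, mul_comm, hJU, one_pow]
  calc U ^ d * ev J c = U ^ d * (Polynomial.eval₂ (Int.castRingHom S) U (c.reflect d) * J ^ d) := by
        rw [h]; rfl
    _ = Polynomial.eval₂ (Int.castRingHom S) U (c.reflect d) * (U ^ d * J ^ d) := by ring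
    _ = ev U (c.reflect d) := by rw [h1, mul_one]; rfl

/-- the polynomial `c'` of the inverted relation: `reflect (q+1) (coeff_0 Φ) = ε + X c'`. -/
noncomputable def cPoly (q : ℕ) (Φ : Polynomial (Polynomial ℤ)) : Polynomial ℤ :=
  ((Φ.coeff 0).reflect (q + 1)).divX

/-- the polynomial `W` of the inverted relation. -/
noncomputable def wPoly (q : ℕ) (Φ : Polynomial (Polynomial ℤ)) : Polynomial (Polynomial ℤ) :=
  ∑ k ∈ Finset.range q, Polynomial.C ((Φ.coeff (k + 1)).reflect q) * Polynomial.X ^ (q - 1 - k)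

/-- **Inversion of the modular equation at the cusps.**  Let `Φ ∈ ℤ[X][Y]` be monic of degree
`q + 1` in `Y`, with `deg_X (coeff_k Φ) ≤ q` for `1 ≤ k ≤ q`, `deg_X (coeff_0 Φ) ≤ q + 1` and
`ε` the coefficient of `X^(q+1)` in `coeff_0 Φ`.  If `Φ(J, J') = 0`, `J U = 1`, `J' V = 1`, then
`c V^(q+1) + U V W + U^(q+1) = 0` with `c = ε + U c'(U)`, `W = W(U, V)`. -/
theorem invRel_of_poly (q : ℕ) (Φ : Polynomial (Polynomial ℤ)) (hmon : Φ.Monic)
    (hdeg : Φ.natDegree = q + 1)
    (hk : ∀ k, 1 ≤ k → k ≤ q → (Φ.coeff k).natDegree ≤ q)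
    (h0 : (Φ.coeff 0).natDegree ≤ q + 1)
    {J J' U V : S} (hJU : J * U = 1) (hJV : J' * V = 1) (hΦ : ev2 Φ J J' = 0) :
    InvRel q U V ((((Φ.coeff 0).coeff (q + 1) : ℤ) : S) + U * ev U (cPoly q Φ))
      (ev2 (wPoly q Φ) U V) := by
  unfold InvRel
  have hsum : ∑ k ∈ Finset.range (q + 2), ev J (Φ.coeff k) * J' ^ k = 0 := by
    have := hΦ
    unfold ev2 at this
    rw [Polynomial.eval₂_eq_sum_range, hdeg] at this
    exact this
  have hVJ : ∀ k, k ≤ q + 1 → V ^ (q + 1) * J' ^ k = V ^ (q + 1 - k) := by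
    intro k hk
    have : V ^ (q + 1) = V ^ (q + 1 - k) * V ^ k := by rw [← pow_add]; congr 1; omega
    rw [this, mul_assoc, ← mul_pow, mul_comm V J', hJV, one_pow, mul_one]
  -- multiply by `U^(q+1) V^(q+1)`
  have hmul : ∑ k ∈ Finset.range (q + 2),
      (U ^ (q + 1) * ev J (Φ.coeff k)) * V ^ (q + 1 - k) = 0 := by
    have h1 : U ^ (q + 1) * V ^ (q + 1) * ∑ k ∈ Finset.range (q + 2), ev J (Φ.coeff k) * J' ^ k
        = 0 := by rw [hsum, mul_zero]
    rw [Finset.mul_sum] at h1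
    rw [← h1]
    refine Finset.sum_congr rfl fun k hk => ?_
    have hk' : k ≤ q + 1 := by
      have := Finset.mem_range.1 hk
      omega
    rw [← hVJ k hk']
    ring
  rw [Finset.sum_range_succ, Finset.sum_range_succ'] at hmul
  -- last term
  have hlast : U ^ (q + 1) * ev J (Φ.coeff (q + 1)) * V ^ (q + 1 - (q + 1)) = U ^ (q + 1) := by
    have : Φ.coeff (q + 1) = 1 := by
      have := hmon.coeff_natDegree
      rwa [hdeg] at this
    rw [this, map_one, Nat.sub_self, pow_zero, mul_one, mul_one]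
  -- first term
  have hfirst : U ^ (q + 1) * ev J (Φ.coeff 0) * V ^ (q + 1 - 0)
      = ((((Φ.coeff 0).coeff (q + 1) : ℤ) : S) + U * ev U (cPoly q Φ)) * V ^ (q + 1) := by
    rw [pow_mul_ev_eq_reflect hJU (q + 1) _ h0, Nat.sub_zero]
    congr 1
    have hdx := Polynomial.divX_mul_X_add ((Φ.coeff 0).reflect (q + 1))
    have hc0 : ((Φ.coeff 0).reflect (q + 1)).coeff 0 = (Φ.coeff 0).coeff (q + 1) := by
      rw [Polynomial.coeff_reflect, Polynomial.revAt_le (Nat.zero_le _), Nat.sub_zero]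
    conv_lhs => rw [← hdx]
    rw [map_add, map_mul, hc0]
    unfold cPoly
    have hX : ev U (Polynomial.X : Polynomial ℤ) = U := by
      unfold ev; simp
    have hC : ev U (Polynomial.C ((Φ.coeff 0).coeff (q + 1)))
        = (((Φ.coeff 0).coeff (q + 1) : ℤ) : S) := by
      unfold ev; simp
    rw [hX, hC]
    ring
  -- middle terms
  have hmid : ∑ k ∈ Finset.range q,
      U ^ (q + 1) * ev J (Φ.coeff (k + 1)) * V ^ (q + 1 - (k + 1))
      = U * V * ev2 (wPoly q Φ) U V := by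
    unfold ev2 wPoly
    rw [Polynomial.eval₂_finsetSum, Finset.mul_sum]
    refine Finset.sum_congr rfl fun k hkr => ?_
    have hkq : k < q := Finset.mem_range.1 hkr
    rw [Polynomial.eval₂_mul, Polynomial.eval₂_C, Polynomial.eval₂_pow, Polynomial.eval₂_X,
      ← pow_mul_ev_eq_reflect hJU q _ (hk (k + 1) (by omega) (by omega))]
    have e1 : q + 1 - (k + 1) = (q - 1 - k) + 1 := by omega
    rw [e1, pow_succ U q, pow_succ V (q - 1 - k)]
    ring
  rw [hlast, hfirst, hmid] at hmul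
  rw [← hmul]
  ring

end inversion

end H27CS
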