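import Mathlib
import Fermat.Agent.S28.Interface
import Fermat.Agent.S28.WP2Series
import Fermat.Prelude.Thm_ModularCurve_coeff_jqModC_neg_one
import Fermat.Prelude.Thm_ModularCurve_coeff_jqModC_pow_self
import Fermat.Prelude.Thm_ModularCurve_coeff_jqModC_pow_of_lt
import Fermat.Agent.S34.CuspSepAbs_helper27

/-!
# helper27 — item 82 (S34): degree bounds for the modular polynomial (for CUSP-SEP)

From the product formula `Φ(j(s^p), Y) = ∏ (Y - x_i)` of the modular equation package
(`H28S28.HasModEq`, conjugates `x_none = j(s^{p²})`, `x_b = j(ζ^b s)`):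

* `H27CS.natDegree_coeff_le` : `deg_j (coeff_k Φ) ≤ p` for `1 ≤ k`;
* `H27CS.natDegree_coeff_zero_le` : `deg_j (coeff_0 Φ) ≤ p + 1`;
* `H27CS.isUnit_lead_coeff_zero` : the coefficient of `j^(p+1)` in `coeff_0 Φ` is `± 1`.

Hence (`H27CS.modEq_invRel`) the inverted modular relation
`c V^(p+1) + U V W + U^(p+1) = 0`, `c = ε + U c'(U)`, `ε = ±1`, for `U = 1/J`, `V = 1/J'`
whenever `Φ(J, J') = 0` in a commutative ring.
-/

set_option autoImplicit false

open ModularCurve HahnSeries Polynomial H28S28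

noncomputable section

namespace H27CS

section pole

variable {A : Type} [CommRing A]

/-- pole order at `s = 0` at most `n`. -/
def PoleLE (n : ℤ) (x : LaurentSeries A) : Prop := ∀ k : ℤ, k < -n → x.coeff k = 0

theorem PoleLE.mono {n m : ℤ} {x : LaurentSeries A} (h : PoleLE n x) (hnm : n ≤ m) :
    PoleLE m x := fun k hk => h k (by omega)

theorem poleLE_zero (n : ℤ) : PoleLE n (0 : LaurentSeries A) := fun _ _ => rfl

theorem PoleLE.add {n : ℤ} {x y : LaurentSeries A} (hx : PoleLE n x) (hy : PoleLE n y) :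
    PoleLE n (x + y) := fun k hk => by
  rw [HahnSeries.coeff_add, hx k hk, hy k hk, add_zero]

theorem PoleLE.neg {n : ℤ} {x : LaurentSeries A} (hx : PoleLE n x) : PoleLE n (-x) :=
  fun k hk => by rw [HahnSeries.coeff_neg, hx k hk, neg_zero]

theorem PoleLE.sub {n : ℤ} {x y : LaurentSeries A} (hx : PoleLE n x) (hy : PoleLE n y) :
    PoleLE n (x - y) := by
  rw [sub_eq_add_neg]; exact hx.add hy.neg

theorem poleLE_one : PoleLE 0 (1 : LaurentSeries A) := fun k hk => by
  rw [HahnSeries.coeff_one, if_neg (by omega)]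

theorem PoleLE.mul {n m : ℤ} {x y : LaurentSeries A} (hx : PoleLE n x) (hy : PoleLE m y) :
    PoleLE (n + m) (x * y) := fun k hk => by
  rw [HahnSeries.coeff_mul]
  refine Finset.sum_eq_zero fun ij hij => ?_
  rw [Finset.mem_antidiagonal] at hij
  by_cases h1 : ij.1 < -n
  · rw [hx _ h1, zero_mul]
  · have h2 : ij.2 < -m := by have := hij.2.2; omega
    rw [hy _ h2, mul_zero]

/-- the leading coefficient is multiplicative. -/
theorem PoleLE.coeff_mul {n m : ℤ} {x y : LaurentSeries A} (hx : PoleLE n x) (hy : PoleLE m y) :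
    (x * y).coeff (-(n + m)) = x.coeff (-n) * y.coeff (-m) := by
  rw [HahnSeries.coeff_mul]
  rw [Finset.sum_eq_single ((-n, -m) : ℤ × ℤ)]
  · rintro ⟨a, b⟩ hab hne
    rw [Finset.mem_antidiagonal] at hab
    have hsum : a + b = -(n + m) := hab.2.2
    by_cases h1 : a < -n
    · show x.coeff a * y.coeff b = 0
      rw [hx _ h1, zero_mul]
    · by_cases h2 : b < -m
      · show x.coeff a * y.coeff b = 0
        rw [hy _ h2, mul_zero]
      · exfalso
        apply hne
        have ha : a = -n := by omega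
        have hb : b = -m := by omega
        rw [ha, hb]
  · intro hnot
    rw [Finset.mem_antidiagonal] at hnot
    by_cases h1 : x.coeff (-n) = 0
    · rw [h1, zero_mul]
    · by_cases h2 : y.coeff (-m) = 0
      · rw [h2, mul_zero]
      · exfalso
        apply hnot
        refine ⟨?_, ?_, ?_⟩
        · exact h1
        · exact h2
        · show -n + -m = -(n + m)
          ring

theorem poleLE_jq : PoleLE 1 (jqModC A) := fun k hk => by
  have := ModularCurve.coeff_jqModC_pow_of_lt A (b := 1) (m := k) (by simpa using hk)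
  rwa [pow_one] at this

theorem PoleLE.qExpand {n : ℤ} {x : LaurentSeries A} (hx : PoleLE n x) (N : ℕ) [NeZero N] :
    PoleLE ((N : ℤ) * n) (qExpand A N x) := fun k hk => by
  by_cases hd : (N : ℤ) ∣ k
  · obtain ⟨k', rfl⟩ := hd
    rw [qExpand_coeff_mul]
    apply hx
    have hN : (0 : ℤ) < N := by exact_mod_cast Nat.pos_of_ne_zero (NeZero.ne N)
    by_contra hcon
    have : -n ≤ k' := by omega
    have := mul_le_mul_of_nonneg_left this hN.le
    nlinarith
  · exact qExpand_coeff_of_not_dvd N x hd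

theorem coeff_qExpand_neg (x : LaurentSeries A) (N : ℕ) [NeZero N] (n : ℤ) :
    (qExpand A N x).coeff (-((N : ℤ) * n)) = x.coeff (-n) := by
  have : -((N : ℤ) * n) = (N : ℤ) * (-n) := by ring
  rw [this, qExpand_coeff_mul]

theorem PoleLE.tw {n : ℤ} {x : LaurentSeries A} (hx : PoleLE n x) (ζ : Aˣ) :
    PoleLE n (tw ζ x) := fun k hk => by
  rw [tw_coeff, hx k hk, mul_zero]

end pole

section deg

variable {A : Type} [CommRing A] (p : ℕ) [NeZero p]

/-- `j(s^p)^i` has pole order `≤ p i`. -/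
theorem poleLE_base_pow (i : ℕ) :
    PoleLE ((p : ℤ) * i) ((qExpand A p (jqModC A)) ^ i) := by
  rw [← map_pow]
  refine PoleLE.qExpand (fun k hk => ?_) p
  exact ModularCurve.coeff_jqModC_pow_of_lt A (by simpa using hk)

/-- the coefficient of `s^(-p D)` in `c(j(s^p))`, for `deg c ≤ D`, is `c_D`. -/
theorem coeff_baseEval (c : Polynomial ℤ) (D : ℕ) (hc : c.natDegree ≤ D) :
    (baseEval A p c).coeff (-((p : ℤ) * D)) = ((c.coeff D : ℤ) : A) := by
  have hev : baseEval A p c
      = ∑ i ∈ Finset.range (D + 1), ((c.coeff i : ℤ) : LaurentSeries A)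
          * (qExpand A p (jqModC A)) ^ i := by
    unfold baseEval
    rw [Polynomial.coe_eval₂RingHom, Polynomial.eval₂_eq_sum_range' _ (by omega : c.natDegree < D + 1)]
    rfl
  rw [hev, HahnSeries.coeff_sum]
  rw [Finset.sum_eq_single D]
  · have h1 : ((c.coeff D : ℤ) : LaurentSeries A) = HahnSeries.C ((c.coeff D : ℤ) : A) := by
      rw [map_intCast]
    rw [h1, HahnSeries.C_mul_eq_smul, HahnSeries.coeff_smul, ← map_pow, coeff_qExpand_neg,
      ModularCurve.coeff_jqModC_pow_self, smul_eq_mul, mul_one]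
  · intro i hi hne
    have hiD : i < D := by
      have := Finset.mem_range.1 hi
      omega
    have h1 : ((c.coeff i : ℤ) : LaurentSeries A) = HahnSeries.C ((c.coeff i : ℤ) : A) := by
      rw [map_intCast]
    rw [h1, HahnSeries.C_mul_eq_smul, HahnSeries.coeff_smul, ← map_pow, coeff_qExpand_neg,
      ModularCurve.coeff_jqModC_pow_of_lt A (by
        have : (i : ℤ) < D := by exact_mod_cast hiD
        omega), smul_zero]
  · intro h
    exact absurd (Finset.mem_range.2 (Nat.lt_succ_self D)) h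

/-- a pole bound on `c(j(s^p))` bounds the degree of `c` (characteristic zero). -/
theorem natDegree_le_of_poleLE (hA : Function.Injective (Int.castRingHom A))
    (c : Polynomial ℤ) (n : ℤ) (hn : 0 ≤ n) (h : PoleLE n (baseEval A p c)) :
    (p : ℤ) * c.natDegree ≤ n := by
  by_contra hcon
  have hlt : n < (p : ℤ) * c.natDegree := by omega
  by_cases hc0 : c = 0
  · rw [hc0, Polynomial.natDegree_zero] at hlt
    simp only [Nat.cast_zero, mul_zero] at hlt
    omega
  · have hcoef := coeff_baseEval (A := A) p c c.natDegree le_rfl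
    have hz : (baseEval A p c).coeff (-((p : ℤ) * c.natDegree)) = 0 := h _ (by omega)
    rw [hz] at hcoef
    have : c.coeff c.natDegree = 0 := by
      apply hA
      rw [map_zero]
      exact hcoef.symm
    exact hc0 (Polynomial.leadingCoeff_eq_zero.1 this)

end deg

section prod

variable {A : Type} [CommRing A]

/-- coefficients of `∏ (X - C x_i)` when all `x_i` have pole order `≤ 1`. -/
theorem poleLE_coeff_prod {ι : Type} [DecidableEq ι] (s : Finset ι) (x : ι → LaurentSeries A)
    (hx : ∀ i ∈ s, PoleLE 1 (x i)) :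
    ∀ k : ℕ, PoleLE ((s.card : ℤ) - k)
      ((∏ i ∈ s, ((X : Polynomial (LaurentSeries A)) - Polynomial.C (x i))).coeff k) := by
  induction s using Finset.induction_on with
  | empty =>
    intro k
    rw [Finset.prod_empty, Polynomial.coeff_one]
    split_ifs with h
    · subst h
      simpa using poleLE_one (A := A)
    · exact poleLE_zero _
  | insert a s ha ih =>
    intro k
    have ih' := ih (fun i hi => hx i (Finset.mem_insert_of_mem hi))
    have hxa := hx a (Finset.mem_insert_self a s)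
    rw [Finset.prod_insert ha, Finset.card_insert_of_notMem ha]
    cases k with
    | zero =>
      rw [Polynomial.mul_coeff_zero, Polynomial.coeff_sub, Polynomial.coeff_X_zero,
        Polynomial.coeff_C_zero, zero_sub, neg_mul]
      have := (hxa.mul (ih' 0)).neg
      refine this.mono ?_
      push_cast
      omega
    | succ k =>
      rw [sub_mul, Polynomial.coeff_sub, Polynomial.coeff_X_mul, Polynomial.coeff_C_mul]
      refine PoleLE.sub ((ih' k).mono ?_) ((hxa.mul (ih' (k + 1))).mono ?_)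
      · push_cast; omega
      · push_cast; omega

/-- pole order and leading coefficient of a finite product. -/
theorem poleLE_prod {ι : Type} [DecidableEq ι] (s : Finset ι) (y : ι → LaurentSeries A)
    (n : ι → ℤ) (hy : ∀ i ∈ s, PoleLE (n i) (y i)) :
    PoleLE (∑ i ∈ s, n i) (∏ i ∈ s, y i) ∧
      (∏ i ∈ s, y i).coeff (-(∑ i ∈ s, n i)) = ∏ i ∈ s, (y i).coeff (-(n i)) := by
  induction s using Finset.induction_on with
  | empty =>
    refine ⟨by simpa using poleLE_one (A := A), ?_⟩
    simp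
  | insert a s ha ih =>
    obtain ⟨ih1, ih2⟩ := ih (fun i hi => hy i (Finset.mem_insert_of_mem hi))
    have hya := hy a (Finset.mem_insert_self a s)
    rw [Finset.prod_insert ha, Finset.sum_insert ha, Finset.prod_insert ha]
    exact ⟨hya.mul ih1, by rw [hya.coeff_mul ih1, ih2]⟩

end prod

section main

variable (p : ℕ) [NeZero p]

/-- the product formula of the modular equation (first part of `IsModTriple` / `HasModEq`). -/
def IsModPoly (Φ : Polynomial (Polynomial ℤ)) : Prop :=
  ∀ (A : Type) [CommRing A] (ζ : Aˣ), (Polynomial.cyclotomic p A).eval (ζ : A) = 0 →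
    Φ.map (baseEval A p) = ∏ i : Option (Fin p), (X - Polynomial.C (xconj A p ζ i))

variable {p}

theorem poleLE_xconj_some {A : Type} [CommRing A] (ζ : Aˣ) (b : Fin p) :
    PoleLE 1 (xconj A p ζ (some b)) := poleLE_jq.tw _

theorem poleLE_xconj_none {A : Type} [CommRing A] (ζ : Aˣ) :
    PoleLE ((p : ℤ) * p) (xconj A p ζ none) := by
  have := (poleLE_jq (A := A)).qExpand (p * p)
  refine this.mono ?_
  push_cast
  omega

/-- pole bound for the coefficients of `Φ(j(s^p), Y)`. -/
theorem poleLE_coeff_map {A : Type} [CommRing A] (ζ : Aˣ)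
    (hζ : (Polynomial.cyclotomic p A).eval (ζ : A) = 0)
    {Φ : Polynomial (Polynomial ℤ)} (hΦ : IsModPoly p Φ) (k : ℕ) :
    PoleLE ((p : ℤ) * p + p - k) (baseEval A p (Φ.coeff k)) := by
  classical
  have h := hΦ A ζ hζ
  rw [← Polynomial.coeff_map, h, Fintype.prod_option]
  have hP := poleLE_coeff_prod (Finset.univ : Finset (Fin p))
    (fun b => xconj A p ζ (some b)) (fun b _ => poleLE_xconj_some ζ b)
  rw [Finset.card_univ, Fintype.card_fin] at hP
  have hn := poleLE_xconj_none (p := p) ζ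
  have hp1 : (1 : ℤ) ≤ p := by exact_mod_cast Nat.pos_of_ne_zero (NeZero.ne p)
  have hpp : (1 : ℤ) ≤ (p : ℤ) * p := by nlinarith
  cases k with
  | zero =>
    rw [Polynomial.mul_coeff_zero, Polynomial.coeff_sub, Polynomial.coeff_X_zero,
      Polynomial.coeff_C_zero, zero_sub, neg_mul]
    refine (hn.mul (hP 0)).neg.mono ?_
    push_cast
    omega
  | succ k =>
    rw [sub_mul, Polynomial.coeff_sub, Polynomial.coeff_X_mul, Polynomial.coeff_C_mul]
    refine PoleLE.sub ((hP k).mono ?_) ((hn.mul (hP (k + 1))).mono ?_)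
    · push_cast; omega
    · push_cast; omega

/-- **degree bound**: `deg_j (coeff_k Φ) ≤ p` for `1 ≤ k ≤ p + 1`. -/
theorem natDegree_coeff_le {Φ : Polynomial (Polynomial ℤ)} (hΦ : IsModPoly p Φ)
    (k : ℕ) (hk : 1 ≤ k) (hk' : k ≤ p + 1) : (Φ.coeff k).natDegree ≤ p := by
  obtain ⟨ζ, hζ⟩ := h10_exists_zeta p
  have h := natDegree_le_of_poleLE (A := h10Qbar) p h10_intCast_Qbar_injective (Φ.coeff k)
    ((p : ℤ) * p + p - k) (by
      have hp1 : (1 : ℤ) ≤ p := by exact_mod_cast Nat.pos_of_ne_zero (NeZero.ne p)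
      have : (k : ℤ) ≤ p + 1 := by exact_mod_cast hk'
      nlinarith) (poleLE_coeff_map ζ hζ hΦ k)
  have hp1 : (1 : ℤ) ≤ p := by exact_mod_cast Nat.pos_of_ne_zero (NeZero.ne p)
  have hk1 : (1 : ℤ) ≤ k := by exact_mod_cast hk
  have : (p : ℤ) * (Φ.coeff k).natDegree < (p : ℤ) * (p + 1) := by nlinarith
  have := lt_of_mul_lt_mul_left this (by omega : (0 : ℤ) ≤ p)
  have : ((Φ.coeff k).natDegree : ℤ) ≤ p := by omega
  exact_mod_cast this

/-- **degree bound**: `deg_j (coeff_0 Φ) ≤ p + 1`. -/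
theorem natDegree_coeff_zero_le {Φ : Polynomial (Polynomial ℤ)} (hΦ : IsModPoly p Φ) :
    (Φ.coeff 0).natDegree ≤ p + 1 := by
  obtain ⟨ζ, hζ⟩ := h10_exists_zeta p
  have hp1 : (1 : ℤ) ≤ p := by exact_mod_cast Nat.pos_of_ne_zero (NeZero.ne p)
  have h := natDegree_le_of_poleLE (A := h10Qbar) p h10_intCast_Qbar_injective (Φ.coeff 0)
    ((p : ℤ) * p + p - (0 : ℕ)) (by push_cast; nlinarith) (poleLE_coeff_map ζ hζ hΦ 0)
  have : (p : ℤ) * (Φ.coeff 0).natDegree ≤ (p : ℤ) * (p + 1) := by
    push_cast at h; nlinarith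
  have := le_of_mul_le_mul_left this (by omega : (0 : ℤ) < p)
  exact_mod_cast this

omit [NeZero p] in
/-- a root of the `p`-th cyclotomic polynomial is a `p`-th root of unity. -/
theorem pow_eq_one_of_cyclotomic {A : Type} [CommRing A] (ζ : Aˣ)
    (hζ : (Polynomial.cyclotomic p A).eval (ζ : A) = 0) : ζ ^ p = 1 := by
  have hdvd : Polynomial.cyclotomic p A ∣ X ^ p - 1 := Polynomial.cyclotomic.dvd_X_pow_sub_one p A
  obtain ⟨g, hg⟩ := hdvd
  have h := congrArg (Polynomial.eval (ζ : A)) hg
  rw [Polynomial.eval_mul, hζ, zero_mul, Polynomial.eval_sub, Polynomial.eval_pow,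
    Polynomial.eval_X, Polynomial.eval_one, sub_eq_zero] at h
  exact Units.ext (by rw [Units.val_pow_eq_pow_val, h, Units.val_one])

/-- **leading coefficient**: the coefficient of `j^(p+1)` in `coeff_0 Φ = Φ(j, 0)` is `± 1`. -/
theorem isUnit_lead_coeff_zero {Φ : Polynomial (Polynomial ℤ)} (hΦ : IsModPoly p Φ) :
    IsUnit ((Φ.coeff 0).coeff (p + 1)) := by
  classical
  obtain ⟨ζ, hζ⟩ := h10_exists_zeta p
  have hζp := pow_eq_one_of_cyclotomic ζ hζ
  have hdeg := natDegree_coeff_zero_le hΦ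
  -- the constant coefficient is `∏ (-x_i)`
  have hc0 : baseEval h10Qbar p (Φ.coeff 0) = ∏ i : Option (Fin p), -(xconj h10Qbar p ζ i) := by
    rw [← Polynomial.coeff_map, hΦ h10Qbar ζ hζ, Polynomial.coeff_zero_eq_eval_zero,
      Polynomial.eval_prod]
    refine Finset.prod_congr rfl fun i _ => ?_
    rw [Polynomial.eval_sub, Polynomial.eval_X, Polynomial.eval_C, zero_sub]
  let n : Option (Fin p) → ℤ := fun i => match i with
    | none => (p : ℤ) * p
    | some _ => 1
  have hy : ∀ i ∈ (Finset.univ : Finset (Option (Fin p))),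
      PoleLE (n i) (-(xconj h10Qbar p ζ i)) := by
    intro i _
    cases i with
    | none => exact (poleLE_xconj_none ζ).neg
    | some b => exact (poleLE_xconj_some ζ b).neg
  obtain ⟨-, hlead⟩ := poleLE_prod (Finset.univ : Finset (Option (Fin p)))
    (fun i => -(xconj h10Qbar p ζ i)) n hy
  have hsum : ∑ i : Option (Fin p), n i = (p : ℤ) * ((p + 1 : ℕ) : ℤ) := by
    rw [Fintype.sum_option]
    simp only [n, Finset.sum_const, Finset.card_univ, Fintype.card_fin]
    push_cast
    ring
  rw [← hc0, hsum, coeff_baseEval (A := h10Qbar) p (Φ.coeff 0) (p + 1) hdeg] at hlead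
  -- each leading coefficient is a `2p`-th root of unity
  have hpow : ∀ i : Option (Fin p),
      ((-(xconj h10Qbar p ζ i)).coeff (-(n i))) ^ (2 * p) = 1 := by
    intro i
    cases i with
    | none =>
      have h1 : (xconj h10Qbar p ζ none).coeff (-((p : ℤ) * p)) = 1 := by
        have := coeff_qExpand_neg (A := h10Qbar) (jqModC h10Qbar) (p * p) 1
        rw [ModularCurve.coeff_jqModC_neg_one] at this
        rw [← this]
        show (qExpand h10Qbar (p * p) (jqModC h10Qbar)).coeff _ = _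
        congr 1
        push_cast
        ring
      show ((-(xconj h10Qbar p ζ none)).coeff (-((p : ℤ) * p))) ^ (2 * p) = 1
      rw [HahnSeries.coeff_neg, h1, Even.neg_pow (even_two_mul p), one_pow]
    | some b =>
      show ((-(xconj h10Qbar p ζ (some b))).coeff (-(1 : ℤ))) ^ (2 * p) = 1
      have h1 : (xconj h10Qbar p ζ (some b)).coeff (-(1 : ℤ))
          = (((ζ ^ (b : ℕ)) ^ (-1 : ℤ) : h10Qbarˣ) : h10Qbar) := by
        show (tw (ζ ^ (b : ℕ)) (jqModC h10Qbar)).coeff (-1) = _
        rw [tw_coeff, ModularCurve.coeff_jqModC_neg_one, mul_one]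
      rw [HahnSeries.coeff_neg, h1, Even.neg_pow (even_two_mul p), ← Units.val_pow_eq_pow_val]
      have : ((ζ ^ (b : ℕ)) ^ (-1 : ℤ)) ^ (2 * p) = (1 : h10Qbarˣ) := by
        rw [zpow_neg_one, inv_pow, ← pow_mul, mul_comm (b : ℕ) (2 * p), mul_comm 2 p, mul_assoc,
          pow_mul, hζp, one_pow, inv_one]
      rw [this, Units.val_one]
  have hε : (((Φ.coeff 0).coeff (p + 1) : ℤ) : h10Qbar) ^ (2 * p) = 1 := by
    rw [hlead, ← Finset.prod_pow]
    exact Finset.prod_eq_one fun i _ => hpow i
  have hεZ : ((Φ.coeff 0).coeff (p + 1)) ^ (2 * p) = 1 := by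
    apply h10_intCast_Qbar_injective
    rw [map_pow, map_one]
    exact hε
  exact IsUnit.of_pow_eq_one hεZ (by
    have := Nat.pos_of_ne_zero (NeZero.ne p)
    omega)

/-- **The inverted modular equation at the cusps.**  If `Φ(J, J') = 0` in a commutative ring,
`J U = 1`, `J' V = 1`, then `c V^(p+1) + U V W + U^(p+1) = 0` with `c = ε + U c'(U)`, `ε = ±1`. -/
theorem modEq_invRel {Φ : Polynomial (Polynomial ℤ)} (hΦ : IsModPoly p Φ) (hmon : Φ.Monic)
    (hdeg : Φ.natDegree = p + 1) {S : Type*} [CommRing S] {J J' U V : S}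
    (hJU : J * U = 1) (hJV : J' * V = 1) (h : ev2 Φ J J' = 0) :
    ∃ ε : ℤ, IsUnit ε ∧
      InvRel p U V ((ε : S) + U * ev U (cPoly p Φ)) (ev2 (wPoly p Φ) U V) :=
  ⟨(Φ.coeff 0).coeff (p + 1), isUnit_lead_coeff_zero hΦ,
    invRel_of_poly p Φ hmon hdeg (fun k hk hk' => natDegree_coeff_le hΦ k hk (by omega))
      (natDegree_coeff_zero_le hΦ) hJU hJV h⟩

/-- `ev2` is `H28S28.h10ev2` on Laurent series. -/
theorem ev2_eq_h10ev2 {A : Type} [CommRing A] (Ψ : Polynomial (Polynomial ℤ))
    (a b : LaurentSeries A) : ev2 Ψ a b = h10ev2 Ψ a b := rfl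

/-- the modular polynomial of the package `HasModEq` with all the data needed at the cusps. -/
theorem exists_modPoly (hM : HasModEq p) :
    ∃ Φ : Polynomial (Polynomial ℤ), Φ.Monic ∧ Φ.natDegree = p + 1 ∧ IsModPoly p Φ ∧
      (∀ k, 1 ≤ k → (Φ.coeff k).natDegree ≤ p) ∧ (Φ.coeff 0).natDegree ≤ p + 1 ∧
      IsUnit ((Φ.coeff 0).coeff (p + 1)) := by
  obtain ⟨Φ, T, G, h1, h2, -, -, -, h6⟩ := hM
  have hΦ : IsModPoly p Φ := fun A _ ζ hζ => (h6 A ζ hζ).1
  refine ⟨Φ, h1, h2, hΦ, ?_, natDegree_coeff_zero_le hΦ, isUnit_lead_coeff_zero hΦ⟩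
  intro k hk
  by_cases hk' : k ≤ p + 1
  · exact natDegree_coeff_le hΦ k hk hk'
  · have : Φ.coeff k = 0 := Polynomial.coeff_eq_zero_of_natDegree_lt (by omega)
    rw [this, Polynomial.natDegree_zero]
    exact Nat.zero_le _

end main

end H27CS
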