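import Mathlib
import Fermat.Agent.S34.CuspSepDeg_helper27

/-!
# helper27 — item 82 (S34): cusp separation in an integrally closed local ring

`B` an integrally closed local domain with fraction field `F` (in the application
`B = (M₀)_𝔫` at a closed point `𝔫` over `j = ∞`), `J, J' ∈ Fˣ` with `Φ_p(J, J') = 0`
(`J = j`, `J' = j_p`), `U ∈ 𝔪_B` with `U J = 1`.  Then

* `H27CS.exists_V` : `V := J'⁻¹ ∈ 𝔪_B`;
* `H27CS.exists_e` : `e := J' / J^p = U^p / V ∈ B`;
* `H27CS.cusp_sep_local` : two primes `P₁, P₂` of `B` with the Kronecker congruences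
  `V ≡ U^p mod P₁`, `U ≡ V^p mod P₂`, `V ∉ P₁`, `V ∉ P₂` cannot both exist… more precisely
  `False` follows (both are contained in `𝔪_B`): at a cusp only ONE component of the special
  fibre passes.
-/

set_option autoImplicit false
set_option linter.unusedSectionVars false

open Polynomial H28S28

noncomputable section

namespace H27CS

section hom

variable {S T : Type*} [CommRing S] [CommRing T] (f : S →+* T)

theorem map_ev (a : S) (c : Polynomial ℤ) : f (ev a c) = ev (f a) c := by
  unfold ev
  simp only [Polynomial.coe_eval₂RingHom]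
  rw [Polynomial.hom_eval₂]
  congr 1
  exact Subsingleton.elim _ _

theorem map_ev2 (Ψ : Polynomial (Polynomial ℤ)) (a b : S) :
    f (ev2 Ψ a b) = ev2 Ψ (f a) (f b) := by
  unfold ev2
  rw [Polynomial.hom_eval₂]
  congr 1
  ext c
  · simp only [RingHom.coe_comp, Function.comp_apply]
    exact map_ev f a _
  · simp only [RingHom.coe_comp, Function.comp_apply]
    exact map_ev f a _

end hom

section loc

variable {B : Type*} [CommRing B] [IsDomain B] [IsIntegrallyClosed B] [IsLocalRing B]
variable {F : Type*} [Field F] [Algebra B F] [IsFractionRing B F]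
variable {p : ℕ} [NeZero p]

/-- the data at a cusp: `V = 1/J'` and `e = J'/J^p` lie in `B`, `V ∈ 𝔪_B`, and the inverted
modular relation holds in `B`. -/
theorem exists_V_e {Φ : Polynomial (Polynomial ℤ)} (hΦ : IsModPoly p Φ) (hmon : Φ.Monic)
    (hdeg : Φ.natDegree = p + 1) {J J' : F} (hJ' : J' ≠ 0) (h : ev2 Φ J J' = 0)
    {U : B} (hU : U ∈ IsLocalRing.maximalIdeal B) (hJU : J * algebraMap B F U = 1) :
    ∃ V e c W : B, algebraMap B F V = J'⁻¹ ∧ e * V = U ^ p ∧ IsUnit c ∧
      InvRel p U V c W ∧ V ∈ IsLocalRing.maximalIdeal B := by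
  have hinj : Function.Injective (algebraMap B F) := IsFractionRing.injective B F
  have hp1 : 1 ≤ p := Nat.pos_of_ne_zero (NeZero.ne p)
  have hJV : J' * J'⁻¹ = 1 := mul_inv_cancel₀ hJ'
  obtain ⟨ε, hε, hrel⟩ := modEq_invRel hΦ hmon hdeg hJU hJV h
  -- `c ∈ B` is a unit
  set c : B := (ε : B) + U * ev U (cPoly p Φ) with hc
  have hcF : algebraMap B F c = (ε : F) + algebraMap B F U * ev (algebraMap B F U) (cPoly p Φ) := by
    rw [hc, map_add, map_mul, map_intCast, map_ev]
  have hcu : IsUnit c := by
    by_contra hnu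
    have hcm : c ∈ IsLocalRing.maximalIdeal B := (IsLocalRing.mem_maximalIdeal _).2 hnu
    have h1 : (ε : B) ∈ IsLocalRing.maximalIdeal B := by
      have := (IsLocalRing.maximalIdeal B).sub_mem hcm
        ((IsLocalRing.maximalIdeal B).mul_mem_right (ev U (cPoly p Φ)) hU)
      rwa [hc, add_sub_cancel_right] at this
    have h2 : IsUnit (ε : B) := hε.map (Int.castRingHom B)
    exact (IsLocalRing.mem_maximalIdeal _).1 h1 h2
  obtain ⟨cu, hcu'⟩ := hcu
  -- the polynomial `W(U, Y) ∈ B[Y]`
  set Wp : Polynomial B := (wPoly p Φ).map (ev U) with hWp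
  have hWpdeg : Wp.natDegree ≤ p - 1 := by
    refine (Polynomial.natDegree_map_le).trans ?_
    unfold wPoly
    refine Polynomial.natDegree_sum_le_of_forall_le _ _ fun k _ => ?_
    exact (Polynomial.natDegree_C_mul_X_pow_le _ _).trans (by omega)
  have hWF : ∀ y : F, Polynomial.eval₂ (algebraMap B F) y Wp
      = ev2 (wPoly p Φ) (algebraMap B F U) y := by
    intro y
    rw [hWp, Polynomial.eval₂_map]
    unfold ev2
    congr 1
    ext d
    · simp only [RingHom.coe_comp, Function.comp_apply]
      exact map_ev _ U _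
    · simp only [RingHom.coe_comp, Function.comp_apply]
      exact map_ev _ U _
  -- `V` is integral over `B`
  have hrel' : algebraMap B F c * J'⁻¹ ^ (p + 1)
      + algebraMap B F U * J'⁻¹ * ev2 (wPoly p Φ) (algebraMap B F U) J'⁻¹
      + algebraMap B F U ^ (p + 1) = 0 := by
    rw [hcF]; exact hrel
  have hVint : IsIntegral B (J'⁻¹ : F) := by
    set Q : Polynomial B := X ^ (p + 1)
      + Polynomial.C (↑cu⁻¹ : B) * (Polynomial.C U * X * Wp + Polynomial.C (U ^ (p + 1))) with hQ
    have hQmon : Q.Monic := by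
      apply Polynomial.monic_X_pow_add
      refine lt_of_le_of_lt (Polynomial.degree_mul_le _ _) ?_
      refine lt_of_le_of_lt (add_le_add Polynomial.degree_C_le le_rfl) ?_
      rw [zero_add]
      refine lt_of_le_of_lt (Polynomial.degree_add_le _ _) ?_
      rw [max_lt_iff]
      constructor
      · by_cases hW0 : Wp = 0
        · rw [hW0, mul_zero, Polynomial.degree_zero]
          exact WithBot.bot_lt_coe _
        · calc (Polynomial.C U * X * Wp).degree ≤ (Polynomial.C U * X).degree + Wp.degree :=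
                Polynomial.degree_mul_le _ _
            _ ≤ 1 + ((p - 1 : ℕ) : WithBot ℕ) := by
                refine add_le_add ?_ ?_
                · refine (Polynomial.degree_mul_le _ _).trans ?_
                  calc (Polynomial.C U).degree + (X : Polynomial B).degree ≤ 0 + 1 :=
                        add_le_add Polynomial.degree_C_le Polynomial.degree_X_le
                    _ = 1 := zero_add 1
                · exact Polynomial.degree_le_of_natDegree_le hWpdeg
            _ < ((p + 1 : ℕ) : WithBot ℕ) := by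
                have : (1 : WithBot ℕ) + ((p - 1 : ℕ) : WithBot ℕ) = ((1 + (p - 1) : ℕ) : WithBot ℕ) := by
                  push_cast; rfl
                rw [this]
                exact_mod_cast (by omega : 1 + (p - 1) < p + 1)
      · exact lt_of_le_of_lt Polynomial.degree_C_le (by exact_mod_cast Nat.succ_pos p)
    refine ⟨Q, hQmon, ?_⟩
    rw [hQ, Polynomial.eval₂_add, Polynomial.eval₂_pow, Polynomial.eval₂_X, Polynomial.eval₂_mul,
      Polynomial.eval₂_C, Polynomial.eval₂_add, Polynomial.eval₂_mul, Polynomial.eval₂_mul,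
      Polynomial.eval₂_C, Polynomial.eval₂_X, Polynomial.eval₂_C, hWF, map_pow]
    have hcinv : algebraMap B F (↑cu⁻¹ : B) * algebraMap B F c = 1 := by
      rw [← map_mul, ← hcu', Units.inv_mul, map_one]
    have : J'⁻¹ ^ (p + 1) + algebraMap B F (↑cu⁻¹ : B)
        * (algebraMap B F U * J'⁻¹ * ev2 (wPoly p Φ) (algebraMap B F U) J'⁻¹
          + algebraMap B F U ^ (p + 1))
        = algebraMap B F (↑cu⁻¹ : B) * (algebraMap B F c * J'⁻¹ ^ (p + 1)
          + algebraMap B F U * J'⁻¹ * ev2 (wPoly p Φ) (algebraMap B F U) J'⁻¹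
          + algebraMap B F U ^ (p + 1)) := by
      linear_combination (-(J'⁻¹ ^ (p + 1))) * hcinv
    rw [this, hrel', mul_zero]
  obtain ⟨V, hV⟩ := IsIntegrallyClosed.algebraMap_eq_of_integral hVint
  have hV0 : V ≠ 0 := by
    rintro rfl
    rw [map_zero] at hV
    exact inv_ne_zero hJ' hV.symm
  -- the relation in `B`
  set W : B := ev2 (wPoly p Φ) U V with hW
  have hWF' : algebraMap B F W = ev2 (wPoly p Φ) (algebraMap B F U) J'⁻¹ := by
    rw [hW, map_ev2, hV]
  have hrelB : InvRel p U V c W := by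
    unfold InvRel
    apply hinj
    rw [map_add, map_add, map_mul, map_mul, map_mul, map_pow, map_pow, hV, hWF', map_zero]
    exact hrel'
  -- `e` is integral over `B`
  have heF : (algebraMap B F U ^ p * J') * J'⁻¹ = algebraMap B F U ^ p := by
    rw [mul_assoc, hJV, mul_one]
  have hquad := e_quadratic (S := F) p hp1 (U := algebraMap B F U) (V := J'⁻¹)
    (c := algebraMap B F c) (W := algebraMap B F W) (e := algebraMap B F U ^ p * J')
    (by unfold InvRel; rw [hWF']; exact hrel') heF (inv_ne_zero hJ')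
  have heint : IsIntegral B (algebraMap B F U ^ p * J' : F) := by
    refine ⟨X ^ 2 + (Polynomial.C W * X + Polynomial.C (c * (U * V) ^ (p - 1))), ?_, ?_⟩
    · apply Polynomial.monic_X_pow_add
      refine lt_of_le_of_lt (Polynomial.degree_add_le _ _) ?_
      rw [max_lt_iff]
      constructor
      · refine lt_of_le_of_lt (Polynomial.degree_mul_le _ _) ?_
        calc (Polynomial.C W).degree + (X : Polynomial B).degree ≤ 0 + 1 :=
              add_le_add Polynomial.degree_C_le Polynomial.degree_X_le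
          _ < 2 := by norm_num
      · exact lt_of_le_of_lt Polynomial.degree_C_le (by norm_num)
    · rw [Polynomial.eval₂_add, Polynomial.eval₂_pow, Polynomial.eval₂_X, Polynomial.eval₂_add,
        Polynomial.eval₂_mul, Polynomial.eval₂_C, Polynomial.eval₂_X, Polynomial.eval₂_C,
        map_mul, map_pow, map_mul, hV, ← add_assoc]
      exact hquad
  obtain ⟨e, he⟩ := IsIntegrallyClosed.algebraMap_eq_of_integral heint
  have heV : e * V = U ^ p := by
    apply hinj
    rw [map_mul, he, hV, map_pow]
    exact heF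
  refine ⟨V, e, c, W, hV, heV, ⟨cu, hcu'⟩, hrelB, ?_⟩
  exact V_mem_of_U_mem p hrelB (IsLocalRing.maximalIdeal B) hU
    (fun hcm => (IsLocalRing.mem_maximalIdeal _).1 hcm ⟨cu, hcu'⟩)

/-- **Cusp separation in `B`.**  At a cusp (`U = 1/j ∈ 𝔪_B`) of an integrally closed local
domain `B`, two primes `P₁, P₂` satisfying the Kronecker congruences
`V ≡ U^p mod P₁`, `U ≡ V^p mod P₂` (`V = 1/j_p`) with `V ∉ P₁`, `V ∉ P₂` cannot exist:
only one component of the special fibre passes through a cusp. -/
theorem cusp_sep_local (hp2 : 2 ≤ p) {Φ : Polynomial (Polynomial ℤ)} (hΦ : IsModPoly p Φ)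
    (hmon : Φ.Monic) (hdeg : Φ.natDegree = p + 1) {J J' : F} (hJ' : J' ≠ 0)
    (h : ev2 Φ J J' = 0)
    {U : B} (hU : U ∈ IsLocalRing.maximalIdeal B) (hJU : J * algebraMap B F U = 1)
    (P₁ P₂ : Ideal B) [P₁.IsPrime] [P₂.IsPrime]
    (hK : ∀ V : B, algebraMap B F V = J'⁻¹ →
      V - U ^ p ∈ P₁ ∧ U - V ^ p ∈ P₂ ∧ V ∉ P₁ ∧ V ∉ P₂) : False := by
  obtain ⟨V, e, c, W, hV, heV, -, -, hVm⟩ := exists_V_e hΦ hmon hdeg hJ' h hU hJU
  obtain ⟨h1, h2, h3, h4⟩ := hK V hV
  exact cusp_sep p hp2 heV P₁ P₂ (IsLocalRing.maximalIdeal B) hVm h1 h2 h3 h4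
    ⟨IsLocalRing.le_maximalIdeal (Ideal.IsPrime.ne_top inferInstance),
      IsLocalRing.le_maximalIdeal (Ideal.IsPrime.ne_top inferInstance)⟩

end loc

end H27CS
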