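/-
helper24: item 82 (S34), slice (E) (`CompUnif2` via the Atkin–Lehner involution `W`), input
`(H_W)`, ABSTRACT part.

`B` an integrally closed local domain with fraction field `F`.
* `H24HW.mem_or_inv_mem_of_isUnit_coeff` : a root `x ∈ F` of a polynomial over `B` with a unit
  coefficient satisfies `x ∈ B` or `x⁻¹ ∈ B`.
* `H24HW.j_dich_of_mem`, `j_dich_of_inv` : from `J T^k = G(T)` (`G ∈ ℤ[X]` monic of degree
  `> k`): if `T ∈ B` (and `k = 0` or `G(0) ∈ Bˣ`) then `J ∈ B` or `J⁻¹ ∈ 𝔪_B`; if `T⁻¹ ∈ 𝔪_B` then
  `J⁻¹ ∈ 𝔪_B`.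
* `H24HW.hw_abs` : with `Φ_p(J, J') = 0`, `J' T'^k = G(T')`: if `J ∈ B` or `J⁻¹ ∈ 𝔪_B`, then
  `T' ∈ B` or `T'⁻¹ ∈ B`.
-/
import Mathlib
import Fermat.Agent.S34.CuspSepLoc_helper27

set_option autoImplicit false
set_option linter.unusedSectionVars false
set_option linter.unusedVariables false
set_option linter.style.haveILetI false

open Polynomial

noncomputable section

namespace H24HW

section unitcoeff

variable {B : Type*} [CommRing B] [IsDomain B] [IsIntegrallyClosed B] [IsLocalRing B]
variable {F : Type*} [Field F] [Algebra B F] [IsFractionRing B F]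

theorem isUnit_add_of_mem_maximalIdeal {u m : B} (hu : IsUnit u)
    (hm : m ∈ IsLocalRing.maximalIdeal B) : IsUnit (u + m) := by
  by_contra h
  have h1 : u + m ∈ IsLocalRing.maximalIdeal B := (IsLocalRing.mem_maximalIdeal _).2 h
  have h2 : u ∈ IsLocalRing.maximalIdeal B := by
    have := (IsLocalRing.maximalIdeal B).sub_mem h1 hm
    rwa [add_sub_cancel_right] at this
  exact (IsLocalRing.mem_maximalIdeal _).1 h2 hu

/-- **unit-coefficient lemma**: in an integrally closed local domain, a root of a polynomial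
with a unit coefficient lies in `B` or has its inverse in `B`. -/
theorem mem_or_inv_mem_of_isUnit_coeff (x : F) :
    ∀ (n : ℕ) (p : Polynomial B), p.natDegree ≤ n → Polynomial.aeval x p = 0 →
      (∃ i, IsUnit (p.coeff i)) →
      x ∈ (algebraMap B F).range ∨ x⁻¹ ∈ (algebraMap B F).range := by
  intro n
  induction n with
  | zero =>
    intro p hpn hp ⟨i, hi⟩
    -- `p` is a constant, so it is a unit constant, impossible
    exfalso
    have hpC : p = Polynomial.C (p.coeff 0) :=
      Polynomial.eq_C_of_natDegree_le_zero hpn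
    have hi0 : i = 0 := by
      by_contra hne
      have : p.coeff i = 0 := by
        rw [hpC, Polynomial.coeff_C, if_neg hne]
      rw [this] at hi
      exact not_isUnit_zero hi
    subst hi0
    rw [hpC, Polynomial.aeval_C] at hp
    have h0 : p.coeff 0 = 0 :=
      (IsFractionRing.injective B F) (hp.trans (map_zero _).symm)
    rw [h0] at hi
    exact not_isUnit_zero hi
  | succ n ih =>
    intro p hpn hp ⟨i, hi⟩
    by_cases hlt : p.natDegree ≤ n
    · exact ih p hlt hp ⟨i, hi⟩
    have hdeg : p.natDegree = n + 1 := le_antisymm hpn (by omega)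
    by_cases hlead : IsUnit p.leadingCoeff
    · -- `x` is integral
      left
      obtain ⟨u, hu⟩ := hlead
      have hint : IsIntegral B x := by
        refine ⟨Polynomial.C (↑u⁻¹ : B) * p, ?_, ?_⟩
        · rw [Polynomial.Monic, Polynomial.leadingCoeff_mul, Polynomial.leadingCoeff_C, ← hu,
            Units.inv_mul]
        · rw [Polynomial.eval₂_mul, Polynomial.eval₂_C]
          have : Polynomial.eval₂ (algebraMap B F) x p = 0 := by
            rw [← Polynomial.aeval_def]; exact hp
          rw [this, mul_zero]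
      obtain ⟨y, hy⟩ := IsIntegrallyClosed.algebraMap_eq_of_integral hint
      exact ⟨y, hy⟩
    · -- `y = a x ∈ B`
      have hint : IsIntegral B (p.leadingCoeff • x) := isIntegral_leadingCoeff_smul p x hp
      obtain ⟨y, hy⟩ := IsIntegrallyClosed.algebraMap_eq_of_integral hint
      have hy' : algebraMap B F y = algebraMap B F p.leadingCoeff * x := by
        rw [hy, Algebra.smul_def]
      by_cases hyu : IsUnit y
      · right
        obtain ⟨v, hv⟩ := hyu
        refine ⟨p.leadingCoeff * (↑v⁻¹ : B), ?_⟩
        have hy0 : algebraMap B F y ≠ 0 := by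
          intro h0
          have : y = 0 := (IsFractionRing.injective B F) (h0.trans (map_zero _).symm)
          rw [← hv] at this
          exact v.ne_zero this
        have hx0 : x ≠ 0 := by
          rintro rfl
          rw [mul_zero] at hy'
          exact hy0 hy'
        have hvinv : algebraMap B F (↑v⁻¹ : B) * algebraMap B F y = 1 := by
          rw [← map_mul, ← hv, Units.inv_mul, map_one]
        rw [map_mul]
        apply eq_inv_of_mul_eq_one_left
        calc algebraMap B F p.leadingCoeff * algebraMap B F (↑v⁻¹ : B) * x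
            = algebraMap B F (↑v⁻¹ : B) * (algebraMap B F p.leadingCoeff * x) := by ring
          _ = 1 := by rw [← hy', hvinv]
      · -- reduce the degree
        have hym : y ∈ IsLocalRing.maximalIdeal B := (IsLocalRing.mem_maximalIdeal _).2 hyu
        set p₁ : Polynomial B := p.eraseLead + Polynomial.C y * Polynomial.X ^ n with hp₁
        have hp₁deg : p₁.natDegree ≤ n := by
          refine (Polynomial.natDegree_add_le _ _).trans (max_le ?_ ?_)
          · have := Polynomial.eraseLead_natDegree_le p
            omega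
          · exact Polynomial.natDegree_C_mul_X_pow_le _ _
        have hp₁x : Polynomial.aeval x p₁ = 0 := by
          have h1 : Polynomial.aeval x p =
              Polynomial.aeval x p.eraseLead + algebraMap B F p.leadingCoeff * x ^ (n + 1) := by
            conv_lhs => rw [← Polynomial.eraseLead_add_C_mul_X_pow p]
            rw [map_add, map_mul, Polynomial.aeval_C, map_pow, Polynomial.aeval_X, hdeg]
          rw [hp₁, map_add, map_mul, Polynomial.aeval_C, map_pow, Polynomial.aeval_X, hy']
          rw [hp] at h1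
          rw [h1]
          ring
        have hin : i ≠ n + 1 := by
          rintro rfl
          apply hlead
          rw [Polynomial.leadingCoeff, hdeg]
          exact hi
        have hile : i ≤ n := by
          by_contra hgt
          have : p.coeff i = 0 := Polynomial.coeff_eq_zero_of_natDegree_lt (by omega)
          rw [this] at hi
          exact not_isUnit_zero hi
        have hcoeff : p₁.coeff i = p.coeff i + (if i = n then y else 0) := by
          rw [hp₁, Polynomial.coeff_add, Polynomial.eraseLead_coeff_of_ne i (by rw [hdeg]; exact hin),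
            Polynomial.coeff_C_mul, Polynomial.coeff_X_pow]
          by_cases h : i = n
          · rw [if_pos h, if_pos h, mul_one]
          · rw [if_neg h, if_neg h, mul_zero]
        refine ih p₁ hp₁deg hp₁x ⟨i, ?_⟩
        rw [hcoeff]
        by_cases h : i = n
        · rw [if_pos h]
          exact isUnit_add_of_mem_maximalIdeal hi hym
        · rw [if_neg h, add_zero]
          exact hi

end unitcoeff

section dich

open H27CS

variable {B : Type*} [CommRing B] [IsDomain B] [IsIntegrallyClosed B] [IsLocalRing B]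
variable {F : Type*} [Field F] [Algebra B F] [IsFractionRing B F]

theorem ev_eq_coeff_zero_add (b : B) (G : Polynomial ℤ) :
    ev b G = ((G.coeff 0 : ℤ) : B) + ev b G.divX * b := by
  conv_lhs => rw [← Polynomial.divX_mul_X_add G]
  rw [map_add, map_mul]
  unfold ev
  rw [Polynomial.coe_eval₂RingHom, Polynomial.eval₂_X, Polynomial.eval₂_C, eq_intCast]
  ring

/-- `J T^k = G(T)`, `T ∈ B`, and (`k = 0` or `G(0) ∈ Bˣ`): then `J ∈ B` or `J⁻¹ ∈ 𝔪_B`. -/
theorem j_dich_of_mem (G : Polynomial ℤ) (k : ℕ) {J T : F} (hrel : ev T G = J * T ^ k)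
    (hT : T ∈ (algebraMap B F).range) (hu : k = 0 ∨ IsUnit (((G.coeff 0 : ℤ) : B))) :
    J ∈ (algebraMap B F).range ∨
      ∃ U ∈ IsLocalRing.maximalIdeal B, J * algebraMap B F U = 1 := by
  obtain ⟨b, rfl⟩ := hT
  have hev : ev (algebraMap B F b) G = algebraMap B F (ev b G) := (map_ev _ b G).symm
  by_cases hk0 : k = 0
  · left
    subst hk0
    rw [pow_zero, mul_one] at hrel
    exact ⟨ev b G, by rw [← hrel, hev]⟩
  have hu' : IsUnit (((G.coeff 0 : ℤ) : B)) := hu.resolve_left hk0
  by_cases hb : IsUnit b
  · left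
    obtain ⟨v, rfl⟩ := hb
    refine ⟨ev (v : B) G * (↑v⁻¹ : B) ^ k, ?_⟩
    have h1 : algebraMap B F (v : B) * algebraMap B F (↑v⁻¹ : B) = 1 := by
      rw [← map_mul, Units.mul_inv, map_one]
    rw [map_mul, map_pow, ← hev, hrel, mul_assoc, ← mul_pow, h1, one_pow, mul_one]
  · right
    have hbm : b ∈ IsLocalRing.maximalIdeal B := (IsLocalRing.mem_maximalIdeal _).2 hb
    have hg : IsUnit (ev b G) := by
      rw [ev_eq_coeff_zero_add]
      exact isUnit_add_of_mem_maximalIdeal hu' ((IsLocalRing.maximalIdeal B).mul_mem_left _ hbm)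
    obtain ⟨gu, hgu⟩ := hg
    refine ⟨b ^ k * (↑gu⁻¹ : B), (IsLocalRing.maximalIdeal B).mul_mem_right _
      (Ideal.pow_mem_of_mem _ hbm k (Nat.pos_of_ne_zero hk0)), ?_⟩
    rw [map_mul, map_pow, ← mul_assoc, ← hrel, hev, ← map_mul, ← hgu, Units.mul_inv, map_one]

/-- `J T^k = G(T)` with `G` monic of degree `> k`, and `T⁻¹ ∈ 𝔪_B`: then `J⁻¹ ∈ 𝔪_B`. -/
theorem j_dich_of_inv (G : Polynomial ℤ) (hG : G.Monic) (k : ℕ) (hk : k < G.natDegree)
    {J T : F} (hrel : ev T G = J * T ^ k) (U : B) (hU : U ∈ IsLocalRing.maximalIdeal B)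
    (hTU : T * algebraMap B F U = 1) :
    ∃ U' ∈ IsLocalRing.maximalIdeal B, J * algebraMap B F U' = 1 := by
  have h1 := pow_mul_ev_eq_reflect (S := F) hTU G.natDegree G le_rfl
  have hr : algebraMap B F (ev U (G.reflect G.natDegree)) =
      ev (algebraMap B F U) (G.reflect G.natDegree) := map_ev _ U _
  have hc0 : (G.reflect G.natDegree).coeff 0 = 1 := by
    rw [Polynomial.coeff_reflect, Polynomial.revAt_le (Nat.zero_le _), Nat.sub_zero]
    exact hG
  have hru : IsUnit (ev U (G.reflect G.natDegree)) := by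
    rw [ev_eq_coeff_zero_add, hc0, Int.cast_one]
    exact isUnit_add_of_mem_maximalIdeal isUnit_one
      ((IsLocalRing.maximalIdeal B).mul_mem_left _ hU)
  obtain ⟨ru, hru'⟩ := hru
  refine ⟨U ^ (G.natDegree - k) * (↑ru⁻¹ : B), (IsLocalRing.maximalIdeal B).mul_mem_right _
    (Ideal.pow_mem_of_mem _ hU _ (by omega)), ?_⟩
  have h2 : J * algebraMap B F U ^ (G.natDegree - k) =
      algebraMap B F (ev U (G.reflect G.natDegree)) := by
    rw [hr, ← h1, hrel]
    have hsplit : algebraMap B F U ^ G.natDegree =
        algebraMap B F U ^ (G.natDegree - k) * algebraMap B F U ^ k := by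
      rw [← pow_add, Nat.sub_add_cancel hk.le]
    rw [hsplit]
    have hTUk : T ^ k * algebraMap B F U ^ k = 1 := by
      rw [← mul_pow, hTU, one_pow]
    calc J * algebraMap B F U ^ (G.natDegree - k)
        = J * algebraMap B F U ^ (G.natDegree - k) * (T ^ k * algebraMap B F U ^ k) := by
          rw [hTUk, mul_one]
      _ = algebraMap B F U ^ (G.natDegree - k) * algebraMap B F U ^ k * (J * T ^ k) := by ring
  rw [map_mul, map_pow, ← mul_assoc, h2, ← map_mul, ← hru', Units.mul_inv, map_one]

variable {p : ℕ} [NeZero p]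

/-- **(H_W), abstract form.**  `Φ_p(J, J') = 0`, `J' T'^k = G(T')` with `G` monic of degree
`> k`.  If `J ∈ B` or `J⁻¹ ∈ 𝔪_B`, then `T' ∈ B` or `T'⁻¹ ∈ B`. -/
theorem hw_abs {Φ : Polynomial (Polynomial ℤ)} (hΦ : IsModPoly p Φ) (hmon : Φ.Monic)
    (hdeg : Φ.natDegree = p + 1) {J J' T' : F} (hJ' : J' ≠ 0) (h : ev2 Φ J J' = 0)
    (hJ : J ∈ (algebraMap B F).range ∨
      ∃ U ∈ IsLocalRing.maximalIdeal B, J * algebraMap B F U = 1)
    (G : Polynomial ℤ) (hG : G.Monic) (k : ℕ) (hk : k < G.natDegree)
    (hrel : ev T' G = J' * T' ^ k) :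
    T' ∈ (algebraMap B F).range ∨ T'⁻¹ ∈ (algebraMap B F).range := by
  rcases hJ with ⟨b, rfl⟩ | ⟨U, hU, hJU⟩
  · -- non-cuspidal: everything is integral
    left
    have hcomp : (algebraMap B F).comp (ev b) = ev (algebraMap B F b) :=
      RingHom.ext (fun c => map_ev _ b c)
    have hJ'int : IsIntegral B J' := by
      refine ⟨Φ.map (ev b), hmon.map _, ?_⟩
      rw [Polynomial.eval₂_map, hcomp]
      exact h
    obtain ⟨b', rfl⟩ := IsIntegrallyClosed.algebraMap_eq_of_integral hJ'int
    have hGm : (G.map (Int.castRingHom B)).Monic := hG.map _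
    have hdeg' : (Polynomial.C b' * (Polynomial.X : Polynomial B) ^ k).degree <
        (G.map (Int.castRingHom B)).degree := by
      rw [Polynomial.degree_eq_natDegree hGm.ne_zero, hG.natDegree_map]
      refine lt_of_le_of_lt (Polynomial.degree_C_mul_X_pow_le k _) ?_
      exact_mod_cast hk
    have hT'int : IsIntegral B T' := by
      refine ⟨G.map (Int.castRingHom B) - Polynomial.C b' * Polynomial.X ^ k,
        hGm.sub_of_left hdeg', ?_⟩
      rw [Polynomial.eval₂_sub, Polynomial.eval₂_map, Polynomial.eval₂_mul, Polynomial.eval₂_C,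
        Polynomial.eval₂_pow, Polynomial.eval₂_X]
      have hc : (algebraMap B F).comp (Int.castRingHom B) = Int.castRingHom F :=
        RingHom.ext_int _ _
      rw [hc]
      have : Polynomial.eval₂ (Int.castRingHom F) T' G = ev T' G := rfl
      rw [this, hrel, sub_self]
    obtain ⟨y, hy⟩ := IsIntegrallyClosed.algebraMap_eq_of_integral hT'int
    exact ⟨y, hy⟩
  · -- cuspidal: `V = 1/J' ∈ 𝔪_B` and the unit-coefficient lemma
    obtain ⟨V, e, c, W, hV, -, -, -, hVm⟩ := exists_V_e hΦ hmon hdeg hJ' h hU hJU
    set P : Polynomial B := Polynomial.C V * G.map (Int.castRingHom B) - Polynomial.X ^ k with hP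
    have hPx : Polynomial.aeval T' P = 0 := by
      rw [hP, map_sub, map_mul, Polynomial.aeval_C, map_pow, Polynomial.aeval_X,
        Polynomial.aeval_def, Polynomial.eval₂_map]
      have hc : (algebraMap B F).comp (Int.castRingHom B) = Int.castRingHom F :=
        RingHom.ext_int _ _
      rw [hc]
      have : Polynomial.eval₂ (Int.castRingHom F) T' G = ev T' G := rfl
      rw [this, hrel, hV, ← mul_assoc, inv_mul_cancel₀ hJ', one_mul, sub_self]
    have hcoeff : IsUnit (P.coeff k) := by
      have h1 : P.coeff k = -1 + V * ((G.coeff k : ℤ) : B) := by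
        rw [hP, Polynomial.coeff_sub, Polynomial.coeff_C_mul, Polynomial.coeff_map,
          Polynomial.coeff_X_pow, if_pos rfl]
        simp only [eq_intCast]
        ring
      rw [h1]
      exact isUnit_add_of_mem_maximalIdeal isUnit_one.neg
        ((IsLocalRing.maximalIdeal B).mul_mem_right _ hVm)
    exact mem_or_inv_mem_of_isUnit_coeff T' P.natDegree P le_rfl hPx ⟨k, hcoeff⟩

end dich

end H24HW

end
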