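/-
helper24: item 82 (S34), slice (E), input `(H_W)`, SEMI-GENERIC part (S18 language).

`R` a DVR, `F / K(c)` finite, `M₀ = H4S34.Chart R c`, `𝔫` a prime of `M₀`, `B_𝔫 = InLoc R c 𝔫`.
Elements `J, J', T, T' ∈ F` (`j, j_p, t, W t`) with `Φ_p(J, J') = 0`, `J T^k = G(T)`,
`J' T'^k = G(T')`, and `c = T`, or `c = T⁻¹` with `T⁻¹ ∈ 𝔫`.  Then `T' ∈ B_𝔫` or `T'⁻¹ ∈ B_𝔫`.
-/
import Mathlib
import Fermat.Agent.S34.HWAbs_helper24
import Fermat.Agent.S34.LocBridge_helper22

set_option autoImplicit false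
set_option linter.unusedSectionVars false
set_option linter.unusedVariables false
set_option linter.style.haveILetI false
set_option synthInstance.maxHeartbeats 400000

open Polynomial IntermediateField

noncomputable section

namespace H24HW

open H27CS H4S34

section gen

variable (R : Type) [CommRing R] [IsDomain R] [IsDiscreteValuationRing R]
  (K : Type) [Field K] [CharZero K] [Algebra R K] [IsFractionRing R K]
  {F : Type} [Field F] [Algebra K F] [Algebra R F] [IsScalarTower R K F]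

/-- the chart function lies in the chart ring -/
theorem chart_self_mem (c : F) : c ∈ Chart R c :=
  isIntegral_algebraMap (R := Algebra.adjoin R {c}) (A := F)
    (x := ⟨c, Algebra.self_mem_adjoin_singleton R c⟩)

/-- constants lie in the chart ring -/
theorem chart_const_mem (c : F) (r : R) : algebraMap R F r ∈ Chart R c :=
  isIntegral_algebraMap (R := Algebra.adjoin R {c}) (A := F)
    (x := ⟨algebraMap R F r, Subalgebra.algebraMap_mem _ r⟩)

/-- **(H_W), semi-generic form**, for any model `B` of the local ring inside `F`. -/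
theorem hw_generic_B (c : F) [FiniteDimensional K⟮c⟯ F] (𝔫 : Ideal (Chart R c)) [𝔫.IsPrime]
    (B : Type) [CommRing B] [Algebra (Chart R c) B] [IsLocalization.AtPrime B 𝔫]
    [Algebra B F] [IsScalarTower (Chart R c) B F]
    {p : ℕ} [NeZero p] {Φ : Polynomial (Polynomial ℤ)} (hΦ : IsModPoly p Φ) (hmon : Φ.Monic)
    (hdeg : Φ.natDegree = p + 1) (J J' T T' : F) (hJ' : J' ≠ 0) (hΦJ : ev2 Φ J J' = 0)
    (G : Polynomial ℤ) (hG : G.Monic) (k : ℕ) (hk : k < G.natDegree)
    (hrel : ev T G = J * T ^ k) (hrel' : ev T' G = J' * T' ^ k)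
    (hu : k = 0 ∨ IsUnit (((G.coeff 0 : ℤ) : R)))
    (hT0 : T ≠ 0)
    (hc : c = T ∨ (c = T⁻¹ ∧ ∀ y : Chart R c, (y : F) = T⁻¹ → y ∈ 𝔫)) :
    InLoc R c 𝔫 T' ∨ InLoc R c 𝔫 T'⁻¹ := by
  haveI : IsDomain B := H22BR.loc_isDomain R c 𝔫 B
  haveI : IsLocalRing B := H22BR.loc_isLocalRing R c 𝔫 B
  haveI : IsIntegrallyClosed B := H22BR.loc_intClosed R K c 𝔫 B
  haveI : IsFractionRing B F := H22BR.loc_isFractionRing R K c 𝔫 B
  have hval : ∀ y : Chart R c, algebraMap B F (algebraMap (Chart R c) B y) = (y : F) := fun y =>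
    (IsScalarTower.algebraMap_apply (Chart R c) B F y).symm
  have hJ : J ∈ (algebraMap B F).range ∨
      ∃ U ∈ IsLocalRing.maximalIdeal B, J * algebraMap B F U = 1 := by
    rcases hc with hcT | ⟨hcT, hn⟩
    · -- chart `T`
      have hTB : T ∈ (algebraMap B F).range := by
        refine ⟨algebraMap (Chart R c) B ⟨c, chart_self_mem R c⟩, ?_⟩
        rw [hval]
        exact hcT
      refine j_dich_of_mem G k hrel hTB ?_
      rcases hu with h | h
      · exact Or.inl h
      · right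
        obtain ⟨r', hr'⟩ := h.exists_right_inv
        have h1 : (((G.coeff 0 : ℤ) : F)) * algebraMap R F r' = 1 := by
          have := congrArg (algebraMap R F) hr'
          rwa [map_mul, map_intCast, map_one] at this
        refine IsUnit.of_mul_eq_one
          (algebraMap (Chart R c) B ⟨algebraMap R F r', chart_const_mem R c r'⟩) ?_
        apply IsFractionRing.injective B F
        rw [map_mul, map_intCast, hval, map_one]
        exact h1
    · -- chart `T⁻¹` over `T = ∞`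
      right
      have hU0 : (⟨c, chart_self_mem R c⟩ : Chart R c) ∈ 𝔫 := hn _ hcT
      refine j_dich_of_inv G hG k hk hrel
        (algebraMap (Chart R c) B ⟨c, chart_self_mem R c⟩)
        ((IsLocalization.AtPrime.to_map_mem_maximal_iff B 𝔫 _).2 hU0) ?_
      rw [hval]
      show T * c = 1
      rw [hcT, mul_inv_cancel₀ hT0]
  have hmain := hw_abs (B := B) hΦ hmon hdeg hJ' hΦJ hJ G hG k hk hrel'
  rcases hmain with h | h
  · exact Or.inl ((H22BR.inLoc_iff R c 𝔫 B _).2 h)
  · exact Or.inr ((H22BR.inLoc_iff R c 𝔫 B _).2 h)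

/-- **(H_W), semi-generic form.** -/
theorem hw_generic (c : F) [FiniteDimensional K⟮c⟯ F] (𝔫 : Ideal (Chart R c)) [𝔫.IsPrime]
    {p : ℕ} [NeZero p] {Φ : Polynomial (Polynomial ℤ)} (hΦ : IsModPoly p Φ) (hmon : Φ.Monic)
    (hdeg : Φ.natDegree = p + 1) (J J' T T' : F) (hJ' : J' ≠ 0) (hΦJ : ev2 Φ J J' = 0)
    (G : Polynomial ℤ) (hG : G.Monic) (k : ℕ) (hk : k < G.natDegree)
    (hrel : ev T G = J * T ^ k) (hrel' : ev T' G = J' * T' ^ k)
    (hu : k = 0 ∨ IsUnit (((G.coeff 0 : ℤ) : R)))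
    (hT0 : T ≠ 0)
    (hc : c = T ∨ (c = T⁻¹ ∧ ∀ y : Chart R c, (y : F) = T⁻¹ → y ∈ 𝔫)) :
    InLoc R c 𝔫 T' ∨ InLoc R c 𝔫 T'⁻¹ := by
  haveI := H22BR.bsub_atPrime R K c 𝔫
  haveI := H22BR.bsub_tower R K c 𝔫
  exact hw_generic_B R K c 𝔫 (H22BR.Bsub R K c 𝔫) hΦ hmon hdeg J J' T T' hJ' hΦJ G hG k hk
    hrel hrel' hu hT0 hc

end gen

end H24HW

end
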