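/-
helper24: item 82 (S34), slice (E) (`CompUnif2` via the Atkin–Lehner involution `W`), input
**(H_W)**, concrete form.

Level `M q`, `R = descVal A K₁`, `F₁ = FK K₁ (M q)`, `W = H12AL.wqKHom K₁ M q`, `t` the base
function of kind `baseKind q`.  At every PRIME `𝔫` of a chart `c` which is a "dich point"
(`c = t`, or `c = t⁻¹` and `t⁻¹ ∈ 𝔫`):

  `W t ∈ B_𝔫`   or   (`(W t)⁻¹ ∈ B_𝔫` and `W t ∉ B_𝔫`).

So `W` maps the chart `t` (first case) or the chart `t⁻¹` (second case, where `(W t)⁻¹ ∈ 𝔫 B_𝔫`)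
into `B_𝔫`.
-/
import Mathlib
import Fermat.Agent.S34.HWGen_helper24
import Fermat.Agent.S34.BaseInt_helper24
import Fermat.Agent.S34.DichDefs_helper26
import Fermat.Agent.S18.C6b_helper4
import Fermat.Agent.S18.Connected_helper21

set_option autoImplicit false
set_option linter.unusedSectionVars false
set_option linter.unusedVariables false
set_option linter.style.haveILetI false
set_option synthInstance.maxHeartbeats 400000

open Polynomial IntermediateField ModularCurve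

noncomputable section

namespace H24HW

open H27CS H4S34 H7S18

/-! ### the relation `j t^k = G(t)` with control of `G(0)` -/

/-- the relation `j t^k = G(t)` for the base function of kind `baseKind q`, with `k = 0` or
`G(0)` prime to `q`. -/
theorem exists_rel_tame (K : Type) [Field K] [Algebra ℚ K] (q : ℕ) (hq : q.Prime)
    (t₀ : LaurentSeries ℚ) (ht₀ : IsBase (baseKind q) t₀) :
    ∃ (G : Polynomial ℤ) (k : ℕ), G.Monic ∧ k < G.natDegree ∧
      (k = 0 ∨ ∃ n : ℕ, 0 < n ∧ ¬ q ∣ n ∧ G.coeff 0 = (n : ℤ)) ∧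
      ev (coeffEmb K t₀) G = jqModC K * (coeffEmb K t₀) ^ k := by
  unfold baseKind at ht₀
  by_cases h2 : q = 2
  · rw [if_pos h2] at ht₀
    have e : coeffEmb K t₀ = H4HM.t3 K := by
      rw [H4BR.eq_t3_of_isBase ht₀]
      exact H4HM.coeffMap_t3 (algebraMap ℚ K)
    refine ⟨(Polynomial.X + Polynomial.C 27) * (Polynomial.X + Polynomial.C 243) ^ 3, 3,
      (Polynomial.monic_X_add_C (27 : ℤ)).mul ((Polynomial.monic_X_add_C (243 : ℤ)).pow 3), ?_,
      Or.inr ⟨387420489, by norm_num, ?_, ?_⟩, ?_⟩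
    · rw [((Polynomial.monic_X_add_C (27 : ℤ))).natDegree_mul
        ((Polynomial.monic_X_add_C (243 : ℤ)).pow 3),
        ((Polynomial.monic_X_add_C (243 : ℤ))).natDegree_pow, Polynomial.natDegree_X_add_C,
        Polynomial.natDegree_X_add_C]
      norm_num
    · rw [h2]; norm_num
    · rw [Polynomial.coeff_zero_eq_eval_zero]
      simp
    · show H24BI.evZ (coeffEmb K t₀) _ = _
      rw [e, map_mul, map_pow, map_add, map_add, H24BI.evZ_X, H24BI.evZ_C, H24BI.evZ_C,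
        H4HM.hm3 K]
      norm_num
  · rw [if_neg h2] at ht₀
    by_cases h3 : q = 3
    · rw [if_pos h3] at ht₀
      have e : coeffEmb K t₀ = H4HM.t2 K := by
        rw [H4BR.eq_t2_of_isBase ht₀]
        exact H4HM.coeffMap_t2 (algebraMap ℚ K)
      refine ⟨(Polynomial.X + Polynomial.C 256) ^ 3, 2,
        (Polynomial.monic_X_add_C (256 : ℤ)).pow 3, ?_,
        Or.inr ⟨16777216, by norm_num, ?_, ?_⟩, ?_⟩
      · rw [((Polynomial.monic_X_add_C (256 : ℤ))).natDegree_pow, Polynomial.natDegree_X_add_C]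
        norm_num
      · rw [h3]; norm_num
      · rw [Polynomial.coeff_zero_eq_eval_zero]
        simp
      · show H24BI.evZ (coeffEmb K t₀) _ = _
        rw [e, map_pow, map_add, H24BI.evZ_X, H24BI.evZ_C, H4HM.hm2 K]
        norm_num
    · rw [if_neg h3] at ht₀
      refine ⟨Polynomial.X, 0, Polynomial.monic_X,
        by rw [Polynomial.natDegree_X]; exact Nat.one_pos, Or.inl rfl, ?_⟩
      show H24BI.evZ (coeffEmb K t₀) _ = _
      rw [H24BI.evZ_X, pow_zero, mul_one, H4BR.eq_jq_of_isBase ht₀]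
      exact H28GV.gv_coeffEmb_jq K

/-! ### the statement -/

/-- **(H_W)**: at every prime dich point `𝔫` of a chart `c ∈ {t, t⁻¹}`: `W t ∈ B_𝔫`, or
`(W t)⁻¹ ∈ B_𝔫` and `W t ∉ B_𝔫`. -/
def HWStatement : Prop :=
  ∀ (M : ℕ) [NeZero M] (q : ℕ) [NeZero q] (hq : q.Prime) (hqM : ¬ q ∣ M) (_ : TameLevel q M)
    (A : ValuationSubring (AlgebraicClosure ℚ)) (_ : A.LiesOverPrime q)
    (K₁ : IntermediateField ℚ (AlgebraicClosure ℚ)) (_ : FiniteDimensional ℚ K₁)
    [Algebra ↥(descVal A K₁) (FK K₁ (M * q))]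
    [IsScalarTower ↥(descVal A K₁) K₁ (FK K₁ (M * q))]
    (t₀ : LaurentSeries ℚ) (_ : IsBase (baseKind q) t₀)
    (t : FK K₁ (M * q)) (_ : (t : LaurentSeries K₁) = coeffEmb K₁ t₀)
    (c : FK K₁ (M * q)) (𝔫 : Ideal (Chart ↥(descVal A K₁) c)) (_ : 𝔫.IsPrime)
    (_ : H26DI.IsDichPt t c 𝔫),
    InLoc ↥(descVal A K₁) c 𝔫 (H12AL.wqKHom K₁ M q hq hqM t) ∨
      (InLoc ↥(descVal A K₁) c 𝔫 (H12AL.wqKHom K₁ M q hq hqM t)⁻¹ ∧
        ¬ InLoc ↥(descVal A K₁) c 𝔫 (H12AL.wqKHom K₁ M q hq hqM t))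

set_option maxHeartbeats 1600000 in
/-- **(H_W)**, proved. -/
theorem h24hw_HW : HWStatement := by
  intro M _ q _ hq hqM hT A hA K₁ hfin _ _ t₀ ht₀ t ht c 𝔫 h𝔫 hdich
  haveI : Fact q.Prime := ⟨hq⟩
  haveI := h𝔫
  obtain ⟨hdvr, -, hunits⟩ := H4DVR.dvrStatement q A hA K₁ hfin
  haveI := hdvr
  -- field basics
  have hi : baseKind q = 1 ∨ (baseKind q = 2 ∧ 2 ∣ M * q) ∨ (baseKind q = 3 ∧ 3 ∣ M * q) := by
    unfold baseKind
    by_cases h2 : q = 2
    · rw [if_pos h2]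
      exact Or.inr (Or.inr ⟨rfl, Dvd.dvd.mul_right (hT.2.1 h2) q⟩)
    · rw [if_neg h2]
      by_cases h3 : q = 3
      · rw [if_pos h3]
        exact Or.inr (Or.inl ⟨rfl, Dvd.dvd.mul_right (hT.2.2 h3) q⟩)
      · rw [if_neg h3]
        exact Or.inl rfl
  obtain ⟨t', ht', httr, hfd, -⟩ := H9C6e.fieldBasics (M * q) (baseKind q) hi t₀ ht₀ K₁
  have htt : t' = t := Subtype.ext (ht'.trans ht.symm)
  subst htt
  have ht0 : t' ≠ 0 := by
    rintro rfl
    exact httr (isAlgebraic_zero)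
  have hfdc : FiniteDimensional K₁⟮c⟯ (FK K₁ (M * q)) := by
    rcases hdich with rfl | ⟨rfl, -⟩
    · exact hfd
    · exact H21S18.finiteDimensional_transport (H21S18.adjoin_inv_eq (K := K₁) t').symm hfd
  haveI := hfdc
  -- the modular equation
  obtain ⟨Φ, Tp, Gp, hΦmon, hΦdeg, -, -, -, hMt⟩ := H15U.exists_modTriple q
  have hΦ : IsModPoly q Φ := fun A' _ ζ hζ => (hMt A' ζ hζ).1
  -- the relation
  obtain ⟨G, k, hG, hk, hG0, hrel⟩ := exists_rel_tame K₁ q hq t₀ ht₀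
  -- elements of `F₁`
  have hjmemM : jqModC K₁ ∈ laurentBaseChange K₁ (modularFunctionFieldFull M) :=
    H28GV.gv_mem_base_of_full M (jqModC_mem_full K₁ M)
  have hjmem : jqModC K₁ ∈ laurentBaseChange K₁ (modularFunctionFieldFull (M * q)) :=
    H28GV.gv_mem_base_of_full (M * q) (jqModC_mem_full K₁ (M * q))
  set jF : FK K₁ (M * q) := ⟨jqModC K₁, hjmem⟩ with hjF
  set ι : FK K₁ (M * q) →+* LaurentSeries K₁ :=
    (laurentBaseChange K₁ (modularFunctionFieldFull (M * q))).val.toRingHom with hι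
  have hιinj : Function.Injective ι := Subtype.val_injective
  have hιt : ι t' = coeffEmb K₁ t₀ := ht'
  have hιj : ι jF = jqModC K₁ := rfl
  have hιWj : ι (H12AL.wqKHom K₁ M q hq hqM jF) = qExpand K₁ q (jqModC K₁) :=
    H12AL.coe_wqKHom_of_level K₁ M q hq hqM jF hjmemM
  have hjF0 : jF ≠ 0 := by
    intro h0
    have := congrArg ι h0
    rw [hιj, map_zero] at this
    exact jqModC_ne_zero_of_nontrivial K₁ this
  have hJ' : H12AL.wqKHom K₁ M q hq hqM jF ≠ 0 := by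
    intro h0
    apply hjF0
    exact (H12AL.wqKHom K₁ M q hq hqM).injective (h0.trans (map_zero _).symm)
  have hΦJ : ev2 Φ jF (H12AL.wqKHom K₁ M q hq hqM jF) = 0 := by
    apply hιinj
    rw [map_ev2, hιj, hιWj, map_zero]
    exact H15U.Phi_root q Φ Tp Gp hMt K₁
  have hrelE : ev t' G = jF * t' ^ k := by
    apply hιinj
    rw [map_ev, map_mul, map_pow, hιt, hιj]
    exact hrel
  have hrelW : ev (H12AL.wqKHom K₁ M q hq hqM t') G =
      H12AL.wqKHom K₁ M q hq hqM jF * (H12AL.wqKHom K₁ M q hq hqM t') ^ k := by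
    rw [← map_ev, hrelE, map_mul, map_pow]
  have hu : k = 0 ∨ IsUnit (((G.coeff 0 : ℤ) : ↥(descVal A K₁))) := by
    rcases hG0 with h | ⟨n, hn0, hqn, hGn⟩
    · exact Or.inl h
    · right
      rw [hGn, Int.cast_natCast]
      exact hunits n hqn hn0
  have key := hw_generic ↥(descVal A K₁) K₁ c 𝔫 hΦ hΦmon hΦdeg jF
    (H12AL.wqKHom K₁ M q hq hqM jF) t' (H12AL.wqKHom K₁ M q hq hqM t') hJ' hΦJ G hG k hk
    hrelE hrelW hu ht0 hdich
  by_cases hin : InLoc ↥(descVal A K₁) c 𝔫 (H12AL.wqKHom K₁ M q hq hqM t')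
  · exact Or.inl hin
  · exact Or.inr ⟨key.resolve_left hin, hin⟩

end H24HW

end
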