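/-
helper26: item 82 (S34), slice (DICH)/(I2)/(E): GENERIC LOCAL `W`-TRANSPORT.

Setting: `R` a DVR with uniformizer `ϖ`, `E` a field over `R`, `w : E →+* E` an involution fixing
`R`, charts `M₀ = Chart R c` (integral closure of `R[c]` in `E`), `B_𝔫 = (M₀)_𝔫` (`H4S34.InLoc`),
`𝔪_{B_𝔫}` (`H26WT.InMax`).

* API of `InLoc` / `InMax` (`B_𝔫` is a local ring, integrally closed in `E`);
* the image point `𝔫' = {y ∈ M₀' | w y ∈ 𝔪_{B_𝔫}}` of a closed point `𝔫` under `w`, when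
  `w c' ∈ B_𝔫`: a closed point of the chart `c'` with `w (B_𝔫') ⊆ B_𝔫`, and `= ` when moreover
  `w c ∈ B_𝔫'`;
* transport of a uniformizer of the first component at `𝔫'` to a uniformizer of the second
  component at `𝔫`;
* the dichotomy form: from `(H_W)`: `w t ∈ B_𝔫` or `(w t)⁻¹ ∈ 𝔪_{B_𝔫}` at all points of the
  charts `t`, `t⁻¹` (over `t = ∞`).
-/
import Mathlib
import Fermat.Agent.S34.Defs_helper4
import Fermat.Agent.S34.DichAbs_helper26
import Fermat.Agent.S34.DichDefs_helper26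
import Fermat.Agent.S34.ChartChange_helper20

set_option autoImplicit false
set_option synthInstance.maxHeartbeats 400000
set_option linter.unusedVariables false
set_option linter.unusedSectionVars false
set_option linter.style.haveILetI false

noncomputable section

open Polynomial H7S18 H4S34

namespace H26WT

section api

variable {R : Type} [CommRing R] {E : Type} [Field E] [Algebra R E]

/-- `x ∈ 𝔪_{B_𝔫}`, the maximal ideal of the local ring of `M₀` at `𝔫`. -/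
def InMax (c : E) (𝔫 : Ideal (Chart R c)) (x : E) : Prop :=
  ∃ a s : Chart R c, a ∈ 𝔫 ∧ s ∉ 𝔫 ∧ (s : E) * x = (a : E)

variable {c : E} {𝔫 : Ideal (Chart R c)}

theorem InMax.inLoc {x : E} (h : InMax c 𝔫 x) : InLoc R c 𝔫 x := by
  obtain ⟨a, s, _, hs, e⟩ := h
  exact ⟨a, s, hs, e⟩

theorem inLoc_coe (h𝔫 : 𝔫.IsPrime) (y : Chart R c) : InLoc R c 𝔫 (y : E) :=
  ⟨y, 1, 𝔫.ne_top_iff_one.mp h𝔫.ne_top, by rw [OneMemClass.coe_one, one_mul]⟩

theorem inLoc_algebraMap (h𝔫 : 𝔫.IsPrime) (r : R) : InLoc R c 𝔫 (algebraMap R E r) :=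
  inLoc_coe h𝔫 (algebraMap R (Chart R c) r)

theorem inLoc_zero (h𝔫 : 𝔫.IsPrime) : InLoc R c 𝔫 (0 : E) := by
  simpa using inLoc_coe h𝔫 (0 : Chart R c)

theorem inLoc_one (h𝔫 : 𝔫.IsPrime) : InLoc R c 𝔫 (1 : E) := by
  simpa using inLoc_coe h𝔫 (1 : Chart R c)

theorem inLoc_add (h𝔫 : 𝔫.IsPrime) {x y : E} (hx : InLoc R c 𝔫 x) (hy : InLoc R c 𝔫 y) :
    InLoc R c 𝔫 (x + y) := by
  obtain ⟨a, s, hs, e⟩ := hx
  obtain ⟨b, r, hr, f⟩ := hy
  refine ⟨a * r + b * s, s * r, fun h => (h𝔫.mem_or_mem h).elim hs hr, ?_⟩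
  push_cast
  rw [← e, ← f]
  ring

theorem inLoc_mul (h𝔫 : 𝔫.IsPrime) {x y : E} (hx : InLoc R c 𝔫 x) (hy : InLoc R c 𝔫 y) :
    InLoc R c 𝔫 (x * y) := by
  obtain ⟨a, s, hs, e⟩ := hx
  obtain ⟨b, r, hr, f⟩ := hy
  refine ⟨a * b, s * r, fun h => (h𝔫.mem_or_mem h).elim hs hr, ?_⟩
  push_cast
  rw [← e, ← f]
  ring

theorem inLoc_neg {x : E} (hx : InLoc R c 𝔫 x) : InLoc R c 𝔫 (-x) := by
  obtain ⟨a, s, hs, e⟩ := hx
  refine ⟨-a, s, hs, ?_⟩
  push_cast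
  rw [← e]
  ring

theorem inLoc_sub (h𝔫 : 𝔫.IsPrime) {x y : E} (hx : InLoc R c 𝔫 x) (hy : InLoc R c 𝔫 y) :
    InLoc R c 𝔫 (x - y) := by
  rw [sub_eq_add_neg]
  exact inLoc_add h𝔫 hx (inLoc_neg hy)

theorem inLoc_pow (h𝔫 : 𝔫.IsPrime) {x : E} (hx : InLoc R c 𝔫 x) (n : ℕ) :
    InLoc R c 𝔫 (x ^ n) := by
  induction n with
  | zero => rw [pow_zero]; exact inLoc_one h𝔫
  | succ n ih => rw [pow_succ]; exact inLoc_mul h𝔫 ih hx

theorem inMax_coe_iff (h𝔫 : 𝔫.IsPrime) (y : Chart R c) : InMax c 𝔫 (y : E) ↔ y ∈ 𝔫 := by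
  constructor
  · rintro ⟨a, s, ha, hs, e⟩
    have e' : s * y = a := Subtype.ext (by push_cast; exact e)
    have : s * y ∈ 𝔫 := e' ▸ ha
    exact (h𝔫.mem_or_mem this).resolve_left hs
  · intro hy
    exact ⟨y, 1, hy, 𝔫.ne_top_iff_one.mp h𝔫.ne_top, by rw [OneMemClass.coe_one, one_mul]⟩

theorem inMax_zero (h𝔫 : 𝔫.IsPrime) : InMax c 𝔫 (0 : E) := by
  have := (inMax_coe_iff h𝔫 (0 : Chart R c)).mpr 𝔫.zero_mem
  simpa using this

theorem inMax_add (h𝔫 : 𝔫.IsPrime) {x y : E} (hx : InMax c 𝔫 x) (hy : InMax c 𝔫 y) :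
    InMax c 𝔫 (x + y) := by
  obtain ⟨a, s, ha, hs, e⟩ := hx
  obtain ⟨b, r, hb, hr, f⟩ := hy
  refine ⟨a * r + b * s, s * r, 𝔫.add_mem (𝔫.mul_mem_right _ ha) (𝔫.mul_mem_right _ hb),
    fun h => (h𝔫.mem_or_mem h).elim hs hr, ?_⟩
  push_cast
  rw [← e, ← f]
  ring

theorem inMax_mul (h𝔫 : 𝔫.IsPrime) {x y : E} (hx : InMax c 𝔫 x) (hy : InLoc R c 𝔫 y) :
    InMax c 𝔫 (x * y) := by
  obtain ⟨a, s, ha, hs, e⟩ := hx
  obtain ⟨b, r, hr, f⟩ := hy
  refine ⟨a * b, s * r, 𝔫.mul_mem_right _ ha, fun h => (h𝔫.mem_or_mem h).elim hs hr, ?_⟩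
  push_cast
  rw [← e, ← f]
  ring

theorem inMax_mul' (h𝔫 : 𝔫.IsPrime) {x y : E} (hx : InLoc R c 𝔫 x) (hy : InMax c 𝔫 y) :
    InMax c 𝔫 (x * y) := by
  rw [mul_comm]
  exact inMax_mul h𝔫 hy hx

theorem inMax_neg {x : E} (hx : InMax c 𝔫 x) : InMax c 𝔫 (-x) := by
  obtain ⟨a, s, ha, hs, e⟩ := hx
  refine ⟨-a, s, 𝔫.neg_mem ha, hs, ?_⟩
  push_cast
  rw [← e]
  ring

theorem inMax_sub (h𝔫 : 𝔫.IsPrime) {x y : E} (hx : InMax c 𝔫 x) (hy : InMax c 𝔫 y) :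
    InMax c 𝔫 (x - y) := by
  rw [sub_eq_add_neg]
  exact inMax_add h𝔫 hx (inMax_neg hy)

theorem not_inMax_one (h𝔫 : 𝔫.IsPrime) : ¬ InMax c 𝔫 (1 : E) := by
  intro h
  have := (inMax_coe_iff h𝔫 (1 : Chart R c)).mp (by simpa using h)
  exact 𝔫.ne_top_iff_one.mp h𝔫.ne_top this

theorem inMax_or_of_mul (h𝔫 : 𝔫.IsPrime) {x y : E} (hx : InLoc R c 𝔫 x) (hy : InLoc R c 𝔫 y)
    (hxy : InMax c 𝔫 (x * y)) : InMax c 𝔫 x ∨ InMax c 𝔫 y := by
  obtain ⟨a, s, hs, e⟩ := hx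
  obtain ⟨b, r, hr, f⟩ := hy
  obtain ⟨d, u, hd, hu, g⟩ := hxy
  have h1 : u * (a * b) = s * r * d := by
    apply Subtype.ext
    push_cast
    rw [← e, ← f, ← g]
    ring
  have h2 : u * (a * b) ∈ 𝔫 := h1 ▸ 𝔫.mul_mem_left _ hd
  have h3 : a * b ∈ 𝔫 := (h𝔫.mem_or_mem h2).resolve_left hu
  rcases h𝔫.mem_or_mem h3 with h | h
  · exact Or.inl ⟨a, s, h, hs, e⟩
  · exact Or.inr ⟨b, r, h, hr, f⟩

/-- `B_𝔫` is local: a non-unit lies in the maximal ideal. -/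
theorem inLoc_inv {x : E} (hx : InLoc R c 𝔫 x) (hx' : ¬ InMax c 𝔫 x) : InLoc R c 𝔫 x⁻¹ := by
  obtain ⟨a, s, hs, e⟩ := hx
  have ha : a ∉ 𝔫 := fun h => hx' ⟨a, s, h, hs, e⟩
  have hx0 : x ≠ 0 := by
    rintro rfl
    rw [mul_zero] at e
    have : a = 0 := Subtype.ext (by push_cast; exact e.symm)
    exact ha (this ▸ 𝔫.zero_mem)
  refine ⟨s, a, ha, ?_⟩
  rw [← e, mul_assoc, mul_inv_cancel₀ hx0, mul_one]

theorem inMax_inv_of_not_inLoc {x : E} (hx : InLoc R c 𝔫 x⁻¹) (hx' : ¬ InLoc R c 𝔫 x) :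
    InMax c 𝔫 x⁻¹ := by
  by_contra h
  exact hx' (by simpa using inLoc_inv hx h)

theorem inMax_inv_absurd (h𝔫 : 𝔫.IsPrime) {x : E} (hx0 : x ≠ 0) (hx : InMax c 𝔫 x)
    (hx' : InLoc R c 𝔫 x⁻¹) : False := by
  have := inMax_mul h𝔫 hx hx'
  rw [mul_inv_cancel₀ hx0] at this
  exact not_inMax_one h𝔫 this

end api

/-! ### `B_𝔫` is integrally closed in `E`; maps of charts -/

section intcl

variable {R : Type} [CommRing R] {E : Type} [Field E] [Algebra R E]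
variable {c : E} {𝔫 : Ideal (Chart R c)}

/-- an element of `E` which is integral over every ring `T` over which all elements of `B_𝔫`
are integral lies in `B_𝔫` (`B_𝔫` is integrally closed in `E`). -/
theorem inLoc_of_forall_isIntegral (h𝔫 : 𝔫.IsPrime) (z : E)
    (h : ∀ (T : Type) [CommRing T] [Algebra T E],
      (∀ y : E, InLoc R c 𝔫 y → IsIntegral T y) → IsIntegral T z) :
    InLoc R c 𝔫 z := by
  classical
  haveI := h𝔫
  have hunit : ∀ y : 𝔫.primeCompl,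
      IsUnit (algebraMap ↥(Chart R c) E (y : ↥(Chart R c))) := by
    intro y
    apply IsUnit.mk0
    intro h0
    have h1 : ((y : ↥(Chart R c)) : E) = 0 := h0
    have h2 : (y : ↥(Chart R c)) = 0 := Subtype.ext h1
    exact y.2 (h2 ▸ 𝔫.zero_mem)
  let ι : Localization.AtPrime 𝔫 →+* E :=
    IsLocalization.lift (M := 𝔫.primeCompl) (g := algebraMap ↥(Chart R c) E) hunit
  letI : Algebra (Localization.AtPrime 𝔫) E := ι.toAlgebra
  haveI : IsScalarTower ↥(Chart R c) (Localization.AtPrime 𝔫) E :=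
    IsScalarTower.of_algebraMap_eq fun y =>
      (IsLocalization.lift_eq (M := 𝔫.primeCompl) hunit y).symm
  have hloc : ∀ y : E, InLoc R c 𝔫 y → IsIntegral (Localization.AtPrime 𝔫) y := by
    rintro y ⟨a, s, hs, hsz⟩
    have hz : y = algebraMap (Localization.AtPrime 𝔫) E
        (IsLocalization.mk' (Localization.AtPrime 𝔫) a (⟨s, hs⟩ : 𝔫.primeCompl)) := by
      change y = ι _
      symm
      rw [IsLocalization.lift_mk'_spec]
      exact hsz.symm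
    rw [hz]
    exact isIntegral_algebraMap
  have h1 : IsIntegral (Localization.AtPrime 𝔫) z := h (Localization.AtPrime 𝔫) hloc
  obtain ⟨m, hm⟩ := IsIntegral.exists_multiple_integral_of_isLocalization 𝔫.primeCompl z h1
  have h2 : IsIntegral ↥(Algebra.adjoin R {c}) (m • z) :=
    isIntegral_trans (R := ↥(Algebra.adjoin R {c})) (A := ↥(Chart R c)) _ hm
  refine ⟨⟨m • z, h2⟩, (m : ↥(Chart R c)), m.2, ?_⟩
  change ((m : ↥(Chart R c)) : E) * z = m • z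
  rw [Submonoid.smul_def, Algebra.smul_def]
  rfl

/-- (cf. `H12TC.isIntegral_map_of_forall`) -/
theorem isIntegral_map_of_forall' {A₀ T E : Type*} [CommRing A₀] [CommRing T] [CommRing E]
    [Algebra A₀ E] [Algebra T E] (w : E →+* E)
    (hw : ∀ a : A₀, IsIntegral T (w (algebraMap A₀ E a)))
    {x : E} (hx : IsIntegral A₀ x) : IsIntegral T (w x) := by
  obtain ⟨p, hp, hpx⟩ := hx
  let wA : A₀ →+* ↥(integralClosure T E) :=
    (w.comp (algebraMap A₀ E)).codRestrict (integralClosure T E) (fun a => hw a)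
  have h1 : IsIntegral ↥(integralClosure T E) (w x) := by
    refine ⟨p.map wA, hp.map wA, ?_⟩
    rw [Polynomial.eval₂_map]
    have h2 : (algebraMap ↥(integralClosure T E) E).comp wA = w.comp (algebraMap A₀ E) := by
      ext a; rfl
    rw [h2, ← Polynomial.hom_eval₂, hpx, map_zero]
  exact isIntegral_trans (R := T) (A := ↥(integralClosure T E)) _ h1

/-- (cf. `H12TC.isIntegral_map_adjoin`) -/
theorem isIntegral_map_adjoin' {R T E : Type*} [CommRing R] [CommRing T] [CommRing E]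
    [Algebra R E] [Algebra T E] (w : E →+* E) (t : E)
    (hR : ∀ r : R, IsIntegral T (w (algebraMap R E r))) (ht : IsIntegral T (w t))
    (a : ↥(Algebra.adjoin R {t})) :
    IsIntegral T (w (algebraMap ↥(Algebra.adjoin R {t}) E a)) := by
  obtain ⟨a, ha⟩ := a
  change IsIntegral T (w a)
  induction ha using Algebra.adjoin_induction with
  | mem x hx =>
      rw [Set.mem_singleton_iff] at hx
      rw [hx]; exact ht
  | algebraMap r => exact hR r
  | add x y _ _ hx hy => rw [map_add]; exact hx.add hy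
  | mul x y _ _ hx hy => rw [map_mul]; exact hx.mul hy

/-- if `w` fixes `R` and `w c' ∈ B_𝔫`, then `w` maps the chart ring of `c'` into `B_𝔫`. -/
theorem inLoc_map_chart (h𝔫 : 𝔫.IsPrime) (w : E →+* E)
    (hwR : ∀ r : R, w (algebraMap R E r) = algebraMap R E r) {c' : E}
    (hc' : InLoc R c 𝔫 (w c')) (y : Chart R c') : InLoc R c 𝔫 (w (y : E)) := by
  refine inLoc_of_forall_isIntegral h𝔫 _ ?_
  intro T _ _ hT
  refine isIntegral_map_of_forall' (A₀ := ↥(Algebra.adjoin R {c'})) w ?_ y.2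
  intro a
  refine isIntegral_map_adjoin' w c' ?_ (hT _ hc') a
  intro r
  rw [hwR]
  exact hT _ (inLoc_algebraMap h𝔫 r)

end intcl

/-! ### the residue field of a closed point is integral over `R` -/

section resint

/-- from a polynomial with a unit coefficient to a monic one, modulo the maximal ideal. -/
theorem exists_monic_of_coeff_one {R : Type} [CommRing R] [IsLocalRing R]
    {M : Type} [CommRing M] [Algebra R M] (I : Ideal M)
    (hI : ∀ r : R, r ∈ IsLocalRing.maximalIdeal R → algebraMap R M r ∈ I)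
    (y : M) (Q : R[X]) (hQ0 : Q.coeff 0 = 1) (hQ : aeval y Q ∈ I) :
    ∃ G : R[X], G.Monic ∧ aeval y G ∈ I := by
  classical
  let res := IsLocalRing.residue R
  have hres : Function.Surjective res := IsLocalRing.residue_surjective
  have hQ' : Q.map res ≠ 0 := by
    intro h
    have := congrArg (fun p => p.coeff 0) h
    simp only [coeff_map, hQ0, map_one, coeff_zero] at this
    exact one_ne_zero this
  have hmon : (Q.map res * C (Q.map res).leadingCoeff⁻¹).Monic :=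
    monic_mul_leadingCoeff_inv hQ'
  have hlift : (Q.map res * C (Q.map res).leadingCoeff⁻¹) ∈ lifts res := by
    rw [mem_lifts]
    exact map_surjective res hres _
  obtain ⟨G, hG, _, hGm⟩ := lifts_and_degree_eq_and_monic hlift hmon
  obtain ⟨u, hu⟩ := hres (Q.map res).leadingCoeff⁻¹
  refine ⟨G, hGm, ?_⟩
  have hD : ∀ n, (G - Q * C u).coeff n ∈ IsLocalRing.maximalIdeal R := by
    intro n
    rw [← IsLocalRing.residue_eq_zero_iff, ← coeff_map]
    rw [Polynomial.map_sub, Polynomial.map_mul, map_C, hG, hu, sub_self, coeff_zero]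
  have hD' : aeval y (G - Q * C u) ∈ I := by
    rw [aeval_eq_sum_range]
    refine I.sum_mem ?_
    intro n _
    rw [Algebra.smul_def]
    exact I.mul_mem_right _ (hI _ (hD n))
  have : aeval y G = aeval y (G - Q * C u) + aeval y Q * algebraMap R M u := by
    rw [map_sub, map_mul, aeval_C]
    ring
  rw [this]
  exact I.add_mem hD' (I.mul_mem_right _ hQ)

/-- `M / P` is integral over `R` as soon as `P` contains a monic polynomial in the generator. -/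
theorem quot_isIntegral_of_monic {R A M : Type} [CommRing R] [CommRing A] [CommRing M]
    [Algebra R A] [Algebra A M] [Algebra R M] [IsScalarTower R A M] [Algebra.IsIntegral A M]
    (t : A) (hA : ∀ a : A, ∃ Q : R[X], aeval t Q = a)
    (P : Ideal M) (G : R[X]) (hG : G.Monic) (hGt : algebraMap A M (aeval t G) ∈ P) :
    (algebraMap R (M ⧸ P)).IsIntegral := by
  have htbar : IsIntegral R (algebraMap A (M ⧸ P) t) := by
    refine ⟨G, hG, ?_⟩
    have h1 : eval₂ (algebraMap R (M ⧸ P)) (algebraMap A (M ⧸ P) t) G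
        = algebraMap A (M ⧸ P) (aeval t G) := by
      rw [← aeval_def, ← aeval_algebraMap_apply]
    rw [h1, IsScalarTower.algebraMap_apply A M (M ⧸ P), Ideal.Quotient.algebraMap_eq,
      Ideal.Quotient.eq_zero_iff_mem]
    exact hGt
  have hA' : ∀ a : A, algebraMap A (M ⧸ P) a ∈ integralClosure R (M ⧸ P) := by
    intro a
    obtain ⟨Q, rfl⟩ := hA a
    rw [← aeval_algebraMap_apply]
    have h3 := Subalgebra.aeval_coe (integralClosure R (M ⧸ P)) ⟨_, htbar⟩ Q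
    rw [h3]
    exact SetLike.coe_mem _
  intro d
  have hd : IsIntegral A d := Algebra.IsIntegral.isIntegral d
  let φ : A →+* integralClosure R (M ⧸ P) :=
    (algebraMap A (M ⧸ P)).codRestrict (integralClosure R (M ⧸ P)) hA'
  have h2 : IsIntegral (integralClosure R (M ⧸ P)) d := by
    have := IsIntegral.map_of_comp_eq φ (RingHom.id (M ⧸ P)) (by ext a; rfl) hd
    simpa using this
  exact isIntegral_trans (R := R) (A := integralClosure R (M ⧸ P)) d h2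

variable {R : Type} [CommRing R] [IsDomain R] [IsDiscreteValuationRing R]
  {E : Type} [Field E] [Algebra R E]
variable {c : E} {𝔫 : Ideal (Chart R c)}

/-- the chart function as an element of the chart ring. -/
def chartGen (R : Type) [CommRing R] {E : Type} [Field E] [Algebra R E] (c : E) : Chart R c :=
  algebraMap (Algebra.adjoin R {c}) (Chart R c) ⟨c, Algebra.subset_adjoin rfl⟩

omit [IsDomain R] [IsDiscreteValuationRing R] in
@[simp] theorem chartGen_coe : ((chartGen R c : Chart R c) : E) = c := rfl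

theorem mem_of_mem_maximalIdeal (ϖ : R) (hϖ : Irreducible ϖ)
    (hϖ𝔫 : ∀ y : Chart R c, (y : E) = algebraMap R E ϖ → y ∈ 𝔫) (r : R)
    (hr : r ∈ IsLocalRing.maximalIdeal R) : algebraMap R (Chart R c) r ∈ 𝔫 := by
  rw [hϖ.maximalIdeal_eq, Ideal.mem_span_singleton] at hr
  obtain ⟨r', rfl⟩ := hr
  rw [map_mul]
  exact 𝔫.mul_mem_right _ (hϖ𝔫 _ rfl)

/-- Step 1: the chart function is integral over `R` modulo a closed point. -/
theorem exists_monic_chartGen (h𝔫 : 𝔫.IsMaximal) (ϖ : R) (hϖ : Irreducible ϖ)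
    (hϖ𝔫 : ∀ y : Chart R c, (y : E) = algebraMap R E ϖ → y ∈ 𝔫) :
    ∃ G : R[X], G.Monic ∧ algebraMap (Algebra.adjoin R {c}) (Chart R c)
      (aeval (⟨c, Algebra.subset_adjoin rfl⟩ : Algebra.adjoin R {c}) G) ∈ 𝔫 := by
  have h𝔭 : (𝔫.comap (algebraMap (Algebra.adjoin R {c}) (Chart R c))).IsMaximal :=
    Ideal.isMaximal_comap_of_isIntegral_of_isMaximal 𝔫
  set cT : Algebra.adjoin R {c} := ⟨c, Algebra.subset_adjoin rfl⟩ with hcT
  by_cases hc : cT ∈ 𝔫.comap (algebraMap (Algebra.adjoin R {c}) (Chart R c))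
  · exact ⟨X, monic_X, by rw [aeval_X]; exact hc⟩
  · obtain ⟨v, i, hi, e⟩ := h𝔭.exists_inv hc
    obtain ⟨P, hP⟩ := H20CC.h20cc_exists_poly v
    have hQ : aeval cT (1 - P * X) ∈ 𝔫.comap (algebraMap (Algebra.adjoin R {c}) (Chart R c)) := by
      have : aeval cT (1 - P * X) = i := by
        rw [map_sub, map_one, map_mul, aeval_X, hP, ← e]
        ring
      rw [this]; exact hi
    have hI : ∀ r : R, r ∈ IsLocalRing.maximalIdeal R →
        algebraMap R (Algebra.adjoin R {c}) r ∈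
          𝔫.comap (algebraMap (Algebra.adjoin R {c}) (Chart R c)) := by
      intro r hr
      rw [Ideal.mem_comap]
      exact mem_of_mem_maximalIdeal ϖ hϖ hϖ𝔫 r hr
    obtain ⟨G, hG, hGI⟩ := exists_monic_of_coeff_one
      (𝔫.comap (algebraMap (Algebra.adjoin R {c}) (Chart R c))) hI cT (1 - P * X)
      (by simp) hQ
    exact ⟨G, hG, hGI⟩

/-- Step 2: every element of the chart ring is integral over `R` modulo a closed point. -/
theorem exists_monic_mem (h𝔫 : 𝔫.IsMaximal) (ϖ : R) (hϖ : Irreducible ϖ)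
    (hϖ𝔫 : ∀ y : Chart R c, (y : E) = algebraMap R E ϖ → y ∈ 𝔫) (y : Chart R c) :
    ∃ G : R[X], G.Monic ∧ aeval y G ∈ 𝔫 := by
  obtain ⟨G₀, hG₀, hG₀𝔫⟩ := exists_monic_chartGen h𝔫 ϖ hϖ hϖ𝔫
  have hint := quot_isIntegral_of_monic (R := R) (A := Algebra.adjoin R {c}) (M := Chart R c)
    (⟨c, Algebra.subset_adjoin rfl⟩ : Algebra.adjoin R {c}) H20CC.h20cc_exists_poly 𝔫 G₀ hG₀
    hG₀𝔫
  obtain ⟨G, hG, hGy⟩ := hint (Ideal.Quotient.mk 𝔫 y)
  refine ⟨G, hG, ?_⟩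
  rw [← Ideal.Quotient.eq_zero_iff_mem]
  have : Ideal.Quotient.mk 𝔫 (aeval y G) = eval₂ (algebraMap R (Chart R c ⧸ 𝔫))
      (Ideal.Quotient.mk 𝔫 y) G := by
    rw [aeval_def, hom_eval₂]
    rfl
  rw [this]
  exact hGy

omit [IsDomain R] [IsDiscreteValuationRing R] in
/-- polynomial evaluation respects congruence modulo `𝔪_{B_𝔫}`. -/
theorem inMax_aeval_sub (h𝔫 : 𝔫.IsPrime) {x y : E} (hx : InLoc R c 𝔫 x) (hy : InLoc R c 𝔫 y)
    (hxy : InMax c 𝔫 (x - y)) (G : R[X]) :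
    InLoc R c 𝔫 (aeval y G) ∧ InMax c 𝔫 (aeval x G - aeval y G) := by
  induction G using Polynomial.induction_on with
  | C r =>
      rw [aeval_C, aeval_C, sub_self]
      exact ⟨inLoc_algebraMap h𝔫 r, inMax_zero h𝔫⟩
  | add p q hp hq =>
      rw [map_add, map_add]
      refine ⟨inLoc_add h𝔫 hp.1 hq.1, ?_⟩
      have : aeval x p + aeval x q - (aeval y p + aeval y q)
          = (aeval x p - aeval y p) + (aeval x q - aeval y q) := by ring
      rw [this]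
      exact inMax_add h𝔫 hp.2 hq.2
  | monomial n r ih =>
      have e1 : ∀ z : E, aeval z (C r * X ^ (n + 1) : R[X]) = aeval z (C r * X ^ n : R[X]) * z := by
        intro z
        simp only [map_mul, map_pow, aeval_X, aeval_C]
        ring
      rw [e1, e1]
      refine ⟨inLoc_mul h𝔫 ih.1 hy, ?_⟩
      have : aeval x (C r * X ^ n : R[X]) * x - aeval y (C r * X ^ n : R[X]) * y
          = (aeval x (C r * X ^ n : R[X]) - aeval y (C r * X ^ n : R[X])) * x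
            + aeval y (C r * X ^ n : R[X]) * (x - y) := by ring
      rw [this]
      exact inMax_add h𝔫 (inMax_mul h𝔫 ih.2 hx) (inMax_mul' h𝔫 ih.1 hxy)

/-- (RES-INT): every element of `B_𝔫` is integral over `R` modulo `𝔪_{B_𝔫}`. -/
theorem exists_monic_inMax (h𝔫 : 𝔫.IsMaximal) (ϖ : R) (hϖ : Irreducible ϖ)
    (hϖ𝔫 : ∀ y : Chart R c, (y : E) = algebraMap R E ϖ → y ∈ 𝔫) {x : E}
    (hx : InLoc R c 𝔫 x) : ∃ G : R[X], G.Monic ∧ InMax c 𝔫 (aeval x G) := by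
  have hp := h𝔫.isPrime
  obtain ⟨a, s, hs, e⟩ := hx
  obtain ⟨s', i, hi, es⟩ := h𝔫.exists_inv hs
  -- `x ≡ a s'`
  have hxy : InMax c 𝔫 (x - ((a * s' : Chart R c) : E)) := by
    refine ⟨a * i, s, 𝔫.mul_mem_left _ hi, hs, ?_⟩
    have : (i : E) = 1 - (s' : E) * s := by
      have := congrArg (fun z : Chart R c => (z : E)) es
      push_cast at this
      rw [← this]; ring
    push_cast
    rw [this, mul_sub, e]
    ring
  obtain ⟨G, hG, hGy⟩ := exists_monic_mem h𝔫 ϖ hϖ hϖ𝔫 (a * s')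
  refine ⟨G, hG, ?_⟩
  have h1 := inMax_aeval_sub hp ⟨a, s, hs, e⟩ (inLoc_coe hp (a * s')) hxy G
  have h2 : InMax c 𝔫 (aeval ((a * s' : Chart R c) : E) G) := by
    have : aeval ((a * s' : Chart R c) : E) G = ((aeval (a * s') G : Chart R c) : E) := by
      have := aeval_algebraMap_apply (A := Chart R c) E (a * s') G
      exact this
    rw [this]
    exact (inMax_coe_iff hp _).mpr hGy
  have := inMax_add hp h1.2 h2
  rwa [sub_add_cancel] at this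

end resint

/-! ### the image point -/

section image

variable {R : Type} [CommRing R] {E : Type} [Field E] [Algebra R E]
variable {c c' : E} {𝔫 : Ideal (Chart R c)}

/-- the image point `𝔫' = {y ∈ M₀' | w y ∈ 𝔪_{B_𝔫}}`. -/
def imgIdeal (w : E →+* E) (c' : E) (𝔫 : Ideal (Chart R c)) (h𝔫 : 𝔫.IsPrime)
    (hmap : ∀ y : Chart R c', InLoc R c 𝔫 (w (y : E))) : Ideal (Chart R c') where
  carrier := {y | InMax c 𝔫 (w (y : E))}
  add_mem' := by
    intro a b ha hb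
    change InMax c 𝔫 (w ((a + b : Chart R c') : E))
    push_cast
    rw [map_add]
    exact inMax_add h𝔫 ha hb
  zero_mem' := by
    change InMax c 𝔫 (w ((0 : Chart R c') : E))
    push_cast
    rw [map_zero]
    exact inMax_zero h𝔫
  smul_mem' := by
    intro a b hb
    change InMax c 𝔫 (w ((a * b : Chart R c') : E))
    push_cast
    rw [map_mul]
    exact inMax_mul' h𝔫 (hmap a) hb

theorem mem_imgIdeal (w : E →+* E) (h𝔫 : 𝔫.IsPrime)
    (hmap : ∀ y : Chart R c', InLoc R c 𝔫 (w (y : E))) (y : Chart R c') :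
    y ∈ imgIdeal w c' 𝔫 h𝔫 hmap ↔ InMax c 𝔫 (w (y : E)) := Iff.rfl

theorem imgIdeal_isPrime (w : E →+* E) (h𝔫 : 𝔫.IsPrime)
    (hmap : ∀ y : Chart R c', InLoc R c 𝔫 (w (y : E))) :
    (imgIdeal w c' 𝔫 h𝔫 hmap).IsPrime := by
  refine ⟨?_, ?_⟩
  · rw [Ideal.ne_top_iff_one, mem_imgIdeal]
    push_cast
    rw [map_one]
    exact not_inMax_one h𝔫
  · intro a b hab
    rw [mem_imgIdeal] at hab
    push_cast at hab
    rw [map_mul] at hab
    exact inMax_or_of_mul h𝔫 (hmap a) (hmap b) hab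

/-- `w (B_𝔫') ⊆ B_𝔫`. -/
theorem inLoc_of_img (w : E →+* E) (h𝔫 : 𝔫.IsPrime)
    (hmap : ∀ y : Chart R c', InLoc R c 𝔫 (w (y : E))) {x : E}
    (hx : InLoc R c' (imgIdeal w c' 𝔫 h𝔫 hmap) x) : InLoc R c 𝔫 (w x) := by
  obtain ⟨a, s, hs, e⟩ := hx
  have hs' : ¬ InMax c 𝔫 (w (s : E)) := hs
  have hs0 : w (s : E) ≠ 0 := by
    intro h0
    exact hs' (h0 ▸ inMax_zero h𝔫)
  have e' : w x = w (a : E) * (w (s : E))⁻¹ := by
    rw [← e, map_mul]
    field_simp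
  rw [e']
  exact inLoc_mul h𝔫 (hmap a) (inLoc_inv (hmap s) hs')

/-- `w (𝔪_{B_𝔫'}) ⊆ 𝔪_{B_𝔫}`. -/
theorem inMax_of_img (w : E →+* E) (h𝔫 : 𝔫.IsPrime)
    (hmap : ∀ y : Chart R c', InLoc R c 𝔫 (w (y : E))) {x : E}
    (hx : InMax c' (imgIdeal w c' 𝔫 h𝔫 hmap) x) : InMax c 𝔫 (w x) := by
  obtain ⟨a, s, ha, hs, e⟩ := hx
  have hs' : ¬ InMax c 𝔫 (w (s : E)) := hs
  have ha' : InMax c 𝔫 (w (a : E)) := ha
  have hs0 : w (s : E) ≠ 0 := by
    intro h0
    exact hs' (h0 ▸ inMax_zero h𝔫)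
  have e' : w x = w (a : E) * (w (s : E))⁻¹ := by
    rw [← e, map_mul]
    field_simp
  rw [e']
  exact inMax_mul h𝔫 ha' (inLoc_inv (hmap s) hs')

/-- the converse inclusions, when `w` is an involution and `w c ∈ B_𝔫'`. -/
theorem img_of_inLoc (w : E →+* E) (hww : ∀ x, w (w x) = x)
    (hwR : ∀ r : R, w (algebraMap R E r) = algebraMap R E r) (h𝔫 : 𝔫.IsPrime)
    (hmap : ∀ y : Chart R c', InLoc R c 𝔫 (w (y : E)))
    (hwc : InLoc R c' (imgIdeal w c' 𝔫 h𝔫 hmap) (w c)) (x : E) :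
    (InLoc R c 𝔫 (w x) → InLoc R c' (imgIdeal w c' 𝔫 h𝔫 hmap) x) ∧
    (InMax c 𝔫 (w x) → InMax c' (imgIdeal w c' 𝔫 h𝔫 hmap) x) := by
  have hp' := imgIdeal_isPrime w h𝔫 hmap
  have hmap' : ∀ y : Chart R c, InLoc R c' (imgIdeal w c' 𝔫 h𝔫 hmap) (w (y : E)) :=
    fun y => inLoc_map_chart hp' w hwR hwc y
  have hwinj : ∀ z : E, z ≠ 0 → w z ≠ 0 := fun z hz h0 => hz (by
    have := congrArg w h0
    rwa [hww, map_zero] at this)
  -- `w` maps `𝔫` into `𝔪_{B_𝔫'}`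
  have hA : ∀ y : Chart R c, y ∈ 𝔫 → InMax c' (imgIdeal w c' 𝔫 h𝔫 hmap) (w (y : E)) := by
    intro y hy
    by_cases hy0 : (y : E) = 0
    · rw [hy0, map_zero]; exact inMax_zero hp'
    by_contra hcon
    have h1 := inLoc_inv (hmap' y) hcon
    have h2 := inLoc_of_img w h𝔫 hmap h1
    rw [map_inv₀, hww] at h2
    exact inMax_inv_absurd h𝔫 hy0 ((inMax_coe_iff h𝔫 y).mpr hy) h2
  -- `w` maps the complement of `𝔫` into units of `B_𝔫'`
  have hB : ∀ s : Chart R c, s ∉ 𝔫 → ¬ InMax c' (imgIdeal w c' 𝔫 h𝔫 hmap) (w (s : E)) := by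
    intro s hs hcon
    have h1 := inMax_of_img w h𝔫 hmap hcon
    rw [hww] at h1
    exact hs ((inMax_coe_iff h𝔫 s).mp h1)
  have key : ∀ a s : Chart R c, s ∉ 𝔫 → (s : E) * w x = (a : E) →
      x = w (a : E) * (w (s : E))⁻¹ := by
    intro a s hs e
    have hs0 : (s : E) ≠ 0 := by
      intro h0
      have : s = 0 := Subtype.ext (by push_cast; exact h0)
      exact hs (this ▸ 𝔫.zero_mem)
    have h1 : w (s : E) * x = w (a : E) := by
      rw [← e, map_mul, hww]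
    rw [← h1]
    field_simp [hwinj _ hs0]
  constructor
  · rintro ⟨a, s, hs, e⟩
    rw [key a s hs e]
    exact inLoc_mul hp' (hmap' a) (inLoc_inv (hmap' s) (hB s hs))
  · rintro ⟨a, s, ha, hs, e⟩
    rw [key a s hs e]
    exact inMax_mul hp' (hA a ha) (inLoc_inv (hmap' s) (hB s hs))

end image

/-! ### the image point is a closed point -/

section closed

variable {R : Type} [CommRing R] [IsDomain R] [IsDiscreteValuationRing R]
  {E : Type} [Field E] [Algebra R E]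
variable {c c' : E} {𝔫 : Ideal (Chart R c)}

omit [IsDomain R] [IsDiscreteValuationRing R] in
theorem map_aeval_of_fix (w : E →+* E)
    (hwR : ∀ r : R, w (algebraMap R E r) = algebraMap R E r) (x : E) (G : R[X]) :
    w (aeval x G) = aeval (w x) G := by
  rw [aeval_def, hom_eval₂, aeval_def]
  congr 1
  ext r
  exact hwR r

omit [IsDomain R] [IsDiscreteValuationRing R] in
theorem imgIdeal_pi_mem (w : E →+* E)
    (hwR : ∀ r : R, w (algebraMap R E r) = algebraMap R E r) (h𝔫 : 𝔫.IsPrime)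
    (hmap : ∀ y : Chart R c', InLoc R c 𝔫 (w (y : E))) (ϖ : R)
    (hϖ𝔫 : ∀ y : Chart R c, (y : E) = algebraMap R E ϖ → y ∈ 𝔫) :
    ∀ y : Chart R c', (y : E) = algebraMap R E ϖ → y ∈ imgIdeal w c' 𝔫 h𝔫 hmap := by
  intro y hy
  rw [mem_imgIdeal, hy, hwR]
  exact (inMax_coe_iff h𝔫 (algebraMap R (Chart R c) ϖ)).mpr (hϖ𝔫 _ rfl)

theorem imgIdeal_isMaximal (w : E →+* E)
    (hwR : ∀ r : R, w (algebraMap R E r) = algebraMap R E r) (h𝔫 : 𝔫.IsMaximal)
    (hmap : ∀ y : Chart R c', InLoc R c 𝔫 (w (y : E))) (ϖ : R) (hϖ : Irreducible ϖ)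
    (hϖ𝔫 : ∀ y : Chart R c, (y : E) = algebraMap R E ϖ → y ∈ 𝔫) :
    (imgIdeal w c' 𝔫 h𝔫.isPrime hmap).IsMaximal := by
  have hp := h𝔫.isPrime
  haveI hp' := imgIdeal_isPrime w hp hmap
  have hπ := imgIdeal_pi_mem w hwR hp hmap ϖ hϖ𝔫
  -- the contraction to `R` is maximal
  have hcomap : ((imgIdeal w c' 𝔫 hp hmap).comap (algebraMap R (Chart R c'))).IsMaximal := by
    have hne : (imgIdeal w c' 𝔫 hp hmap).comap (algebraMap R (Chart R c')) ≠ ⊤ :=
      (Ideal.comap_isPrime (algebraMap R (Chart R c')) _).ne_top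
    have hle : IsLocalRing.maximalIdeal R ≤
        (imgIdeal w c' 𝔫 hp hmap).comap (algebraMap R (Chart R c')) := by
      rw [hϖ.maximalIdeal_eq, Ideal.span_singleton_le_iff_mem, Ideal.mem_comap]
      exact hπ _ rfl
    have := (IsLocalRing.maximalIdeal.isMaximal R).eq_of_le hne hle
    rw [← this]
    exact IsLocalRing.maximalIdeal.isMaximal R
  -- a monic polynomial in `c'` in `𝔫'`
  have hc' : InLoc R c 𝔫 (w c') := hmap (chartGen R c')
  obtain ⟨G, hG, hGx⟩ := exists_monic_inMax h𝔫 ϖ hϖ hϖ𝔫 hc'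
  refine H20CC.h20cc_isMaximal_of_monic (R := R) (A := Algebra.adjoin R {c'}) (M := Chart R c')
    (⟨c', Algebra.subset_adjoin rfl⟩ : Algebra.adjoin R {c'}) H20CC.h20cc_exists_poly _
    hcomap G hG ?_
  rw [mem_imgIdeal]
  have h1 : ((algebraMap (Algebra.adjoin R {c'}) (Chart R c')
      (aeval (⟨c', Algebra.subset_adjoin rfl⟩ : Algebra.adjoin R {c'}) G) : Chart R c') : E)
      = aeval c' G := by
    have := Subalgebra.aeval_coe (Algebra.adjoin R {c'})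
      (⟨c', Algebra.subset_adjoin rfl⟩ : Algebra.adjoin R {c'}) G
    exact this.symm
  rw [h1, map_aeval_of_fix w hwR]
  exact hGx

/-- **the image point** (generic): if `w` is an involution of `E` fixing `R`, `𝔫` a closed point
of the chart `c` with `w c' ∈ B_𝔫`, then `𝔫' = M₀' ∩ w (𝔪_{B_𝔫})` is a closed point of the
chart `c'` with `w (B_𝔫') ⊆ B_𝔫`, `w (𝔪_{B_𝔫'}) ⊆ 𝔪_{B_𝔫}`; if moreover `w c ∈ B_𝔫'` or
`(w c)⁻¹ ∉ 𝔪_{B_𝔫'}`-type information holds, equalities. -/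
theorem exists_image_point (w : E →+* E) (hww : ∀ x, w (w x) = x)
    (hwR : ∀ r : R, w (algebraMap R E r) = algebraMap R E r) (ϖ : R) (hϖ : Irreducible ϖ)
    (h𝔫 : IsClosedPt R ϖ c 𝔫) (hc' : InLoc R c 𝔫 (w c')) :
    ∃ 𝔫' : Ideal (Chart R c'), IsClosedPt R ϖ c' 𝔫' ∧
      (∀ y : Chart R c', y ∈ 𝔫' ↔ InMax c 𝔫 (w (y : E))) ∧
      (∀ x : E, InLoc R c' 𝔫' x → InLoc R c 𝔫 (w x)) ∧
      (∀ x : E, InMax c' 𝔫' x → InMax c 𝔫 (w x)) ∧
      (InLoc R c' 𝔫' (w c) → ∀ x : E,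
        (InLoc R c' 𝔫' x ↔ InLoc R c 𝔫 (w x)) ∧ (InMax c' 𝔫' x ↔ InMax c 𝔫 (w x))) := by
  have hp := h𝔫.1.isPrime
  have hmap : ∀ y : Chart R c', InLoc R c 𝔫 (w (y : E)) :=
    fun y => inLoc_map_chart hp w hwR hc' y
  refine ⟨imgIdeal w c' 𝔫 hp hmap,
    ⟨imgIdeal_isMaximal w hwR h𝔫.1 hmap ϖ hϖ h𝔫.2, imgIdeal_pi_mem w hwR hp hmap ϖ h𝔫.2⟩,
    fun y => mem_imgIdeal w hp hmap y,
    fun x hx => inLoc_of_img w hp hmap hx, fun x hx => inMax_of_img w hp hmap hx, ?_⟩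
  intro hwc x
  have := img_of_inLoc w hww hwR hp hmap hwc x
  exact ⟨⟨fun hx => inLoc_of_img w hp hmap hx, this.1⟩,
    ⟨fun hx => inMax_of_img w hp hmap hx, this.2⟩⟩

end closed

/-! ### transport of uniformizers -/

section transport

variable {R : Type} [CommRing R] {E : Type} [Field E] [Algebra R E]
variable {c c' : E}

/-- **transport** of a uniformizer of the first component at `𝔫'` to a uniformizer of the second
component at `𝔫`, when `w (B_𝔫') = B_𝔫`.  `G` = Gauss ring, `Z` = its maximal ideal. -/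
theorem unifAt_transport (w : E →+* E) (hww : ∀ x, w (w x) = x) (G Z : E → Prop)
    (hZG : ∀ x y : E, Z x → G y → Z (x * y))
    (hprime : ∀ x y : E, G x → G y → Z (x * y) → Z x ∨ Z y)
    (𝔫 : Ideal (Chart R c)) (𝔫' : Ideal (Chart R c')) (h𝔫 : 𝔫.IsPrime) (h𝔫' : 𝔫'.IsPrime)
    (hGw : ∀ y : Chart R c, G (w (y : E))) (hG' : ∀ y : Chart R c', G (y : E))
    (hloc : ∀ x : E, InLoc R c' 𝔫' x ↔ InLoc R c 𝔫 (w x))
    (hmax : ∀ x : E, InMax c' 𝔫' x ↔ InMax c 𝔫 (w x))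
    (P₂ : Ideal (Chart R c)) (hP₂ : ∀ y : Chart R c, y ∈ P₂ ↔ Z (w (y : E)))
    (P₁' : Ideal (Chart R c')) (hP₁' : ∀ y : Chart R c', y ∈ P₁' ↔ Z (y : E))
    (h2 : P₂ ≤ 𝔫) :
    P₁' ≤ 𝔫' ∧ ∀ x' : Chart R c', H26DI.UnifAt P₁' 𝔫' x' → ∃ x : Chart R c,
      H26DI.UnifAt P₂ 𝔫 x := by
  -- `w a` for `a = s · w y`
  have hwa : ∀ (a s : Chart R c) (y : E), (s : E) * w y = (a : E) →
      w (a : E) = y * w (s : E) := by
    intro a s y e
    rw [← e, map_mul, hww, mul_comm]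
  constructor
  · intro y hy
    have hZy : Z (y : E) := (hP₁' y).mp hy
    obtain ⟨a, s, hs, e⟩ := (hloc _).mp (inLoc_coe h𝔫' y)
    have ha : a ∈ P₂ := by
      rw [hP₂, hwa a s _ e]
      exact hZG _ _ hZy (hGw s)
    exact (inMax_coe_iff h𝔫' y).mp ((hmax _).mpr ⟨a, s, h2 ha, hs, e⟩)
  · rintro x' ⟨hx'𝔫, hx'P, hunif⟩
    obtain ⟨a₃, s₃, ha₃, hs₃, e₃⟩ := (hmax _).mp ((inMax_coe_iff h𝔫' x').mpr hx'𝔫)
    refine ⟨a₃, ha₃, ?_, ?_⟩
    · intro h
      rw [hP₂, hwa a₃ s₃ _ e₃] at h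
      rcases hprime _ _ (hG' x') (hGw s₃) h with h' | h'
      · exact hx'P ((hP₁' x').mpr h')
      · exact hs₃ (h2 ((hP₂ s₃).mpr h'))
    · intro z hz
      have hz' : InMax c' 𝔫' (w (z : E)) := by
        rw [hmax, hww]
        exact (inMax_coe_iff h𝔫 z).mpr hz
      obtain ⟨a₁, s₁, ha₁, hs₁, e₁⟩ := hz'
      obtain ⟨u', hu', c₁', he'⟩ := hunif a₁ ha₁
      -- local representatives
      have hrep : ∀ y : Chart R c', y ∉ 𝔫' → ∃ a s : Chart R c, a ∉ 𝔫 ∧ s ∉ 𝔫 ∧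
          (s : E) * w (y : E) = (a : E) := by
        intro y hy
        obtain ⟨a, s, hs, e⟩ := (hloc _).mp (inLoc_coe h𝔫' y)
        refine ⟨a, s, ?_, hs, e⟩
        intro ha
        exact hy ((inMax_coe_iff h𝔫' y).mp ((hmax _).mpr ⟨a, s, ha, hs, e⟩))
      obtain ⟨a_u, s_u, ha_u, hs_u, e_u⟩ := hrep u' hu'
      obtain ⟨a₂, s₂, ha₂, hs₂, e₂⟩ := hrep s₁ hs₁
      obtain ⟨a_c, s_c, hs_c, e_c⟩ := (hloc _).mp (inLoc_coe h𝔫' c₁')
      obtain ⟨a_e, s_e, hs_e, e_e⟩ := (hloc _).mp (inLoc_coe h𝔫' (u' * a₁ - c₁' * x'))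
      have hmem : ∀ {a b : Chart R c}, a ∉ 𝔫 → b ∉ 𝔫 → a * b ∉ 𝔫 :=
        fun ha hb h => (h𝔫.mem_or_mem h).elim ha hb
      refine ⟨a_u * a₂ * s_c * s₃ * s_e,
        hmem (hmem (hmem (hmem ha_u ha₂) hs_c) hs₃) hs_e, a_c * s_u * s₂ * s_e, ?_⟩
      have hwa₁ : w (a₁ : E) = w (s₁ : E) * (z : E) := by
        rw [← e₁, map_mul, hww]
      have heq : w (u' : E) * (w (s₁ : E) * (z : E)) - w (c₁' : E) * w (x' : E)
          = w (((u' * a₁ - c₁' * x' : Chart R c') : E)) := by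
        push_cast
        rw [map_sub, map_mul, map_mul, hwa₁]
      have hfin : a_u * a₂ * s_c * s₃ * s_e * z - a_c * s_u * s₂ * s_e * a₃
          = a_e * (s_u * s₂ * s_c * s₃) := by
        apply Subtype.ext
        push_cast
        rw [← e_u, ← e₂, ← e_c, ← e₃, ← e_e]
        linear_combination
          ((s_u : E) * (s₂ : E) * (s_c : E) * (s₃ : E) * (s_e : E)) * heq
      rw [hfin, hP₂]
      push_cast
      rw [map_mul, hwa a_e s_e _ e_e]
      refine hZG _ _ (hZG _ _ ((hP₁' _).mp he') (hGw s_e)) ?_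
      have := hGw (s_u * s₂ * s_c * s₃)
      push_cast at this
      exact this

end transport

/-! ### the dichotomy form -/

section dich

variable {R : Type} [CommRing R] [IsDomain R] [IsDiscreteValuationRing R]
  {E : Type} [Field E] [Algebra R E]

/-- `(H_W)` at all (prime) points of the charts `t`, `t⁻¹` (over `t = ∞`). -/
def HWAt (R : Type) [CommRing R] {E : Type} [Field E] [Algebra R E] (w : E →+* E) (t : E) :
    Prop :=
  ∀ (c : E) (𝔫 : Ideal (Chart R c)), 𝔫.IsPrime → H26DI.IsDichPt t c 𝔫 →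
    InLoc R c 𝔫 (w t) ∨ (InLoc R c 𝔫 (w t)⁻¹ ∧ ¬ InLoc R c 𝔫 (w t))

omit [IsDomain R] [IsDiscreteValuationRing R] in
/-- at a point `𝔫'` whose local ring is mapped into `B_𝔫` by `w`, `(H_W)` gives `w c ∈ B_𝔫'`. -/
theorem inLoc_w_chart (w : E →+* E) (hww : ∀ x, w (w x) = x) (t : E) (ht0 : t ≠ 0)
    (hHW : HWAt R w t) {c c' : E} (𝔫 : Ideal (Chart R c)) (𝔫' : Ideal (Chart R c'))
    (h𝔫 : 𝔫.IsPrime) (h𝔫' : 𝔫'.IsPrime) (hc : c = t ∨ c = t⁻¹)
    (hd' : H26DI.IsDichPt t c' 𝔫')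
    (h2 : ∀ x : E, InMax c' 𝔫' x → InMax c 𝔫 (w x)) : InLoc R c' 𝔫' (w c) := by
  have hcc : InLoc R c 𝔫 c := inLoc_coe h𝔫 (chartGen R c)
  rcases hHW c' 𝔫' h𝔫' hd' with h | ⟨h, h'⟩
  · rcases hc with rfl | rfl
    · exact h
    · rw [map_inv₀]
      by_cases hm : InMax c' 𝔫' (w t)
      · exfalso
        have h3 := h2 _ hm
        rw [hww] at h3
        exact inMax_inv_absurd h𝔫 ht0 h3 hcc
      · exact inLoc_inv h hm
  · rcases hc with rfl | rfl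
    · exfalso
      have h3 := h2 _ (inMax_inv_of_not_inLoc h h')
      rw [map_inv₀, hww] at h3
      refine inMax_inv_absurd h𝔫 (inv_ne_zero ht0) h3 ?_
      rw [inv_inv]
      exact hcc
    · rw [map_inv₀]
      exact h

/-- **the image of a dichotomy point**: under `(H_W)`, every closed point `𝔫` of the charts
`t`, `t⁻¹` (over `t = ∞`) has an image point `𝔫'` of the same kind with `w (B_𝔫') = B_𝔫`. -/
theorem exists_dich_image (w : E →+* E) (hww : ∀ x, w (w x) = x)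
    (hwR : ∀ r : R, w (algebraMap R E r) = algebraMap R E r) (ϖ : R) (hϖ : Irreducible ϖ)
    (t : E) (ht0 : t ≠ 0) (hHW : HWAt R w t)
    {c : E} (𝔫 : Ideal (Chart R c)) (h𝔫 : IsClosedPt R ϖ c 𝔫) (hd : H26DI.IsDichPt t c 𝔫) :
    ∃ (c' : E) (𝔫' : Ideal (Chart R c')), (c' = t ∨ c' = t⁻¹) ∧ IsClosedPt R ϖ c' 𝔫' ∧
      H26DI.IsDichPt t c' 𝔫' ∧
      ∀ x : E, (InLoc R c' 𝔫' x ↔ InLoc R c 𝔫 (w x)) ∧ (InMax c' 𝔫' x ↔ InMax c 𝔫 (w x)) := by
  have hp := h𝔫.1.isPrime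
  have hc : c = t ∨ c = t⁻¹ := hd.elim Or.inl (fun h => Or.inr h.1)
  rcases hHW c 𝔫 hp hd with hA | ⟨hB, hB'⟩
  · obtain ⟨𝔫', hcl, hmem, h1, h2, h3⟩ :=
      exists_image_point (c' := t) w hww hwR ϖ hϖ h𝔫 hA
    have hd' : H26DI.IsDichPt t t 𝔫' := Or.inl rfl
    exact ⟨t, 𝔫', Or.inl rfl, hcl, hd',
      h3 (inLoc_w_chart w hww t ht0 hHW 𝔫 𝔫' hp hcl.1.isPrime hc hd' h2)⟩
  · have hc' : InLoc R c 𝔫 (w t⁻¹) := by rw [map_inv₀]; exact hB
    obtain ⟨𝔫', hcl, hmem, h1, h2, h3⟩ :=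
      exists_image_point (c' := t⁻¹) w hww hwR ϖ hϖ h𝔫 hc'
    have hd' : H26DI.IsDichPt t t⁻¹ 𝔫' := by
      refine Or.inr ⟨rfl, fun y hy => (hmem y).mpr ?_⟩
      rw [hy, map_inv₀]
      exact inMax_inv_of_not_inLoc hB hB'
    exact ⟨t⁻¹, 𝔫', Or.inr rfl, hcl, hd',
      h3 (inLoc_w_chart w hww t ht0 hHW 𝔫 𝔫' hp hcl.1.isPrime hc hd' h2)⟩

/-- **(E), generic**: uniformizers of the second component from uniformizers of the first
component, via `w`. -/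
theorem unif2_of_unif1 (w : E →+* E) (hww : ∀ x, w (w x) = x)
    (hwR : ∀ r : R, w (algebraMap R E r) = algebraMap R E r) (ϖ : R) (hϖ : Irreducible ϖ)
    (t : E) (ht0 : t ≠ 0) (hHW : HWAt R w t) (G Z : E → Prop)
    (hZG : ∀ x y : E, Z x → G y → Z (x * y))
    (hprime : ∀ x y : E, G x → G y → Z (x * y) → Z x ∨ Z y)
    (hG : ∀ c : E, (c = t ∨ c = t⁻¹) → ∀ y : Chart R c, G (y : E) ∧ G (w (y : E)))
    (hP₁ : ∀ c : E, (c = t ∨ c = t⁻¹) → ∃ P₁ : Ideal (Chart R c),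
      ∀ y : Chart R c, y ∈ P₁ ↔ Z (y : E))
    (hU1 : ∀ (c : E) (P₁ : Ideal (Chart R c)), (∀ y : Chart R c, y ∈ P₁ ↔ Z (y : E)) →
      ∀ 𝔫 : Ideal (Chart R c), IsClosedPt R ϖ c 𝔫 → H26DI.IsDichPt t c 𝔫 → P₁ ≤ 𝔫 →
        ∃ x, H26DI.UnifAt P₁ 𝔫 x)
    {c : E} (P₂ : Ideal (Chart R c)) (hP₂ : ∀ y : Chart R c, y ∈ P₂ ↔ Z (w (y : E)))
    (𝔫 : Ideal (Chart R c)) (h𝔫 : IsClosedPt R ϖ c 𝔫) (hd : H26DI.IsDichPt t c 𝔫)
    (h2 : P₂ ≤ 𝔫) : ∃ x, H26DI.UnifAt P₂ 𝔫 x := by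
  have hc : c = t ∨ c = t⁻¹ := hd.elim Or.inl (fun h => Or.inr h.1)
  obtain ⟨c', 𝔫', hc', hcl, hd', hloc⟩ := exists_dich_image w hww hwR ϖ hϖ t ht0 hHW 𝔫 h𝔫 hd
  obtain ⟨P₁', hP₁'⟩ := hP₁ c' hc'
  obtain ⟨hle, htr⟩ := unifAt_transport w hww G Z hZG hprime 𝔫 𝔫' h𝔫.1.isPrime hcl.1.isPrime
    (fun y => (hG c hc y).2) (fun y => (hG c' hc' y).1) (fun x => (hloc x).1)
    (fun x => (hloc x).2) P₂ hP₂ P₁' hP₁' h2
  obtain ⟨x', hx'⟩ := hU1 c' P₁' hP₁' 𝔫' hcl hd' hle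
  exact htr x' hx'

end dich

end H26WT
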