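/-
helper26: item 82 (S34), slice (DICH)/(I2)/(E): `CompUnif2Statement` from `CompUnif1Statement`.

`H26WT.compUnif2 : PairGaussStatement → H24HW.HWStatement → CompUnif1Statement →
  CompUnif2Statement`
= the generic local `W`-transport `H26WT.unif2_of_unif1` (`S34/WTransport_helper26.lean`)
instantiated at `E = FK K₁ (M q)`, `w = H12AL.wqKHom`, `G = InG`, `Z = InGm`, with
helper24's `(H_W)` (`H24HW.h24hw_HW`), helper22's components (`H22DA.exists_comp`) and Gauss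
calculus (`H22DC.inG_iff`, `inGm_iff`).
-/
import Mathlib
import Fermat.Agent.S34.WTransport_helper26
import Fermat.Agent.S34.HW_helper24
import Fermat.Agent.S34.DichAsm_helper22

set_option autoImplicit false
set_option synthInstance.maxHeartbeats 400000
set_option maxHeartbeats 1000000
set_option linter.unusedVariables false
set_option linter.unusedSectionVars false
set_option linter.style.haveILetI false

noncomputable section

open Polynomial IntermediateField ModularCurve H7S18 H4S34 H26DI H28GV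

namespace H26WT

section gauss

variable {K : Type} [Field K] (R : ValuationSubring K)

/-- `InGm` is an ideal of `InG`. -/
theorem inGm_mul_inG {x y : LaurentSeries K} (hx : H8PB.InGm R x) (hy : H8PB.InG R y) :
    H8PB.InGm R (x * y) := by
  obtain ⟨hx1, hx0⟩ := (H22DC.inGm_iff R x).mp hx
  have hy1 := (H22DC.inG_iff R y).mp hy
  refine (H22DC.inGm_iff R _).mpr ⟨mul_mem hx1 hy1, ?_⟩
  have : (⟨x * y, mul_mem hx1 hy1⟩ : gvO R (H22DC.resR R)) = ⟨x, hx1⟩ * ⟨y, hy1⟩ := rfl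
  rw [this, map_mul, hx0, zero_mul]

/-- `InGm` is a prime ideal of `InG`. -/
theorem inGm_or_of_mul {x y : LaurentSeries K} (hx : H8PB.InG R x) (hy : H8PB.InG R y)
    (hxy : H8PB.InGm R (x * y)) : H8PB.InGm R x ∨ H8PB.InGm R y := by
  have hx1 := (H22DC.inG_iff R x).mp hx
  have hy1 := (H22DC.inG_iff R y).mp hy
  obtain ⟨h1, h0⟩ := (H22DC.inGm_iff R _).mp hxy
  have : (⟨x * y, h1⟩ : gvO R (H22DC.resR R)) = ⟨x, hx1⟩ * ⟨y, hy1⟩ := rfl
  rw [this, map_mul, mul_eq_zero] at h0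
  rcases h0 with h | h
  · exact Or.inl ((H22DC.inGm_iff R x).mpr ⟨hx1, h⟩)
  · exact Or.inr ((H22DC.inGm_iff R y).mpr ⟨hy1, h⟩)

end gauss

/-- **(I2), second component**, from the first component, `(H_W)` and the pair statement. -/
theorem compUnif2 (hPG : H8PB.PairGaussStatement) (hHW : H24HW.HWStatement)
    (hU1 : CompUnif1Statement) : CompUnif2Statement := by
  intro M _ q _ hq hqM hT A hA
  obtain ⟨K₀, hK₀, h1⟩ := hU1 M q hq hqM hT A hA
  refine ⟨K₀, hK₀, ?_⟩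
  intro K₁ hle hfin hnorm _ _ ϖ hϖ t₀ ht₀ t ht c P₂ hP₂ 𝔫 h𝔫 hd h2
  haveI : Fact q.Prime := ⟨hq⟩
  obtain ⟨hdvr, -, -⟩ := H4DVR.dvrStatement q A hA K₁ hfin
  haveI := hdvr
  have htr : Transcendental K₁ t := H22DA.base_transcendental M q hT K₁ t₀ ht₀ t ht
  have ht0 : t ≠ 0 := H21S18.ne_zero_of_transcendental htr
  have htrR : Transcendental ↥(descVal A K₁) t := H19S18.h19_transc ↥(descVal A K₁) K₁ htr
  have htr' : Transcendental K₁ t⁻¹ := H19S18.h19_transc_inv K₁ htr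
  have htrR' : Transcendental ↥(descVal A K₁) t⁻¹ :=
    H19S18.h19_transc ↥(descVal A K₁) K₁ htr'
  have hPG' := hPG M q hq hqM hT A hA K₁ hfin ϖ hϖ t₀ ht₀ t ht
  have hwR : ∀ r : ↥(descVal A K₁),
      H12AL.wqKHom K₁ M q hq hqM (algebraMap ↥(descVal A K₁) (FK K₁ (M * q)) r) =
      algebraMap ↥(descVal A K₁) (FK K₁ (M * q)) r := by
    intro r
    rw [IsScalarTower.algebraMap_apply ↥(descVal A K₁) K₁ (FK K₁ (M * q))]
    exact H12AL.wqKHom_const K₁ M q hq hqM _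
  have hint : ∀ c : FK K₁ (M * q), (c = t ∨ c = t⁻¹) → ∀ y : Chart ↥(descVal A K₁) c,
      GInt ↥(descVal A K₁) ϖ t (y : FK K₁ (M * q)) := by
    intro c hc y
    rcases hc with rfl | rfl
    · exact H19S18.h19_gint_of_isInt ↥(descVal A K₁) htrR hϖ y.2
    · exact H19S18.h19_gint_of_isInt_inv ↥(descVal A K₁) htrR htrR' hϖ y.2
  refine unif2_of_unif1 (R := ↥(descVal A K₁)) (E := FK K₁ (M * q))
    (H12AL.wqKHom K₁ M q hq hqM) (H12AL.wqKHom_invol K₁ M q hq hqM) hwR ϖ hϖ t ht0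
    (fun c 𝔫 h𝔫 hd => hHW M q hq hqM hT A hA K₁ hfin t₀ ht₀ t ht c 𝔫 h𝔫 hd)
    (fun x => H8PB.InG (descVal A K₁) ((x : FK K₁ (M * q)) : LaurentSeries K₁))
    (fun x => H8PB.InGm (descVal A K₁) ((x : FK K₁ (M * q)) : LaurentSeries K₁))
    ?_ ?_ ?_ ?_ ?_ P₂ hP₂ 𝔫 h𝔫 hd h2
  · intro x y hx hy
    have := inGm_mul_inG (descVal A K₁) hx hy
    exact this
  · intro x y hx hy hxy
    exact inGm_or_of_mul (descVal A K₁) hx hy hxy
  · intro c hc y
    exact (hPG' y).1.mp (hint c hc y)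
  · intro c hc
    obtain ⟨P₁, -, hP1, -⟩ := H22DA.exists_comp hPG M q hq hqM hT A hA K₁ hfin ϖ hϖ t₀ ht₀ t ht
      c hc
    exact ⟨P₁, hP1⟩
  · intro c P₁ hP₁ 𝔫 h𝔫 hd hle1
    exact h1 K₁ hle hfin hnorm ϖ hϖ t₀ ht₀ t ht c P₁ hP₁ 𝔫 h𝔫 hd hle1

/-- **(I2), second component**, from the first component and the pair statement
(`(H_W)` = `H24HW.h24hw_HW`, helper24). -/
theorem compUnif2_of_unif1 (hPG : H8PB.PairGaussStatement) (hU1 : CompUnif1Statement) :
    CompUnif2Statement :=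
  compUnif2 hPG H24HW.h24hw_HW hU1

end H26WT
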