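import Mathlib
import Fermat.Agent.S34.CuspSepLoc_helper27

/-!
# helper27 — item 82 (S34): cusp separation in chart language (no localization in the statement)

`M` an integrally closed domain with fraction field `F` (the chart ring `M₀` or `M∞`), `𝔫` a prime
of `M`, `P₁, P₂` primes of `M` which are the centres of two "valuations" given by predicates
`G₁, G₂ : F → Prop` (`G_i x` = "`w_i(x) > 0`", e.g. `H8PB.InGm` and `H8PB.InGm ∘ w`).

`H27CS.cusp_not_both` : if `1/J ∈ 𝔫 M_𝔫` (a cusp: `J = j`), `Φ_p(J, J') = 0`, and the Kronecker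
congruences `G₁ (1/J' - 1/J^p)`, `G₂ (1/J - 1/J'^p)`, `¬ G_i (1/J')` hold, then `P₁` and `P₂`
are not both contained in `𝔫`.
-/

set_option autoImplicit false
set_option linter.unusedSectionVars false
set_option linter.style.haveILetI false

open Polynomial H28S28

noncomputable section

namespace H27CS

section chart

variable {M : Type*} [CommRing M] [IsDomain M] [IsIntegrallyClosed M]
variable {F : Type*} [Field F] [Algebra M F] [IsFractionRing M F]
variable {p : ℕ} [NeZero p]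

theorem cusp_not_both (hp2 : 2 ≤ p) {Φ : Polynomial (Polynomial ℤ)} (hΦ : IsModPoly p Φ)
    (hmon : Φ.Monic) (hdeg : Φ.natDegree = p + 1) {J J' : F} (hJ' : J' ≠ 0)
    (h : ev2 Φ J J' = 0)
    (𝔫 : Ideal M) [h𝔫 : 𝔫.IsPrime]
    (hU : ∃ a s : M, s ∉ 𝔫 ∧ a ∈ 𝔫 ∧ J * algebraMap M F a = algebraMap M F s)
    (P₁ P₂ : Ideal M) [hP₁ : P₁.IsPrime] [hP₂ : P₂.IsPrime]
    (G₁ G₂ : F → Prop)
    (hG₁ : ∀ m : M, m ∈ P₁ ↔ G₁ (algebraMap M F m))
    (hG₂ : ∀ m : M, m ∈ P₂ ↔ G₂ (algebraMap M F m))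
    (hG₁mul : ∀ (x : F) (m s : M), s ∉ P₁ → G₁ x →
      G₁ (x * algebraMap M F m / algebraMap M F s))
    (hG₂mul : ∀ (x : F) (m s : M), s ∉ P₂ → G₂ x →
      G₂ (x * algebraMap M F m / algebraMap M F s))
    (hK₁ : G₁ (J'⁻¹ - (J⁻¹) ^ p)) (hK₂ : G₂ (J⁻¹ - (J'⁻¹) ^ p))
    (hV₁ : ¬ G₁ J'⁻¹) (hV₂ : ¬ G₂ J'⁻¹) :
    ¬ (P₁ ≤ 𝔫 ∧ P₂ ≤ 𝔫) := by
  rintro ⟨h1, h2⟩
  have hinjM : Function.Injective (algebraMap M F) := IsFractionRing.injective M F
  have hS : 𝔫.primeCompl ≤ nonZeroDivisors M := by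
    intro s hs
    exact mem_nonZeroDivisors_of_ne_zero (fun h0 => hs (h0 ▸ 𝔫.zero_mem))
  let B : Subalgebra M F := Localization.subalgebra.ofField F 𝔫.primeCompl hS
  haveI hloc : IsLocalization.AtPrime B 𝔫 :=
    Localization.subalgebra.isLocalization_ofField F 𝔫.primeCompl hS
  haveI : IsLocalRing B := IsLocalization.AtPrime.isLocalRing B 𝔫
  haveI : IsIntegrallyClosed B := isIntegrallyClosed_of_isLocalization (R := M) (S := B) 𝔫.primeCompl hS
  have hBF : ∀ x : B, algebraMap B F x = (x : F) := fun _ => rfl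
  have hMB : ∀ m : M, ((algebraMap M B m : B) : F) = algebraMap M F m := fun _ => rfl
  -- the primes of `B`
  have hd₁ : Disjoint (𝔫.primeCompl : Set M) (P₁ : Set M) := by
    rw [Set.disjoint_left]; intro x hx hxP; exact hx (h1 hxP)
  have hd₂ : Disjoint (𝔫.primeCompl : Set M) (P₂ : Set M) := by
    rw [Set.disjoint_left]; intro x hx hxP; exact hx (h2 hxP)
  haveI hQ₁ : (P₁.map (algebraMap M B)).IsPrime :=
    IsLocalization.isPrime_of_isPrime_disjoint 𝔫.primeCompl B P₁ hP₁ hd₁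
  haveI hQ₂ : (P₂.map (algebraMap M B)).IsPrime :=
    IsLocalization.isPrime_of_isPrime_disjoint 𝔫.primeCompl B P₂ hP₂ hd₂
  -- membership criteria
  have hmem₁ : ∀ x : B, x ∈ P₁.map (algebraMap M B) ↔ G₁ (x : F) := by
    intro x
    obtain ⟨m, s, rfl⟩ := IsLocalization.exists_mk'_eq 𝔫.primeCompl x
    have hs1 : (s : M) ∉ P₁ := fun hsP => s.2 (h1 hsP)
    have hsF : algebraMap M F (s : M) ≠ 0 := fun h0 =>
      s.2 ((hinjM (h0.trans (map_zero _).symm)) ▸ 𝔫.zero_mem)
    have hval : ((IsLocalization.mk' B m s : B) : F) = algebraMap M F m / algebraMap M F s := by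
      rw [eq_div_iff hsF]
      exact congrArg (fun z : B => (z : F)) (IsLocalization.mk'_spec B m s)
    rw [IsLocalization.mk'_mem_map_algebraMap_iff, hval]
    constructor
    · rintro ⟨s', hs', hm⟩
      have hm' : m ∈ P₁ := by
        rcases hP₁.mem_or_mem hm with h | h
        · exact absurd (h1 h) hs'
        · exact h
      have := hG₁mul _ 1 s hs1 ((hG₁ m).1 hm')
      rwa [map_one, mul_one] at this
    · intro hG
      refine ⟨1, Submonoid.one_mem _, ?_⟩
      rw [one_mul, hG₁ m]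
      have := hG₁mul _ s 1 (fun h => hP₁.ne_top ((Ideal.eq_top_iff_one _).2 h)) hG
      rwa [map_one, div_one, div_mul_cancel₀ _ hsF] at this
  have hmem₂ : ∀ x : B, x ∈ P₂.map (algebraMap M B) ↔ G₂ (x : F) := by
    intro x
    obtain ⟨m, s, rfl⟩ := IsLocalization.exists_mk'_eq 𝔫.primeCompl x
    have hs1 : (s : M) ∉ P₂ := fun hsP => s.2 (h2 hsP)
    have hsF : algebraMap M F (s : M) ≠ 0 := fun h0 =>
      s.2 ((hinjM (h0.trans (map_zero _).symm)) ▸ 𝔫.zero_mem)
    have hval : ((IsLocalization.mk' B m s : B) : F) = algebraMap M F m / algebraMap M F s := by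
      rw [eq_div_iff hsF]
      exact congrArg (fun z : B => (z : F)) (IsLocalization.mk'_spec B m s)
    rw [IsLocalization.mk'_mem_map_algebraMap_iff, hval]
    constructor
    · rintro ⟨s', hs', hm⟩
      have hm' : m ∈ P₂ := by
        rcases hP₂.mem_or_mem hm with h | h
        · exact absurd (h2 h) hs'
        · exact h
      have := hG₂mul _ 1 s hs1 ((hG₂ m).1 hm')
      rwa [map_one, mul_one] at this
    · intro hG
      refine ⟨1, Submonoid.one_mem _, ?_⟩
      rw [one_mul, hG₂ m]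
      have := hG₂mul _ s 1 (fun h => hP₂.ne_top ((Ideal.eq_top_iff_one _).2 h)) hG
      rwa [map_one, div_one, div_mul_cancel₀ _ hsF] at this
  -- the element `U`
  obtain ⟨a, s, hs, ha, hJa⟩ := hU
  have hsF : algebraMap M F s ≠ 0 := fun h0 =>
    hs ((hinjM (h0.trans (map_zero _).symm)) ▸ 𝔫.zero_mem)
  have hJ0 : J ≠ 0 := by
    rintro rfl
    rw [zero_mul] at hJa
    exact hsF hJa.symm
  let U : B := IsLocalization.mk' B a (⟨s, hs⟩ : 𝔫.primeCompl)
  have hUF : (U : F) = J⁻¹ := by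
    have := IsLocalization.mk'_spec B a (⟨s, hs⟩ : 𝔫.primeCompl)
    have h' := congrArg (fun z : B => (z : F)) this
    simp only [Subalgebra.coe_mul] at h'
    have h'' : (U : F) * algebraMap M F s = algebraMap M F a := h'
    apply eq_inv_of_mul_eq_one_left
    have : (U : F) * algebraMap M F s * J = algebraMap M F s := by
      rw [h'', mul_comm, hJa]
    have h3 : (U : F) * J * algebraMap M F s = 1 * algebraMap M F s := by
      rw [one_mul]
      calc (U : F) * J * algebraMap M F s = (U : F) * algebraMap M F s * J := by ring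
        _ = algebraMap M F s := this
    exact mul_right_cancel₀ hsF h3
  have hUm : U ∈ IsLocalRing.maximalIdeal B := by
    have h0 : algebraMap M B a ∈ IsLocalRing.maximalIdeal B :=
      (IsLocalization.AtPrime.to_map_mem_maximal_iff B 𝔫 a).2 ha
    have : U * algebraMap M B s = algebraMap M B a :=
      IsLocalization.mk'_spec B a (⟨s, hs⟩ : 𝔫.primeCompl)
    have hu : IsUnit (algebraMap M B s) :=
      IsLocalization.map_units B (⟨s, hs⟩ : 𝔫.primeCompl)
    rw [← this] at h0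
    rcases (IsLocalRing.maximalIdeal.isMaximal B).isPrime.mem_or_mem h0 with h | h
    · exact h
    · exact absurd hu ((IsLocalRing.mem_maximalIdeal _).1 h)
  have hJU : J * algebraMap B F U = 1 := by
    rw [hBF, hUF, mul_inv_cancel₀ hJ0]
  refine cusp_sep_local (B := B) (F := F) hp2 hΦ hmon hdeg hJ' h hUm hJU
    (P₁.map (algebraMap M B)) (P₂.map (algebraMap M B)) ?_
  intro V hV
  rw [hBF] at hV
  refine ⟨?_, ?_, ?_, ?_⟩
  · rw [hmem₁]
    show G₁ ((V : F) - (U : F) ^ p)
    rw [hV, hUF]; exact hK₁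
  · rw [hmem₂]
    show G₂ ((U : F) - (V : F) ^ p)
    rw [hV, hUF]; exact hK₂
  · rw [hmem₁, hV]; exact hV₁
  · rw [hmem₂, hV]; exact hV₂

end chart

end H27CS
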