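import Mathlib
import Fermat.Agent.S34.DichAsm_helper22
import Fermat.Agent.S34.CuspSepChart_helper27
import Fermat.Agent.S34.PairJq_helper25
import Fermat.Agent.S34.LocBridge_helper22
import Fermat.Agent.S18.Connected_helper21
import Fermat.Agent.S18.GVBar_helper28
import Fermat.Agent.S34.PairBasisCore_helper8

/-!
# Item 82 (S34), slice (CUSP0), part 1 (helper7): cusp separation, generic in the chart

Setting of `S34/DichDefs_helper26.lean` (level `M q`, `R = descVal A K₁`, `F₁ = FK K₁ (M q)`,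
`w = H12AL.wqKHom K₁ M q`), chart `c = t` or `c = t⁻¹`, `P₁, P₂` the two components.

`H7C0.cusp_core` : if `1/j ∈ 𝔫 B_𝔫` (element form: `j · a = s` with `a ∈ 𝔫`, `s ∉ 𝔫`), then
`P₁` and `P₂` are not both contained in `𝔫`.  (Instance of `H27CS.cusp_not_both` for
`J = j`, `J' = j(𝐪^q)`: Kronecker's congruence in the Gauss ring.)
-/

set_option autoImplicit false
set_option synthInstance.maxHeartbeats 400000
set_option maxHeartbeats 1000000
set_option linter.unusedSectionVars false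
set_option linter.unusedVariables false
set_option linter.style.haveILetI false
set_option linter.style.longLine false

noncomputable section

open Polynomial IntermediateField ModularCurve H7S18 H4S34 H26DI H28GV

namespace H7C0

/-! ### Generic facts on the Gauss ring -/

section Gauss

variable {K : Type} [Field K] (R : ValuationSubring K)

/-- `𝔪_{w₁}` is stable under multiplication by `m / s`, `m, s ∈ O_{w₁}`, `s ∉ 𝔪_{w₁}`. -/
theorem inGm_mul_div {x m s : LaurentSeries K} (hx : H8PB.InGm R x) (hm : H8PB.InG R m)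
    (hs : H8PB.InG R s) (hs' : ¬ H8PB.InGm R s) : H8PB.InGm R (x * m / s) := by
  rw [H22DC.inGm_iff] at hx hs' ⊢
  rw [H22DC.inG_iff] at hm hs
  obtain ⟨hxO, hx0⟩ := hx
  have hsred : gvRed R (H22DC.resR R) ⟨s, hs⟩ ≠ 0 := fun h0 => hs' ⟨hs, h0⟩
  have hxm : x * m ∈ gvO R (H22DC.resR R) := (gvO R _).mul_mem hxO hm
  have hdiv := gv_div_mem R (H22DC.resR R) ⟨x * m, hxm⟩ ⟨s, hs⟩ hsred
  refine ⟨hdiv, ?_⟩
  rw [gvRed_div R (H22DC.resR R) ⟨x * m, hxm⟩ ⟨s, hs⟩ hsred]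
  have e : (⟨x * m, hxm⟩ : gvO R (H22DC.resR R)) = ⟨x, hxO⟩ * ⟨m, hm⟩ := rfl
  rw [e, map_mul, hx0, zero_mul, zero_div]

/-- the reduction of `ε f` is `ρ f` (any membership proof) -/
theorem gvRed_eps_any (f : LaurentSeries R) (h : gvEps R f ∈ gvO R (H22DC.resR R)) :
    gvRed R (H22DC.resR R) ⟨gvEps R f, h⟩ = gvRho R (H22DC.resR R) f :=
  gvRed_eps' R (H22DC.resR R) f h

/-- `(ε f)⁻¹ ∉ 𝔪_{w₁}` when `ρ f ≠ 0`. -/
theorem not_inGm_inv_eps (f : LaurentSeries R) (hf : gvRho R (H22DC.resR R) f ≠ 0) :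
    ¬ H8PB.InGm R (gvEps R f)⁻¹ := by
  rw [H22DC.inGm_iff]
  rintro ⟨h, h0⟩
  have hmem : gvEps R f ∈ gvO R (H22DC.resR R) := gvEps_mem_gvO R _ f
  have hred : gvRed R (H22DC.resR R) ⟨gvEps R f, hmem⟩ ≠ 0 := by
    rw [gvRed_eps_any]; exact hf
  have h1 := gvRed_inv R (H22DC.resR R) ⟨gvEps R f, hmem⟩ hred
  have h2 : gvRed R (H22DC.resR R) ⟨(gvEps R f)⁻¹, h⟩ =
      (gvRed R (H22DC.resR R) ⟨gvEps R f, hmem⟩)⁻¹ := h1
  rw [h2, inv_eq_zero] at h0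
  exact hred h0

/-- **Kronecker's congruence in the Gauss ring**: if `ρ f' = (ρ f)^n ≠ 0` then
`(ε f')⁻¹ - ((ε f)⁻¹)^n ∈ 𝔪_{w₁}`. -/
theorem inGm_inv_sub_inv_pow (f f' : LaurentSeries R) (n : ℕ)
    (hf : gvRho R (H22DC.resR R) f ≠ 0)
    (hff' : gvRho R (H22DC.resR R) f' = gvRho R (H22DC.resR R) f ^ n) :
    H8PB.InGm R ((gvEps R f')⁻¹ - ((gvEps R f)⁻¹) ^ n) := by
  rw [H22DC.inGm_iff]
  have hmem : gvEps R f ∈ gvO R (H22DC.resR R) := gvEps_mem_gvO R _ f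
  have hmem' : gvEps R f' ∈ gvO R (H22DC.resR R) := gvEps_mem_gvO R _ f'
  have hred : gvRed R (H22DC.resR R) ⟨gvEps R f, hmem⟩ ≠ 0 := by
    rw [gvRed_eps_any]; exact hf
  have hred' : gvRed R (H22DC.resR R) ⟨gvEps R f', hmem'⟩ ≠ 0 := by
    rw [gvRed_eps_any, hff']; exact pow_ne_zero n hf
  have hi := gv_inv_mem R (H22DC.resR R) ⟨gvEps R f, hmem⟩ hred
  have hi' := gv_inv_mem R (H22DC.resR R) ⟨gvEps R f', hmem'⟩ hred'
  have hmemD : (gvEps R f')⁻¹ - ((gvEps R f)⁻¹) ^ n ∈ gvO R (H22DC.resR R) :=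
    (gvO R _).sub_mem hi' ((gvO R _).pow_mem hi n)
  refine ⟨hmemD, ?_⟩
  have e : (⟨(gvEps R f')⁻¹ - ((gvEps R f)⁻¹) ^ n, hmemD⟩ : gvO R (H22DC.resR R)) =
      ⟨(gvEps R f')⁻¹, hi'⟩ - ⟨(gvEps R f)⁻¹, hi⟩ ^ n := rfl
  rw [e, map_sub, map_pow]
  have h1 : gvRed R (H22DC.resR R) ⟨(gvEps R f)⁻¹, hi⟩ =
      (gvRed R (H22DC.resR R) ⟨gvEps R f, hmem⟩)⁻¹ := gvRed_inv R (H22DC.resR R) _ hred
  have h1' : gvRed R (H22DC.resR R) ⟨(gvEps R f')⁻¹, hi'⟩ =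
      (gvRed R (H22DC.resR R) ⟨gvEps R f', hmem'⟩)⁻¹ := gvRed_inv R (H22DC.resR R) _ hred'
  rw [h1, h1', gvRed_eps_any, gvRed_eps_any, hff', inv_pow, sub_self]

end Gauss

/-! ### The concrete setting -/

section Concrete

variable (hPG : H8PB.PairGaussStatement)
  (M : ℕ) [NeZero M] (q : ℕ) [NeZero q] (hq : q.Prime) (hqM : ¬ q ∣ M) (hT : TameLevel q M)
  (A : ValuationSubring (AlgebraicClosure ℚ)) (hA : A.LiesOverPrime q)
  (K₁ : IntermediateField ℚ (AlgebraicClosure ℚ)) (hfin : FiniteDimensional ℚ K₁)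
  [Algebra ↥(descVal A K₁) (FK K₁ (M * q))]
  [IsScalarTower ↥(descVal A K₁) K₁ (FK K₁ (M * q))]
  (ϖ : ↥(descVal A K₁)) (hϖ : Irreducible ϖ)
  (t₀ : LaurentSeries ℚ) (ht₀ : IsBase (baseKind q) t₀)
  (t : FK K₁ (M * q)) (ht : (t : LaurentSeries K₁) = coeffEmb K₁ t₀)

/-- `j` as an element of `F₁ = FK K₁ (M q)` -/
def jF : FK K₁ (M * q) := ⟨jqModC K₁, H25JQ.jqModC_mem_FK K₁ (M * q)⟩

theorem coe_jF : ((jF M q K₁ : FK K₁ (M * q)) : LaurentSeries K₁) = jqModC K₁ := rfl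

theorem jF_ne_zero : jF M q K₁ ≠ 0 := by
  intro h
  have h1 := congrArg (fun x : FK K₁ (M * q) => (x : LaurentSeries K₁)) h
  exact jqModC_ne_zero_of_nontrivial K₁ h1

/-- `w j = j(𝐪^q)` -/
theorem coe_w_jF :
    ((H12AL.wqKHom K₁ M q hq hqM (jF M q K₁) : FK K₁ (M * q)) : LaurentSeries K₁) =
      qExpand K₁ q (jqModC K₁) := by
  rw [H12AL.coe_wqKHom_of_level K₁ M q hq hqM (jF M q K₁) (H25JQ.jqModC_mem_FK K₁ M)]
  rfl

theorem w_jF_ne_zero : H12AL.wqKHom K₁ M q hq hqM (jF M q K₁) ≠ 0 := by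
  intro h
  have h1 := congrArg (H12AL.wqKHom K₁ M q hq hqM) h
  rw [H12AL.wqKHom_invol, map_zero] at h1
  exact jF_ne_zero M q K₁ h1

/-- the modular equation `Φ_q(j, j(𝐪^q)) = 0` in `F₁` -/
theorem ev2_jF (Φ : Polynomial (Polynomial ℤ)) (hΦ : H28S28.h10IsModPoly q Φ) :
    H27CS.ev2 Φ (jF M q K₁) (H12AL.wqKHom K₁ M q hq hqM (jF M q K₁)) = 0 := by
  set ι : FK K₁ (M * q) →+* LaurentSeries K₁ :=
    (laurentBaseChange K₁ (modularFunctionFieldFull (M * q))).val.toRingHom with hι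
  have hιinj : Function.Injective ι := Subtype.val_injective
  apply hιinj
  rw [map_zero, H27CS.map_ev2]
  have e1 : ι (jF M q K₁) = jqModC K₁ := rfl
  have e2 : ι (H12AL.wqKHom K₁ M q hq hqM (jF M q K₁)) = qExpand K₁ q (jqModC K₁) :=
    coe_w_jF M q hq hqM K₁
  rw [e1, e2, H27CS.ev2_eq_h10ev2]
  haveI : NeZero (1 * q) := ⟨by simpa using hq.ne_zero⟩
  have h := H28S28.h10_root q Φ hΦ K₁ 1
  simpa [qExpand_one_apply] using h

include hA hfin hq in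
/-- the residue field of `R` has characteristic `q` -/
theorem charP_res : CharP (IsLocalRing.ResidueField ↥(descVal A K₁)) q := by
  haveI : Fact q.Prime := ⟨hq⟩
  obtain ⟨hdvr, hnu, -⟩ := H4DVR.dvrStatement q A hA K₁ hfin
  haveI := hdvr
  obtain ⟨p, hp⟩ := CharP.exists (IsLocalRing.ResidueField ↥(descVal A K₁))
  have h0 : ((q : ℕ) : IsLocalRing.ResidueField ↥(descVal A K₁)) = 0 := by
    have h1 : IsLocalRing.residue ↥(descVal A K₁) ((q : ℕ) : ↥(descVal A K₁)) = 0 := by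
      rw [IsLocalRing.residue_eq_zero_iff, IsLocalRing.mem_maximalIdeal, mem_nonunits_iff]
      exact hnu
    rwa [map_natCast] at h1
  have hdvd : p ∣ q :=
    (CharP.cast_eq_zero_iff (IsLocalRing.ResidueField ↥(descVal A K₁)) p q).mp h0
  have hp1 : p ≠ 1 := CharP.char_ne_one (IsLocalRing.ResidueField ↥(descVal A K₁)) p
  have : p = q := ((Nat.dvd_prime hq).mp hdvd).resolve_left hp1
  rw [← this]
  exact hp

include hA hfin hq in
/-- Kronecker: `ρ (j(𝐪^q)) = (ρ j)^q` -/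
theorem rho_kronecker :
    gvRho (descVal A K₁) (H22DC.resR (descVal A K₁)) (qExpand ↥(descVal A K₁) q (jqModC _)) =
      gvRho (descVal A K₁) (H22DC.resR (descVal A K₁)) (jqModC _) ^ q := by
  haveI : Fact q.Prime := ⟨hq⟩
  haveI := charP_res q hq A hA K₁ hfin
  rw [gvRho_def, gvRho_def, coeffMap_qExpand, coeffMap_jqModC]
  exact H8PB.h8pb_kronecker (IsLocalRing.ResidueField ↥(descVal A K₁)) q

theorem rho_jq_ne_zero :
    gvRho (descVal A K₁) (H22DC.resR (descVal A K₁)) (jqModC ↥(descVal A K₁)) ≠ 0 := by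
  rw [gvRho_def, coeffMap_jqModC]
  exact jqModC_ne_zero_of_nontrivial _

theorem eps_jq : gvEps (descVal A K₁) (jqModC ↥(descVal A K₁)) = jqModC K₁ := by
  rw [gvEps_def, coeffMap_jqModC]

theorem eps_jq' : gvEps (descVal A K₁) (qExpand ↥(descVal A K₁) q (jqModC _)) =
    qExpand K₁ q (jqModC K₁) := by
  rw [gvEps_def, coeffMap_qExpand, coeffMap_jqModC]

include hA hfin hq in
/-- `1/j(𝐪^q) - (1/j)^q ∈ 𝔪_{w₁}` -/
theorem inGm_kronecker :
    H8PB.InGm (descVal A K₁) ((qExpand K₁ q (jqModC K₁))⁻¹ - ((jqModC K₁)⁻¹) ^ q) := by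
  have h := inGm_inv_sub_inv_pow (descVal A K₁) (jqModC _) (qExpand ↥(descVal A K₁) q (jqModC _))
    q (rho_jq_ne_zero A K₁) (rho_kronecker q hq A hA K₁ hfin)
  rwa [eps_jq, eps_jq'] at h

include hA hfin hq in
theorem not_inGm_inv_jq' :
    ¬ H8PB.InGm (descVal A K₁) (qExpand K₁ q (jqModC K₁))⁻¹ := by
  have h := not_inGm_inv_eps (descVal A K₁) (qExpand ↥(descVal A K₁) q (jqModC _)) (by
    rw [rho_kronecker q hq A hA K₁ hfin]
    exact pow_ne_zero q (rho_jq_ne_zero A K₁))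
  rwa [eps_jq'] at h

theorem not_inGm_inv_jq : ¬ H8PB.InGm (descVal A K₁) (jqModC K₁)⁻¹ := by
  have h := not_inGm_inv_eps (descVal A K₁) (jqModC _) (rho_jq_ne_zero A K₁)
  rwa [eps_jq] at h

include hT ht₀ ht in
/-- `F₁` is finite over `K₁(c)` for both charts -/
theorem finite_chart (c : FK K₁ (M * q)) (hc : c = t ∨ c = t⁻¹) :
    FiniteDimensional K₁⟮c⟯ (FK K₁ (M * q)) := by
  obtain ⟨t', ht', -, hfd, -⟩ :=
    H9C6e.fieldBasics (M * q) (baseKind q) (H25JQ.baseKind_admissible M q hT) t₀ ht₀ K₁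
  have htt : t' = t := Subtype.ext (ht'.trans ht.symm)
  rw [htt] at hfd
  rcases hc with rfl | rfl
  · exact hfd
  · exact H21S18.finiteDimensional_transport (H21S18.adjoin_inv_eq (K := K₁) t).symm hfd

include hPG hq hqM hT hA hfin hϖ ht₀ ht in
/-- **cusp separation, generic in the chart**: a closed point at which `1/j` vanishes does not
lie on both components. -/
theorem cusp_core (c : FK K₁ (M * q)) (hc : c = t ∨ c = t⁻¹)
    (P₁ P₂ : Ideal (Chart ↥(descVal A K₁) c)) (h1 : IsComp1 A K₁ c P₁)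
    (h2 : IsComp2 hq hqM A K₁ c P₂)
    (𝔫 : Ideal (Chart ↥(descVal A K₁) c)) (h𝔫 : 𝔫.IsPrime)
    (hU : ∃ a s : Chart ↥(descVal A K₁) c, s ∉ 𝔫 ∧ a ∈ 𝔫 ∧
      jF M q K₁ * (a : FK K₁ (M * q)) = (s : FK K₁ (M * q))) :
    ¬ (P₁ ≤ 𝔫 ∧ P₂ ≤ 𝔫) := by
  haveI : Fact q.Prime := ⟨hq⟩
  obtain ⟨hdvr, -, -⟩ := H4DVR.dvrStatement q A hA K₁ hfin
  haveI := hdvr
  have htr : Transcendental K₁ t := H22DA.base_transcendental M q hT K₁ t₀ ht₀ t ht
  have htrR : Transcendental ↥(descVal A K₁) t := H19S18.h19_transc ↥(descVal A K₁) K₁ htr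
  have htr' : Transcendental K₁ t⁻¹ := H19S18.h19_transc_inv K₁ htr
  have htrR' : Transcendental ↥(descVal A K₁) t⁻¹ :=
    H19S18.h19_transc ↥(descVal A K₁) K₁ htr'
  haveI hfdc : FiniteDimensional K₁⟮c⟯ (FK K₁ (M * q)) :=
    finite_chart M q hT K₁ t₀ ht₀ t ht c hc
  haveI hfr : IsFractionRing (Chart ↥(descVal A K₁) c) (FK K₁ (M * q)) :=
    H22BR.chart_isFractionRing ↥(descVal A K₁) K₁ c
  haveI hic : IsIntegrallyClosed (Chart ↥(descVal A K₁) c) :=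
    H22BR.chart_intClosed ↥(descVal A K₁) K₁ c
  have htc := H22DA.twoComp hPG M q hq hqM hT A hA K₁ hfin ϖ hϖ t₀ ht₀ t ht c hc P₁ P₂ h1 h2
  haveI := htc.prime1
  haveI := htc.prime2
  have hPG' := hPG M q hq hqM hT A hA K₁ hfin ϖ hϖ t₀ ht₀ t ht
  have hint : ∀ y : Chart ↥(descVal A K₁) c, GInt ↥(descVal A K₁) ϖ t (y : FK K₁ (M * q)) := by
    intro y
    rcases hc with rfl | rfl
    · exact H19S18.h19_gint_of_isInt ↥(descVal A K₁) htrR hϖ y.2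
    · exact H19S18.h19_gint_of_isInt_inv ↥(descVal A K₁) htrR htrR' hϖ y.2
  have hmem1 : ∀ y : Chart ↥(descVal A K₁) c, H8PB.InG (descVal A K₁)
      ((y : FK K₁ (M * q)) : LaurentSeries K₁) :=
    fun y => ((hPG' y).1.mp (hint y)).1
  have hmem2 : ∀ y : Chart ↥(descVal A K₁) c, H8PB.InG (descVal A K₁)
      ((H12AL.wqKHom K₁ M q hq hqM (y : FK K₁ (M * q)) : FK K₁ (M * q)) : LaurentSeries K₁) :=
    fun y => ((hPG' y).1.mp (hint y)).2
  obtain ⟨Φ, hΦ⟩ := H28S28.h10_exists_modPoly q (H28S28.h10_hasModEq_all q hq)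
  have hwJ : H12AL.wqKHom K₁ M q hq hqM (H12AL.wqKHom K₁ M q hq hqM (jF M q K₁)) = jF M q K₁ :=
    H12AL.wqKHom_invol K₁ M q hq hqM _
  refine H27CS.cusp_not_both (M := ↥(Chart ↥(descVal A K₁) c)) (F := FK K₁ (M * q)) (p := q)
    hq.two_le hΦ.2.2 hΦ.1 hΦ.2.1
    (w_jF_ne_zero M q hq hqM K₁) (ev2_jF M q hq hqM K₁ Φ hΦ) 𝔫 ?_ P₁ P₂
    (fun x => H8PB.InGm (descVal A K₁) (x : LaurentSeries K₁))
    (fun x => H8PB.InGm (descVal A K₁)
      ((H12AL.wqKHom K₁ M q hq hqM x : FK K₁ (M * q)) : LaurentSeries K₁))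
    ?_ ?_ ?_ ?_ ?_ ?_ ?_ ?_
  · obtain ⟨a, s, hs, ha, e⟩ := hU
    exact ⟨a, s, hs, ha, e⟩
  · intro m
    exact h1 m
  · intro m
    exact h2 m
  · intro x m s hs hx
    have hs' : ¬ H8PB.InGm (descVal A K₁) ((s : FK K₁ (M * q)) : LaurentSeries K₁) :=
      fun h => hs ((h1 s).mpr h)
    exact inGm_mul_div (descVal A K₁) hx (hmem1 m) (hmem1 s) hs'
  · intro x m s hs hx
    have hs' : ¬ H8PB.InGm (descVal A K₁)
        ((H12AL.wqKHom K₁ M q hq hqM (s : FK K₁ (M * q)) : FK K₁ (M * q)) : LaurentSeries K₁) :=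
      fun h => hs ((h2 s).mpr h)
    have := inGm_mul_div (descVal A K₁) hx (hmem2 m) (hmem2 s) hs'
    show H8PB.InGm (descVal A K₁)
      ((H12AL.wqKHom K₁ M q hq hqM (x * (m : FK K₁ (M * q)) / (s : FK K₁ (M * q))) :
        FK K₁ (M * q)) : LaurentSeries K₁)
    rw [map_div₀, map_mul]
    exact this
  · show H8PB.InGm (descVal A K₁)
      (((H12AL.wqKHom K₁ M q hq hqM (jF M q K₁))⁻¹ - (jF M q K₁)⁻¹ ^ q : FK K₁ (M * q)) :
        LaurentSeries K₁)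
    have e : (((H12AL.wqKHom K₁ M q hq hqM (jF M q K₁))⁻¹ - (jF M q K₁)⁻¹ ^ q :
        FK K₁ (M * q)) : LaurentSeries K₁) =
        (qExpand K₁ q (jqModC K₁))⁻¹ - ((jqModC K₁)⁻¹) ^ q := by
      rw [← coe_w_jF M q hq hqM K₁, ← coe_jF M q K₁]
      rfl
    rw [e]
    exact inGm_kronecker q hq A hA K₁ hfin
  · show H8PB.InGm (descVal A K₁)
      ((H12AL.wqKHom K₁ M q hq hqM
        ((jF M q K₁)⁻¹ - (H12AL.wqKHom K₁ M q hq hqM (jF M q K₁))⁻¹ ^ q) :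
        FK K₁ (M * q)) : LaurentSeries K₁)
    rw [map_sub, map_pow, map_inv₀, map_inv₀, hwJ]
    have e : (((H12AL.wqKHom K₁ M q hq hqM (jF M q K₁))⁻¹ - (jF M q K₁)⁻¹ ^ q :
        FK K₁ (M * q)) : LaurentSeries K₁) =
        (qExpand K₁ q (jqModC K₁))⁻¹ - ((jqModC K₁)⁻¹) ^ q := by
      rw [← coe_w_jF M q hq hqM K₁, ← coe_jF M q K₁]
      rfl
    rw [e]
    exact inGm_kronecker q hq A hA K₁ hfin
  · show ¬ H8PB.InGm (descVal A K₁)
      (((H12AL.wqKHom K₁ M q hq hqM (jF M q K₁))⁻¹ : FK K₁ (M * q)) : LaurentSeries K₁)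
    have e : (((H12AL.wqKHom K₁ M q hq hqM (jF M q K₁))⁻¹ : FK K₁ (M * q)) :
        LaurentSeries K₁) = (qExpand K₁ q (jqModC K₁))⁻¹ := by
      rw [← coe_w_jF M q hq hqM K₁]
      rfl
    rw [e]
    exact not_inGm_inv_jq' q hq A hA K₁ hfin
  · show ¬ H8PB.InGm (descVal A K₁)
      ((H12AL.wqKHom K₁ M q hq hqM (H12AL.wqKHom K₁ M q hq hqM (jF M q K₁))⁻¹ :
        FK K₁ (M * q)) : LaurentSeries K₁)
    rw [map_inv₀, hwJ]
    have e : (((jF M q K₁)⁻¹ : FK K₁ (M * q)) : LaurentSeries K₁) = (jqModC K₁)⁻¹ := rfl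
    rw [e]
    exact not_inGm_inv_jq A K₁

end Concrete

end H7C0

end
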