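import Mathlib
import Fermat.Agent.S34.Cusp0Core_helper7
import Fermat.Agent.S34.Cusp0Defs_helper4
import Fermat.Agent.S34.PairGaussFinal_helper8
import Fermat.Agent.S18.C8Branch_helper4
import Fermat.Agent.S18.C9Final_helper4

/-!
# Item 82 (S34), slice (CUSP0) (helper7)

`H7C0.compCusp0Statement : H4S34.CompCusp0Statement`: for `q ∈ {2, 3}` no closed point of the
chart `t` over `t = 0` lies on both components of the special fibre.

Proof: `j t² = (t + 256)³` (kind 2, `q = 3`) resp. `j t³ = (t + 27)(t + 243)³` (kind 3, `q = 2`),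
the right-hand sides are units at `𝔫 ∋ t` (`256`, `27`, `243` are units of `R`), so `1/j` vanishes
at `𝔫`; apply `H7C0.cusp_core`.
-/

set_option autoImplicit false
set_option synthInstance.maxHeartbeats 400000
set_option maxHeartbeats 1000000
set_option linter.unusedSectionVars false
set_option linter.unusedVariables false
set_option linter.style.haveILetI false
set_option linter.style.longLine false

noncomputable section

open Polynomial IntermediateField ModularCurve H7S18 H4S34 H26DI H28GV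

namespace H7C0

section Concrete

variable (M : ℕ) [NeZero M] (q : ℕ) [NeZero q] (hq : q.Prime)
  (A : ValuationSubring (AlgebraicClosure ℚ)) (hA : A.LiesOverPrime q)
  (K₁ : IntermediateField ℚ (AlgebraicClosure ℚ)) (hfin : FiniteDimensional ℚ K₁)
  [Algebra ↥(descVal A K₁) (FK K₁ (M * q))]
  [IsScalarTower ↥(descVal A K₁) K₁ (FK K₁ (M * q))]
  (t : FK K₁ (M * q))

/-- the element `t` of the chart ring -/
def tC : Chart ↥(descVal A K₁) t :=
  ⟨t, (isIntegral_algebraMap : IsIntegral (Algebra.adjoin ↥(descVal A K₁) {t})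
    (algebraMap (Algebra.adjoin ↥(descVal A K₁) {t}) (FK K₁ (M * q))
      ⟨t, Algebra.subset_adjoin (Set.mem_singleton t)⟩))⟩

theorem coe_tC : ((tC M q A K₁ t : Chart ↥(descVal A K₁) t) : FK K₁ (M * q)) = t := rfl

include hA hfin hq in
/-- integers prime to `q` are not in a proper ideal of the chart ring -/
theorem natCast_notMem (n : ℕ) (hn : 0 < n) (hqn : ¬ q ∣ n)
    (𝔫 : Ideal (Chart ↥(descVal A K₁) t)) (h𝔫 : 𝔫 ≠ ⊤) :
    ((n : ℕ) : Chart ↥(descVal A K₁) t) ∉ 𝔫 := by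
  haveI : Fact q.Prime := ⟨hq⟩
  obtain ⟨hdvr, -, hu⟩ := H4DVR.dvrStatement q A hA K₁ hfin
  obtain ⟨r', hr'⟩ := (hu n hqn hn).exists_right_inv
  obtain ⟨y', hy'⟩ := H26DI.exists_chart_coe ↥(descVal A K₁) t r'
  intro hmem
  apply h𝔫
  rw [Ideal.eq_top_iff_one]
  have e : ((n : ℕ) : Chart ↥(descVal A K₁) t) * y' = 1 := by
    apply Subtype.ext
    show (((n : ℕ) : Chart ↥(descVal A K₁) t) : FK K₁ (M * q)) * (y' : FK K₁ (M * q)) = 1
    rw [hy']
    have h1 : (((n : ℕ) : Chart ↥(descVal A K₁) t) : FK K₁ (M * q)) =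
        algebraMap ↥(descVal A K₁) (FK K₁ (M * q)) ((n : ℕ) : ↥(descVal A K₁)) := by
      rw [map_natCast]
      rfl
    rw [h1, ← map_mul, hr', map_one]
  rw [← e]
  exact 𝔫.mul_mem_right _ hmem

end Concrete

section Identities

variable (K : Type) [Field K] [Algebra ℚ K]

/-- `j t² = (t + 256)³` for the base function of kind `2`. -/
theorem j_mul_sq (t₀ : LaurentSeries ℚ) (h : IsBase 2 t₀) :
    jqModC K * (coeffEmb K t₀) ^ 2 = (coeffEmb K t₀ + 256) ^ 3 := by
  have h2 : t₀ = modularUnitSeries 2 := by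
    rw [H4BR.eq_t2_of_isBase h, H4HM.modularUnitSeries_two]
  have hid := H4HM.hauptmodulStatement.1.2.1
  rw [← h2] at hid
  have h3 := congrArg (coeffEmb K) hid
  rw [map_mul, map_pow, map_pow, map_add, gv_coeffEmb_jq, map_ofNat] at h3
  exact h3

/-- `j t³ = (t + 27)(t + 243)³` for the base function of kind `3`. -/
theorem j_mul_cube (t₀ : LaurentSeries ℚ) (h : IsBase 3 t₀) :
    jqModC K * (coeffEmb K t₀) ^ 3 = (coeffEmb K t₀ + 27) * (coeffEmb K t₀ + 243) ^ 3 := by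
  obtain ⟨t₃, hb, -, hid, -⟩ := H4HM.hauptmodulStatement.2
  have h3 : t₃ = t₀ := by
    rw [H4BR.eq_t3_of_isBase hb, H4BR.eq_t3_of_isBase h]
  rw [h3] at hid
  have h4 := congrArg (coeffEmb K) hid
  rw [map_mul, map_mul, map_pow, map_pow, map_add, map_add, gv_coeffEmb_jq, map_ofNat,
    map_ofNat] at h4
  exact h4

end Identities

/-- **(CUSP0)** from the pair statement (I1). -/
theorem compCusp0_of (hPG : H8PB.PairGaussStatement) : H4S34.CompCusp0Statement := by
  intro M _ q _ hq hqM hT h23 A hA K₁ hK₁ _ _ ϖ hϖ t₀ ht₀ t ht P₁ P₂ h1 h2 𝔫 h𝔫 hzero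
  have hprime : 𝔫.IsPrime := h𝔫.1.isPrime
  have hne : 𝔫 ≠ ⊤ := hprime.ne_top
  have hyt : tC M q A K₁ t ∈ 𝔫 := hzero _ rfl
  refine cusp_core hPG M q hq hqM hT A hA K₁ hK₁ ϖ hϖ t₀ ht₀ t ht t (Or.inl rfl) P₁ P₂ h1 h2 𝔫
    hprime ?_
  rcases h23 with h2 | h3
  · -- `q = 2`, kind `3`
    have hk : baseKind q = 3 := by rw [h2]; rfl
    rw [hk] at ht₀
    have key : jqModC K₁ * (t : LaurentSeries K₁) ^ 3 =
        ((t : LaurentSeries K₁) + 27) * ((t : LaurentSeries K₁) + 243) ^ 3 := by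
      rw [ht]
      exact j_mul_cube K₁ t₀ ht₀
    have h27 : ((27 : ℕ) : Chart ↥(descVal A K₁) t) ∉ 𝔫 :=
      natCast_notMem M q hq A hA K₁ hK₁ t 27 (by norm_num) (by rw [h2]; norm_num) 𝔫 hne
    have h243 : ((243 : ℕ) : Chart ↥(descVal A K₁) t) ∉ 𝔫 :=
      natCast_notMem M q hq A hA K₁ hK₁ t 243 (by norm_num) (by rw [h2]; norm_num) 𝔫 hne
    refine ⟨tC M q A K₁ t ^ 3,
      (tC M q A K₁ t + ((27 : ℕ) : Chart ↥(descVal A K₁) t)) *
        (tC M q A K₁ t + ((243 : ℕ) : Chart ↥(descVal A K₁) t)) ^ 3, ?_, ?_, ?_⟩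
    · intro hs
      rcases hprime.mem_or_mem hs with h | h
      · apply h27
        exact (Ideal.add_mem_iff_right (α := ↥(Chart ↥(descVal A K₁) t)) 𝔫 hyt).mp h
      · have h' := hprime.mem_of_pow_mem 3 h
        apply h243
        exact (Ideal.add_mem_iff_right (α := ↥(Chart ↥(descVal A K₁) t)) 𝔫 hyt).mp h'
    · exact 𝔫.pow_mem_of_mem hyt 3 (by norm_num)
    · apply Subtype.ext
      have e1 : ((jF M q K₁ * ((tC M q A K₁ t ^ 3 : Chart ↥(descVal A K₁) t) : FK K₁ (M * q)) :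
          FK K₁ (M * q)) : LaurentSeries K₁) = jqModC K₁ * (t : LaurentSeries K₁) ^ 3 := rfl
      have e2 : ((((tC M q A K₁ t + ((27 : ℕ) : Chart ↥(descVal A K₁) t)) *
          (tC M q A K₁ t + ((243 : ℕ) : Chart ↥(descVal A K₁) t)) ^ 3 :
          Chart ↥(descVal A K₁) t) : FK K₁ (M * q)) : LaurentSeries K₁) =
          ((t : LaurentSeries K₁) + ((27 : ℕ) : LaurentSeries K₁)) *
            ((t : LaurentSeries K₁) + ((243 : ℕ) : LaurentSeries K₁)) ^ 3 := rfl
      rw [e1, e2, key]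
      norm_num
  · -- `q = 3`, kind `2`
    have hk : baseKind q = 2 := by rw [h3]; rfl
    rw [hk] at ht₀
    have key : jqModC K₁ * (t : LaurentSeries K₁) ^ 2 =
        ((t : LaurentSeries K₁) + 256) ^ 3 := by
      rw [ht]
      exact j_mul_sq K₁ t₀ ht₀
    have h256 : ((256 : ℕ) : Chart ↥(descVal A K₁) t) ∉ 𝔫 :=
      natCast_notMem M q hq A hA K₁ hK₁ t 256 (by norm_num) (by rw [h3]; norm_num) 𝔫 hne
    refine ⟨tC M q A K₁ t ^ 2,
      (tC M q A K₁ t + ((256 : ℕ) : Chart ↥(descVal A K₁) t)) ^ 3, ?_, ?_, ?_⟩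
    · intro hs
      have h' := hprime.mem_of_pow_mem 3 hs
      apply h256
      exact (Ideal.add_mem_iff_right (α := ↥(Chart ↥(descVal A K₁) t)) 𝔫 hyt).mp h'
    · exact 𝔫.pow_mem_of_mem hyt 2 (by norm_num)
    · apply Subtype.ext
      have e1 : ((jF M q K₁ * ((tC M q A K₁ t ^ 2 : Chart ↥(descVal A K₁) t) : FK K₁ (M * q)) :
          FK K₁ (M * q)) : LaurentSeries K₁) = jqModC K₁ * (t : LaurentSeries K₁) ^ 2 := rfl
      have e2 : ((((tC M q A K₁ t + ((256 : ℕ) : Chart ↥(descVal A K₁) t)) ^ 3 :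
          Chart ↥(descVal A K₁) t) : FK K₁ (M * q)) : LaurentSeries K₁) =
          ((t : LaurentSeries K₁) + ((256 : ℕ) : LaurentSeries K₁)) ^ 3 := rfl
      rw [e1, e2, key]
      norm_num

/-- **(CUSP0)**, unconditional. -/
theorem compCusp0Statement : H4S34.CompCusp0Statement :=
  compCusp0_of H8PB.h8pg_pairGauss

end H7C0

end
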