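import Mathlib
import Fermat.Agent.S34.Cusp0_helper7

/-!
# Item 82 (S34), slice (CUSP), twin (helper7): cusp separation on the chart `t⁻¹`

`H7C0.compCuspStatement : H26DI.CompCuspStatement` (with `K₀ = ⊥`): no closed point of the chart
`t⁻¹` over `t = ∞` lies on both components of the special fibre.

Proof: with `u = t⁻¹ ∈ 𝔫`: `j u = 1` (kind 1), `j u = (1 + 256 u)³` (kind 2),
`j u = (1 + 27 u)(1 + 243 u)³` (kind 3); the right-hand sides are `≡ 1` modulo `𝔫`; apply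
`H7C0.cusp_core`.
-/

set_option autoImplicit false
set_option synthInstance.maxHeartbeats 400000
set_option maxHeartbeats 1000000
set_option linter.unusedSectionVars false
set_option linter.unusedVariables false
set_option linter.style.haveILetI false
set_option linter.style.longLine false

noncomputable section

open Polynomial IntermediateField ModularCurve H7S18 H4S34 H26DI H28GV

namespace H7C0

section Concrete

variable (M : ℕ) [NeZero M] (q : ℕ) [NeZero q]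
  (A : ValuationSubring (AlgebraicClosure ℚ))
  (K₁ : IntermediateField ℚ (AlgebraicClosure ℚ))
  [Algebra ↥(descVal A K₁) (FK K₁ (M * q))]
  [IsScalarTower ↥(descVal A K₁) K₁ (FK K₁ (M * q))]
  (t : FK K₁ (M * q))

/-- the element `t⁻¹` of the chart ring of the chart `t⁻¹` -/
def uC : Chart ↥(descVal A K₁) t⁻¹ :=
  ⟨t⁻¹, (isIntegral_algebraMap : IsIntegral (Algebra.adjoin ↥(descVal A K₁) {t⁻¹})
    (algebraMap (Algebra.adjoin ↥(descVal A K₁) {t⁻¹}) (FK K₁ (M * q))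
      ⟨t⁻¹, Algebra.subset_adjoin (Set.mem_singleton t⁻¹)⟩))⟩

theorem coe_uC : ((uC M q A K₁ t : Chart ↥(descVal A K₁) t⁻¹) : FK K₁ (M * q)) = t⁻¹ := rfl

/-- `1 + n u ∉ 𝔫` for `u ∈ 𝔫` -/
theorem one_add_notMem (𝔫 : Ideal (Chart ↥(descVal A K₁) t⁻¹)) (h𝔫 : 𝔫 ≠ ⊤)
    (hu : uC M q A K₁ t ∈ 𝔫) (n : ℕ) :
    (1 + ((n : ℕ) : Chart ↥(descVal A K₁) t⁻¹) * uC M q A K₁ t) ∉ 𝔫 := by
  intro h
  apply h𝔫
  rw [Ideal.eq_top_iff_one]
  have h1 : ((n : ℕ) : Chart ↥(descVal A K₁) t⁻¹) * uC M q A K₁ t ∈ 𝔫 := 𝔫.mul_mem_left _ hu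
  exact (Ideal.add_mem_iff_left (α := ↥(Chart ↥(descVal A K₁) t⁻¹)) 𝔫 h1).mp h

end Concrete

/-- **(CUSP)** from the pair statement (I1). -/
theorem compCusp_of (hPG : H8PB.PairGaussStatement) : H26DI.CompCuspStatement := by
  intro M _ q _ hq hqM hT A hA
  refine ⟨⊥, inferInstance, ?_⟩
  intro K₁ _ hK₁ _ _ _ ϖ hϖ t₀ ht₀ t ht P₁ P₂ h1 h2 𝔫 h𝔫 hinf
  have hprime : 𝔫.IsPrime := h𝔫.1.isPrime
  have hne : 𝔫 ≠ ⊤ := hprime.ne_top
  have hu : uC M q A K₁ t ∈ 𝔫 := hinf _ rfl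
  have htr : Transcendental K₁ t := H22DA.base_transcendental M q hT K₁ t₀ ht₀ t ht
  have ht0 : t ≠ 0 := by
    rintro rfl
    exact htr (isAlgebraic_zero)
  refine cusp_core hPG M q hq hqM hT A hA K₁ hK₁ ϖ hϖ t₀ ht₀ t ht t⁻¹ (Or.inr rfl) P₁ P₂ h1 h2 𝔫
    hprime ?_
  by_cases hq2 : q = 2
  · -- kind `3`
    have hk : baseKind q = 3 := by rw [hq2]; rfl
    rw [hk] at ht₀
    have key : jF M q K₁ * t ^ 3 = (t + 27) * (t + 243) ^ 3 := by
      apply Subtype.ext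
      show jqModC K₁ * (t : LaurentSeries K₁) ^ 3 =
        ((t : LaurentSeries K₁) + ((27 : FK K₁ (M * q)) : LaurentSeries K₁)) *
          ((t : LaurentSeries K₁) + ((243 : FK K₁ (M * q)) : LaurentSeries K₁)) ^ 3
      rw [ht]
      exact j_mul_cube K₁ t₀ ht₀
    refine ⟨uC M q A K₁ t,
      (1 + ((27 : ℕ) : Chart ↥(descVal A K₁) t⁻¹) * uC M q A K₁ t) *
        (1 + ((243 : ℕ) : Chart ↥(descVal A K₁) t⁻¹) * uC M q A K₁ t) ^ 3, ?_, hu, ?_⟩
    · intro hs
      rcases hprime.mem_or_mem hs with h | h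
      · exact one_add_notMem M q A K₁ t 𝔫 hne hu 27 h
      · exact one_add_notMem M q A K₁ t 𝔫 hne hu 243 (hprime.mem_of_pow_mem 3 h)
    · show jF M q K₁ * t⁻¹ = (1 + ((27 : ℕ) : FK K₁ (M * q)) * t⁻¹) *
        (1 + ((243 : ℕ) : FK K₁ (M * q)) * t⁻¹) ^ 3
      have h3 : jF M q K₁ = (t + 27) * (t + 243) ^ 3 / t ^ 3 := by
        rw [eq_div_iff (pow_ne_zero 3 ht0)]
        exact key
      rw [h3]
      push_cast
      field_simp
  · by_cases hq3 : q = 3
    · -- kind `2`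
      have hk : baseKind q = 2 := by rw [hq3]; rfl
      rw [hk] at ht₀
      have key : jF M q K₁ * t ^ 2 = (t + 256) ^ 3 := by
        apply Subtype.ext
        show jqModC K₁ * (t : LaurentSeries K₁) ^ 2 =
          ((t : LaurentSeries K₁) + ((256 : FK K₁ (M * q)) : LaurentSeries K₁)) ^ 3
        rw [ht]
        exact j_mul_sq K₁ t₀ ht₀
      refine ⟨uC M q A K₁ t,
        (1 + ((256 : ℕ) : Chart ↥(descVal A K₁) t⁻¹) * uC M q A K₁ t) ^ 3, ?_, hu, ?_⟩
      · intro hs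
        exact one_add_notMem M q A K₁ t 𝔫 hne hu 256 (hprime.mem_of_pow_mem 3 hs)
      · show jF M q K₁ * t⁻¹ = (1 + ((256 : ℕ) : FK K₁ (M * q)) * t⁻¹) ^ 3
        have h3 : jF M q K₁ = (t + 256) ^ 3 / t ^ 2 := by
          rw [eq_div_iff (pow_ne_zero 2 ht0)]
          exact key
        rw [h3]
        push_cast
        field_simp
    · -- kind `1`
      have hk : baseKind q = 1 := by
        unfold baseKind
        rw [if_neg hq2, if_neg hq3]
      rw [hk] at ht₀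
      have htj : t = jF M q K₁ := by
        apply Subtype.ext
        rw [ht, H4BR.eq_jq_of_isBase ht₀, gv_coeffEmb_jq]
        rfl
      refine ⟨uC M q A K₁ t, 1, ?_, hu, ?_⟩
      · intro h1
        exact hne ((Ideal.eq_top_iff_one 𝔫).mpr h1)
      · show jF M q K₁ * t⁻¹ = 1
        rw [← htj]
        exact mul_inv_cancel₀ ht0

/-- **(CUSP)**, unconditional. -/
theorem compCuspStatement : H26DI.CompCuspStatement :=
  compCusp_of H8PB.h8pg_pairGauss

end H7C0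

end
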