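/-
helper9: item 82 (S34), slice (DICH)/(I2), first component: INTERFACE of the two concrete inputs
of `H26DI.CompUnif1Statement` (setting of `S34/DichDefs_helper26.lean`: level `N = M q`,
`q ∤ M`, `R = descVal A K₁`, `w = H12AL.wqKHom K₁ M q`).

* `H9UF.ResDegOneStatement` **(C'')**: the first Gauss valuation `w₁` of `F₁(M q)` has residue
  degree one over its restriction to `F₁(M)`: every `x ∈ F₁(M q)` lying in both Gauss rings
  (`InG x`, `InG (w x)`) is congruent modulo the maximal ideal `𝔪_{w₁}` to an element of level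
  `M` of the Gauss ring.
  [pair basis `H8PB.h8pb_span`, `H8PB.h8pb_coeff_mem`, and `j(𝐪^q) ≡ j^q` modulo `q`.]
* `H9UF.LevelNormalStatement` **(A'')**: normality of the special fibre of the chart `c = t` or
  `c = t⁻¹` at the tame level `M`, in the language of the Gauss ring: an element `y ∈ F₁(M)` of
  the Gauss ring which is a root, modulo `𝔪_{w₁}`, of a monic polynomial over `R[c]`, is
  congruent modulo `𝔪_{w₁}` to an element integral over `R[c]`.
  [`H18I2.h18i2_chartNormal` instantiated at level `M`, `H28UG.gaussStatement`, and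
  `InGm x ↔ ModPi x 0` at level `M`.]
-/
import Mathlib
import Fermat.Agent.S34.DichDefs_helper26

set_option autoImplicit false
set_option synthInstance.maxHeartbeats 400000
set_option linter.unusedVariables false

noncomputable section

open ModularCurve H7S18 H4S34

namespace H9UF

/-- **(C'')**: residue degree one of `w₁` over the level `M`. -/
def ResDegOneStatement : Prop :=
  ∀ (M : ℕ) [NeZero M] (q : ℕ) [NeZero q] (hq : q.Prime) (hqM : ¬ q ∣ M) (_ : TameLevel q M)
    (A : ValuationSubring (AlgebraicClosure ℚ)) (_ : A.LiesOverPrime q)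
    (K₁ : IntermediateField ℚ (AlgebraicClosure ℚ)) (_ : FiniteDimensional ℚ K₁)
    (x : FK K₁ (M * q)),
    H8PB.InG (descVal A K₁) (x : LaurentSeries K₁) →
    H8PB.InG (descVal A K₁)
      ((H12AL.wqKHom K₁ M q hq hqM x : FK K₁ (M * q)) : LaurentSeries K₁) →
    ∃ z : LaurentSeries K₁, z ∈ laurentBaseChange K₁ (modularFunctionFieldFull M) ∧
      H8PB.InG (descVal A K₁) z ∧ H8PB.InGm (descVal A K₁) ((x : LaurentSeries K₁) - z)

/-- **(A'')**: normality of the special fibre of the chart `c ∈ {t, t⁻¹}` at the level `M`. -/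
def LevelNormalStatement : Prop :=
  ∀ (M : ℕ) [NeZero M] (q : ℕ) [NeZero q] (hq : q.Prime) (hqM : ¬ q ∣ M) (_ : TameLevel q M)
    (A : ValuationSubring (AlgebraicClosure ℚ)) (_ : A.LiesOverPrime q),
    ∃ K₀ : IntermediateField ℚ (AlgebraicClosure ℚ), FiniteDimensional ℚ K₀ ∧
    ∀ (K₁ : IntermediateField ℚ (AlgebraicClosure ℚ)) (_ : K₀ ≤ K₁) (_ : FiniteDimensional ℚ K₁)
      (_ : Normal ℚ K₁)
      [Algebra ↥(descVal A K₁) (FK K₁ M)]
      [IsScalarTower ↥(descVal A K₁) K₁ (FK K₁ M)]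
      (ϖ : ↥(descVal A K₁)) (_ : Irreducible ϖ)
      (t₀ : LaurentSeries ℚ) (_ : IsBase (baseKind q) t₀)
      (t : FK K₁ M) (_ : (t : LaurentSeries K₁) = coeffEmb K₁ t₀)
      (c : FK K₁ M) (_ : c = t ∨ c = t⁻¹)
      (y : FK K₁ M) (n : ℕ) (cf : ℕ → FK K₁ M)
      (_ : ∀ i, cf i ∈ Algebra.adjoin ↥(descVal A K₁) {c}),
      H8PB.InG (descVal A K₁) (y : LaurentSeries K₁) →
      H8PB.InGm (descVal A K₁)
        (((y ^ n + ∑ i ∈ Finset.range n, cf i * y ^ i : FK K₁ M)) : LaurentSeries K₁) →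
      ∃ d : FK K₁ M, IsInt ↥(descVal A K₁) c d ∧
        H8PB.InGm (descVal A K₁) (((y - d : FK K₁ M)) : LaurentSeries K₁)

end H9UF

end
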