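/-
helper18: item 82 (S34), slice (I2), part (A'): the Gauss valuation at a level `N` prime to the
residue characteristic is the UNIQUE extension of the Gauss valuation of `K₁(t)` to
`F₁ = FK K₁ N`, and it is unramified:

* `GInt R ϖ t x ↔ InG R x`        (`O = O_{w₁}`: the ring of Gauss-integral elements is the
                                    valuation ring of the Gauss valuation);
* `ModPi R ϖ t x 0 ↔ InGm R x`    (`ϖ O = 𝔪_{w₁}`: `e = 1`; so `O / ϖ O` is a field).

Here `R = descVal A K₁`, `A` over `ℓ ∤ N`, `t` any base function which lives at level `N`.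
-/
import Mathlib
import Fermat.Agent.S18.C7Inst_helper28
import Fermat.Agent.S18.C7a_helper1
import Fermat.Agent.S18.C7b_helper27
import Fermat.Agent.S18.C7c_helper16
import Fermat.Agent.S18.C7d_helper4
import Fermat.Agent.S34.DichComp_helper22

set_option autoImplicit false
set_option linter.unusedSectionVars false
set_option linter.unusedVariables false
set_option linter.style.haveILetI false
set_option synthInstance.maxHeartbeats 400000

open ModularCurve HahnSeries Polynomial IntermediateField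

noncomputable section

namespace H18GM

open H7S18 H28GV H28UG

/-! ### abstract part: Gauss-integral elements lie in the valuation ring -/

section Abstract

variable {K : Type} [Field K] {A : ValuationSubring K} {k : Type*} [Field k] {π : A →+* k}
  {E : Type} [Field E] [Algebra K E] {Eb : Type*} [Field Eb] [Algebra k Eb]
  {OE : ValuationSubring E} {redE : OE →+* Eb}
  [Algebra A E] [IsScalarTower A K E]

/-- `A[t] ⊆ OE` -/
theorem adjoin_le_OE (hd : GaussData A π OE redE) (t : OE) {y : E}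
    (hy : y ∈ Algebra.adjoin A {(t : E)}) : y ∈ OE := by
  rw [Algebra.adjoin_singleton_eq_range_aeval] at hy
  obtain ⟨P, hP⟩ := hy
  have h1 : ((hd.ev t P : OE) : E) = y := (hd.coe_ev t P).trans hP
  rw [← h1]
  exact (hd.ev t P).2

/-- the inclusion `A[t] → OE` -/
def adjIncl (hd : GaussData A π OE redE) (t : OE) : Algebra.adjoin A {(t : E)} →+* OE where
  toFun s := ⟨s.1, adjoin_le_OE hd t s.2⟩
  map_one' := rfl
  map_mul' _ _ := rfl
  map_zero' := rfl
  map_add' _ _ := rfl

/-- elements integral over `A[t]` lie in `OE` -/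
theorem mem_of_isInt (hd : GaussData A π OE redE) (t : OE) {y : E}
    (hy : IsInt A (t : E) y) : y ∈ OE := by
  obtain ⟨p, hp, hpy⟩ := hy
  have hint : IsIntegral OE y := by
    refine ⟨p.map (adjIncl hd t), hp.map _, ?_⟩
    rw [eval₂_map]
    exact hpy
  obtain ⟨z, hz⟩ := (IsIntegrallyClosed.isIntegral_iff (R := OE) (K := E)).mp hint
  rw [← hz]
  exact z.2

/-- **Gauss-integral elements lie in `OE`** -/
theorem mem_of_gInt (hd : GaussData A π OE redE) {ϖ : A} (hϖ : Irreducible ϖ) (t : OE)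
    (htb : Transcendental k (redE t)) {x : E} (hx : GInt A ϖ (t : E) x) : x ∈ OE := by
  obtain ⟨s, hs, hint⟩ := hx
  have hs0 : s ≠ 0 := isGaussUnit_ne_zero hs
  have hsx : s * x ∈ OE := mem_of_isInt hd t hint
  have hsK : s ∈ K⟮(t : E)⟯ := adjoin_le_adjoin (t : E) hs.1
  have hinvK : s⁻¹ ∈ K⟮(t : E)⟯ := inv_mem hsK
  have hB : GBase A ϖ (t : E) s⁻¹ :=
    ⟨s, 1, hs, Subalgebra.one_mem _, mul_inv_cancel₀ hs0⟩
  have h1 := (hd.gBase_iff hϖ t htb ⟨s⁻¹, hinvK⟩).mpr hB
  have h2 : s⁻¹ ∈ OE := h1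
  have h3 : x = s⁻¹ * (s * x) := by
    rw [← mul_assoc, inv_mul_cancel₀ hs0, one_mul]
  rw [h3]
  exact OE.mul_mem _ _ h2 hsx

end Abstract

/-! ### the modular instance over a general valuation ring -/

section Inst

variable {L : Type} [Field L] [Algebra ℚ L] (A : ValuationSubring L) (N : ℕ) [NeZero N]

set_option maxHeartbeats 1600000 in
/-- **the Gauss valuation is the unique unramified extension**, general form (`A ⊂ L` a valuation
ring with perfect residue field of characteristic `p ∤ N`). -/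
theorem gauss_pack (hD : C7DegStatement) (hS : C7SepStatement)
    (p : ℕ) [Fact p.Prime] [CharP (IsLocalRing.ResidueField A) p]
    [PerfectField (IsLocalRing.ResidueField A)] (hpN : ¬ p ∣ N)
    [Algebra A (FK L N)] [IsScalarTower A L (FK L N)]
    (ϖ : A) (hϖ : Irreducible ϖ)
    (T : LaurentSeries ℤ) (hT1 : T.coeff (-1) = 1)
    (hjT : jq ∈ IntermediateField.adjoin ℚ {coeffMap (Int.castRingHom ℚ) T})
    (t : FK L N) (ht : (t : LaurentSeries L) = coeffEmb L (coeffMap (Int.castRingHom ℚ) T))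
    (x : FK L N) :
    (GInt A ϖ t x ↔ (x : LaurentSeries L) ∈ gvO A (IsLocalRing.residue A)) ∧
    (ModPi A ϖ t x 0 ↔ ∃ h : (x : LaurentSeries L) ∈ gvO A (IsLocalRing.residue A),
      gvRed A (IsLocalRing.residue A) ⟨(x : LaurentSeries L), h⟩ = 0) := by
  classical
  have hπs : Function.Surjective (IsLocalRing.residue A) := IsLocalRing.residue_surjective
  have hπ0 : ∀ a : A, ¬ IsUnit a → IsLocalRing.residue A a = 0 := fun a ha =>
    (IsLocalRing.residue_eq_zero_iff a).mpr ((IsLocalRing.mem_maximalIdeal a).mpr ha)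
  have hchar : ∀ r : ℕ, r.Prime → r ∣ N → (r : IsLocalRing.ResidueField A) ≠ 0 := by
    intro r hr hrN h0
    have h1 := (CharP.cast_eq_zero_iff (IsLocalRing.ResidueField A) p r).mp h0
    have h2 : p = r := (Nat.prime_dvd_prime_iff_eq Fact.out hr).mp h1
    exact hpN (h2 ▸ hrN)
  obtain ⟨B⟩ := gv_basis_nonempty_gen A (IsLocalRing.residue A) N hchar
  have hd := gaussData_gv B hπs hπ0
  -- the element `t`
  have htA : (t : LaurentSeries L) = gvEps A (coeffMap (Int.castRingHom A) T) := by
    rw [ht, coeffEmb, coeffMap_coeffMap, gvEps_def, coeffMap_coeffMap]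
    exact coeffMap_congr (RingHom.ext_int _ _) T
  have htO : t ∈ gvOF B := by
    rw [mem_gvOF, htA]
    exact gvEps_mem_gvO A _ _
  have htred : ((gvRedF B (gv_hpi_of_nonunit hπ0) ⟨t, htO⟩ :
      ↥(modularFunctionFieldFullC (IsLocalRing.ResidueField A) N)) :
        LaurentSeries (IsLocalRing.ResidueField A)) =
      coeffMap (Int.castRingHom (IsLocalRing.ResidueField A)) T := by
    rw [coe_gvRedF]
    have h1 : gvOFincl B ⟨t, htO⟩ = ⟨gvEps A (coeffMap (Int.castRingHom A) T),
        gvEps_mem_gvO A (IsLocalRing.residue A) _⟩ := Subtype.ext htA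
    rw [h1, gvRed_eps, gvRho_def, coeffMap_coeffMap]
    exact coeffMap_congr (RingHom.ext_int _ _) T
  have htcoeff : ((gvRedF B (gv_hpi_of_nonunit hπ0) ⟨t, htO⟩ :
      ↥(modularFunctionFieldFullC (IsLocalRing.ResidueField A) N)) :
        LaurentSeries (IsLocalRing.ResidueField A)).coeff (-1) = 1 := by
    rw [htred, coeffMap_coeff, hT1]
    simp
  have hinj : Function.Injective
      (algebraMap ↥(modularFunctionFieldFullC (IsLocalRing.ResidueField A) N)
        (LaurentSeries (IsLocalRing.ResidueField A))) := Subtype.val_injective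
  have htL : Transcendental (IsLocalRing.ResidueField A)
      ((gvRedF B (gv_hpi_of_nonunit hπ0) ⟨t, htO⟩ :
        ↥(modularFunctionFieldFullC (IsLocalRing.ResidueField A) N)) :
          LaurentSeries (IsLocalRing.ResidueField A)) :=
    transcendental_of_pole _ (by rw [htcoeff]; exact one_ne_zero)
  have htb : Transcendental (IsLocalRing.ResidueField A)
      (gvRedF B (gv_hpi_of_nonunit hπ0) ⟨t, htO⟩) :=
    (transcendental_algebraMap_iff hinj).mp htL
  have hG := (gauss_inst A N hD hS p hpN ϖ hϖ T hT1 hjT t ht).2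
  have hmem : ∀ y : FK L N, GInt A ϖ t y → (y : LaurentSeries L) ∈
      gvO A (IsLocalRing.residue A) := fun y hy =>
    (mem_gvOF B y).mp (mem_of_gInt hd hϖ ⟨t, htO⟩ htb hy)
  have hϖ0 : IsLocalRing.residue A ϖ = 0 := hπ0 ϖ hϖ.not_isUnit
  have hcoeϖ : ((algebraMap A (FK L N) ϖ : FK L N) : LaurentSeries L) =
      HahnSeries.C ((ϖ : A) : L) := H22DC.coe_algebraMap_R A ϖ
  refine ⟨⟨hmem x, hG x⟩, ?_, ?_⟩
  · rintro ⟨z, hz, hxz⟩
    have hzO := hmem z hz
    rw [sub_zero] at hxz
    have hx1 : (x : LaurentSeries L) = HahnSeries.C ((ϖ : A) : L) * (z : LaurentSeries L) := by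
      rw [hxz]
      show ((algebraMap A (FK L N) ϖ : FK L N) : LaurentSeries L) * (z : LaurentSeries L) = _
      rw [hcoeϖ]
    have hxO : (x : LaurentSeries L) ∈ gvO A (IsLocalRing.residue A) := by
      rw [hx1]
      exact (gvO A _).mul_mem (gv_C_mem A _ ϖ) hzO
    refine ⟨hxO, ?_⟩
    have h2 : (⟨(x : LaurentSeries L), hxO⟩ : gvO A (IsLocalRing.residue A)) =
        ⟨HahnSeries.C ((ϖ : A) : L), gv_C_mem A _ ϖ⟩ * ⟨(z : LaurentSeries L), hzO⟩ :=
      Subtype.ext hx1
    rw [h2, map_mul, gvRed_C, hϖ0, map_zero, zero_mul]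
  · rintro ⟨hxO, hx0⟩
    by_cases hxz : x = 0
    · rw [hxz]
      refine ⟨0, hG 0 ?_, by rw [sub_zero, mul_zero]⟩
      exact (gvO A _).zero_mem
    have hxne : (x : LaurentSeries L) ≠ 0 := fun h => hxz (Subtype.ext h)
    obtain ⟨a, u', ha, hxu, hu'L, hu'0, -⟩ := gv_unit_decomp_int B (gv_hpi_of_nonunit hπ0)
      ⟨(x : LaurentSeries L), hxO⟩ (gv_coe_mem_full N x) hxne
    -- `a` is not a unit
    have hπa : IsLocalRing.residue A a = 0 := by
      have h1 := hx0
      rw [hxu, map_mul, gvRed_C] at h1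
      rcases mul_eq_zero.mp h1 with h | h
      · have h2 := congrArg (fun s : LaurentSeries (IsLocalRing.ResidueField A) => s.coeff 0) h
        simpa using h2
      · exact absurd h hu'0
    have hau : ¬ IsUnit a := fun hu =>
      ((IsLocalRing.residue_ne_zero_iff_isUnit a).mpr hu) hπa
    obtain ⟨b, hb⟩ := vr_dvd_of_not_isUnit A hϖ a hau
    -- the quotient `z = x / ϖ`
    have hzmemO : HahnSeries.C ((b : A) : L) * (u' : LaurentSeries L) ∈
        gvO A (IsLocalRing.residue A) := (gvO A _).mul_mem (gv_C_mem A _ b) u'.2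
    have hCb : (HahnSeries.C ((b : A) : L) : LaurentSeries L) ∈
        modularFunctionFieldFullC L N := by
      have := (modularFunctionFieldFullC L N).algebraMap_mem ((b : A) : L)
      rwa [algebraMap_laurentSeries_eq_single] at this
    have hzmem : HahnSeries.C ((b : A) : L) * (u' : LaurentSeries L) ∈
        laurentBaseChange L (modularFunctionFieldFull N) :=
      gv_mem_base_of_full N (mul_mem hCb hu'L)
    refine ⟨⟨_, hzmem⟩, hG ⟨_, hzmem⟩ hzmemO, ?_⟩
    rw [sub_zero]
    apply Subtype.ext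
    show (x : LaurentSeries L) = ((algebraMap A (FK L N) ϖ : FK L N) : LaurentSeries L) *
      (HahnSeries.C ((b : A) : L) * (u' : LaurentSeries L))
    rw [hcoeϖ]
    have h5 := congrArg (fun s : gvO A (IsLocalRing.residue A) => (s : LaurentSeries L)) hxu
    simp only at h5
    rw [h5]
    show HahnSeries.C ((a : A) : L) * (u' : LaurentSeries L) = _
    rw [hb, ← mul_assoc]
    congr 1
    show HahnSeries.C (((ϖ * b : A) : A) : L) = _
    rw [← map_mul]
    rfl

end Inst

/-! ### the number field level -/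

section Level

variable (N : ℕ) [NeZero N] (A : ValuationSubring (AlgebraicClosure ℚ))
  (K₁ : IntermediateField ℚ (AlgebraicClosure ℚ))

/-- **(A')**: at a level `N` prime to `ℓ`, over `R = descVal A K₁`, for a base function `t` of
any kind living at level `N`: the Gauss-integral elements of `F₁ = FK K₁ N` are exactly the
elements of the Gauss ring (`InG`), and `ϖ` generates the maximal ideal (`InGm`). -/
theorem gaussM (ℓ : ℕ) [Fact ℓ.Prime] (hℓN : ¬ ℓ ∣ N) (hA : A.LiesOverPrime ℓ)
    [Algebra ↥(descVal A K₁) (FK K₁ N)] [IsScalarTower ↥(descVal A K₁) K₁ (FK K₁ N)]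
    (ϖ : ↥(descVal A K₁)) (hϖ : Irreducible ϖ)
    (i : ℕ) (t₀ : LaurentSeries ℚ) (ht₀ : IsBase i t₀)
    (t : FK K₁ N) (ht : (t : LaurentSeries K₁) = coeffEmb K₁ t₀) (x : FK K₁ N) :
    (GInt ↥(descVal A K₁) ϖ t x ↔ H8PB.InG (descVal A K₁) (x : LaurentSeries K₁)) ∧
    (ModPi ↥(descVal A K₁) ϖ t x 0 ↔ H8PB.InGm (descVal A K₁) (x : LaurentSeries K₁)) := by
  obtain ⟨hperf, hcharp⟩ := H1S18.c7Perfect ℓ A hA K₁
  obtain ⟨hc1, ⟨T, hT⟩, hj⟩ := H4C7d.c7BaseStatement i t₀ ht₀
  haveI := hperf
  haveI := hcharp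
  have hT1 : T.coeff (-1) = 1 := by
    have h1 : (coeffMap (Int.castRingHom ℚ) T).coeff (-1) = 1 := by rw [hT]; exact hc1
    rw [coeffMap_coeff] at h1
    have h2 : ((T.coeff (-1) : ℤ) : ℚ) = ((1 : ℤ) : ℚ) := by
      rw [Int.cast_one]
      exact h1
    exact Int.cast_injective h2
  have hmain := gauss_pack (descVal A K₁) N H27C7b.h27c7b_deg H16C7c.h16_c7Sep ℓ hℓN ϖ hϖ
    T hT1 (by rw [hT]; exact hj) t (by rw [hT]; exact ht) x
  rw [H22DC.inG_iff, H22DC.inGm_iff]
  exact hmain

end Level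

end H18GM

end
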