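/-
helper18: item 82 (S34), slice (I2), part a: the CHART NORMALITY statement over a DVR
(= `H7S18.ChartIdemStatement` with "idempotent modulo `ϖ`" replaced by "integral modulo `ϖ`").

If the Gauss prime of `R[t]` is unramified in `E` and the horizontal ramification of `E / K(t)`
at finite `t` is tame, concentrated at branch points `c ∈ S ⊆ R` which are pairwise distinct
mod `ϖ`, then the special fibre of the integral closure `M₀` of `R[t]` in `E` is integrally
closed: every `x ∈ O_E` which is integral over `R[t]` modulo `ϖ O_E` is congruent mod `ϖ O_E`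
to an element of `M₀`.
-/
import Mathlib
import Fermat.Agent.S37.R2LN_helper18
import Fermat.Agent.S18.Chart_helper21

set_option autoImplicit false
set_option linter.unusedSectionVars false

open Polynomial IntermediateField AlgebraicCurve

namespace H18I2

open H7S18 H18R2

/-- **(I2a) chart normality** over a DVR. -/
def ChartNormalStatement : Prop :=
  ∀ (R : Type) [CommRing R] [IsDomain R] [IsDiscreteValuationRing R]
    (K : Type) [Field K] [CharZero K] [Algebra R K] [IsFractionRing R K]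
    (E : Type) [Field E] [Algebra K E] [Algebra R E] [IsScalarTower R K E]
    (ϖ : R) (_ : Irreducible ϖ) (t : E) (_ : Transcendental K t)
    (_ : FiniteDimensional K⟮t⟯ E)
    (_ : UnrGauss R K ϖ t)
    (S : Finset R) (_ : ∀ c ∈ S, ∀ c' ∈ S, c ≠ c' → IsUnit (c - c'))
    (e₀ : ℕ) (_ : IsUnit (e₀ : R)) (_ : ∃ ζ : R, IsPrimitiveRoot ζ e₀)
    (_ : UnrOutside R K S t)
    (_ : ∀ c ∈ S, ∀ V : Place K E, 0 < V.ord (t - algebraMap R E c) →
      V.ord (t - algebraMap R E c) ∣ (e₀ : ℤ))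
    (x : E) (_ : GInt R ϖ t x) (_ : IntModPi R ϖ t x),
    ∃ a, IsInt R t a ∧ ModPi R ϖ t x a

/-- **(I2a)**, proved: local normality (`H18R2.h18r2_localNormalUnr/Tame`) at every maximal
ideal `𝔪 ∋ ϖ` of `R[t]`, glued by `h21s18_glue`. -/
theorem h18i2_chartNormal : ChartNormalStatement := by
  intro R _ _ _ K _ _ _ _ E _ _ _ _ ϖ hϖ t ht hfin hunr S hS e₀ he₀ hζ hout htame x hx hxx
  refine h21s18_glue R K E ϖ hϖ t ht hfin x hx (fun 𝔪 h𝔪 hϖ𝔪 => ?_)
  by_cases hcase : ∃ c ∈ S, H21S18.tSub t c ∈ 𝔪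
  · obtain ⟨c, hcS, hc𝔪⟩ := hcase
    refine h18r2_localNormalTame R K E ϖ hϖ t ht hfin hunr 𝔪 h𝔪 hϖ𝔪 c ?_ e₀ he₀ hζ ?_
      (htame c hcS) x hx hxx
    · intro s hs
      have : s = H21S18.tSub t c := Subtype.ext hs
      rw [this]
      exact hc𝔪
    · intro V hV hVc
      refine hout V hV.1 (fun c' hc'S => ?_)
      by_cases hcc : c' = c
      · rw [hcc]
        exact hVc
      · by_contra hpos
        rw [not_le] at hpos
        have hmem : H21S18.tSub t c' ∈ 𝔪 := hV.2 (H21S18.tSub t c') hpos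
        exact H21S18.not_both_mem t 𝔪 h𝔪 (hS c hcS c' hc'S (Ne.symm hcc)) hc𝔪 hmem
  · refine h18r2_localNormalUnr R K E ϖ hϖ t ht hfin hunr 𝔪 h𝔪 hϖ𝔪 ?_ x hx hxx
    intro V hV
    refine hout V hV.1 (fun c hcS => ?_)
    by_contra hpos
    rw [not_le] at hpos
    exact hcase ⟨c, hcS, hV.2 (H21S18.tSub t c) hpos⟩

end H18I2
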