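/-
helper14: item 82 (S34), slice (I2) concrete, part (A) (twin of helper18):
CHART NORMALITY INSTANTIATED at a tame level `M` over a number field `K₁ ⊆ ℚ̄`,
in both charts `t` and `t⁻¹` of the base function `t` of kind `baseKind q`.

* `H14I2.h14i2_unrOutside_desc`, `h14i2_tameAt_desc` : the horizontal data (unramified outside
  the branch set, tame at the branch points and at `∞`) descend from `F' / L` (`L` algebraically
  closed) to `F₁ / K₁` (place descent `H1S18.placeDescent`).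
* `H14I2.h14i2_absChartNormal` : abstract two-level chart normality, charts `t` and `t⁻¹`
  (`H18I2.h18i2_chartNormal` + the chart change of `H21S18`).
* `H14I2.h14i2_chartNormalInst` : the instantiation at level `M`, `TameLevel q M`,
  `R = descVal A K₁`, `K₁ ∋ ζ_{e₀}`, `e₀ = branchIndex (baseKind q) M`.
-/
import Mathlib
import Fermat.Agent.S34.I2Chart_helper18
import Fermat.Agent.S18.Asm_helper7
import Fermat.Agent.S18.C7_helper28

set_option autoImplicit false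
set_option synthInstance.maxHeartbeats 400000
set_option maxHeartbeats 1000000
set_option linter.unusedSectionVars false
set_option linter.unusedVariables false
set_option linter.style.haveILetI false

open Polynomial IntermediateField AlgebraicCurve ModularCurve H28GV

namespace H14I2

open H7S18 H18R2

section Abstract

variable (R : Type) [CommRing R] [IsDomain R] [IsDiscreteValuationRing R]
  (K₁ : Type) [Field K₁] [CharZero K₁] [Algebra R K₁] [IsFractionRing R K₁]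
  (L : Type) [Field L] [Algebra K₁ L] [IsAlgClosed L] [Algebra.IsAlgebraic K₁ L]
  (F₁ : Type) [Field F₁] [Algebra K₁ F₁] [Algebra R F₁] [IsScalarTower R K₁ F₁]
  (F' : Type) [Field F'] [Algebra L F'] [Algebra K₁ F'] [IsScalarTower K₁ L F']
  [Algebra F₁ F'] [IsScalarTower K₁ F₁ F'] [Algebra.IsAlgebraic F₁ F']

open Classical in
/-- descent of `UnrOutside` from `F' / L` to `F₁ / K₁`. -/
theorem h14i2_unrOutside_desc (t : F₁) (ht : Transcendental K₁ t)
    (hfin : FiniteDimensional K₁⟮t⟯ F₁)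
    (hfin' : FiniteDimensional L⟮algebraMap F₁ F' t⟯ F')
    (S : Finset ℤ) (hUO : UnrOutside ℤ L S (algebraMap F₁ F' t)) :
    UnrOutside R K₁ (S.image (Int.cast : ℤ → R)) t := by
  classical
  intro V hVt hVS
  have htK' : Transcendental K₁ (algebraMap F₁ F' t) :=
    (transcendental_algebraMap_iff (algebraMap F₁ F').injective).mpr ht
  have htL' : Transcendental L (algebraMap F₁ F' t) := htK'.extendScalars L
  obtain ⟨W', ε, hε, hW'⟩ := H1S18.placeDescent K₁ L F₁ F' t ht hfin hfin' V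
  have hεZ : (0 : ℤ) < ε := by exact_mod_cast hε
  have h1 : 0 ≤ W'.ord (algebraMap F₁ F' t) := by
    rw [hW']
    exact mul_nonneg hεZ.le hVt
  have hcastF' : ∀ c : ℤ, algebraMap ℤ F' c = algebraMap F₁ F' ((c : ℤ) : F₁) := by
    intro c
    rw [map_intCast, eq_intCast]
  have hcastR : ∀ c : ℤ, algebraMap R F₁ ((c : ℤ) : R) = ((c : ℤ) : F₁) := fun c =>
    map_intCast _ _
  have h2 : ∀ c ∈ S, W'.ord (algebraMap F₁ F' t - algebraMap ℤ F' c) ≤ 0 := by
    intro c hc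
    rw [hcastF', ← map_sub, hW']
    have h3 := hVS _ (Finset.mem_image_of_mem _ hc)
    rw [hcastR] at h3
    exact mul_nonpos_of_nonneg_of_nonpos hεZ.le h3
  obtain ⟨Q', hQ'⟩ := hUO W' h1 h2
  obtain ⟨Q₀, hQ₀⟩ := H19S18.h19_exists_descended_uniformizer W' K₁ htL' h1 Q' hQ'
  refine ⟨Q₀, ?_⟩
  rw [aeval_algebraMap_apply, hW'] at hQ₀
  exact H19S18.h19_eq_one_of_natCast_mul_eq_one hQ₀

open Classical in
/-- descent of `TameAt` from `F' / L` to `F₁ / K₁`. -/
theorem h14i2_tameAt_desc (t : F₁) (ht : Transcendental K₁ t)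
    (hfin : FiniteDimensional K₁⟮t⟯ F₁)
    (hfin' : FiniteDimensional L⟮algebraMap F₁ F' t⟯ F')
    (S : Finset ℤ) (e₀ : ℕ) (hTA : TameAt ℤ L S e₀ (algebraMap F₁ F' t)) :
    TameAt R K₁ (S.image (Int.cast : ℤ → R)) e₀ t := by
  classical
  have hcastF' : ∀ c : ℤ, algebraMap ℤ F' c = algebraMap F₁ F' ((c : ℤ) : F₁) := by
    intro c
    rw [map_intCast, eq_intCast]
  have hcastR : ∀ c : ℤ, algebraMap R F₁ ((c : ℤ) : R) = ((c : ℤ) : F₁) := fun c =>
    map_intCast _ _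
  refine ⟨?_, ?_⟩
  · intro c hc V hV
    obtain ⟨a, ha, rfl⟩ := Finset.mem_image.mp hc
    obtain ⟨W', ε, hε, hW'⟩ := H1S18.placeDescent K₁ L F₁ F' t ht hfin hfin' V
    have hεZ : (0 : ℤ) < ε := by exact_mod_cast hε
    rw [hcastR] at hV ⊢
    have h1 : 0 < W'.ord (algebraMap F₁ F' t - algebraMap ℤ F' a) := by
      rw [hcastF', ← map_sub, hW']
      exact mul_pos hεZ hV
    have h2 := hTA.1 a ha W' h1
    rw [hcastF', ← map_sub, hW'] at h2
    exact dvd_of_mul_left_dvd h2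
  · intro V hV
    obtain ⟨W', ε, hε, hW'⟩ := H1S18.placeDescent K₁ L F₁ F' t ht hfin hfin' V
    have hεZ : (0 : ℤ) < ε := by exact_mod_cast hε
    have h1 : W'.ord (algebraMap F₁ F' t) < 0 := by
      rw [hW']
      exact mul_neg_of_pos_of_neg hεZ hV
    have h2 := hTA.2 W' h1
    rw [hW'] at h2
    exact dvd_of_mul_left_dvd h2

/-- **abstract two-level chart normality**, charts `t` and `t⁻¹`. -/
theorem h14i2_absChartNormal (ϖ : R) (hϖ : Irreducible ϖ) (t : F₁) (ht : Transcendental K₁ t)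
    (hfin : FiniteDimensional K₁⟮t⟯ F₁)
    (hfin' : FiniteDimensional L⟮algebraMap F₁ F' t⟯ F')
    (hunr : UnrGauss R K₁ ϖ t)
    (S : Finset ℤ) (hS1 : ∀ c ∈ S, ∀ c' ∈ S, c ≠ c' → IsUnit ((c - c' : ℤ) : R))
    (hS2 : ∀ c ∈ S, c ≠ 0 → IsUnit ((c : ℤ) : R))
    (e₀ : ℕ) (he₀ : IsUnit (e₀ : R)) (hζ : ∃ ζ : R, IsPrimitiveRoot ζ e₀)
    (hUO : UnrOutside ℤ L S (algebraMap F₁ F' t)) (hTA : TameAt ℤ L S e₀ (algebraMap F₁ F' t)) :
    (∀ x : F₁, GInt R ϖ t x → IntModPi R ϖ t x → ∃ a, IsInt R t a ∧ ModPi R ϖ t x a) ∧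
    (∀ x : F₁, GInt R ϖ t⁻¹ x → IntModPi R ϖ t⁻¹ x →
      ∃ a, IsInt R t⁻¹ a ∧ ModPi R ϖ t⁻¹ x a) := by
  classical
  have hS1' : ∀ c ∈ S.image (Int.cast : ℤ → R), ∀ c' ∈ S.image (Int.cast : ℤ → R),
      c ≠ c' → IsUnit (c - c') := by
    intro c hc c' hc' hne
    obtain ⟨a, ha, rfl⟩ := Finset.mem_image.mp hc
    obtain ⟨a', ha', rfl⟩ := Finset.mem_image.mp hc'
    have hne' : a ≠ a' := fun h => hne (by rw [h])
    have := hS1 a ha a' ha' hne'
    rwa [Int.cast_sub] at this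
  have hS2' : ∀ c ∈ S.image (Int.cast : ℤ → R), c ≠ 0 → IsUnit c := by
    intro c hc hne
    obtain ⟨a, ha, rfl⟩ := Finset.mem_image.mp hc
    have hne' : a ≠ 0 := fun h => hne (by rw [h, Int.cast_zero])
    exact hS2 a ha hne'
  have hUO' := h14i2_unrOutside_desc R K₁ L F₁ F' t ht hfin hfin' S hUO
  have hTA' := h14i2_tameAt_desc R K₁ L F₁ F' t ht hfin hfin' S e₀ hTA
  have hϖp : Prime ϖ := H21S18.prime_of_irreducible hϖ
  have htR : Transcendental R t := H21S18.transcendental_base ht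
  refine ⟨fun x hx hxx => ?_, fun x hx hxx => ?_⟩
  · exact H18I2.h18i2_chartNormal R K₁ F₁ ϖ hϖ t ht hfin hunr (S.image (Int.cast : ℤ → R))
      hS1' e₀ he₀ hζ hUO' hTA'.1 x hx hxx
  · exact H18I2.h18i2_chartNormal R K₁ F₁ ϖ hϖ t⁻¹ (H21S18.transcendental_inv ht)
      (H21S18.finiteDimensional_transport (H21S18.adjoin_inv_eq (K := K₁) t).symm hfin)
      (H21S18.unrGauss_inv hϖp htR hunr) (H21S18.invBranch (S.image (Int.cast : ℤ → R)))
      (H21S18.invBranch_pairwise hS1' hS2') e₀ he₀ hζ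
      (H21S18.unrOutside_inv htR ht hS2' hUO') (H21S18.tame_inv htR hS2' hTA') x hx hxx

end Abstract

/-- **(I2)(A)**: chart normality at a tame level `M` over `K₁ ∋ ζ_{e₀}`, both charts. -/
theorem h14i2_chartNormalInst
    (M : ℕ) [NeZero M] (q : ℕ) [Fact q.Prime] (hT : TameLevel q M)
    (A : ValuationSubring (AlgebraicClosure ℚ)) (hA : A.LiesOverPrime q)
    (K₁ : IntermediateField ℚ (AlgebraicClosure ℚ)) (hK₁fin : FiniteDimensional ℚ K₁)
    (hζ : ∃ ζ : K₁, IsPrimitiveRoot ζ (branchIndex (baseKind q) M))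
    [Algebra ↥(descVal A K₁) (FK K₁ M)] [IsScalarTower ↥(descVal A K₁) K₁ (FK K₁ M)]
    (ϖ : ↥(descVal A K₁)) (hϖ : Irreducible ϖ)
    (t₀ : LaurentSeries ℚ) (ht₀ : IsBase (baseKind q) t₀)
    (t : FK K₁ M) (htcoe : (t : LaurentSeries K₁) = coeffEmb K₁ t₀) :
    (∀ x : FK K₁ M, GInt ↥(descVal A K₁) ϖ t x → IntModPi ↥(descVal A K₁) ϖ t x →
      ∃ a, IsInt ↥(descVal A K₁) t a ∧ ModPi ↥(descVal A K₁) ϖ t x a) ∧
    (∀ x : FK K₁ M, GInt ↥(descVal A K₁) ϖ t⁻¹ x → IntModPi ↥(descVal A K₁) ϖ t⁻¹ x →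
      ∃ a, IsInt ↥(descVal A K₁) t⁻¹ a ∧ ModPi ↥(descVal A K₁) ϖ t⁻¹ x a) := by
  classical
  have hq : q.Prime := Fact.out
  have hi := h7_baseKind_ok hT
  have he₀q := h7_branchIndex_coprime hq hT
  have he₀pos : 0 < branchIndex (baseKind q) M := h7_branchIndex_pos
  -- the DVR
  obtain ⟨hdvr, -, hunit⟩ := H4DVR.dvrStatement q A hA K₁ hK₁fin
  haveI := hdvr
  -- field basics
  obtain ⟨t₁, ht₁coe, ht₁tr, ht₁fin, ht₁const⟩ :=
    H9C6e.fieldBasics M (baseKind q) hi t₀ ht₀ K₁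
  obtain ⟨tL, htLcoe, -, htLfin, -⟩ :=
    H9C6e.fieldBasics M (baseKind q) hi t₀ ht₀ (AlgebraicClosure ℚ)
  have htt : t = t₁ := Subtype.ext (by rw [htcoe, ht₁coe])
  subst htt
  -- base change
  obtain ⟨φ, hφcoe, hφint⟩ := H1S18.baseChange M K₁
  letI algFF : Algebra (FK K₁ M) (FK (AlgebraicClosure ℚ) M) := φ.toAlgebra
  haveI towKF : IsScalarTower K₁ (FK K₁ M) (FK (AlgebraicClosure ℚ) M) := by
    refine IsScalarTower.of_algebraMap_eq (fun a => ?_)
    apply Subtype.ext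
    show ((algebraMap (AlgebraicClosure ℚ) (FK (AlgebraicClosure ℚ) M)
        (algebraMap K₁ (AlgebraicClosure ℚ) a) : FK (AlgebraicClosure ℚ) M) :
          LaurentSeries (AlgebraicClosure ℚ)) = ((φ (algebraMap K₁ (FK K₁ M) a) :
            FK (AlgebraicClosure ℚ) M) : LaurentSeries (AlgebraicClosure ℚ))
    rw [hφcoe]
    show algebraMap (AlgebraicClosure ℚ) (LaurentSeries (AlgebraicClosure ℚ))
        (algebraMap K₁ (AlgebraicClosure ℚ) a) =
      coeffMap (algebraMap K₁ (AlgebraicClosure ℚ)) (algebraMap K₁ (LaurentSeries K₁) a)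
    rw [algebraMap_laurentSeries_eq_single, algebraMap_laurentSeries_eq_single, coeffMap_single]
  haveI algFFalg : Algebra.IsAlgebraic (FK K₁ M) (FK (AlgebraicClosure ℚ) M) :=
    ⟨fun y => (show IsIntegral (FK K₁ M) y from hφint y).isAlgebraic⟩
  haveI : Algebra.IsAlgebraic ℚ (AlgebraicClosure ℚ) := AlgebraicClosure.isAlgebraic ℚ
  haveI : Algebra.IsAlgebraic K₁ (AlgebraicClosure ℚ) :=
    Algebra.IsAlgebraic.tower_top (K := ℚ) K₁
  -- the Gauss data
  obtain ⟨hunr, -⟩ := H28UG.gaussStatement M q hT A hA K₁ hK₁fin ϖ hϖ t₀ ht₀ t ht₁coe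
  -- the base function over `ℚ̄`
  have htL : algebraMap (FK K₁ M) (FK (AlgebraicClosure ℚ) M) t = tL := by
    apply Subtype.ext
    show ((φ t : FK (AlgebraicClosure ℚ) M) : LaurentSeries (AlgebraicClosure ℚ)) = _
    rw [hφcoe, ht₁coe, htLcoe]
    show coeffMap (algebraMap K₁ (AlgebraicClosure ℚ)) (coeffMap (algebraMap ℚ K₁) t₀) =
      coeffMap (algebraMap ℚ (AlgebraicClosure ℚ)) t₀
    rw [coeffMap_coeffMap]
    exact coeffMap_congr (Subsingleton.elim _ _) t₀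
  obtain ⟨hUO, hTA⟩ := H4BR.branchStatement M (baseKind q) hi t₀ ht₀ tL htLcoe
  rw [← htL] at hUO hTA htLfin
  -- units and roots of unity
  obtain ⟨hS1, hS2⟩ := h7_branch_units hq ↥(descVal A K₁) hunit
  have he₀u : IsUnit ((branchIndex (baseKind q) M : ℕ) : ↥(descVal A K₁)) :=
    hunit _ he₀q he₀pos
  have hζR : ∃ ζ' : ↥(descVal A K₁), IsPrimitiveRoot ζ' (branchIndex (baseKind q) M) := by
    obtain ⟨ζ, hζ'⟩ := hζ
    have hmem : (ζ : K₁) ∈ descVal A K₁ :=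
      h7_mem_of_pow_eq_one _ _ _ he₀pos hζ'.pow_eq_one
    refine ⟨⟨ζ, hmem⟩, ?_⟩
    exact IsPrimitiveRoot.of_map_of_injective (f := (descVal A K₁).subtype)
      (by exact hζ') Subtype.val_injective
  exact h14i2_absChartNormal ↥(descVal A K₁) K₁ (AlgebraicClosure ℚ) (FK K₁ M)
    (FK (AlgebraicClosure ℚ) M) ϖ hϖ t ht₁tr ht₁fin htLfin hunr
    (branchSet (baseKind q)) hS1 hS2 (branchIndex (baseKind q) M) he₀u hζR hUO hTA

end H14I2
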