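/-
helper14: item 82 (S34), slice (I2), part (A''): `H9UF.LevelNormalStatement`, i.e. normality of
the special fibre of the chart `c ∈ {t, t⁻¹}` at the tame level `M`, in the language of the
Gauss ring (`H8PB.InG`, `H8PB.InGm`).

Assembly of
* `H14I2.h14i2_chartNormalInst` (chart normality at level `M` over `K₁ ∋ ζ_{e₀}`, both charts),
* `H18GM.gaussM` (`GInt ↔ InG`, `ModPi · 0 ↔ InGm` at level `M`),
* `H21S18.gInt_inv_iff`, `H21S18.modPi_inv_iff` (chart change),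
with `K₀ = ℚ(ζ_{e₀})`, `e₀ = branchIndex (baseKind q) M`.
-/
import Mathlib
import Fermat.Agent.S34.I2InstA_helper14
import Fermat.Agent.S34.GaussM_helper18
import Fermat.Agent.S34.CompUnifDefs_helper9

set_option autoImplicit false
set_option synthInstance.maxHeartbeats 400000
set_option maxHeartbeats 1000000
set_option linter.unusedSectionVars false
set_option linter.unusedVariables false
set_option linter.style.haveILetI false

open Polynomial IntermediateField AlgebraicCurve ModularCurve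

namespace H14I2

open H7S18 H18R2

/-- a number field `K₀ ⊆ ℚ̄` such that every `K₁ ⊇ K₀` contains a primitive `n`-th root of
unity. -/
theorem h14i2_exists_K0 (n : ℕ) (hn : 0 < n) :
    ∃ K₀ : IntermediateField ℚ (AlgebraicClosure ℚ), FiniteDimensional ℚ K₀ ∧
      ∀ K₁ : IntermediateField ℚ (AlgebraicClosure ℚ), K₀ ≤ K₁ →
        ∃ ζ : K₁, IsPrimitiveRoot ζ n := by
  haveI : NeZero n := ⟨hn.ne'⟩
  haveI : NeZero ((n : ℕ) : AlgebraicClosure ℚ) := ⟨by exact_mod_cast hn.ne'⟩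
  obtain ⟨ζ, hζ⟩ := HasEnoughRootsOfUnity.exists_primitiveRoot (AlgebraicClosure ℚ) n
  haveI : Algebra.IsAlgebraic ℚ (AlgebraicClosure ℚ) := AlgebraicClosure.isAlgebraic ℚ
  have hint : IsIntegral ℚ ζ := (Algebra.IsAlgebraic.isAlgebraic ζ).isIntegral
  refine ⟨ℚ⟮ζ⟯, IntermediateField.adjoin.finiteDimensional hint, ?_⟩
  intro K₁ hle
  have hmem : ζ ∈ K₁ := hle (IntermediateField.mem_adjoin_simple_self ℚ ζ)
  refine ⟨⟨ζ, hmem⟩, ?_⟩
  exact IsPrimitiveRoot.of_map_of_injective (f := K₁.val) (by exact hζ) K₁.val.injective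

/-- **(I2)(A'')**: normality of the special fibre of the charts `t`, `t⁻¹` at the level `M`. -/
theorem h14i2_levelNormal : H9UF.LevelNormalStatement := by
  intro M _ q _ hq hqM hT A hA
  haveI : Fact q.Prime := ⟨hq⟩
  have he₀pos : 0 < branchIndex (baseKind q) M := h7_branchIndex_pos
  obtain ⟨K₀, hK₀fin, hK₀⟩ := h14i2_exists_K0 (branchIndex (baseKind q) M) he₀pos
  refine ⟨K₀, hK₀fin, ?_⟩
  intro K₁ hle hK₁fin hK₁norm _ _ ϖ hϖ t₀ ht₀ t ht c hc y n cf hcf hy hz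
  have hζ := hK₀ K₁ hle
  have hi := h7_baseKind_ok hT
  obtain ⟨hdvr, -, hunit⟩ := H4DVR.dvrStatement q A hA K₁ hK₁fin
  haveI := hdvr
  obtain ⟨t₁, ht₁coe, ht₁tr, -, -⟩ := H9C6e.fieldBasics M (baseKind q) hi t₀ ht₀ K₁
  have htt : t = t₁ := Subtype.ext (by rw [ht, ht₁coe])
  have httr : Transcendental K₁ t := by rw [htt]; exact ht₁tr
  have htR : Transcendental ↥(descVal A K₁) t := H21S18.transcendental_base httr
  have hϖp : Prime ϖ := H21S18.prime_of_irreducible hϖ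
  obtain ⟨hN1, hN2⟩ := h14i2_chartNormalInst M q hT A hA K₁ hK₁fin hζ ϖ hϖ t₀ ht₀ t ht
  have hG := fun x : FK K₁ M => H18GM.gaussM M A K₁ q hqM hA ϖ hϖ (baseKind q) t₀ ht₀ t ht x
  have hyG : GInt ↥(descVal A K₁) ϖ t y := (hG y).1.mpr hy
  have hzM : ModPi ↥(descVal A K₁) ϖ t (y ^ n + ∑ i ∈ Finset.range n, cf i * y ^ i) 0 :=
    (hG _).2.mpr hz
  rcases hc with hc | hc
  · subst hc
    obtain ⟨d, hd, z, hzG, hze⟩ := hN1 y hyG ⟨n, cf, hcf, hzM⟩
    refine ⟨d, hd, (hG (y - d)).2.mp ⟨z, hzG, ?_⟩⟩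
    rw [sub_zero]
    exact hze
  · subst hc
    have hyG' : GInt ↥(descVal A K₁) ϖ t⁻¹ y := (H21S18.gInt_inv_iff hϖp htR).mpr hyG
    have hzM' : ModPi ↥(descVal A K₁) ϖ t⁻¹ (y ^ n + ∑ i ∈ Finset.range n, cf i * y ^ i) 0 :=
      (H21S18.modPi_inv_iff hϖp htR).mpr hzM
    obtain ⟨d, hd, hmod⟩ := hN2 y hyG' ⟨n, cf, hcf, hzM'⟩
    obtain ⟨z, hzG, hze⟩ := (H21S18.modPi_inv_iff hϖp htR).mp hmod
    refine ⟨d, hd, (hG (y - d)).2.mp ⟨z, hzG, ?_⟩⟩
    rw [sub_zero]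
    exact hze

end H14I2
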