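import Fermat.Agent.S34.TransvAsm_helper12
import Fermat.Agent.S34.CompUnifDefs_helper9
import Fermat.Agent.S34.DichComp_helper22
import Fermat.Agent.S34.PairLvl_helper28

/-!
# Item 82 (S34): the residue comparison (C) = `H12TC.ResCompStatement` (helper12)

`H12TC.resComp_of : PairGaussStatement → H9UF.ResDegOneStatement → H9UF.LevelNormalStatement →
  ResCompStatement`  ("component 1 = level `M`": `M₀(M q) ⊆ M₀(M) + P₁`).

The level transfer `M → M q` is done generically (`F ≤ E` intermediate fields of `K((𝐪))` as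
variables): `H12TC.resComp_generic`.
-/

set_option autoImplicit false
set_option linter.style.longLine false
set_option linter.unusedSectionVars false
set_option linter.unusedVariables false
set_option linter.style.haveILetI false
set_option synthInstance.maxHeartbeats 400000
set_option maxHeartbeats 1000000

noncomputable section

open ModularCurve H7S18 H4S34 H26DI H28GV

namespace H12TC

/-! ### the Gauss ring: congruences -/

section GaussRing

variable {K : Type} [Field K] (R : ValuationSubring K)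

theorem inGm_add {x y : LaurentSeries K} (hx : H8PB.InGm R x) (hy : H8PB.InGm R y) :
    H8PB.InGm R (x + y) := by
  rw [H22DC.inGm_iff] at hx hy ⊢
  obtain ⟨hx1, hx2⟩ := hx
  obtain ⟨hy1, hy2⟩ := hy
  refine ⟨add_mem hx1 hy1, ?_⟩
  have : (⟨x + y, add_mem hx1 hy1⟩ : gvO R (H22DC.resR R)) = ⟨x, hx1⟩ + ⟨y, hy1⟩ := rfl
  rw [this, map_add, hx2, hy2, add_zero]

theorem inGm_neg {x : LaurentSeries K} (hx : H8PB.InGm R x) : H8PB.InGm R (-x) := by
  rw [H22DC.inGm_iff] at hx ⊢
  obtain ⟨hx1, hx2⟩ := hx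
  refine ⟨neg_mem hx1, ?_⟩
  have : (⟨-x, neg_mem hx1⟩ : gvO R (H22DC.resR R)) = -⟨x, hx1⟩ := rfl
  rw [this, map_neg, hx2, neg_zero]

/-- **congruences pass to monic relations**: if `y ≡ z` modulo `𝔪_{w₁}` and
`y^n + Σ a_i y^i = 0`, then `z^n + Σ a_i z^i ∈ 𝔪_{w₁}`. -/
theorem inGm_rel {y z : LaurentSeries K} (hy : H8PB.InG R y) (hz : H8PB.InG R z)
    (hyz : H8PB.InGm R (y - z)) (n : ℕ) (a : ℕ → LaurentSeries K)
    (ha : ∀ i, H8PB.InG R (a i))
    (hrel : y ^ n + ∑ i ∈ Finset.range n, a i * y ^ i = 0) :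
    H8PB.InGm R (z ^ n + ∑ i ∈ Finset.range n, a i * z ^ i) := by
  rw [H22DC.inG_iff] at hy hz
  have ha' : ∀ i, a i ∈ gvO R (H22DC.resR R) := fun i => (H22DC.inG_iff R _).mp (ha i)
  rw [H22DC.inGm_iff] at hyz ⊢
  obtain ⟨hyz1, hyz2⟩ := hyz
  set G := gvO R (H22DC.resR R) with hG
  set red := gvRed R (H22DC.resR R) with hred
  set Y : G := ⟨y, hy⟩ with hY
  set Z : G := ⟨z, hz⟩ with hZ
  set Aa : ℕ → G := fun i => ⟨a i, ha' i⟩ with hAa
  have hYZ : red Y = red Z := by
    have : (⟨y - z, hyz1⟩ : G) = Y - Z := rfl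
    rw [this, map_sub, sub_eq_zero] at hyz2
    exact hyz2
  have hmem : z ^ n + ∑ i ∈ Finset.range n, a i * z ^ i ∈ G := by
    have : ((Z ^ n + ∑ i ∈ Finset.range n, Aa i * Z ^ i : G) : LaurentSeries K) =
        z ^ n + ∑ i ∈ Finset.range n, a i * z ^ i := by
      push_cast
      rfl
    rw [← this]
    exact (Z ^ n + ∑ i ∈ Finset.range n, Aa i * Z ^ i).2
  refine ⟨hmem, ?_⟩
  have e1 : (⟨z ^ n + ∑ i ∈ Finset.range n, a i * z ^ i, hmem⟩ : G) =
      Z ^ n + ∑ i ∈ Finset.range n, Aa i * Z ^ i := by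
    apply Subtype.ext
    push_cast
    rfl
  have e2 : Y ^ n + ∑ i ∈ Finset.range n, Aa i * Y ^ i = 0 := by
    apply Subtype.ext
    push_cast
    exact hrel
  rw [e1, map_add, map_pow, map_sum]
  have e3 := congrArg red e2
  rw [map_add, map_pow, map_sum, map_zero] at e3
  rw [← e3, hYZ]
  congr 1
  refine Finset.sum_congr rfl (fun i _ => ?_)
  rw [map_mul, map_mul, map_pow, map_pow, hYZ]

end GaussRing

/-! ### integrality along ring homomorphisms between different rings -/

section IntegralHom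

theorem isIntegral_hom_of_forall {A₀ T E' E : Type*} [CommRing A₀] [CommRing T] [CommRing E']
    [CommRing E] [Algebra A₀ E'] [Algebra T E] (ι : E' →+* E)
    (hw : ∀ a : A₀, IsIntegral T (ι (algebraMap A₀ E' a)))
    {x : E'} (hx : IsIntegral A₀ x) : IsIntegral T (ι x) := by
  obtain ⟨p, hp, hpx⟩ := hx
  let wA : A₀ →+* ↥(integralClosure T E) :=
    (ι.comp (algebraMap A₀ E')).codRestrict (integralClosure T E) (fun a => hw a)
  have h1 : IsIntegral ↥(integralClosure T E) (ι x) := by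
    refine ⟨p.map wA, hp.map wA, ?_⟩
    rw [Polynomial.eval₂_map]
    have h2 : (algebraMap ↥(integralClosure T E) E).comp wA = ι.comp (algebraMap A₀ E') := by
      ext a; rfl
    rw [h2, ← Polynomial.hom_eval₂, hpx, map_zero]
  exact isIntegral_trans (R := T) (A := ↥(integralClosure T E)) _ h1

theorem isIntegral_hom_adjoin {R T E' E : Type*} [CommRing R] [CommRing T] [CommRing E']
    [CommRing E] [Algebra R E'] [Algebra T E] (ι : E' →+* E) (t : E')
    (hR : ∀ r : R, IsIntegral T (ι (algebraMap R E' r))) (ht : IsIntegral T (ι t))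
    (a : ↥(Algebra.adjoin R {t})) :
    IsIntegral T (ι (algebraMap ↥(Algebra.adjoin R {t}) E' a)) := by
  obtain ⟨a, ha⟩ := a
  change IsIntegral T (ι a)
  induction ha using Algebra.adjoin_induction with
  | mem x hx =>
      rw [Set.mem_singleton_iff] at hx
      rw [hx]; exact ht
  | algebraMap r => exact hR r
  | add x y _ _ hx hy => rw [map_add]; exact hx.add hy
  | mul x y _ _ hx hy => rw [map_mul]; exact hx.mul hy

end IntegralHom

/-! ### the generic residue comparison -/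

section Generic

variable {K : Type} [Field K] (R : ValuationSubring K)

/-- the coefficient series of an `R`-polynomial expression in `t`, computed in `F` -/
theorem coe_aeval (F : IntermediateField K (LaurentSeries K))
    [Algebra ↥R ↥F] [IsScalarTower ↥R K ↥F] (t : ↥F) (P : Polynomial ↥R) :
    ((Polynomial.aeval t P : ↥F) : LaurentSeries K) =
      Polynomial.eval₂ ((algebraMap K (LaurentSeries K)).comp (algebraMap ↥R K))
        (t : LaurentSeries K) P := by
  have h1 : (F.val : ↥F →+* LaurentSeries K).comp (algebraMap ↥R ↥F) =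
      (algebraMap K (LaurentSeries K)).comp (algebraMap ↥R K) := by
    ext r
    simp only [RingHom.coe_comp, Function.comp_apply]
    rw [IsScalarTower.algebraMap_apply ↥R K ↥F]
    rfl
  have h2 := Polynomial.hom_eval₂ P (algebraMap ↥R ↥F) (F.val : ↥F →+* LaurentSeries K) t
  rw [h1] at h2
  exact h2

/-- **residue comparison, generic form**: `F ≤ E` intermediate fields of `K((𝐪))`, chart `t`.
If `y ∈ E` is integral over `R[t]`, congruent modulo `𝔪_{w₁}` to some `z ∈ F` of the Gauss ring,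
and the special fibre of the chart is normal at the level `F`, then `y` is congruent modulo
`𝔪_{w₁}` to an element `y' ∈ F`, integral over `R[t]`. -/
theorem resComp_generic (F E : IntermediateField K (LaurentSeries K)) (hFE : F ≤ E)
    [Algebra ↥R ↥F] [IsScalarTower ↥R K ↥F] [Algebra ↥R ↥E] [IsScalarTower ↥R K ↥E]
    (tF : ↥F) (tE : ↥E) (htFE : (tF : LaurentSeries K) = (tE : LaurentSeries K))
    (hInG : ∀ x : ↥E, IsInt ↥R tE x → H8PB.InG R (x : LaurentSeries K))
    (hLN : ∀ (y : ↥F) (n : ℕ) (cf : ℕ → ↥F),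
      (∀ i, cf i ∈ Algebra.adjoin ↥R {tF}) →
      H8PB.InG R (y : LaurentSeries K) →
      H8PB.InGm R (((y ^ n + ∑ i ∈ Finset.range n, cf i * y ^ i : ↥F)) : LaurentSeries K) →
      ∃ d : ↥F, IsInt ↥R tF d ∧
        H8PB.InGm R (((y - d : ↥F)) : LaurentSeries K))
    (y : ↥E) (hy : IsInt ↥R tE y)
    (z : LaurentSeries K) (hzF : z ∈ F) (hzG : H8PB.InG R z)
    (hyz : H8PB.InGm R ((y : LaurentSeries K) - z)) :
    ∃ y' : ↥E, IsInt ↥R tE y' ∧ (y' : LaurentSeries K) ∈ F ∧
      H8PB.InGm R ((y : LaurentSeries K) - (y' : LaurentSeries K)) := by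
  classical
  have hyG : H8PB.InG R (y : LaurentSeries K) := hInG y hy
  obtain ⟨p, hp, hpy⟩ := hy
  -- the coefficients as polynomials in `t`
  have hex : ∀ i : ℕ, ∃ P : Polynomial ↥R,
      Polynomial.aeval tE P = ((p.coeff i : ↥(Algebra.adjoin ↥R {tE})) : ↥E) := fun i =>
    Algebra.adjoin_mem_exists_aeval ↥R tE (p.coeff i).2
  choose Pf hPf using hex
  have hcfmem : ∀ i, Polynomial.aeval tF (Pf i) ∈ Algebra.adjoin ↥R {tF} := fun i =>
    Polynomial.aeval_mem_adjoin_singleton ↥R tF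
  -- the coefficient series
  have hacoe : ∀ i, ((Polynomial.aeval tF (Pf i) : ↥F) : LaurentSeries K) =
      (((p.coeff i : ↥(Algebra.adjoin ↥R {tE})) : ↥E) : LaurentSeries K) := by
    intro i
    rw [← hPf i, coe_aeval R F tF, coe_aeval R E tE, htFE]
  have haG : ∀ i, H8PB.InG R ((Polynomial.aeval tF (Pf i) : ↥F) : LaurentSeries K) := by
    intro i
    rw [hacoe]
    apply hInG
    have : ((p.coeff i : ↥(Algebra.adjoin ↥R {tE})) : ↥E) =
        algebraMap ↥(Algebra.adjoin ↥R {tE}) ↥E (p.coeff i) := rfl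
    rw [IsInt, this]
    exact isIntegral_algebraMap
  -- the monic relation of `y`
  have hrelE : y ^ p.natDegree + ∑ i ∈ Finset.range p.natDegree,
      ((p.coeff i : ↥(Algebra.adjoin ↥R {tE})) : ↥E) * y ^ i = 0 := by
    have h1 := hpy
    rw [Polynomial.eval₂_eq_sum_range, Finset.sum_range_succ] at h1
    have h2 : p.coeff p.natDegree = 1 := hp.coeff_natDegree
    rw [h2, map_one, one_mul] at h1
    rw [add_comm]
    exact h1
  have hrel : (y : LaurentSeries K) ^ p.natDegree + ∑ i ∈ Finset.range p.natDegree,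
      ((Polynomial.aeval tF (Pf i) : ↥F) : LaurentSeries K) * (y : LaurentSeries K) ^ i = 0 := by
    have h1 : ((y ^ p.natDegree + ∑ i ∈ Finset.range p.natDegree,
        ((p.coeff i : ↥(Algebra.adjoin ↥R {tE})) : ↥E) * y ^ i : ↥E) : LaurentSeries K) =
        ((0 : ↥E) : LaurentSeries K) := congrArg Subtype.val hrelE
    push_cast at h1
    rw [← h1]
    congr 1
    refine Finset.sum_congr rfl (fun i _ => ?_)
    rw [hacoe]
  have hrelz := inGm_rel R hyG hzG hyz p.natDegree
    (fun i => ((Polynomial.aeval tF (Pf i) : ↥F) : LaurentSeries K)) haG hrel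
  -- normality at the level `F`
  have hLN' := hLN ⟨z, hzF⟩ p.natDegree (fun i => Polynomial.aeval tF (Pf i)) hcfmem hzG (by
    have : (((⟨z, hzF⟩ : ↥F) ^ p.natDegree + ∑ i ∈ Finset.range p.natDegree,
        Polynomial.aeval tF (Pf i) * (⟨z, hzF⟩ : ↥F) ^ i : ↥F) : LaurentSeries K) =
        z ^ p.natDegree + ∑ i ∈ Finset.range p.natDegree,
          ((Polynomial.aeval tF (Pf i) : ↥F) : LaurentSeries K) * z ^ i := by
      push_cast
      rfl
    rw [this]
    exact hrelz)
  obtain ⟨d, hdint, hdz⟩ := hLN'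
  -- transfer to `E`
  set ι : ↥F →+* ↥E := (IntermediateField.inclusion hFE).toRingHom with hι
  have hιR : ∀ r : ↥R, ι (algebraMap ↥R ↥F r) = algebraMap ↥R ↥E r := by
    intro r
    rw [IsScalarTower.algebraMap_apply ↥R K ↥F, IsScalarTower.algebraMap_apply ↥R K ↥E]
    exact (IntermediateField.inclusion hFE).commutes _
  have hιt : ι tF = tE := Subtype.ext htFE
  have hint_t : IsInt ↥R tE tE := by
    show IsIntegral ↥(Algebra.adjoin ↥R {tE}) (algebraMap ↥(Algebra.adjoin ↥R {tE}) ↥E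
        ⟨tE, Algebra.self_mem_adjoin_singleton _ tE⟩)
    exact isIntegral_algebraMap
  have hint_R : ∀ r : ↥R, IsInt ↥R tE (algebraMap ↥R ↥E r) := by
    intro r
    have : algebraMap ↥R ↥E r = algebraMap ↥(Algebra.adjoin ↥R {tE}) ↥E
        (algebraMap ↥R ↥(Algebra.adjoin ↥R {tE}) r) := rfl
    rw [IsInt, this]
    exact isIntegral_algebraMap
  have hdE : IsInt ↥R tE (ι d) := by
    refine isIntegral_hom_of_forall ι (isIntegral_hom_adjoin ι tF ?_ ?_) hdint
    · intro r
      rw [hιR]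
      exact hint_R r
    · rw [hιt]
      exact hint_t
  refine ⟨ι d, hdE, d.2, ?_⟩
  have e : (y : LaurentSeries K) - ((ι d : ↥E) : LaurentSeries K) =
      ((y : LaurentSeries K) - z) + (z - (d : LaurentSeries K)) := by
    have : ((ι d : ↥E) : LaurentSeries K) = (d : LaurentSeries K) := rfl
    rw [this]
    ring
  rw [e]
  exact inGm_add R hyz hdz

end Generic

/-! ### the concrete statement -/

/-- **(C)** the residue comparison `H12TC.ResCompStatement`, from (I1) `PairGaussStatement`,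
(C'') `H9UF.ResDegOneStatement` and (A'') `H9UF.LevelNormalStatement`. -/
theorem resComp_of (hPG : H8PB.PairGaussStatement) (hRD : H9UF.ResDegOneStatement)
    (hLN : H9UF.LevelNormalStatement) : ResCompStatement := by
  intro M _ q _ hq hqM hT A hA
  haveI : Fact q.Prime := ⟨hq⟩
  obtain ⟨K₀, hK₀, hLN'⟩ := hLN M q hq hqM hT A hA
  refine ⟨K₀, hK₀, ?_⟩
  intro K₁ hle hfin hnorm _ _ ϖ hϖ t₀ ht₀ t ht P₁ hc1 y
  haveI := hnorm
  -- `R` is a DVR, `t` is transcendental
  obtain ⟨hdvr, -, -⟩ := H4DVR.dvrStatement q A hA K₁ hfin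
  haveI := hdvr
  obtain ⟨t', ht'coe, ht'tr, -, -⟩ :=
    H9C6e.fieldBasics (M * q) (baseKind q) (baseKind_hi M q hT) t₀ ht₀ ↥K₁
  have htt : t' = t := Subtype.ext (ht'coe.trans ht.symm)
  rw [htt] at ht'tr
  have htR : Transcendental ↥(descVal A K₁) t := H19S18.h19_transc ↥(descVal A K₁) ↥K₁ ht'tr
  -- (I1)
  have hPGx : ∀ x : FK K₁ (M * q), IsInt ↥(descVal A K₁) t x →
      H8PB.InG (descVal A K₁) (x : LaurentSeries K₁) ∧
        H8PB.InG (descVal A K₁)
          ((H12AL.wqKHom K₁ M q hq hqM x : FK K₁ (M * q)) : LaurentSeries K₁) := fun x hx =>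
    (hPG M q hq hqM hT A hA K₁ hfin ϖ hϖ t₀ ht₀ t ht x).1.mp
      (H19S18.h19_gint_of_isInt ↥(descVal A K₁) htR hϖ hx)
  -- (C'')
  obtain ⟨z, hzF, hzG, hyz⟩ := hRD M q hq hqM hT A hA K₁ hfin (y : FK K₁ (M * q))
    (hPGx _ y.2).1 (hPGx _ y.2).2
  -- the level `M`
  obtain ⟨tM, htM, -, -, -⟩ :=
    H9C6e.fieldBasics M (baseKind q) (H28PL.baseKind_ok hT) t₀ ht₀ ↥K₁
  letI algRF : Algebra ↥(descVal A K₁) (FK K₁ M) :=
    ((algebraMap K₁ (FK K₁ M)).comp (algebraMap ↥(descVal A K₁) K₁)).toAlgebra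
  haveI towRF : IsScalarTower ↥(descVal A K₁) K₁ (FK K₁ M) :=
    IsScalarTower.of_algebraMap_eq (fun _ => rfl)
  have hle' : laurentBaseChange K₁ (modularFunctionFieldFull M) ≤
      laurentBaseChange K₁ (modularFunctionFieldFull (M * q)) :=
    H28PL.laurentBaseChange_le K₁ (full_degeneracy_le (Dvd.intro q rfl))
  obtain ⟨y', hy'int, hy'F, hyy'⟩ := resComp_generic (descVal A K₁)
    (laurentBaseChange K₁ (modularFunctionFieldFull M))
    (laurentBaseChange K₁ (modularFunctionFieldFull (M * q))) hle' tM t (htM.trans ht.symm)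
    (fun x hx => (hPGx x hx).1)
    (fun y₁ n cf hcf hyG hrel =>
      hLN' K₁ hle hfin hnorm ϖ hϖ t₀ ht₀ tM htM tM (Or.inl rfl) y₁ n cf hcf hyG hrel)
    (y : FK K₁ (M * q)) y.2 z hzF hzG hyz
  refine ⟨⟨y', hy'int⟩, hy'F, ?_⟩
  rw [hc1]
  exact hyy'

end H12TC

end
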