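import Mathlib
import Fermat.Agent.S34.PairGauss_helper8
import Fermat.Agent.S34.DichComp_helper22

/-!
# Item 82 (S34), (I2)/(I3) input (C''): residue degree one of the first component (helper22)

Level `M q`, `q ∤ M`, `R` a valuation subring of `K₁` with residue characteristic `q`,
`w = H12AL.wqKHom K₁ M q`.  Every `x ∈ F₁(M q)` with `x ∈ O_{w₁}` and `w x ∈ O_{w₁}` is congruent
modulo `𝔪_{w₁}` to an element `z ∈ O_{w₁}` of level `M`:

  `x = Σ c_p · b_a · j_q^i`  (pair basis, `c_p ∈ K₁(j) ∩ O_{w₁}`),   `z := Σ c_p · b_a · j^{q i}`,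

and `j_q ≡ j^q` modulo `𝔪_{w₁}` (Kronecker).

* `H22RC.resDeg_core`  : generic form, in the language of `H28GV.gvO`, `gvRed`;
* `H22RC.resDegOne`    : the concrete statement (`H8PB.InG`, `H8PB.InGm`, `R = descVal A K₁`).
-/

set_option autoImplicit false
set_option linter.unusedSectionVars false
set_option linter.style.longLine false
set_option linter.unusedVariables false
set_option linter.style.haveILetI false
set_option synthInstance.maxHeartbeats 400000

open ModularCurve HahnSeries H28GV H12AL RH24 H7S18 H8PB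

noncomputable section

namespace H22RC

section Core

variable (K₁ : IntermediateField ℚ Kbar) (R : ValuationSubring ↥K₁)
variable (M q : ℕ) [NeZero M] [NeZero q]
variable [CharP (IsLocalRing.ResidueField ↥R) q]

/-- **residue degree one**, generic core. -/
theorem resDeg_core (hq : q.Prime) (hqM : ¬ q ∣ M) (B : GVBasis R (IsLocalRing.residue ↥R) M)
    (x : FK ↥K₁ (M * q)) (hx : (x : LaurentSeries ↥K₁) ∈ gvO R (IsLocalRing.residue ↥R))
    (hx' : ((wqKHom K₁ M q hq hqM x : FK ↥K₁ (M * q)) : LaurentSeries ↥K₁) ∈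
      gvO R (IsLocalRing.residue ↥R)) :
    ∃ z : LaurentSeries ↥K₁, z ∈ laurentBaseChange ↥K₁ (modularFunctionFieldFull M) ∧
      ∃ hz : z ∈ gvO R (IsLocalRing.residue ↥R),
        gvRed R (IsLocalRing.residue ↥R) ⟨(x : LaurentSeries ↥K₁), hx⟩ =
          gvRed R (IsLocalRing.residue ↥R) ⟨z, hz⟩ := by
  classical
  haveI hqF : Fact q.Prime := ⟨hq⟩
  obtain ⟨c, hc, hx1, hx2⟩ := h8pb_span K₁ R M q hq hqM B x
  have hc' : ∀ p, c p ∈ IntermediateField.adjoin ↥K₁ {gvEps R (jqModC ↥R)} := by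
    intro p
    rw [h8pb_eps_jq]
    exact hc p
  have hx₁ := hx
  have hx₂ := hx'
  rw [hx1] at hx₁
  rw [hx2] at hx₂
  have hcmem := h8pb_coeff_mem R (IsLocalRing.residue ↥R) q B.y (h8pg_hpi R) B.li c hc' hx₁ hx₂
  -- elements of the Gauss ring
  set O := gvO R (IsLocalRing.residue ↥R) with hO
  let Cg : Fin (dedekindPsi M) × Fin (q + 1) → O := fun p => ⟨c p, hcmem p⟩
  let Yg : Fin (dedekindPsi M) → O := fun a => ⟨gvEps R (B.y a), gvEps_mem_gvO R _ _⟩
  let Jq : O := ⟨gvEps R (qExpand ↥R q (jqModC ↥R)), gvEps_mem_gvO R _ _⟩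
  let J : O := ⟨gvEps R (jqModC ↥R), gvEps_mem_gvO R _ _⟩
  let Xg : O := ∑ p, Cg p * (Yg p.1 * Jq ^ (p.2 : ℕ))
  let Zg : O := ∑ p, Cg p * (Yg p.1 * (J ^ q) ^ (p.2 : ℕ))
  have hXcoe : ((Xg : O) : LaurentSeries ↥K₁) = (x : LaurentSeries ↥K₁) := by
    rw [hx1]
    show O.subtype Xg = _
    rw [map_sum]
    refine Finset.sum_congr rfl (fun p _ => ?_)
    rw [map_mul, map_mul, map_pow]
    show c p * (gvEps R (B.y p.1) * gvEps R (qExpand ↥R q (jqModC ↥R)) ^ (p.2 : ℕ)) =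
      c p * gvEps R (B.y p.1 * (qExpand ↥R q (jqModC ↥R)) ^ (p.2 : ℕ))
    rw [map_mul, map_pow]
  have hJq : gvRed R (IsLocalRing.residue ↥R) Jq = gvRed R (IsLocalRing.residue ↥R) (J ^ q) := by
    rw [map_pow]
    show gvRed R (IsLocalRing.residue ↥R) ⟨gvEps R (qExpand ↥R q (jqModC ↥R)), _⟩ =
      gvRed R (IsLocalRing.residue ↥R) ⟨gvEps R (jqModC ↥R), _⟩ ^ q
    rw [gvRed_eps', gvRed_eps', h8pb_rho_qExpand, h8pb_rho_jq]
    exact h8pb_kronecker (IsLocalRing.ResidueField ↥R) q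
  have hred : gvRed R (IsLocalRing.residue ↥R) Xg = gvRed R (IsLocalRing.residue ↥R) Zg := by
    show gvRed R (IsLocalRing.residue ↥R) (∑ p, Cg p * (Yg p.1 * Jq ^ (p.2 : ℕ))) =
      gvRed R (IsLocalRing.residue ↥R) (∑ p, Cg p * (Yg p.1 * (J ^ q) ^ (p.2 : ℕ)))
    rw [map_sum, map_sum]
    refine Finset.sum_congr rfl (fun p _ => ?_)
    rw [map_mul, map_mul, map_pow, map_mul, map_mul, map_pow (gvRed R _) (J ^ q), hJq]
  have hZmem : ((Zg : O) : LaurentSeries ↥K₁) ∈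
      laurentBaseChange ↥K₁ (modularFunctionFieldFull M) := by
    show O.subtype Zg ∈ _
    rw [map_sum]
    refine sum_mem (fun p _ => ?_)
    rw [map_mul, map_mul, map_pow, map_pow]
    refine mul_mem (gv_mem_base_of_full M (h8pb_adjoin_le K₁ M (hc p)))
      (mul_mem (gv_mem_base_of_full M (B.eps_mem p.1)) (pow_mem (pow_mem ?_ _) _))
    show gvEps R (jqModC ↥R) ∈ _
    rw [h8pb_eps_jq]
    exact gv_mem_base_of_full M (jqModC_mem_full ↥K₁ M)
  refine ⟨(Zg : LaurentSeries ↥K₁), hZmem, Zg.2, ?_⟩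
  have e : (⟨(x : LaurentSeries ↥K₁), hx⟩ : O) = Xg := Subtype.ext hXcoe.symm
  rw [e, hred]

end Core

/-- **(C'') residue degree one**, concrete form: an element of `O_{w₁} ∩ O_{w₂}` of level
`M q` is congruent modulo `𝔪_{w₁}` to an element of `O_{w₁}` of level `M`. -/
theorem resDegOne (M : ℕ) [NeZero M] (q : ℕ) [NeZero q] (hq : q.Prime) (hqM : ¬ q ∣ M)
    (hT : TameLevel q M)
    (A : ValuationSubring (AlgebraicClosure ℚ)) (hA : A.LiesOverPrime q)
    (K₁ : IntermediateField ℚ (AlgebraicClosure ℚ)) (hfin : FiniteDimensional ℚ K₁)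
    (x : FK K₁ (M * q))
    (h1 : H8PB.InG (descVal A K₁) (x : LaurentSeries K₁))
    (h2 : H8PB.InG (descVal A K₁)
      ((H12AL.wqKHom K₁ M q hq hqM x : FK K₁ (M * q)) : LaurentSeries K₁)) :
    ∃ z : LaurentSeries K₁, z ∈ laurentBaseChange K₁ (modularFunctionFieldFull M) ∧
      H8PB.InG (descVal A K₁) z ∧ H8PB.InGm (descVal A K₁) ((x : LaurentSeries K₁) - z) := by
  haveI hqF : Fact q.Prime := ⟨hq⟩
  obtain ⟨hperf, hcharp⟩ := H1S18.c7Perfect q A hA K₁
  haveI := hcharp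
  have hchar : ∀ r : ℕ, r.Prime → r ∣ M →
      (r : IsLocalRing.ResidueField ↥(descVal A K₁)) ≠ 0 := by
    intro r hr hrM h0
    have h1 := (CharP.cast_eq_zero_iff (IsLocalRing.ResidueField ↥(descVal A K₁)) q r).mp h0
    have h2 : q = r := (Nat.prime_dvd_prime_iff_eq hq hr).mp h1
    exact hqM (h2 ▸ hrM)
  obtain ⟨B⟩ := gv_basis_nonempty_gen (descVal A K₁) (IsLocalRing.residue ↥(descVal A K₁)) M hchar
  have hx := (h8pg_inG_iff (descVal A K₁) _).mp h1
  have hx' := (h8pg_inG_iff (descVal A K₁) _).mp h2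
  obtain ⟨z, hzM, hz, hred⟩ := resDeg_core K₁ (descVal A K₁) M q hq hqM B x hx hx'
  refine ⟨z, hzM, (h8pg_inG_iff (descVal A K₁) _).mpr hz, ?_⟩
  rw [H22DC.inGm_iff]
  refine ⟨sub_mem hx hz, ?_⟩
  have e : (⟨(x : LaurentSeries K₁) - z, sub_mem hx hz⟩ :
      gvO (descVal A K₁) (IsLocalRing.residue ↥(descVal A K₁))) =
      ⟨(x : LaurentSeries K₁), hx⟩ - ⟨z, hz⟩ := rfl
  rw [e, map_sub, hred, sub_self]

end H22RC

end
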