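import Mathlib
import Fermat.Agent.S34.ResComp_helper22
import Fermat.Agent.S34.CompUnifDefs_helper9

/-!
# Item 82 (S34), (I2) input (C''): `H9UF.ResDegOneStatement` (helper22)

`H22RC.resDegOneStatement : H9UF.ResDegOneStatement`, unconditional
(= `H22RC.resDegOne` of `S34/ResComp_helper22.lean`).
-/

set_option autoImplicit false

namespace H22RC

/-- **(C'')**: residue degree one of `w₁` over the level `M`. -/
theorem resDegOneStatement : H9UF.ResDegOneStatement := by
  intro M _ q _ hq hqM hT A hA K₁ hfin x h1 h2
  exact resDegOne M q hq hqM hT A hA K₁ hfin x h1 h2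

end H22RC
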