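import Mathlib
import Fermat.Agent.S34.Chain3_helper4
import Fermat.Agent.S34.CompUnif2_helper26
import Fermat.Agent.S34.Cusp0_helper7
import Fermat.Agent.S34.CuspInf_helper7
import Fermat.Agent.S34.ResCompAsm_helper12
import Fermat.Agent.S34.ResDegOne_helper22
import Fermat.Agent.S34.I2LevelNormal_helper14

/-!
# Item 82 (S34), architect file (helper4): the chain, fourth part

All leaves except `CompUnif1` are proved: `CompUnif2` (helper26 + helper24), `CompCusp` and
`CompCusp0` (helper7, helper27), `ResComp` (helper12 + helper22 + helper14).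
S34 ⟸ `H26DI.CompUnif1Statement`.
-/

set_option autoImplicit false
set_option linter.style.haveILetI false

noncomputable section

open H7S18

namespace H4S34

/-- (C) residue comparison, unconditional. -/
theorem resCompStatement : H12TC.ResCompStatement :=
  H12TC.resComp_of H8PB.h8pg_pairGauss H22RC.resDegOneStatement H14I2.h14i2_levelNormal

variable {p : ℕ} {N : ℕ} [NeZero N] {S : Finset ℕ}
  {𝒪 : Type} [CommRing 𝒪] [IsDomain 𝒪] [IsDiscreteValuationRing 𝒪]
  [IsAdicComplete (IsLocalRing.maximalIdeal 𝒪) 𝒪]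
  {θ : CuspForm.heckeAlgebra N 2 (↑S : Set ℕ) →+* IsLocalRing.ResidueField 𝒪}
  {T : Type} [CommRing T] [IsLocalRing T] [IsNoetherianRing T]
  [IsAdicComplete (IsLocalRing.maximalIdeal T) T] [Algebra 𝒪 T] [IsLocalHom (algebraMap 𝒪 T)]
  [Module.Finite 𝒪 T] [Module.Free 𝒪 T]

/-- **S34** from the last leaf `CompUnif1`. -/
theorem s34_of_compUnif1 (cu1 : H26DI.CompUnif1Statement)
    (hp : p.Prime) (hp𝒪 : (p : 𝒪) ∈ IsLocalRing.maximalIdeal 𝒪) (hpS : p ∈ S)
    (hNS : ∀ q : ℕ, q.Prime → q ∣ N → q ∈ S)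
    (H : CuspForm.HeckeGaloisRepDatum N (↑S : Set ℕ) 𝒪 θ T)
    (q : ℕ) (hq : q.Prime) (hqp : q ≠ p) (hqN : q ∣ N) (hq2 : ¬ q ^ 2 ∣ N) :
    H.ρ.IsUnipotentOnInertiaAt q :=
  s34_of_leaves cu1 (H26WT.compUnif2_of_unif1 H8PB.h8pg_pairGauss cu1) H7C0.compCuspStatement
    H7C0.compCusp0Statement resCompStatement hp hp𝒪 hpS hNS H q hq hqp hqN hq2

end H4S34

end
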