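/-
helper9: item 82 (S34), slice (DICH)/(I2): the chart ring `M₀ = H4S34.Chart R c` over a DVR `R`
satisfies the hypotheses of `H9UF.unif_of_normal`.

`R` a DVR with uniformizer `ϖ`, `c` transcendental, `A = R[c] ≅ R[X]`, `P` a prime of `M₀` with
`P ∩ A = ϖ A`.  Then `A / ϖ` is a principal ideal domain (not a field), so the primes strictly
above `P` are maximal and `P` itself is not maximal; with the normality `hnorm` of `M₀ / P`
every maximal ideal `𝔫 ⊇ P` has a uniformizer modulo `P`.
-/
import Mathlib
import Fermat.Agent.S34.UnifGen_helper9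
import Fermat.Agent.S34.LocBridge_helper22
import Fermat.Agent.S18.C2G12_helper16
import Fermat.Agent.S18.TBase_helper19

set_option autoImplicit false
set_option synthInstance.maxHeartbeats 400000
set_option maxHeartbeats 1000000
set_option linter.unusedSectionVars false
set_option linter.unusedVariables false
set_option linter.style.haveILetI false

noncomputable section

open Polynomial IntermediateField H4S34 H26DI

namespace H9UF

section inst

variable (R : Type) [CommRing R] [IsDomain R] [IsDiscreteValuationRing R]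
  (K : Type) [Field K] [CharZero K] [Algebra R K] [IsFractionRing R K]
  {F : Type} [Field F] [Algebra K F] [Algebra R F] [IsScalarTower R K F]

/-- `ϖ R[c]` is not a maximal ideal of `R[c]`. -/
theorem span_not_isMaximal {c : F} (hc : Transcendental R c) {ϖ : R} (hϖ : Irreducible ϖ) :
    ¬ (Ideal.span {algebraMap R (Algebra.adjoin R {c}) ϖ}).IsMaximal := by
  intro hmax
  set e : R[X] ≃ₐ[R] Algebra.adjoin R {c} := Polynomial.algEquivOfTranscendental R c hc with he
  have heC : ∀ r : R, e (C r) = algebraMap R (Algebra.adjoin R {c}) r := fun r => by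
    rw [← Polynomial.algebraMap_eq, AlgEquiv.commutes]
  -- the element `X`
  by_cases hX : e X ∈ Ideal.span {algebraMap R (Algebra.adjoin R {c}) ϖ}
  · obtain ⟨s, hs⟩ := Ideal.mem_span_singleton'.mp hX
    obtain ⟨S, rfl⟩ := e.surjective s
    rw [← heC, ← map_mul] at hs
    have h1 := e.injective hs
    have h2 := congrArg (fun p : R[X] => p.coeff 1) h1
    simp only [coeff_mul_C, coeff_X_one] at h2
    exact hϖ.not_isUnit (IsUnit.of_mul_eq_one _ (by rw [mul_comm]; exact h2))
  · obtain ⟨y, i, hi, hyi⟩ := hmax.exists_inv hX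
    obtain ⟨s, hs⟩ := Ideal.mem_span_singleton'.mp hi
    obtain ⟨S, rfl⟩ := e.surjective s
    obtain ⟨Y, rfl⟩ := e.surjective y
    rw [← hs, ← heC, ← map_mul, ← map_mul, ← map_add] at hyi
    have h1 : Y * X + S * C ϖ = 1 := e.injective (hyi.trans (map_one e).symm)
    have h2 := congrArg (fun p : R[X] => p.coeff 0) h1
    simp only [coeff_add, mul_coeff_zero, coeff_X_zero, mul_zero, zero_add,
      coeff_one_zero, coeff_C_zero] at h2
    exact hϖ.not_isUnit (IsUnit.of_mul_eq_one _ (by rw [mul_comm]; exact h2))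

/-- **uniformizers on a component of the chart `c`**: if `P` is a prime of `M₀` with
`P ∩ R[c] = ϖ R[c]` and `M₀ / P` is normal (element form), then every maximal ideal `𝔫 ⊇ P`
has a uniformizer modulo `P`. -/
theorem unif_chart {c : F} (hc : Transcendental K c) [FiniteDimensional K⟮c⟯ F]
    {ϖ : R} (hϖ : Irreducible ϖ)
    (P : Ideal (Chart R c)) (hP : P.IsPrime)
    (hϖP : algebraMap (Algebra.adjoin R {c}) (Chart R c)
      (algebraMap R (Algebra.adjoin R {c}) ϖ) ∈ P)
    (hPA : ∀ s : Algebra.adjoin R {c}, algebraMap (Algebra.adjoin R {c}) (Chart R c) s ∈ P →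
      algebraMap R (Algebra.adjoin R {c}) ϖ ∣ s)
    (hnorm : ∀ (a b : Chart R c) (p : (Algebra.adjoin R {c})[X]), b ∉ P → p.Monic →
      homRel p a b ∈ P → ∃ d : Chart R c, a - d * b ∈ P)
    (𝔫 : Ideal (Chart R c)) (h𝔫 : 𝔫.IsMaximal) (hle : P ≤ 𝔫) :
    ∃ x : Chart R c, UnifAt P 𝔫 x := by
  haveI := hP
  haveI := h𝔫
  have hcR : Transcendental R c := H19S18.h19_transc R K hc
  haveI : IsNoetherianRing (Chart R c) := H22BR.chart_noeth R K hc
  have hprime : Prime (algebraMap R (Algebra.adjoin R {c}) ϖ) := H19S18.h19_T_prime R hcR hϖ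
  haveI hIprime : (Ideal.span {algebraMap R (Algebra.adjoin R {c}) ϖ}).IsPrime :=
    (Ideal.span_singleton_prime hprime.ne_zero).mpr hprime
  haveI : IsDomain ((Algebra.adjoin R {c}) ⧸
      Ideal.span {algebraMap R (Algebra.adjoin R {c}) ϖ}) := Ideal.Quotient.isDomain _
  haveI : IsPrincipalIdealRing ((Algebra.adjoin R {c}) ⧸
      Ideal.span {algebraMap R (Algebra.adjoin R {c}) ϖ}) :=
    H16C2G.h16_adjoin_quot_pid c hcR hϖ
  have hdim := dimLEOne_of_integral (A := Algebra.adjoin R {c})
    (algebraMap R (Algebra.adjoin R {c}) ϖ) P hϖP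
  have hne : P ≠ 𝔫 := by
    intro hPn
    have hPmax : P.IsMaximal := hPn ▸ h𝔫
    have hcomap : (P.comap (algebraMap (Algebra.adjoin R {c}) (Chart R c))).IsMaximal :=
      Ideal.isMaximal_comap_of_isIntegral_of_isMaximal P
    have heq : P.comap (algebraMap (Algebra.adjoin R {c}) (Chart R c)) =
        Ideal.span {algebraMap R (Algebra.adjoin R {c}) ϖ} := by
      apply le_antisymm
      · intro s hs
        exact Ideal.mem_span_singleton.mpr (hPA s hs)
      · rw [Ideal.span_singleton_le_iff_mem]
        exact hϖP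
    rw [heq] at hcomap
    exact span_not_isMaximal R hcR hϖ hcomap
  exact unif_of_normal (A := Algebra.adjoin R {c}) P hdim hnorm 𝔫 hle hne

end inst

end H9UF

end
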