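/-
Item 82 (S34), slice (I2) concrete (twin of helper18), helper9: generic algebra
**(B) "normal special fibre ⟹ Dedekind ⟹ uniformizers"** and **(D) transfer**.  Mathlib only
(+ `H26DI.UnifAt`, `H26DI.unifAt_of_dedekind`).

`A → M₀` integral, `M₀` noetherian, `P` a prime of `M₀`:
* `dimLEOne_of_integral` : if `A / ϖ` is a domain of dimension `≤ 1` and `ϖ ∈ P`, every prime
  `𝔮 ⊋ P` of `M₀` is maximal;
* `dedekind_of_normal`   : if moreover `M₀ / P` is integrally closed in ELEMENT form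
  (`a/b` integral over `A` modulo `P` ⟹ `a ≡ d b mod P`), then `M₀ / P` is a Dedekind domain;
* `unif_of_normal`       : hence a uniformizer `UnifAt P 𝔫 x` at every maximal `𝔫 ⊋ P`;
* `unifAt_transfer`      : transfer of `UnifAt` along `ι : M' → M` with `M = ι M' + P`.
-/
import Mathlib
import Fermat.Agent.S34.DichAbs_helper26

set_option autoImplicit false
set_option linter.style.haveILetI false
set_option linter.unusedSectionVars false
set_option linter.unusedVariables false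

namespace H9UF

open Polynomial H26DI

section hom

variable {A M₀ : Type*} [CommRing A] [CommRing M₀] [Algebra A M₀]

/-- the homogenized value `b^n · p(a/b)`, `n = deg p` -/
noncomputable def homRel (p : A[X]) (a b : M₀) : M₀ :=
  ∑ i ∈ Finset.range (p.natDegree + 1),
    algebraMap A M₀ (p.coeff i) * a ^ i * b ^ (p.natDegree - i)

end hom

section dim

variable {A M₀ : Type*} [CommRing A] [CommRing M₀] [Algebra A M₀] [Algebra.IsIntegral A M₀]

/-- primes strictly above `P ∋ ϖ` are maximal, if `A / ϖ` is a domain of dimension `≤ 1` -/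
theorem dimLEOne_of_integral (ϖ : A) [IsDomain (A ⧸ Ideal.span {ϖ})]
    [Ring.DimensionLEOne (A ⧸ Ideal.span {ϖ})]
    (P : Ideal M₀) [hP : P.IsPrime] (hϖP : algebraMap A M₀ ϖ ∈ P)
    (𝔮 : Ideal M₀) (h𝔮 : 𝔮.IsPrime) (hlt : P < 𝔮) : 𝔮.IsMaximal := by
  haveI := h𝔮
  obtain ⟨x, hx𝔮, hxP⟩ := Set.exists_of_ssubset hlt
  have hlt' : P.comap (algebraMap A M₀) < 𝔮.comap (algebraMap A M₀) :=
    Ideal.comap_lt_comap_of_integral_mem_sdiff hlt.le ⟨hx𝔮, hxP⟩
      (Algebra.IsIntegral.isIntegral x)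
  set 𝔭' := P.comap (algebraMap A M₀) with h𝔭'
  set 𝔮' := 𝔮.comap (algebraMap A M₀) with h𝔮'
  have hϖ𝔭 : Ideal.span {ϖ} ≤ 𝔭' := by
    rw [Ideal.span_singleton_le_iff_mem]; exact hϖP
  have hϖ𝔮 : Ideal.span {ϖ} ≤ 𝔮' := hϖ𝔭.trans hlt'.le
  haveI h𝔮'p : 𝔮'.IsPrime := Ideal.comap_isPrime _ _
  -- the image of `𝔮'` in `A / ϖ`
  set mk := Ideal.Quotient.mk (Ideal.span {ϖ}) with hmk
  have hsurj : Function.Surjective mk := Ideal.Quotient.mk_surjective
  have hker : RingHom.ker mk = Ideal.span {ϖ} := Ideal.mk_ker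
  have hcm : ∀ I : Ideal A, Ideal.span {ϖ} ≤ I → (I.map mk).comap mk = I := by
    intro I hI
    rw [Ideal.comap_map_of_surjective mk hsurj, ← RingHom.ker_eq_comap_bot, hker]
    exact sup_eq_left.2 hI
  have hqbp : (𝔮'.map mk).IsPrime :=
    Ideal.map_isPrime_of_surjective hsurj (by rw [hker]; exact hϖ𝔮)
  have hqbne : 𝔮'.map mk ≠ ⊥ := by
    intro h0
    have h1 : (𝔮'.map mk).comap mk = (⊥ : Ideal (A ⧸ Ideal.span {ϖ})).comap mk := by rw [h0]
    rw [hcm 𝔮' hϖ𝔮, ← RingHom.ker_eq_comap_bot, hker] at h1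
    rw [h1] at hlt'
    exact (not_lt_of_ge hϖ𝔭) hlt'
  have hqbmax : (𝔮'.map mk).IsMaximal := Ring.DimensionLEOne.maximalOfPrime hqbne hqbp
  have hq'max : 𝔮'.IsMaximal := by
    have := Ideal.comap_isMaximal_of_surjective mk hsurj (K := 𝔮'.map mk)
    rwa [hcm 𝔮' hϖ𝔮] at this
  exact Ideal.isMaximal_of_isIntegral_of_isMaximal_comap 𝔮 hq'max

end dim

section dedekind

variable {A M₀ : Type*} [CommRing A] [CommRing M₀] [Algebra A M₀] [Algebra.IsIntegral A M₀]
  [IsNoetherianRing M₀]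

/-- **(B)**: a noetherian one-dimensional quotient which is integrally closed in element form is
a Dedekind domain. -/
theorem dedekind_of_normal (P : Ideal M₀) [hP : P.IsPrime]
    (hdim : ∀ 𝔮 : Ideal M₀, 𝔮.IsPrime → P < 𝔮 → 𝔮.IsMaximal)
    (hnorm : ∀ (a b : M₀) (p : A[X]), b ∉ P → p.Monic → homRel p a b ∈ P →
      ∃ d : M₀, a - d * b ∈ P) :
    IsDedekindDomain (M₀ ⧸ P) := by
  haveI : IsDomain (M₀ ⧸ P) := Ideal.Quotient.isDomain P
  set mk := Ideal.Quotient.mk P with hmk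
  have hsurj : Function.Surjective mk := Ideal.Quotient.mk_surjective
  haveI hdimI : Ring.DimensionLEOne (M₀ ⧸ P) := by
    refine ⟨fun {p} hp0 hpp => ?_⟩
    haveI := hpp
    have hq : (p.comap mk).IsPrime := Ideal.comap_isPrime _ _
    have hle : P ≤ p.comap mk := by
      intro x hx
      rw [Ideal.mem_comap, Ideal.Quotient.eq_zero_iff_mem.2 hx]
      exact p.zero_mem
    have hne : P ≠ p.comap mk := by
      intro h
      apply hp0
      rw [← Ideal.map_comap_of_surjective mk hsurj p, ← h]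
      exact Ideal.map_quotient_self P
    haveI hmax : (p.comap mk).IsMaximal := hdim _ hq (lt_of_le_of_ne hle hne)
    have := Ideal.IsMaximal.map_of_surjective_of_ker_le (f := mk) hsurj (m := p.comap mk)
      (by rw [Ideal.mk_ker]; exact hle)
    rwa [Ideal.map_comap_of_surjective mk hsurj p] at this
  haveI hic : IsIntegrallyClosed (M₀ ⧸ P) := by
    rw [isIntegrallyClosed_iff (FractionRing (M₀ ⧸ P))]
    intro x hx
    haveI : Algebra.IsIntegral A (M₀ ⧸ P) :=
      Algebra.IsIntegral.of_surjective (Ideal.Quotient.mkₐ A P) Ideal.Quotient.mk_surjective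
    have hxA : IsIntegral A x := isIntegral_trans (A := M₀ ⧸ P) x hx
    obtain ⟨p, hpm, hpx⟩ := hxA
    obtain ⟨abar, bbar, hbbar, hxab⟩ := IsFractionRing.div_surjective (A := M₀ ⧸ P) x
    obtain ⟨a, rfl⟩ := hsurj abar
    obtain ⟨b, rfl⟩ := hsurj bbar
    have hb0 : mk b ≠ 0 := nonZeroDivisors.ne_zero hbbar
    have hbP : b ∉ P := fun h => hb0 (Ideal.Quotient.eq_zero_iff_mem.2 h)
    set ι := algebraMap (M₀ ⧸ P) (FractionRing (M₀ ⧸ P)) with hι
    have hιinj : Function.Injective ι := IsFractionRing.injective _ _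
    have hιb : ι (mk b) ≠ 0 := fun h => hb0 (hιinj (by rw [h, map_zero]))
    -- the homogenized relation
    have hrel : homRel p a b ∈ P := by
      rw [← Ideal.Quotient.eq_zero_iff_mem]
      apply hιinj
      rw [map_zero, homRel, map_sum, map_sum]
      have e : ∀ i ∈ Finset.range (p.natDegree + 1),
          ι (mk (algebraMap A M₀ (p.coeff i) * a ^ i * b ^ (p.natDegree - i)))
            = ι (mk b) ^ p.natDegree *
              (algebraMap A (FractionRing (M₀ ⧸ P)) (p.coeff i) * x ^ i) := by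
        intro i hi
        have hi' : i ≤ p.natDegree := Nat.lt_succ_iff.1 (Finset.mem_range.1 hi)
        have e1 : ι (mk (algebraMap A M₀ (p.coeff i)))
            = algebraMap A (FractionRing (M₀ ⧸ P)) (p.coeff i) := by
          rw [IsScalarTower.algebraMap_apply A (M₀ ⧸ P) (FractionRing (M₀ ⧸ P)),
            IsScalarTower.algebraMap_apply A M₀ (M₀ ⧸ P)]
          rfl
        have e2 : ι (mk b) ^ p.natDegree = ι (mk b) ^ i * ι (mk b) ^ (p.natDegree - i) := by
          rw [← pow_add]; congr 1; omega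
        rw [map_mul, map_mul, map_mul, map_mul, map_pow, map_pow, map_pow, map_pow, e1, e2,
          ← hxab, div_pow]
        field_simp
      rw [Finset.sum_congr rfl e, ← Finset.mul_sum]
      have : ∑ i ∈ Finset.range (p.natDegree + 1),
          algebraMap A (FractionRing (M₀ ⧸ P)) (p.coeff i) * x ^ i = 0 := by
        rw [← Polynomial.eval₂_eq_sum_range]; exact hpx
      rw [this, mul_zero]
    obtain ⟨d, hd⟩ := hnorm a b p hbP hpm hrel
    refine ⟨mk d, ?_⟩
    rw [← hxab]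
    have : mk a = mk d * mk b := by
      rw [← map_mul, Ideal.Quotient.eq]; exact hd
    rw [this, map_mul]
    field_simp
  exact { }

/-- **(B)**: uniformizers at the closed points of a normal one-dimensional special fibre -/
theorem unif_of_normal (P : Ideal M₀) [hP : P.IsPrime]
    (hdim : ∀ 𝔮 : Ideal M₀, 𝔮.IsPrime → P < 𝔮 → 𝔮.IsMaximal)
    (hnorm : ∀ (a b : M₀) (p : A[X]), b ∉ P → p.Monic → homRel p a b ∈ P →
      ∃ d : M₀, a - d * b ∈ P)
    (𝔫 : Ideal M₀) [h𝔫 : 𝔫.IsMaximal] (hle : P ≤ 𝔫) (hne : P ≠ 𝔫) :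
    ∃ x : M₀, UnifAt P 𝔫 x := by
  haveI := dedekind_of_normal (A := A) P hdim hnorm
  exact unifAt_of_dedekind P 𝔫 hle hne

end dedekind

section transfer

variable {M' M : Type*} [CommRing M'] [CommRing M]

/-- **(D)**: transfer of a uniformizer along `ι : M' → M` when `M = ι M' + P` -/
theorem unifAt_transfer (ι : M' →+* M) (P 𝔫 : Ideal M) (hP𝔫 : P ≤ 𝔫)
    (hres : ∀ z : M, ∃ a : M', z - ι a ∈ P) {x' : M'}
    (h : UnifAt (P.comap ι) (𝔫.comap ι) x') : UnifAt P 𝔫 (ι x') := by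
  obtain ⟨h1, h2, h3⟩ := h
  refine ⟨h1, h2, fun z hz => ?_⟩
  obtain ⟨a, ha⟩ := hres z
  have ha𝔫 : ι a ∈ 𝔫 := by
    have : ι a = z - (z - ι a) := by ring
    rw [this]; exact 𝔫.sub_mem hz (hP𝔫 ha)
  obtain ⟨u', hu', c', hc'⟩ := h3 a ha𝔫
  refine ⟨ι u', hu', ι c', ?_⟩
  have e : ι u' * z - ι c' * ι x' = ι u' * (z - ι a) + ι (u' * a - c' * x') := by
    rw [map_sub, map_mul, map_mul]; ring
  rw [e]
  exact P.add_mem (P.mul_mem_left _ ha) hc'

end transfer

end H9UF
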