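/-
helper9: item 82 (S34), slice (DICH)/(I2): the PURE ALGEBRA core of `H26DI.CompUnif1Statement`.

`Λ` a field, `G ⊆ Λ` a subring with a reduction map `red : G → κ` to a field, units of `G`
detected by `red` (a valuation ring with its residue map).  `ι : M₀ → G` (the chart ring, with
`P = ker (red ∘ ι)`), `FM ⊆ Λ` a subfield (the functions of the lower level).

* `H9UF.hnorm_abstract`: if (residue degree one) every element of `M₀` is congruent modulo
  `ker red` to an element of `FM ∩ G`, and (normality at the lower level) every `y ∈ FM ∩ G`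
  which is a root modulo `ker red` of a monic polynomial over `A` is congruent to an element of
  `M₀`, then `M₀ / P` is integrally closed in the element form consumed by
  `H9UF.unif_of_normal`.
* `H9UF.not_isMaximal_of_comap`: `P` is not maximal when `P ∩ A = ϖ A`, `A ≅ R[X]`.
-/
import Mathlib
import Fermat.Agent.S34.UnifGen_helper9

set_option autoImplicit false

open Polynomial

namespace H9UF

section core

variable {Λ κ : Type*} [Field Λ] [Field κ] (G : Subring Λ) (red : G →+* κ)
variable {A M₀ : Type*} [CommRing A] [CommRing M₀] [Algebra A M₀]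

/-- reduction of the homogenized relation -/
theorem red_homRel (ι : M₀ →+* G) (p : A[X]) (a b : M₀) :
    red (ι (homRel p a b)) =
      ∑ i ∈ Finset.range (p.natDegree + 1),
        red (ι (algebraMap A M₀ (p.coeff i))) * red (ι a) ^ i * red (ι b) ^ (p.natDegree - i) := by
  rw [homRel, map_sum, map_sum]
  refine Finset.sum_congr rfl (fun i _ => ?_)
  rw [map_mul, map_mul, map_pow, map_pow, map_mul, map_mul, map_pow, map_pow]

/-- **the core**: residue degree one + normality at the lower level ⟹ normality of `M₀ / P`. -/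
theorem hnorm_abstract (hinv : ∀ x : G, red x ≠ 0 → ((x : Λ))⁻¹ ∈ G)
    (ι : M₀ →+* G) (P : Ideal M₀) (hP : ∀ y, y ∈ P ↔ red (ι y) = 0)
    (FM : Subfield Λ)
    (hres : ∀ y : M₀, ∃ z : G, (z : Λ) ∈ FM ∧ red z = red (ι y))
    (hLN : ∀ y : G, (y : Λ) ∈ FM → ∀ p : A[X], p.Monic →
      (∑ i ∈ Finset.range (p.natDegree + 1),
        red (ι (algebraMap A M₀ (p.coeff i))) * red y ^ i) = 0 →
      ∃ d : M₀, red (ι d) = red y)
    (a b : M₀) (p : A[X]) (hb : b ∉ P) (hp : p.Monic) (hH : homRel p a b ∈ P) :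
    ∃ d : M₀, a - d * b ∈ P := by
  obtain ⟨za, hzaF, hza⟩ := hres a
  obtain ⟨zb, hzbF, hzb⟩ := hres b
  have hb0 : red (ι b) ≠ 0 := fun h => hb ((hP b).mpr h)
  have hzb0 : red zb ≠ 0 := by rw [hzb]; exact hb0
  have hzbne : (zb : Λ) ≠ 0 := by
    intro h
    apply hzb0
    have : zb = 0 := Subtype.ext h
    rw [this, map_zero]
  have hyG : (za : Λ) * ((zb : Λ))⁻¹ ∈ G := G.mul_mem za.2 (hinv zb hzb0)
  set y : G := ⟨(za : Λ) * ((zb : Λ))⁻¹, hyG⟩ with hy
  have hyF : (y : Λ) ∈ FM := FM.mul_mem hzaF (FM.inv_mem hzbF)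
  have hyzb : y * zb = za := by
    apply Subtype.ext
    show (za : Λ) * ((zb : Λ))⁻¹ * (zb : Λ) = za
    rw [mul_assoc, inv_mul_cancel₀ hzbne, mul_one]
  have hred : red y * red (ι b) = red (ι a) := by
    rw [← hzb, ← map_mul, hyzb, hza]
  have hsum : (∑ i ∈ Finset.range (p.natDegree + 1),
      red (ι (algebraMap A M₀ (p.coeff i))) * red y ^ i) = 0 := by
    have h1 : (∑ i ∈ Finset.range (p.natDegree + 1),
        red (ι (algebraMap A M₀ (p.coeff i))) * red y ^ i) * red (ι b) ^ p.natDegree =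
        red (ι (homRel p a b)) := by
      rw [red_homRel, Finset.sum_mul]
      refine Finset.sum_congr rfl (fun i hi => ?_)
      have hi' : i ≤ p.natDegree := Nat.lt_succ_iff.mp (Finset.mem_range.mp hi)
      rw [← hred, mul_pow]
      have e : red (ι b) ^ p.natDegree = red (ι b) ^ i * red (ι b) ^ (p.natDegree - i) := by
        rw [← pow_add, Nat.add_sub_cancel' hi']
      rw [e]
      ring
    rw [(hP _).mp hH] at h1
    rcases mul_eq_zero.mp h1 with h | h
    · exact h
    · exact absurd h (pow_ne_zero _ hb0)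
  obtain ⟨d, hd⟩ := hLN y hyF p hp hsum
  refine ⟨d, (hP _).mpr ?_⟩
  rw [map_sub, map_sub, map_mul, map_mul, hd, hred, sub_self]

/-- the case `b = 1`: every element of `M₀` integral over `A` is congruent to ... (residue form):
for `a : M₀` a root of the monic `p`, there is `d` with `a - d ∈ P` and `d` produced by `hLN`. -/
theorem res_abstract
    (ι : M₀ →+* G) (P : Ideal M₀) (hP : ∀ y, y ∈ P ↔ red (ι y) = 0)
    (FM : Subfield Λ) (Q : M₀ → Prop)
    (hres : ∀ y : M₀, ∃ z : G, (z : Λ) ∈ FM ∧ red z = red (ι y))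
    (hLN : ∀ y : G, (y : Λ) ∈ FM → ∀ p : A[X], p.Monic →
      (∑ i ∈ Finset.range (p.natDegree + 1),
        red (ι (algebraMap A M₀ (p.coeff i))) * red y ^ i) = 0 →
      ∃ d : M₀, Q d ∧ red (ι d) = red y)
    (a : M₀) (p : A[X]) (hp : p.Monic) (hH : Polynomial.aeval a p = 0) :
    ∃ d : M₀, Q d ∧ a - d ∈ P := by
  obtain ⟨za, hzaF, hza⟩ := hres a
  have hsum : (∑ i ∈ Finset.range (p.natDegree + 1),
      red (ι (algebraMap A M₀ (p.coeff i))) * red za ^ i) = 0 := by
    have h1 : (∑ i ∈ Finset.range (p.natDegree + 1),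
        red (ι (algebraMap A M₀ (p.coeff i))) * red za ^ i) = red (ι (Polynomial.aeval a p)) := by
      rw [Polynomial.aeval_eq_sum_range, map_sum, map_sum]
      refine Finset.sum_congr rfl (fun i _ => ?_)
      rw [Algebra.smul_def, map_mul, map_mul, map_pow, map_pow, hza]
    rw [h1, hH, map_zero, map_zero]
  obtain ⟨d, hQ, hd⟩ := hLN za hzaF p hp hsum
  refine ⟨d, hQ, (hP _).mpr ?_⟩
  rw [map_sub, map_sub, hd, hza, sub_self]

end core

end H9UF
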