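/-
helper9: item 82 (S34), slice (DICH)/(I2): LEVEL TRANSFER for `H26DI.CompUnif1Statement`.

Generic setting (no unfolding between two levels): `K` a field, `R ⊆ K` a valuation subring
(a DVR), `F ≤ E` intermediate fields of `K((𝐪)) / K` (the function fields of level `M` and
`M q`), a chart parameter `c ∈ F`.  The normality statement (A'') at the level `F`
(`H9UF.LevelNormalStatement`) gives the hypothesis `hLN` of `H9UF.hnorm_abstract` for the chart
`M₀ = H4S34.Chart R c` of `E`.
-/
import Mathlib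
import Fermat.Agent.S34.CompUnifCore_helper9
import Fermat.Agent.S34.CompUnifDefs_helper9
import Fermat.Agent.S34.DichComp_helper22
import Fermat.Agent.S18.C5Base_helper19

set_option autoImplicit false
set_option synthInstance.maxHeartbeats 400000
set_option maxHeartbeats 1000000
set_option linter.unusedSectionVars false
set_option linter.unusedVariables false
set_option linter.style.haveILetI false

noncomputable section

open Polynomial ModularCurve H7S18 H4S34 H28GV

namespace H9UF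

section transfer

variable {K : Type} [Field K] (R : ValuationSubring K) [IsDiscreteValuationRing ↥R]
  (F E : IntermediateField K (LaurentSeries K)) (h : F ≤ E)
  [Algebra ↥R ↥F] [IsScalarTower ↥R K ↥F] [Algebra ↥R ↥E] [IsScalarTower ↥R K ↥E]
  (c : ↥E) (hcF : (c : LaurentSeries K) ∈ F)

/-- the reduction of an element of `𝔪_{w₁}` -/
theorem gvRed_eq_zero_of_inGm {x : LaurentSeries K} (hx : H8PB.InGm R x)
    (hG : x ∈ gvO R (H22DC.resR R)) : gvRed R (H22DC.resR R) ⟨x, hG⟩ = 0 := by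
  obtain ⟨h1, h2⟩ := (H22DC.inGm_iff R x).mp hx
  exact h2

theorem inGm_of_gvRed_eq_zero (x : ↥(gvO R (H22DC.resR R)))
    (hx : gvRed R (H22DC.resR R) x = 0) : H8PB.InGm R (x : LaurentSeries K) :=
  (H22DC.inGm_iff R _).mpr ⟨x.2, hx⟩

include h in
/-- **level transfer**: (A'') at the level `F` gives the normality input of
`H9UF.hnorm_abstract` for the chart of `E`; the element produced is of level `F`. -/
theorem level_transfer
    (hmem : ∀ y : Chart ↥R c,
      H8PB.InG R (((RingHom.id ↥E) (y : ↥E) : ↥E) : LaurentSeries K))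
    (hLN : ∀ (y : ↥F) (n : ℕ) (cf : ℕ → ↥F),
      (∀ i, cf i ∈ Algebra.adjoin ↥R {(⟨(c : LaurentSeries K), hcF⟩ : ↥F)}) →
      H8PB.InG R (y : LaurentSeries K) →
      H8PB.InGm R (((y ^ n + ∑ i ∈ Finset.range n, cf i * y ^ i : ↥F)) : LaurentSeries K) →
      ∃ d : ↥F, IsInt ↥R (⟨(c : LaurentSeries K), hcF⟩ : ↥F) d ∧
        H8PB.InGm R (((y - d : ↥F)) : LaurentSeries K))
    (y : ↥(gvO R (H22DC.resR R))) (hy : (y : LaurentSeries K) ∈ F)
    (p : (Algebra.adjoin ↥R {c})[X]) (hp : p.Monic)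
    (hsum : (∑ i ∈ Finset.range (p.natDegree + 1),
      gvRed R (H22DC.resR R) (H22DC.toGv R c (RingHom.id ↥E) hmem
        (algebraMap (Algebra.adjoin ↥R {c}) (Chart ↥R c)
          (p.coeff i))) * gvRed R (H22DC.resR R) y ^ i) = 0) :
    ∃ d : Chart ↥R c, (((d : ↥E)) : LaurentSeries K) ∈ F ∧
      gvRed R (H22DC.resR R) (H22DC.toGv R c (RingHom.id ↥E) hmem d) =
        gvRed R (H22DC.resR R) y := by
  classical
  letI algFE : Algebra ↥F ↥E := (IntermediateField.inclusion h).toRingHom.toAlgebra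
  haveI towFE : IsScalarTower ↥R ↥F ↥E := IsScalarTower.of_algebraMap_eq (fun r => by
    rw [IsScalarTower.algebraMap_apply ↥R K ↥E, IsScalarTower.algebraMap_apply ↥R K ↥F]
    exact ((IntermediateField.inclusion h).commutes _).symm)
  have hcoe : ∀ z : ↥F, ((algebraMap ↥F ↥E z : ↥E) : LaurentSeries K) = (z : LaurentSeries K) :=
    fun z => rfl
  have hcFE : algebraMap ↥F ↥E (⟨(c : LaurentSeries K), hcF⟩ : ↥F) = c := Subtype.ext rfl
  -- the coefficients of `p` come from the level `F`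
  have hcf : ∀ i, ∃ cf ∈ Algebra.adjoin ↥R {(⟨(c : LaurentSeries K), hcF⟩ : ↥F)},
      algebraMap ↥F ↥E cf = ((p.coeff i : Algebra.adjoin ↥R {c}) : ↥E) := by
    intro i
    have h1 : ((p.coeff i : Algebra.adjoin ↥R {c}) : ↥E) ∈
        Algebra.adjoin ↥R {algebraMap ↥F ↥E (⟨(c : LaurentSeries K), hcF⟩ : ↥F)} := by
      rw [hcFE]
      exact (p.coeff i).2
    exact H19S18.h19_exists_of_mem_TE ↥R (⟨(c : LaurentSeries K), hcF⟩ : ↥F) h1
  choose cf hcfmem hcfeq using hcf
  set n := p.natDegree with hn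
  set yF : ↥F := ⟨(y : LaurentSeries K), hy⟩ with hyF
  -- the value of the polynomial at `y`, in the Gauss ring
  set g : ↥(gvO R (H22DC.resR R)) := ∑ i ∈ Finset.range (n + 1),
      H22DC.toGv R c (RingHom.id ↥E) hmem
        (algebraMap (Algebra.adjoin ↥R {c}) (Chart ↥R c)
          (p.coeff i)) * y ^ i with hg
  have hgred : gvRed R (H22DC.resR R) g = 0 := by
    rw [hg, map_sum, ← hsum]
    refine Finset.sum_congr rfl (fun i _ => ?_)
    rw [map_mul, map_pow]
  have hgcoe : (g : LaurentSeries K) =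
      (((yF ^ n + ∑ i ∈ Finset.range n, cf i * yF ^ i : ↥F)) : LaurentSeries K) := by
    have h1 : (g : LaurentSeries K) = ∑ i ∈ Finset.range (n + 1),
        (((p.coeff i : Algebra.adjoin ↥R {c}) : ↥E) : LaurentSeries K) *
          (y : LaurentSeries K) ^ i := by
      rw [hg]
      push_cast
      rfl
    rw [h1, Finset.sum_range_succ]
    have h2 : p.coeff n = 1 := hp.coeff_natDegree
    rw [h2]
    push_cast
    rw [add_comm]
    congr 1
    · simp [hyF]
    · refine Finset.sum_congr rfl (fun i _ => ?_)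
      rw [← hcfeq i, hcoe]
  have hyG : H8PB.InG R ((yF : ↥F) : LaurentSeries K) := (H22DC.inG_iff R _).mpr y.2
  have hgm : H8PB.InGm R
      (((yF ^ n + ∑ i ∈ Finset.range n, cf i * yF ^ i : ↥F)) : LaurentSeries K) := by
    rw [← hgcoe]
    exact inGm_of_gvRed_eq_zero R g hgred
  obtain ⟨d, hdint, hdm⟩ := hLN yF n cf hcfmem hyG hgm
  have hdE : IsInt ↥R c (algebraMap ↥F ↥E d) := by
    have := H19S18.h19_isInt_map (E := ↥E) ↥R (⟨(c : LaurentSeries K), hcF⟩ : ↥F) hdint
    rwa [hcFE] at this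
  refine ⟨⟨algebraMap ↥F ↥E d, hdE⟩, d.2, ?_⟩
  obtain ⟨hG1, hG2⟩ := (H22DC.inGm_iff R _).mp hdm
  have e : (⟨(((yF - d : ↥F)) : LaurentSeries K), hG1⟩ : ↥(gvO R (H22DC.resR R))) =
      y - H22DC.toGv R c (RingHom.id ↥E) hmem ⟨algebraMap ↥F ↥E d, hdE⟩ := by
    apply Subtype.ext
    push_cast
    rfl
  rw [e, map_sub, sub_eq_zero] at hG2
  exact hG2.symm

end transfer

end H9UF

end
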