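/-
helper9: item 82 (S34), slice (DICH)/(I2), first component: auxiliary facts on the chart
`M₀ = H4S34.Chart R c` (`c = t` or `t⁻¹`) at the level `M q`, from `H8PB.PairGaussStatement`:

* `H9UF.chart_inG`  : the elements of `M₀` lie in both Gauss rings;
* `H9UF.comp_inter` : `P₁ ∩ R[c] ⊆ ϖ R[c]`.
-/
import Mathlib
import Fermat.Agent.S34.CompUnifTr_helper9
import Fermat.Agent.S34.CompUnifInst_helper9
import Fermat.Agent.S34.DichAsm_helper22
import Fermat.Agent.S34.PairLvl_helper28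
import Fermat.Agent.S18.Connected_helper21

set_option autoImplicit false
set_option synthInstance.maxHeartbeats 400000
set_option maxHeartbeats 4000000
set_option linter.unusedSectionVars false
set_option linter.unusedVariables false
set_option linter.style.haveILetI false

noncomputable section

open Polynomial IntermediateField ModularCurve H7S18 H4S34 H26DI H28GV

namespace H9UF

section Concrete

variable (hPG : H8PB.PairGaussStatement) (hRD : ResDegOneStatement)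
  (M : ℕ) [NeZero M] (q : ℕ) [NeZero q] (hq : q.Prime) (hqM : ¬ q ∣ M) (hT : TameLevel q M)
  (A : ValuationSubring (AlgebraicClosure ℚ)) (hA : A.LiesOverPrime q)
  (K₁ : IntermediateField ℚ (AlgebraicClosure ℚ)) (hfin : FiniteDimensional ℚ K₁)
  [Algebra ↥(descVal A K₁) (FK K₁ (M * q))]
  [IsScalarTower ↥(descVal A K₁) K₁ (FK K₁ (M * q))]
  (ϖ : ↥(descVal A K₁)) (hϖ : Irreducible ϖ)
  (t₀ : LaurentSeries ℚ) (ht₀ : IsBase (baseKind q) t₀)
  (t : FK K₁ (M * q)) (ht : (t : LaurentSeries K₁) = coeffEmb K₁ t₀)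
  (c : FK K₁ (M * q)) (hc : c = t ∨ c = t⁻¹)

include hPG hq hqM hT hA hfin hϖ ht₀ ht hc in
/-- chart elements lie in both Gauss rings -/
theorem chart_inG (y : Chart ↥(descVal A K₁) c) :
    H8PB.InG (descVal A K₁) (((y : FK K₁ (M * q))) : LaurentSeries K₁) ∧
    H8PB.InG (descVal A K₁)
      ((H12AL.wqKHom K₁ M q hq hqM (y : FK K₁ (M * q)) : FK K₁ (M * q)) : LaurentSeries K₁) := by
  haveI : Fact q.Prime := ⟨hq⟩
  obtain ⟨hdvr, -, -⟩ := H4DVR.dvrStatement q A hA K₁ hfin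
  haveI := hdvr
  have htr : Transcendental K₁ t := H22DA.base_transcendental M q hT K₁ t₀ ht₀ t ht
  have htrR : Transcendental ↥(descVal A K₁) t := H19S18.h19_transc ↥(descVal A K₁) K₁ htr
  have htr' : Transcendental K₁ t⁻¹ := H19S18.h19_transc_inv K₁ htr
  have htrR' : Transcendental ↥(descVal A K₁) t⁻¹ :=
    H19S18.h19_transc ↥(descVal A K₁) K₁ htr'
  have hPG' := hPG M q hq hqM hT A hA K₁ hfin ϖ hϖ t₀ ht₀ t ht
  have hint : GInt ↥(descVal A K₁) ϖ t (y : FK K₁ (M * q)) := by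
    rcases hc with rfl | rfl
    · exact H19S18.h19_gint_of_isInt ↥(descVal A K₁) htrR hϖ y.2
    · exact H19S18.h19_gint_of_isInt_inv ↥(descVal A K₁) htrR htrR' hϖ y.2
  exact (hPG' y).1.mp hint

include hPG hq hqM hT hA hfin hϖ ht₀ ht hc in
/-- `P₁ ∩ R[c] ⊆ ϖ R[c]` -/
theorem comp_inter (P₁ : Ideal (Chart ↥(descVal A K₁) c)) (hP₁ : IsComp1 A K₁ c P₁)
    (s : Algebra.adjoin ↥(descVal A K₁) {c})
    (hs : algebraMap (Algebra.adjoin ↥(descVal A K₁) {c}) (Chart ↥(descVal A K₁) c) s ∈ P₁) :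
    algebraMap ↥(descVal A K₁) (Algebra.adjoin ↥(descVal A K₁) {c}) ϖ ∣ s := by
  haveI : Fact q.Prime := ⟨hq⟩
  obtain ⟨hdvr, -, -⟩ := H4DVR.dvrStatement q A hA K₁ hfin
  haveI := hdvr
  have htr : Transcendental K₁ t := H22DA.base_transcendental M q hT K₁ t₀ ht₀ t ht
  have htrR : Transcendental ↥(descVal A K₁) t := H19S18.h19_transc ↥(descVal A K₁) K₁ htr
  have htr' : Transcendental K₁ t⁻¹ := H19S18.h19_transc_inv K₁ htr
  have htrR' : Transcendental ↥(descVal A K₁) t⁻¹ :=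
    H19S18.h19_transc ↥(descVal A K₁) K₁ htr'
  have hPG' := hPG M q hq hqM hT A hA K₁ hfin ϖ hϖ t₀ ht₀ t ht
  by_contra hnd
  have hGU : IsGaussUnit ↥(descVal A K₁) ϖ c (s : FK K₁ (M * q)) :=
    (H19S18.h19_gaussUnit_iff ↥(descVal A K₁) ϖ c s).mpr hnd
  have hs0 : (s : FK K₁ (M * q)) ≠ 0 := by
    intro h0
    apply hnd
    have : s = 0 := Subtype.ext h0
    rw [this]
    exact dvd_zero _
  have hGc : GInt ↥(descVal A K₁) ϖ c ((s : FK K₁ (M * q)))⁻¹ := by
    refine ⟨(s : FK K₁ (M * q)), hGU, ?_⟩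
    rw [mul_inv_cancel₀ hs0]
    exact isIntegral_one
  have hGt : GInt ↥(descVal A K₁) ϖ t ((s : FK K₁ (M * q)))⁻¹ := by
    rcases hc with rfl | rfl
    · exact hGc
    · exact (H19S18.h19_gint_inv_iff ↥(descVal A K₁) htrR htrR' hϖ _).mp hGc
  have hInv := ((hPG' _).1.mp hGt).1
  have hsm : H8PB.InGm (descVal A K₁) (((s : FK K₁ (M * q))) : LaurentSeries K₁) :=
    (hP₁ _).mp hs
  obtain ⟨h1, h2⟩ := (H22DC.inGm_iff (descVal A K₁) _).mp hsm
  have h3 := (H22DC.inG_iff (descVal A K₁) _).mp hInv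
  have h4 : (⟨_, h1⟩ : ↥(gvO (descVal A K₁) (H22DC.resR (descVal A K₁)))) * ⟨_, h3⟩ = 1 := by
    apply Subtype.ext
    show (((s : FK K₁ (M * q))) : LaurentSeries K₁) *
      ((((s : FK K₁ (M * q)))⁻¹ : FK K₁ (M * q)) : LaurentSeries K₁) = 1
    rw [← MulMemClass.coe_mul, mul_inv_cancel₀ hs0]
    rfl
  have h5 := congrArg (gvRed (descVal A K₁) (H22DC.resR (descVal A K₁))) h4
  rw [map_mul, h2, zero_mul, map_one] at h5
  exact zero_ne_one h5

end Concrete

end H9UF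

end
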