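/-
helper9: item 82 (S34), slice (DICH)/(I2), first component: the GENERIC form of
`H26DI.CompUnif1Statement` and of the residue comparison.

`K` a field of characteristic zero, `R ⊆ K` a valuation subring which is a DVR, `F ≤ E`
intermediate fields of `K((𝐪)) / K` (levels `M` and `M q`), `c ∈ E` a chart parameter lying in
`F`, `M₀ = H4S34.Chart R c ⊆ E`, `P₁ = {y ∈ M₀ | InGm y}`.  Hypotheses:
* `hmem` : `M₀` lies in the Gauss ring;
* `hRD`  : residue degree one (C'');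
* `hLN`  : normality at the level `F` (A'').
-/
import Mathlib
import Fermat.Agent.S34.CompUnifTr_helper9
import Fermat.Agent.S34.CompUnifInst_helper9

set_option autoImplicit false
set_option synthInstance.maxHeartbeats 400000
set_option maxHeartbeats 4000000
set_option linter.unusedSectionVars false
set_option linter.unusedVariables false
set_option linter.style.haveILetI false

noncomputable section

open Polynomial IntermediateField ModularCurve H7S18 H4S34 H26DI H28GV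

namespace H9UF

section generic

variable {K : Type} [Field K] [CharZero K] (R : ValuationSubring K)
  [IsDiscreteValuationRing ↥R]
  (F E : IntermediateField K (LaurentSeries K)) (h : F ≤ E)
  [Algebra ↥R ↥F] [IsScalarTower ↥R K ↥F] [Algebra ↥R ↥E] [IsScalarTower ↥R K ↥E]
  (c : ↥E) (hcF : (c : LaurentSeries K) ∈ F)

include h in
/-- the data of `hnorm_abstract` / `res_abstract`, generic form -/
theorem chart_data_gen
    (hmem : ∀ y : Chart ↥R c,
      H8PB.InG R (((RingHom.id ↥E) (y : ↥E) : ↥E) : LaurentSeries K))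
    (hRD : ∀ y : Chart ↥R c, ∃ z : LaurentSeries K, z ∈ F ∧ H8PB.InG R z ∧
      H8PB.InGm R ((((y : ↥E)) : LaurentSeries K) - z))
    (hLN : ∀ (y : ↥F) (n : ℕ) (cf : ℕ → ↥F),
      (∀ i, cf i ∈ Algebra.adjoin ↥R {(⟨(c : LaurentSeries K), hcF⟩ : ↥F)}) →
      H8PB.InG R (y : LaurentSeries K) →
      H8PB.InGm R (((y ^ n + ∑ i ∈ Finset.range n, cf i * y ^ i : ↥F)) : LaurentSeries K) →
      ∃ d : ↥F, IsInt ↥R (⟨(c : LaurentSeries K), hcF⟩ : ↥F) d ∧
        H8PB.InGm R (((y - d : ↥F)) : LaurentSeries K))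
    (P₁ : Ideal (Chart ↥R c))
    (hP₁ : ∀ y : Chart ↥R c, y ∈ P₁ ↔ H8PB.InGm R (((y : ↥E)) : LaurentSeries K)) :
    P₁.IsPrime ∧
    (∀ (a b : Chart ↥R c) (p : (Algebra.adjoin ↥R {c})[X]), b ∉ P₁ → p.Monic →
      homRel p a b ∈ P₁ → ∃ d : Chart ↥R c, a - d * b ∈ P₁) ∧
    (∀ y : Chart ↥R c, ∃ d : Chart ↥R c, (((d : ↥E)) : LaurentSeries K) ∈ F ∧ y - d ∈ P₁) := by
  set ι := H22DC.toGv R c (RingHom.id ↥E) hmem with hι
  have hP : ∀ y, y ∈ P₁ ↔ gvRed R (H22DC.resR R) (ι y) = 0 := by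
    intro y
    rw [hP₁ y, H22DC.inGm_iff]
    constructor
    · rintro ⟨h1, h0⟩
      exact h0
    · intro h0
      exact ⟨(H22DC.inG_iff _ _).mp (hmem y), h0⟩
  have hres : ∀ y : Chart ↥R c, ∃ z : ↥(gvO R (H22DC.resR R)),
      (z : LaurentSeries K) ∈ F.toSubfield ∧
        gvRed R (H22DC.resR R) z = gvRed R (H22DC.resR R) (ι y) := by
    intro y
    obtain ⟨z, hzM, hzG, hzm⟩ := hRD y
    refine ⟨⟨z, (H22DC.inG_iff _ z).mp hzG⟩, hzM, ?_⟩
    obtain ⟨h1, h2⟩ := (H22DC.inGm_iff _ _).mp hzm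
    have e : (⟨_, h1⟩ : ↥(gvO R (H22DC.resR R))) =
        ι y - ⟨z, (H22DC.inG_iff _ z).mp hzG⟩ := Subtype.ext rfl
    rw [e, map_sub, sub_eq_zero] at h2
    exact h2.symm
  have hLNc := level_transfer R F E h c hcF hmem hLN
  refine ⟨?_, ?_, ?_⟩
  · have e : P₁ = RingHom.ker ((gvRed R (H22DC.resR R)).comp ι) := by
      ext y
      rw [RingHom.mem_ker, hP]
      rfl
    rw [e]
    exact RingHom.ker_isPrime _
  · have key := @hnorm_abstract (LaurentSeries K) _ _ _ (gvO R (H22DC.resR R))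
      (gvRed R (H22DC.resR R)) (Algebra.adjoin ↥R {c}) (Chart ↥R c) _ _ _
      (fun x hx => gv_inv_mem R (H22DC.resR R) x hx) ι P₁ hP F.toSubfield
    have key2 := key hres
    intro a b p hb hp hH
    refine key2 ?_ a b p hb hp hH
    intro y hy p hp hsum
    obtain ⟨d, -, hd⟩ := hLNc y hy p hp hsum
    exact ⟨d, hd⟩
  · have key := @res_abstract (LaurentSeries K) _ _ _ (gvO R (H22DC.resR R))
      (gvRed R (H22DC.resR R)) (Algebra.adjoin ↥R {c}) (Chart ↥R c) _ _ _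
      ι P₁ hP F.toSubfield
      (fun d : Chart ↥R c => (((d : ↥E)) : LaurentSeries K) ∈ F)
    have key2 := key hres
    have key3 := key2 hLNc
    intro y
    obtain ⟨p, hp, hpy⟩ := integralClosure.isIntegral (R := Algebra.adjoin ↥R {c}) y
    have hpy' : Polynomial.aeval y p = 0 := hpy
    exact key3 y p hp hpy'

include h in
/-- **(I2), first component**, generic form. -/
theorem unif_gen
    (hmem : ∀ y : Chart ↥R c,
      H8PB.InG R (((RingHom.id ↥E) (y : ↥E) : ↥E) : LaurentSeries K))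
    (hRD : ∀ y : Chart ↥R c, ∃ z : LaurentSeries K, z ∈ F ∧ H8PB.InG R z ∧
      H8PB.InGm R ((((y : ↥E)) : LaurentSeries K) - z))
    (hLN : ∀ (y : ↥F) (n : ℕ) (cf : ℕ → ↥F),
      (∀ i, cf i ∈ Algebra.adjoin ↥R {(⟨(c : LaurentSeries K), hcF⟩ : ↥F)}) →
      H8PB.InG R (y : LaurentSeries K) →
      H8PB.InGm R (((y ^ n + ∑ i ∈ Finset.range n, cf i * y ^ i : ↥F)) : LaurentSeries K) →
      ∃ d : ↥F, IsInt ↥R (⟨(c : LaurentSeries K), hcF⟩ : ↥F) d ∧
        H8PB.InGm R (((y - d : ↥F)) : LaurentSeries K))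
    (hcK : Transcendental K c) (hcfin : FiniteDimensional K⟮c⟯ ↥E)
    (ϖ : ↥R) (hϖ : Irreducible ϖ)
    (P₁ : Ideal (Chart ↥R c))
    (hP₁ : ∀ y : Chart ↥R c, y ∈ P₁ ↔ H8PB.InGm R (((y : ↥E)) : LaurentSeries K))
    (hPA : ∀ s : Algebra.adjoin ↥R {c},
      algebraMap (Algebra.adjoin ↥R {c}) (Chart ↥R c) s ∈ P₁ →
      algebraMap ↥R (Algebra.adjoin ↥R {c}) ϖ ∣ s)
    (𝔫 : Ideal (Chart ↥R c)) (h𝔫 : 𝔫.IsMaximal) (hle : P₁ ≤ 𝔫) :
    ∃ x, UnifAt P₁ 𝔫 x := by
  obtain ⟨hprime, hnorm, -⟩ := chart_data_gen R F E h c hcF hmem hRD hLN P₁ hP₁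
  haveI := hcfin
  have hϖP : algebraMap (Algebra.adjoin ↥R {c}) (Chart ↥R c)
      (algebraMap ↥R (Algebra.adjoin ↥R {c}) ϖ) ∈ P₁ := by
    rw [hP₁]
    exact H22DC.inGm_algebraMap R hϖ.not_isUnit
  exact unif_chart ↥R K hcK hϖ P₁ hprime hϖP hPA hnorm 𝔫 h𝔫 hle

end generic

end H9UF

end
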