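/-
helper9: item 82 (S34), slice (DICH)/(I2), first component:

  `H9UF.compUnif1 : H8PB.PairGaussStatement → H9UF.ResDegOneStatement →
      H9UF.LevelNormalStatement → H26DI.CompUnif1Statement`

(the residue comparison `H12TC.ResCompStatement` is `H9UF.chart_data_gen`, third clause; it is
landed as `H12TC.resCompStatement` by helper12).

Proof: `M₀ / P₁` is a noetherian domain of dimension one (`H9UF.unif_chart`), normal by
`H9UF.hnorm_abstract` (residue degree one (C'') + normality at the level `M` (A''), transferred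
by `H9UF.level_transfer`), hence a Dedekind domain (`H9UF.unif_of_normal`); the generic form is
`H9UF.unif_gen` / `H9UF.chart_data_gen`.
-/
import Mathlib
import Fermat.Agent.S34.CompUnifAux_helper9
import Fermat.Agent.S34.CompUnifGen_helper9

set_option autoImplicit false
set_option synthInstance.maxHeartbeats 400000
set_option maxHeartbeats 4000000
set_option linter.unusedSectionVars false
set_option linter.unusedVariables false
set_option linter.style.haveILetI false

noncomputable section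

open Polynomial IntermediateField ModularCurve H7S18 H4S34 H26DI H28GV

namespace H9UF

section Concrete

variable (M : ℕ) [NeZero M] (q : ℕ) [NeZero q] (hT : TameLevel q M)
  (K₁ : IntermediateField ℚ (AlgebraicClosure ℚ))
  (t₀ : LaurentSeries ℚ) (ht₀ : IsBase (baseKind q) t₀)
  (t : FK K₁ (M * q)) (ht : (t : LaurentSeries K₁) = coeffEmb K₁ t₀)
  (c : FK K₁ (M * q)) (hc : c = t ∨ c = t⁻¹)

include hT ht₀ ht hc in
/-- the chart parameter is of level `M` -/
theorem level_basics :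
    ∃ tM : FK K₁ M, (tM : LaurentSeries K₁) = coeffEmb K₁ t₀ ∧
      laurentBaseChange K₁ (modularFunctionFieldFull M) ≤
        laurentBaseChange K₁ (modularFunctionFieldFull (M * q)) ∧
      ∃ hcF : (c : LaurentSeries K₁) ∈ laurentBaseChange K₁ (modularFunctionFieldFull M),
        (⟨(c : LaurentSeries K₁), hcF⟩ : FK K₁ M) = tM ∨
          (⟨(c : LaurentSeries K₁), hcF⟩ : FK K₁ M) = tM⁻¹ := by
  obtain ⟨tM, htM, htrK, -, -⟩ :=
    H9C6e.fieldBasics M (baseKind q) (H28PL.baseKind_ok hT) t₀ ht₀ K₁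
  have hle : laurentBaseChange K₁ (modularFunctionFieldFull M) ≤
      laurentBaseChange K₁ (modularFunctionFieldFull (M * q)) :=
    H28PL.laurentBaseChange_le K₁ (full_degeneracy_le (Dvd.intro q rfl))
  have htF : (t : LaurentSeries K₁) ∈ laurentBaseChange K₁ (modularFunctionFieldFull M) := by
    rw [ht, ← htM]
    exact tM.2
  have hcF : (c : LaurentSeries K₁) ∈ laurentBaseChange K₁ (modularFunctionFieldFull M) := by
    rcases hc with h | h
    · rw [h]
      exact htF
    · rw [h]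
      show ((t : LaurentSeries K₁))⁻¹ ∈ _
      exact inv_mem htF
  refine ⟨tM, htM, hle, hcF, ?_⟩
  rcases hc with h | h
  · left
    apply Subtype.ext
    show (c : LaurentSeries K₁) = (tM : LaurentSeries K₁)
    rw [h, ht, htM]
  · right
    apply Subtype.ext
    show (c : LaurentSeries K₁) = ((tM : LaurentSeries K₁))⁻¹
    rw [h, htM, ← ht]
    rfl

include hT ht₀ ht hc in
/-- the chart parameter is transcendental, and `F₁` is finite over `K₁(c)` -/
theorem chart_basics :
    Transcendental K₁ c ∧ FiniteDimensional K₁⟮c⟯ (FK K₁ (M * q)) := by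
  have hi : baseKind q = 1 ∨ (baseKind q = 2 ∧ 2 ∣ M * q) ∨ (baseKind q = 3 ∧ 3 ∣ M * q) := by
    rcases H28PL.baseKind_ok hT with h | h | h
    · exact Or.inl h
    · exact Or.inr (Or.inl ⟨h.1, Dvd.dvd.mul_right h.2 q⟩)
    · exact Or.inr (Or.inr ⟨h.1, Dvd.dvd.mul_right h.2 q⟩)
  obtain ⟨t₁, ht₁coe, ht₁tr, ht₁fin, -⟩ := H9C6e.fieldBasics (M * q) (baseKind q) hi t₀ ht₀ K₁
  have htt : t₁ = t := Subtype.ext (ht₁coe.trans ht.symm)
  rw [htt] at ht₁tr ht₁fin
  have htr' : Transcendental K₁ t⁻¹ := H19S18.h19_transc_inv K₁ ht₁tr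
  have hfin' : FiniteDimensional K₁⟮t⁻¹⟯ (FK K₁ (M * q)) :=
    H21S18.finiteDimensional_transport (H21S18.adjoin_inv_eq (K := K₁) t).symm ht₁fin
  rcases hc with h | h
  · rw [h]; exact ⟨ht₁tr, ht₁fin⟩
  · rw [h]; exact ⟨htr', hfin'⟩

end Concrete

/-- **(I2), first component**: `H26DI.CompUnif1Statement` from the pair statement (I1), the
residue degree one (C'') and the normality at the level `M` (A''). -/
theorem compUnif1 (hPG : H8PB.PairGaussStatement) (hRD : ResDegOneStatement)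
    (hLN : LevelNormalStatement) : H26DI.CompUnif1Statement := by
  intro M _ q _ hq hqM hT A hA
  obtain ⟨K₀, hK₀, hLN'⟩ := hLN M q hq hqM hT A hA
  refine ⟨K₀, hK₀, ?_⟩
  intro K₁ hK hfin hnormal _ _ ϖ hϖ t₀ ht₀ t ht c P₁ hP₁ 𝔫 h𝔫 hdich hle
  have hc : c = t ∨ c = t⁻¹ := by
    rcases hdich with h | ⟨h, -⟩
    · exact Or.inl h
    · exact Or.inr h
  haveI : Fact q.Prime := ⟨hq⟩
  obtain ⟨hdvr, -, -⟩ := H4DVR.dvrStatement q A hA K₁ hfin
  haveI := hdvr
  obtain ⟨hcK, hcfin⟩ := chart_basics M q hT K₁ t₀ ht₀ t ht c hc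
  obtain ⟨tM, htM, hFE, hcF, hcM⟩ := level_basics M q hT K₁ t₀ ht₀ t ht c hc
  letI algRF : Algebra ↥(descVal A K₁) (FK K₁ M) :=
    ((algebraMap K₁ (FK K₁ M)).comp (algebraMap ↥(descVal A K₁) K₁)).toAlgebra
  haveI towRF : IsScalarTower ↥(descVal A K₁) K₁ (FK K₁ M) :=
    IsScalarTower.of_algebraMap_eq (fun _ => rfl)
  have hin := chart_inG hPG M q hq hqM hT A hA K₁ hfin ϖ hϖ t₀ ht₀ t ht c hc
  refine unif_gen (descVal A K₁) (laurentBaseChange K₁ (modularFunctionFieldFull M))
    (laurentBaseChange K₁ (modularFunctionFieldFull (M * q))) hFE c hcF ?_ ?_ ?_ hcK hcfin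
    ϖ hϖ P₁ hP₁ ?_ 𝔫 h𝔫.1 hle
  · exact fun y => (hin y).1
  · intro y
    exact hRD M q hq hqM hT A hA K₁ hfin (y : FK K₁ (M * q)) (hin y).1 (hin y).2
  · exact fun y n cf hcf hy hrel =>
      hLN' K₁ hK hfin hnormal ϖ hϖ t₀ ht₀ tM htM ⟨_, hcF⟩ hcM y n cf hcf hy hrel
  · exact comp_inter hPG M q hq hqM hT A hA K₁ hfin ϖ hϖ t₀ ht₀ t ht c hc P₁ hP₁

end H9UF

end
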