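import Mathlib
import Fermat.Agent.S34.PairGauss_helper8

/-!
# Item 82 (S34), (I2)/(I3) input (C''): residue degree one (helper8)

`h8pb_resDegOne`: for `x ∈ F₁(M q)` with `x, w x ∈ O_{w₁}` there is a series `z` of level `M`
in the Gauss ring with `x − z ∈ 𝔪_{w₁}`  (pair basis `x = Σ c_p ε(b_a) j_q^i`,
`z = Σ c_p ε(b_a) j^{q i}`, Kronecker `j_q ≡ j^q`).
-/

set_option autoImplicit false
set_option linter.unusedSectionVars false
set_option linter.style.longLine false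
set_option linter.unusedVariables false
set_option linter.style.haveILetI false
set_option synthInstance.maxHeartbeats 400000

open ModularCurve HahnSeries H28GV H12AL RH24 H7S18

noncomputable section

namespace H8PB

theorem h8pg_inGm_of_red {L : Type} [Field L] (A : ValuationSubring L) (x : LaurentSeries L)
    (h : x ∈ gvO A (IsLocalRing.residue A))
    (h0 : gvRed A (IsLocalRing.residue A) ⟨x, h⟩ = 0) : InGm A x := by
  obtain ⟨f, g, hg, hfg⟩ := h
  rw [gvRed_eq A (IsLocalRing.residue A) ⟨x, ⟨f, g, hg, hfg⟩⟩ f g hg hfg, div_eq_zero_iff] at h0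
  rcases h0 with h0 | h0
  · refine ⟨f, g, (h8pg_rho_ne_iff A g).mp hg, ?_, hfg⟩
    intro n hn
    exact (h8pg_rho_ne_iff A f).mpr ⟨n, hn⟩ h0
  · exact absurd h0 hg

section Core

variable (K₁ : IntermediateField ℚ Kbar) (R : ValuationSubring ↥K₁)
variable (M q : ℕ) [NeZero M] [NeZero q]
variable [CharP (IsLocalRing.ResidueField ↥R) q]

/-- Kronecker: `ρ (j_q^i − j^{q i}) = 0` -/
theorem h8pb_kron_red (hq : q.Prime) (i : ℕ) :
    gvRho R (IsLocalRing.residue ↥R)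
      ((qExpand ↥R q (jqModC ↥R)) ^ i - (jqModC ↥R) ^ (q * i)) = 0 := by
  haveI : Fact q.Prime := ⟨hq⟩
  rw [map_sub, map_pow, map_pow, h8pb_rho_qExpand, h8pb_rho_jq,
    h8pb_kronecker (IsLocalRing.ResidueField ↥R) q, ← pow_mul, sub_self]

/-- **residue degree one**, generic core -/
theorem h8pb_resDegOne_core (hq : q.Prime) (hqM : ¬ q ∣ M)
    (B : GVBasis R (IsLocalRing.residue ↥R) M) (x : FK ↥K₁ (M * q))
    (hx : (x : LaurentSeries ↥K₁) ∈ gvO R (IsLocalRing.residue ↥R))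
    (hx' : ((wqKHom K₁ M q hq hqM x : FK ↥K₁ (M * q)) : LaurentSeries ↥K₁) ∈
      gvO R (IsLocalRing.residue ↥R)) :
    ∃ z : LaurentSeries ↥K₁, z ∈ laurentBaseChange ↥K₁ (modularFunctionFieldFull M) ∧
      z ∈ gvO R (IsLocalRing.residue ↥R) ∧
      ∃ h : (x : LaurentSeries ↥K₁) - z ∈ gvO R (IsLocalRing.residue ↥R),
        gvRed R (IsLocalRing.residue ↥R) ⟨_, h⟩ = 0 := by
  classical
  have hqF : Fact q.Prime := ⟨hq⟩
  obtain ⟨c, hc, hx1, hx2⟩ := h8pb_span K₁ R M q hq hqM B x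
  have hc' : ∀ p, c p ∈ IntermediateField.adjoin ↥K₁ {gvEps R (jqModC ↥R)} := by
    intro p
    rw [h8pb_eps_jq]
    exact hc p
  rw [hx1] at hx
  rw [hx2] at hx'
  have hcmem := h8pb_coeff_mem R (IsLocalRing.residue ↥R) q B.y (h8pg_hpi R) B.li c hc' hx hx'
  have hcM : ∀ p, c p ∈ laurentBaseChange ↥K₁ (modularFunctionFieldFull M) := fun p =>
    gv_mem_base_of_full M (h8pb_adjoin_le K₁ M (hc p))
  have hyM : ∀ a, gvEps R (B.y a) ∈ laurentBaseChange ↥K₁ (modularFunctionFieldFull M) :=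
    fun a => gv_mem_base_of_full M (B.eps_mem a)
  have hjM : gvEps R (jqModC ↥R) ∈ laurentBaseChange ↥K₁ (modularFunctionFieldFull M) := by
    rw [h8pb_eps_jq]
    exact gv_mem_base_of_full M (jqModC_mem_full ↥K₁ M)
  refine ⟨∑ p : Fin (dedekindPsi M) × Fin (q + 1),
    c p * (gvEps R (B.y p.1) * gvEps R (jqModC ↥R) ^ (q * (p.2 : ℕ))), ?_, ?_, ?_⟩
  · exact sum_mem (fun p _ => mul_mem (hcM p) (mul_mem (hyM p.1) (pow_mem hjM _)))
  · exact Subring.sum_mem _ (fun p _ => Subring.mul_mem _ (hcmem p)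
      (Subring.mul_mem _ (gvEps_mem_gvO R _ _) (Subring.pow_mem _ (gvEps_mem_gvO R _ _) _)))
  · -- the difference
    have e : (x : LaurentSeries ↥K₁) - ∑ p : Fin (dedekindPsi M) × Fin (q + 1),
        c p * (gvEps R (B.y p.1) * gvEps R (jqModC ↥R) ^ (q * (p.2 : ℕ))) =
        ((∑ p : Fin (dedekindPsi M) × Fin (q + 1),
          (⟨c p, hcmem p⟩ : gvO R (IsLocalRing.residue ↥R)) *
            ⟨gvEps R (B.y p.1 * ((qExpand ↥R q (jqModC ↥R)) ^ (p.2 : ℕ) -
              (jqModC ↥R) ^ (q * (p.2 : ℕ)))), gvEps_mem_gvO R _ _⟩ :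
            gvO R (IsLocalRing.residue ↥R)) : LaurentSeries ↥K₁) := by
      rw [hx1, ← Finset.sum_sub_distrib]
      have hcoe : ∀ s : gvO R (IsLocalRing.residue ↥R),
          (s : LaurentSeries ↥K₁) = (gvO R (IsLocalRing.residue ↥R)).subtype s := fun _ => rfl
      rw [hcoe, map_sum]
      refine Finset.sum_congr rfl (fun p _ => ?_)
      rw [map_mul]
      show c p * gvEps R (B.y p.1 * (qExpand ↥R q (jqModC ↥R)) ^ (p.2 : ℕ)) - _ =
        c p * gvEps R (B.y p.1 * ((qExpand ↥R q (jqModC ↥R)) ^ (p.2 : ℕ) -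
              (jqModC ↥R) ^ (q * (p.2 : ℕ))))
      rw [map_mul, map_mul, map_sub, map_pow, map_pow]
      ring
    have hmem : (x : LaurentSeries ↥K₁) - ∑ p : Fin (dedekindPsi M) × Fin (q + 1),
        c p * (gvEps R (B.y p.1) * gvEps R (jqModC ↥R) ^ (q * (p.2 : ℕ))) ∈
        gvO R (IsLocalRing.residue ↥R) := by
      rw [e]
      exact Subtype.property _
    refine ⟨hmem, ?_⟩
    have e2 : (⟨_, hmem⟩ : gvO R (IsLocalRing.residue ↥R)) =
        ∑ p : Fin (dedekindPsi M) × Fin (q + 1),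
          (⟨c p, hcmem p⟩ : gvO R (IsLocalRing.residue ↥R)) *
            ⟨gvEps R (B.y p.1 * ((qExpand ↥R q (jqModC ↥R)) ^ (p.2 : ℕ) -
              (jqModC ↥R) ^ (q * (p.2 : ℕ)))), gvEps_mem_gvO R _ _⟩ := Subtype.ext e
    rw [e2, map_sum]
    refine Finset.sum_eq_zero (fun p _ => ?_)
    rw [map_mul, gvRed_eps, map_mul, h8pb_kron_red K₁ R q hq, mul_zero, mul_zero]

end Core

/-- **(C'') residue degree one** (= `H9UF.ResDegOneStatement`) -/
theorem h8pb_resDegOne :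
    ∀ (M : ℕ) [NeZero M] (q : ℕ) [NeZero q] (hq : q.Prime) (hqM : ¬ q ∣ M) (_ : TameLevel q M)
      (A : ValuationSubring (AlgebraicClosure ℚ)) (_ : A.LiesOverPrime q)
      (K₁ : IntermediateField ℚ (AlgebraicClosure ℚ)) (_ : FiniteDimensional ℚ K₁)
      (x : FK K₁ (M * q)),
      InG (descVal A K₁) (x : LaurentSeries K₁) →
      InG (descVal A K₁)
        ((H12AL.wqKHom K₁ M q hq hqM x : FK K₁ (M * q)) : LaurentSeries K₁) →
      ∃ z : LaurentSeries K₁, z ∈ laurentBaseChange K₁ (modularFunctionFieldFull M) ∧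
        InG (descVal A K₁) z ∧ InGm (descVal A K₁) ((x : LaurentSeries K₁) - z) := by
  intro M _ q _ hq hqM hT A hA K₁ hK₁ x hx hx'
  haveI hqF : Fact q.Prime := ⟨hq⟩
  obtain ⟨hperf, hcharp⟩ := H1S18.c7Perfect q A hA K₁
  haveI := hcharp
  have hchar : ∀ r : ℕ, r.Prime → r ∣ M →
      (r : IsLocalRing.ResidueField ↥(descVal A K₁)) ≠ 0 := by
    intro r hr hrM h0
    have h1 := (CharP.cast_eq_zero_iff (IsLocalRing.ResidueField ↥(descVal A K₁)) q r).mp h0
    have h2 : q = r := (Nat.prime_dvd_prime_iff_eq hq hr).mp h1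
    exact hqM (h2 ▸ hrM)
  obtain ⟨B⟩ := gv_basis_nonempty_gen (descVal A K₁) (IsLocalRing.residue ↥(descVal A K₁)) M hchar
  obtain ⟨z, hzM, hzO, hd, hr⟩ := h8pb_resDegOne_core K₁ (descVal A K₁) M q hq hqM B x
    ((h8pg_inG_iff (descVal A K₁) _).mp hx) ((h8pg_inG_iff (descVal A K₁) _).mp hx')
  exact ⟨z, hzM, (h8pg_inG_iff (descVal A K₁) _).mpr hzO,
    h8pg_inGm_of_red (descVal A K₁) _ hd hr⟩

end H8PB

end
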