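import Mathlib
import Fermat.Agent.S34.ResDeg1_helper8
import Fermat.Agent.S34.CompUnifDefs_helper9

/-!
# Item 82 (S34), (C''): `H9UF.ResDegOneStatement` (helper8)
-/

set_option autoImplicit false

namespace H8PB

/-- **(C'')** residue degree one -/
theorem h8pb_resDegOneStatement : H9UF.ResDegOneStatement := h8pb_resDegOne

end H8PB
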