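/-
helper9: item 82 (S34), slice (DICH)/(I2): `H26DI.CompUnif1Statement`, UNCONDITIONAL.

Inputs: `H8PB.h8pg_pairGauss` (I1, helper8), `H8PB.h8pb_resDegOneStatement` ((C''), helper8;
twin `helper22`), `H14I2.h14i2_levelNormal` ((A''), helper14 / helper18 / helper28).
-/
import Mathlib
import Fermat.Agent.S34.CompUnif_helper9
import Fermat.Agent.S34.PairGaussFinal_helper8
import Fermat.Agent.S34.ResDeg1Stmt_helper8
import Fermat.Agent.S34.I2LevelNormal_helper14

set_option autoImplicit false

namespace H9UF

/-- **(I2), first component**, unconditional. -/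
theorem compUnif1Statement : H26DI.CompUnif1Statement :=
  compUnif1 H8PB.h8pg_pairGauss H8PB.h8pb_resDegOneStatement H14I2.h14i2_levelNormal

end H9UF
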