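import Fermat.Agent.S37.R3W_helper29
import Fermat.Prelude.Def_ModularCurve_HeckeOperator

/-!
# Item 82 (S34), slice (I1)/(I3): the Atkin–Lehner involution `w_ℓ` of `F̄_{Nℓ}` (helper12)

`ℓ` prime, `ℓ ∤ N`.  From helper29's partial swap `H29W.h29w_W : F̄_{Nℓ} →+* ℂ((q))`
(`j(q^d) ↔ j(q^{dℓ})`, `d ∣ N`) we get a ring AUTOMORPHISM of
`F̄_{Nℓ} = modularFunctionFieldBar (N * ℓ)`:

* `H12AL.wqBarHom N ℓ hℓ hℓN : F̄ →+* F̄`, `H12AL.wqBar … : F̄ ≃+* F̄`;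
* `wqBarHom_Jgen` : `w (Jgen d) = Jgen (swap d)`; `wqBarHom_const` : `w c = c` (`c ∈ ℚ̄`);
* `wqBarHom_invol` : `w (w x) = x`;
* `wqBarHom_galois` : `w (σ • x) = σ • w x` for `σ ∈ G_ℚ` acting on the coefficients
  (`arithmeticRingAut`);
* `wqBarHom_alpha`, `wqBarHom_beta` : `w ∘ α = β`, `w ∘ β = α`
  (`α = heckeAlphaBar` the inclusion of level `N`, `β = heckeBetaBar`, `q ↦ q^ℓ`), i.e. on
  functions of level `N`: `w x = x(q^ℓ)` and `w (x(q^ℓ)) = x`.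
-/

set_option autoImplicit false
set_option linter.style.longLine false
set_option linter.unusedSectionVars false
set_option linter.unusedVariables false
set_option linter.style.haveILetI false

noncomputable section

open ModularCurve RH24 H29W

namespace H12AL

/-- the standard realisation `F̄_N → ℂ((q))` (coefficientwise `ι : ℚ̄ → ℂ`) -/
def rhoBar (N : ℕ) [NeZero N] : modularFunctionFieldBar N →+* LaurentSeries ℂ :=
  (coeffMap iota).comp (algebraMap (modularFunctionFieldBar N) (LaurentSeries Kbar))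

theorem rhoBar_apply (N : ℕ) [NeZero N] (x : modularFunctionFieldBar N) :
    rhoBar N x = coeffMap iota (x : LaurentSeries Kbar) := rfl

theorem rhoBar_injective (N : ℕ) [NeZero N] : Function.Injective (rhoBar N) := by
  intro x y h
  exact Subtype.ext (h22b_coeffMap_iota_injective h)

theorem rhoBar_Jgen (N : ℕ) [NeZero N] (d : Dv N) : rhoBar N (Jgen d) = JC d :=
  h22b_coeffMap_Jgen d

theorem rhoBar_const (N : ℕ) [NeZero N] (c : Kbar) :
    rhoBar N (algebraMap Kbar (modularFunctionFieldBar N) c) =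
      algebraMap ℂ (LaurentSeries ℂ) (iota c) := by
  rw [rhoBar_apply]
  show coeffMap iota (algebraMap Kbar (LaurentSeries Kbar) c) = _
  rw [algebraMap_laurentSeries_eq_single, algebraMap_laurentSeries_eq_single, coeffMap_single]

variable (N ℓ : ℕ) [NeZero N] [NeZero ℓ]

/-- `W (P(Jgen)) = ρ̄ (P(Jgen ∘ swap))` -/
theorem W_aeval (hℓ : ℓ.Prime) (hℓN : ¬ ℓ ∣ N) (P : MvPolynomial (Dv (N * ℓ)) Kbar) :
    h29w_W N ℓ hℓ hℓN (MvPolynomial.aeval (fun d : Dv (N * ℓ) => Jgen d) P) =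
      rhoBar (N * ℓ) (MvPolynomial.aeval (fun d : Dv (N * ℓ) => Jgen (h29w_swap N ℓ hℓ d)) P) := by
  have hcomp : (h29w_W N ℓ hℓ hℓN).comp
      ((MvPolynomial.aeval (fun d : Dv (N * ℓ) => Jgen d) :
        MvPolynomial (Dv (N * ℓ)) Kbar →ₐ[Kbar] modularFunctionFieldBar (N * ℓ)).toRingHom) =
      (rhoBar (N * ℓ)).comp
      ((MvPolynomial.aeval (fun d : Dv (N * ℓ) => Jgen (h29w_swap N ℓ hℓ d)) :
        MvPolynomial (Dv (N * ℓ)) Kbar →ₐ[Kbar] modularFunctionFieldBar (N * ℓ)).toRingHom) := by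
    apply MvPolynomial.ringHom_ext
    · intro c
      simp only [RingHom.comp_apply, AlgHom.toRingHom_eq_coe, RingHom.coe_coe,
        MvPolynomial.aeval_C]
      rw [h29w_W_const, rhoBar_const]
    · intro d
      simp only [RingHom.comp_apply, AlgHom.toRingHom_eq_coe, RingHom.coe_coe,
        MvPolynomial.aeval_X]
      rw [h29w_W_Jgen, rhoBar_Jgen]
  exact RingHom.congr_fun hcomp P

/-- the range of `W` is contained in the range of `ρ̄` -/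
theorem W_mem_range (hℓ : ℓ.Prime) (hℓN : ¬ ℓ ∣ N) (x : modularFunctionFieldBar (N * ℓ)) :
    h29w_W N ℓ hℓ hℓN x ∈ (rhoBar (N * ℓ)).range := by
  obtain ⟨P, Q, hQ, hx⟩ := exists_frac (N * ℓ) x
  refine ⟨MvPolynomial.aeval (fun d : Dv (N * ℓ) => Jgen (h29w_swap N ℓ hℓ d)) P /
    MvPolynomial.aeval (fun d : Dv (N * ℓ) => Jgen (h29w_swap N ℓ hℓ d)) Q, ?_⟩
  rw [hx, map_div₀, map_div₀, W_aeval, W_aeval]

/-- `F̄ ≃ range ρ̄` -/
def rhoEquiv (N : ℕ) [NeZero N] : modularFunctionFieldBar N ≃+* (rhoBar N).range :=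
  RingEquiv.ofBijective (rhoBar N).rangeRestrict
    ⟨fun x y h => rhoBar_injective N (congrArg Subtype.val h),
      (rhoBar N).rangeRestrict_surjective⟩

/-- **the Atkin–Lehner involution** `w_ℓ` of `F̄_{Nℓ}`, as a ring homomorphism -/
def wqBarHom (hℓ : ℓ.Prime) (hℓN : ¬ ℓ ∣ N) :
    modularFunctionFieldBar (N * ℓ) →+* modularFunctionFieldBar (N * ℓ) :=
  (rhoEquiv (N * ℓ)).symm.toRingHom.comp
    ((h29w_W N ℓ hℓ hℓN).codRestrict (rhoBar (N * ℓ)).range (W_mem_range N ℓ hℓ hℓN))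

/-- characterisation: `ρ̄ (w x) = W x` -/
theorem rhoBar_wqBarHom (hℓ : ℓ.Prime) (hℓN : ¬ ℓ ∣ N) (x : modularFunctionFieldBar (N * ℓ)) :
    rhoBar (N * ℓ) (wqBarHom N ℓ hℓ hℓN x) = h29w_W N ℓ hℓ hℓN x := by
  have h := (rhoEquiv (N * ℓ)).apply_symm_apply
    ((h29w_W N ℓ hℓ hℓN).codRestrict (rhoBar (N * ℓ)).range (W_mem_range N ℓ hℓ hℓN) x)
  exact congrArg Subtype.val h

/-- `w (Jgen d) = Jgen (swap d)` -/
theorem wqBarHom_Jgen (hℓ : ℓ.Prime) (hℓN : ¬ ℓ ∣ N) (d : Dv (N * ℓ)) :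
    wqBarHom N ℓ hℓ hℓN (Jgen d) = Jgen (h29w_swap N ℓ hℓ d) := by
  apply rhoBar_injective
  rw [rhoBar_wqBarHom, h29w_W_Jgen, rhoBar_Jgen]

/-- `w c = c` for constants -/
theorem wqBarHom_const (hℓ : ℓ.Prime) (hℓN : ¬ ℓ ∣ N) (c : Kbar) :
    wqBarHom N ℓ hℓ hℓN (algebraMap Kbar (modularFunctionFieldBar (N * ℓ)) c) =
      algebraMap Kbar (modularFunctionFieldBar (N * ℓ)) c := by
  apply rhoBar_injective
  rw [rhoBar_wqBarHom, h29w_W_const, rhoBar_const]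

/-- `w ∘ w = id` -/
theorem wqBarHom_comp_self (hℓ : ℓ.Prime) (hℓN : ¬ ℓ ∣ N) :
    (wqBarHom N ℓ hℓ hℓN).comp (wqBarHom N ℓ hℓ hℓN) =
      RingHom.id (modularFunctionFieldBar (N * ℓ)) := by
  apply ringHom_ext_F
  · intro c
    rw [RingHom.comp_apply, wqBarHom_const, wqBarHom_const, RingHom.id_apply]
  · intro d
    rw [RingHom.comp_apply, wqBarHom_Jgen, wqBarHom_Jgen, h29w_swap_swap N ℓ hℓ hℓN,
      RingHom.id_apply]

theorem wqBarHom_invol (hℓ : ℓ.Prime) (hℓN : ¬ ℓ ∣ N) (x : modularFunctionFieldBar (N * ℓ)) :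
    wqBarHom N ℓ hℓ hℓN (wqBarHom N ℓ hℓ hℓN x) = x :=
  RingHom.congr_fun (wqBarHom_comp_self N ℓ hℓ hℓN) x

/-- **the Atkin–Lehner involution** `w_ℓ` of `F̄_{Nℓ}`, as a ring automorphism -/
def wqBar (hℓ : ℓ.Prime) (hℓN : ¬ ℓ ∣ N) :
    modularFunctionFieldBar (N * ℓ) ≃+* modularFunctionFieldBar (N * ℓ) :=
  RingEquiv.ofRingHom (wqBarHom N ℓ hℓ hℓN) (wqBarHom N ℓ hℓ hℓN)
    (wqBarHom_comp_self N ℓ hℓ hℓN) (wqBarHom_comp_self N ℓ hℓ hℓN)

@[simp] theorem wqBar_apply (hℓ : ℓ.Prime) (hℓN : ¬ ℓ ∣ N) (x : modularFunctionFieldBar (N * ℓ)) :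
    wqBar N ℓ hℓ hℓN x = wqBarHom N ℓ hℓ hℓN x := rfl

@[simp] theorem wqBar_symm_apply (hℓ : ℓ.Prime) (hℓN : ¬ ℓ ∣ N)
    (x : modularFunctionFieldBar (N * ℓ)) :
    (wqBar N ℓ hℓ hℓN).symm x = wqBarHom N ℓ hℓ hℓN x := rfl

/-! ### Galois equivariance -/

theorem arithmeticRingAut_Jgen (M : ℕ) [NeZero M] (σ : Kbar ≃ₐ[ℚ] Kbar) (d : Dv M) :
    arithmeticRingAut (modularFunctionFieldFull M) σ (Jgen d) = Jgen d := by
  apply Subtype.ext
  haveI : NeZero d.1 := ⟨Dv_ne_zero d⟩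
  show coeffMap (σ : Kbar →+* Kbar) (coeffEmb Kbar (qExpand ℚ d.1 jq)) =
    coeffEmb Kbar (qExpand ℚ d.1 jq)
  exact coeffMap_coeffEmb σ _

/-- **Galois equivariance**: `w (σ x) = σ (w x)` for `σ ∈ G_ℚ` acting on the coefficients. -/
theorem wqBarHom_galois (hℓ : ℓ.Prime) (hℓN : ¬ ℓ ∣ N) (σ : Kbar ≃ₐ[ℚ] Kbar)
    (x : modularFunctionFieldBar (N * ℓ)) :
    wqBarHom N ℓ hℓ hℓN (arithmeticRingAut (modularFunctionFieldFull (N * ℓ)) σ x) =
      arithmeticRingAut (modularFunctionFieldFull (N * ℓ)) σ (wqBarHom N ℓ hℓ hℓN x) := by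
  have hcomp : (wqBarHom N ℓ hℓ hℓN).comp
      (arithmeticRingAut (modularFunctionFieldFull (N * ℓ)) σ).toRingHom =
      (arithmeticRingAut (modularFunctionFieldFull (N * ℓ)) σ).toRingHom.comp
        (wqBarHom N ℓ hℓ hℓN) := by
    apply ringHom_ext_F
    · intro c
      simp only [RingHom.comp_apply, RingEquiv.toRingHom_eq_coe, RingHom.coe_coe]
      rw [arithmeticRingAut_algebraMap, wqBarHom_const, wqBarHom_const,
        arithmeticRingAut_algebraMap]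
    · intro d
      simp only [RingHom.comp_apply, RingEquiv.toRingHom_eq_coe, RingHom.coe_coe]
      rw [arithmeticRingAut_Jgen, wqBarHom_Jgen, arithmeticRingAut_Jgen]
  exact RingHom.congr_fun hcomp x

/-! ### Level `N` functions: `w ∘ α = β`, `w ∘ β = α` -/

theorem alpha_Jgen (d : Dv N) :
    heckeAlphaBar Kbar N ℓ (Jgen d) = Jgen (⟨d.1, d.2.mul_right ℓ⟩ : Dv (N * ℓ)) := by
  apply Subtype.ext
  rw [coe_heckeAlphaBar]
  rfl

theorem beta_Jgen (d : Dv N) :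
    heckeBetaBar Kbar N ℓ (Jgen d) =
      Jgen (⟨d.1 * ℓ, Nat.mul_dvd_mul_right d.2 ℓ⟩ : Dv (N * ℓ)) := by
  apply Subtype.ext
  rw [coe_heckeBetaBar]
  haveI : NeZero d.1 := ⟨Dv_ne_zero d⟩
  haveI : NeZero (d.1 * ℓ) := ⟨Nat.mul_ne_zero (Dv_ne_zero d) (NeZero.ne ℓ)⟩
  show qExpand Kbar ℓ (coeffEmb Kbar (qExpand ℚ d.1 jq)) = coeffEmb Kbar (qExpand ℚ (d.1 * ℓ) jq)
  rw [← h22b_coeffEmb_qExpand, qExpand_qExpand]
  exact congrArg _ (qExpand_congr (mul_comm ℓ d.1) jq)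

/-- `w ∘ α = β`: on functions of level `N`, `w x = x(q^ℓ)`. -/
theorem wqBarHom_alpha (hℓ : ℓ.Prime) (hℓN : ¬ ℓ ∣ N) (x : modularFunctionFieldBar N) :
    wqBarHom N ℓ hℓ hℓN (heckeAlphaBar Kbar N ℓ x) = heckeBetaBar Kbar N ℓ x := by
  have hcomp : (wqBarHom N ℓ hℓ hℓN).comp (heckeAlphaBar Kbar N ℓ).toRingHom =
      (heckeBetaBar Kbar N ℓ).toRingHom := by
    apply ringHom_ext_F
    · intro c
      simp only [RingHom.comp_apply, AlgHom.toRingHom_eq_coe, RingHom.coe_coe, AlgHom.commutes]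
      rw [wqBarHom_const]
    · intro d
      simp only [RingHom.comp_apply, AlgHom.toRingHom_eq_coe, RingHom.coe_coe]
      rw [alpha_Jgen, beta_Jgen, wqBarHom_Jgen]
      congr 1
      apply Subtype.ext
      exact h29w_swap_of_not_dvd N ℓ hℓ _ (fun h => hℓN (h.trans d.2))
  exact RingHom.congr_fun hcomp x

/-- `w ∘ β = α`: `w (x(q^ℓ)) = x` for `x` of level `N`. -/
theorem wqBarHom_beta (hℓ : ℓ.Prime) (hℓN : ¬ ℓ ∣ N) (x : modularFunctionFieldBar N) :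
    wqBarHom N ℓ hℓ hℓN (heckeBetaBar Kbar N ℓ x) = heckeAlphaBar Kbar N ℓ x := by
  rw [← wqBarHom_alpha N ℓ hℓ hℓN x, wqBarHom_invol]

/-- coefficient form of `wqBarHom_alpha`. -/
theorem coe_wqBarHom_of_level (hℓ : ℓ.Prime) (hℓN : ¬ ℓ ∣ N) (x : modularFunctionFieldBar (N * ℓ))
    (hx : (x : LaurentSeries Kbar) ∈ modularFunctionFieldBar N) :
    ((wqBarHom N ℓ hℓ hℓN x : modularFunctionFieldBar (N * ℓ)) : LaurentSeries Kbar) =
      qExpand Kbar ℓ (x : LaurentSeries Kbar) := by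
  have hx' : x = heckeAlphaBar Kbar N ℓ ⟨(x : LaurentSeries Kbar), hx⟩ := by
    apply Subtype.ext
    rw [coe_heckeAlphaBar]
  rw [hx', wqBarHom_alpha, coe_heckeBetaBar, coe_heckeAlphaBar]

end H12AL

end
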