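/-
helper29: item 82 (S34), small glue for the `K₁`-level assembly.

* `H29AG.exists_root`  : a primitive `n`-th root of unity of `K₁` lies in `R = A ∩ K₁`;
* `H29AG.gu_of_gen`    : from the conclusion of `H4S34.GenStatement` over `F₁ = F_{K₁}(N)`
                         (`τ₁ (τ₁ f₁) · f₁ = c · gⁿ · (τ₁ f₁)²`) and the compatibility of `τ₁` with
                         `arithmeticGalois` (`H4S34.TauStatement`) to the conclusion of
                         `H4S34.GUFieldTame` over `ℚ̄` (the constant `c` is an `n`-th power in `ℚ̄`).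
-/
import Mathlib
import Fermat.Agent.S34.GUDesc_helper29
import Fermat.Agent.S34.Defs_helper4

set_option autoImplicit false
set_option linter.unusedSectionVars false
set_option linter.unusedVariables false
set_option linter.style.haveILetI false
set_option synthInstance.maxHeartbeats 400000
set_option maxHeartbeats 1000000

noncomputable section

namespace H29AG

open H11W3G ModularCurve AlgebraicCurve H7S18 H28GV H29R2M H29GU

local notation "Qb" => AlgebraicClosure ℚ

/-- **(G1)** a primitive `n`-th root of unity of `K₁` lies in `R = A ∩ K₁`. -/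
theorem exists_root (A : ValuationSubring Qb) (K₁ : IntermediateField ℚ Qb) {n : ℕ} (hn : 0 < n)
    (h : ∃ ζ : K₁, IsPrimitiveRoot ζ n) : ∃ ζ : ↥(descVal A K₁), IsPrimitiveRoot ζ n := by
  obtain ⟨ζ, hζ⟩ := h
  exact exists_primitiveRoot_desc A K₁ hn ζ hζ 1 n (by ring)

section

variable (N : ℕ) [NeZero N] (K₁ : IntermediateField ℚ Qb)

attribute [local instance] algFF towKF algFFalg algKL

/-- the image of a constant under the base change map -/
theorem phi_algebraMap (c : K₁) :
    phi N K₁ (algebraMap K₁ (FK K₁ N) c) =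
      algebraMap Qb (modularFunctionFieldBar N) (algebraMap K₁ Qb c) := by
  rw [← algebraMap_FF, ← IsScalarTower.algebraMap_apply K₁ (FK K₁ N) (FK Qb N),
    IsScalarTower.algebraMap_apply K₁ Qb (FK Qb N)]

/-- **(G2)** from the conclusion of (GEN) over `K₁` to the conclusion of (GU-F) over `ℚ̄`. -/
theorem gu_of_gen (τ : GQ) (τ₁ : FK K₁ N ≃+* FK K₁ N)
    (hτ₁ : ∀ (x : FK K₁ N) (y : modularFunctionFieldBar N),
      (y : LaurentSeries Qb) = coeffMap (algebraMap K₁ Qb) (x : LaurentSeries K₁) →
      ((arithmeticGalois (modularFunctionFieldFull N) τ • y : modularFunctionFieldBar N) :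
          LaurentSeries Qb) = coeffMap (algebraMap K₁ Qb) (τ₁ x : LaurentSeries K₁))
    (n : ℕ) (hn : 0 < n) (f : modularFunctionFieldBar N) (f₁ : FK K₁ N)
    (hf : (f : LaurentSeries Qb) = coeffMap (algebraMap K₁ Qb) (f₁ : LaurentSeries K₁))
    (c : K₁) (g : FK K₁ N)
    (h : τ₁ (τ₁ f₁) * f₁ = algebraMap K₁ (FK K₁ N) c * g ^ n * (τ₁ f₁) ^ 2) :
    ∃ ψ : modularFunctionFieldBar N,
      (arithmeticGalois (modularFunctionFieldFull N) τ •
        arithmeticGalois (modularFunctionFieldFull N) τ • f) * f =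
      ψ ^ n * (arithmeticGalois (modularFunctionFieldFull N) τ • f) ^ 2 := by
  have hφf : phi N K₁ f₁ = f := Subtype.ext (by rw [phi_coe]; exact hf.symm)
  have h1 : arithmeticGalois (modularFunctionFieldFull N) τ • f = phi N K₁ (τ₁ f₁) := by
    apply Subtype.ext
    rw [hτ₁ f₁ f hf, phi_coe]
  have h2 : arithmeticGalois (modularFunctionFieldFull N) τ •
      arithmeticGalois (modularFunctionFieldFull N) τ • f = phi N K₁ (τ₁ (τ₁ f₁)) := by
    apply Subtype.ext
    rw [hτ₁ (τ₁ f₁) (arithmeticGalois (modularFunctionFieldFull N) τ • f)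
      (by rw [h1, phi_coe]), phi_coe]
  obtain ⟨d, hd⟩ := IsAlgClosed.exists_pow_nat_eq (algebraMap K₁ Qb c) hn
  refine ⟨algebraMap Qb (modularFunctionFieldBar N) d * phi N K₁ g, ?_⟩
  rw [h2, h1, ← hφf, ← map_mul, h, map_mul, map_mul, map_pow, map_pow, phi_algebraMap, mul_pow,
    ← hd, map_pow]

end

end H29AG

end
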