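import Mathlib

/-!
# helper15, item 82 (S34), slice (I4+): cusp separation, abstract algebra

`T(J, u) = 0`, `T = X^{p+1} + c_p X^p + … + c_1 X + c_0`, `deg c_k ≤ p - k`, `c_0 = ε₀ p^12`,
`u f = p^12`, `s J = 1`.  Then for `v = u s`, `b = f s^{p-1}`, `y = u^p s^{p-1}`:
* `v^{p+1} + s (…) = 0`  (`v` integral over `ℤ[s]`, `v ∈ rad (s)`),
* `y + ε₀ b + ∑ R_k v^k = 0`,
* `b^{p+1} + ε₀ (…) = 0`  (`b` integral over `ℤ[s]`).
-/

set_option autoImplicit false

noncomputable section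

open Polynomial

namespace H15C

section abs

variable {E : Type} [CommRing E]

/-- evaluation `ℤ[X] → E`, `X ↦ x` -/
def ev (x : E) : Polynomial ℤ →+* E := Polynomial.eval₂RingHom (Int.castRingHom E) x

@[simp] theorem ev_X (x : E) : ev x X = x := by simp [ev]

@[simp] theorem ev_C (x : E) (n : ℤ) : ev x (Polynomial.C n) = (n : E) := by simp [ev]

/-- two-variable evaluation -/
def ev2 (Ψ : Polynomial (Polynomial ℤ)) (x y : E) : E := Ψ.eval₂ (ev x) y

theorem ev_hom {E' : Type} [CommRing E'] (φ : E →+* E') (x : E) :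
    φ.comp (ev x) = ev (φ x) := by
  refine Polynomial.ringHom_ext' (Subsingleton.elim _ _) ?_
  simp [ev]

theorem ev_hom_apply {E' : Type} [CommRing E'] (φ : E →+* E') (x : E) (c : Polynomial ℤ) :
    φ (ev x c) = ev (φ x) c := by
  rw [← ev_hom]; rfl

theorem ev2_hom {E' : Type} [CommRing E'] (φ : E →+* E') (Ψ : Polynomial (Polynomial ℤ))
    (x y : E) : φ (ev2 Ψ x y) = ev2 Ψ (φ x) (φ y) := by
  unfold ev2
  rw [Polynomial.hom_eval₂, ev_hom]

theorem ev_reflect {s J : E} (hsJ : s * J = 1) (N : ℕ) (c : Polynomial ℤ)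
    (hc : c.natDegree ≤ N) : ev s (c.reflect N) = s ^ N * ev J c := by
  let _ : Invertible J := ⟨s, hsJ, by rw [mul_comm]; exact hsJ⟩
  have h := Polynomial.eval₂_reflect_mul_pow (Int.castRingHom E) J N c hc
  have h1 : ev s (c.reflect N) = Polynomial.eval₂ (Int.castRingHom E) (⅟J) (c.reflect N) := rfl
  have h2 : ev J c = Polynomial.eval₂ (Int.castRingHom E) J c := rfl
  rw [h1, h2, ← h]
  have h3 : J ^ N * s ^ N = 1 := by rw [← mul_pow, mul_comm, hsJ, one_pow]
  calc Polynomial.eval₂ (Int.castRingHom E) (⅟J) (c.reflect N)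
      = Polynomial.eval₂ (Int.castRingHom E) (⅟J) (c.reflect N) * (J ^ N * s ^ N) := by
        rw [h3, mul_one]
    _ = _ := by ring

/-- the reflected coefficients -/
def rho (p : ℕ) (T : Polynomial (Polynomial ℤ)) (k : ℕ) : Polynomial ℤ :=
  (T.coeff (k + 1)).reflect (p - 1 - k)

/-- the data of the cusp computation -/
structure CuspData (p : ℕ) (T : Polynomial (Polynomial ℤ)) (ε₀ : ℤ) (s J u f : E) : Prop where
  monic : T.Monic
  natDegree : T.natDegree = p + 1
  deg : ∀ k, k ≤ p → (T.coeff k).natDegree ≤ p - k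
  coeff0 : T.coeff 0 = Polynomial.C (ε₀ * (p : ℤ) ^ 12)
  eps : ε₀ * ε₀ = 1
  sJ : s * J = 1
  uf : u * f = (p : E) ^ 12
  root : ev2 T J u = 0
  cancel : ∀ x : E, (p : E) ^ 12 * x = 0 → x = 0

namespace CuspData

variable {p : ℕ} {T : Polynomial (Polynomial ℤ)} {ε₀ : ℤ} {s J u f : E}

theorem E0 (h : CuspData p T ε₀ s J u f) :
    u ^ (p + 1) + ∑ k ∈ Finset.range p, ev J (T.coeff (k + 1)) * u ^ (k + 1) +
      (ε₀ : E) * (p : E) ^ 12 = 0 := by
  have h0 := h.root
  unfold ev2 at h0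
  rw [Polynomial.eval₂_eq_sum_range, h.natDegree, Finset.sum_range_succ,
    Finset.sum_range_succ'] at h0
  have h1 : T.coeff (p + 1) = 1 := by
    have := h.monic.coeff_natDegree
    rwa [h.natDegree] at this
  rw [h1, map_one, one_mul, h.coeff0, ev_C, pow_zero, mul_one] at h0
  push_cast at h0
  rw [← h0]
  ring

theorem rho_eq (h : CuspData p T ε₀ s J u f) (k : ℕ) (hk : k < p) :
    ev s (rho p T k) = s ^ (p - 1 - k) * ev J (T.coeff (k + 1)) := by
  unfold rho
  refine ev_reflect h.sJ _ _ ?_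
  have := h.deg (k + 1) hk
  omega

/-- the equation of `v = u s` -/
theorem eqV (h : CuspData p T ε₀ s J u f) :
    (u * s) ^ (p + 1) + s * (∑ k ∈ Finset.range p, ev s (rho p T k) * (u * s) ^ (k + 1) +
      (ε₀ : E) * (p : E) ^ 12 * s ^ p) = 0 := by
  have h0 := h.E0
  have h1 : (u * s) ^ (p + 1) + s * (∑ k ∈ Finset.range p, ev s (rho p T k) * (u * s) ^ (k + 1) +
      (ε₀ : E) * (p : E) ^ 12 * s ^ p) =
      s ^ (p + 1) * (u ^ (p + 1) + ∑ k ∈ Finset.range p, ev J (T.coeff (k + 1)) * u ^ (k + 1) +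
      (ε₀ : E) * (p : E) ^ 12) := by
    rw [mul_add s, mul_add (s ^ (p + 1)), mul_add (s ^ (p + 1)), Finset.mul_sum, Finset.mul_sum]
    have h2 : ∀ k ∈ Finset.range p, s * (ev s (rho p T k) * (u * s) ^ (k + 1)) =
        s ^ (p + 1) * (ev J (T.coeff (k + 1)) * u ^ (k + 1)) := by
      intro k hk
      have hk' := Finset.mem_range.mp hk
      rw [h.rho_eq k hk']
      obtain ⟨m, hm⟩ : ∃ m, p = k + 1 + m := ⟨p - 1 - k, by omega⟩
      have e1 : p - 1 - k = m := by omega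
      rw [e1, hm]
      ring
    rw [Finset.sum_congr rfl h2]
    ring
  rw [h1, h0, mul_zero]

/-- the relation between `y = u^p s^{p-1}`, `b = f s^{p-1}` and `v = u s` -/
theorem eqRel (h : CuspData p T ε₀ s J u f) :
    u ^ p * s ^ (p - 1) + (ε₀ : E) * (f * s ^ (p - 1)) +
      ∑ k ∈ Finset.range p, ev s (rho p T k) * (u * s) ^ k = 0 := by
  have h0 := h.E0
  apply h.cancel
  have h1 : (p : E) ^ 12 * (u ^ p * s ^ (p - 1) + (ε₀ : E) * (f * s ^ (p - 1)) +
      ∑ k ∈ Finset.range p, ev s (rho p T k) * (u * s) ^ k) =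
      (f * s ^ (p - 1)) * (u ^ (p + 1) +
        ∑ k ∈ Finset.range p, ev J (T.coeff (k + 1)) * u ^ (k + 1) +
        (ε₀ : E) * (p : E) ^ 12) := by
    rw [mul_add ((p : E) ^ 12), mul_add ((p : E) ^ 12), mul_add (f * s ^ (p - 1)),
      mul_add (f * s ^ (p - 1)), Finset.mul_sum, Finset.mul_sum]
    have h2 : ∀ k ∈ Finset.range p, (p : E) ^ 12 * (ev s (rho p T k) * (u * s) ^ k) =
        (f * s ^ (p - 1)) * (ev J (T.coeff (k + 1)) * u ^ (k + 1)) := by
      intro k hk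
      have hk' := Finset.mem_range.mp hk
      rw [h.rho_eq k hk', ← h.uf]
      obtain ⟨m, hm⟩ : ∃ m, p = k + 1 + m := ⟨p - 1 - k, by omega⟩
      have e1 : p - 1 - k = m := by omega
      have e2 : p - 1 = k + m := by omega
      rw [e1, e2]
      ring
    rw [Finset.sum_congr rfl h2, ← h.uf]
    ring
  rw [h1, h0, mul_zero]

/-- the equation of `b = f s^{p-1}` -/
theorem eqB (h : CuspData p T ε₀ s J u f) :
    (f * s ^ (p - 1)) ^ (p + 1) + (ε₀ : E) * (∑ k ∈ Finset.range p,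
        (p : E) ^ (12 * k) * ev s (rho p T k) * s ^ (p * k) * (f * s ^ (p - 1)) ^ (p - k) +
      (p : E) ^ (12 * p) * s ^ ((p - 1) * (p + 1))) = 0 := by
  have h0 := h.E0
  have hε : (ε₀ : E) * (ε₀ : E) = 1 := by exact_mod_cast congrArg (Int.cast : ℤ → E) h.eps
  apply h.cancel
  have h1 : (p : E) ^ 12 * ((f * s ^ (p - 1)) ^ (p + 1) + (ε₀ : E) * (∑ k ∈ Finset.range p,
        (p : E) ^ (12 * k) * ev s (rho p T k) * s ^ (p * k) * (f * s ^ (p - 1)) ^ (p - k) +
      (p : E) ^ (12 * p) * s ^ ((p - 1) * (p + 1)))) =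
      (ε₀ : E) * (f ^ (p + 1) * s ^ ((p - 1) * (p + 1))) * (u ^ (p + 1) +
        ∑ k ∈ Finset.range p, ev J (T.coeff (k + 1)) * u ^ (k + 1) +
        (ε₀ : E) * (p : E) ^ 12) := by
    rw [mul_add ((p : E) ^ 12), mul_add (ε₀ : E), mul_add ((p : E) ^ 12),
      mul_add ((ε₀ : E) * (f ^ (p + 1) * s ^ ((p - 1) * (p + 1)))),
      mul_add ((ε₀ : E) * (f ^ (p + 1) * s ^ ((p - 1) * (p + 1)))),
      Finset.mul_sum, Finset.mul_sum, Finset.mul_sum]
    have h2 : ∀ k ∈ Finset.range p, (p : E) ^ 12 * ((ε₀ : E) * ((p : E) ^ (12 * k) *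
          ev s (rho p T k) * s ^ (p * k) * (f * s ^ (p - 1)) ^ (p - k))) =
        (ε₀ : E) * (f ^ (p + 1) * s ^ ((p - 1) * (p + 1))) *
          (ev J (T.coeff (k + 1)) * u ^ (k + 1)) := by
      intro k hk
      have hk' := Finset.mem_range.mp hk
      rw [h.rho_eq k hk', pow_mul (p : E) 12 k, ← h.uf]
      obtain ⟨m, hm⟩ : ∃ m, p = k + 1 + m := ⟨p - 1 - k, by omega⟩
      have e1 : p - 1 - k = m := by omega
      have e2 : p - 1 = k + m := by omega
      have e3 : p - k = m + 1 := by omega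
      rw [e1, e2, e3, hm]
      ring
    rw [Finset.sum_congr rfl h2]
    have h3 : (p : E) ^ 12 * (f * s ^ (p - 1)) ^ (p + 1) =
        (ε₀ : E) * (f ^ (p + 1) * s ^ ((p - 1) * (p + 1))) * ((ε₀ : E) * (p : E) ^ 12) := by
      calc (p : E) ^ 12 * (f * s ^ (p - 1)) ^ (p + 1)
          = ((ε₀ : E) * (ε₀ : E)) * ((p : E) ^ 12 * (f * s ^ (p - 1)) ^ (p + 1)) := by
            rw [hε, one_mul]
        _ = _ := by ring
    have h4 : (p : E) ^ 12 * ((ε₀ : E) * ((p : E) ^ (12 * p) * s ^ ((p - 1) * (p + 1)))) =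
        (ε₀ : E) * (f ^ (p + 1) * s ^ ((p - 1) * (p + 1))) * u ^ (p + 1) := by
      have : (p : E) ^ 12 * (p : E) ^ (12 * p) = (u * f) ^ (p + 1) := by
        rw [h.uf]; ring
      calc (p : E) ^ 12 * ((ε₀ : E) * ((p : E) ^ (12 * p) * s ^ ((p - 1) * (p + 1))))
          = (ε₀ : E) * ((p : E) ^ 12 * (p : E) ^ (12 * p)) * s ^ ((p - 1) * (p + 1)) := by ring
        _ = _ := by rw [this]; ring
    rw [h3, h4]
    ring
  rw [h1, h0, mul_zero]


end CuspData

/-! ### integrality -/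

/-- a monic relation `x^n + ∑ φ(c i) x^(e i) + φ c₀ = 0` with `e i < n`, `0 < n` gives integrality -/
theorem isIntegralElem_of_rel (φ : Polynomial ℤ →+* E) (x : E) (n : ℕ) (hn : 0 < n)
    (I : Finset ℕ) (c : ℕ → Polynomial ℤ) (e : ℕ → ℕ) (c₀ : Polynomial ℤ)
    (he : ∀ i ∈ I, e i < n)
    (h : x ^ n + (∑ i ∈ I, φ (c i) * x ^ (e i) + φ c₀) = 0) : φ.IsIntegralElem x := by
  refine ⟨X ^ n + (∑ i ∈ I, Polynomial.C (c i) * X ^ (e i) + Polynomial.C c₀), ?_, ?_⟩
  · apply Polynomial.monic_X_pow_add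
    have hs : ∀ I : Finset ℕ, (∀ i ∈ I, e i < n) →
        (∑ i ∈ I, Polynomial.C (c i) * X ^ (e i) : Polynomial (Polynomial ℤ)).degree < n := by
      intro I
      classical
      induction I using Finset.induction_on with
      | empty =>
        intro _
        rw [Finset.sum_empty, Polynomial.degree_zero]
        exact WithBot.bot_lt_coe n
      | insert i I hi ih =>
        intro hI
        rw [Finset.sum_insert hi]
        exact lt_of_le_of_lt (Polynomial.degree_add_le _ _)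
          (max_lt ((Polynomial.degree_C_mul_X_pow_le (e i) (c i)).trans_lt
            (by exact_mod_cast hI i (Finset.mem_insert_self i I)))
            (ih fun j hj => hI j (Finset.mem_insert_of_mem hj)))
    refine lt_of_le_of_lt (Polynomial.degree_add_le _ _) (max_lt (hs I he) ?_)
    exact lt_of_le_of_lt Polynomial.degree_C_le (by exact_mod_cast hn)
  · rw [Polynomial.eval₂_add, Polynomial.eval₂_add, Polynomial.eval₂_pow, Polynomial.eval₂_X,
      Polynomial.eval₂_finsetSum, Polynomial.eval₂_C]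
    rw [← h]
    congr 2
    refine Finset.sum_congr rfl (fun i _ => ?_)
    rw [Polynomial.eval₂_mul, Polynomial.eval₂_C, Polynomial.eval₂_pow, Polynomial.eval₂_X]

namespace CuspData

variable {p : ℕ} {T : Polynomial (Polynomial ℤ)} {ε₀ : ℤ} {s J u f : E}

/-- `v = u s` is integral over `ℤ[s]` -/
theorem isIntegral_v (h : CuspData p T ε₀ s J u f) : (ev s).IsIntegralElem (u * s) := by
  refine isIntegralElem_of_rel (ev s) (u * s) (p + 1) (Nat.succ_pos p) (Finset.range p)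
    (fun k => X * rho p T k) (fun k => k + 1)
    (Polynomial.C (ε₀ * (p : ℤ) ^ 12) * X ^ (p + 1)) (fun i hi => ?_) ?_
  · have := Finset.mem_range.mp hi
    omega
  · rw [← h.eqV]
    congr 1
    rw [mul_add s, Finset.mul_sum]
    congr 1
    · refine Finset.sum_congr rfl (fun k _ => ?_)
      rw [map_mul, ev_X]
      ring
    · rw [map_mul, ev_C, map_pow, ev_X]
      push_cast
      ring

/-- `b = f s^{p-1}` is integral over `ℤ[s]` -/
theorem isIntegral_b (h : CuspData p T ε₀ s J u f) :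
    (ev s).IsIntegralElem (f * s ^ (p - 1)) := by
  refine isIntegralElem_of_rel (ev s) (f * s ^ (p - 1)) (p + 1) (Nat.succ_pos p) (Finset.range p)
    (fun k => Polynomial.C (ε₀ * (p : ℤ) ^ (12 * k)) * rho p T k * X ^ (p * k)) (fun k => p - k)
    (Polynomial.C (ε₀ * (p : ℤ) ^ (12 * p)) * X ^ ((p - 1) * (p + 1))) (fun i hi => ?_) ?_
  · omega
  · rw [← h.eqB]
    congr 1
    rw [mul_add (ε₀ : E), Finset.mul_sum]
    congr 1
    · refine Finset.sum_congr rfl (fun k _ => ?_)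
      rw [map_mul, map_mul, ev_C, map_pow, ev_X]
      push_cast
      ring
    · rw [map_mul, ev_C, map_pow, ev_X]
      push_cast
      ring

/-- `y = u^p s^{p-1}` is integral over `ℤ[s]` -/
theorem isIntegral_y (h : CuspData p T ε₀ s J u f) :
    (ev s).IsIntegralElem (u ^ p * s ^ (p - 1)) := by
  have h1 : u ^ p * s ^ (p - 1) = -((ε₀ : E) * (f * s ^ (p - 1)) +
      ∑ k ∈ Finset.range p, ev s (rho p T k) * (u * s) ^ k) := by
    have := h.eqRel
    linear_combination this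
  rw [h1]
  refine RingHom.IsIntegralElem.neg _ (RingHom.IsIntegralElem.add _ ?_ ?_)
  · refine RingHom.IsIntegralElem.mul _ ?_ h.isIntegral_b
    have : (ε₀ : E) = ev s (Polynomial.C ε₀) := by rw [ev_C]
    rw [this]
    exact RingHom.isIntegralElem_map _
  · have hsum : ∀ (I : Finset ℕ), (ev s).IsIntegralElem
        (∑ k ∈ I, ev s (rho p T k) * (u * s) ^ k) := by
      intro I
      classical
      induction I using Finset.induction_on with
      | empty =>
        rw [Finset.sum_empty]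
        have : (0 : E) = ev s 0 := by rw [map_zero]
        rw [this]
        exact RingHom.isIntegralElem_map _
      | insert i I hi ih =>
        rw [Finset.sum_insert hi]
        refine RingHom.IsIntegralElem.add _ (RingHom.IsIntegralElem.mul _
          (RingHom.isIntegralElem_map _) ?_) ih
        have hv := h.isIntegral_v
        clear ih hi
        induction i with
        | zero =>
          rw [pow_zero]
          have : (1 : E) = ev s 1 := by rw [map_one]
          rw [this]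
          exact RingHom.isIntegralElem_map _
        | succ i ih2 =>
          rw [pow_succ]
          exact RingHom.IsIntegralElem.mul _ ih2 hv
    exact hsum _

/-- `v^{p+1} ∈ s ℤ[s, v]` -/
theorem v_pow (h : CuspData p T ε₀ s J u f) :
    ∃ Ψ : Polynomial (Polynomial ℤ), (u * s) ^ (p + 1) + s * ev2 Ψ s (u * s) = 0 := by
  refine ⟨∑ k ∈ Finset.range p, Polynomial.C (rho p T k) * X ^ (k + 1) +
    Polynomial.C (Polynomial.C (ε₀ * (p : ℤ) ^ 12) * X ^ p), ?_⟩
  rw [← h.eqV]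
  congr 2
  unfold ev2
  rw [Polynomial.eval₂_add, Polynomial.eval₂_finsetSum, Polynomial.eval₂_C]
  congr 1
  · refine Finset.sum_congr rfl (fun k _ => ?_)
    rw [Polynomial.eval₂_mul, Polynomial.eval₂_C, Polynomial.eval₂_pow, Polynomial.eval₂_X]
  · rw [map_mul, ev_C, map_pow, ev_X]
    push_cast
    ring

/-- the relation `y + ε₀ b + ε₁ + s r₂ + v r₃ = 0`, `ε₁` = the coefficient of `J^{p-1}` in `c_1` -/
theorem rel (h : CuspData p T ε₀ s J u f) (hp : 1 ≤ p) :
    ∃ (A : Polynomial ℤ) (Ψ : Polynomial (Polynomial ℤ)),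
      u ^ p * s ^ (p - 1) + (ε₀ : E) * (f * s ^ (p - 1)) +
        (((T.coeff 1).coeff (p - 1) : ℤ) : E) + s * ev s A + (u * s) * ev2 Ψ s (u * s) = 0 := by
  refine ⟨(rho p T 0).divX, ∑ k ∈ Finset.range (p - 1), Polynomial.C (rho p T (k + 1)) * X ^ k, ?_⟩
  have h0 := h.eqRel
  obtain ⟨n, hn⟩ : ∃ n, p = n + 1 := ⟨p - 1, by omega⟩
  have e1 : p - 1 = n := by omega
  have hr : Finset.range p = Finset.range (n + 1) := by rw [hn]
  rw [hr, Finset.sum_range_succ'] at h0
  have h2 : ev s (rho p T 0) = s * ev s (rho p T 0).divX + (((T.coeff 1).coeff (p - 1) : ℤ) : E) := by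
    have h3 : (rho p T 0).coeff 0 = (T.coeff 1).coeff (p - 1) := by
      unfold rho
      rw [Polynomial.coeff_reflect, Polynomial.revAt_zero]
      simp only [zero_add, Nat.sub_zero]
    conv_lhs => rw [← Polynomial.divX_mul_X_add (rho p T 0)]
    rw [map_add, map_mul, ev_X, ev_C, h3]
    ring
  have h4 : ev2 (∑ k ∈ Finset.range (p - 1), Polynomial.C (rho p T (k + 1)) * X ^ k) s (u * s) =
      ∑ k ∈ Finset.range n, ev s (rho p T (k + 1)) * (u * s) ^ k := by
    unfold ev2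
    rw [Polynomial.eval₂_finsetSum, e1]
    refine Finset.sum_congr rfl (fun k _ => ?_)
    rw [Polynomial.eval₂_mul, Polynomial.eval₂_C, Polynomial.eval₂_pow, Polynomial.eval₂_X]
  rw [h4]
  rw [pow_zero, mul_one, h2] at h0
  have h5 : ∑ k ∈ Finset.range n, ev s (rho p T (k + 1)) * (u * s) ^ (k + 1) =
      (u * s) * ∑ k ∈ Finset.range n, ev s (rho p T (k + 1)) * (u * s) ^ k := by
    rw [Finset.mul_sum]
    refine Finset.sum_congr rfl (fun k _ => ?_)
    ring
  rw [h5] at h0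
  linear_combination h0

end CuspData

/-! ### the local form: a normal ring `B → F` containing `s = J⁻¹` -/

section local_form

variable {F B : Type} [CommRing F] [CommRing B]

/-- **cusp separation, abstract local form.** -/
theorem cuspSep_abs {p : ℕ} {T : Polynomial (Polynomial ℤ)} {ε₀ : ℤ} {s J u f : F}
    (h : CuspData p T ε₀ s J u f) (hp : 1 ≤ p)
    (hε₁ : (T.coeff 1).coeff (p - 1) = 1 ∨ (T.coeff 1).coeff (p - 1) = -1)
    (ι : B →+* F) (hι : Function.Injective ι)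
    (hN : ∀ x : F, ι.IsIntegralElem x → x ∈ Set.range ι)
    (σ : B) (hσ : ι σ = s) :
    ∃ ν β η : B, ι ν = u * s ∧ ι β = f * s ^ (p - 1) ∧ ι η = u ^ p * s ^ (p - 1) ∧
      ∀ 𝔫 : Ideal B, 𝔫.IsPrime → σ ∈ 𝔫 → ν ∈ 𝔫 ∧ ¬ (β ∈ 𝔫 ∧ η ∈ 𝔫) := by
  have hcomp : ι.comp (ev σ) = ev s := by rw [ev_hom, hσ]
  have hint : ∀ x : F, (ev s).IsIntegralElem x → x ∈ Set.range ι := by
    intro x hx
    rw [← hcomp] at hx
    exact hN x (RingHom.IsIntegralElem.of_comp hx)
  obtain ⟨ν, hν⟩ := hint _ h.isIntegral_v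
  obtain ⟨β, hβ⟩ := hint _ h.isIntegral_b
  obtain ⟨η, hη⟩ := hint _ h.isIntegral_y
  refine ⟨ν, β, η, hν, hβ, hη, ?_⟩
  intro 𝔫 h𝔫 hσ𝔫
  obtain ⟨Ψ₁, hΨ₁⟩ := h.v_pow
  obtain ⟨A, Ψ₃, hrel⟩ := h.rel hp
  -- pull the relations back to `B`
  have h1 : ν ^ (p + 1) + σ * ev2 Ψ₁ σ ν = 0 := by
    apply hι
    rw [map_add, map_mul, map_pow, ev2_hom, hν, hσ, map_zero]
    exact hΨ₁
  have h2 : η + (ε₀ : B) * β + (((T.coeff 1).coeff (p - 1) : ℤ) : B) + σ * ev σ A +
      ν * ev2 Ψ₃ σ ν = 0 := by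
    apply hι
    rw [map_add, map_add, map_add, map_add, map_mul, map_mul, map_mul, ev2_hom, ev_hom_apply,
      hν, hσ, hβ, hη, map_intCast, map_intCast, map_zero]
    exact hrel
  have hν𝔫 : ν ∈ 𝔫 := by
    apply h𝔫.mem_of_pow_mem (p + 1)
    have : ν ^ (p + 1) = -(σ * ev2 Ψ₁ σ ν) := by linear_combination h1
    rw [this]
    exact 𝔫.neg_mem (𝔫.mul_mem_right _ hσ𝔫)
  refine ⟨hν𝔫, ?_⟩
  rintro ⟨hβ𝔫, hη𝔫⟩
  have h3 : (((T.coeff 1).coeff (p - 1) : ℤ) : B) ∈ 𝔫 := by
    have : (((T.coeff 1).coeff (p - 1) : ℤ) : B) =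
        -(η + (ε₀ : B) * β + σ * ev σ A + ν * ev2 Ψ₃ σ ν) := by linear_combination h2
    rw [this]
    exact 𝔫.neg_mem (𝔫.add_mem (𝔫.add_mem (𝔫.add_mem hη𝔫 (𝔫.mul_mem_left _ hβ𝔫))
      (𝔫.mul_mem_right _ hσ𝔫)) (𝔫.mul_mem_right _ hν𝔫))
  apply h𝔫.ne_top
  rw [Ideal.eq_top_iff_one]
  rcases hε₁ with h4 | h4
  · rw [h4] at h3
    simpa using h3
  · rw [h4] at h3
    have := 𝔫.neg_mem h3
    simpa using this

/-- **`J ∈ B` or `J⁻¹ ∈ 𝔪_B`** for a local ring `B → F`, from a relation `a J = c` with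
`c` a unit whenever `a ∈ 𝔪_B`.  (kind 1, chart `M₀`: `a = 1`, `c = j`; chart `M∞`: `a = 1/j`,
`c = 1`; kind 2: `j t² = (t+256)³` resp. `j r = (1+256 r)³`, `r = 1/t`; kind 3 similarly.) -/
theorem j_or_inv [IsLocalRing B] (ι : B →+* F) (J : F) (a c : B) (h : ι a * J = ι c)
    (hc : a ∈ IsLocalRing.maximalIdeal B → IsUnit c) :
    (∃ x : B, ι x = J) ∨ ∃ σ : B, σ ∈ IsLocalRing.maximalIdeal B ∧ ι σ * J = 1 := by
  by_cases ha : a ∈ IsLocalRing.maximalIdeal B
  · right
    obtain ⟨c', hc'⟩ := hc ha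
    refine ⟨a * ((c'⁻¹ : Bˣ) : B), Ideal.mul_mem_right _ _ ha, ?_⟩
    rw [map_mul, mul_right_comm, h, ← hc', ← map_mul, Units.mul_inv, map_one]
  · left
    have hu : IsUnit a := by
      by_contra hna
      exact ha ((IsLocalRing.mem_maximalIdeal a).mpr hna)
    obtain ⟨a', ha'⟩ := hu
    refine ⟨((a'⁻¹ : Bˣ) : B) * c, ?_⟩
    rw [map_mul, ← h, ← mul_assoc, ← map_mul, ← ha', Units.inv_mul, map_one, one_mul]

end local_form

end abs

end H15C

end
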