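import Fermat.Agent.S34.Unit_helper15

/-!
# helper15, item 82 (S34), slice (I4+): degree bounds for the modular-unit equation

`T(j, X) = X^{p+1} + c_p X^p + … + c_1 X + c_0` (`T(j,u) = 0`, `u = p^12 Δ(q^p)/Δ(q)`):
* `deg_j c_k ≤ p - k` for `1 ≤ k ≤ p`,
* the coefficient of `j^{p-1}` in `c_1` is `± 1`.
-/

set_option autoImplicit false

noncomputable section

open ModularCurve HahnSeries Polynomial H28S28 H23M

namespace H15C

section lead

variable {A : Type} [CommRing A]

theorem lead_add {x y : LaurentSeries A} {n : ℤ} {a b : A}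
    (hx : h15g_Lead x n a) (hy : h15g_Lead y n b) : h15g_Lead (x + y) n (a + b) :=
  ⟨fun k hk => by rw [HahnSeries.coeff_add, hx.1 k hk, hy.1 k hk, add_zero],
    by rw [HahnSeries.coeff_add, hx.2, hy.2]⟩

theorem lead_sub {x y : LaurentSeries A} {n : ℤ} {a b : A}
    (hx : h15g_Lead x n a) (hy : h15g_Lead y n b) : h15g_Lead (x - y) n (a - b) :=
  ⟨fun k hk => by rw [HahnSeries.coeff_sub, hx.1 k hk, hy.1 k hk, sub_zero],
    by rw [HahnSeries.coeff_sub, hx.2, hy.2]⟩

theorem lead_mono {x : LaurentSeries A} {n m : ℤ} {a : A} (hx : h15g_Lead x n a) (hm : m < n) :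
    h15g_Lead x m 0 :=
  ⟨fun k hk => hx.1 k (by omega), hx.1 m hm⟩

theorem lead_zero (n : ℤ) : h15g_Lead (0 : LaurentSeries A) n 0 :=
  ⟨fun _ _ => HahnSeries.coeff_zero, HahnSeries.coeff_zero⟩

theorem lead_congr {x : LaurentSeries A} {n m : ℤ} {a b : A} (hx : h15g_Lead x n a)
    (hnm : n = m) (hab : a = b) : h15g_Lead x m b := by
  subst hnm; subst hab; exact hx

/-- **Gauss-type lemma**: if every `y i` has order `≥ -d` with coefficient `a i` at `-d`, then the
`k`-th coefficient of `∏ (X - y i)` has order `≥ -d (n - k)` and its coefficient there is the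
`k`-th coefficient of `∏ (X - a i)`. -/
theorem lead_coeff_prod {ι : Type} (s : Finset ι) (y : ι → LaurentSeries A) (a : ι → A) (d : ℤ)
    (hy : ∀ i ∈ s, h15g_Lead (y i) (-d) (a i)) :
    ∀ k : ℕ, h15g_Lead ((∏ i ∈ s, (X - Polynomial.C (y i))).coeff k) (-(d * ((s.card : ℤ) - k)))
      ((∏ i ∈ s, (X - Polynomial.C (a i))).coeff k) := by
  classical
  induction s using Finset.induction_on with
  | empty =>
    intro k
    simp only [Finset.prod_empty, Finset.card_empty, Nat.cast_zero, zero_sub]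
    rcases Nat.eq_zero_or_pos k with hk | hk
    · subst hk
      simp only [Polynomial.coeff_one_zero, Nat.cast_zero, neg_zero, mul_zero]
      exact h15g_Lead_one
    · rw [Polynomial.coeff_one, if_neg (by omega), Polynomial.coeff_one, if_neg (by omega)]
      exact lead_zero _
  | insert i s hi ih =>
    have ih' := ih (fun j hj => hy j (Finset.mem_insert_of_mem hj))
    have hyi := hy i (Finset.mem_insert_self i s)
    intro k
    rw [Finset.prod_insert hi, Finset.prod_insert hi, Finset.card_insert_of_notMem hi,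
      mul_comm (X - Polynomial.C (y i)), mul_comm (X - Polynomial.C (a i))]
    cases k with
    | zero =>
      simp only [Polynomial.mul_coeff_zero, Polynomial.coeff_sub, Polynomial.coeff_X_zero,
        Polynomial.coeff_C_zero, zero_sub]
      refine lead_congr ((ih' 0).mul hyi.neg) ?_ rfl
      push_cast
      ring
    | succ k =>
      rw [Polynomial.coeff_mul_X_sub_C, Polynomial.coeff_mul_X_sub_C]
      refine lead_sub (lead_congr (ih' k) ?_ rfl) (lead_congr ((ih' (k + 1)).mul hyi) ?_ rfl)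
      · push_cast
        ring
      · push_cast
        ring

end lead

section deg

variable (p : ℕ) [NeZero p] [Fact p.Prime]

/-- the coefficient of `q^{1-p}` of the conjugates of `u` -/
def aLc (ζ : ℂˣ) : Option (Fin p) → ℂ
  | none => 0
  | some b => (ζ : ℂ) ^ (b : ℕ)

theorem lead_yconj (ζ : ℂˣ) (i : Option (Fin p)) :
    h15g_Lead (yconj ℂ p ζ i) (-((p : ℤ) - 1)) (aLc p ζ i) := by
  have hp2 : (2 : ℤ) ≤ p := by exact_mod_cast (Fact.out : p.Prime).two_le
  have h := (h15g_Lead_neg_yconj (A := ℂ) p ζ i).neg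
  rw [neg_neg] at h
  cases i with
  | none =>
    simp only [h15g_ord, h15g_lc] at h
    refine lead_congr (lead_mono h (m := -((p : ℤ) - 1)) ?_) rfl rfl
    nlinarith
  | some b =>
    simp only [h15g_ord, h15g_lc, neg_neg] at h
    exact lead_congr h (by ring) rfl

omit [NeZero p] [Fact p.Prime] in
theorem prod_X_sub_C_aLc (ζ : ℂˣ) :
    (∏ i : Option (Fin p), (X - Polynomial.C (aLc p ζ i))) = X * ∏ b : Fin p, (X - Polynomial.C ((ζ : ℂ) ^ (b : ℕ))) := by
  rw [Fintype.prod_option]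
  simp only [aLc, map_zero, sub_zero]

theorem aLc_coeff_one_sq (ζ : ℂˣ) (hζ : ζ ^ p = 1) :
    ((∏ i : Option (Fin p), (X - Polynomial.C (aLc p ζ i))).coeff 1) ^ 2 = 1 := by
  rw [prod_X_sub_C_aLc, Polynomial.coeff_X_mul, Polynomial.coeff_zero_eq_eval_zero,
    Polynomial.eval_prod]
  simp only [Polynomial.eval_sub, Polynomial.eval_X, Polynomial.eval_C, zero_sub]
  rw [← Finset.prod_pow]
  have : ∀ b : Fin p, (-((ζ : ℂ) ^ (b : ℕ))) ^ 2 = ((ζ : ℂ) ^ 2) ^ (b : ℕ) := by
    intro b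
    rw [neg_sq, ← pow_mul, ← pow_mul, mul_comm]
  simp only [this]
  rw [Fin.prod_univ_eq_prod_range (fun b => ((ζ : ℂ) ^ 2) ^ b) p,
    Finset.prod_pow_eq_pow_sum, ← pow_mul, mul_comm 2, Finset.sum_range_id_mul_two,
    pow_mul]
  have hz : (ζ : ℂ) ^ p = 1 := by
    rw [← Units.val_pow_eq_pow_val, hζ, Units.val_one]
  rw [hz, one_pow]

omit [Fact p.Prime] in
theorem baseEval_eq_eval₂ (c : Polynomial ℤ) :
    baseEval ℂ p c = Polynomial.eval₂ (HahnSeries.C : ℂ →+* LaurentSeries ℂ)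
      (qExpand ℂ p (jqModC ℂ)) (c.map (Int.castRingHom ℂ)) := by
  rw [← evC_comp_map]
  rfl

variable (T : Polynomial (Polynomial ℤ)) (ζ₀ : ℂˣ)
  (hT : T.map (baseEval ℂ p) = ∏ i : Option (Fin p), (X - Polynomial.C (yconj ℂ p ζ₀ i)))

include hT

/-- the `k`-th coefficient of `T`, evaluated at `j(s^p)`, has order `≥ -(p-1)(p+1-k)` -/
theorem lead_T_coeff (k : ℕ) :
    h15g_Lead (baseEval ℂ p (T.coeff k)) (-(((p : ℤ) - 1) * ((p : ℤ) + 1 - k)))
      ((∏ i : Option (Fin p), (X - Polynomial.C (aLc p ζ₀ i))).coeff k) := by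
  have h1 : (T.map (baseEval ℂ p)).coeff k = baseEval ℂ p (T.coeff k) := Polynomial.coeff_map _ _
  rw [← h1, hT]
  have h := lead_coeff_prod (Finset.univ : Finset (Option (Fin p))) (yconj ℂ p ζ₀) (aLc p ζ₀)
    ((p : ℤ) - 1) (fun i _ => lead_yconj p ζ₀ i) k
  refine lead_congr h ?_ rfl
  rw [Finset.card_univ, Fintype.card_option, Fintype.card_fin]
  push_cast
  ring

/-- **degree bound**: `deg_j c_k ≤ p - k` for `1 ≤ k ≤ p` -/
theorem natDegree_T_coeff_le (k : ℕ) (hkp : k ≤ p) :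
    (T.coeff k).natDegree ≤ p - k := by
  set c := T.coeff k with hc
  set cC : Polynomial ℂ := c.map (Int.castRingHom ℂ) with hcC
  have hdeg : cC.natDegree = c.natDegree :=
    Polynomial.natDegree_map_eq_of_injective (f := Int.castRingHom ℂ) Int.cast_injective c
  by_contra hcon
  rw [not_le] at hcon
  have hL := lead_T_coeff p T ζ₀ hT k
  have h1 := h21_coeff_eval₂ p cC cC.natDegree le_rfl
  rw [← baseEval_eq_eval₂ p c] at h1
  have hp0 : (0 : ℤ) < p := by exact_mod_cast Nat.pos_of_ne_zero (NeZero.ne p)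
  have hlt : -((p : ℤ) * (cC.natDegree : ℤ)) < -(((p : ℤ) - 1) * ((p : ℤ) + 1 - k)) := by
    have h2 : ((p : ℤ) + 1 - k) ≤ (cC.natDegree : ℤ) := by
      rw [hdeg]
      have : p - k + 1 ≤ c.natDegree := hcon
      have hkp' : (k : ℤ) ≤ p := by exact_mod_cast hkp
      have : ((p - k + 1 : ℕ) : ℤ) ≤ (c.natDegree : ℤ) := by exact_mod_cast this
      rw [Nat.cast_add, Nat.cast_sub hkp] at this
      push_cast at this
      linarith
    have h3 : (1 : ℤ) ≤ (p : ℤ) + 1 - k := by
      have hkp' : (k : ℤ) ≤ p := by exact_mod_cast hkp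
      linarith
    nlinarith
  rw [hL.1 _ hlt] at h1
  have h2 : cC = 0 := Polynomial.leadingCoeff_eq_zero.mp h1.symm
  have h3 : c.natDegree = 0 := by rw [← hdeg, h2, Polynomial.natDegree_zero]
  omega

/-- **leading coefficient of `c_1`**: the coefficient of `j^{p-1}` in `c_1` is `± 1` -/
theorem T_coeff_one_lead (hζ₀ : ζ₀ ^ p = 1) :
    (T.coeff 1).coeff (p - 1) = 1 ∨ (T.coeff 1).coeff (p - 1) = -1 := by
  have hp1 : 1 ≤ p := Nat.pos_of_ne_zero (NeZero.ne p)
  set c := T.coeff 1 with hc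
  set cC : Polynomial ℂ := c.map (Int.castRingHom ℂ) with hcC
  have hdeg : cC.natDegree = c.natDegree :=
    Polynomial.natDegree_map_eq_of_injective (f := Int.castRingHom ℂ) Int.cast_injective c
  have hle : cC.natDegree ≤ p - 1 := by
    rw [hdeg]
    exact natDegree_T_coeff_le p T ζ₀ hT 1 hp1
  have hL := lead_T_coeff p T ζ₀ hT 1
  have h1 := h21_coeff_eval₂ p cC (p - 1) hle
  rw [← baseEval_eq_eval₂ p c] at h1
  have he : -((p : ℤ) * ((p - 1 : ℕ) : ℤ)) = -(((p : ℤ) - 1) * ((p : ℤ) + 1 - (1 : ℕ))) := by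
    rw [Nat.cast_sub hp1]
    push_cast
    ring
  rw [he, hL.2] at h1
  have hsq := aLc_coeff_one_sq p ζ₀ hζ₀
  rw [h1, hcC, Polynomial.coeff_map] at hsq
  have hsqZ : (c.coeff (p - 1)) ^ 2 = 1 := by
    have : (((c.coeff (p - 1)) ^ 2 : ℤ) : ℂ) = ((1 : ℤ) : ℂ) := by
      push_cast
      simpa using hsq
    exact_mod_cast this
  exact sq_eq_sq_iff_eq_or_eq_neg.mp (by rw [hsqZ, one_pow])

end deg

end H15C

end
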