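import Fermat.Agent.S34.CuspAbs_helper15
import Fermat.Agent.S34.CuspDeg_helper15

/-!
# helper15, item 82 (S34), slice (I4+): cusp separation and the local vertical pair

`F` = a ring of functions with an injective `θ : F → K((q))` (`K` a field of characteristic `0`),
`J u f : F` with `θ J = j`, `θ u = u_p = p^12 Δ(q^p)/Δ(q)`, `θ f = f_p = Δ(q)/Δ(q^p)`;
`B → F` a ring which is integrally closed in `F` (e.g. the local ring of a closed point of a
chart of the integral model).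

* `H15C.vertPair`: if `J ∈ B` (non-cuspidal point) then `f, u ∈ B` and `u f = p^12`.
* `H15C.cuspSep`: if `σ = J⁻¹ ∈ B` then `ν = u σ`, `β = f σ^{p-1}`, `η = u^p σ^{p-1}` are in `B`,
  and a prime `𝔫 ∋ σ` of `B` contains `ν` and does not contain both `β` and `η`.
* `H15C.local_alt`: the alternative at a closed point (local `B`).
-/

set_option autoImplicit false

noncomputable section

open ModularCurve HahnSeries Polynomial H28S28 H23M

namespace H15C

/-- the modular equation triple of a prime `p`, with the degree bounds of `T` -/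
theorem exists_modTriple_deg (p : ℕ) [NeZero p] [Fact p.Prime] :
    ∃ Φ T G : Polynomial (Polynomial ℤ), Φ.Monic ∧ Φ.natDegree = p + 1 ∧ T.Monic ∧
      T.natDegree = p + 1 ∧
      (T.coeff 0 = Polynomial.C ((p : ℤ) ^ 12) ∨ T.coeff 0 = Polynomial.C (-(p : ℤ) ^ 12)) ∧
      H15U.IsModTriple p Φ T G ∧
      (∀ k, k ≤ p → (T.coeff k).natDegree ≤ p - k) ∧
      ((T.coeff 1).coeff (p - 1) = 1 ∨ (T.coeff 1).coeff (p - 1) = -1) := by
  obtain ⟨Φ, T, G, h1, h2, h3, h4, h5, h6⟩ := H15U.exists_modTriple p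
  obtain ⟨ζ₀, hζ₀⟩ := h10_exists_zeta' ℂ p
  have hT := (h6 ℂ ζ₀ hζ₀).2.1
  exact ⟨Φ, T, G, h1, h2, h3, h4, h5, h6, natDegree_T_coeff_le p T ζ₀ hT,
    T_coeff_one_lead p T ζ₀ hT (h21_unit_pow_eq_one p ζ₀ hζ₀)⟩

theorem natCast_pow_ne_zero' (p : ℕ) [NeZero p] (K : Type) [Field K] [CharZero K] :
    ((p : LaurentSeries K) ^ 12) ≠ 0 := by
  apply pow_ne_zero
  have hC : (p : LaurentSeries K) = HahnSeries.C (p : K) := by simp
  rw [hC]
  intro h00
  have := HahnSeries.C_injective (Γ := ℤ) (R := K) (h00.trans (map_zero _).symm)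
  exact (NeZero.ne p) (by exact_mod_cast this)

theorem uf_eq (p : ℕ) [NeZero p] {K : Type} [Field K]
    {F : Type} [CommRing F] (θ : F →+* LaurentSeries K) (hθ : Function.Injective θ)
    (u f : F) (hu : θ u = H15U.uq K p) (hf : θ f = H15U.fq K p) : u * f = (p : F) ^ 12 := by
  apply hθ
  rw [map_mul, hu, hf, map_pow, map_natCast]
  exact H15U.uq_mul_fq K p

section concrete

variable (p : ℕ) [NeZero p] [Fact p.Prime] {K : Type} [Field K] [CharZero K]
  {F : Type} [CommRing F] (θ : F →+* LaurentSeries K) (hθ : Function.Injective θ)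
  (J u f : F) (hJ : θ J = jqModC K) (hu : θ u = H15U.uq K p) (hf : θ f = H15U.fq K p)

include hθ hJ hu hf

/-- the cusp data in `F` -/
theorem exists_cuspData (s : F) (hs : s * J = 1) :
    ∃ (T : Polynomial (Polynomial ℤ)) (ε₀ : ℤ), CuspData p T ε₀ s J u f ∧
      ((T.coeff 1).coeff (p - 1) = 1 ∨ (T.coeff 1).coeff (p - 1) = -1) := by
  obtain ⟨Φ, T, G, -, -, hTm, hTd, hT0, hM, hdeg, hlead⟩ := exists_modTriple_deg p
  have hroot : ev2 T J u = 0 := by
    apply hθ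
    rw [ev2_hom, hJ, hu, map_zero]
    exact H15U.T_root_u p Φ T G hM K
  have hcancel : ∀ x : F, (p : F) ^ 12 * x = 0 → x = 0 := by
    intro x hx
    apply hθ
    have h1 := congrArg θ hx
    rw [map_mul, map_pow, map_natCast, map_zero] at h1
    rw [map_zero]
    rcases mul_eq_zero.mp h1 with h2 | h2
    · exact absurd h2 (natCast_pow_ne_zero' p K)
    · exact h2
  rcases hT0 with h0 | h0
  · exact ⟨T, 1, ⟨hTm, hTd, hdeg, by rw [h0, one_mul], by norm_num, hs,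
      uf_eq p θ hθ u f hu hf, hroot, hcancel⟩, hlead⟩
  · exact ⟨T, -1, ⟨hTm, hTd, hdeg, by rw [h0]; congr 1; ring, by norm_num, hs,
      uf_eq p θ hθ u f hu hf, hroot, hcancel⟩, hlead⟩

variable {B : Type} [CommRing B] (ι : B →+* F) (hι : Function.Injective ι)
  (hN : ∀ x : F, ι.IsIntegralElem x → x ∈ Set.range ι)

include hι hN

/-- **cusp separation (local form).** If `σ = J⁻¹ ∈ B` (cuspidal point), then
`ν = u σ`, `β = f σ^{p-1}`, `η = u^p σ^{p-1}` lie in `B`, every prime `𝔫 ∋ σ` contains `ν`, and no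
prime `𝔫 ∋ σ` contains both `β` and `η`. -/
theorem cuspSep (σ : B) (hσ : ι σ * J = 1) :
    ∃ ν β η : B, ι ν = u * ι σ ∧ ι β = f * ι σ ^ (p - 1) ∧ ι η = u ^ p * ι σ ^ (p - 1) ∧
      ∀ 𝔫 : Ideal B, 𝔫.IsPrime → σ ∈ 𝔫 → ν ∈ 𝔫 ∧ ¬ (β ∈ 𝔫 ∧ η ∈ 𝔫) := by
  obtain ⟨T, ε₀, hD, hlead⟩ := exists_cuspData p θ hθ J u f hJ hu hf (ι σ) hσ
  exact cuspSep_abs hD (Fact.out : p.Prime).one_lt.le hlead ι hι hN σ rfl

/-- **cusp separation**, with `β`, `η` characterised by `β J^{p-1} = f`, `η J^{p-1} = u^p`. -/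
theorem cuspSep' (σ : B) (hσ : ι σ * J = 1) :
    ∃ β η : B, ι β * J ^ (p - 1) = f ∧ ι η * J ^ (p - 1) = u ^ p ∧
      ∀ 𝔫 : Ideal B, 𝔫.IsPrime → σ ∈ 𝔫 → ¬ (β ∈ 𝔫 ∧ η ∈ 𝔫) := by
  obtain ⟨ν, β, η, -, hβ, hη, h⟩ := cuspSep p θ hθ J u f hJ hu hf ι hι hN σ hσ
  have h1 : ι σ ^ (p - 1) * J ^ (p - 1) = 1 := by rw [← mul_pow, hσ, one_pow]
  refine ⟨β, η, ?_, ?_, fun 𝔫 h𝔫 hσ𝔫 => (h 𝔫 h𝔫 hσ𝔫).2⟩
  · rw [hβ, mul_assoc, h1, mul_one]
  · rw [hη, mul_assoc, h1, mul_one]

/-- **vertical pair (local form).** If `J ∈ B` (non-cuspidal point), then `f, u ∈ B` and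
`u f = p^12` in `B`. -/
theorem vertPair (a : B) (ha : ι a = J) :
    ∃ g g' : B, ι g = f ∧ ι g' = u ∧ g' * g = (p : B) ^ 12 := by
  have hcomp : ι.comp (ev a) = ev J := by rw [ev_hom, ha]
  have hint : ∀ x : F, (h10ev (jqModC K)).IsIntegralElem (θ x) → x ∈ Set.range ι := by
    intro x hx
    apply hN
    obtain ⟨P, hP, hPx⟩ := hx
    have h1 : (ι.comp (ev a)).IsIntegralElem x := by
      refine ⟨P, hP, ?_⟩
      apply hθ
      rw [hcomp, Polynomial.hom_eval₂, ev_hom, hJ, map_zero]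
      exact hPx
    exact RingHom.IsIntegralElem.of_comp h1
  obtain ⟨g, hg⟩ := hint f (by rw [hf]; exact H15U.fq_integral p K)
  obtain ⟨g', hg'⟩ := hint u (by rw [hu]; exact H15U.uq_integral p K)
  refine ⟨g, g', hg, hg', ?_⟩
  apply hι
  rw [map_mul, hg, hg', map_pow, map_natCast]
  exact uf_eq p θ hθ u f hu hf

/-- **the alternative at a closed point**: `B` local and normal in `F`, `a J = c` in `B` with `c`
a unit if `a ∈ 𝔪_B`.  Either the vertical pair `(f, u)` lies in `B` (then the point is regular or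
a node), or there are `β, η ∈ B` with `β J^{p-1} = f`, `η J^{p-1} = u^p`, not both in `𝔪_B`
(then the point lies on exactly one of the two components). -/
theorem local_alt [IsLocalRing B] (a c : B) (h : ι a * J = ι c)
    (hc : a ∈ IsLocalRing.maximalIdeal B → IsUnit c) :
    (∃ g g' : B, ι g = f ∧ ι g' = u ∧ g' * g = (p : B) ^ 12) ∨
    (∃ β η : B, ι β * J ^ (p - 1) = f ∧ ι η * J ^ (p - 1) = u ^ p ∧
      ¬ (β ∈ IsLocalRing.maximalIdeal B ∧ η ∈ IsLocalRing.maximalIdeal B)) := by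
  rcases j_or_inv ι J a c h hc with ⟨x, hx⟩ | ⟨σ, hσ, hσJ⟩
  · exact Or.inl (vertPair p θ hθ J u f hJ hu hf ι hι hN x hx)
  · right
    obtain ⟨β, η, hβ, hη, hsep⟩ := cuspSep' p θ hθ J u f hJ hu hf ι hι hN σ hσJ
    exact ⟨β, η, hβ, hη, hsep _ (IsLocalRing.maximalIdeal.isMaximal B).isPrime hσ⟩

end concrete

end H15C

end
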