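/-
Item 82 (S34), Step G, **(ET) ⟹ incidence** in abstract form (helper3).  Mathlib only.

`B → C` rings, `A` a group acting on `C` by ring automorphisms fixing the image of `B`
(`C` = integral closure of the model `M` in the Kummer tower `L`, `A = Gal(L/F₁)`), `P` a prime
of `B` (the component `P₁` or `P₂`).

* `(H1)` `A` is transitive on the primes of `C` over `P`;
* `(H2)` `C = B + W` for the primes `W` of `C` over `P`
  (residue degree one + normality of `B/P`);
* `(H3)` the inertia at the ideal `n` of `C` is trivial: an `a ∈ A` with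
  `a • c - c ∈ n` for all `c` is `1` (unit form `h = u gⁿ` at the point, from LNC / RegPoint),
  and `A` acts freely on the primes over `P` (total splitting).

Then
* `(u1)` a proper ideal `n` contains at most one prime `W` over `P`;
* `(u2)` a prime `W` over `P` is contained in at most one prime `n` over a given prime of `B`.

These are the hypotheses `hnW`, `hWn` of `H11S34.stepG_central` (helper11).
-/
import Mathlib

set_option autoImplicit false
set_option linter.style.haveILetI false

namespace H3ET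

open Pointwise

variable {B C : Type*} [CommRing B] [CommRing C] [Algebra B C]

/-- `(H2)`: `C = B + W`. -/
def SplitAt (B : Type*) {C : Type*} [CommRing B] [CommRing C] [Algebra B C] (W : Ideal C) : Prop :=
  ∀ c : C, ∃ b : B, c - algebraMap B C b ∈ W

/-- `(u2)`: a prime `W` with `C = B + W` lies in at most one ideal over a given ideal of `B`. -/
theorem h3et_u2 {W : Ideal C} (hW : SplitAt B W) {n n' : Ideal C} (hn : W ≤ n) (hn' : W ≤ n')
    (h : n.comap (algebraMap B C) = n'.comap (algebraMap B C)) : n = n' := by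
  have key : ∀ m m' : Ideal C, W ≤ m → W ≤ m' →
      m.comap (algebraMap B C) = m'.comap (algebraMap B C) → m ≤ m' := by
    intro m m' hm hm' hmm x hx
    obtain ⟨b, hb⟩ := hW x
    have h1 : algebraMap B C b ∈ m := by
      have : algebraMap B C b = x - (x - algebraMap B C b) := by ring
      rw [this]
      exact m.sub_mem hx (hm hb)
    have h2 : b ∈ m'.comap (algebraMap B C) := by
      rw [← hmm]
      exact h1
    have : x = (x - algebraMap B C b) + algebraMap B C b := by ring
    rw [this]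
    exact m'.add_mem (hm' hb) h2
  exact le_antisymm (key n n' hn hn' h) (key n' n hn' hn h.symm)

variable {A : Type*} [Group A] [MulSemiringAction A C] [SMulCommClass A B C]

omit [SMulCommClass A B C] in
/-- `a • W` as an ideal -/
theorem h3et_mem_smul (a : A) (W : Ideal C) (x : C) : a • x ∈ a • W ↔ x ∈ W :=
  Ideal.smul_mem_pointwise_smul_iff

/-- `A` fixes the image of `B` -/
theorem h3et_smul_algebraMap (a : A) (b : B) : a • algebraMap B C b = algebraMap B C b := by
  rw [Algebra.algebraMap_eq_smul_one, smul_comm, smul_one]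

/-- if `W` and `a • W` lie in `n` and `C = B + W`, then `a` acts trivially modulo `n`. -/
theorem h3et_trivial_mod {W : Ideal C} (hW : SplitAt B W) (a : A) {n : Ideal C} (hn : W ≤ n)
    (hn' : a • W ≤ n) (c : C) : a • c - c ∈ n := by
  obtain ⟨b, hb⟩ := hW c
  have h1 : a • (c - algebraMap B C b) ∈ a • W := (h3et_mem_smul a W _).2 hb
  have h2 : a • c - c = a • (c - algebraMap B C b) - (c - algebraMap B C b) := by
    rw [smul_sub, h3et_smul_algebraMap]
    ring
  rw [h2]
  exact n.sub_mem (hn' h1) (hn hb)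

/-- `(u1)`: an ideal `n` with trivial inertia contains at most one prime of an `A`-orbit of primes
`W` with `C = B + W`. -/
theorem h3et_u1 {W : Ideal C} (hW : SplitAt B W) {n : Ideal C}
    (hinert : ∀ a : A, (∀ c : C, a • c - c ∈ n) → a = 1)
    (a : A) (hn : W ≤ n) (hn' : a • W ≤ n) : a = 1 :=
  hinert a (h3et_trivial_mod hW a hn hn')

/-- `(u1)`, orbit form: two primes over `P` in the same ideal `n` with trivial inertia coincide. -/
theorem h3et_u1' {W W' : Ideal C} (hW : SplitAt B W) {n : Ideal C}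
    (hinert : ∀ a : A, (∀ c : C, a • c - c ∈ n) → a = 1)
    (htrans : ∃ a : A, W' = a • W) (hn : W ≤ n) (hn' : W' ≤ n) : W' = W := by
  obtain ⟨a, rfl⟩ := htrans
  rw [h3et_u1 hW hinert a hn hn', one_smul]

/-- the inertia at `n` is trivial when every `a ≠ 1` moves some element `c` with
`a • c = χ c`, `χ - 1 ∉ n`, `c ∉ n` (Kummer generator which is a unit at `n`), `n` prime. -/
theorem h3et_inert_of_kummer {n : Ideal C} [n.IsPrime]
    (hk : ∀ a : A, a ≠ 1 → ∃ c χ : C, a • c = χ * c ∧ χ - 1 ∉ n ∧ c ∉ n)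
    (a : A) (ha : ∀ c : C, a • c - c ∈ n) : a = 1 := by
  by_contra h
  obtain ⟨c, χ, h1, h2, h3⟩ := hk a h
  have h4 := ha c
  rw [h1] at h4
  have h5 : χ * c - c = (χ - 1) * c := by ring
  rw [h5] at h4
  rcases Ideal.IsPrime.mem_or_mem inferInstance h4 with h6 | h6
  · exact h2 h6
  · exact h3 h6

/-- `(H2)` from residue degree one and normality of `B/P`: if every element of `C` is, modulo
`W`, a fraction `b₁/b₂` with `b₂ ∉ P` (`κ(W) = κ(P)`), `C` is integral over `B` and `B/P` is
integrally closed, then `C = B + W`. -/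
theorem h3et_split_of_normal {P : Ideal B} [P.IsPrime] {W : Ideal C} [W.IsPrime]
    (hWP : W.comap (algebraMap B C) = P) [Algebra.IsIntegral B C]
    [IsIntegrallyClosed (B ⧸ P)]
    (hdeg : ∀ c : C, ∃ b₁ b₂ : B, b₂ ∉ P ∧ algebraMap B C b₂ * c - algebraMap B C b₁ ∈ W) :
    SplitAt B W := by
  intro c
  -- the map `B/P → C/W`
  let φ : B ⧸ P →+* C ⧸ W :=
    Ideal.quotientMap W (algebraMap B C) (by rw [← hWP])
  have hφ : Function.Injective φ := by
    apply Ideal.quotientMap_injective' 
    rw [hWP]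
  letI : Algebra (B ⧸ P) (C ⧸ W) := φ.toAlgebra
  obtain ⟨b₁, b₂, hb₂, hc⟩ := hdeg c
  -- `c̄` is integral over `B/P`
  have hint : IsIntegral (B ⧸ P) (Ideal.Quotient.mk W c) := by
    obtain ⟨f, hf, hfc⟩ := Algebra.IsIntegral.isIntegral (R := B) c
    refine ⟨f.map (Ideal.Quotient.mk P), hf.map _, ?_⟩
    rw [Polynomial.eval₂_map]
    have : (algebraMap (B ⧸ P) (C ⧸ W)).comp (Ideal.Quotient.mk P)
        = (Ideal.Quotient.mk W).comp (algebraMap B C) := by
      ext x
      rfl
    rw [this, ← Polynomial.hom_eval₂, hfc, map_zero]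
  -- `b̄₂ c̄ = b̄₁`
  have hrel : algebraMap (B ⧸ P) (C ⧸ W) (Ideal.Quotient.mk P b₂) * Ideal.Quotient.mk W c
      = algebraMap (B ⧸ P) (C ⧸ W) (Ideal.Quotient.mk P b₁) := by
    show Ideal.Quotient.mk W (algebraMap B C b₂) * Ideal.Quotient.mk W c
      = Ideal.Quotient.mk W (algebraMap B C b₁)
    rw [← map_mul, ← sub_eq_zero, ← map_sub, Ideal.Quotient.eq_zero_iff_mem]
    exact hc
  have hb₂' : Ideal.Quotient.mk P b₂ ≠ 0 := by
    rw [Ne, Ideal.Quotient.eq_zero_iff_mem]
    exact hb₂
  -- pass to fraction fields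
  haveI : IsDomain (C ⧸ W) := Ideal.Quotient.isDomain W
  haveI : IsDomain (B ⧸ P) := Ideal.Quotient.isDomain P
  have hg : Function.Injective (algebraMap (B ⧸ P) (FractionRing (C ⧸ W))) := by
    rw [IsScalarTower.algebraMap_eq (B ⧸ P) (C ⧸ W) (FractionRing (C ⧸ W))]
    exact (IsFractionRing.injective (C ⧸ W) (FractionRing (C ⧸ W))).comp hφ
  have hg' : Function.Injective (Algebra.ofId (B ⧸ P) (FractionRing (C ⧸ W))) := hg
  let f : FractionRing (B ⧸ P) →ₐ[B ⧸ P] FractionRing (C ⧸ W) :=
    IsFractionRing.liftAlgHom (K := FractionRing (B ⧸ P)) hg'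
  have hfinj : Function.Injective f := f.toRingHom.injective
  set x : FractionRing (B ⧸ P) :=
    algebraMap (B ⧸ P) (FractionRing (B ⧸ P)) (Ideal.Quotient.mk P b₁) /
      algebraMap (B ⧸ P) (FractionRing (B ⧸ P)) (Ideal.Quotient.mk P b₂) with hx
  have hb₂K : algebraMap (B ⧸ P) (FractionRing (B ⧸ P)) (Ideal.Quotient.mk P b₂) ≠ 0 := by
    intro h
    exact hb₂' ((IsFractionRing.injective (B ⧸ P) (FractionRing (B ⧸ P)))
      (h.trans (map_zero _).symm))
  have hb₂K' : algebraMap (B ⧸ P) (FractionRing (C ⧸ W)) (Ideal.Quotient.mk P b₂) ≠ 0 := by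
    intro h
    exact hb₂' (hg (h.trans (map_zero _).symm))
  have hfx : f x = algebraMap (C ⧸ W) (FractionRing (C ⧸ W)) (Ideal.Quotient.mk W c) := by
    rw [hx, map_div₀, AlgHom.commutes, AlgHom.commutes, div_eq_iff hb₂K']
    rw [IsScalarTower.algebraMap_apply (B ⧸ P) (C ⧸ W) (FractionRing (C ⧸ W)),
      IsScalarTower.algebraMap_apply (B ⧸ P) (C ⧸ W) (FractionRing (C ⧸ W)), ← hrel, map_mul,
      mul_comm]
  have hxint : IsIntegral (B ⧸ P) x := by
    rw [← isIntegral_algHom_iff f hfinj, hfx]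
    exact hint.algebraMap
  obtain ⟨y, hy⟩ := IsIntegrallyClosed.algebraMap_eq_of_integral hxint
  have hy2 : Ideal.Quotient.mk P b₂ * y = Ideal.Quotient.mk P b₁ := by
    apply IsFractionRing.injective (B ⧸ P) (FractionRing (B ⧸ P))
    rw [map_mul, hy, hx, mul_div_cancel₀ _ hb₂K]
  obtain ⟨b, rfl⟩ := Ideal.Quotient.mk_surjective y
  refine ⟨b, ?_⟩
  rw [← Ideal.Quotient.eq_zero_iff_mem, map_sub, sub_eq_zero]
  have h1 : algebraMap (B ⧸ P) (C ⧸ W) (Ideal.Quotient.mk P b₂) *
      (Ideal.Quotient.mk W c - Ideal.Quotient.mk W (algebraMap B C b)) = 0 := by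
    rw [mul_sub, hrel, ← hy2, map_mul]
    show _ - _ * Ideal.Quotient.mk W (algebraMap B C b) = 0
    exact sub_self _
  rcases mul_eq_zero.1 h1 with h2 | h2
  · exact absurd (hφ (h2.trans (map_zero _).symm)) hb₂'
  · exact sub_eq_zero.1 h2

end H3ET
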