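/-
helper24: item 82 (S34), slice (I3) concrete, half FROB (with helper12).

H28GV language: `L` a field, `A ⊆ L` a valuation subring, `π : A →+* k`, `char k = ℓ`.
* `H24FR.qExpand_mem_gvO`, `H24FR.gvRed_qExpand`: the substitution `q ↦ q^d` preserves the Gauss
  ring `gvO A π` and commutes with the reduction `gvRed`.
* `H24FR.frob_w1`: **Kronecker / Frobenius congruence, `w1`-half**: if `f, f₁ ∈ gvO` and the
  coefficientwise Frobenius twist of `red f₁` is `red f`, then `f(q^ℓ) - f₁^ℓ` has reduction `0`.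
* `H24FR.frob_w1_perfect`: the same with `red f₁ = Frob⁻¹`-twist of `red f` (`k` perfect).
-/
import Mathlib
import Fermat.Agent.S18.GVBase_helper28
import Fermat.Agent.S37.R3Red_helper23
import Fermat.Prelude.Thm_ModularCurve_coeffMap_qExpand

set_option autoImplicit false
set_option linter.unusedSectionVars false
set_option linter.unusedVariables false
set_option linter.style.haveILetI false

open ModularCurve HahnSeries

noncomputable section

namespace H24FR

open H28GV

variable {L : Type} [Field L] (A : ValuationSubring L) {k : Type} [Field k] (π : A →+* k)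

/-- `q ↦ q^d` commutes with `gvEps` -/
theorem gvEps_qExpand (d : ℕ) [NeZero d] (f : LaurentSeries A) :
    gvEps A (qExpand A d f) = qExpand L d (gvEps A f) :=
  coeffMap_qExpand A.subtype d f

/-- `q ↦ q^d` commutes with `gvRho` -/
theorem gvRho_qExpand (d : ℕ) [NeZero d] (f : LaurentSeries A) :
    gvRho A π (qExpand A d f) = qExpand k d (gvRho A π f) :=
  coeffMap_qExpand π d f

/-- `q ↦ q^d` preserves the Gauss ring -/
theorem qExpand_mem_gvO (d : ℕ) [NeZero d] {x : LaurentSeries L} (hx : x ∈ gvO A π) :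
    qExpand L d x ∈ gvO A π := by
  obtain ⟨f, g, hg, h⟩ := hx
  refine ⟨qExpand A d f, qExpand A d g, ?_, ?_⟩
  · rw [gvRho_qExpand]
    intro h0
    exact hg (qExpand_injective d (h0.trans (map_zero _).symm))
  · rw [gvEps_qExpand, gvEps_qExpand, ← map_mul, h]

/-- `q ↦ q^d` commutes with the reduction -/
theorem gvRed_qExpand (d : ℕ) [NeZero d] (x : gvO A π) :
    gvRed A π ⟨qExpand L d (x : LaurentSeries L), qExpand_mem_gvO A π d x.2⟩ =
      qExpand k d (gvRed A π x) := by
  obtain ⟨f, g, hg, h⟩ := x.2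
  have hg' : gvRho A π (qExpand A d g) ≠ 0 := by
    rw [gvRho_qExpand]
    intro h0
    exact hg (qExpand_injective d (h0.trans (map_zero _).symm))
  have h' : qExpand L d (x : LaurentSeries L) * gvEps A (qExpand A d g) =
      gvEps A (qExpand A d f) := by
    rw [gvEps_qExpand, gvEps_qExpand, ← map_mul, h]
  rw [gvRed_eq A π ⟨qExpand L d (x : LaurentSeries L), qExpand_mem_gvO A π d x.2⟩
      (qExpand A d f) (qExpand A d g) hg' h', gvRed_eq A π x f g hg h, gvRho_qExpand,
    gvRho_qExpand, map_div₀]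

variable (ℓ : ℕ) [Fact ℓ.Prime] [CharP k ℓ]

/-- the element `f(q^ℓ) - f₁^ℓ` of the Gauss ring -/
def frobDiff (f f₁ : gvO A π) : gvO A π :=
  haveI : NeZero ℓ := ⟨(Fact.out : ℓ.Prime).ne_zero⟩
  ⟨qExpand L ℓ (f : LaurentSeries L), qExpand_mem_gvO A π ℓ f.2⟩ - f₁ ^ ℓ

theorem frobDiff_coe (f f₁ : gvO A π) :
    haveI : NeZero ℓ := ⟨(Fact.out : ℓ.Prime).ne_zero⟩
    ((frobDiff A π ℓ f f₁ : gvO A π) : LaurentSeries L) =
      qExpand L ℓ (f : LaurentSeries L) - (f₁ : LaurentSeries L) ^ ℓ := rfl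

/-- **Frobenius congruence, `w1`-half**: if `Frob(red f₁) = red f` (coefficientwise Frobenius),
then `f(q^ℓ) ≡ f₁^ℓ` modulo the maximal ideal of the Gauss ring. -/
theorem frob_w1 (f f₁ : gvO A π)
    (h : coeffMap (frobenius k ℓ) (gvRed A π f₁) = gvRed A π f) :
    gvRed A π (frobDiff A π ℓ f f₁) = 0 := by
  haveI : NeZero ℓ := ⟨(Fact.out : ℓ.Prime).ne_zero⟩
  unfold frobDiff
  rw [map_sub, map_pow, gvRed_qExpand, H23R3.h23r3_frobenius ℓ (gvRed A π f₁), h, sub_self]

/-- the coefficientwise inverse Frobenius of a perfect field -/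
def frobInv [PerfectRing k ℓ] : LaurentSeries k →+* LaurentSeries k :=
  coeffMap ((frobeniusEquiv k ℓ).symm : k →+* k)

theorem frob_frobInv [PerfectRing k ℓ] (x : LaurentSeries k) :
    coeffMap (frobenius k ℓ) (frobInv ℓ x) = x := by
  unfold frobInv
  rw [coeffMap_coeffMap]
  have : (frobenius k ℓ).comp ((frobeniusEquiv k ℓ).symm : k →+* k) = RingHom.id k := by
    ext a
    simp
  rw [this, coeffMap_id]

/-- **Frobenius congruence, `w1`-half, perfect residue field**: if `red f₁` is the inverse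
Frobenius twist of `red f`, then `f(q^ℓ) ≡ f₁^ℓ` modulo the maximal ideal of the Gauss ring. -/
theorem frob_w1_perfect [PerfectRing k ℓ] (f f₁ : gvO A π)
    (h : gvRed A π f₁ = frobInv ℓ (gvRed A π f)) :
    gvRed A π (frobDiff A π ℓ f f₁) = 0 :=
  frob_w1 A π ℓ f f₁ (by rw [h, frob_frobInv])

end H24FR

end
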