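import Mathlib
import Fermat.Agent.S18.Defs

/-!
# S34 (item 82), helper1: the generic glue "CL applied once to `v = (τ-1)² f`"

Interface (exact statements).  Generic setting of `H7S18`: `R` a DVR with uniformizer `ϖ`,
`K = Frac R` of characteristic 0, `F` finite over `K(t)`.

* `H1GU.LocalKummer R ϖ t u n`: at every closed point `𝔫 ∋ ϖ` of the chart
  `B = ` integral closure of `R[t]` in `F` there is `h ≡ 1 mod ϖ O_F` such that `u * h ^ n` is
  integral at `𝔫` (i.e. `s * (u * h ^ n) ∈ B` for some `s ∈ B ∖ 𝔫`).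
* `H1GU.GUKummerStatement`: if `u ≡ 1 mod ϖ O_F`, `LocalKummer` holds in both charts `t`, `t⁻¹`,
  `n ∈ Rˣ`, `μ_n ⊆ R`, and `ψ ^ n = u` in an extension `E` such that `K` is algebraically closed
  in `F(ψ)`, then `ψ ∈ F`.
-/

set_option autoImplicit false

open Polynomial IntermediateField

namespace H1GU

/-- Local hypothesis at the closed points of the chart `t`: for every maximal ideal `𝔫 ∋ ϖ` of
the integral closure `B` of `R[t]` in `F` there are `h ≡ 1 mod ϖ O_F` and `s ∈ B ∖ 𝔫` with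
`s * (u * h ^ n) ∈ B`. -/
def LocalKummer (R : Type) [CommRing R] {F : Type} [Field F] [Algebra R F]
    (ϖ : R) (t u : F) (n : ℕ) : Prop :=
  ∀ 𝔫 : Ideal (integralClosure (Algebra.adjoin R {t}) F), 𝔫.IsMaximal →
    (∀ s : integralClosure (Algebra.adjoin R {t}) F, (s : F) = algebraMap R F ϖ → s ∈ 𝔫) →
    ∃ h : F, H7S18.ModPi R ϖ t h 1 ∧
      ∃ s : integralClosure (Algebra.adjoin R {t}) F,
        s ∉ 𝔫 ∧ H7S18.IsInt R t ((s : F) * (u * h ^ n))

/-- **Generic glue for (GU)**: a Kummer generator `u ≡ 1 mod ϖ` which is locally (at every closed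
point of the special fibre, in both charts) an `n`-th power of a function `≡ 1 mod ϖ` up to a
locally integral factor is an `n`-th power, provided `K` is algebraically closed in `F(ψ)`. -/
def GUKummerStatement : Prop :=
  ∀ (R : Type) [CommRing R] [IsDomain R] [IsDiscreteValuationRing R]
    (K : Type) [Field K] [CharZero K] [Algebra R K] [IsFractionRing R K]
    (F : Type) [Field F] [Algebra K F] [Algebra R F] [IsScalarTower R K F]
    (E : Type) [Field E] [Algebra K E] [Algebra R E] [IsScalarTower R K E]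
    [Algebra F E] [IsScalarTower K F E] [IsScalarTower R F E]
    (ϖ : R) (_ : Irreducible ϖ) (t : F) (_ : Transcendental K t)
    (_ : FiniteDimensional K⟮t⟯ F)
    (n : ℕ) (_ : IsUnit (n : R)) (ζ : R) (_ : IsPrimitiveRoot ζ n)
    (u : F) (_ : H7S18.ModPi R ϖ t u 1)
    (_ : LocalKummer R ϖ t u n) (_ : LocalKummer R ϖ t⁻¹ u n)
    (ψ : E) (_ : ψ ^ n = algebraMap F E u)
    (_ : ∀ x : E, x ∈ F⟮ψ⟯ → IsAlgebraic K x → x ∈ (algebraMap K E).range),
    ∃ g : F, algebraMap F E g = ψ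

/-- `x ∈ B_𝔫`: `x` is integral at the closed point `𝔫` of the chart `t`. -/
def InLoc (R : Type) [CommRing R] {F : Type} [Field F] [Algebra R F] (t : F)
    (𝔫 : Ideal (integralClosure (Algebra.adjoin R {t}) F)) (x : F) : Prop :=
  ∃ s : integralClosure (Algebra.adjoin R {t}) F, s ∉ 𝔫 ∧ H7S18.IsInt R t ((s : F) * x)

/-- `x ∈ B_𝔫[1/ϖ]ˣ`: the divisor of `x` at `𝔫` is vertical. -/
def VertUnitAt (R : Type) [CommRing R] {F : Type} [Field F] [Algebra R F] (ϖ : R) (t : F)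
    (𝔫 : Ideal (integralClosure (Algebra.adjoin R {t}) F)) (x : F) : Prop :=
  ∃ m : ℕ, InLoc R t 𝔫 (algebraMap R F ϖ ^ m * x) ∧ InLoc R t 𝔫 (algebraMap R F ϖ ^ m * x⁻¹)

/-- (L1) at `𝔫`: up to an `n`-th power, the divisor of `f` at `𝔫` is vertical. -/
def L1At (R : Type) [CommRing R] {F : Type} [Field F] [Algebra R F] (ϖ : R) (t : F)
    (𝔫 : Ideal (integralClosure (Algebra.adjoin R {t}) F)) (n : ℕ) (f : F) : Prop :=
  ∃ z : F, z ≠ 0 ∧ VertUnitAt R ϖ t 𝔫 (f / z ^ n)

/-- (L1) at all closed points `𝔫 ∋ ϖ` of the chart `t`. -/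
def L1Chart (R : Type) [CommRing R] {F : Type} [Field F] [Algebra R F] (ϖ : R) (t : F)
    (n : ℕ) (f : F) : Prop :=
  ∀ 𝔫 : Ideal (integralClosure (Algebra.adjoin R {t}) F), 𝔫.IsMaximal →
    (∀ s : integralClosure (Algebra.adjoin R {t}) F, (s : F) = algebraMap R F ϖ → s ∈ 𝔫) →
    L1At R ϖ t 𝔫 n f

/-- **(A1)+(A2) bridge**: for a ring automorphism `τ` of `F` fixing `t`, preserving `R`,
congruent to the identity modulo `ϖ O_F` and preserving the Gauss valuations
(`τ g / g ∈ O_F` for all `g ≠ 0`), and `f` satisfying (L1) at every closed point of a chart,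
the second difference `u = c⁻¹ (τ-1)² f` (`c ∈ Rˣ`) satisfies `LocalKummer` in that chart. -/
def TauLocalStatement : Prop :=
  ∀ (R : Type) [CommRing R] [IsDomain R] [IsDiscreteValuationRing R]
    (K : Type) [Field K] [CharZero K] [Algebra R K] [IsFractionRing R K]
    (F : Type) [Field F] [Algebra K F] [Algebra R F] [IsScalarTower R K F]
    (ϖ : R) (_ : Irreducible ϖ) (t : F) (_ : Transcendental K t)
    (_ : FiniteDimensional K⟮t⟯ F)
    (n : ℕ)
    (τ : F ≃+* F) (_ : τ t = t)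
    (_ : ∀ r : R, ∃ r' : R, τ (algebraMap R F r) = algebraMap R F r')
    (_ : ∀ x : F, H7S18.GInt R ϖ t x → H7S18.ModPi R ϖ t (τ x) x)
    (_ : ∀ g : F, g ≠ 0 → H7S18.GInt R ϖ t (τ g / g))
    (f : F) (_ : f ≠ 0) (_ : L1Chart R ϖ t n f)
    (c : R) (_ : IsUnit c),
    LocalKummer R ϖ t ((algebraMap R F c)⁻¹ * (τ (τ f) * f / (τ f) ^ 2)) n

/-- **(GEN)**: the generic theorem for (GU).  `τ` as in `TauLocalStatement`, `f` satisfying (L1)
at all closed points of both charts, `c ≡ 1 mod ϖ`, `ψ ^ n = c⁻¹ (τ-1)² f` in an extension `E`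
with `K` algebraically closed in `F(ψ)`: then `ψ ∈ F`. -/
def GUTauStatement : Prop :=
  ∀ (R : Type) [CommRing R] [IsDomain R] [IsDiscreteValuationRing R]
    (K : Type) [Field K] [CharZero K] [Algebra R K] [IsFractionRing R K]
    (F : Type) [Field F] [Algebra K F] [Algebra R F] [IsScalarTower R K F]
    (E : Type) [Field E] [Algebra K E] [Algebra R E] [IsScalarTower R K E]
    [Algebra F E] [IsScalarTower K F E] [IsScalarTower R F E]
    (ϖ : R) (_ : Irreducible ϖ) (t : F) (_ : Transcendental K t)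
    (_ : FiniteDimensional K⟮t⟯ F)
    (n : ℕ) (_ : IsUnit (n : R)) (ζ : R) (_ : IsPrimitiveRoot ζ n)
    (τ : F ≃+* F) (_ : τ t = t)
    (_ : ∀ r : R, ∃ r' : R, τ (algebraMap R F r) = algebraMap R F r')
    (_ : ∀ x : F, H7S18.GInt R ϖ t x → H7S18.ModPi R ϖ t (τ x) x)
    (_ : ∀ g : F, g ≠ 0 → H7S18.GInt R ϖ t (τ g / g))
    (f : F) (_ : f ≠ 0) (_ : L1Chart R ϖ t n f) (_ : L1Chart R ϖ t⁻¹ n f)
    (c r : R) (_ : c = 1 + ϖ * r)
    (ψ : E) (_ : ψ ^ n = algebraMap F E ((algebraMap R F c)⁻¹ * (τ (τ f) * f / (τ f) ^ 2)))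
    (_ : ∀ x : E, x ∈ F⟮ψ⟯ → IsAlgebraic K x → x ∈ (algebraMap K E).range),
    ∃ g : F, algebraMap F E g = ψ

end H1GU
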