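/-
Item 82 (S34), generic commutative algebra (helper5): **algebraic Hartogs** for a noetherian
integrally closed domain `B` with fraction field `F`:
an element of `F` that lies in `B_Q` for every prime `Q` of height one lies in `B`.
(Associated primes of a principal ideal of a normal noetherian domain have height one.)
Imports only Mathlib.
-/
import Mathlib

set_option autoImplicit false

noncomputable section

namespace H5CA

variable {B F : Type*} [CommRing B] [IsDomain B] [IsNoetherianRing B] [IsIntegrallyClosed B]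
  [Field F] [Algebra B F] [IsFractionRing B F]

/-- a prime `P = (d : e)` with `r₀ e = d t₀`, `r₀ ∈ P`, `t₀ ∉ P` is minimal over `(r₀)` -/
theorem h5ca_minimal_of_colon {P : Ideal B} (hP : P.IsPrime) {d e r₀ t₀ : B}
    (hmem : ∀ r : B, r ∈ P ↔ ∃ t, r * e = d * t) (hd : d ≠ 0)
    (hr₀ : r₀ * e = d * t₀) (ht₀ : t₀ ∉ P) :
    P ∈ (Ideal.span {r₀}).minimalPrimes := by
  have hr₀P : r₀ ∈ P := (hmem r₀).2 ⟨t₀, hr₀⟩
  refine ⟨⟨hP, (Ideal.span_singleton_le_iff_mem _).2 hr₀P⟩, ?_⟩
  rintro Q ⟨hQ, hQr⟩ hQP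
  intro r hr
  obtain ⟨t, ht⟩ := (hmem r).1 hr
  have hr₀Q : r₀ ∈ Q := (Ideal.span_singleton_le_iff_mem _).1 hQr
  have h1 : d * (r * t₀) = d * (r₀ * t) := by
    calc d * (r * t₀) = r * (d * t₀) := by ring
      _ = r * (r₀ * e) := by rw [hr₀]
      _ = r₀ * (r * e) := by ring
      _ = r₀ * (d * t) := by rw [ht]
      _ = d * (r₀ * t) := by ring
  have h2 : r * t₀ = r₀ * t := mul_left_cancel₀ hd h1
  have h3 : r * t₀ ∈ Q := by
    rw [h2]
    exact Q.mul_mem_right _ hr₀Q
  rcases hQ.mem_or_mem h3 with h | h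
  · exact h
  · exact absurd (hQP h) ht₀

/-- **algebraic Hartogs**: `x ∈ F` with `x ∈ B_Q` for all primes `Q` of height one lies in `B` -/
theorem h5ca_hartogs (x : F)
    (hx : ∀ Q : Ideal B, Q.IsPrime → Q.height = 1 →
      ∃ a s : B, s ∉ Q ∧ x * algebraMap B F s = algebraMap B F a) :
    ∃ b : B, algebraMap B F b = x := by
  classical
  by_contra hcon
  obtain ⟨c, d, hd0, hxcd⟩ := IsFractionRing.div_surjective (A := B) x
  have hd : d ≠ 0 := nonZeroDivisors.ne_zero hd0
  have hinj : Function.Injective (algebraMap B F) := IsFractionRing.injective B F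
  have hdF : algebraMap B F d ≠ 0 := fun h => hd (hinj (h.trans (map_zero _).symm))
  -- `c ∉ (d)`
  have hc : c ∉ Ideal.span {d} := by
    intro h
    obtain ⟨t, ht⟩ := Ideal.mem_span_singleton'.1 h
    apply hcon
    refine ⟨t, ?_⟩
    rw [← hxcd, ← ht, map_mul, mul_div_assoc, div_self hdF, mul_one]
  have hne : (Ideal.Quotient.mk (Ideal.span {d}) c : B ⧸ Ideal.span {d}) ≠ 0 := by
    intro h
    exact hc (Ideal.Quotient.eq_zero_iff_mem.1 h)
  obtain ⟨P, hPass, hle⟩ := exists_le_isAssociatedPrime_of_isNoetherianRing B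
    (Ideal.Quotient.mk (Ideal.span {d}) c : B ⧸ Ideal.span {d}) hne
  obtain ⟨hP, ym, hPy⟩ := isAssociatedPrime_iff.1 hPass
  obtain ⟨e, rfl⟩ := Ideal.Quotient.mk_surjective ym
  have hmem : ∀ r : B, r ∈ P ↔ ∃ t, r * e = d * t := by
    intro r
    rw [hPy, Submodule.mem_colon_singleton, Submodule.mem_bot]
    have : r • (Ideal.Quotient.mk (Ideal.span {d}) e : B ⧸ Ideal.span {d})
        = Ideal.Quotient.mk (Ideal.span {d}) (r * e) := rfl
    rw [this, Ideal.Quotient.eq_zero_iff_mem, Ideal.mem_span_singleton']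
    constructor
    · rintro ⟨t, ht⟩
      exact ⟨t, by rw [← ht, mul_comm]⟩
    · rintro ⟨t, ht⟩
      exact ⟨t, by rw [ht, mul_comm]⟩
  have hcP : ∀ s : B, (∃ t, s * c = d * t) → s ∈ P := by
    rintro s ⟨t, ht⟩
    apply hle
    rw [Submodule.mem_colon_singleton, Submodule.mem_bot]
    have : s • (Ideal.Quotient.mk (Ideal.span {d}) c : B ⧸ Ideal.span {d})
        = Ideal.Quotient.mk (Ideal.span {d}) (s * c) := rfl
    rw [this, Ideal.Quotient.eq_zero_iff_mem, Ideal.mem_span_singleton']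
    exact ⟨t, by rw [ht, mul_comm]⟩
  have hdP : d ∈ P := (hmem d).2 ⟨e, rfl⟩
  by_cases hcase : ∀ r ∈ P, ∀ t, r * e = d * t → t ∈ P
  · -- `e / d` is integral
    have hint : IsIntegral B (algebraMap B F e / algebraMap B F d) := by
      refine isIntegral_of_smul_mem_submodule (R := B) (A := F) (M := F)
        (Submodule.map (Algebra.linearMap B F) P) ?_ ?_ _ ?_
      · intro h
        have h1 : algebraMap B F d ∈ Submodule.map (Algebra.linearMap B F) P :=
          ⟨d, hdP, rfl⟩
        rw [h, Submodule.mem_bot] at h1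
        exact hdF h1
      · exact Submodule.FG.map _ (IsNoetherian.noetherian P)
      · rintro n ⟨r, hr, rfl⟩
        obtain ⟨t, ht⟩ := (hmem r).1 hr
        refine ⟨t, hcase r hr t ht, ?_⟩
        show algebraMap B F t = (algebraMap B F e / algebraMap B F d) * algebraMap B F r
        rw [div_mul_eq_mul_div, eq_div_iff hdF, ← map_mul, ← map_mul, mul_comm e r, ht, mul_comm]
    obtain ⟨t₀, ht₀⟩ := IsIntegrallyClosed.isIntegral_iff.1 hint
    have h1 : algebraMap B F e = algebraMap B F (d * t₀) := by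
      rw [map_mul, ht₀, mul_div_cancel₀ _ hdF]
    have h2 : (1 : B) ∈ P := (hmem 1).2 ⟨t₀, by rw [one_mul]; exact hinj h1⟩
    exact hP.ne_top ((Ideal.eq_top_iff_one P).2 h2)
  · push_neg at hcase
    obtain ⟨r₀, hr₀P, t₀, hr₀, ht₀⟩ := hcase
    have hmin := h5ca_minimal_of_colon hP hmem hd hr₀ ht₀
    have hle1 : P.height ≤ 1 :=
      Ideal.height_le_one_of_isPrincipal_of_mem_minimalPrimes (Ideal.span {r₀}) P hmin
    have hne0 : P.height ≠ 0 := by
      intro h
      haveI := hP
      have := Ideal.height_eq_zero_iff_eq_bot.1 h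
      rw [this] at hdP
      exact hd hdP
    have hh : P.height = 1 := le_antisymm hle1 (Order.one_le_iff_pos.2 (pos_iff_ne_zero.2 hne0))
    obtain ⟨a, s, hs, hxs⟩ := hx P hP hh
    apply hs
    apply hcP
    refine ⟨a, ?_⟩
    apply hinj
    rw [map_mul, map_mul, ← hxs, ← hxcd, div_mul_eq_mul_div, mul_div_assoc', mul_comm (algebraMap B F d),
      mul_div_assoc, div_self hdF, mul_one, mul_comm]

end H5CA

end
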