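/-
helper25, item 82 (S34), slice (I1)-KRULL, Mathlib-only.

`M` a noetherian integrally closed domain, `π ∈ M`, `π ≠ 0`.
* `H25KR.locPrincipal` : an associated prime `P = (π : y)` of `M / π` is LOCALLY PRINCIPAL:
  `∃ a ∈ P, ∃ u ∉ P, ∀ b ∈ P, ∃ c, u * b = c * a`   (`M_P` is a DVR with uniformizer `a`).
* `H25KR.exists_pow`   : every `x ≠ 0` is `s * x = c * a ^ n` with `s, c ∉ P`.
* `H25KR.height_one`   : a nonzero prime `Q ≤ P` equals `P`.
* `H25KR.span_eq_of_assoc` : if every associated prime of `M / π` lies in a family `PP` of primes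
  with `e = 1` (`∀ x ∈ P, ∃ s ∉ P, π ∣ s * x`), then `π ∣ x ↔ ∀ P ∈ PP, x ∈ P`
  (i.e. `π M = ⋂ P`).
-/
import Mathlib

set_option autoImplicit false
set_option linter.unusedSectionVars false
set_option linter.unusedVariables false

namespace H25KR

variable {M : Type*} [CommRing M]

/-- `P` is the colon ideal `(π : y)`, with `y ∉ π M`. -/
structure IsColon (P : Ideal M) (π y : M) : Prop where
  ne : π ≠ 0
  ndvd : ¬ π ∣ y
  mem_iff : ∀ a : M, a ∈ P ↔ π ∣ a * y

theorem IsColon.pi_mem {P : Ideal M} {π y : M} (h : IsColon P π y) : π ∈ P :=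
  (h.mem_iff π).2 (Dvd.intro y rfl)

/-- **Locally principal**: an associated prime of `M / π` in a noetherian integrally closed
domain is principal after localisation at itself. -/
theorem locPrincipal [IsDomain M] [IsNoetherianRing M] [IsIntegrallyClosed M]
    {P : Ideal M} [P.IsPrime] {π y : M} (h : IsColon P π y) :
    ∃ a ∈ P, ∃ u : M, u ∉ P ∧ ∀ b ∈ P, ∃ c : M, u * b = c * a := by
  classical
  -- for b ∈ P choose c_b with b * y = π * c_b
  have hc : ∀ b : M, b ∈ P → ∃ c : M, b * y = π * c := fun b hb => (h.mem_iff b).1 hb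
  by_cases hcase : ∃ b ∈ P, ∃ c : M, b * y = π * c ∧ c ∉ P
  · obtain ⟨a, ha, u, hau, hu⟩ := hcase
    refine ⟨a, ha, u, hu, fun b hb => ?_⟩
    obtain ⟨c, hbc⟩ := hc b hb
    refine ⟨c, ?_⟩
    have : π * (u * b) = π * (c * a) := by
      calc π * (u * b) = (π * u) * b := by ring
        _ = (a * y) * b := by rw [hau]
        _ = a * (b * y) := by ring
        _ = a * (π * c) := by rw [hbc]
        _ = π * (c * a) := by ring
    exact mul_left_cancel₀ h.ne this
  · exfalso
    -- all c_b ∈ P : then z = y / π stabilises P, so is integral, so lies in M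
    have hall : ∀ b ∈ P, ∀ c : M, b * y = π * c → c ∈ P := by
      intro b hb c hbc
      by_contra hcP
      exact hcase ⟨b, hb, c, hbc, hcP⟩
    let K := FractionRing M
    have hπK : algebraMap M K π ≠ 0 := by
      simpa using (IsFractionRing.to_map_eq_zero_iff (K := K)).not.2 h.ne
    let z : K := algebraMap M K y / algebraMap M K π
    let N : Submodule M K := Submodule.map (Algebra.linearMap M K) (P : Submodule M M)
    have hNfg : N.FG := by
      have : (P : Submodule M M).FG := (isNoetherianRing_iff_ideal_fg M).1 inferInstance P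
      exact Submodule.FG.map _ this
    have hNbot : N ≠ ⊥ := by
      intro hbot
      have hmem : algebraMap M K π ∈ N := Submodule.mem_map_of_mem h.pi_mem
      rw [hbot, Submodule.mem_bot] at hmem
      exact hπK hmem
    have hstab : ∀ n ∈ N, z • n ∈ N := by
      intro n hn
      obtain ⟨b, hb, rfl⟩ := (Submodule.mem_map).1 hn
      obtain ⟨c, hbc⟩ := hc b hb
      have hcP := hall b hb c hbc
      have : z • (Algebra.linearMap M K b) = Algebra.linearMap M K c := by
        simp only [Algebra.linearMap_apply, smul_eq_mul, z]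
        rw [div_mul_eq_mul_div, div_eq_iff hπK, mul_comm (algebraMap M K y), ← map_mul,
          ← map_mul, hbc, mul_comm]
      rw [this]
      exact Submodule.mem_map_of_mem hcP
    have hint : IsIntegral M z := isIntegral_of_smul_mem_submodule N hNbot hNfg z hstab
    obtain ⟨w, hw⟩ := IsIntegrallyClosed.isIntegral_iff.1 hint
    apply h.ndvd
    refine ⟨w, ?_⟩
    have : algebraMap M K y = algebraMap M K (π * w) := by
      rw [map_mul, hw]
      simp only [z]
      rw [mul_div_cancel₀ _ hπK]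
    exact IsFractionRing.injective M K this

/-- `P` is locally principal with uniformizer `a` (and denominator `u`). -/
structure IsLocPrincipal (P : Ideal M) (a u : M) : Prop where
  mem : a ∈ P
  nmem : u ∉ P
  gen : ∀ b ∈ P, ∃ c : M, u * b = c * a

theorem exists_isLocPrincipal [IsDomain M] [IsNoetherianRing M] [IsIntegrallyClosed M]
    {P : Ideal M} [P.IsPrime] {π y : M} (h : IsColon P π y) :
    ∃ a u : M, IsLocPrincipal P a u := by
  obtain ⟨a, ha, u, hu, hgen⟩ := locPrincipal h
  exact ⟨a, u, ha, hu, hgen⟩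

/-- The contraction to `M` of the ideal generated by `x` in `M_P`. -/
def satIdeal (P : Ideal M) [P.IsPrime] (x : M) : Ideal M where
  carrier := {m | ∃ s : M, s ∉ P ∧ x ∣ s * m}
  add_mem' := by
    rintro m₁ m₂ ⟨s₁, hs₁, r₁, h₁⟩ ⟨s₂, hs₂, r₂, h₂⟩
    refine ⟨s₁ * s₂, ?_, s₂ * r₁ + s₁ * r₂, ?_⟩
    · intro hmem
      rcases (Ideal.IsPrime.mem_or_mem inferInstance hmem) with h | h
      · exact hs₁ h
      · exact hs₂ h
    · calc s₁ * s₂ * (m₁ + m₂) = s₂ * (s₁ * m₁) + s₁ * (s₂ * m₂) := by ring
        _ = s₂ * (x * r₁) + s₁ * (x * r₂) := by rw [h₁, h₂]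
        _ = x * (s₂ * r₁ + s₁ * r₂) := by ring
  zero_mem' := ⟨1, fun h => (Ideal.IsPrime.ne_top inferInstance)
    ((Ideal.eq_top_iff_one P).2 h), 0, by simp⟩
  smul_mem' := by
    rintro c m ⟨s, hs, r, h⟩
    refine ⟨s, hs, c * r, ?_⟩
    calc s * (c • m) = c * (s * m) := by simp only [smul_eq_mul]; ring
      _ = c * (x * r) := by rw [h]
      _ = x * (c * r) := by ring

theorem mem_satIdeal {P : Ideal M} [P.IsPrime] {x m : M} :
    m ∈ satIdeal P x ↔ ∃ s : M, s ∉ P ∧ x ∣ s * m := Iff.rfl

theorem one_nmem {P : Ideal M} [hP : P.IsPrime] : (1 : M) ∉ P :=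
  fun h => hP.ne_top ((Ideal.eq_top_iff_one P).2 h)

theorem mul_nmem {P : Ideal M} [hP : P.IsPrime] {s t : M} (hs : s ∉ P) (ht : t ∉ P) :
    s * t ∉ P := fun h => (hP.mem_or_mem h).elim hs ht

theorem satIdeal_lt [IsDomain M] {P : Ideal M} [P.IsPrime] {a u : M} (h : IsLocPrincipal P a u)
    {x c : M} (hx : x ≠ 0) (hxc : u * x = c * a) : satIdeal P x < satIdeal P c := by
  refine lt_of_le_of_ne ?_ ?_
  · rintro m ⟨s, hs, r, hr⟩
    refine ⟨s * u, mul_nmem hs h.nmem, a * r, ?_⟩
    calc s * u * m = u * (s * m) := by ring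
      _ = u * (x * r) := by rw [hr]
      _ = (u * x) * r := by ring
      _ = c * (a * r) := by rw [hxc]; ring
  · intro heq
    have hc : c ∈ satIdeal P c := ⟨1, one_nmem, 1, by ring⟩
    rw [← heq] at hc
    obtain ⟨s, hs, r, hr⟩ := hc
    -- s * c = x * r, so s * u * x = s * c * a = x * r * a, so s * u = r * a ∈ P
    have h1 : x * (s * u) = x * (r * a) := by
      calc x * (s * u) = s * (u * x) := by ring
        _ = s * (c * a) := by rw [hxc]
        _ = (s * c) * a := by ring
        _ = (x * r) * a := by rw [hr]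
        _ = x * (r * a) := by ring
    have h2 : s * u = r * a := mul_left_cancel₀ hx h1
    exact mul_nmem hs h.nmem (h2 ▸ P.mul_mem_left r h.mem)

/-- **DVR structure**: every nonzero `x` is `unit * a ^ n` in `M_P`. -/
theorem exists_pow [IsDomain M] [IsNoetherianRing M] {P : Ideal M} [P.IsPrime] {a u : M}
    (h : IsLocPrincipal P a u) (x : M) (hx : x ≠ 0) :
    ∃ (n : ℕ) (s c : M), s ∉ P ∧ c ∉ P ∧ s * x = c * a ^ n := by
  suffices H : ∀ J : Ideal M, ∀ x : M, x ≠ 0 → satIdeal P x = J →
      ∃ (n : ℕ) (s c : M), s ∉ P ∧ c ∉ P ∧ s * x = c * a ^ n from H _ x hx rfl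
  intro J
  induction J using IsNoetherian.induction with
  | hgt J ih =>
    intro x hx hJ
    by_cases hxP : x ∈ P
    · obtain ⟨c, hc⟩ := h.gen x hxP
      have hc0 : c ≠ 0 := by
        rintro rfl
        rw [zero_mul] at hc
        rcases mul_eq_zero.1 hc with h0 | h0
        · exact h.nmem (h0 ▸ P.zero_mem)
        · exact hx h0
      have hlt : J < satIdeal P c := hJ ▸ satIdeal_lt h hx hc
      obtain ⟨n, s, c', hs, hc', hsc⟩ := ih _ hlt c hc0 rfl
      refine ⟨n + 1, s * u, c', mul_nmem hs h.nmem, hc', ?_⟩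
      calc s * u * x = s * (u * x) := by ring
        _ = s * (c * a) := by rw [hc]
        _ = (s * c) * a := by ring
        _ = (c' * a ^ n) * a := by rw [hsc]
        _ = c' * a ^ (n + 1) := by ring
    · exact ⟨0, 1, x, one_nmem, hxP, by ring⟩

/-- **Height one**: a nonzero prime below a locally principal prime is equal to it. -/
theorem height_one [IsDomain M] [IsNoetherianRing M] {P : Ideal M} [P.IsPrime] {a u : M}
    (h : IsLocPrincipal P a u) {Q : Ideal M} (hQ : Q.IsPrime) (hQP : Q ≤ P) (hQ0 : Q ≠ ⊥) :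
    Q = P := by
  refine le_antisymm hQP ?_
  obtain ⟨x, hxQ, hx0⟩ := Submodule.exists_mem_ne_zero_of_ne_bot hQ0
  obtain ⟨n, s, c, hs, hc, hsc⟩ := exists_pow h x hx0
  have hcan : c * a ^ n ∈ Q := hsc ▸ Q.mul_mem_left s hxQ
  have haQ : a ∈ Q := by
    rcases hQ.mem_or_mem hcan with h1 | h1
    · exact absurd (hQP h1) hc
    · exact hQ.mem_of_pow_mem n h1
  intro b hb
  obtain ⟨c', hc'⟩ := h.gen b hb
  have : u * b ∈ Q := hc' ▸ Q.mul_mem_left c' haQ
  rcases hQ.mem_or_mem this with h1 | h1
  · exact absurd (hQP h1) h.nmem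
  · exact h1

/-- **Unmixedness of principal ideals**: if every associated prime of `M / π` lies in a family
`PP` of primes at which `π` is a local generator (`e = 1`), then `π M = ⋂_{P ∈ PP} P`. -/
theorem dvd_of_forall_mem [IsNoetherianRing M] {π : M} (PP : Set (Ideal M))
    (hass : ∀ (P : Ideal M) (y : M), P.IsPrime → IsColon P π y → P ∈ PP)
    (he : ∀ P ∈ PP, ∀ x ∈ P, ∃ s : M, s ∉ P ∧ π ∣ s * x)
    (hπ : π ≠ 0) (x : M) (hx : ∀ P ∈ PP, x ∈ P) : π ∣ x := by
  by_contra hndvd
  let I : Ideal M := Ideal.span {π}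
  have hx0 : (Ideal.Quotient.mk I x : M ⧸ I) ≠ 0 := by
    rw [Ne, Ideal.Quotient.eq_zero_iff_mem, Ideal.mem_span_singleton]
    exact hndvd
  obtain ⟨P, hP, hle⟩ := exists_le_isAssociatedPrime_of_isNoetherianRing M
    (Ideal.Quotient.mk I x : M ⧸ I) hx0
  obtain ⟨hPprime, ybar, hy⟩ := isAssociatedPrime_iff.1 hP
  obtain ⟨y, rfl⟩ := Ideal.Quotient.mk_surjective ybar
  have hmem : ∀ a : M, a ∈ P ↔ π ∣ a * y := by
    intro a
    rw [hy, Submodule.mem_colon_singleton, Submodule.mem_bot]
    change (Ideal.Quotient.mk I (a * y) : M ⧸ I) = 0 ↔ _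
    rw [Ideal.Quotient.eq_zero_iff_mem, Ideal.mem_span_singleton]
  have hcol : IsColon P π y := by
    refine ⟨hπ, fun hdvd => ?_, hmem⟩
    apply hPprime.ne_top
    rw [Ideal.eq_top_iff_one, hmem, one_mul]
    exact hdvd
  have hPPP := hass P y hPprime hcol
  obtain ⟨s, hs, hsx⟩ := he P hPPP x (hx P hPPP)
  apply hs
  apply hle
  rw [Submodule.mem_colon_singleton, Submodule.mem_bot]
  change (Ideal.Quotient.mk I (s * x) : M ⧸ I) = 0
  rw [Ideal.Quotient.eq_zero_iff_mem, Ideal.mem_span_singleton]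
  exact hsx

/-! ### Integral extensions: the associated primes of `π` are exactly the primes over `(π_A)` -/

section Integral

variable {A : Type*} [CommRing A] [IsDomain A] [IsIntegrallyClosed A]
variable [IsDomain M] [IsNoetherianRing M] [IsIntegrallyClosed M]
variable [Algebra A M] [FaithfulSMul A M] [Algebra.IsIntegral A M]

/-- **going down**: an associated prime of `M / π`, `π` the image of a prime element `π_A` of
the integrally closed domain `A`, lies over `(π_A)`. -/
theorem under_eq_of_isColon {πA : A} (hprime : (Ideal.span {πA}).IsPrime)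
    {P : Ideal M} [hP : P.IsPrime] {y : M} (h : IsColon P (algebraMap A M πA) y) :
    P.under A = Ideal.span {πA} := by
  obtain ⟨a, u, hau⟩ := exists_isLocPrincipal h
  have hle : Ideal.span {πA} ≤ P.under A := by
    rw [Ideal.span_singleton_le_iff_mem]
    exact h.pi_mem
  obtain ⟨P', hP'le, hP'prime, hP'over⟩ :=
    Ideal.exists_ideal_le_liesOver_of_le (p := Ideal.span {πA}) (q := P.under A) P hle
  have hπP' : algebraMap A M πA ∈ P' := by
    have : πA ∈ P'.under A := by
      rw [← hP'over.over]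
      exact Ideal.mem_span_singleton_self πA
    exact this
  have hP'0 : P' ≠ ⊥ := by
    intro h0
    rw [h0, Ideal.mem_bot] at hπP'
    exact h.ne hπP'
  have heq : P' = P := height_one hau hP'prime hP'le hP'0
  rw [← heq]
  exact hP'over.over.symm

/-- Conversely a prime of `M` over `(π_A)` is an associated prime of `M / π`. -/
theorem exists_isColon_of_under_eq {πA : A} (hprime : (Ideal.span {πA}).IsPrime)
    (hπ : algebraMap A M πA ≠ 0)
    {P : Ideal M} [hP : P.IsPrime] (hPu : P.under A = Ideal.span {πA}) :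
    ∃ y : M, IsColon P (algebraMap A M πA) y := by
  set π : M := algebraMap A M πA with hπdef
  let I : Ideal M := Ideal.span {π}
  have hπP : π ∈ P := by
    have : πA ∈ P.under A := hPu ▸ Ideal.mem_span_singleton_self πA
    exact this
  have hIP : I ≤ P := (Ideal.span_singleton_le_iff_mem (I := P)).2 hπP
  obtain ⟨P', hP'min, hP'le⟩ := Ideal.exists_minimalPrimes_le hIP
  have hP'prime : P'.IsPrime := hP'min.1.1
  -- `I = colon ⊥ {1}` in `M ⧸ I`
  have hcol1 : (⊥ : Submodule M (M ⧸ I)).colon {(Ideal.Quotient.mk I 1 : M ⧸ I)} = I := by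
    ext a
    rw [Submodule.mem_colon_singleton, Submodule.mem_bot]
    change (Ideal.Quotient.mk I (a * 1) : M ⧸ I) = 0 ↔ _
    rw [mul_one, Ideal.Quotient.eq_zero_iff_mem]
  have hP'min' : P' ∈ ((⊥ : Submodule M (M ⧸ I)).colon
      {(Ideal.Quotient.mk I 1 : M ⧸ I)}).minimalPrimes := by rw [hcol1]; exact hP'min
  obtain ⟨ybar, hy⟩ := Submodule.exists_eq_colon_of_mem_minimalPrimes hP'min'
  obtain ⟨y, rfl⟩ := Ideal.Quotient.mk_surjective ybar
  have hmem : ∀ a : M, a ∈ P' ↔ π ∣ a * y := by
    intro a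
    rw [hy, Submodule.mem_colon_singleton, Submodule.mem_bot]
    change (Ideal.Quotient.mk I (a * y) : M ⧸ I) = 0 ↔ _
    rw [Ideal.Quotient.eq_zero_iff_mem, Ideal.mem_span_singleton]
  have hcol : IsColon P' π y := by
    refine ⟨hπ, fun hdvd => ?_, hmem⟩
    apply hP'prime.ne_top
    rw [Ideal.eq_top_iff_one, hmem, one_mul]
    exact hdvd
  have hP'u : P'.under A = Ideal.span {πA} :=
    under_eq_of_isColon (hP := hP'prime) hprime hcol
  -- incomparability
  have heq : P' = P := by
    by_contra hne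
    have hlt : P' < P := lt_of_le_of_ne hP'le hne
    obtain ⟨x, hxP, hxP'⟩ := SetLike.exists_of_lt hlt
    have := Ideal.comap_lt_comap_of_integral_mem_sdiff (R := A) (hI := hP'prime) hP'le
      (x := x) ⟨hxP, hxP'⟩ (Algebra.IsIntegral.isIntegral x)
    have h1 : P'.under A < P.under A := this
    rw [hP'u, hPu] at h1
    exact lt_irrefl _ h1
  exact ⟨y, heq ▸ hcol⟩

end Integral

/-! ### The valuation subring `M_P ⊆ K` of a locally principal prime -/

section Valuation

variable [IsDomain M] [IsNoetherianRing M]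
variable (K : Type*) [Field K] [Algebra M K] [IsFractionRing M K]

/-- The localisation `M_P` as a valuation subring of the fraction field. -/
def valSub (P : Ideal M) [hP : P.IsPrime] {a u : M} (h : IsLocPrincipal P a u) :
    ValuationSubring K where
  carrier := {x | ∃ m s : M, s ∉ P ∧ x * algebraMap M K s = algebraMap M K m}
  mul_mem' := by
    rintro x₁ x₂ ⟨m₁, s₁, hs₁, h₁⟩ ⟨m₂, s₂, hs₂, h₂⟩
    refine ⟨m₁ * m₂, s₁ * s₂, mul_nmem hs₁ hs₂, ?_⟩
    rw [map_mul, map_mul, ← h₁, ← h₂]; ring
  one_mem' := ⟨1, 1, one_nmem, by simp⟩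
  add_mem' := by
    rintro x₁ x₂ ⟨m₁, s₁, hs₁, h₁⟩ ⟨m₂, s₂, hs₂, h₂⟩
    refine ⟨m₁ * s₂ + m₂ * s₁, s₁ * s₂, mul_nmem hs₁ hs₂, ?_⟩
    rw [map_add, map_mul, map_mul, map_mul, ← h₁, ← h₂]; ring
  zero_mem' := ⟨0, 1, one_nmem, by simp⟩
  neg_mem' := by
    rintro x ⟨m, s, hs, h₁⟩
    exact ⟨-m, s, hs, by rw [map_neg, ← h₁]; ring⟩
  mem_or_inv_mem' := by
    intro x
    by_cases hx0 : x = 0
    · left; exact ⟨0, 1, one_nmem, by simp [hx0]⟩
    obtain ⟨m₁, m₂, hm₂, rfl⟩ := IsFractionRing.div_surjective (A := M) x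
    have hm₂0 : m₂ ≠ 0 := nonZeroDivisors.ne_zero hm₂
    have hm₁0 : m₁ ≠ 0 := by
      rintro rfl
      apply hx0
      simp
    have hinj := IsFractionRing.injective M K
    have hm₁K : algebraMap M K m₁ ≠ 0 := fun h0 => hm₁0 (hinj (by rw [h0, map_zero]))
    have hm₂K : algebraMap M K m₂ ≠ 0 := fun h0 => hm₂0 (hinj (by rw [h0, map_zero]))
    obtain ⟨n₁, s₁, c₁, hs₁, hc₁, e₁⟩ := exists_pow h m₁ hm₁0
    obtain ⟨n₂, s₂, c₂, hs₂, hc₂, e₂⟩ := exists_pow h m₂ hm₂0
    have E₁ : algebraMap M K s₁ * algebraMap M K m₁ = algebraMap M K c₁ * algebraMap M K a ^ n₁ := by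
      rw [← map_mul, e₁, map_mul, map_pow]
    have E₂ : algebraMap M K s₂ * algebraMap M K m₂ = algebraMap M K c₂ * algebraMap M K a ^ n₂ := by
      rw [← map_mul, e₂, map_mul, map_pow]
    rcases le_total n₂ n₁ with hle | hle
    · left
      obtain ⟨d, rfl⟩ := Nat.exists_eq_add_of_le hle
      refine ⟨c₁ * s₂ * a ^ d, s₁ * c₂, mul_nmem hs₁ hc₂, ?_⟩
      rw [div_mul_eq_mul_div, div_eq_iff hm₂K]
      simp only [map_mul, map_pow]
      calc algebraMap M K m₁ * (algebraMap M K s₁ * algebraMap M K c₂)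
          = (algebraMap M K s₁ * algebraMap M K m₁) * algebraMap M K c₂ := by ring
        _ = (algebraMap M K c₁ * algebraMap M K a ^ (n₂ + d)) * algebraMap M K c₂ := by rw [E₁]
        _ = algebraMap M K c₁ * algebraMap M K a ^ d *
              (algebraMap M K c₂ * algebraMap M K a ^ n₂) := by ring
        _ = algebraMap M K c₁ * algebraMap M K a ^ d *
              (algebraMap M K s₂ * algebraMap M K m₂) := by rw [E₂]
        _ = algebraMap M K c₁ * algebraMap M K s₂ * algebraMap M K a ^ d * algebraMap M K m₂ := by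
              ring
    · right
      obtain ⟨d, rfl⟩ := Nat.exists_eq_add_of_le hle
      refine ⟨c₂ * s₁ * a ^ d, s₂ * c₁, mul_nmem hs₂ hc₁, ?_⟩
      rw [inv_div, div_mul_eq_mul_div, div_eq_iff hm₁K]
      simp only [map_mul, map_pow]
      calc algebraMap M K m₂ * (algebraMap M K s₂ * algebraMap M K c₁)
          = (algebraMap M K s₂ * algebraMap M K m₂) * algebraMap M K c₁ := by ring
        _ = (algebraMap M K c₂ * algebraMap M K a ^ (n₁ + d)) * algebraMap M K c₁ := by rw [E₂]
        _ = algebraMap M K c₂ * algebraMap M K a ^ d *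
              (algebraMap M K c₁ * algebraMap M K a ^ n₁) := by ring
        _ = algebraMap M K c₂ * algebraMap M K a ^ d *
              (algebraMap M K s₁ * algebraMap M K m₁) := by rw [E₁]
        _ = algebraMap M K c₂ * algebraMap M K s₁ * algebraMap M K a ^ d * algebraMap M K m₁ := by
              ring

variable {K}
variable {P : Ideal M} [hP : P.IsPrime] {a u : M} (h : IsLocPrincipal P a u)

theorem mem_valSub_iff {x : K} :
    x ∈ valSub K P h ↔ ∃ m s : M, s ∉ P ∧ x * algebraMap M K s = algebraMap M K m := Iff.rfl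

theorem algebraMap_mem_valSub (m : M) : algebraMap M K m ∈ valSub K P h :=
  ⟨m, 1, one_nmem, by simp⟩

theorem inv_algebraMap_mem_valSub {s : M} (hs : s ∉ P) : (algebraMap M K s)⁻¹ ∈ valSub K P h := by
  have hs0 : algebraMap M K s ≠ 0 := by
    intro h0
    apply hs
    have : s = 0 := IsFractionRing.injective M K (by rw [h0, map_zero])
    rw [this]; exact P.zero_mem
  exact ⟨1, s, hs, by rw [inv_mul_cancel₀ hs0, map_one]⟩

/-- The centre of `M_P` on `M` is `P`. -/
theorem algebraMap_mem_nonunits_iff (m : M) :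
    algebraMap M K m ∈ (valSub K P h).nonunits ↔ m ∈ P := by
  have hinj := IsFractionRing.injective M K
  rw [ValuationSubring.mem_nonunits_iff_or]
  constructor
  · rintro (h0 | hinv)
    · have : m = 0 := hinj (by rw [h0, map_zero])
      rw [this]; exact P.zero_mem
    · by_contra hm
      exact hinv (inv_algebraMap_mem_valSub h hm)
  · intro hm
    by_cases h0 : algebraMap M K m = 0
    · exact Or.inl h0
    · right
      rintro ⟨m', s, hs, e⟩
      apply hs
      have : s = m * m' := by
        apply hinj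
        rw [map_mul, ← e]
        field_simp
      rw [this]
      exact P.mul_mem_right m' hm

/-- `a` is a uniformizer of `M_P`. -/
theorem exists_eq_mul_of_mem_nonunits {x : K} (hx : x ∈ (valSub K P h).nonunits) :
    ∃ x' ∈ valSub K P h, x = algebraMap M K a * x' := by
  have hxV : x ∈ valSub K P h := ValuationSubring.nonunits_subset (A := valSub K P h) hx
  obtain ⟨m, s, hs, e⟩ := hxV
  have hinj := IsFractionRing.injective M K
  have hs0 : algebraMap M K s ≠ 0 := by
    intro h0
    apply hs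
    have : s = 0 := hinj (by rw [h0, map_zero])
    rw [this]; exact P.zero_mem
  have hu0 : algebraMap M K u ≠ 0 := by
    intro h0
    apply h.nmem
    have : u = 0 := hinj (by rw [h0, map_zero])
    rw [this]; exact P.zero_mem
  have hmP : m ∈ P := by
    by_contra hm
    -- then x is a unit
    have hxinv : x⁻¹ ∈ valSub K P h := by
      have hm0 : algebraMap M K m ≠ 0 := by
        intro h0
        apply hm
        have : m = 0 := hinj (by rw [h0, map_zero])
        rw [this]; exact P.zero_mem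
      refine ⟨s, m, hm, ?_⟩
      have hx0 : x ≠ 0 := by
        rintro rfl
        rw [zero_mul] at e
        exact hm0 e.symm
      rw [← e]
      field_simp
    rcases (ValuationSubring.mem_nonunits_iff_or _).1 hx with h0 | h1
    · rw [h0, zero_mul] at e
      apply hm
      have : m = 0 := hinj (by rw [← e, map_zero])
      rw [this]; exact P.zero_mem
    · exact h1 hxinv
  obtain ⟨c, hc⟩ := h.gen m hmP
  refine ⟨algebraMap M K c / (algebraMap M K u * algebraMap M K s),
    ⟨c, u * s, mul_nmem h.nmem hs, ?_⟩, ?_⟩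
  · rw [map_mul]; field_simp
  · have hc' : algebraMap M K u * algebraMap M K m = algebraMap M K c * algebraMap M K a := by
      rw [← map_mul, hc, map_mul]
    have hx : x = algebraMap M K m / algebraMap M K s := by
      rw [eq_div_iff hs0, e]
    rw [hx]
    field_simp
    linear_combination hc'

/-- `M_P` is not the whole field (when `P ≠ 0`). -/
theorem valSub_ne_top {b : M} (hb : b ∈ P) (hb0 : b ≠ 0) : valSub K P h ≠ ⊤ := by
  intro htop
  have hinj := IsFractionRing.injective M K
  have hmem : (algebraMap M K b)⁻¹ ∈ valSub K P h := htop ▸ ValuationSubring.mem_top _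
  have : algebraMap M K b ∈ (valSub K P h).nonunits := (algebraMap_mem_nonunits_iff h b).2 hb
  rw [ValuationSubring.mem_nonunits_iff_or] at this
  rcases this with h0 | h1
  · exact hb0 (hinj (by rw [h0, map_zero]))
  · exact h1 hmem

/-- **Maximality**: a valuation subring `≠ ⊤` containing `M_P` is `M_P`. -/
theorem eq_valSub_of_le {W : ValuationSubring K} (hle : valSub K P h ≤ W) (hW : W ≠ ⊤) :
    W = valSub K P h := by
  have hinj := IsFractionRing.injective M K
  refine le_antisymm ?_ hle
  intro x hxW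
  by_contra hxV
  apply hW
  have hx0 : x ≠ 0 := by
    rintro rfl
    exact hxV (valSub K P h).zero_mem
  have hxinvV : x⁻¹ ∈ valSub K P h :=
    ((valSub K P h).mem_or_inv_mem x).resolve_left hxV
  obtain ⟨m, s, hs, e⟩ := hxinvV
  have hs0 : algebraMap M K s ≠ 0 := fun h0 => hs (by
    have : s = 0 := hinj (by rw [h0, map_zero])
    rw [this]; exact P.zero_mem)
  have hm0 : m ≠ 0 := by
    rintro rfl
    rw [map_zero] at e
    rcases mul_eq_zero.1 e with h1 | h1
    · exact hx0 (inv_eq_zero.1 h1)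
    · exact hs0 h1
  have hmP : m ∈ P := by
    by_contra hm
    apply hxV
    refine ⟨s, m, hm, ?_⟩
    have hmK : algebraMap M K m ≠ 0 := fun h0 => hm0 (hinj (by rw [h0, map_zero]))
    rw [← e]; field_simp
  obtain ⟨n, s', c, hs', hc, esc⟩ := exists_pow h m hm0
  have hn : n ≠ 0 := by
    rintro rfl
    rw [pow_zero, mul_one] at esc
    apply hc
    rw [← esc]
    exact P.mul_mem_left s' hmP
  have ha0 : algebraMap M K a ≠ 0 := by
    intro h0
    have : a = 0 := hinj (by rw [h0, map_zero])
    rw [this, zero_pow hn, mul_zero] at esc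
    rcases mul_eq_zero.1 esc with h1 | h1
    · exact hs' (h1 ▸ P.zero_mem)
    · exact hm0 h1
  have hc0 : algebraMap M K c ≠ 0 := fun h0 => hc (by
    have : c = 0 := hinj (by rw [h0, map_zero])
    rw [this]; exact P.zero_mem)
  have hs'0 : algebraMap M K s' ≠ 0 := fun h0 => hs' (by
    have : s' = 0 := hinj (by rw [h0, map_zero])
    rw [this]; exact P.zero_mem)
  have hmK : algebraMap M K m ≠ 0 := fun h0 => hm0 (hinj (by rw [h0, map_zero]))
  have E : algebraMap M K s' * algebraMap M K m = algebraMap M K c * algebraMap M K a ^ n := by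
    rw [← map_mul, esc, map_mul, map_pow]
  -- `(alg a)⁻¹ ^ n ∈ W`
  have h1 : (algebraMap M K a ^ n)⁻¹ ∈ W := by
    have : (algebraMap M K a ^ n)⁻¹
        = x * (algebraMap M K c * ((algebraMap M K s')⁻¹ * (algebraMap M K s)⁻¹)) := by
      have hx : x = algebraMap M K s / algebraMap M K m := by
        have : x⁻¹ = algebraMap M K m / algebraMap M K s := by rw [eq_div_iff hs0, e]
        rw [← inv_inv x, this, inv_div]
      rw [hx]
      field_simp
      linear_combination E
    rw [this]
    refine W.mul_mem _ _ hxW (W.mul_mem _ _ (hle (algebraMap_mem_valSub h c)) (W.mul_mem _ _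
      (hle (inv_algebraMap_mem_valSub h hs')) (hle (inv_algebraMap_mem_valSub h hs))))
  have h2 : (algebraMap M K a)⁻¹ ∈ W := by
    obtain ⟨k, rfl⟩ := Nat.exists_eq_succ_of_ne_zero hn
    have : (algebraMap M K a)⁻¹ = algebraMap M K a ^ k * (algebraMap M K a ^ (k + 1))⁻¹ := by
      field_simp
      ring
    rw [this]
    exact W.mul_mem _ _ (W.pow_mem (hle (algebraMap_mem_valSub h a)) k) h1
  -- every element of `K` lies in `W`
  rw [eq_top_iff]
  intro z _
  obtain ⟨m₁, m₂, hm₂, rfl⟩ := IsFractionRing.div_surjective (A := M) z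
  have hm₂0 : m₂ ≠ 0 := nonZeroDivisors.ne_zero hm₂
  obtain ⟨n₂, s₂, c₂, hs₂, hc₂, e₂⟩ := exists_pow h m₂ hm₂0
  have hc₂0 : algebraMap M K c₂ ≠ 0 := fun h0 => hc₂ (by
    have : c₂ = 0 := hinj (by rw [h0, map_zero])
    rw [this]; exact P.zero_mem)
  have hm₂K : algebraMap M K m₂ ≠ 0 := fun h0 => hm₂0 (hinj (by rw [h0, map_zero]))
  have E₂ : algebraMap M K s₂ * algebraMap M K m₂ = algebraMap M K c₂ * algebraMap M K a ^ n₂ := by
    rw [← map_mul, e₂, map_mul, map_pow]
  have : algebraMap M K m₁ / algebraMap M K m₂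
      = algebraMap M K m₁ * (algebraMap M K s₂ * ((algebraMap M K c₂)⁻¹ *
          ((algebraMap M K a)⁻¹) ^ n₂)) := by
    have hpow : algebraMap M K a ^ n₂ ≠ 0 := pow_ne_zero _ ha0
    rw [div_eq_iff hm₂K, inv_pow]
    have hre : algebraMap M K m₁ * (algebraMap M K s₂ * ((algebraMap M K c₂)⁻¹ *
          (algebraMap M K a ^ n₂)⁻¹)) * algebraMap M K m₂
        = algebraMap M K m₁ * ((algebraMap M K s₂ * algebraMap M K m₂) *
          ((algebraMap M K c₂)⁻¹ * (algebraMap M K a ^ n₂)⁻¹)) := by ring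
    rw [hre, E₂]
    field_simp
  rw [this]
  exact W.mul_mem _ _ (hle (algebraMap_mem_valSub h m₁)) (W.mul_mem _ _
    (hle (algebraMap_mem_valSub h s₂)) (W.mul_mem _ _ (hle (inv_algebraMap_mem_valSub h hc₂))
      (W.pow_mem h2 n₂)))

/-- A valuation subring `≠ ⊤` containing `M` whose centre on `M` is contained in `P` is `M_P`. -/
theorem eq_valSub_of_centre_le {W : ValuationSubring K} (hM : ∀ m : M, algebraMap M K m ∈ W)
    (hc : ∀ m : M, algebraMap M K m ∈ W.nonunits → m ∈ P) (hW : W ≠ ⊤) :
    W = valSub K P h := by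
  refine eq_valSub_of_le h ?_ hW
  rintro x ⟨m, s, hs, e⟩
  have hinj := IsFractionRing.injective M K
  have hs0 : algebraMap M K s ≠ 0 := fun h0 => hs (by
    have : s = 0 := hinj (by rw [h0, map_zero])
    rw [this]; exact P.zero_mem)
  have hsinv : (algebraMap M K s)⁻¹ ∈ W := by
    by_contra hcon
    exact hs (hc s ((ValuationSubring.mem_nonunits_iff_or _).2 (Or.inr hcon)))
  have : x = algebraMap M K m * (algebraMap M K s)⁻¹ := by
    rw [← e]; field_simp
  rw [this]
  exact W.mul_mem _ _ (hM m) hsinv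

/-- **`e = 1` criterion**: if `π` generates the maximal ideal of `M_P`, then `π` generates `P`
locally. -/
theorem exists_dvd_of_unif {π : M}
    (hunif : ∀ x ∈ (valSub K P h).nonunits, ∃ x' ∈ valSub K P h, x = algebraMap M K π * x')
    (x : M) (hx : x ∈ P) : ∃ s : M, s ∉ P ∧ π ∣ s * x := by
  have hinj := IsFractionRing.injective M K
  obtain ⟨x', ⟨m, s, hs, e⟩, hxx'⟩ := hunif _ ((algebraMap_mem_nonunits_iff h x).2 hx)
  refine ⟨s, hs, m, ?_⟩
  apply hinj
  rw [map_mul, map_mul, hxx', ← e]
  ring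

end Valuation

/-! ### Final form for an integral closure `A ⊆ M` and a family of valuation subrings -/

section Final

variable {A : Type*} [CommRing A] [IsDomain A] [IsIntegrallyClosed A]
variable [IsDomain M] [IsNoetherianRing M] [IsIntegrallyClosed M]
variable [Algebra A M] [FaithfulSMul A M] [Algebra.IsIntegral A M]
variable {K : Type*} [Field K] [Algebra M K] [IsFractionRing M K]

/-- The centre on `M` of a valuation subring containing `M`. -/
def centre (V : ValuationSubring K) (hM : ∀ m : M, algebraMap M K m ∈ V) : Ideal M where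
  carrier := {m | algebraMap M K m ∈ V.nonunits}
  add_mem' := by
    intro x y hx hy
    change algebraMap M K (x + y) ∈ V.nonunits
    rw [map_add]
    exact V.nonunits.add_mem hx hy
  zero_mem' := by
    change algebraMap M K 0 ∈ V.nonunits
    rw [map_zero]
    exact V.nonunits.zero_mem
  smul_mem' := by
    intro c x hx
    change algebraMap M K (c • x) ∈ V.nonunits
    rw [smul_eq_mul, map_mul]
    have hx' : algebraMap M K x ∈ V.nonunits := hx
    rw [ValuationSubring.mem_nonunits_iff] at hx' ⊢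
    rw [map_mul]
    have hc : V.valuation (algebraMap M K c) ≤ 1 := (V.valuation_le_one_iff _).2 (hM c)
    calc V.valuation (algebraMap M K c) * V.valuation (algebraMap M K x)
        ≤ 1 * V.valuation (algebraMap M K x) := mul_le_mul_left hc _
      _ = V.valuation (algebraMap M K x) := one_mul _
      _ < 1 := hx'

theorem mem_centre {V : ValuationSubring K} {hM : ∀ m : M, algebraMap M K m ∈ V} {m : M} :
    m ∈ centre V hM ↔ algebraMap M K m ∈ V.nonunits := Iff.rfl

theorem centre_isPrime (V : ValuationSubring K) (hM : ∀ m : M, algebraMap M K m ∈ V) :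
    (centre V hM).IsPrime := by
  refine ⟨?_, ?_⟩
  · intro htop
    have h1 : (1 : M) ∈ centre V hM := htop ▸ Submodule.mem_top
    rw [mem_centre, map_one, ValuationSubring.mem_nonunits_iff, map_one] at h1
    exact lt_irrefl _ h1
  · intro x y hxy
    rw [mem_centre, map_mul, ValuationSubring.mem_nonunits_iff, map_mul] at hxy
    by_contra hcon
    rw [not_or] at hcon
    obtain ⟨hx, hy⟩ := hcon
    rw [mem_centre, ValuationSubring.mem_nonunits_iff, not_lt] at hx hy
    have hx1 : V.valuation (algebraMap M K x) = 1 :=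
      le_antisymm ((V.valuation_le_one_iff _).2 (hM x)) hx
    have hy1 : V.valuation (algebraMap M K y) = 1 :=
      le_antisymm ((V.valuation_le_one_iff _).2 (hM y)) hy
    rw [hx1, hy1, one_mul] at hxy
    exact lt_irrefl _ hxy

/-- **Classification**: a valuation subring `V ≠ ⊤` of `K` containing `M`, with centre `(π_A)`
on `A`, is the localisation `M_P` at its centre `P`, which is locally principal. -/
theorem exists_eq_valSub {πA : A} (hprime : (Ideal.span {πA}).IsPrime) (hπ0 : πA ≠ 0)
    {V : ValuationSubring K} (hV : V ≠ ⊤) (hM : ∀ m : M, algebraMap M K m ∈ V)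
    (hc : ∀ a : A, algebraMap M K (algebraMap A M a) ∈ V.nonunits ↔ πA ∣ a) :
    ∃ (a u : M) (h : IsLocPrincipal (centre V hM) a u),
      haveI := centre_isPrime V hM
      V = valSub K (centre V hM) h := by
  have hP := centre_isPrime V hM
  have hπ : algebraMap A M πA ≠ 0 := by
    intro h0
    exact hπ0 (FaithfulSMul.algebraMap_injective A M (by rw [h0, map_zero]))
  have hPu : (centre V hM).under A = Ideal.span {πA} := by
    ext a
    rw [Ideal.mem_span_singleton, ← hc a]
    rfl
  obtain ⟨y, hy⟩ := exists_isColon_of_under_eq hprime hπ hPu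
  obtain ⟨a, u, h⟩ := exists_isLocPrincipal hy
  exact ⟨a, u, h, eq_valSub_of_centre_le h hM (fun m hm => hm) hV⟩

/-- **`π M = ⋂ centres`** (`e = 1`): let `W` be a set of valuation subrings of `K` containing
every discrete valuation subring `V ⊇ M` with centre `(π_A)` on `A`, and assume that `π` is a
uniformizer of every `V ∈ W`.  Then an `x ∈ M` lying in the maximal ideal of every `V ∈ W` is
divisible by `π` in `M`. -/
theorem dvd_of_forall_mem_nonunits {πA : A} (hprime : (Ideal.span {πA}).IsPrime) (hπ0 : πA ≠ 0)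
    (W : Set (ValuationSubring K))
    (hW : ∀ V : ValuationSubring K, V ≠ ⊤ → (∀ m : M, algebraMap M K m ∈ V) →
      (∀ a : A, algebraMap M K (algebraMap A M a) ∈ V.nonunits ↔ πA ∣ a) →
      (∃ t : K, ∀ x ∈ V.nonunits, ∃ x' ∈ V, x = t * x') → V ∈ W)
    (hunif : ∀ V ∈ W, ∀ x ∈ V.nonunits, ∃ x' ∈ V,
      x = algebraMap M K (algebraMap A M πA) * x')
    (x : M) (hx : ∀ V ∈ W, algebraMap M K x ∈ V.nonunits) :
    algebraMap A M πA ∣ x := by
  have hπ : algebraMap A M πA ≠ 0 := by
    intro h0
    exact hπ0 (FaithfulSMul.algebraMap_injective A M (by rw [h0, map_zero]))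
  -- every associated prime gives an element of `W`
  have key : ∀ (P : Ideal M) (y : M) (hP : P.IsPrime), IsColon P (algebraMap A M πA) y →
      ∃ (a u : M) (h : IsLocPrincipal P a u), valSub K P h ∈ W := by
    intro P y hP hcol
    obtain ⟨a, u, h⟩ := exists_isLocPrincipal hcol
    refine ⟨a, u, h, hW _ (valSub_ne_top h hcol.pi_mem hπ) (algebraMap_mem_valSub h) ?_
      ⟨algebraMap M K a, fun x hx => exists_eq_mul_of_mem_nonunits h hx⟩⟩
    intro a'
    rw [algebraMap_mem_nonunits_iff h, ← Ideal.mem_span_singleton,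
      ← under_eq_of_isColon hprime hcol]
    rfl
  refine dvd_of_forall_mem {P | P.IsPrime ∧ ∃ y, IsColon P (algebraMap A M πA) y}
    (fun P y hP hcol => ⟨hP, y, hcol⟩) ?_ hπ x ?_
  · rintro P ⟨hP, y, hcol⟩ z hz
    obtain ⟨a, u, h, hmem⟩ := key P y hP hcol
    exact exists_dvd_of_unif h (hunif _ hmem) z hz
  · rintro P ⟨hP, y, hcol⟩
    obtain ⟨a, u, h, hmem⟩ := key P y hP hcol
    exact (algebraMap_mem_nonunits_iff h x).1 (hx _ hmem)

end Final

end H25KR
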