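/-
helper25, item 82 (S34): the BRIDGE  locally principal prime  ↦  `AlgebraicCurve.Place`.

`M` a noetherian domain with fraction field `F`, `K` a field with `K → F`.
For a prime `Q` of `M` which is locally principal (`H25KR.IsLocPrincipal Q a u`, e.g. an
associated prime of a principal ideal of a noetherian integrally closed domain, or any prime of
height one, see `H25KR.exists_isLocPrincipal`) with `a ≠ 0` and `K ⊆ M_Q`:

* `H25KR.placeOf`       : the place `V_Q` of `F / K` with valuation ring `M_Q = valSub F Q h`;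
* `H25KR.ord_placeOf`   : `V_Q.ord (algebraMap m) = n` when `s * m = c * a ^ n`, `s, c ∉ Q`;
* `H25KR.ord_placeOf_nonneg_iff` : `0 ≤ V_Q.ord x ↔ x ∈ M_Q` (`x ≠ 0`);
* `H25KR.exists_unitLoc_of_dvd_ord` : `n ∣ V_Q.ord f` ⇒ `f = unit_Q * z ^ n`.
-/
import Mathlib
import Fermat.Agent.S34.KR_helper25
import Fermat.Prelude.Def_AlgebraicCurve_DivisorClassGroup

set_option autoImplicit false
set_option linter.unusedSectionVars false
set_option linter.unusedVariables false

noncomputable section

namespace H25KR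

open AlgebraicCurve

variable {M : Type*} [CommRing M] [IsDomain M] [IsNoetherianRing M]
variable {F : Type*} [Field F] [Algebra M F] [IsFractionRing M F]
variable {Q : Ideal M} [hQ : Q.IsPrime] {a u : M} (h : IsLocPrincipal Q a u)

/-- `algebraMap s` for `s ∉ Q` is nonzero. -/
theorem algebraMap_ne_zero_of_nmem {s : M} (hs : s ∉ Q) : algebraMap M F s ≠ 0 := by
  intro h0
  apply hs
  have : s = 0 := IsFractionRing.injective M F (by rw [h0, map_zero])
  rw [this]; exact Q.zero_mem

/-- Elements `c / s` with `c, s ∉ Q` are units of `M_Q`. -/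
theorem div_mem_valSub {c s : M} (hs : s ∉ Q) :
    algebraMap M F c / algebraMap M F s ∈ valSub F Q h := by
  rw [div_eq_mul_inv]
  exact (valSub F Q h).mul_mem _ _ (algebraMap_mem_valSub h c) (inv_algebraMap_mem_valSub h hs)

/-- The uniformizer `a` as an element of `M_Q`. -/
def unif : valSub F Q h := ⟨algebraMap M F a, algebraMap_mem_valSub h a⟩

/-- the unit `c / s` of `M_Q` -/
def unitOf {c s : M} (hc : c ∉ Q) (hs : s ∉ Q) : (valSub F Q h)ˣ where
  val := ⟨algebraMap M F c / algebraMap M F s, div_mem_valSub h hs⟩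
  inv := ⟨algebraMap M F s / algebraMap M F c, div_mem_valSub h hc⟩
  val_inv := by
    apply Subtype.ext
    have h1 := algebraMap_ne_zero_of_nmem (F := F) hc
    have h2 := algebraMap_ne_zero_of_nmem (F := F) hs
    change algebraMap M F c / algebraMap M F s * (algebraMap M F s / algebraMap M F c) = 1
    field_simp
  inv_val := by
    apply Subtype.ext
    have h1 := algebraMap_ne_zero_of_nmem (F := F) hc
    have h2 := algebraMap_ne_zero_of_nmem (F := F) hs
    change algebraMap M F s / algebraMap M F c * (algebraMap M F c / algebraMap M F s) = 1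
    field_simp

theorem unif_ne_zero (ha0 : a ≠ 0) : unif (F := F) h ≠ 0 := by
  intro h0
  apply ha0
  have : algebraMap M F a = 0 := congrArg Subtype.val h0
  exact IsFractionRing.injective M F (by rw [this, map_zero])

theorem unif_not_isUnit : ¬ IsUnit (unif (F := F) h) := by
  intro hu
  have hmem : algebraMap M F a ∈ (valSub F Q h).nonunits :=
    (algebraMap_mem_nonunits_iff h a).2 h.mem
  rw [ValuationSubring.mem_nonunits_iff_exists_mem_maximalIdeal] at hmem
  obtain ⟨ha, hmax⟩ := hmem
  exact (IsLocalRing.mem_maximalIdeal _).1 hmax hu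

/-- every nonunit of `M_Q` is a multiple of the uniformizer -/
theorem exists_eq_unif_mul {x : valSub F Q h} (hx : ¬ IsUnit x) :
    ∃ x' : valSub F Q h, x = unif h * x' := by
  have hmem : (x : F) ∈ (valSub F Q h).nonunits := by
    rw [ValuationSubring.mem_nonunits_iff_exists_mem_maximalIdeal]
    exact ⟨x.2, (IsLocalRing.mem_maximalIdeal _).2 hx⟩
  obtain ⟨x', hx', e⟩ := exists_eq_mul_of_mem_nonunits h hmem
  exact ⟨⟨x', hx'⟩, Subtype.ext e⟩

theorem unif_irreducible (ha0 : a ≠ 0) : Irreducible (unif (F := F) h) := by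
  refine ⟨unif_not_isUnit h, fun x y hxy => ?_⟩
  by_contra hcon
  rw [not_or] at hcon
  obtain ⟨hx, hy⟩ := hcon
  obtain ⟨x', rfl⟩ := exists_eq_unif_mul h hx
  obtain ⟨y', rfl⟩ := exists_eq_unif_mul h hy
  have h1 : unif (F := F) h * 1 = unif h * (unif h * x' * y') := by
    rw [mul_one]
    calc unif h = unif h * x' * (unif h * y') := hxy
      _ = unif h * (unif h * x' * y') := by ring
  have h2 : (1 : valSub F Q h) = unif h * x' * y' := mul_left_cancel₀ (unif_ne_zero h ha0) h1
  apply unif_not_isUnit (F := F) h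
  exact IsUnit.of_mul_eq_one (x' * y') (by rw [← mul_assoc]; exact h2.symm)

/-- unit-times-power factorisation in `M_Q` -/
theorem exists_associated_pow {x : valSub F Q h} (hx : x ≠ 0) :
    ∃ n : ℕ, Associated (unif h ^ n) x := by
  obtain ⟨m, s, hs, e⟩ := x.2
  have hs0 := algebraMap_ne_zero_of_nmem (F := F) hs
  have hm0 : m ≠ 0 := by
    rintro rfl
    rw [map_zero] at e
    rcases mul_eq_zero.1 e with h1 | h1
    · exact hx (Subtype.ext h1)
    · exact hs0 h1
  obtain ⟨n, s', c, hs', hc, esc⟩ := exists_pow h m hm0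
  have hs'0 := algebraMap_ne_zero_of_nmem (F := F) hs'
  refine ⟨n, unitOf h hc (mul_nmem hs hs'), ?_⟩
  apply Subtype.ext
  have E : algebraMap M F s' * algebraMap M F m = algebraMap M F c * algebraMap M F a ^ n := by
    rw [← map_mul, esc, map_mul, map_pow]
  have hxval : (x : F) = algebraMap M F m / algebraMap M F s := by
    rw [eq_div_iff hs0, e]
  change algebraMap M F a ^ n * (algebraMap M F c / algebraMap M F (s * s')) = (x : F)
  rw [hxval, map_mul]
  field_simp
  linear_combination (-1 : F) * E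

theorem isDVR (ha0 : a ≠ 0) : IsDiscreteValuationRing (valSub F Q h) :=
  IsDiscreteValuationRing.ofHasUnitMulPowIrreducibleFactorization
    ⟨unif h, unif_irreducible h ha0, fun hx => exists_associated_pow h hx⟩

variable (K : Type*) [Field K] [Algebra K F]

/-- **The place of `F / K` attached to a locally principal prime `Q` of `M`.** -/
def placeOf (ha0 : a ≠ 0) (hK : ∀ k : K, algebraMap K F k ∈ valSub F Q h) : Place K F where
  toValuationSubring := valSub F Q h
  algebraMap_mem' := hK
  ne_top' := valSub_ne_top h h.mem ha0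
  isPrincipalIdealRing' := by
    have := isDVR (F := F) h ha0
    infer_instance

variable {K}

@[simp]
theorem placeOf_toValuationSubring (ha0 : a ≠ 0) (hK : ∀ k : K, algebraMap K F k ∈ valSub F Q h) :
    (placeOf h K ha0 hK).toValuationSubring = valSub F Q h := rfl

/-- **ord formula**: `s * m = c * a ^ n`, `s, c ∉ Q` ⇒ `ord_Q m = n`. -/
theorem ord_placeOf (ha0 : a ≠ 0) (hK : ∀ k : K, algebraMap K F k ∈ valSub F Q h)
    {m s c : M} {n : ℕ} (hs : s ∉ Q) (hc : c ∉ Q) (e : s * m = c * a ^ n) :
    (placeOf h K ha0 hK).ord (algebraMap M F m) = n := by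
  have hs0 := algebraMap_ne_zero_of_nmem (F := F) hs
  have E : algebraMap M F s * algebraMap M F m = algebraMap M F c * algebraMap M F a ^ n := by
    rw [← map_mul, e, map_mul, map_pow]
  have hm : algebraMap M F m
      = (((unitOf h hc hs : (valSub F Q h)ˣ) : valSub F Q h) : F)
          * (((unif h : valSub F Q h) : F) ^ (n : ℤ)) := by
    change algebraMap M F m = algebraMap M F c / algebraMap M F s * (algebraMap M F a) ^ (n : ℤ)
    rw [zpow_natCast]
    field_simp
    linear_combination E
  rw [hm]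
  exact (placeOf h K ha0 hK).ord_unit_smul_zpow (unitOf h hc hs) (unif_irreducible h ha0) n

/-- `ord_Q` of the uniformizer is `1`. -/
theorem ord_placeOf_unif (ha0 : a ≠ 0) (hK : ∀ k : K, algebraMap K F k ∈ valSub F Q h) :
    (placeOf h K ha0 hK).ord (algebraMap M F a) = 1 := by
  have := ord_placeOf (K := K) h ha0 hK (m := a) (s := 1) (c := 1) (n := 1) one_nmem one_nmem
    (by ring)
  simpa using this

/-- `ord_Q` of an element outside `Q` is `0`. -/
theorem ord_placeOf_of_nmem (ha0 : a ≠ 0) (hK : ∀ k : K, algebraMap K F k ∈ valSub F Q h)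
    {m : M} (hm : m ∉ Q) : (placeOf h K ha0 hK).ord (algebraMap M F m) = 0 := by
  have := ord_placeOf (K := K) h ha0 hK (m := m) (s := 1) (c := m) (n := 0) one_nmem hm
    (by ring)
  simpa using this

/-- `ord_Q m ≥ 0` on `M`, and `> 0` exactly on `Q`. -/
theorem ord_placeOf_pos_iff (ha0 : a ≠ 0) (hK : ∀ k : K, algebraMap K F k ∈ valSub F Q h)
    {m : M} (hm0 : m ≠ 0) : 0 < (placeOf h K ha0 hK).ord (algebraMap M F m) ↔ m ∈ Q := by
  obtain ⟨n, s, c, hs, hc, e⟩ := exists_pow h m hm0
  rw [ord_placeOf h ha0 hK hs hc e]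
  constructor
  · intro hn
    have hn' : n ≠ 0 := by
      rintro rfl
      simp at hn
    have : s * m ∈ Q := by
      rw [e]
      exact Q.mul_mem_left c (Q.pow_mem_of_mem h.mem n (Nat.pos_of_ne_zero hn'))
    exact (hQ.mem_or_mem this).resolve_left hs
  · intro hmQ
    have hn' : n ≠ 0 := by
      rintro rfl
      rw [pow_zero, mul_one] at e
      exact hc (e ▸ Q.mul_mem_left s hmQ)
    exact_mod_cast Nat.pos_of_ne_zero hn'

/-- **`n ∣ ord_Q f` ⇒ `f = unit_Q · z ^ n`** (the local statement used by (LOC)). -/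
theorem exists_unit_mul_pow_of_dvd_ord (ha0 : a ≠ 0)
    (hK : ∀ k : K, algebraMap K F k ∈ valSub F Q h) {f : F} (hf : f ≠ 0) {n : ℕ}
    (hdvd : (n : ℤ) ∣ (placeOf h K ha0 hK).ord f) :
    ∃ (z : F) (c s : M), z ≠ 0 ∧ c ∉ Q ∧ s ∉ Q ∧
      f * algebraMap M F s = algebraMap M F c * z ^ n := by
  obtain ⟨k, hk⟩ := hdvd
  obtain ⟨w, hw⟩ := (placeOf h K ha0 hK).exists_unit_mul_zpow hf (unif_irreducible h ha0)
  have haF : algebraMap M F a ≠ 0 := fun h0 =>
    ha0 (IsFractionRing.injective M F (by rw [h0, map_zero]))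
  -- the unit `w` of `M_Q` is `m / s`
  have hwmem : ((w : ↥(placeOf h K ha0 hK).toValuationSubring) : F) ∈ valSub F Q h :=
    (w : ↥(placeOf h K ha0 hK).toValuationSubring).2
  have hwinv : (((w⁻¹ : (↥(placeOf h K ha0 hK).toValuationSubring)ˣ) :
      ↥(placeOf h K ha0 hK).toValuationSubring) : F) ∈ valSub F Q h :=
    ((w⁻¹ : (↥(placeOf h K ha0 hK).toValuationSubring)ˣ) :
      ↥(placeOf h K ha0 hK).toValuationSubring).2
  have hwmul : ((w : ↥(placeOf h K ha0 hK).toValuationSubring) : F) *
      (((w⁻¹ : (↥(placeOf h K ha0 hK).toValuationSubring)ˣ) :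
      ↥(placeOf h K ha0 hK).toValuationSubring) : F) = 1 := by
    have h2 := congrArg Subtype.val (w.mul_inv)
    rw [MulMemClass.coe_mul, OneMemClass.coe_one] at h2
    exact h2
  have hw0 : ((w : ↥(placeOf h K ha0 hK).toValuationSubring) : F) ≠ 0 := by
    intro h0
    rw [h0, zero_mul] at hwmul
    exact zero_ne_one hwmul
  obtain ⟨m, s, hs, e⟩ := hwmem
  have hs0 := algebraMap_ne_zero_of_nmem (F := F) hs
  have hm0 : algebraMap M F m ≠ 0 := by
    rw [← e]; exact mul_ne_zero hw0 hs0
  have hmQ : m ∉ Q := by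
    intro hmQ
    have hnon : algebraMap M F m ∈ (valSub F Q h).nonunits :=
      (algebraMap_mem_nonunits_iff h m).2 hmQ
    rw [ValuationSubring.mem_nonunits_iff_or] at hnon
    rcases hnon with h0 | h1
    · exact hm0 h0
    · apply h1
      have : (algebraMap M F m)⁻¹ = (((w⁻¹ : (↥(placeOf h K ha0 hK).toValuationSubring)ˣ) :
          ↥(placeOf h K ha0 hK).toValuationSubring) : F) * (algebraMap M F s)⁻¹ := by
        rw [← e, mul_inv]
        congr 1
        exact (eq_inv_of_mul_eq_one_right hwmul).symm ▸ rfl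
      rw [this]
      exact (valSub F Q h).mul_mem _ _ hwinv (inv_algebraMap_mem_valSub h hs)
  refine ⟨algebraMap M F a ^ k, m, s, zpow_ne_zero _ haF, hmQ, hs, ?_⟩
  have hunif : ((unif h : valSub F Q h) : F) = algebraMap M F a := rfl
  rw [hw, hunif, hk, mul_comm (n : ℤ) k, zpow_mul, zpow_natCast, mul_right_comm, e]

end H25KR

end
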