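/-
Item 82 (S34), slice (I5) LNC, divisorial half, part 1 (helper22).  Mathlib only.

`B` a noetherian domain with fraction field `F`, `Q` a prime of `B`.
* `InLoc F Q t`  : `t ∈ B_Q`   (encoded as `∃ a b, b ∉ Q ∧ t * b = a`, no localisation types);
* `UnitAt F Q t` : `t ∈ B_Q^×`;
* `LocGen Q z`   : `z ≠ 0` generates `Q B_Q`;
* `h22lnc_factor_ring`  : for `LocGen Q z`, every `a ≠ 0` of `B` is `z ^ i * unit at Q`;
* `h22lnc_factor`       : every `t ≠ 0` of `F` is `z ^ m * unit at Q` (`m : ℤ`);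
* `h22lnc_valuationRing`: `t ∈ B_Q` or `t⁻¹ ∈ B_Q`.
Nothing here is proved by a placeholder.
-/
import Mathlib

set_option autoImplicit false
set_option linter.unusedSectionVars false

noncomputable section

namespace H22LNC

variable {B : Type*} [CommRing B] [IsDomain B]
variable {F : Type*} [Field F] [Algebra B F] [IsFractionRing B F]

/-- `t ∈ B_Q` -/
def InLoc (F : Type*) [Field F] [Algebra B F] (Q : Ideal B) (t : F) : Prop :=
  ∃ a b : B, b ∉ Q ∧ t * algebraMap B F b = algebraMap B F a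

/-- `t ∈ B_Q^×` -/
def UnitAt (F : Type*) [Field F] [Algebra B F] (Q : Ideal B) (t : F) : Prop :=
  ∃ a b : B, a ∉ Q ∧ b ∉ Q ∧ t * algebraMap B F b = algebraMap B F a

/-- `z ≠ 0` generates `Q B_Q` -/
def LocGen (Q : Ideal B) (z : B) : Prop :=
  z ∈ Q ∧ z ≠ 0 ∧ ∀ c ∈ Q, ∃ s e : B, s ∉ Q ∧ c * s = z * e

theorem UnitAt.inLoc {Q : Ideal B} {t : F} (h : UnitAt F Q t) : InLoc F Q t := by
  obtain ⟨a, b, _, hb, h⟩ := h
  exact ⟨a, b, hb, h⟩

theorem algebraMap_ne_zero_of_not_mem {Q : Ideal B} {a : B} (ha : a ∉ Q) :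
    algebraMap B F a ≠ 0 := by
  intro h
  have : a = 0 := (IsFractionRing.injective B F) (by rw [h, map_zero])
  exact ha (this ▸ Q.zero_mem)

theorem algebraMap_ne_zero' {a : B} (ha : a ≠ 0) : algebraMap B F a ≠ 0 := by
  intro h
  exact ha ((IsFractionRing.injective B F) (by rw [h, map_zero]))

theorem UnitAt.ne_zero {Q : Ideal B} {t : F} (h : UnitAt F Q t) : t ≠ 0 := by
  obtain ⟨a, b, ha, _, h⟩ := h
  rintro rfl
  rw [zero_mul] at h
  exact algebraMap_ne_zero_of_not_mem (F := F) ha h.symm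

theorem UnitAt.mul {Q : Ideal B} [Q.IsPrime] {t t' : F} (h : UnitAt F Q t) (h' : UnitAt F Q t') :
    UnitAt F Q (t * t') := by
  obtain ⟨a, b, ha, hb, h⟩ := h
  obtain ⟨a', b', ha', hb', h'⟩ := h'
  refine ⟨a * a', b * b', ?_, ?_, ?_⟩
  · exact fun hm => (Ideal.IsPrime.mem_or_mem ‹_› hm).elim ha ha'
  · exact fun hm => (Ideal.IsPrime.mem_or_mem ‹_› hm).elim hb hb'
  · rw [map_mul, map_mul, ← h, ← h']; ring

theorem UnitAt.inv {Q : Ideal B} {t : F} (h : UnitAt F Q t) : UnitAt F Q t⁻¹ := by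
  have h0 := h.ne_zero
  obtain ⟨a, b, ha, hb, h⟩ := h
  refine ⟨b, a, hb, ha, ?_⟩
  rw [← h]
  field_simp

theorem UnitAt.one {Q : Ideal B} [Q.IsPrime] : UnitAt F Q (1 : F) :=
  ⟨1, 1, fun h => Ideal.IsPrime.ne_top ‹_› ((Ideal.eq_top_iff_one _).mpr h),
    fun h => Ideal.IsPrime.ne_top ‹_› ((Ideal.eq_top_iff_one _).mpr h), by simp⟩

theorem UnitAt.pow {Q : Ideal B} [Q.IsPrime] {t : F} (h : UnitAt F Q t) (m : ℕ) :
    UnitAt F Q (t ^ m) := by
  induction m with
  | zero => simpa using UnitAt.one (F := F) (Q := Q)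
  | succ m ih => rw [pow_succ]; exact ih.mul h

theorem UnitAt.zpow {Q : Ideal B} [Q.IsPrime] {t : F} (h : UnitAt F Q t) (m : ℤ) :
    UnitAt F Q (t ^ m) := by
  cases m with
  | ofNat m => simpa using h.pow m
  | negSucc m => rw [zpow_negSucc]; exact (h.pow _).inv

theorem UnitAt.div {Q : Ideal B} [Q.IsPrime] {t t' : F} (h : UnitAt F Q t) (h' : UnitAt F Q t') :
    UnitAt F Q (t / t') := by
  rw [div_eq_mul_inv]; exact h.mul h'.inv

theorem unitAt_of_not_mem {Q : Ideal B} [Q.IsPrime] {a : B} (ha : a ∉ Q) :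
    UnitAt F Q (algebraMap B F a) :=
  ⟨a, 1, ha, fun h => Ideal.IsPrime.ne_top ‹_› ((Ideal.eq_top_iff_one _).mpr h), by simp⟩

theorem unitAt_of_isUnit {Q : Ideal B} [Q.IsPrime] {a : B} (ha : IsUnit a) :
    UnitAt F Q (algebraMap B F a) :=
  unitAt_of_not_mem fun h => Ideal.IsPrime.ne_top ‹_› (Ideal.eq_top_of_isUnit_mem _ h ha)

theorem inLoc_algebraMap {Q : Ideal B} [Q.IsPrime] (a : B) : InLoc F Q (algebraMap B F a) :=
  ⟨a, 1, fun h => Ideal.IsPrime.ne_top ‹_› ((Ideal.eq_top_iff_one _).mpr h), by simp⟩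

theorem InLoc.mul {Q : Ideal B} [Q.IsPrime] {t t' : F} (h : InLoc F Q t) (h' : InLoc F Q t') :
    InLoc F Q (t * t') := by
  obtain ⟨a, b, hb, h⟩ := h
  obtain ⟨a', b', hb', h'⟩ := h'
  refine ⟨a * a', b * b', ?_, ?_⟩
  · exact fun hm => (Ideal.IsPrime.mem_or_mem ‹_› hm).elim hb hb'
  · rw [map_mul, map_mul, ← h, ← h']; ring

theorem InLoc.pow {Q : Ideal B} [Q.IsPrime] {t : F} (h : InLoc F Q t) (m : ℕ) :
    InLoc F Q (t ^ m) := by
  induction m with
  | zero => simpa using inLoc_algebraMap (F := F) (Q := Q) 1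
  | succ m ih => rw [pow_succ]; exact ih.mul h

/-! ### `B_Q` is a discrete valuation ring when `Q B_Q` is principal -/

/-- symbolic-power membership, step -/
theorem h22lnc_symb_step {Q : Ideal B} [Q.IsPrime] {z : B} (hz : LocGen Q z) {a : B} {i : ℕ}
    (h : ∃ s e : B, s ∉ Q ∧ a * s = z ^ i * e)
    (hno : ¬ ∃ s e : B, s ∉ Q ∧ e ∉ Q ∧ a * s = z ^ i * e) :
    ∃ s e : B, s ∉ Q ∧ a * s = z ^ (i + 1) * e := by
  obtain ⟨s, e, hs, hse⟩ := h
  have heQ : e ∈ Q := by
    by_contra he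
    exact hno ⟨s, e, hs, he, hse⟩
  obtain ⟨s', e', hs', he'⟩ := hz.2.2 e heQ
  refine ⟨s * s', e', fun hm => (Ideal.IsPrime.mem_or_mem ‹_› hm).elim hs hs', ?_⟩
  calc a * (s * s') = (a * s) * s' := by ring
    _ = z ^ i * (e * s') := by rw [hse]; ring
    _ = z ^ (i + 1) * e' := by rw [he']; ring

/-- Krull intersection in `B_Q`, pulled back to `B` -/
theorem h22lnc_krull [IsNoetherianRing B] {Q : Ideal B} [hQ : Q.IsPrime] {z : B} (hz : z ∈ Q)
    {a : B} (h : ∀ i : ℕ, ∃ s e : B, s ∉ Q ∧ a * s = z ^ i * e) : a = 0 := by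
  let A := Localization.AtPrime Q
  have hinj : Function.Injective (algebraMap B A) :=
    IsLocalization.injective A (Q.primeCompl_le_nonZeroDivisors)
  have hzm : algebraMap B A z ∈ IsLocalRing.maximalIdeal A := by
    rw [← Localization.AtPrime.map_eq_maximalIdeal]
    exact Ideal.mem_map_of_mem _ hz
  have hmem : algebraMap B A a ∈ ⨅ i : ℕ, (IsLocalRing.maximalIdeal A) ^ i := by
    rw [Ideal.mem_iInf]
    intro i
    obtain ⟨s, e, hs, hse⟩ := h i
    have hsu : IsUnit (algebraMap B A s) :=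
      IsLocalization.map_units A (⟨s, hs⟩ : Q.primeCompl)
    obtain ⟨su, hsu'⟩ := hsu
    have h1 : algebraMap B A a = (algebraMap B A z) ^ i * (algebraMap B A e * ↑su⁻¹) := by
      have h2 : algebraMap B A a * algebraMap B A s =
          (algebraMap B A z) ^ i * algebraMap B A e := by
        rw [← map_mul, hse, map_mul, map_pow]
      calc algebraMap B A a = algebraMap B A a * algebraMap B A s * ↑su⁻¹ := by
            rw [← hsu', mul_assoc, Units.mul_inv, mul_one]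
        _ = (algebraMap B A z) ^ i * (algebraMap B A e * ↑su⁻¹) := by rw [h2]; ring
    rw [h1]
    exact Ideal.mul_mem_right _ _ (Ideal.pow_mem_pow hzm i)
  rw [Ideal.iInf_pow_eq_bot_of_isLocalRing _ (IsLocalRing.maximalIdeal.isMaximal A).ne_top,
    Ideal.mem_bot] at hmem
  exact hinj (by rw [hmem, map_zero])

/-- every nonzero element of `B` is `z ^ i` times a unit of `B_Q` -/
theorem h22lnc_factor_ring [IsNoetherianRing B] {Q : Ideal B} [Q.IsPrime] {z : B}
    (hz : LocGen Q z) {a : B} (ha : a ≠ 0) :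
    ∃ (i : ℕ) (s e : B), s ∉ Q ∧ e ∉ Q ∧ a * s = z ^ i * e := by
  by_contra hcon
  apply ha
  apply h22lnc_krull hz.1
  intro i
  induction i with
  | zero =>
    exact ⟨1, a, fun h => Ideal.IsPrime.ne_top ‹_› ((Ideal.eq_top_iff_one _).mpr h), by simp⟩
  | succ i ih =>
    apply h22lnc_symb_step hz ih
    rintro ⟨s, e, hs, he, hse⟩
    exact hcon ⟨i, s, e, hs, he, hse⟩

/-- every nonzero element of `F` is `z ^ m` times a unit of `B_Q` -/
theorem h22lnc_factor [IsNoetherianRing B] {Q : Ideal B} [Q.IsPrime] {z : B}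
    (hz : LocGen Q z) {t : F} (ht : t ≠ 0) :
    ∃ (m : ℤ) (v : F), UnitAt F Q v ∧ t = algebraMap B F z ^ m * v := by
  obtain ⟨a, b, hbn, hab⟩ := IsFractionRing.div_surjective (A := B) t
  have hb0 : b ≠ 0 := nonZeroDivisors.ne_zero hbn
  have ha0 : a ≠ 0 := by
    rintro rfl
    rw [map_zero, zero_div] at hab
    exact ht hab.symm
  obtain ⟨i, s, e, hs, he, hse⟩ := h22lnc_factor_ring hz ha0
  obtain ⟨j, s', e', hs', he', hse'⟩ := h22lnc_factor_ring hz hb0
  have hzF : algebraMap B F z ≠ 0 := algebraMap_ne_zero' hz.2.1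
  have hsF : algebraMap B F s ≠ 0 := algebraMap_ne_zero_of_not_mem hs
  have hs'F : algebraMap B F s' ≠ 0 := algebraMap_ne_zero_of_not_mem hs'
  have he'F : algebraMap B F e' ≠ 0 := algebraMap_ne_zero_of_not_mem he'
  have hbF : algebraMap B F b ≠ 0 := algebraMap_ne_zero' hb0
  refine ⟨(i : ℤ) - j, algebraMap B F (e * s') / algebraMap B F (s * e'), ?_, ?_⟩
  · apply UnitAt.div
    · exact unitAt_of_not_mem fun hm => (Ideal.IsPrime.mem_or_mem ‹_› hm).elim he hs'
    · exact unitAt_of_not_mem fun hm => (Ideal.IsPrime.mem_or_mem ‹_› hm).elim hs he'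
  · have h1 : algebraMap B F a * algebraMap B F s = algebraMap B F z ^ i * algebraMap B F e := by
      rw [← map_mul, hse, map_mul, map_pow]
    have h2 : algebraMap B F b * algebraMap B F s' =
        algebraMap B F z ^ j * algebraMap B F e' := by
      rw [← map_mul, hse', map_mul, map_pow]
    have h3 : algebraMap B F a = algebraMap B F z ^ i * algebraMap B F e / algebraMap B F s := by
      rw [eq_div_iff hsF, h1]
    have h4 : algebraMap B F b =
        algebraMap B F z ^ j * algebraMap B F e' / algebraMap B F s' := by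
      rw [eq_div_iff hs'F, h2]
    rw [← hab, h3, h4, zpow_sub₀ hzF, zpow_natCast, zpow_natCast, map_mul, map_mul]
    field_simp

/-- `B_Q` is a valuation ring of `F` -/
theorem h22lnc_valuationRing [IsNoetherianRing B] {Q : Ideal B} [Q.IsPrime] {z : B}
    (hz : LocGen Q z) {t : F} (ht : t ≠ 0) : InLoc F Q t ∨ InLoc F Q t⁻¹ := by
  obtain ⟨m, v, hv, rfl⟩ := h22lnc_factor (F := F) hz ht
  rcases le_or_gt 0 m with hm | hm
  · left
    obtain ⟨k, rfl⟩ := Int.eq_ofNat_of_zero_le hm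
    rw [zpow_natCast]
    exact ((inLoc_algebraMap z).pow k).mul hv.inLoc
  · right
    obtain ⟨k, hk⟩ := Int.eq_ofNat_of_zero_le (by omega : 0 ≤ -m)
    rw [mul_inv, ← zpow_neg, hk, zpow_natCast]
    exact ((inLoc_algebraMap z).pow k).mul hv.inv.inLoc

end H22LNC

end
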