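/-
Item 82 (S34), slice (I5) LNC, divisorial half, part 2 (helper22).  Mathlib only.

`P` a prime of the domain `B` with `B ⧸ P` a discrete valuation ring.
`OrdAt F P t e` : `t ∈ B_P^×` and the reduction of `t` modulo `P` has order `e : ℤ` at the
closed point of `B ⧸ P`.
Nothing here is proved by a placeholder.
-/
import Mathlib
import Fermat.Agent.S34.LNCDiv_helper22

set_option autoImplicit false
set_option linter.unusedSectionVars false

noncomputable section

namespace H22LNC

open IsDiscreteValuationRing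

variable {B : Type*} [CommRing B] [IsDomain B]
variable {F : Type*} [Field F] [Algebra B F] [IsFractionRing B F]
variable {P : Ideal B} [P.IsPrime] [IsDiscreteValuationRing (B ⧸ P)]

/-- order of the reduction modulo `P` of a unit of `B_P` -/
def OrdAt (F : Type*) [Field F] [Algebra B F] (P : Ideal B) [P.IsPrime]
    [IsDiscreteValuationRing (B ⧸ P)] (t : F) (e : ℤ) : Prop :=
  ∃ (a b : B) (i j : ℕ), t * algebraMap B F b = algebraMap B F a ∧
    addVal (B ⧸ P) (Ideal.Quotient.mk P a) = i ∧ addVal (B ⧸ P) (Ideal.Quotient.mk P b) = j ∧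
    e = (i : ℤ) - j

theorem not_mem_of_addVal {a : B} {i : ℕ} (h : addVal (B ⧸ P) (Ideal.Quotient.mk P a) = i) :
    a ∉ P := by
  intro ha
  rw [Ideal.Quotient.eq_zero_iff_mem.2 ha, addVal_zero] at h
  exact ENat.top_ne_natCast i h

theorem exists_addVal {a : B} (ha : a ∉ P) :
    ∃ i : ℕ, addVal (B ⧸ P) (Ideal.Quotient.mk P a) = i := by
  have h : addVal (B ⧸ P) (Ideal.Quotient.mk P a) ≠ ⊤ := by
    rw [Ne, addVal_eq_top_iff, Ideal.Quotient.eq_zero_iff_mem]
    exact ha
  exact ⟨(addVal (B ⧸ P) (Ideal.Quotient.mk P a)).toNat, (ENat.natCast_toNat h).symm⟩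

theorem OrdAt.unitAt {t : F} {e : ℤ} (h : OrdAt F P t e) : UnitAt F P t := by
  obtain ⟨a, b, i, j, hab, hi, hj, -⟩ := h
  exact ⟨a, b, not_mem_of_addVal hi, not_mem_of_addVal hj, hab⟩

theorem UnitAt.exists_ordAt {t : F} (h : UnitAt F P t) : ∃ e : ℤ, OrdAt F P t e := by
  obtain ⟨a, b, ha, hb, hab⟩ := h
  obtain ⟨i, hi⟩ := exists_addVal ha
  obtain ⟨j, hj⟩ := exists_addVal hb
  exact ⟨(i : ℤ) - j, a, b, i, j, hab, hi, hj, rfl⟩

theorem OrdAt.unique {t : F} {e e' : ℤ} (h : OrdAt F P t e) (h' : OrdAt F P t e') : e = e' := by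
  obtain ⟨a, b, i, j, hab, hi, hj, rfl⟩ := h
  obtain ⟨a', b', i', j', hab', hi', hj', rfl⟩ := h'
  have hb : algebraMap B F b ≠ 0 := algebraMap_ne_zero_of_not_mem (not_mem_of_addVal hj)
  have hb' : algebraMap B F b' ≠ 0 := algebraMap_ne_zero_of_not_mem (not_mem_of_addVal hj')
  have h1 : algebraMap B F (a * b') = algebraMap B F (a' * b) := by
    rw [map_mul, map_mul, ← hab, ← hab']; ring
  have h2 : a * b' = a' * b := IsFractionRing.injective B F h1
  have h3 : addVal (B ⧸ P) (Ideal.Quotient.mk P a * Ideal.Quotient.mk P b') =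
      addVal (B ⧸ P) (Ideal.Quotient.mk P a' * Ideal.Quotient.mk P b) := by
    rw [← map_mul (Ideal.Quotient.mk P), ← map_mul (Ideal.Quotient.mk P), h2]
  rw [addVal_mul, addVal_mul, hi, hj', hi', hj] at h3
  have h4 : i + j' = i' + j := by exact_mod_cast h3
  omega

theorem OrdAt.mul {t t' : F} {e e' : ℤ} (h : OrdAt F P t e) (h' : OrdAt F P t' e') :
    OrdAt F P (t * t') (e + e') := by
  obtain ⟨a, b, i, j, hab, hi, hj, rfl⟩ := h
  obtain ⟨a', b', i', j', hab', hi', hj', rfl⟩ := h'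
  refine ⟨a * a', b * b', i + i', j + j', ?_, ?_, ?_, ?_⟩
  · rw [map_mul, map_mul, ← hab, ← hab']; ring
  · rw [map_mul (Ideal.Quotient.mk P), addVal_mul, hi, hi']; rfl
  · rw [map_mul (Ideal.Quotient.mk P), addVal_mul, hj, hj']; rfl
  · push_cast; ring

theorem OrdAt.inv {t : F} {e : ℤ} (h : OrdAt F P t e) : OrdAt F P t⁻¹ (-e) := by
  have h0 := h.unitAt.ne_zero
  obtain ⟨a, b, i, j, hab, hi, hj, rfl⟩ := h
  refine ⟨b, a, j, i, ?_, hj, hi, by ring⟩
  rw [← hab]
  field_simp

theorem OrdAt.one : OrdAt F P (1 : F) 0 :=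
  ⟨1, 1, 0, 0, by simp, by simp, by simp, by simp⟩

theorem OrdAt.div {t t' : F} {e e' : ℤ} (h : OrdAt F P t e) (h' : OrdAt F P t' e') :
    OrdAt F P (t / t') (e - e') := by
  rw [div_eq_mul_inv, sub_eq_add_neg]; exact h.mul h'.inv

theorem OrdAt.pow {t : F} {e : ℤ} (h : OrdAt F P t e) (m : ℕ) :
    OrdAt F P (t ^ m) (m * e) := by
  induction m with
  | zero => simpa using OrdAt.one (F := F) (P := P)
  | succ m ih =>
    rw [pow_succ]
    have := ih.mul h
    convert this using 1
    push_cast; ring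

theorem OrdAt.zpow {t : F} {e : ℤ} (h : OrdAt F P t e) (m : ℤ) :
    OrdAt F P (t ^ m) (m * e) := by
  cases m with
  | ofNat m => simpa using h.pow m
  | negSucc m =>
    rw [zpow_negSucc]
    have := (h.pow (m + 1)).inv
    convert this using 1
    rw [Int.negSucc_eq]; push_cast; ring

theorem ordAt_algebraMap {a : B} {i : ℕ}
    (h : addVal (B ⧸ P) (Ideal.Quotient.mk P a) = i) : OrdAt F P (algebraMap B F a) i :=
  ⟨a, 1, i, 0, by simp, h, by simp, by simp⟩

theorem ordAt_of_irreducible {x : B} (hx : Irreducible (Ideal.Quotient.mk P x)) :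
    OrdAt F P (algebraMap B F x) 1 := by
  have := ordAt_algebraMap (F := F) (P := P) (a := x) (i := 1)
    (by rw [addVal_uniformizer hx]; rfl)
  simpa using this

theorem ordAt_of_mk_eq {x z : B} (hx : Irreducible (Ideal.Quotient.mk P x))
    (hz : Ideal.Quotient.mk P z = Ideal.Quotient.mk P x) :
    OrdAt F P (algebraMap B F z) 1 :=
  ordAt_of_irreducible (hz ▸ hx)

theorem ordAt_of_isUnit {a : B} (ha : IsUnit a) : OrdAt F P (algebraMap B F a) 0 := by
  have := ordAt_algebraMap (F := F) (P := P) (a := a) (i := 0)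
    (by rw [Nat.cast_zero, addVal_eq_zero_iff]; exact ha.map _)
  simpa using this

/-- an element of `B` whose reduction has order `0` is a unit (`B` local) -/
theorem isUnit_of_ordAt_zero [IsLocalRing B] {w : B} (h : OrdAt F P (algebraMap B F w) 0) :
    IsUnit w := by
  obtain ⟨a, b, i, j, hab, hi, hj, he⟩ := h
  have h1 : w * b = a := IsFractionRing.injective B F (by rw [map_mul, hab])
  have h2 : addVal (B ⧸ P) (Ideal.Quotient.mk P w * Ideal.Quotient.mk P b) = i := by
    rw [← map_mul (Ideal.Quotient.mk P), h1, hi]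
  rw [addVal_mul, hj] at h2
  have hij : i = j := by omega
  subst hij
  have h3 : addVal (B ⧸ P) (Ideal.Quotient.mk P w) = 0 := by
    have hne : addVal (B ⧸ P) (Ideal.Quotient.mk P w) ≠ ⊤ := by
      intro htop
      rw [htop] at h2
      exact ENat.top_ne_natCast i (by simp at h2)
    obtain ⟨m, hm⟩ := ENat.ne_top_iff_exists.1 hne
    rw [← hm] at h2 ⊢
    have : m + i = i := by exact_mod_cast h2
    have : m = 0 := by omega
    simp [this]
  rw [addVal_eq_zero_iff] at h3
  by_contra hw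
  have hwm : w ∈ IsLocalRing.maximalIdeal B := (IsLocalRing.mem_maximalIdeal _).2 hw
  have hPm : P ≤ IsLocalRing.maximalIdeal B :=
    IsLocalRing.le_maximalIdeal (Ideal.IsPrime.ne_top ‹_›)
  obtain ⟨c, hc⟩ := h3.exists_right_inv
  obtain ⟨c, rfl⟩ := Ideal.Quotient.mk_surjective c
  rw [← map_mul, ← map_one (Ideal.Quotient.mk P), Ideal.Quotient.eq] at hc
  have h5 : w * c - 1 ∈ IsLocalRing.maximalIdeal B := hPm hc
  have h6 : (1 : B) ∈ IsLocalRing.maximalIdeal B := by
    have := (IsLocalRing.maximalIdeal B).sub_mem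
      ((IsLocalRing.maximalIdeal B).mul_mem_right c hwm) h5
    rwa [sub_sub_cancel] at this
  exact (IsLocalRing.mem_maximalIdeal _).1 h6 isUnit_one

end H22LNC

end
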