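/-
Item 82 (S34), slice (I5) LNC, divisorial half, part 3: the assembly (helper22).

`B` a noetherian integrally closed local domain, `(π) = P1 ∩ P2` (two branches), standard form
`x y = π ^ k u` of the node (helper9, `H9LNC.IsNode.structure`).  If `h ∈ F^×`
* has, modulo `n`-th powers, a reduction on the branch `P1` whose order at the closed point is
  divisible by `n`,
* and at every horizontal height-one prime `Q` where `h` is not a unit, `h` is a unit of `B_Q`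
  times an `n`-th power and `Q B_Q` is generated by some `z ≡ x mod P1` lying in no other
  horizontal prime (helper9, sections),
then `h = g ^ n * unit`.
Nothing here is proved by a placeholder.
-/
import Mathlib
import Fermat.Agent.S34.LNCOrd_helper22
import Fermat.Agent.S34.Hartogs_helper5

set_option autoImplicit false
set_option linter.unusedSectionVars false
set_option linter.style.haveILetI false

noncomputable section

namespace H22LNC

open IsLocalRing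

variable {B : Type*} [CommRing B] [IsDomain B]
variable {F : Type*} [Field F] [Algebra B F] [IsFractionRing B F]

/-- `π` generates `P2 B_{P2}` when `(π) = P1 ∩ P2`, `P1 ⊄ P2` -/
theorem locGen_of_inf {π : B} {P1 P2 : Ideal B} (hspan : Ideal.span {π} = P1 ⊓ P2)
    (hπ0 : π ≠ 0) (h12 : ¬ P1 ≤ P2) : LocGen P2 π := by
  have hπ : π ∈ P1 ⊓ P2 := hspan ▸ Ideal.mem_span_singleton_self π
  obtain ⟨p1, hp1, hp1'⟩ := Set.not_subset.1 h12
  refine ⟨hπ.2, hπ0, fun c hc => ?_⟩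
  have h1 : c * p1 ∈ P1 ⊓ P2 := ⟨P1.mul_mem_left c hp1, P2.mul_mem_right p1 hc⟩
  rw [← hspan, Ideal.mem_span_singleton'] at h1
  obtain ⟨e, he⟩ := h1
  exact ⟨p1, e, hp1', by rw [← he, mul_comm]⟩

/-- the height-one primes through `π` are `P1` and `P2` -/
theorem eq_of_pi_mem [IsNoetherianRing B] {π : B} {P1 P2 : Ideal B} [P1.IsPrime] [P2.IsPrime]
    (hspan : Ideal.span {π} = P1 ⊓ P2) (hπ0 : π ≠ 0) {Q : Ideal B} [hQ : Q.IsPrime]
    (hQ1 : Q.height = 1) (hπQ : π ∈ Q) : Q = P1 ∨ Q = P2 := by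
  have hπ : π ∈ P1 ⊓ P2 := hspan ▸ Ideal.mem_span_singleton_self π
  have hle : P1 ⊓ P2 ≤ Q := by
    rw [← hspan]; exact (Ideal.span_singleton_le_iff_mem _).2 hπQ
  have key : ∀ P : Ideal B, P.IsPrime → π ∈ P → P ≤ Q → Q = P := by
    intro P hP hπP hPQ
    haveI := hP
    have h1 : 1 ≤ P.height := by
      rw [Order.one_le_iff_pos, pos_iff_ne_zero, Ne, Ideal.height_eq_zero_iff_eq_bot]
      intro hbot
      rw [hbot, Ideal.mem_bot] at hπP
      exact hπ0 hπP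
    exact (Ideal.eq_of_le_of_height_le P hPQ (by rw [hQ1]; exact h1)).symm
  rcases (Ideal.IsPrime.inf_le hQ).1 hle with h | h
  · exact Or.inl (key P1 inferInstance hπ.1 h)
  · exact Or.inr (key P2 inferInstance hπ.2 h)

/-- the support of `h` is finite -/
theorem supp_finite [IsNoetherianRing B] {h : F} (hh0 : h ≠ 0) :
    {Q : Ideal B | Q.IsPrime ∧ Q.height = 1 ∧ ¬ UnitAt F Q h}.Finite := by
  obtain ⟨a, b, hbn, hab⟩ := IsFractionRing.div_surjective (A := B) h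
  have hb0 : b ≠ 0 := nonZeroDivisors.ne_zero hbn
  have ha0 : a ≠ 0 := by
    rintro rfl
    rw [map_zero, zero_div] at hab
    exact hh0 hab.symm
  have hbF : algebraMap B F b ≠ 0 := algebraMap_ne_zero' hb0
  refine ((Ideal.finite_minimalPrimes_of_isNoetherianRing B (Ideal.span {a})).union
    (Ideal.finite_minimalPrimes_of_isNoetherianRing B (Ideal.span {b}))).subset ?_
  rintro Q ⟨hQ, hQ1, hQu⟩
  haveI := hQ
  have key : ∀ c : B, c ≠ 0 → c ∈ Q → Q ∈ (Ideal.span {c}).minimalPrimes := by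
    intro c hc hcQ
    refine Ideal.mem_minimalPrimes_of_height_le ((Ideal.span_singleton_le_iff_mem _).2 hcQ) ?_
    rw [hQ1]
    exact Ideal.one_le_height_span_singleton_of_mem_nonZeroDivisors
      (mem_nonZeroDivisors_of_ne_zero hc)
  by_cases haQ : a ∈ Q
  · exact Or.inl (key a ha0 haQ)
  · by_cases hbQ : b ∈ Q
    · exact Or.inr (key b hb0 hbQ)
    · exfalso
      apply hQu
      refine ⟨a, b, haQ, hbQ, ?_⟩
      rw [← hab, div_mul_cancel₀ _ hbF]

/-- a finite product of units at `Q'` is a unit at `Q'` -/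
theorem unitAt_prod {ι : Type*} (s : Finset ι) (f : ι → F) {Q' : Ideal B} [Q'.IsPrime]
    (hf : ∀ i ∈ s, UnitAt F Q' (f i)) : UnitAt F Q' (∏ i ∈ s, f i) := by
  classical
  induction s using Finset.induction_on with
  | empty => simpa using UnitAt.one (F := F) (Q := Q')
  | insert a s ha ih =>
    rw [Finset.prod_insert ha]
    exact (hf a (Finset.mem_insert_self a s)).mul
      (ih fun i hi => hf i (Finset.mem_insert_of_mem hi))

theorem aux_split1 (h Z v : F) (n : ℕ) (hZ : Z ≠ 0) (hv : v ≠ 0) :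
    h / Z ^ n = h / (Z * v) ^ n * v ^ n := by
  rw [mul_pow]
  field_simp

theorem aux_split2 (h Z R : F) (n : ℕ) (hZ : Z ≠ 0) (hR : R ≠ 0) :
    h / (Z * R) ^ n = h / Z ^ n / R ^ n := by
  rw [mul_pow]
  field_simp

theorem aux_split3 (h g0 A X v1 : F) (n : ℕ) (hg : g0 ≠ 0) (hA : A ≠ 0) (hX : X ≠ 0)
    (hv : v1 ≠ 0) :
    h / (g0 * A * X) ^ n = h / (A * v1) ^ n * (v1 / g0 / X) ^ n := by
  simp only [mul_pow, div_pow]
  field_simp

theorem aux_split4 (h g0 A X : F) (n : ℕ) (hg : g0 ≠ 0) (hA : A ≠ 0) (hX : X ≠ 0) :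
    h / (g0 * A * X) ^ n = h / g0 ^ n / (A * X) ^ n := by
  simp only [mul_pow]
  field_simp

theorem aux_split5 (h g : F) (n : ℕ) (hg : g ≠ 0) : h = g ^ n * (h / g ^ n) := by
  field_simp

/-- **LNC, assembly.** -/
theorem h22lnc_core [IsLocalRing B] [IsNoetherianRing B] [IsIntegrallyClosed B]
    {π : B} {P1 P2 : Ideal B} [hP1 : P1.IsPrime] [hP2 : P2.IsPrime]
    [IsDiscreteValuationRing (B ⧸ P1)]
    (hspan : Ideal.span {π} = P1 ⊓ P2) (hπ0 : π ≠ 0) (h12 : ¬ P1 ≤ P2) (h21 : ¬ P2 ≤ P1)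
    {k : ℕ} {x y u : B} (hu : IsUnit u) (hxy : x * y = π ^ k * u)
    (hx1 : Irreducible (Ideal.Quotient.mk P1 x))
    {n : ℕ} {h : F} (hh0 : h ≠ 0)
    (hred : ∃ (w : F) (e : ℤ), w ≠ 0 ∧ OrdAt F P1 (h / w ^ n) e ∧ (n : ℤ) ∣ e)
    (hhor : ∀ Q : Ideal B, Q.IsPrime → Q.height = 1 → π ∉ Q → ¬ UnitAt F Q h →
      (∃ w : F, w ≠ 0 ∧ UnitAt F Q (h / w ^ n)) ∧
      ∃ z : B, LocGen Q z ∧ (∀ Q' : Ideal B, Q'.IsPrime → z ∈ Q' → π ∉ Q' → Q' = Q) ∧
        Ideal.Quotient.mk P1 z = Ideal.Quotient.mk P1 x) :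
    ∃ (g : F) (v : Bˣ), h = g ^ n * algebraMap B F v := by
  classical
  obtain ⟨w1, e1, hw1, hord1, c1, hc1⟩ := hred
  have hL1 : LocGen P1 π := locGen_of_inf (by rw [hspan, inf_comm]) hπ0 h21
  have hL2 : LocGen P2 π := locGen_of_inf hspan hπ0 h12
  obtain ⟨μ, v1, hv1, hw1eq⟩ := h22lnc_factor (F := F) hL1 hw1
  have hx1' : x ∉ P1 := by
    intro hx
    rw [Ideal.Quotient.eq_zero_iff_mem.2 hx] at hx1
    exact not_irreducible_zero hx1
  have hπF : algebraMap B F π ≠ 0 := algebraMap_ne_zero' hπ0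
  have hxF : algebraMap B F x ≠ 0 := algebraMap_ne_zero_of_not_mem hx1'
  -- horizontal primes
  have hxhor : ∀ Q' : Ideal B, Q'.IsPrime → π ∉ Q' → x ∉ Q' := by
    intro Q' hQ' hπQ' hxQ'
    have h1 : π ^ k * u ∈ Q' := by rw [← hxy]; exact Q'.mul_mem_right y hxQ'
    rcases hQ'.mem_or_mem h1 with h2 | h2
    · exact hπQ' (hQ'.mem_of_pow_mem k h2)
    · exact hQ'.ne_top (Ideal.eq_top_of_isUnit_mem _ h2 hu)
  -- the support
  let S : Set (Ideal B) := {Q | Q.IsPrime ∧ Q.height = 1 ∧ π ∉ Q ∧ ¬ UnitAt F Q h}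
  have hSfin : S.Finite :=
    (supp_finite (B := B) hh0).subset fun Q hQ => ⟨hQ.1, hQ.2.1, hQ.2.2.2⟩
  have key : ∀ Q ∈ S, ∃ (z : B) (m : ℤ), LocGen Q z ∧
      (∀ Q' : Ideal B, Q'.IsPrime → z ∈ Q' → π ∉ Q' → Q' = Q) ∧
      Ideal.Quotient.mk P1 z = Ideal.Quotient.mk P1 x ∧
      UnitAt F Q (h / (algebraMap B F z ^ m) ^ n) := by
    intro Q hQ
    haveI := hQ.1
    obtain ⟨⟨w, hw, hwu⟩, z, hz, hzu, hzx⟩ := hhor Q hQ.1 hQ.2.1 hQ.2.2.1 hQ.2.2.2
    obtain ⟨m, v, hv, rfl⟩ := h22lnc_factor (F := F) hz hw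
    refine ⟨z, m, hz, hzu, hzx, ?_⟩
    have hz0 : algebraMap B F z ^ m ≠ 0 := zpow_ne_zero _ (algebraMap_ne_zero' hz.2.1)
    have hv0 := hv.ne_zero
    have : h / (algebraMap B F z ^ m) ^ n = h / (algebraMap B F z ^ m * v) ^ n * v ^ n :=
      aux_split1 _ _ _ _ hz0 hv0
    rw [this]
    exact hwu.mul (hv.pow n)
  choose! zf mf hzf using key
  let Sf : Finset (Ideal B) := hSfin.toFinset
  have hSf : ∀ Q, Q ∈ Sf ↔ Q ∈ S := fun Q => hSfin.mem_toFinset
  let g0 : F := ∏ Q ∈ Sf, algebraMap B F (zf Q) ^ mf Q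
  have hzfP1 : ∀ Q ∈ S, zf Q ∉ P1 := by
    intro Q hQ hz
    have := (hzf Q hQ).2.2.1
    rw [Ideal.Quotient.eq_zero_iff_mem.2 hz] at this
    exact hx1' (Ideal.Quotient.eq_zero_iff_mem.1 this.symm)
  have hg0P1 : UnitAt F P1 g0 :=
    unitAt_prod _ _ fun Q hQ => (unitAt_of_not_mem (hzfP1 Q ((hSf Q).1 hQ))).zpow _
  have hg00 : g0 ≠ 0 := hg0P1.ne_zero
  -- `h / g0 ^ n` is a unit at every horizontal prime
  have hhg0 : ∀ Q' : Ideal B, Q'.IsPrime → Q'.height = 1 → π ∉ Q' →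
      UnitAt F Q' (h / g0 ^ n) := by
    intro Q' hQ' hQ'1 hπQ'
    haveI := hQ'
    by_cases hQ'S : Q' ∈ S
    · have hsplit : g0 = algebraMap B F (zf Q') ^ mf Q' *
          ∏ Q ∈ Sf.erase Q', algebraMap B F (zf Q) ^ mf Q :=
        (Finset.mul_prod_erase Sf _ ((hSf Q').2 hQ'S)).symm
      have hrest : UnitAt F Q' (∏ Q ∈ Sf.erase Q', algebraMap B F (zf Q) ^ mf Q) := by
        refine unitAt_prod _ _ fun Q hQ => ?_
        have hQS : Q ∈ S := (hSf Q).1 (Finset.mem_of_mem_erase hQ)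
        have hne : Q ≠ Q' := Finset.ne_of_mem_erase hQ
        refine (unitAt_of_not_mem fun hz => ?_).zpow _
        exact hne ((hzf Q hQS).2.1 Q' hQ' hz hπQ').symm
      have h1 := (hzf Q' hQ'S).2.2.2
      have hz0 : algebraMap B F (zf Q') ^ mf Q' ≠ 0 :=
        zpow_ne_zero _ (algebraMap_ne_zero' (hzf Q' hQ'S).1.2.1)
      have hr0 := hrest.ne_zero
      have : h / g0 ^ n = h / (algebraMap B F (zf Q') ^ mf Q') ^ n /
          (∏ Q ∈ Sf.erase Q', algebraMap B F (zf Q) ^ mf Q) ^ n := by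
        rw [hsplit]
        exact aux_split2 _ _ _ _ hz0 hr0
      rw [this]
      exact h1.div (hrest.pow n)
    · have hu' : UnitAt F Q' h := by
        by_contra hcon
        exact hQ'S ⟨hQ', hQ'1, hπQ', hcon⟩
      refine hu'.div (UnitAt.pow ?_ n)
      refine unitAt_prod _ _ fun Q hQ => ?_
      have hQS : Q ∈ S := (hSf Q).1 hQ
      refine (unitAt_of_not_mem fun hz => ?_).zpow _
      exact hQ'S ((hzf Q hQS).2.1 Q' hQ' hz hπQ' ▸ hQS)
  -- orders at `P1`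
  obtain ⟨e2, he2⟩ := (hv1.div hg0P1).exists_ordAt
  have hX : OrdAt F P1 (algebraMap B F x) 1 := ordAt_of_irreducible hx1
  let E1 : ℤ := e2 + c1
  let g : F := g0 * algebraMap B F π ^ μ * algebraMap B F x ^ E1
  have hπμ : algebraMap B F π ^ μ ≠ 0 := zpow_ne_zero _ hπF
  have hxE : algebraMap B F x ^ E1 ≠ 0 := zpow_ne_zero _ hxF
  have hg0' : g ≠ 0 := mul_ne_zero (mul_ne_zero hg00 hπμ) hxE
  let t3 : F := h / g ^ n
  have ht30 : t3 ≠ 0 := div_ne_zero hh0 (pow_ne_zero _ hg0')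
  have hv10 := hv1.ne_zero
  have ht3eq : t3 = h / w1 ^ n * (v1 / g0 / algebraMap B F x ^ E1) ^ n := by
    show h / (g0 * algebraMap B F π ^ μ * algebraMap B F x ^ E1) ^ n = _
    rw [hw1eq]
    exact aux_split3 _ _ _ _ _ _ hg00 hπμ hxE hv10
  have ht3ord : OrdAt F P1 t3 0 := by
    rw [ht3eq]
    have h1 := hord1.mul (((he2.div (hX.zpow E1)).pow n))
    convert h1 using 1
    rw [hc1]
    show (0 : ℤ) = n * c1 + n * (e2 - (e2 + c1) * 1)
    ring
  have ht3hor : ∀ Q' : Ideal B, Q'.IsPrime → Q'.height = 1 → π ∉ Q' → UnitAt F Q' t3 := by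
    intro Q' hQ' hQ'1 hπQ'
    haveI := hQ'
    have h1 := hhg0 Q' hQ' hQ'1 hπQ'
    have h2 : UnitAt F Q' (algebraMap B F π ^ μ) := (unitAt_of_not_mem hπQ').zpow μ
    have h3 : UnitAt F Q' (algebraMap B F x ^ E1) :=
      (unitAt_of_not_mem (hxhor Q' hQ' hπQ')).zpow E1
    have : t3 = h / g0 ^ n / (algebraMap B F π ^ μ * algebraMap B F x ^ E1) ^ n := by
      show h / (g0 * algebraMap B F π ^ μ * algebraMap B F x ^ E1) ^ n = _
      exact aux_split4 _ _ _ _ _ hg00 hπμ hxE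
    rw [this]
    exact h1.div ((h2.mul h3).pow n)
  -- Hartogs
  have hfinal : ∀ s : F, s ≠ 0 → OrdAt F P1 s 0 →
      (∀ Q' : Ideal B, Q'.IsPrime → Q'.height = 1 → π ∉ Q' → UnitAt F Q' s) →
      InLoc F P2 s → ∃ w : B, IsUnit w ∧ algebraMap B F w = s := by
    intro s _ hs1 hshor hs2
    obtain ⟨w, hw⟩ := H5CA.h5ca_hartogs (B := B) (F := F) s (by
      intro Q hQ hQ1
      haveI := hQ
      by_cases hπQ : π ∈ Q
      · rcases eq_of_pi_mem hspan hπ0 hQ1 hπQ with rfl | rfl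
        · exact hs1.unitAt.inLoc
        · exact hs2
      · exact (hshor Q hQ hQ1 hπQ).inLoc)
    refine ⟨w, ?_, hw⟩
    rw [← hw] at hs1
    exact isUnit_of_ordAt_zero hs1
  rcases h22lnc_valuationRing (F := F) hL2 ht30 with hin | hin
  · obtain ⟨w, hwu, hw⟩ := hfinal t3 ht30 ht3ord ht3hor hin
    obtain ⟨wu, rfl⟩ := hwu
    refine ⟨g, wu, ?_⟩
    rw [hw]
    exact aux_split5 h g n hg0'
  · obtain ⟨w, hwu, hw⟩ := hfinal t3⁻¹ (inv_ne_zero ht30) (by simpa using ht3ord.inv)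
      (fun Q' hQ' hQ'1 hπQ' => (ht3hor Q' hQ' hQ'1 hπQ').inv) hin
    obtain ⟨wu, rfl⟩ := hwu
    refine ⟨g, wu⁻¹, ?_⟩
    have h1 : algebraMap B F ((wu⁻¹ : Bˣ) : B) = t3 := by
      have h2 : algebraMap B F ((wu⁻¹ : Bˣ) : B) * algebraMap B F (wu : B) = 1 := by
        rw [← map_mul, ← Units.val_mul, inv_mul_cancel, Units.val_one, map_one]
      rw [hw] at h2
      have := eq_inv_of_mul_eq_one_left h2
      rwa [inv_inv] at this
    rw [h1]
    exact aux_split5 h g n hg0'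

end H22LNC

end
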