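/-
helper18: item 82 (S34), slice (I2): `H9UF.LevelNormalStatement` (A'') from chart normality in
the `GInt / IntModPi / ModPi` language (`H18I2.ChartNormalStatement` instantiated) and
`H18GM.gaussM` (A').  This is the generic translation step (P3), at a fixed chart `c ∈ {t, t⁻¹}`.
-/
import Mathlib
import Fermat.Agent.S34.GaussM_helper18
import Fermat.Agent.S34.CompUnifDefs_helper9
import Fermat.Agent.S37.R2LN_helper18
import Fermat.Agent.S18.TBase_helper19

set_option autoImplicit false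
set_option linter.unusedSectionVars false
set_option linter.unusedVariables false
set_option linter.style.haveILetI false
set_option synthInstance.maxHeartbeats 400000

open ModularCurve Polynomial IntermediateField

noncomputable section

namespace H18LN

open H7S18 H18R2

section Core

variable (N : ℕ) [NeZero N] (A : ValuationSubring (AlgebraicClosure ℚ))
  (K₁ : IntermediateField ℚ (AlgebraicClosure ℚ))

/-- **(P3)**: the translation of chart normality at the chart `c ∈ {t, t⁻¹}` into the language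
of the Gauss ring. -/
theorem levelNormal_core (ℓ : ℕ) [Fact ℓ.Prime] (hℓN : ¬ ℓ ∣ N) (hA : A.LiesOverPrime ℓ)
    [IsDiscreteValuationRing ↥(descVal A K₁)]
    [Algebra ↥(descVal A K₁) (FK K₁ N)] [IsScalarTower ↥(descVal A K₁) K₁ (FK K₁ N)]
    (ϖ : ↥(descVal A K₁)) (hϖ : Irreducible ϖ)
    (i : ℕ) (t₀ : LaurentSeries ℚ) (ht₀ : IsBase i t₀)
    (t : FK K₁ N) (ht : (t : LaurentSeries K₁) = coeffEmb K₁ t₀)
    (htK : Transcendental K₁ t)
    (c : FK K₁ N) (hc : c = t ∨ c = t⁻¹)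
    (hCN : ∀ x : FK K₁ N, GInt ↥(descVal A K₁) ϖ c x → IntModPi ↥(descVal A K₁) ϖ c x →
      ∃ a, IsInt ↥(descVal A K₁) c a ∧ ModPi ↥(descVal A K₁) ϖ c x a)
    (y : FK K₁ N) (n : ℕ) (cf : ℕ → FK K₁ N)
    (hcf : ∀ i, cf i ∈ Algebra.adjoin ↥(descVal A K₁) {c})
    (hy : H8PB.InG (descVal A K₁) (y : LaurentSeries K₁))
    (hrel : H8PB.InGm (descVal A K₁)
      (((y ^ n + ∑ i ∈ Finset.range n, cf i * y ^ i : FK K₁ N)) : LaurentSeries K₁)) :
    ∃ d : FK K₁ N, IsInt ↥(descVal A K₁) c d ∧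
      H8PB.InGm (descVal A K₁) (((y - d : FK K₁ N)) : LaurentSeries K₁) := by
  have hG := fun x => H18GM.gaussM N A K₁ ℓ hℓN hA ϖ hϖ i t₀ ht₀ t ht x
  have htR : Transcendental ↥(descVal A K₁) t := H19S18.h19_transc ↥(descVal A K₁) K₁ htK
  have htR' : Transcendental ↥(descVal A K₁) t⁻¹ :=
    H19S18.h19_transc ↥(descVal A K₁) K₁ (H19S18.h19_transc_inv K₁ htK)
  -- `GInt` and `ModPi` do not depend on the chart
  have hGc : ∀ x : FK K₁ N, GInt ↥(descVal A K₁) ϖ c x ↔ GInt ↥(descVal A K₁) ϖ t x := by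
    intro x
    rcases hc with rfl | rfl
    · exact Iff.rfl
    · exact H19S18.h19_gint_inv_iff ↥(descVal A K₁) htR htR' hϖ x
  have hMc : ∀ x z : FK K₁ N,
      ModPi ↥(descVal A K₁) ϖ c x z ↔ ModPi ↥(descVal A K₁) ϖ t x z := by
    intro x z
    rcases hc with rfl | rfl
    · exact Iff.rfl
    · exact H19S18.h19_modPi_inv_iff ↥(descVal A K₁) htR htR' hϖ x z
  have h1 : GInt ↥(descVal A K₁) ϖ c y := (hGc y).mpr ((hG y).1.mpr hy)
  have h2 : IntModPi ↥(descVal A K₁) ϖ c y :=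
    ⟨n, cf, hcf, (hMc _ 0).mpr ((hG _).2.mpr hrel)⟩
  obtain ⟨a, ha, hya⟩ := hCN y h1 h2
  refine ⟨a, ha, (hG (y - a)).2.mp ?_⟩
  obtain ⟨z, hz, hxz⟩ := (hMc y a).mp hya
  exact ⟨z, hz, by rw [sub_zero]; exact hxz⟩

end Core

end H18LN

end
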