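/-
helper21, items 82 / 82b (S34, S35): (LOC) at a REGULAR point, UNIT form (input of helper10's
`H10FW.h10fw_reg`).

`B` a noetherian local domain with fraction field `F`, `π ≠ 0` with `(π)` prime and
`𝔪 = (π, x)`, `K ⊆ B[1/π]` a field.  If `v ∈ Fˣ` has `n ∣ V.ord v` at every place `V` of
`F / K` and `v` is a unit at `π` (`v · s = c`, `π ∤ s, c`), then `v = u · zⁿ` with `u ∈ Bˣ`.
-/
import Mathlib
import Fermat.Prelude.Def_AlgebraicCurve_DivisorClassGroup
import Fermat.Agent.S34.LocRegCore_helper21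
import Fermat.Agent.S34.LocRegLoc_helper21

set_option autoImplicit false
set_option linter.unusedSectionVars false
set_option linter.unusedVariables false
set_option linter.style.haveILetI false

noncomputable section

namespace H21LR

open AlgebraicCurve H25KR IsLocalRing

section abstract

variable {B : Type*} [CommRing B] [IsDomain B] [IsNoetherianRing B] [IsLocalRing B]
variable {F : Type*} [Field F] [Algebra B F] [IsFractionRing B F]
variable {K : Type*} [Field K] [Algebra K F]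

omit [IsNoetherianRing B] [IsLocalRing B] in
/-- uniqueness of the `π`-adic exponent -/
theorem pow_exponent_unique {π : B} (hπ : Prime π) {c c' : B} (hc : ¬ π ∣ c) (hc' : ¬ π ∣ c')
    {a b : ℕ} (h : c * π ^ a = c' * π ^ b) : a = b := by
  wlog hab : a ≤ b generalizing a b c c'
  · exact (this hc' hc h.symm (le_of_not_ge hab)).symm
  obtain ⟨d, rfl⟩ := Nat.exists_eq_add_of_le hab
  rcases Nat.eq_zero_or_pos d with rfl | hd
  · rfl
  · exfalso
    apply hc
    have h1 : π ^ a * c = π ^ a * (c' * π ^ d) := by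
      rw [mul_comm, h, pow_add]; ring
    have h2 := mul_left_cancel₀ (pow_ne_zero a hπ.ne_zero) h1
    rw [h2]
    exact Dvd.dvd.mul_left (dvd_pow_self π hd.ne') c'

/-- **(LOC) at a regular point, unit form**: `v = zⁿ · u`, `u ∈ Bˣ`. -/
theorem locReg_unit0 (π x : B) (hπ0 : π ≠ 0) (hπ : (Ideal.span {π}).IsPrime)
    (hm : maximalIdeal B = Ideal.span {π, x})
    (hK : ∀ c : K, ∃ (k : ℕ) (b : B),
      algebraMap K F c * algebraMap B F π ^ k = algebraMap B F b)
    (n : ℕ) (hn : 0 < n) (v : F) (hv : v ≠ 0)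
    (hdiv : ∀ V : Place K F, (n : ℤ) ∣ V.ord v)
    (hunit : ∃ s c : B, ¬ π ∣ s ∧ ¬ π ∣ c ∧ v * algebraMap B F s = algebraMap B F c) :
    ∃ (z : F) (u : Bˣ), z ≠ 0 ∧ v = z ^ n * algebraMap B F u := by
  classical
  have hπp : Prime π := (Ideal.span_singleton_prime hπ0).1 hπ
  have hπF : algebraMap B F π ≠ 0 := H21PB.map_ne_zero' hπ0
  have hinj : Function.Injective (algebraMap B F) := IsFractionRing.injective B F
  obtain ⟨g, u, k, l, hg0, e⟩ := locReg_unit π x hπ0 hπ hm hK n hn v hv hdiv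
  obtain ⟨s, c, hs, hc, esc⟩ := hunit
  haveI := hπ
  -- the `π`-primitive part of `g`
  obtain ⟨sg, cg, kg, lg, hsg, hcg, eg⟩ :=
    H21PB.exists_repr (F := F) (isLocPrincipal_span hπp) hg0
  have hsgπ : ¬ π ∣ sg := fun hd => hsg (Ideal.mem_span_singleton.2 hd)
  have hcgπ : ¬ π ∣ cg := fun hd => hcg (Ideal.mem_span_singleton.2 hd)
  have hsgF : algebraMap B F sg ≠ 0 := H21PB.map_ne_zero' (H21PB.ne_zero_of_nmem hsg)
  have hcgF : algebraMap B F cg ≠ 0 := H21PB.map_ne_zero' (H21PB.ne_zero_of_nmem hcg)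
  have hsF : algebraMap B F s ≠ 0 := by
    intro h0
    apply hs
    have : s = 0 := hinj (by rw [h0, map_zero])
    rw [this]; exact dvd_zero π
  -- compare exponents
  have hnd : ∀ (y : B) (m : ℕ), ¬ π ∣ y → ¬ π ∣ y ^ m := fun y m hy hd =>
    hy (hπp.dvd_of_dvd_pow hd)
  have hmul : ∀ y y' : B, ¬ π ∣ y → ¬ π ∣ y' → ¬ π ∣ y * y' := fun y y' hy hy' hd =>
    (hπp.dvd_or_dvd hd).elim hy hy'
  have hu : ¬ π ∣ (u : B) := fun hd => hπp.not_isUnit (isUnit_of_dvd_unit hd u.isUnit)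
  have key : (c * sg ^ n) * π ^ (l + n * lg) = ((u : B) * cg ^ n * s) * π ^ (k + n * kg) := by
    apply hinj
    simp only [map_mul, map_pow]
    have eg' : (g * algebraMap B F sg * algebraMap B F π ^ lg) ^ n =
        (algebraMap B F cg * algebraMap B F π ^ kg) ^ n := by rw [eg]
    have e1 : algebraMap B F c * algebraMap B F sg ^ n * algebraMap B F π ^ (l + n * lg) =
        (v * algebraMap B F π ^ l) * algebraMap B F s *
          (algebraMap B F sg ^ n * (algebraMap B F π ^ lg) ^ n) := by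
      rw [← esc, pow_add, pow_mul, pow_right_comm]; ring
    rw [e1, e]
    have e2 : (algebraMap B F π ^ kg) ^ n = algebraMap B F π ^ (n * kg) := by
      rw [← pow_mul, mul_comm]
    rw [pow_add, ← e2]
    rw [mul_pow, mul_pow] at eg'
    linear_combination (algebraMap B F u * algebraMap B F π ^ k * algebraMap B F s) * eg'
  have hexp : l + n * lg = k + n * kg :=
    pow_exponent_unique hπp (hmul _ _ hc (hnd sg n hsgπ))
      (hmul _ _ (hmul _ _ hu (hnd cg n hcgπ)) hs) key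
  -- `z := c_g / s_g`
  refine ⟨algebraMap B F cg / algebraMap B F sg, u, div_ne_zero hcgF hsgF, ?_⟩
  have key' := congrArg (algebraMap B F) key
  simp only [map_mul, map_pow] at key'
  rw [hexp] at key'
  have hπk : algebraMap B F π ^ (k + n * kg) ≠ 0 := pow_ne_zero _ hπF
  have key'' := mul_right_cancel₀ hπk key'
  rw [div_pow]
  field_simp
  rw [← esc] at key''
  have hsgn : algebraMap B F sg ^ n ≠ 0 := pow_ne_zero _ hsgF
  have := mul_right_cancel₀ hsF (show v * algebraMap B F sg ^ n * algebraMap B F s =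
    algebraMap B F cg ^ n * algebraMap B F u * algebraMap B F s by linear_combination key'')
  linear_combination this

end abstract

section elem

variable {A : Type*} [CommRing A] [IsDomain A] [IsNoetherianRing A]
variable {F : Type*} [Field F] [Algebra A F] [IsFractionRing A F]
variable {K : Type*} [Field K] [Algebra K F]

omit [IsNoetherianRing A] in
/-- divisibility by `ϖ` in the localisation, in element form -/
theorem dvd_map_iff (B : Type*) [CommRing B] [Algebra A B] (𝔫 : Ideal A) [h𝔫 : 𝔫.IsPrime]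
    [hB : IsLocalization.AtPrime B 𝔫] [Algebra B F] [IsScalarTower A B F] (ϖ a : A)
    (hϖ0 : ϖ ≠ 0) :
    algebraMap A B ϖ ∣ algebraMap A B a ↔ ∃ c s : A, s ∉ 𝔫 ∧ s * a = c * ϖ := by
  have hϖF : algebraMap A F ϖ ≠ 0 := fun h0 =>
    hϖ0 (IsFractionRing.injective A F (by rw [h0, map_zero]))
  constructor
  · rintro ⟨d, hd⟩
    obtain ⟨c, s, rfl⟩ := IsLocalization.exists_mk'_eq 𝔫.primeCompl d
    refine ⟨c, s, s.2, ?_⟩
    have hs0 := map_den_ne_zero (F := F) 𝔫 s
    have h1 := congrArg (algebraMap B F) hd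
    rw [map_mul, algMap_mk', algMap_algMap, algMap_algMap] at h1
    apply IsFractionRing.injective A F
    rw [map_mul, map_mul, h1]
    field_simp
  · rintro ⟨c, s, hs, e⟩
    refine ⟨IsLocalization.mk' B c (⟨s, hs⟩ : 𝔫.primeCompl), ?_⟩
    apply algMap_injective (F := F) B 𝔫
    have hs0 := map_den_ne_zero (F := F) 𝔫 (⟨s, hs⟩ : 𝔫.primeCompl)
    have e' : algebraMap A F s * algebraMap A F a = algebraMap A F c * algebraMap A F ϖ := by
      rw [← map_mul, e, map_mul]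
    rw [map_mul, algMap_mk', algMap_algMap, algMap_algMap]
    simp only at hs0
    field_simp
    linear_combination e'

/-- **(LOC) at a regular point, unit form, element form**: if `v` is a unit at `ϖ`
(`s · v = c` with `s, c ∈ A` not divisible by `ϖ` in `A_𝔫`), then `s' · v = a · zⁿ` with
`s', a ∉ 𝔫`. -/
theorem locReg_unit0_elem (𝔫 : Ideal A) [h𝔫 : 𝔫.IsPrime] (ϖ : A) (hϖ0 : ϖ ≠ 0) (hϖ𝔫 : ϖ ∈ 𝔫)
    (hgen : ∃ x ∈ 𝔫, ∀ y ∈ 𝔫, ∃ s a b : A, s ∉ 𝔫 ∧ s * y = a * ϖ + b * x)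
    (hprime : ∀ a b : A, (∃ c s : A, s ∉ 𝔫 ∧ s * (a * b) = c * ϖ) →
      (∃ c s : A, s ∉ 𝔫 ∧ s * a = c * ϖ) ∨ (∃ c s : A, s ∉ 𝔫 ∧ s * b = c * ϖ))
    (hK : ∀ c : K, ∃ (k : ℕ) (b : A),
      algebraMap K F c * algebraMap A F ϖ ^ k = algebraMap A F b)
    (n : ℕ) (hn : 0 < n) (v : F) (hv : v ≠ 0)
    (hdiv : ∀ V : Place K F, (n : ℤ) ∣ V.ord v)
    (hunit : ∃ s c : A, (¬ ∃ c' s' : A, s' ∉ 𝔫 ∧ s' * s = c' * ϖ) ∧
      (¬ ∃ c' s' : A, s' ∉ 𝔫 ∧ s' * c = c' * ϖ) ∧ algebraMap A F s * v = algebraMap A F c) :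
    ∃ z : F, z ≠ 0 ∧ ∃ a s : A, a ∉ 𝔫 ∧ s ∉ 𝔫 ∧
      algebraMap A F s * v = algebraMap A F a * z ^ n := by
  let B := Localization.subalgebra.ofField F 𝔫.primeCompl (primeCompl_le 𝔫)
  haveI hBloc : IsLocalization.AtPrime B 𝔫 :=
    Localization.subalgebra.isLocalization_ofField F 𝔫.primeCompl (primeCompl_le 𝔫)
  haveI : IsFractionRing B F := inferInstance
  haveI : IsScalarTower A B F := inferInstance
  haveI : IsLocalRing B := IsLocalization.AtPrime.isLocalRing B 𝔫
  haveI : IsNoetherianRing B := IsLocalization.isNoetherianRing 𝔫.primeCompl B inferInstance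
  haveI : IsDomain B := inferInstance
  obtain ⟨x, hx𝔫, hgen'⟩ := hgen
  have hπp : Prime (algebraMap A B ϖ) := prime_map (F := F) B 𝔫 ϖ hϖ0 hϖ𝔫 hprime
  have hπ : (Ideal.span {algebraMap A B ϖ}).IsPrime :=
    (Ideal.span_singleton_prime hπp.ne_zero).2 hπp
  have hm : maximalIdeal B = Ideal.span {algebraMap A B ϖ, algebraMap A B x} :=
    maximalIdeal_eq (F := F) B 𝔫 ϖ x hϖ𝔫 hx𝔫 hgen'
  have hK' : ∀ c : K, ∃ (k : ℕ) (b : B),
      algebraMap K F c * algebraMap B F (algebraMap A B ϖ) ^ k = algebraMap B F b := by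
    intro c
    obtain ⟨k, b, hb⟩ := hK c
    exact ⟨k, algebraMap A B b, by rw [algMap_algMap, algMap_algMap]; exact hb⟩
  obtain ⟨s, c, hs, hc, esc⟩ := hunit
  have hunit' : ∃ s c : B, ¬ algebraMap A B ϖ ∣ s ∧ ¬ algebraMap A B ϖ ∣ c ∧
      v * algebraMap B F s = algebraMap B F c := by
    refine ⟨algebraMap A B s, algebraMap A B c, ?_, ?_, ?_⟩
    · rw [dvd_map_iff (F := F) B 𝔫 ϖ s hϖ0]; exact hs
    · rw [dvd_map_iff (F := F) B 𝔫 ϖ c hϖ0]; exact hc
    · rw [algMap_algMap, algMap_algMap, mul_comm]; exact esc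
  obtain ⟨z, u, hz, e⟩ :=
    locReg_unit0 (algebraMap A B ϖ) (algebraMap A B x) hπp.ne_zero hπ hm hK' n hn v hv hdiv hunit'
  obtain ⟨a, sa, hu⟩ := IsLocalization.exists_mk'_eq 𝔫.primeCompl (u : B)
  have ha : a ∈ 𝔫.primeCompl := by
    rw [← IsLocalization.AtPrime.isUnit_mk'_iff B 𝔫 a sa, hu]
    exact u.isUnit
  refine ⟨z, hz, a, sa, ha, sa.2, ?_⟩
  have hsa0 := map_den_ne_zero (F := F) 𝔫 sa
  rw [e, ← hu, algMap_mk']
  field_simp

end elem

end H21LR
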