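/-
Item 82 (S34), slice (I6) "regular points" (helper21), Mathlib only.

* `H21RP.prime_eq_span` : `B` noetherian local, `π ∈ 𝔪`, `Q` prime, `π ∉ Q`,
  `Q ≤ (g) + (π)` with `g ∈ Q`  ⟹  `Q = (g)`  (Nakayama);
* `H21RP.prime_principal` : the same with `B ⧸ (π)` a principal ideal ring;
* `H21RP.ufd_of_quot_pid` : `B` noetherian local domain, `π ≠ 0`, `π ∈ 𝔪`, `B ⧸ (π)` a principal
  ideal domain  ⟹  `B` is a UFD;
* `H21RP.unit_mul_pow` : in a UFD, a fraction all of whose prime multiplicities are divisible by `n`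
  is a unit times an `n`-th power.
Nothing here is proved by a placeholder.
-/
import Mathlib

set_option autoImplicit false
set_option linter.unusedSectionVars false
set_option linter.unusedVariables false
set_option linter.style.haveILetI false

noncomputable section

namespace H21RP

open Ideal

/-- Nakayama: a prime `Q ∌ π` with `Q ≤ (g) + (π)`, `g ∈ Q`, is `(g)`. -/
theorem prime_eq_span {B : Type*} [CommRing B] [IsNoetherianRing B] [IsLocalRing B]
    (π : B) (hπ : π ∈ IsLocalRing.maximalIdeal B) (Q : Ideal B) [Q.IsPrime] (hπQ : π ∉ Q)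
    (g : B) (hg : g ∈ Q) (hQ : Q ≤ Ideal.span {g} ⊔ Ideal.span {π}) :
    Q = Ideal.span {g} := by
  apply le_antisymm
  · have hfg : (Q : Submodule B B).FG := IsNoetherian.noetherian Q
    have hjac : Ideal.span {π} ≤ Ideal.jacobson (⊥ : Ideal B) := by
      rw [IsLocalRing.jacobson_eq_maximalIdeal ⊥ bot_ne_top, Ideal.span_singleton_le_iff_mem]
      exact hπ
    refine Submodule.le_of_le_smul_of_le_jacobson_bot (N := Ideal.span {g}) hfg hjac ?_
    intro x hx
    obtain ⟨y, hy, z, hz, rfl⟩ := Submodule.mem_sup.1 (hQ hx)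
    obtain ⟨c, rfl⟩ := Ideal.mem_span_singleton'.1 hz
    have hy' : y ∈ Q := by
      obtain ⟨b, rfl⟩ := Ideal.mem_span_singleton'.1 hy
      exact Q.mul_mem_left b hg
    have hc : c ∈ Q := by
      have h1 : c * π ∈ Q := by
        have := Q.sub_mem hx hy'
        simpa using this
      rcases (Ideal.IsPrime.mem_or_mem inferInstance h1) with h | h
      · exact h
      · exact absurd h hπQ
    refine Submodule.mem_sup.2 ⟨y, hy, c * π, ?_, rfl⟩
    rw [mul_comm]
    exact Submodule.smul_mem_smul (Ideal.mem_span_singleton_self π) hc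
  · rw [Ideal.span_singleton_le_iff_mem]
    exact hg

/-- a prime `Q ∌ π` of a noetherian local ring with `B ⧸ (π)` principal is principal. -/
theorem prime_principal {B : Type*} [CommRing B] [IsNoetherianRing B] [IsLocalRing B]
    (π : B) (hπ : π ∈ IsLocalRing.maximalIdeal B)
    [IsPrincipalIdealRing (B ⧸ Ideal.span {π})]
    (Q : Ideal B) [Q.IsPrime] (hπQ : π ∉ Q) :
    ∃ g : B, g ∈ Q ∧ Q = Ideal.span {g} := by
  have hsurj : Function.Surjective (Ideal.Quotient.mk (Ideal.span {π})) :=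
    Ideal.Quotient.mk_surjective
  obtain ⟨γ, hγ⟩ := (IsPrincipalIdealRing.principal
    (Q.map (Ideal.Quotient.mk (Ideal.span {π})))).principal
  have hγmem : γ ∈ Q.map (Ideal.Quotient.mk (Ideal.span {π})) := by
    rw [hγ]
    exact Submodule.mem_span_singleton_self γ
  obtain ⟨g, hg, rfl⟩ := (Ideal.mem_map_iff_of_surjective _ hsurj).1 hγmem
  refine ⟨g, hg, prime_eq_span π hπ Q hπQ g hg ?_⟩
  intro x hx
  have hx' : Ideal.Quotient.mk (Ideal.span {π}) x ∈
      Q.map (Ideal.Quotient.mk (Ideal.span {π})) := Ideal.mem_map_of_mem _ hx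
  rw [hγ] at hx'
  obtain ⟨β, hβ⟩ := Submodule.mem_span_singleton.1 hx'
  obtain ⟨b, rfl⟩ := hsurj β
  have h1 : x - b * g ∈ Ideal.span {π} := by
    rw [← Ideal.Quotient.eq]
    rw [← hβ]
    simp [smul_eq_mul]
  refine Submodule.mem_sup.2 ⟨b * g, ?_, x - b * g, h1, by ring⟩
  exact Ideal.mem_span_singleton'.2 ⟨b, rfl⟩

/-- a noetherian local domain `B` with `B ⧸ (π)` a principal ideal domain is a UFD -/
theorem ufd_of_quot_pid {B : Type*} [CommRing B] [IsDomain B] [IsNoetherianRing B]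
    [IsLocalRing B] (π : B) (hπ0 : π ≠ 0) (hπ : π ∈ IsLocalRing.maximalIdeal B)
    [IsPrincipalIdealRing (B ⧸ Ideal.span {π})] [IsDomain (B ⧸ Ideal.span {π})] :
    UniqueFactorizationMonoid B := by
  rw [UniqueFactorizationMonoid.iff_exists_prime_mem_of_isPrime]
  intro I hI hIp
  haveI := hIp
  have hπprime : Prime π := by
    rw [← Ideal.span_singleton_prime hπ0]
    exact (Ideal.Quotient.isDomain_iff_prime _).1 inferInstance
  by_cases hπI : π ∈ I
  · exact ⟨π, hπI, hπprime⟩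
  · obtain ⟨g, hg, hIg⟩ := prime_principal π hπ I hπI
    refine ⟨g, hg, ?_⟩
    have hg0 : g ≠ 0 := by
      rintro rfl
      apply hI
      rw [hIg]
      simp
    rw [← Ideal.span_singleton_prime hg0, ← hIg]
    exact hIp

variable {B : Type*} [CommRing B] [IsDomain B]

/-- uniqueness of the multiplicity -/
theorem pow_mul_eq_pow_mul {p : B} (hp : Prime p) {s t : B} (hs : ¬ p ∣ s) (ht : ¬ p ∣ t)
    {i j : ℕ} (h : p ^ i * s = p ^ j * t) : i = j ∧ s = t := by
  have hp0 : p ≠ 0 := hp.ne_zero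
  rcases lt_trichotomy i j with hij | hij | hij
  · exfalso
    obtain ⟨d, rfl⟩ := Nat.exists_eq_add_of_lt hij
    have h1 : p ^ i * s = p ^ i * (p ^ (d + 1) * t) := by
      rw [h]; ring
    have h2 := mul_left_cancel₀ (pow_ne_zero i hp0) h1
    exact hs ⟨p ^ d * t, by rw [h2]; ring⟩
  · subst hij
    exact ⟨rfl, mul_left_cancel₀ (pow_ne_zero i hp0) h⟩
  · exfalso
    obtain ⟨d, rfl⟩ := Nat.exists_eq_add_of_lt hij
    have h1 : p ^ j * t = p ^ j * (p ^ (d + 1) * s) := by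
      rw [← h]; ring
    have h2 := mul_left_cancel₀ (pow_ne_zero j hp0) h1
    exact ht ⟨p ^ d * s, by rw [h2]; ring⟩

/-- the divisibility hypothesis: all prime multiplicities of `a₀ / b₀` are divisible by `n` -/
def HP (n : ℕ) (a₀ b₀ : B) : Prop :=
  ∀ p : B, Prime p → ∃ (k l : ℕ) (a b : B), ¬ p ∣ a ∧ ¬ p ∣ b ∧
    a₀ * b * p ^ (n * l) = b₀ * a * p ^ (n * k)

/-- the conclusion: `a₀ / b₀ = u (c / d)^n` -/
def CC (n : ℕ) (a₀ b₀ : B) : Prop :=
  ∃ (u : Bˣ) (c d : B), c ≠ 0 ∧ d ≠ 0 ∧ a₀ * d ^ n = u * c ^ n * b₀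

theorem HP.symm {n : ℕ} {a₀ b₀ : B} (h : HP n a₀ b₀) : HP n b₀ a₀ := by
  intro p hp
  obtain ⟨k, l, a, b, ha, hb, e⟩ := h p hp
  exact ⟨l, k, b, a, hb, ha, e.symm⟩

theorem CC.symm {n : ℕ} {a₀ b₀ : B} (h : CC n a₀ b₀) : CC n b₀ a₀ := by
  obtain ⟨u, c, d, hc, hd, e⟩ := h
  refine ⟨u⁻¹, d, c, hd, hc, ?_⟩
  have h1 : ((u⁻¹ : Bˣ) : B) * (u : B) = 1 := by
    rw [← Units.val_mul, inv_mul_cancel, Units.val_one]
  calc b₀ * c ^ n = ((u⁻¹ : Bˣ) : B) * (u : B) * (b₀ * c ^ n) := by rw [h1, one_mul]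
    _ = ((u⁻¹ : Bˣ) : B) * ((u : B) * c ^ n * b₀) := by ring
    _ = ((u⁻¹ : Bˣ) : B) * (a₀ * d ^ n) := by rw [e]
    _ = ((u⁻¹ : Bˣ) : B) * d ^ n * a₀ := by ring

/-- if `r ∣ p` for primes `r`, `p` then `p ∣ r` -/
theorem prime_dvd_prime {r p : B} (hr : Prime r) (hp : Prime p) (h : r ∣ p) : p ∣ r :=
  hr.irreducible.dvd_symm hp.irreducible h

/-- cancellation of a prime not dividing the divisor -/
theorem dvd_of_dvd_prime_mul {p m y : B} (hp : Prime p) (hm : ¬ p ∣ m) (h : m ∣ p * y) :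
    m ∣ y := by
  obtain ⟨t, ht⟩ := h
  have h1 : p ∣ m * t := ⟨y, ht.symm⟩
  rcases hp.dvd_or_dvd h1 with h2 | h2
  · exact absurd h2 hm
  · obtain ⟨t', rfl⟩ := h2
    refine ⟨t', ?_⟩
    have h3 : p * y = p * (m * t') := by rw [ht]; ring
    exact mul_left_cancel₀ hp.ne_zero h3

/-- the main step: removing a prime dividing `a₀` but not `b₀` -/
theorem step_left [UniqueFactorizationMonoid B] {n : ℕ} (hn : 0 < n) {p y : B} (hp : Prime p) (hy : y ≠ 0)
    (ih : ∀ a₀ b₀ : B, a₀ * b₀ ∣ y → HP n a₀ b₀ → CC n a₀ b₀)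
    {a₀ b₀ : B} (hdvd : a₀ * b₀ ∣ p * y) (hH : HP n a₀ b₀) (hpa : p ∣ a₀) (hpb : ¬ p ∣ b₀) :
    CC n a₀ b₀ := by
  have hp0 : p ≠ 0 := hp.ne_zero
  have hab0 : a₀ * b₀ ≠ 0 := fun h0 => by
    rw [h0, zero_dvd_iff] at hdvd
    exact (mul_ne_zero hp0 hy) hdvd
  have ha0 : a₀ ≠ 0 := left_ne_zero_of_mul hab0
  obtain ⟨e, a₁, ha₁, rfl⟩ := WfDvdMonoid.max_power_factor ha0 hp.irreducible
  obtain ⟨k, l, a, b, ha, hb, hE⟩ := hH p hp
  -- multiplicities
  have h1 : p ^ (e + n * l) * (a₁ * b) = p ^ (n * k) * (b₀ * a) := by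
    rw [pow_add]
    linear_combination hE
  have hs : ¬ p ∣ a₁ * b := fun h => (hp.dvd_or_dvd h).elim ha₁ hb
  have ht : ¬ p ∣ b₀ * a := fun h => (hp.dvd_or_dvd h).elim hpb ha
  obtain ⟨he, hab⟩ := pow_mul_eq_pow_mul hp hs ht h1
  have he1 : 1 ≤ e := by
    rcases Nat.eq_zero_or_pos e with h0 | h0
    · subst h0
      rw [pow_zero, one_mul] at hpa
      exact absurd hpa ha₁
    · exact h0
  have hlk : l ≤ k := by
    by_contra hcon
    push Not at hcon
    have : n * k < n * l := Nat.mul_lt_mul_of_pos_left hcon hn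
    omega
  have hek : e = n * (k - l) := by
    rw [Nat.mul_sub]
    omega
  -- the new pair
  have hdvd' : a₁ * b₀ ∣ y := by
    obtain ⟨e', rfl⟩ : ∃ e', e = e' + 1 := ⟨e - 1, by omega⟩
    have h2 : p * (p ^ e' * (a₁ * b₀)) ∣ p * y := by
      have : p * (p ^ e' * (a₁ * b₀)) = p ^ (e' + 1) * a₁ * b₀ := by ring
      rw [this]
      exact hdvd
    have h3 : p ^ e' * (a₁ * b₀) ∣ y := (mul_dvd_mul_iff_left hp0).1 h2
    exact (Dvd.intro_left _ rfl).trans h3
  have hH' : HP n a₁ b₀ := by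
    intro r hr
    by_cases hrp : r ∣ p
    · have hpr : p ∣ r := prime_dvd_prime hr hp hrp
      refine ⟨0, 0, a₁, b₀, fun h => ha₁ (hpr.trans h), fun h => hpb (hpr.trans h), by ring⟩
    · obtain ⟨k', l', a', b', ha', hb', hE'⟩ := hH r hr
      refine ⟨k', l', a', p ^ e * b', ha', ?_, ?_⟩
      · intro h
        rcases hr.dvd_or_dvd h with h4 | h4
        · exact hrp (hr.dvd_of_dvd_pow h4)
        · exact hb' h4
      · linear_combination hE'
  obtain ⟨u, c, d, hc, hd, hcd⟩ := ih a₁ b₀ hdvd' hH'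
  refine ⟨u, p ^ (k - l) * c, d, mul_ne_zero (pow_ne_zero _ hp0) hc, hd, ?_⟩
  rw [hek, mul_pow, ← pow_mul, mul_comm (k - l) n]
  linear_combination p ^ (n * (k - l)) * hcd

/-- in a UFD, a fraction `a₀ / b₀` all of whose prime multiplicities are divisible by `n` is a
unit times an `n`-th power (denominator-free form) -/
theorem cc_of_hp [UniqueFactorizationMonoid B] {n : ℕ} (hn : 0 < n) :
    ∀ x : B, x ≠ 0 → ∀ a₀ b₀ : B, a₀ * b₀ ∣ x → HP n a₀ b₀ → CC n a₀ b₀ := by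
  intro x
  induction x using UniqueFactorizationMonoid.induction_on_prime with
  | h₁ => intro h; exact absurd rfl h
  | h₂ x hx =>
    intro _ a₀ b₀ hdvd _
    have hu : IsUnit (a₀ * b₀) := isUnit_of_dvd_unit hdvd hx
    obtain ⟨ha, hb⟩ := IsUnit.mul_iff.1 hu
    obtain ⟨ua, rfl⟩ := ha
    obtain ⟨ub, rfl⟩ := hb
    refine ⟨ua * ub⁻¹, 1, 1, one_ne_zero, one_ne_zero, ?_⟩
    simp only [one_pow, mul_one]
    rw [← Units.val_mul, inv_mul_cancel_right]

  | h₃ y p hy hp ih =>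
    intro _ a₀ b₀ hdvd hH
    have ih' := ih hy
    by_cases hpa : p ∣ a₀
    · by_cases hpb : p ∣ b₀
      · obtain ⟨a₁, rfl⟩ := hpa
        obtain ⟨b₁, rfl⟩ := hpb
        have hp0 : p ≠ 0 := hp.ne_zero
        have hdvd' : a₁ * b₁ ∣ y := by
          have h2 : p * (p * (a₁ * b₁)) ∣ p * y := by
            have : p * (p * (a₁ * b₁)) = p * a₁ * (p * b₁) := by ring
            rw [this]
            exact hdvd
          exact (Dvd.intro_left _ rfl).trans ((mul_dvd_mul_iff_left hp0).1 h2)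
        have hH' : HP n a₁ b₁ := by
          intro r hr
          obtain ⟨k', l', a', b', ha', hb', hE'⟩ := hH r hr
          refine ⟨k', l', a', b', ha', hb', ?_⟩
          apply mul_left_cancel₀ hp0
          linear_combination hE'
        obtain ⟨u, c, d, hc, hd, hcd⟩ := ih' a₁ b₁ hdvd' hH'
        exact ⟨u, c, d, hc, hd, by linear_combination p * hcd⟩
      · exact step_left hn hp hy ih' hdvd hH hpa hpb
    · by_cases hpb : p ∣ b₀
      · have hdvd' : b₀ * a₀ ∣ p * y := by rwa [mul_comm]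
        have ih'' : ∀ a₀ b₀ : B, a₀ * b₀ ∣ y → HP n a₀ b₀ → CC n a₀ b₀ := ih'
        exact (step_left hn hp hy ih'' hdvd' hH.symm hpb hpa).symm
      · have hpab : ¬ p ∣ a₀ * b₀ := fun h => (hp.dvd_or_dvd h).elim hpa hpb
        exact ih' a₀ b₀ (dvd_of_dvd_prime_mul hp hpab hdvd) hH


/-- in a UFD `B` with fraction field `K`: an element `h ≠ 0` of `K` all of whose prime
multiplicities are divisible by `n` is a unit of `B` times an `n`-th power -/
theorem unit_mul_pow [UniqueFactorizationMonoid B] {K : Type*} [Field K] [Algebra B K]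
    [IsFractionRing B K] {n : ℕ} (hn : 0 < n) (h : K) (h0 : h ≠ 0)
    (hH : ∀ p : B, Prime p → ∃ (k l : ℕ) (a b : B), ¬ p ∣ a ∧ ¬ p ∣ b ∧
      h * algebraMap B K b * algebraMap B K p ^ (n * l) =
        algebraMap B K a * algebraMap B K p ^ (n * k)) :
    ∃ (u : Bˣ) (g : K), g ≠ 0 ∧ h = algebraMap B K (u : B) * g ^ n := by
  have hinj : Function.Injective (algebraMap B K) := IsFractionRing.injective B K
  obtain ⟨a₀, b₀, hb₀, rfl⟩ := IsFractionRing.div_surjective (A := B) h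
  have hb₀' : algebraMap B K b₀ ≠ 0 := by
    intro hz
    rw [hz, div_zero] at h0
    exact h0 rfl
  have hb0 : b₀ ≠ 0 := fun hz => hb₀' (by rw [hz, map_zero])
  have ha0 : a₀ ≠ 0 := by
    rintro rfl
    rw [map_zero, zero_div] at h0
    exact h0 rfl
  have hHP : HP n a₀ b₀ := by
    intro p hp
    obtain ⟨k, l, a, b, ha, hb, hE⟩ := hH p hp
    refine ⟨k, l, a, b, ha, hb, hinj ?_⟩
    rw [div_mul_eq_mul_div, div_mul_eq_mul_div, div_eq_iff hb₀'] at hE
    simp only [map_mul, map_pow]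
    rw [hE]
    ring
  obtain ⟨u, c, d, hc, hd, hcd⟩ := cc_of_hp hn (a₀ * b₀) (mul_ne_zero ha0 hb0) a₀ b₀
    dvd_rfl hHP
  have hd' : algebraMap B K d ≠ 0 := fun hz => hd (hinj (by rw [hz, map_zero]))
  have hc' : algebraMap B K c ≠ 0 := fun hz => hc (hinj (by rw [hz, map_zero]))
  refine ⟨u, algebraMap B K c / algebraMap B K d, div_ne_zero hc' hd', ?_⟩
  have hcd' := congrArg (algebraMap B K) hcd
  simp only [map_mul, map_pow] at hcd'
  rw [div_pow, div_eq_iff hb₀', mul_div_assoc', div_mul_eq_mul_div, eq_div_iff (pow_ne_zero n hd')]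
  linear_combination hcd'

/-- **(I6)** regular points: `B` noetherian local domain, `π ≠ 0` in `𝔪`, `B ⧸ (π)` a principal
ideal domain, `K = Frac B`; then `h ∈ Kˣ` with all prime multiplicities divisible by `n` lies in
`Bˣ · Kˣⁿ`. -/
theorem regular_unit_mul_pow [IsNoetherianRing B] [IsLocalRing B]
    (π : B) (hπ0 : π ≠ 0) (hπ : π ∈ IsLocalRing.maximalIdeal B)
    [IsPrincipalIdealRing (B ⧸ Ideal.span {π})] [IsDomain (B ⧸ Ideal.span {π})]
    {K : Type*} [Field K] [Algebra B K]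
    [IsFractionRing B K] {n : ℕ} (hn : 0 < n) (h : K) (h0 : h ≠ 0)
    (hH : ∀ p : B, Prime p → ∃ (k l : ℕ) (a b : B), ¬ p ∣ a ∧ ¬ p ∣ b ∧
      h * algebraMap B K b * algebraMap B K p ^ (n * l) =
        algebraMap B K a * algebraMap B K p ^ (n * k)) :
    ∃ (u : Bˣ) (g : K), g ≠ 0 ∧ h = algebraMap B K (u : B) * g ^ n :=
  haveI := ufd_of_quot_pid π hπ0 hπ
  unit_mul_pow hn h h0 hH

end H21RP

end
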