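import Fermat.Agent.S34.ResCompAsm_helper12
import Fermat.Agent.S34.PairGaussFinal_helper8
import Fermat.Agent.S34.ResDegOne_helper22
import Fermat.Agent.S34.I2LevelNormal_helper14

/-!
# Item 82 (S34): the residue comparison `H12TC.ResCompStatement`, unconditional (helper12)

`H12TC.resCompStatement : ResCompStatement`, from (I1) `H8PB.h8pg_pairGauss` (helper8),
(C'') `H22RC.resDegOneStatement` (helper22) and (A'') `H14I2.h14i2_levelNormal` (helper14).
-/

set_option autoImplicit false

namespace H12TC

/-- **(C)** the residue comparison ("component 1 = level `M`"), unconditional. -/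
theorem resCompStatement : ResCompStatement :=
  resComp_of H8PB.h8pg_pairGauss H22RC.resDegOneStatement H14I2.h14i2_levelNormal

end H12TC
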