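import Mathlib

/-!
# Item 82 (S34), Step G, abstract part (helper11)

Pure group theory.  `G` acts on a set `V` ("components" of the special fibre of the normalisation
in the toric Kummer tower) and on a set `Pt` ("closed points over the nodes"), `inc W n` is the
incidence relation "the component `W` passes through the point `n`".  `A ⊴ G` is the Kummer
group.  If

* `A` acts freely on `V` (the two Gauss valuations split completely),
* `A` is transitive on every `G`-orbit of `V`,
* incident `W`, `n` have the same stabiliser in `G` (étaleness at the nodes + `G` fixes the nodes),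
* the incidence graph on `V` is connected (Zariski connectedness of the special fibre),

then all the stabilisers `Stab_G(W)` coincide and centralise `A`; if moreover `A` is commutative,
`A` is central in `G`.

The same statement serves for `G = Gal(L/F₀)`, `F₀ = F₁^{I}` (inertia; S34) and for the bigger group
of the elements of the decomposition group fixing all the nodes (Frobenius weights; S35).
-/

set_option autoImplicit false

namespace H11S34

variable {G : Type*} [Group G] {V Pt : Type*} [MulAction G V] [MulAction G Pt]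

/-- adjacency of two components: they pass through a common point. -/
def Adj (inc : V → Pt → Prop) (W W' : V) : Prop := ∃ n : Pt, inc W n ∧ inc W' n

/-- incident component and point have the same stabiliser ⟹ adjacent components have the same
stabiliser. -/
theorem stab_eq_of_adj {inc : V → Pt → Prop}
    (hWn : ∀ (W : V) (n : Pt), inc W n → ∀ g : G, g • W = W → g • n = n)
    (hnW : ∀ (W : V) (n : Pt), inc W n → ∀ g : G, g • n = n → g • W = W)
    {W W' : V} (h : Adj inc W W') (g : G) : g • W = W ↔ g • W' = W' := by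
  obtain ⟨n, h1, h2⟩ := h
  exact ⟨fun hg => hnW W' n h2 g (hWn W n h1 g hg), fun hg => hnW W n h1 g (hWn W' n h2 g hg)⟩

/-- connectedness ⟹ all components have the same stabiliser. -/
theorem stab_eq_of_conn {inc : V → Pt → Prop}
    (hWn : ∀ (W : V) (n : Pt), inc W n → ∀ g : G, g • W = W → g • n = n)
    (hnW : ∀ (W : V) (n : Pt), inc W n → ∀ g : G, g • n = n → g • W = W)
    (hconn : ∀ W W' : V, Relation.ReflTransGen (Adj (Pt := Pt) inc) W W')
    (W W' : V) (g : G) : g • W = W ↔ g • W' = W' := by
  have key : ∀ U U' : V, Relation.ReflTransGen (Adj (Pt := Pt) inc) U U' →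
      (g • U = U ↔ g • U' = U') := by
    intro U U' h
    induction h with
    | refl => exact Iff.rfl
    | tail _ hbc ih => exact ih.trans (stab_eq_of_adj hWn hnW hbc g)
  exact key W W' (hconn W W')

/-- **Step G, abstract**: the common stabiliser of the components centralises `A`. -/
theorem stepG_centralises (A : Subgroup G) [A.Normal] {inc : V → Pt → Prop}
    (hsplit : ∀ (W : V), ∀ a ∈ A, a • W = W → a = 1)
    (hWn : ∀ (W : V) (n : Pt), inc W n → ∀ g : G, g • W = W → g • n = n)
    (hnW : ∀ (W : V) (n : Pt), inc W n → ∀ g : G, g • n = n → g • W = W)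
    (hconn : ∀ W W' : V, Relation.ReflTransGen (Adj (Pt := Pt) inc) W W')
    (W : V) (d : G) (hd : d • W = W) (a : G) (ha : a ∈ A) : d * a = a * d := by
  -- `a d a⁻¹` fixes `a • W`, hence `W`
  have h1 : (a * d * a⁻¹) • (a • W) = a • W := by
    rw [← mul_smul, inv_mul_cancel_right, mul_smul, hd]
  have h2 : (a * d * a⁻¹) • W = W :=
    (stab_eq_of_conn hWn hnW hconn (a • W) W (a * d * a⁻¹)).1 h1
  -- the commutator `a d a⁻¹ d⁻¹` fixes `W` and lies in `A`
  have hdinv : d⁻¹ • W = W := by
    conv_lhs => rw [← hd]
    rw [← mul_smul, inv_mul_cancel, one_smul]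
  have h3 : (a * d * a⁻¹ * d⁻¹) • W = W := by
    rw [mul_smul, hdinv, h2]
  have h4 : a * d * a⁻¹ * d⁻¹ ∈ A := by
    have : d * a⁻¹ * d⁻¹ ∈ A := Subgroup.Normal.conj_mem inferInstance a⁻¹ (A.inv_mem ha) d
    have h5 : a * (d * a⁻¹ * d⁻¹) ∈ A := A.mul_mem ha this
    simpa [mul_assoc] using h5
  have h6 : a * d * a⁻¹ * d⁻¹ = 1 := hsplit W _ h4 h3
  -- `a d a⁻¹ d⁻¹ = 1 ⟹ a d = d a`
  have h7 : a * d = d * a := by
    have := congrArg (fun x => x * d * a) h6
    simpa [mul_assoc] using this
  exact h7.symm

/-- **Step G, abstract**, for a commutative `A` which is transitive on the `G`-orbits: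
`A` is central in `G`. -/
theorem stepG_central (A : Subgroup G) [A.Normal] {inc : V → Pt → Prop}
    (hcomm : ∀ a ∈ A, ∀ b ∈ A, a * b = b * a)
    (hsplit : ∀ (W : V), ∀ a ∈ A, a • W = W → a = 1)
    (htrans : ∀ (W : V) (g : G), ∃ a ∈ A, g • W = a • W)
    (hWn : ∀ (W : V) (n : Pt), inc W n → ∀ g : G, g • W = W → g • n = n)
    (hnW : ∀ (W : V) (n : Pt), inc W n → ∀ g : G, g • n = n → g • W = W)
    (hconn : ∀ W W' : V, Relation.ReflTransGen (Adj (Pt := Pt) inc) W W')
    [Nonempty V] (g : G) (a : G) (ha : a ∈ A) : g * a = a * g := by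
  obtain ⟨W⟩ := ‹Nonempty V›
  obtain ⟨b, hb, hgb⟩ := htrans W g
  -- `d := b⁻¹ g` fixes `W`
  have hd : (b⁻¹ * g) • W = W := by
    rw [mul_smul, hgb, ← mul_smul, inv_mul_cancel, one_smul]
  have h1 := stepG_centralises A hsplit hWn hnW hconn W (b⁻¹ * g) hd a ha
  -- `g = b (b⁻¹ g)`
  have h2 : b * a = a * b := hcomm b hb a ha
  calc g * a = b * ((b⁻¹ * g) * a) := by group
    _ = b * (a * (b⁻¹ * g)) := by rw [h1]
    _ = (b * a) * (b⁻¹ * g) := by group
    _ = (a * b) * (b⁻¹ * g) := by rw [h2]
    _ = a * g := by group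

end H11S34
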