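import Mathlib

/-!
# Item 82 (S34), slice (I3): transversality `P₁ + P₂ = 𝔪ₛ` — abstract one-sided lemma (helper12)

Mathlib only.  Setting: `P₁, P₂ ≤ s` ideals of a commutative ring, `s` prime; locally at `s` the
ideal `s` is generated by `P₁` and ONE element `t` (i.e. `t` is a uniformizer of `(M/P₁)ₛ`), and
`t ≡ Y ^ q mod P₂` for some `Y` (Kronecker congruence on the second component), `q ≥ 2`.
Then locally at `s`: `s = P₁ + P₂`.  (`Y ∈ s` is automatic; no DVR hypothesis is needed.)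

* `H12TR.transv_local` : version in a local ring `B` (`𝔪 = P₁ ⊔ (t)` ⇒ `𝔪 = P₁ ⊔ P₂`);
* `H12TR.transv_elem`  : element version in any commutative ring, localisation-free;
* `H12TR.transv_unif`  : the element `x = t - Y ^ q ∈ P₂` is again a local generator of `s`
  modulo `P₁` (a uniformizer of `(M/P₁)ₛ` lying in `P₂`).
-/

set_option autoImplicit false

namespace H12TR

/-- `(p + c t)^q ∈ P₁ + (t^q)`-type binomial fact: if `a - b ∈ P` then `a ^ q - b ^ q ∈ P`. -/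
theorem pow_sub_pow_mem {M : Type*} [CommRing M] (P : Ideal M) {a b : M} (h : a - b ∈ P)
    (q : ℕ) : a ^ q - b ^ q ∈ P := by
  obtain ⟨c, hc⟩ := sub_dvd_pow_sub_pow a b q
  rw [hc]
  exact P.mul_mem_right _ h

/-- **Transversality, element form.**  `s` prime, `P₁, P₂ ≤ s`, `t ∈ s`, `t - Y ^ q ∈ P₂`, `q ≥ 2`,
and `Y` is, locally at `s` and modulo `P₁`, a multiple of `t`.  Then `u t ∈ P₁ ⊔ P₂` for some
`u ∉ s`. -/
theorem transv_t {M : Type*} [CommRing M] (P₁ P₂ s : Ideal M) [s.IsPrime]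
    (q : ℕ) (hq : 2 ≤ q) (t Y : M) (ht : t ∈ s) (hx : t - Y ^ q ∈ P₂)
    (hY : ∃ u : M, u ∉ s ∧ ∃ c : M, u * Y - c * t ∈ P₁) :
    ∃ u : M, u ∉ s ∧ u * t ∈ P₁ ⊔ P₂ := by
  obtain ⟨u₁, hu₁, c₁, hc₁⟩ := hY
  refine ⟨u₁ ^ q - c₁ ^ q * t ^ (q - 1), ?_, ?_⟩
  · intro h
    have h1 : c₁ ^ q * t ^ (q - 1) ∈ s :=
      s.mul_mem_left _ (s.pow_mem_of_mem ht (q - 1) (by omega))
    have h2 : u₁ ^ q ∈ s := by
      have := s.add_mem h h1
      simpa using this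
    exact hu₁ (‹s.IsPrime›.mem_of_pow_mem q h2)
  · -- (u₁^q - c₁^q t^(q-1)) t = u₁^q (t - Y^q) + ((u₁ Y)^q - (c₁ t)^q)
    have e : (u₁ ^ q - c₁ ^ q * t ^ (q - 1)) * t =
        u₁ ^ q * (t - Y ^ q) + ((u₁ * Y) ^ q - (c₁ * t) ^ q) := by
      have ht' : t ^ (q - 1) * t = t ^ q := by
        rw [← pow_succ]; congr 1; omega
      have : c₁ ^ q * t ^ (q - 1) * t = (c₁ * t) ^ q := by
        rw [mul_assoc, ht', mul_pow]
      rw [sub_mul, this, mul_pow]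
      ring
    rw [e]
    exact Ideal.add_mem _ (Ideal.mem_sup_right (P₂.mul_mem_left _ hx))
      (Ideal.mem_sup_left (pow_sub_pow_mem P₁ hc₁ q))

/-- **Transversality, element form (I3).**  If, locally at `s`, `s = P₁ + (t)`, and
`t - Y ^ q ∈ P₂ ≤ s` with `q ≥ 2`, then, locally at `s`, `s = P₁ + P₂`. -/
theorem transv_elem {M : Type*} [CommRing M] (P₁ P₂ s : Ideal M) [s.IsPrime]
    (h2 : P₂ ≤ s)
    (q : ℕ) (hq : 2 ≤ q) (t Y : M) (ht : t ∈ s) (hx : t - Y ^ q ∈ P₂)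
    (hunif : ∀ z ∈ s, ∃ u : M, u ∉ s ∧ ∃ c : M, u * z - c * t ∈ P₁) :
    ∀ z ∈ s, ∃ u : M, u ∉ s ∧ u * z ∈ P₁ ⊔ P₂ := by
  have hYq : Y ^ q ∈ s := by
    have := s.sub_mem ht (h2 hx)
    simpa using this
  have hYs : Y ∈ s := ‹s.IsPrime›.mem_of_pow_mem q hYq
  obtain ⟨u₂, hu₂, hu₂t⟩ := transv_t P₁ P₂ s q hq t Y ht hx (hunif Y hYs)
  intro z hz
  obtain ⟨u, hu, c, hc⟩ := hunif z hz
  refine ⟨u₂ * u, fun h => (‹s.IsPrime›.mem_or_mem h).elim hu₂ hu, ?_⟩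
  have e : u₂ * u * z = u₂ * (u * z - c * t) + c * (u₂ * t) := by ring
  rw [e]
  exact Ideal.add_mem _ (Ideal.mem_sup_left (P₁.mul_mem_left _ hc))
    ((P₁ ⊔ P₂).mul_mem_left _ hu₂t)

/-- **The uniformizer in `P₂`.**  In the situation of `transv_elem`, `x = t - Y ^ q ∈ P₂` is
again a generator of `s` modulo `P₁`, locally at `s`. -/
theorem transv_unif {M : Type*} [CommRing M] (P₁ P₂ s : Ideal M) [s.IsPrime]
    (h2 : P₂ ≤ s)
    (q : ℕ) (hq : 2 ≤ q) (t Y : M) (ht : t ∈ s) (hx : t - Y ^ q ∈ P₂)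
    (hunif : ∀ z ∈ s, ∃ u : M, u ∉ s ∧ ∃ c : M, u * z - c * t ∈ P₁) :
    ∀ z ∈ s, ∃ u : M, u ∉ s ∧ ∃ c : M, u * z - c * (t - Y ^ q) ∈ P₁ := by
  have hYq : Y ^ q ∈ s := by
    have := s.sub_mem ht (h2 hx)
    simpa using this
  have hYs : Y ∈ s := ‹s.IsPrime›.mem_of_pow_mem q hYq
  obtain ⟨u₁, hu₁, c₁, hc₁⟩ := hunif Y hYs
  -- u₂ t ≡ u₁^q x mod P₁ with u₂ = u₁^q - c₁^q t^(q-1) ∉ s
  have hu₂ : u₁ ^ q - c₁ ^ q * t ^ (q - 1) ∉ s := by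
    intro h
    have h1 : c₁ ^ q * t ^ (q - 1) ∈ s :=
      s.mul_mem_left _ (s.pow_mem_of_mem ht (q - 1) (by omega))
    have h2 : u₁ ^ q ∈ s := by
      have := s.add_mem h h1
      simpa using this
    exact hu₁ (‹s.IsPrime›.mem_of_pow_mem q h2)
  have key : (u₁ ^ q - c₁ ^ q * t ^ (q - 1)) * t - u₁ ^ q * (t - Y ^ q) ∈ P₁ := by
    have e : (u₁ ^ q - c₁ ^ q * t ^ (q - 1)) * t - u₁ ^ q * (t - Y ^ q) =
        (u₁ * Y) ^ q - (c₁ * t) ^ q := by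
      have ht' : t ^ (q - 1) * t = t ^ q := by
        rw [← pow_succ]; congr 1; omega
      have : c₁ ^ q * t ^ (q - 1) * t = (c₁ * t) ^ q := by
        rw [mul_assoc, ht', mul_pow]
      rw [sub_mul, this, mul_pow]
      ring
    rw [e]
    exact pow_sub_pow_mem P₁ hc₁ q
  intro z hz
  obtain ⟨u, hu, c, hc⟩ := hunif z hz
  refine ⟨(u₁ ^ q - c₁ ^ q * t ^ (q - 1)) * u,
    fun h => (‹s.IsPrime›.mem_or_mem h).elim hu₂ hu, c * u₁ ^ q, ?_⟩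
  have e : (u₁ ^ q - c₁ ^ q * t ^ (q - 1)) * u * z - c * u₁ ^ q * (t - Y ^ q) =
      (u₁ ^ q - c₁ ^ q * t ^ (q - 1)) * (u * z - c * t) +
        c * ((u₁ ^ q - c₁ ^ q * t ^ (q - 1)) * t - u₁ ^ q * (t - Y ^ q)) := by ring
  rw [e]
  exact P₁.add_mem (P₁.mul_mem_left _ hc) (P₁.mul_mem_left _ key)

/-- **Transversality in a local ring.**  `B` local, `𝔪 = P₁ ⊔ (t)`, `t - Y ^ q ∈ P₂ ≤ 𝔪`,
`q ≥ 2`: then `𝔪 = P₁ ⊔ P₂`. -/
theorem transv_local {B : Type*} [CommRing B] [IsLocalRing B] (P₁ P₂ : Ideal B)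
    (h1 : P₁ ≤ IsLocalRing.maximalIdeal B) (h2 : P₂ ≤ IsLocalRing.maximalIdeal B)
    (q : ℕ) (hq : 2 ≤ q) (t Y : B) (hx : t - Y ^ q ∈ P₂)
    (hm : IsLocalRing.maximalIdeal B = P₁ ⊔ Ideal.span {t}) :
    IsLocalRing.maximalIdeal B = P₁ ⊔ P₂ := by
  apply le_antisymm _ (sup_le h1 h2)
  have ht : t ∈ IsLocalRing.maximalIdeal B := by
    rw [hm]; exact Ideal.mem_sup_right (Ideal.subset_span rfl)
  have hunif : ∀ z ∈ IsLocalRing.maximalIdeal B, ∃ u : B, u ∉ IsLocalRing.maximalIdeal B ∧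
      ∃ c : B, u * z - c * t ∈ P₁ := by
    intro z hz
    rw [hm] at hz
    obtain ⟨p, hp, y, hy, rfl⟩ := Submodule.mem_sup.mp hz
    obtain ⟨c, rfl⟩ := Ideal.mem_span_singleton'.mp hy
    refine ⟨1, fun h => (Ideal.ne_top_iff_one _).mp (IsLocalRing.maximalIdeal.isMaximal B).ne_top h,
      c, ?_⟩
    have e : 1 * (p + c * t) - c * t = p := by ring
    rw [e]; exact hp
  intro z hz
  obtain ⟨u, hu, huz⟩ := transv_elem P₁ P₂ (IsLocalRing.maximalIdeal B) h2 q hq t Y ht hx hunif z hz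
  have hunit : IsUnit u := by
    by_contra h
    exact hu ((IsLocalRing.mem_maximalIdeal u).mpr h)
  obtain ⟨v, rfl⟩ := hunit
  have : z = (↑v⁻¹ : B) * (↑v * z) := by
    rw [← mul_assoc, Units.inv_mul, one_mul]
  rw [this]
  exact (P₁ ⊔ P₂).mul_mem_left _ huz

end H12TR
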