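import Fermat.Agent.S34.PairDefs_helper8
import Fermat.Agent.S34.Frob_helper24
import Fermat.Agent.S34.GUDesc_helper29
import Fermat.Agent.W3G.CHEB_helper29
import Fermat.Agent.S34.TransvAbs_helper12
import Fermat.Agent.S34.DichAbs_helper26
import Fermat.Agent.S34.Defs_helper4

/-!
# Item 82 (S34), slice (I3), concrete part (helper12): transversality `P₁ + P₂ = 𝔫`

Level `M q`, `q` prime, `q ∤ M`; `K₁ ⊆ ℚ̄` NORMAL over `ℚ`, `R = descVal A K₁`, `A` over `q`;
`w = H12AL.wqKHom K₁ M q` (Atkin–Lehner), `σ ∈ G_ℚ` a Frobenius element at `A`.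

* `H12TC.frob_congr` (generic): if `s` is an endomorphism of `R` with `(s a)^ℓ ≡ a` modulo the
  maximal ideal, then for every series `f` in the Gauss ring: `f(𝐪^ℓ) - (s f)^ℓ ∈ 𝔪_{w₁}`.
* `H12TC.frob_congr_gal` : the same for `s = σ⁻¹` restricted to `K₁`.
-/

set_option autoImplicit false
set_option linter.style.longLine false
set_option linter.unusedSectionVars false
set_option linter.unusedVariables false
set_option linter.style.haveILetI false
set_option synthInstance.maxHeartbeats 400000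

noncomputable section

open ModularCurve H7S18

namespace H12TC

/-! ### the generic Frobenius congruence -/

section Generic

variable {K : Type} [Field K] (R : ValuationSubring K)

theorem exists_isUnit_coeff_of_ne_zero (G : LaurentSeries R)
    (h : coeffMap (IsLocalRing.residue R) G ≠ 0) : ∃ n, IsUnit (G.coeff n) := by
  by_contra hcon
  push Not at hcon
  apply h
  ext n
  rw [coeffMap_coeff]
  have := hcon n
  rw [← IsLocalRing.residue_ne_zero_iff_isUnit, not_not] at this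
  simpa using this

theorem coeffMap_residue_ne_zero (G : LaurentSeries R) (h : ∃ n, IsUnit (G.coeff n)) :
    coeffMap (IsLocalRing.residue R) G ≠ 0 := by
  obtain ⟨n, hn⟩ := h
  intro h0
  have h1 := congrArg (fun x : LaurentSeries (IsLocalRing.ResidueField R) => x.coeff n) h0
  simp only [coeffMap_coeff] at h1
  exact ((IsLocalRing.residue_ne_zero_iff_isUnit _).mpr hn) (by simpa using h1)

theorem not_isUnit_coeff_of_eq_zero (F : LaurentSeries R)
    (h : coeffMap (IsLocalRing.residue R) F = 0) (n : ℤ) : ¬ IsUnit (F.coeff n) := by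
  intro hu
  have h1 := congrArg (fun x : LaurentSeries (IsLocalRing.ResidueField R) => x.coeff n) h
  simp only [coeffMap_coeff] at h1
  exact ((IsLocalRing.residue_ne_zero_iff_isUnit _).mpr hu) (by simpa using h1)

variable (ℓ : ℕ) [Fact ℓ.Prime] [CharP (IsLocalRing.ResidueField R) ℓ]

/-- **Frobenius congruence (generic)**: `sK : K →+* K` restricts to `sR : R →+* R`, and
`(sR a)^ℓ ≡ a` modulo the maximal ideal.  Then `f(𝐪^ℓ) ≡ (sK f)^ℓ` modulo the maximal ideal of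
the Gauss ring, for every `f` in the Gauss ring. -/
theorem frob_congr (sK : K →+* K) (sR : R →+* R)
    (hs : ∀ a : R, ((sR a : R) : K) = sK (a : K))
    (hfrob : ∀ a : R, IsLocalRing.residue R (sR a) ^ ℓ = IsLocalRing.residue R a)
    (f : LaurentSeries K) (hf : H8PB.InG R f) :
    haveI : NeZero ℓ := ⟨(Fact.out : ℓ.Prime).ne_zero⟩
    H8PB.InGm R (qExpand K ℓ f - (coeffMap sK f) ^ ℓ) := by
  haveI : NeZero ℓ := ⟨(Fact.out : ℓ.Prime).ne_zero⟩
  obtain ⟨F, G, hG, h⟩ := hf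
  set π := IsLocalRing.residue R with hπ
  set k := IsLocalRing.ResidueField R
  set ε : LaurentSeries R →+* LaurentSeries K := coeffMap R.subtype with hε
  set ρ : LaurentSeries R →+* LaurentSeries k := coeffMap π with hρ
  set F' := coeffMap sR F with hF'
  set G' := coeffMap sR G with hG'
  -- `ε ∘ sR = sK ∘ ε`
  have hcomm : ∀ Z : LaurentSeries R, ε (coeffMap sR Z) = coeffMap sK (ε Z) := by
    intro Z
    rw [hε, coeffMap_coeffMap, coeffMap_coeffMap]
    exact coeffMap_congr (RingHom.ext fun a => hs a) Z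
  -- `Frob ∘ ρ ∘ sR = ρ`
  have hfr : ∀ Z : LaurentSeries R, coeffMap (frobenius k ℓ) (ρ (coeffMap sR Z)) = ρ Z := by
    intro Z
    rw [hρ, coeffMap_coeffMap, coeffMap_coeffMap]
    refine coeffMap_congr (RingHom.ext fun a => ?_) Z
    simp only [RingHom.coe_comp, Function.comp_apply, frobenius_def]
    exact hfrob a
  have hpow : ∀ Z : LaurentSeries R, ρ (coeffMap sR Z) ^ ℓ = qExpand k ℓ (ρ Z) := by
    intro Z
    rw [H23R3.h23r3_frobenius ℓ (ρ (coeffMap sR Z)), hfr]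
  have h1 : coeffMap sK f * ε G' = ε F' := by
    rw [hG', hF', hcomm, hcomm, ← map_mul, h]
  have h2 : qExpand K ℓ f * ε (qExpand R ℓ G) = ε (qExpand R ℓ F) := by
    rw [hε, coeffMap_qExpand, coeffMap_qExpand, ← map_mul, h]
  have hρG : ρ G ≠ 0 := coeffMap_residue_ne_zero R G hG
  refine ⟨qExpand R ℓ F * G' ^ ℓ - F' ^ ℓ * qExpand R ℓ G, qExpand R ℓ G * G' ^ ℓ, ?_, ?_, ?_⟩
  · apply exists_isUnit_coeff_of_ne_zero
    change ρ (qExpand R ℓ G * G' ^ ℓ) ≠ 0
    rw [map_mul, map_pow, hG', hpow, hρ, coeffMap_qExpand]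
    have h0 : qExpand k ℓ (coeffMap π G) ≠ 0 := fun h0 =>
      hρG (qExpand_injective ℓ (h0.trans (map_zero _).symm))
    exact mul_ne_zero h0 h0
  · apply not_isUnit_coeff_of_eq_zero
    change ρ (qExpand R ℓ F * G' ^ ℓ - F' ^ ℓ * qExpand R ℓ G) = 0
    rw [map_sub, map_mul, map_mul, map_pow, map_pow, hG', hF', hpow, hpow, hρ,
      coeffMap_qExpand, coeffMap_qExpand]
    ring
  · change (qExpand K ℓ f - coeffMap sK f ^ ℓ) * ε (qExpand R ℓ G * G' ^ ℓ) =
      ε (qExpand R ℓ F * G' ^ ℓ - F' ^ ℓ * qExpand R ℓ G)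
    rw [map_sub, map_mul, map_mul, map_mul, map_pow, map_pow, ← h1, ← h2]
    ring

/-- the Gauss ring is closed under multiplication -/
theorem inG_mul {x y : LaurentSeries K} (hx : H8PB.InG R x) (hy : H8PB.InG R y) :
    H8PB.InG R (x * y) := by
  obtain ⟨f, g, hg, h⟩ := hx
  obtain ⟨f', g', hg', h'⟩ := hy
  refine ⟨f * f', g * g', ?_, ?_⟩
  · apply exists_isUnit_coeff_of_ne_zero
    rw [map_mul]
    exact mul_ne_zero (coeffMap_residue_ne_zero R g hg) (coeffMap_residue_ne_zero R g' hg')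
  · rw [map_mul, map_mul, ← h, ← h']
    ring

theorem inG_one : H8PB.InG R (1 : LaurentSeries K) := by
  refine ⟨1, 1, ?_, by simp⟩
  apply exists_isUnit_coeff_of_ne_zero
  rw [map_one]
  exact one_ne_zero

theorem inG_pow {x : LaurentSeries K} (hx : H8PB.InG R x) (n : ℕ) : H8PB.InG R (x ^ n) := by
  induction n with
  | zero => rw [pow_zero]; exact inG_one R
  | succ n ih => rw [pow_succ]; exact inG_mul R ih hx

theorem coeffMap_residue_eq_zero (F : LaurentSeries R) (h : ∀ n, ¬ IsUnit (F.coeff n)) :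
    coeffMap (IsLocalRing.residue R) F = 0 := by
  ext n
  rw [coeffMap_coeff]
  have := h n
  rw [← IsLocalRing.residue_ne_zero_iff_isUnit, not_not] at this
  simpa using this

/-- the maximal ideal of the Gauss ring is an ideal -/
theorem inGm_mul {x y : LaurentSeries K} (hx : H8PB.InG R x) (hy : H8PB.InGm R y) :
    H8PB.InGm R (x * y) := by
  obtain ⟨f, g, hg, h⟩ := hx
  obtain ⟨f', g', hg', hf', h'⟩ := hy
  refine ⟨f * f', g * g', ?_, ?_, ?_⟩
  · apply exists_isUnit_coeff_of_ne_zero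
    rw [map_mul]
    exact mul_ne_zero (coeffMap_residue_ne_zero R g hg) (coeffMap_residue_ne_zero R g' hg')
  · apply not_isUnit_coeff_of_eq_zero
    rw [map_mul, coeffMap_residue_eq_zero R f' hf', mul_zero]
  · rw [map_mul, map_mul, ← h, ← h']
    ring

end Generic

/-! ### integrality is transported by ring homomorphisms -/

section Integral

theorem isIntegral_map_of_forall {A₀ T E : Type*} [CommRing A₀] [CommRing T] [CommRing E]
    [Algebra A₀ E] [Algebra T E] (w : E →+* E)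
    (hw : ∀ a : A₀, IsIntegral T (w (algebraMap A₀ E a)))
    {x : E} (hx : IsIntegral A₀ x) : IsIntegral T (w x) := by
  obtain ⟨p, hp, hpx⟩ := hx
  let wA : A₀ →+* ↥(integralClosure T E) :=
    (w.comp (algebraMap A₀ E)).codRestrict (integralClosure T E) (fun a => hw a)
  have h1 : IsIntegral ↥(integralClosure T E) (w x) := by
    refine ⟨p.map wA, hp.map wA, ?_⟩
    rw [Polynomial.eval₂_map]
    have h2 : (algebraMap ↥(integralClosure T E) E).comp wA = w.comp (algebraMap A₀ E) := by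
      ext a; rfl
    rw [h2, ← Polynomial.hom_eval₂, hpx, map_zero]
  exact isIntegral_trans (R := T) (A := ↥(integralClosure T E)) _ h1

theorem isIntegral_map_adjoin {R T E : Type*} [CommRing R] [CommRing T] [CommRing E]
    [Algebra R E] [Algebra T E] (w : E →+* E) (t : E)
    (hR : ∀ r : R, IsIntegral T (w (algebraMap R E r))) (ht : IsIntegral T (w t))
    (a : ↥(Algebra.adjoin R {t})) :
    IsIntegral T (w (algebraMap ↥(Algebra.adjoin R {t}) E a)) := by
  obtain ⟨a, ha⟩ := a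
  change IsIntegral T (w a)
  induction ha using Algebra.adjoin_induction with
  | mem x hx =>
      rw [Set.mem_singleton_iff] at hx
      rw [hx]; exact ht
  | algebraMap r => exact hR r
  | add x y _ _ hx hy => rw [map_add]; exact hx.add hy
  | mul x y _ _ hx hy => rw [map_mul]; exact hx.mul hy

/-- **global form**: if `w` fixes `R` into integral elements and `w t` is integral over `R[t]`,
then `w` maps the chart ring into itself. -/
theorem isInt_map (R : Type) [CommRing R] {E : Type} [Field E] [Algebra R E] (t : E)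
    (w : E →+* E) (hR : ∀ r : R, IsInt R t (w (algebraMap R E r))) (ht : IsInt R t (w t))
    {x : E} (hx : IsInt R t x) : IsInt R t (w x) :=
  isIntegral_map_of_forall w (isIntegral_map_adjoin w t hR ht) hx

/-- **local form**: if `w r ∈ B_𝔫` for `r ∈ R` and `w t ∈ B_𝔫`, then `w` maps the chart ring
into the local ring `B_𝔫`. -/
theorem inLoc_map (R : Type) [CommRing R] {E : Type} [Field E] [Algebra R E] (t : E)
    (𝔫 : Ideal (H4S34.Chart R t)) [𝔫.IsPrime] (w : E →+* E)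
    (hR : ∀ r : R, H4S34.InLoc R t 𝔫 (w (algebraMap R E r))) (ht : H4S34.InLoc R t 𝔫 (w t))
    {x : E} (hx : IsInt R t x) : H4S34.InLoc R t 𝔫 (w x) := by
  classical
  have hunit : ∀ y : 𝔫.primeCompl, IsUnit (algebraMap ↥(H4S34.Chart R t) E (y : ↥(H4S34.Chart R t))) := by
    intro y
    apply IsUnit.mk0
    intro h0
    have h1 : ((y : ↥(H4S34.Chart R t)) : E) = 0 := h0
    have h2 : (y : ↥(H4S34.Chart R t)) = 0 := Subtype.ext h1
    exact y.2 (h2 ▸ 𝔫.zero_mem)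
  let ι : Localization.AtPrime 𝔫 →+* E :=
    IsLocalization.lift (M := 𝔫.primeCompl) (g := algebraMap ↥(H4S34.Chart R t) E) hunit
  letI : Algebra (Localization.AtPrime 𝔫) E := ι.toAlgebra
  haveI : IsScalarTower ↥(H4S34.Chart R t) (Localization.AtPrime 𝔫) E :=
    IsScalarTower.of_algebraMap_eq fun c =>
      (IsLocalization.lift_eq (M := 𝔫.primeCompl) hunit c).symm
  -- elements of `B_𝔫` are integral over `T`
  have hloc : ∀ z : E, H4S34.InLoc R t 𝔫 z → IsIntegral (Localization.AtPrime 𝔫) z := by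
    rintro z ⟨a, s, hs, hsz⟩
    have hz : z = algebraMap (Localization.AtPrime 𝔫) E
        (IsLocalization.mk' (Localization.AtPrime 𝔫) a (⟨s, hs⟩ : 𝔫.primeCompl)) := by
      change z = ι _
      rw [IsLocalization.lift_mk', Units.eq_mul_inv_iff_mul_eq, IsUnit.coe_liftRight]
      change z * (s : E) = (a : E)
      rw [mul_comm]; exact hsz
    rw [hz]
    exact isIntegral_algebraMap
  have h1 : IsIntegral (Localization.AtPrime 𝔫) (w x) :=
    isIntegral_map_of_forall w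
      (isIntegral_map_adjoin w t (fun r => hloc _ (hR r)) (hloc _ ht)) hx
  obtain ⟨m, hm⟩ := IsIntegral.exists_multiple_integral_of_isLocalization 𝔫.primeCompl
    (w x) h1
  have h2 : IsIntegral ↥(Algebra.adjoin R {t}) (m • w x) :=
    isIntegral_trans (R := ↥(Algebra.adjoin R {t})) (A := ↥(H4S34.Chart R t)) _ hm
  refine ⟨⟨m • w x, h2⟩, (m : ↥(H4S34.Chart R t)), m.2, ?_⟩
  change ((m : ↥(H4S34.Chart R t)) : E) * w x = m • w x
  rw [Submonoid.smul_def, Algebra.smul_def]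
  rfl

end Integral

/-! ### the Frobenius element restricted to `K₁` -/

section Galois

local notation "Kbar" => AlgebraicClosure ℚ

variable (A : ValuationSubring Kbar) (K₁ : IntermediateField ℚ Kbar) [Normal ℚ K₁]

/-- the endomorphism of `R = A ∩ K₁` induced by an element of the decomposition group -/
def resR (τ : Kbar ≃ₐ[ℚ] Kbar) (hτ : τ ∈ A.decompositionSubgroup ℚ) :
    ↥(descVal A K₁) →+* ↥(descVal A K₁) :=
  (((H29GU.res K₁ τ : ↥K₁ ≃ₐ[ℚ] ↥K₁) : ↥K₁ →+* ↥K₁).comp (descVal A K₁).subtype).codRestrict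
    (descVal A K₁) (fun a => H29GU.res_mem A K₁ hτ a)

theorem coe_resR (τ : Kbar ≃ₐ[ℚ] Kbar) (hτ : τ ∈ A.decompositionSubgroup ℚ)
    (a : ↥(descVal A K₁)) :
    ((resR A K₁ τ hτ a : ↥(descVal A K₁)) : ↥K₁) = H29GU.res K₁ τ (a : ↥K₁) := rfl

theorem not_isUnit_of_mem_nonunits (x : ↥(descVal A K₁))
    (hx : algebraMap ↥K₁ Kbar (x : ↥K₁) ∈ A.nonunits) : ¬ IsUnit x := by
  intro hu
  have hu' : IsUnit (descIncl A K₁ x) := hu.map (descIncl A K₁)
  have h1 : ((descIncl A K₁ x : ↥A) : Kbar) ∈ A.nonunits := hx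
  rw [ValuationSubring.coe_mem_nonunits_iff] at h1
  exact (IsLocalRing.mem_maximalIdeal _).mp h1 hu'

/-- `σ a ≡ a ^ q` modulo the maximal ideal of `R`, for a Frobenius element `σ` -/
theorem residue_resR_frob (q : ℕ) (σ : Kbar ≃ₐ[ℚ] Kbar) (hσ : A.IsFrobeniusAt σ q)
    (a : ↥(descVal A K₁)) :
    IsLocalRing.residue ↥(descVal A K₁) (resR A K₁ σ hσ.mem_decompositionSubgroup a) =
      IsLocalRing.residue ↥(descVal A K₁) a ^ q := by
  rw [← map_pow, ← sub_eq_zero, ← map_sub, IsLocalRing.residue_eq_zero_iff,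
    IsLocalRing.mem_maximalIdeal]
  apply not_isUnit_of_mem_nonunits
  have h := H29CHEB.h29cheb_frob_sub_mem A σ q hσ (algebraMap ↥K₁ Kbar (a : ↥K₁)) a.2
  have e : algebraMap ↥K₁ Kbar
      (((resR A K₁ σ hσ.mem_decompositionSubgroup a - a ^ q : ↥(descVal A K₁)) : ↥K₁)) =
      σ (algebraMap ↥K₁ Kbar (a : ↥K₁)) - (algebraMap ↥K₁ Kbar (a : ↥K₁)) ^ q := by
    rw [show ((resR A K₁ σ hσ.mem_decompositionSubgroup a - a ^ q : ↥(descVal A K₁)) : ↥K₁) =
      H29GU.res K₁ σ (a : ↥K₁) - (a : ↥K₁) ^ q from rfl, map_sub, map_pow, H29GU.res_commutes]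
  rw [e]
  exact h

theorem resR_resR_inv (σ : Kbar ≃ₐ[ℚ] Kbar) (hσ : σ ∈ A.decompositionSubgroup ℚ)
    (a : ↥(descVal A K₁)) :
    resR A K₁ σ hσ (resR A K₁ σ⁻¹ (inv_mem hσ) a) = a := by
  apply Subtype.ext
  rw [coe_resR, coe_resR, ← H29GU.res_mul, mul_inv_cancel]
  apply (algebraMap ↥K₁ Kbar).injective
  rw [H29GU.res_commutes]
  rfl

/-- `(σ⁻¹ a) ^ q ≡ a` modulo the maximal ideal of `R` -/
theorem residue_resR_inv_pow (q : ℕ) (σ : Kbar ≃ₐ[ℚ] Kbar) (hσ : A.IsFrobeniusAt σ q)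
    (a : ↥(descVal A K₁)) :
    IsLocalRing.residue ↥(descVal A K₁)
        (resR A K₁ σ⁻¹ (inv_mem hσ.mem_decompositionSubgroup) a) ^ q =
      IsLocalRing.residue ↥(descVal A K₁) a := by
  rw [← residue_resR_frob A K₁ q σ hσ, resR_resR_inv]

theorem liesOver_desc (q : ℕ) (hA : A.LiesOverPrime q) : (descVal A K₁).LiesOverPrime q := by
  have hq : (q : ↥K₁) ∈ descVal A K₁ := by
    change algebraMap ↥K₁ Kbar (q : ↥K₁) ∈ A
    rw [map_natCast]
    exact A.nonunits_subset hA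
  change (q : ↥K₁) ∈ (descVal A K₁).nonunits
  rw [ValuationSubring.mem_nonunits_iff_exists_mem_maximalIdeal]
  refine ⟨hq, ?_⟩
  rw [IsLocalRing.mem_maximalIdeal]
  apply not_isUnit_of_mem_nonunits
  change algebraMap ↥K₁ Kbar (q : ↥K₁) ∈ A.nonunits
  rw [map_natCast]
  exact hA

theorem charP_residue (q : ℕ) (hq : q.Prime) (hA : A.LiesOverPrime q) :
    CharP (IsLocalRing.ResidueField ↥(descVal A K₁)) q := by
  obtain ⟨p, hp⟩ := CharP.exists (IsLocalRing.ResidueField ↥(descVal A K₁))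
  have h0 := H28GV.gv_residue_natCast_eq_zero (descVal A K₁) q (liesOver_desc A K₁ q hA)
  have hdvd : p ∣ q := (CharP.cast_eq_zero_iff (IsLocalRing.ResidueField ↥(descVal A K₁)) p q).mp h0
  have hp1 : p ≠ 1 := CharP.char_ne_one (IsLocalRing.ResidueField ↥(descVal A K₁)) p
  have : p = q := (Nat.dvd_prime hq).mp hdvd |>.resolve_left hp1
  rw [← this]
  exact hp

/-- **Frobenius congruence over `K₁`**: `f(𝐪^q) ≡ (σ⁻¹ f)^q` modulo the maximal ideal of the
Gauss ring of `R = A ∩ K₁`. -/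
theorem frob_congr_gal (q : ℕ) [NeZero q] (hq : q.Prime) (hA : A.LiesOverPrime q)
    (σ : Kbar ≃ₐ[ℚ] Kbar) (hσ : A.IsFrobeniusAt σ q)
    (f : LaurentSeries ↥K₁) (hf : H8PB.InG (descVal A K₁) f) :
    H8PB.InGm (descVal A K₁)
      (qExpand ↥K₁ q f -
        (coeffMap ((H29GU.res K₁ σ⁻¹ : ↥K₁ ≃ₐ[ℚ] ↥K₁) : ↥K₁ →+* ↥K₁) f) ^ q) := by
  haveI : Fact q.Prime := ⟨hq⟩
  haveI := charP_residue A K₁ q hq hA
  exact frob_congr (descVal A K₁) q _
    (resR A K₁ σ⁻¹ (inv_mem hσ.mem_decompositionSubgroup))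
    (fun a => coe_resR A K₁ σ⁻¹ _ a) (residue_resR_inv_pow A K₁ q σ hσ) f hf

/-! ### the concrete transversality theorem -/

variable (M q : ℕ) [NeZero M] [NeZero q]

/-- **(I3), concrete core.**  Level `M q`, `K₁` normal, `R = A ∩ K₁`, chart `t` with rational
coefficients, `w` the Atkin–Lehner involution.  Let `𝔫 ⊇ P₂` be a prime of the chart ring `M₀`,
where `P₂ ⊇ {x | w x ∈ 𝔪_{w₁}}`.  Assume `w t ∈ B_𝔫`, `w M₀ ⊆ O_{w₁}`, and that `f ∈ 𝔫` is a
function of LEVEL `M` in the Gauss ring which generates `𝔫` modulo `P₁` locally at `𝔫`.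
Then, locally at `𝔫`: `𝔫 = P₁ + P₂`; moreover `𝔫` is generated modulo `P₁` by an element of
`P₂`. -/
theorem transv_core (hq : q.Prime) (hqM : ¬ q ∣ M) (hA : A.LiesOverPrime q)
    [Algebra ↥(descVal A K₁) (FK K₁ (M * q))]
    [IsScalarTower ↥(descVal A K₁) K₁ (FK K₁ (M * q))]
    (t₀ : LaurentSeries ℚ) (t : FK K₁ (M * q)) (ht : (t : LaurentSeries K₁) = coeffEmb K₁ t₀)
    (P₁ P₂ 𝔫 : Ideal (H4S34.Chart ↥(descVal A K₁) t)) [𝔫.IsPrime] (h2 : P₂ ≤ 𝔫)
    (hP₂ : ∀ x : H4S34.Chart ↥(descVal A K₁) t,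
      H8PB.InGm (descVal A K₁)
        ((H12AL.wqKHom K₁ M q hq hqM (x : FK K₁ (M * q)) : FK K₁ (M * q)) : LaurentSeries K₁) →
      x ∈ P₂)
    (hG₂ : ∀ x : H4S34.Chart ↥(descVal A K₁) t,
      H8PB.InG (descVal A K₁)
        ((H12AL.wqKHom K₁ M q hq hqM (x : FK K₁ (M * q)) : FK K₁ (M * q)) : LaurentSeries K₁))
    (hwt : H4S34.InLoc ↥(descVal A K₁) t 𝔫 (H12AL.wqKHom K₁ M q hq hqM t))
    (f : H4S34.Chart ↥(descVal A K₁) t)
    (hfM : (((f : FK K₁ (M * q))) : LaurentSeries K₁) ∈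
      laurentBaseChange ↥K₁ (modularFunctionFieldFull M))
    (hG₁ : H8PB.InG (descVal A K₁) (((f : FK K₁ (M * q))) : LaurentSeries K₁))
    (hf : f ∈ 𝔫)
    (hunif : ∀ z ∈ 𝔫, ∃ u : H4S34.Chart ↥(descVal A K₁) t, u ∉ 𝔫 ∧
      ∃ c : H4S34.Chart ↥(descVal A K₁) t, u * z - c * f ∈ P₁) :
    H26DI.TransvAt (M := ↥(H4S34.Chart ↥(descVal A K₁) t)) P₁ P₂ 𝔫 ∧
      ∃ x ∈ P₂, ∀ z ∈ 𝔫, ∃ u : H4S34.Chart ↥(descVal A K₁) t, u ∉ 𝔫 ∧
        ∃ c : H4S34.Chart ↥(descVal A K₁) t, u * z - c * x ∈ P₁ := by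
  classical
  obtain ⟨σ, hσ⟩ := Fermat.Agent.H9.h9_exists_isFrobeniusAt A hq hA
  have hσD : σ⁻¹ ∈ A.decompositionSubgroup ℚ := inv_mem hσ.mem_decompositionSubgroup
  set w := H12AL.wqKHom K₁ M q hq hqM with hw
  -- the coefficientwise action of `σ⁻¹`
  set τ₁ : FK K₁ (M * q) ≃+* FK K₁ (M * q) :=
    arithmeticRingAut (modularFunctionFieldFull (M * q)) (H29GU.res K₁ σ⁻¹) with hτ₁
  have hconst : ∀ r : ↥(descVal A K₁),
      algebraMap ↥(descVal A K₁) (FK K₁ (M * q)) r =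
        algebraMap ↥K₁ (FK K₁ (M * q)) (r : ↥K₁) := fun r =>
    IsScalarTower.algebraMap_apply ↥(descVal A K₁) ↥K₁ (FK K₁ (M * q)) r
  -- `τ₁` preserves the chart ring
  have hτt : τ₁ t = t := by
    apply Subtype.ext
    rw [hτ₁, coe_arithmeticRingAut_apply, ht]
    exact H1S18.coeffMap_coeffEmb_hom _ t₀
  have hτR : ∀ r : ↥(descVal A K₁),
      τ₁ (algebraMap ↥(descVal A K₁) (FK K₁ (M * q)) r) =
        algebraMap ↥(descVal A K₁) (FK K₁ (M * q)) (resR A K₁ σ⁻¹ hσD r) := by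
    intro r
    rw [hconst, hconst, hτ₁, arithmeticRingAut_algebraMap, coe_resR]
  have hint_t : IsInt ↥(descVal A K₁) t t := by
    have : t = algebraMap ↥(Algebra.adjoin ↥(descVal A K₁) {t}) (FK K₁ (M * q))
        ⟨t, Algebra.self_mem_adjoin_singleton _ t⟩ := rfl
    rw [IsInt, this]
    exact isIntegral_algebraMap
  have hint_R : ∀ r : ↥(descVal A K₁),
      IsInt ↥(descVal A K₁) t (algebraMap ↥(descVal A K₁) (FK K₁ (M * q)) r) := by
    intro r
    have : algebraMap ↥(descVal A K₁) (FK K₁ (M * q)) r =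
        algebraMap ↥(Algebra.adjoin ↥(descVal A K₁) {t}) (FK K₁ (M * q))
          (algebraMap ↥(descVal A K₁) ↥(Algebra.adjoin ↥(descVal A K₁) {t}) r) := rfl
    rw [IsInt, this]
    exact isIntegral_algebraMap
  have hf₁int : IsInt ↥(descVal A K₁) t (τ₁ (f : FK K₁ (M * q))) := by
    refine isInt_map ↥(descVal A K₁) t (τ₁ : FK K₁ (M * q) →+* FK K₁ (M * q)) ?_ ?_ f.2
    · intro r
      change IsInt ↥(descVal A K₁) t (τ₁ _)
      rw [hτR]
      exact hint_R _
    · change IsInt ↥(descVal A K₁) t (τ₁ t)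
      rw [hτt]
      exact hint_t
  -- `Y = w (σ⁻¹ f) ∈ B_𝔫`
  have hwR : ∀ r : ↥(descVal A K₁),
      w (algebraMap ↥(descVal A K₁) (FK K₁ (M * q)) r) =
        algebraMap ↥(descVal A K₁) (FK K₁ (M * q)) r := by
    intro r
    rw [hconst, hw, H12AL.wqKHom_const]
  have hYloc : H4S34.InLoc ↥(descVal A K₁) t 𝔫 (w (τ₁ (f : FK K₁ (M * q)))) := by
    refine inLoc_map ↥(descVal A K₁) t 𝔫 w ?_ hwt hf₁int
    intro r
    rw [hwR]
    exact ⟨⟨_, hint_R r⟩, 1, fun h1 => (Ideal.ne_top_iff_one 𝔫).mp (Ideal.IsPrime.ne_top ‹_›) h1,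
      by simp⟩
  obtain ⟨a, m, hm, hma⟩ := hYloc
  -- the Frobenius congruence
  have hcong : H8PB.InGm (descVal A K₁)
      ((w ((f : FK K₁ (M * q)) - (w (τ₁ (f : FK K₁ (M * q)))) ^ q) : FK K₁ (M * q)) :
        LaurentSeries K₁) := by
    have e : ((w ((f : FK K₁ (M * q)) - (w (τ₁ (f : FK K₁ (M * q)))) ^ q) : FK K₁ (M * q)) :
        LaurentSeries K₁) =
        qExpand ↥K₁ q (((f : FK K₁ (M * q))) : LaurentSeries K₁) -
          (coeffMap ((H29GU.res K₁ σ⁻¹ : ↥K₁ ≃ₐ[ℚ] ↥K₁) : ↥K₁ →+* ↥K₁)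
            (((f : FK K₁ (M * q))) : LaurentSeries K₁)) ^ q := by
      rw [map_sub, map_pow, hw, H12AL.wqKHom_invol]
      change ((H12AL.wqKHom K₁ M q hq hqM (f : FK K₁ (M * q)) : FK K₁ (M * q)) :
        LaurentSeries K₁) - ((τ₁ (f : FK K₁ (M * q)) : FK K₁ (M * q)) : LaurentSeries K₁) ^ q = _
      rw [H12AL.coe_wqKHom_of_level K₁ M q hq hqM _ hfM, hτ₁, coe_arithmeticRingAut_apply]
    rw [e]
    exact frob_congr_gal A K₁ q hq hA σ hσ _ hG₁
  -- the element `x₀ = m^q f - a^q ∈ P₂`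
  have hx₀ : m ^ q * f - a ^ q ∈ P₂ := by
    apply hP₂
    have e : ((m ^ q * f - a ^ q : H4S34.Chart ↥(descVal A K₁) t) : FK K₁ (M * q)) =
        (m : FK K₁ (M * q)) ^ q *
          ((f : FK K₁ (M * q)) - (w (τ₁ (f : FK K₁ (M * q)))) ^ q) := by
      push_cast
      rw [← hma]
      ring
    rw [e, map_mul, map_pow]
    change H8PB.InGm (descVal A K₁)
      (((w (m : FK K₁ (M * q)) : FK K₁ (M * q)) : LaurentSeries K₁) ^ q *
        ((w ((f : FK K₁ (M * q)) - (w (τ₁ (f : FK K₁ (M * q)))) ^ q) : FK K₁ (M * q)) :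
          LaurentSeries K₁))
    exact inGm_mul _ (inG_pow _ (hG₂ m) q) hcong
  have hmq : m ^ q ∉ 𝔫 := fun h => hm (Ideal.IsPrime.mem_of_pow_mem ‹_› q h)
  have ht' : m ^ q * f ∈ 𝔫 := 𝔫.mul_mem_left _ hf
  have hunif' : ∀ z ∈ 𝔫, ∃ u : H4S34.Chart ↥(descVal A K₁) t, u ∉ 𝔫 ∧
      ∃ c : H4S34.Chart ↥(descVal A K₁) t, u * z - c * (m ^ q * f) ∈ P₁ := by
    intro z hz
    obtain ⟨u, hu, c, hc⟩ := hunif z hz
    refine ⟨m ^ q * u, fun h => (Ideal.IsPrime.mem_or_mem ‹_› h).elim hmq hu, c, ?_⟩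
    have e : m ^ q * u * z - c * (m ^ q * f) = m ^ q * (u * z - c * f) := by ring
    rw [e]
    exact P₁.mul_mem_left _ hc
  have hTR := H12TR.transv_elem (M := ↥(H4S34.Chart ↥(descVal A K₁) t)) P₁ P₂ 𝔫 h2 q hq.two_le
    (m ^ q * f) a ht' hx₀ hunif'
  have hU := H12TR.transv_unif (M := ↥(H4S34.Chart ↥(descVal A K₁) t)) P₁ P₂ 𝔫 h2 q hq.two_le
    (m ^ q * f) a ht' hx₀ hunif'
  exact ⟨hTR, m ^ q * f - a ^ q, hx₀, hU⟩

end Galois

end H12TC

end
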