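import Fermat.Agent.S34.CuspAbs_helper15

/-!
# helper15, item 82 (S34), (DICH) concrete, slice (I4) = `CompVertStatement`: generic algebra

* `H15V.clear_den`: **clearing denominators**: if `x` is integral over `ℤ[y]` and `y d = e` with
  `d, e ∈ ℤ[t]`, then `d^m x` is integral over `ℤ[t]` for some `m`.
-/

set_option autoImplicit false

noncomputable section

open Polynomial

namespace H15V

open H15C

section clear

variable {E : Type} [CommRing E]

/-- homogenisation of `c` of degree `≤ N` with respect to `y = e / d` -/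
def homog (D Ec : Polynomial ℤ) (N : ℕ) (c : Polynomial ℤ) : Polynomial ℤ :=
  ∑ l ∈ Finset.range (N + 1), Polynomial.C (c.coeff l) * Ec ^ l * D ^ (N - l)

theorem ev_homog (t y : E) (D Ec : Polynomial ℤ) (hyd : y * ev t D = ev t Ec) (N : ℕ)
    (c : Polynomial ℤ) (hc : c.natDegree ≤ N) :
    ev t (homog D Ec N c) = ev t D ^ N * ev y c := by
  have h1 : ev y c = ∑ l ∈ Finset.range (N + 1), ((c.coeff l : ℤ) : E) * y ^ l := by
    show Polynomial.eval₂ (Int.castRingHom E) y c = _
    rw [Polynomial.eval₂_eq_sum_range' (Int.castRingHom E) (Nat.lt_succ_of_le hc)]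
    rfl
  rw [h1, homog, map_sum, Finset.mul_sum]
  refine Finset.sum_congr rfl (fun l hl => ?_)
  have hl' : l ≤ N := Nat.lt_succ_iff.mp (Finset.mem_range.mp hl)
  obtain ⟨r, hr⟩ : ∃ r, N = l + r := ⟨N - l, by omega⟩
  have e1 : N - l = r := by omega
  rw [map_mul, map_mul, ev_C, map_pow, map_pow, e1, ← hyd, hr]
  ring

/-- **clearing denominators** -/
theorem clear_den (t y x : E) (D Ec : Polynomial ℤ) (hyd : y * ev t D = ev t Ec)
    (hx : (ev y).IsIntegralElem x) : ∃ m : ℕ, (ev t).IsIntegralElem (ev t D ^ m * x) := by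
  obtain ⟨Q, hQ, hQx⟩ := hx
  set n := Q.natDegree with hn
  set N := (Finset.range (n + 1)).sup (fun i => (Q.coeff i).natDegree) with hN
  have hdeg : ∀ i, i < n + 1 → (Q.coeff i).natDegree ≤ N := fun i hi =>
    Finset.le_sup (f := fun i => (Q.coeff i).natDegree) (Finset.mem_range.mpr hi)
  refine ⟨N, ?_⟩
  set d := ev t D with hd
  rcases Nat.eq_zero_or_pos n with h0 | hpos
  · -- `Q = 1`, the ring is trivial
    have hQ1 : Q = 1 := by
      have := Polynomial.eq_C_of_natDegree_eq_zero (hn ▸ h0 : Q.natDegree = 0)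
      have hlead : Q.coeff 0 = 1 := by
        have := hQ.coeff_natDegree
        rwa [← hn, h0] at this
      rw [this, hlead, map_one]
    rw [hQ1, Polynomial.eval₂_one] at hQx
    refine ⟨X, Polynomial.monic_X, ?_⟩
    rw [Polynomial.eval₂_X]
    calc d ^ N * x = (d ^ N * x) * 1 := by rw [mul_one]
      _ = 0 := by rw [hQx, mul_zero]
  · have hrel : x ^ n + ∑ i ∈ Finset.range n, ev y (Q.coeff i) * x ^ i = 0 := by
      rw [Polynomial.eval₂_eq_sum_range, ← hn, Finset.sum_range_succ] at hQx
      have hlead : Q.coeff n = 1 := hQ.coeff_natDegree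
      rw [hlead, map_one, one_mul] at hQx
      rw [← hQx]
      ring
    refine isIntegralElem_of_rel (ev t) (d ^ N * x) n hpos (Finset.range n)
      (fun i => D ^ (N * (n - i - 1)) * homog D Ec N (Q.coeff i)) (fun i => i) 0
      (fun i hi => Finset.mem_range.mp hi) ?_
    have h2 : (d ^ N * x) ^ n + (∑ i ∈ Finset.range n,
        ev t (D ^ (N * (n - i - 1)) * homog D Ec N (Q.coeff i)) * (d ^ N * x) ^ i + ev t 0) =
        d ^ (N * n) * (x ^ n + ∑ i ∈ Finset.range n, ev y (Q.coeff i) * x ^ i) := by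
      rw [map_zero, add_zero, mul_add, Finset.mul_sum]
      congr 1
      · rw [mul_pow, ← pow_mul]
      · refine Finset.sum_congr rfl (fun i hi => ?_)
        have hi' := Finset.mem_range.mp hi
        rw [map_mul, map_pow, ev_homog t y D Ec hyd N (Q.coeff i) (hdeg i (by omega)), ← hd]
        obtain ⟨r, hr⟩ : ∃ r, n = i + 1 + r := ⟨n - i - 1, by omega⟩
        have e1 : n - i - 1 = r := by omega
        rw [e1, hr]
        ring
    rw [h2, hrel, mul_zero]

end clear

end H15V

end
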