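import Fermat.Agent.S34.VertCore_helper15
import Fermat.Agent.S34.DichDefs_helper26
import Fermat.Agent.S18.C6b_helper4
import Fermat.Agent.S18.C6e_helper9

/-!
# helper15, item 82 (S34), (DICH) concrete, slice (I4): the vertical pair, concrete setting

`theta`, `fF`, `uF` (the functions `f_q`, `u_q` in `F₁ = FK K₁ (M q)`), `w_uF`, `exists_q_eq`, and
`vert_conc`: the vertical pair at a non-cuspidal closed point of the chart `t`, for `t` of level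
`M` with an integral model and a relation `j t^m = E(t)`.
-/

set_option autoImplicit false
set_option synthInstance.maxHeartbeats 400000

noncomputable section

open ModularCurve H7S18 H4S34 H26DI

namespace H15V

section setup

variable {M : ℕ} [NeZero M] {q : ℕ} [NeZero q] [Fact q.Prime]
  (A : ValuationSubring (AlgebraicClosure ℚ))
  (K₁ : IntermediateField ℚ (AlgebraicClosure ℚ))

/-- the inclusion `F₁ → K₁((q))` -/
def theta (N : ℕ) [NeZero N] : FK K₁ N →+* LaurentSeries K₁ :=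
  (laurentBaseChange K₁ (modularFunctionFieldFull N)).val.toRingHom

theorem theta_apply (N : ℕ) [NeZero N] (x : FK K₁ N) : theta K₁ N x = (x : LaurentSeries K₁) := rfl

theorem theta_injective (N : ℕ) [NeZero N] : Function.Injective (theta K₁ N) :=
  fun _ _ h => Subtype.ext h

/-- `f_q ∈ F₁` -/
def fF (N : ℕ) [NeZero N] (hqN : q ∣ N) : FK K₁ N := ⟨H15U.fq K₁ q, H15U.fq_mem_FK q K₁ N hqN⟩

/-- `u_q ∈ F₁` -/
def uF (N : ℕ) [NeZero N] (hqN : q ∣ N) : FK K₁ N := ⟨H15U.uq K₁ q, H15U.uq_mem_FK q K₁ N hqN⟩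

/-- `(f_q : F₁)` is integral over `ℤ[j]` -/
theorem fF_integral (N : ℕ) [NeZero N] (hqN : q ∣ N) :
    (H15C.ev (H9C6e.JK K₁ N)).IsIntegralElem (fF K₁ N hqN) := by
  apply integral_of_theta (theta_injective K₁ N)
  rw [theta_apply, theta_apply, H9C6e.coe_JK]
  exact H15U.fq_integral q K₁

/-- `(u_q : F₁)` is integral over `ℤ[j]` -/
theorem uF_integral (N : ℕ) [NeZero N] (hqN : q ∣ N) :
    (H15C.ev (H9C6e.JK K₁ N)).IsIntegralElem (uF K₁ N hqN) := by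
  apply integral_of_theta (theta_injective K₁ N)
  rw [theta_apply, theta_apply, H9C6e.coe_JK]
  exact H15U.uq_integral q K₁

theorem uF_mul_fF (N : ℕ) [NeZero N] (hqN : q ∣ N) :
    uF K₁ N hqN * fF K₁ N hqN = (q : FK K₁ N) ^ 12 :=
  H15C.uf_eq q (theta K₁ N) (theta_injective K₁ N) _ _ rfl rfl

/-- `q = ε ϖ^e` in `R = A ∩ K₁`, `e ≥ 1` -/
theorem exists_q_eq (hA : A.LiesOverPrime q) (hfd : FiniteDimensional ℚ K₁)
    (ϖ : ↥(descVal A K₁)) (hϖ : Irreducible ϖ) :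
    ∃ (e : ℕ) (ε : (↥(descVal A K₁))ˣ), 1 ≤ e ∧
      ((q : ℕ) : ↥(descVal A K₁)) = (ε : ↥(descVal A K₁)) * ϖ ^ e := by
  obtain ⟨hDVR, hnu, -⟩ := H4DVR.dvrStatement q A hA K₁ hfd
  have := hDVR
  have hq0 : ((q : ℕ) : ↥(descVal A K₁)) ≠ 0 := by
    intro h0
    have := congrArg (algebraMap ↥(descVal A K₁) K₁) h0
    rw [map_natCast, map_zero] at this
    exact (NeZero.ne q) (by exact_mod_cast this)
  obtain ⟨e, ε, he⟩ := IsDiscreteValuationRing.eq_unit_mul_pow_irreducible hq0 hϖ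
  refine ⟨e, ε, ?_, he⟩
  by_contra hcon
  have h0 : e = 0 := by omega
  rw [h0, pow_zero, mul_one] at he
  exact hnu (he ▸ ε.isUnit)

/-- the Atkin–Lehner involution swaps `u` and `f` -/
theorem w_uF (hq : q.Prime) (hqM : ¬ q ∣ M) :
    H12AL.wqKHom K₁ M q hq hqM (uF K₁ (M * q) (dvd_mul_left q M)) =
      fF K₁ (M * q) (dvd_mul_left q M) := by
  set w := H12AL.wqKHom K₁ M q hq hqM with hw
  have hJlev : ((H9C6e.JK K₁ (M * q) : FK K₁ (M * q)) : LaurentSeries K₁) ∈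
      laurentBaseChange K₁ (modularFunctionFieldFull M) := by
    rw [H9C6e.coe_JK, ← H9C6e.coe_JK K₁ M]
    exact (H9C6e.JK K₁ M).2
  have hb : theta K₁ (M * q) (w (H9C6e.JK K₁ (M * q))) = qExpand K₁ q (jqModC K₁) := by
    rw [theta_apply, hw, H12AL.coe_wqKHom_of_level K₁ M q hq hqM _ hJlev, H9C6e.coe_JK]
  exact H15U.swap_u q (theta K₁ (M * q)) (theta_injective K₁ (M * q)) w
    (H9C6e.JK K₁ (M * q)) (w (H9C6e.JK K₁ (M * q))) _ _ (H9C6e.coe_JK K₁ (M * q)) hb rfl rfl rfl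
    (H12AL.wqKHom_invol K₁ M q hq hqM _)

theorem w_fF (hq : q.Prime) (hqM : ¬ q ∣ M) :
    H12AL.wqKHom K₁ M q hq hqM (fF K₁ (M * q) (dvd_mul_left q M)) =
      uF K₁ (M * q) (dvd_mul_left q M) := by
  rw [← w_uF K₁ hq hqM, H12AL.wqKHom_invol]

theorem not_inGm_fq (R : ValuationSubring K₁) : ¬ H8PB.InGm R (H15U.fq K₁ q) := by
  have h := not_inGm R (H15U.fq ↥R q) (red_fq_ne_zero R q)
  rwa [H15U.coeffMap_fq] at h


/-- **the vertical pair, concrete core** (non-cuspidal points): `t` a function of level `M` with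
an integral model `t_R`, `J t^m = E(t)`, and `t ∉ 𝔫` if `m ≠ 0`. -/
theorem vert_conc (hq : q.Prime) (hqM : ¬ q ∣ M) (hA : A.LiesOverPrime q)
    (hfd : FiniteDimensional ℚ K₁)
    [Algebra ↥(descVal A K₁) (FK K₁ (M * q))]
    (ϖ : ↥(descVal A K₁)) (hϖ : Irreducible ϖ)
    (t : FK K₁ (M * q)) (tR : LaurentSeries ↥(descVal A K₁))
    (htR : coeffMap (descVal A K₁).subtype tR = (t : LaurentSeries K₁))
    (hred : red (descVal A K₁) tR ≠ 0)
    (hlev : (t : LaurentSeries K₁) ∈ laurentBaseChange K₁ (modularFunctionFieldFull M))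
    (m : ℕ) (Ec : Polynomial ℤ)
    (hrel : H9C6e.JK K₁ (M * q) * t ^ m = H15C.ev t Ec)
    (P₁ P₂ : Ideal (Chart ↥(descVal A K₁) t)) (h1 : IsComp1 A K₁ t P₁)
    (h2 : IsComp2 hq hqM A K₁ t P₂)
    (𝔫 : Ideal (Chart ↥(descVal A K₁) t)) (h𝔫 : 𝔫.IsPrime)
    (ht𝔫 : m ≠ 0 → ∀ y : Chart ↥(descVal A K₁) t, (y : FK K₁ (M * q)) = t → y ∉ 𝔫) :
    ∃ (a a' s s' : Chart ↥(descVal A K₁) t) (j : ℕ), 1 ≤ j ∧ s ∉ 𝔫 ∧ s' ∉ 𝔫 ∧ a ∉ P₁ ∧
      a' ∉ P₂ ∧
      ((a : FK K₁ (M * q)) * a' =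
        algebraMap ↥(descVal A K₁) (FK K₁ (M * q)) ϖ ^ j * (s * s')) := by
  obtain ⟨e, ε, he1, he⟩ := exists_q_eq A K₁ hA hfd ϖ hϖ
  exact vert_abs (descVal A K₁) q (theta K₁ (M * q)) (theta_injective K₁ (M * q))
    (H12AL.wqKHom K₁ M q hq hqM) (H9C6e.JK K₁ (M * q))
    (uF K₁ (M * q) (dvd_mul_left q M)) (fF K₁ (M * q) (dvd_mul_left q M)) t
    (H9C6e.coe_JK K₁ (M * q)) rfl rfl (w_uF K₁ hq hqM) tR htR hred
    (H12AL.coe_wqKHom_of_level K₁ M q hq hqM t hlev) m Ec hrel ϖ e ε he1 he P₁ P₂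
    (fun y hy => (h1 y).mp hy) (fun y hy => (h2 y).mp hy) 𝔫 h𝔫 ht𝔫

end setup

end H15V

end
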