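import Fermat.Agent.S34.PairDefs_helper8

/-!
# helper15, item 82 (S34), (DICH) concrete, slice (I4): the Gauss ring `O_{w₁}` (`H8PB.InG`,
`H8PB.InGm`) — two elementary facts

* `H15V.not_inGm`: an integral series with nonzero reduction is not in `𝔪_{w₁}`;
* `H15V.inGm_of_rel`: `x · g = f` with `g` primitive and `f ≡ 0` gives `x ∈ 𝔪_{w₁}`.
-/

set_option autoImplicit false

noncomputable section

open ModularCurve

namespace H15V

variable {K : Type} [Field K] (R : ValuationSubring K)

/-- reduction of integral series modulo the maximal ideal -/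
def red : LaurentSeries R →+* LaurentSeries (IsLocalRing.ResidueField R) :=
  coeffMap (IsLocalRing.residue R)

theorem coeffMap_subtype_injective : Function.Injective (coeffMap R.subtype) := by
  intro x y h
  ext n
  have := congrArg (fun z : LaurentSeries K => z.coeff n) h
  simp only [coeffMap_coeff] at this
  exact this

theorem red_eq_zero_iff (f : LaurentSeries R) : red R f = 0 ↔ ∀ n, ¬ IsUnit (f.coeff n) := by
  constructor
  · intro h n hu
    have h1 := congrArg (fun z : LaurentSeries (IsLocalRing.ResidueField R) => z.coeff n) h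
    simp only [red, coeffMap_coeff, HahnSeries.coeff_zero] at h1
    rw [IsLocalRing.residue_eq_zero_iff] at h1
    exact ((IsLocalRing.mem_maximalIdeal _).mp h1) hu
  · intro h
    ext n
    simp only [red, coeffMap_coeff, HahnSeries.coeff_zero]
    rw [IsLocalRing.residue_eq_zero_iff]
    exact (IsLocalRing.mem_maximalIdeal _).mpr (h n)

theorem red_ne_zero_iff (g : LaurentSeries R) : red R g ≠ 0 ↔ ∃ n, IsUnit (g.coeff n) := by
  rw [Ne, red_eq_zero_iff]
  simp only [not_forall, not_not]

/-- an integral series with nonzero reduction is not in the maximal ideal of the Gauss ring -/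
theorem not_inGm (X : LaurentSeries R) (hX : red R X ≠ 0) :
    ¬ H8PB.InGm R (coeffMap R.subtype X) := by
  rintro ⟨f, g, hg, hf, h⟩
  rw [← map_mul] at h
  have h1 := coeffMap_subtype_injective R h
  have h2 := congrArg (red R) h1
  rw [map_mul, (red_eq_zero_iff R f).mpr hf] at h2
  rcases mul_eq_zero.mp h2 with h3 | h3
  · exact hX h3
  · exact (red_ne_zero_iff R g).mpr hg h3

/-- `x · g = f`, `g` primitive, `f ≡ 0`: `x` is in the maximal ideal of the Gauss ring -/
theorem inGm_of_rel (x : LaurentSeries K) (f g : LaurentSeries R) (hg : red R g ≠ 0)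
    (hf : red R f = 0) (h : x * coeffMap R.subtype g = coeffMap R.subtype f) :
    H8PB.InGm R x :=
  ⟨f, g, (red_ne_zero_iff R g).mp hg, (red_eq_zero_iff R f).mp hf, h⟩

/-- a multiple of a non-unit constant reduces to `0` -/
theorem red_natCast_mul (q : ℕ) (hq : ¬ IsUnit ((q : ℕ) : R)) (X : LaurentSeries R) :
    red R ((q : LaurentSeries R) * X) = 0 := by
  rw [map_mul, map_natCast]
  have : ((q : ℕ) : LaurentSeries (IsLocalRing.ResidueField R)) = 0 := by
    have h1 : ((q : ℕ) : IsLocalRing.ResidueField R) = 0 := by
      have := (IsLocalRing.residue_eq_zero_iff ((q : ℕ) : R)).mpr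
        ((IsLocalRing.mem_maximalIdeal _).mpr hq)
      rwa [map_natCast] at this
    have h2 : ((q : ℕ) : LaurentSeries (IsLocalRing.ResidueField R)) =
        HahnSeries.C ((q : ℕ) : IsLocalRing.ResidueField R) := by simp
    rw [h2, h1, map_zero]
  rw [this, zero_mul]

end H15V

end
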