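import Fermat.Agent.S34.VertAbs_helper15
import Fermat.Agent.S34.VertGauss_helper15
import Fermat.Agent.S34.Cusp_helper15
import Fermat.Agent.S34.DichElem_helper26

/-!
# helper15, item 82 (S34), (DICH) concrete, slice (I4): the vertical pair, abstract core
-/

set_option autoImplicit false

noncomputable section

open ModularCurve H4S34

namespace H15V

section chart

variable {R : Type} [CommRing R] {E : Type} [Field E] [Algebra R E]

/-- integrality over `ℤ[t]` gives an element of the chart -/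
theorem exists_chart_of_integral (t x : E) (hx : (H15C.ev t).IsIntegralElem x) :
    ∃ a : Chart R t, (a : E) = x := by
  have ht : t ∈ Algebra.adjoin R ({t} : Set E) := Algebra.subset_adjoin (Set.mem_singleton t)
  have hcomp : (algebraMap (Algebra.adjoin R ({t} : Set E)) E).comp
      (H15C.ev (⟨t, ht⟩ : Algebra.adjoin R ({t} : Set E))) = H15C.ev t := by
    rw [H15C.ev_hom]
    rfl
  rw [← hcomp] at hx
  exact ⟨⟨x, RingHom.IsIntegralElem.of_comp hx⟩, rfl⟩

/-- `t ∈ Chart R t` -/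
theorem exists_chart_t (t : E) : ∃ τ : Chart R t, (τ : E) = t :=
  exists_chart_of_integral (R := R) t t (by
    have h := (H15C.ev t).isIntegralElem_map (x := Polynomial.X)
    rwa [H15C.ev_X] at h)

end chart

section core

variable {K : Type} [Field K] (R : ValuationSubring K)
  {F : Type} [Field F] [Algebra ↥R F] (q : ℕ) [NeZero q] [Fact q.Prime]
  (θ : F →+* LaurentSeries K) (hθ : Function.Injective θ) (w : F →+* F)
  (J u f t : F) (hJ : θ J = jqModC K) (hu : θ u = H15U.uq K q) (hf : θ f = H15U.fq K q)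

/-- transfer of integrality from `K((q))` to `F` -/
theorem integral_of_theta {θ : F →+* LaurentSeries K} (hθ : Function.Injective θ) (J x : F)
    (hx : (H28S28.h10ev (θ J)).IsIntegralElem (θ x)) : (H15C.ev J).IsIntegralElem x := by
  obtain ⟨P, hP, hPx⟩ := hx
  refine ⟨P, hP, ?_⟩
  apply hθ
  rw [Polynomial.hom_eval₂, H15C.ev_hom, map_zero]
  exact hPx

/-- `f_q` has nonzero reduction -/
theorem red_fq_ne_zero : red R (H15U.fq ↥R q) ≠ 0 := by
  intro h0
  have h1 := congrArg (fun z : LaurentSeries (IsLocalRing.ResidueField R) =>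
    z.coeff (1 - (q : ℤ))) h0
  simp only [red, H15U.coeffMap_fq, HahnSeries.coeff_zero] at h1
  rw [H15U.fq_coeff_lead] at h1
  exact one_ne_zero h1

theorem red_pow_mul_fq_ne_zero (X : LaurentSeries ↥R)
    (hX : red R X ≠ 0) (k : ℕ) : red R (X ^ k * H15U.fq ↥R q) ≠ 0 := by
  rw [map_mul, map_pow]
  exact mul_ne_zero (pow_ne_zero _ hX) (red_fq_ne_zero R q)

include hθ hJ hu hf in
/-- **the vertical pair, abstract core** (non-cuspidal points): `t` with an integral model `t_R`,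
`J t^m = E(t)`, `θ (w t) = t(q^q)`, `w u = f`, and `t ∉ 𝔫` if `m ≠ 0`. -/
theorem vert_abs (hwu : w u = f) (tR : LaurentSeries ↥R)
    (htR : coeffMap R.subtype tR = θ t) (hred : red R tR ≠ 0)
    (hwt : θ (w t) = qExpand K q (θ t))
    (m : ℕ) (Ec : Polynomial ℤ) (hrel : J * t ^ m = H15C.ev t Ec)
    (ϖ : ↥R) (e : ℕ) (ε : (↥R)ˣ) (he1 : 1 ≤ e) (he : ((q : ℕ) : ↥R) = (ε : ↥R) * ϖ ^ e)
    (P₁ P₂ : Ideal (Chart ↥R t))
    (h1 : ∀ y : Chart ↥R t, y ∈ P₁ → H8PB.InGm R (θ (y : F)))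
    (h2 : ∀ y : Chart ↥R t, y ∈ P₂ → H8PB.InGm R (θ (w (y : F))))
    (𝔫 : Ideal (Chart ↥R t)) (h𝔫 : 𝔫.IsPrime)
    (ht𝔫 : m ≠ 0 → ∀ y : Chart ↥R t, (y : F) = t → y ∉ 𝔫) :
    ∃ (a a' s s' : Chart ↥R t) (j : ℕ), 1 ≤ j ∧ s ∉ 𝔫 ∧ s' ∉ 𝔫 ∧ a ∉ P₁ ∧ a' ∉ P₂ ∧
      ((a : F) * a' = algebraMap ↥R F ϖ ^ j * (s * s')) := by
  have hyd : J * H15C.ev t (Polynomial.X ^ m) = H15C.ev t Ec := by
    rw [map_pow, H15C.ev_X]
    exact hrel
  have hfint : (H15C.ev J).IsIntegralElem f :=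
    integral_of_theta hθ J f (by rw [hJ, hf]; exact H15U.fq_integral q K)
  have huint : (H15C.ev J).IsIntegralElem u :=
    integral_of_theta hθ J u (by rw [hJ, hu]; exact H15U.uq_integral q K)
  obtain ⟨n₁, hn₁⟩ := clear_den t J f (Polynomial.X ^ m) Ec hyd hfint
  obtain ⟨n₂, hn₂⟩ := clear_den t J u (Polynomial.X ^ m) Ec hyd huint
  rw [map_pow, H15C.ev_X, ← pow_mul] at hn₁ hn₂
  obtain ⟨a, ha⟩ := exists_chart_of_integral (R := ↥R) t _ hn₁
  obtain ⟨a', ha'⟩ := exists_chart_of_integral (R := ↥R) t _ hn₂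
  obtain ⟨τ, hτ⟩ := exists_chart_t (R := ↥R) t
  obtain ⟨c, hc⟩ := H26DI.exists_chart_coe ↥R t ((ε : ↥R) ^ 12)
  obtain ⟨c', hc'⟩ := H26DI.exists_chart_coe ↥R t (((ε⁻¹ : (↥R)ˣ) : ↥R) ^ 12)
  have hcc' : c * c' = 1 := by
    apply Subtype.ext
    show (c : F) * (c' : F) = 1
    rw [hc, hc', ← map_mul, ← mul_pow, Units.mul_inv, one_pow, map_one]
  have hc𝔫 : c ∉ 𝔫 := by
    intro h
    apply h𝔫.ne_top
    rw [Ideal.eq_top_iff_one, ← hcc']
    exact 𝔫.mul_mem_right _ h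
  have hτpow : ∀ n : ℕ, τ ^ (m * n) ∉ 𝔫 := by
    intro n h
    rcases Nat.eq_zero_or_pos m with h0 | hpos
    · rw [h0, zero_mul, pow_zero] at h
      exact h𝔫.ne_top ((Ideal.eq_top_iff_one _).mpr h)
    · exact ht𝔫 (by omega) τ hτ (h𝔫.mem_of_pow_mem _ h)
  refine ⟨a, a', c * τ ^ (m * n₁), τ ^ (m * n₂), 12 * e, by omega, ?_, hτpow n₂, ?_, ?_, ?_⟩
  · intro h
    rcases h𝔫.mem_or_mem h with h' | h'
    · exact hc𝔫 h'
    · exact hτpow n₁ h'
  · -- `a ∉ P₁`
    intro haP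
    have h3 := h1 a haP
    rw [ha] at h3
    have h4 : θ (t ^ (m * n₁) * f) =
        coeffMap R.subtype (tR ^ (m * n₁) * H15U.fq ↥R q) := by
      rw [map_mul, map_pow, map_mul, map_pow, htR, H15U.coeffMap_fq, hf]
    rw [h4] at h3
    exact not_inGm R _ (red_pow_mul_fq_ne_zero R q tR hred _) h3
  · -- `a' ∉ P₂`
    intro haP
    have h3 := h2 a' haP
    rw [ha', map_mul, map_pow, hwu] at h3
    have h4 : θ ((w t) ^ (m * n₂) * f) =
        coeffMap R.subtype ((qExpand ↥R q tR) ^ (m * n₂) * H15U.fq ↥R q) := by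
      rw [map_mul, map_pow, map_mul, map_pow, coeffMap_qExpand, htR, H15U.coeffMap_fq, hf, hwt]
    rw [h4] at h3
    refine not_inGm R _ (red_pow_mul_fq_ne_zero R q _ ?_ _) h3
    intro h0
    apply hred
    have h5 : red R (qExpand ↥R q tR) = qExpand _ q (red R tR) := coeffMap_qExpand _ _ _
    rw [h5] at h0
    exact qExpand_injective q (h0.trans (map_zero _).symm)
  · -- the equation
    rw [ha, ha']
    have h5 : (u * f : F) = (q : F) ^ 12 := H15C.uf_eq q θ hθ u f hu hf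
    have h6 : ((q : ℕ) : F) = algebraMap ↥R F (((ε : ↥R)) * ϖ ^ e) := by
      rw [← he, map_natCast]
    have h7 : ((c * τ ^ (m * n₁) : Chart ↥R t) : F) = algebraMap ↥R F ((ε : ↥R) ^ 12) *
        t ^ (m * n₁) := by
      show (c : F) * (τ : F) ^ (m * n₁) = _
      rw [hc, hτ]
    have h8 : ((τ ^ (m * n₂) : Chart ↥R t) : F) = t ^ (m * n₂) := by
      show (τ : F) ^ (m * n₂) = _
      rw [hτ]
    rw [h7, h8]
    calc t ^ (m * n₁) * f * (t ^ (m * n₂) * u)
        = t ^ (m * n₁) * t ^ (m * n₂) * (u * f) := by ring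
      _ = t ^ (m * n₁) * t ^ (m * n₂) * (algebraMap ↥R F (((ε : ↥R)) * ϖ ^ e)) ^ 12 := by
          rw [h5, h6]
      _ = _ := by
          rw [map_mul, map_pow, map_pow]
          ring

end core

end H15V

end
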